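/-
S55 (Poitou–Tate long-haul), GLOBAL FINITE-LEVEL DICTIONARY, abstract part.
For a surjection `π : G → Γ` of groups and a representation `M` of `G` on which `ker π` acts
trivially: the pushed-forward representation of `Γ` on the same carrier, inflation of low-degree
inhomogeneous cochains along `π`, compatibility with the differentials `d₀₁ d₁₂ d₂₃`, and descent
of `ker π`-invariant cochains.  Explicit cochains only; no category theory.
-/
import Mathlib

set_option autoImplicit false
set_option linter.unusedSectionVars false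

namespace Fermat.Agent.Lib.PT

open groupCohomology

universe u

section pushRep

variable {k G Γ : Type u} [CommRing k] [Group G] [Group Γ] (π : G →* Γ)
  (hπ : Function.Surjective π) (M : Rep k G) (hM : ∀ s ∈ π.ker, M.ρ s = 1)

include hM in
/-- Elements of `G` with the same image in `Γ` act in the same way on `M`. -/
lemma pta_rho_eq_of_map_eq {g h : G} (hgh : π g = π h) : M.ρ g = M.ρ h := by
  have h1 : h⁻¹ * g ∈ π.ker := by
    rw [MonoidHom.mem_ker, map_mul, map_inv, hgh, inv_mul_cancel]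
  have h2 := hM _ h1
  calc M.ρ g = M.ρ (h * (h⁻¹ * g)) := by rw [mul_inv_cancel_left]
    _ = M.ρ h * M.ρ (h⁻¹ * g) := map_mul _ _ _
    _ = M.ρ h := by rw [h2, mul_one]

/-- The action of `Γ` on the carrier of `M`, through any set-theoretic section of `π`. -/
noncomputable def pta_pushRho : Representation k Γ M.V where
  toFun γ := M.ρ (Function.surjInv hπ γ)
  map_one' := by
    have : π (Function.surjInv hπ 1) = π 1 := by rw [Function.surjInv_eq hπ, map_one]
    rw [pta_rho_eq_of_map_eq π M hM this, map_one]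
  map_mul' a b := by
    have : π (Function.surjInv hπ (a * b)) = π (Function.surjInv hπ a * Function.surjInv hπ b) := by
      rw [map_mul, Function.surjInv_eq hπ, Function.surjInv_eq hπ, Function.surjInv_eq hπ]
    rw [pta_rho_eq_of_map_eq π M hM this, map_mul]

lemma pta_pushRho_apply (g : G) : pta_pushRho π hπ M hM (π g) = M.ρ g :=
  pta_rho_eq_of_map_eq π M hM (Function.surjInv_eq hπ (π g))

/-- `M` as a representation of `Γ`. -/
noncomputable abbrev pta_pushRep : Rep k Γ := Rep.of (pta_pushRho π hπ M hM)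

lemma pta_pushRep_rho_apply (g : G) (m : M.V) :
    (pta_pushRep π hπ M hM).ρ (π g) m = M.ρ g m := by
  show pta_pushRho π hπ M hM (π g) m = _
  rw [pta_pushRho_apply]

end pushRep

section inflDefs

variable {G Γ : Type*} [Group G] [Group Γ] (π : G →* Γ) (hπ : Function.Surjective π)

/-- inflation of 1-cochains -/
def pta_infl₁ {X : Type*} (x : Γ → X) : G → X := fun g => x (π g)

/-- inflation of 2-cochains -/
def pta_infl₂ {X : Type*} (x : Γ × Γ → X) : G × G → X := fun g => x (π g.1, π g.2)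

/-- inflation of 3-cochains -/
def pta_infl₃ {X : Type*} (x : Γ × Γ × Γ → X) : G × G × G → X :=
  fun g => x (π g.1, π g.2.1, π g.2.2)

@[simp] lemma pta_infl₁_apply {X : Type*} (x : Γ → X) (g : G) : pta_infl₁ π x g = x (π g) := rfl

@[simp] lemma pta_infl₂_apply {X : Type*} (x : Γ × Γ → X) (g h : G) :
    pta_infl₂ π x (g, h) = x (π g, π h) := rfl

@[simp] lemma pta_infl₃_apply {X : Type*} (x : Γ × Γ × Γ → X) (g h j : G) :
    pta_infl₃ π x (g, h, j) = x (π g, π h, π j) := rfl

include hπ in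
lemma pta_infl₁_injective {X : Type*} : Function.Injective (pta_infl₁ (X := X) π) := by
  intro x y h
  funext γ
  obtain ⟨g, rfl⟩ := hπ γ
  exact congrFun h g

include hπ in
lemma pta_infl₂_injective {X : Type*} : Function.Injective (pta_infl₂ (X := X) π) := by
  intro x y h
  funext ⟨γ, δ⟩
  obtain ⟨g, rfl⟩ := hπ γ
  obtain ⟨g', rfl⟩ := hπ δ
  exact congrFun h (g, g')

end inflDefs

section inflation

variable {k G Γ : Type u} [CommRing k] [Group G] [Group Γ] (π : G →* Γ)
  (hπ : Function.Surjective π) (M : Rep k G) (hM : ∀ s ∈ π.ker, M.ρ s = 1)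

/-- inflation commutes with `d₀₁` -/
lemma pta_infl₁_d₀₁ (m : M.V) :
    pta_infl₁ π ((d₀₁ (pta_pushRep π hπ M hM)).hom m) = (d₀₁ M).hom m := by
  funext g
  simp only [pta_infl₁_apply, d₀₁_hom_apply]
  rw [pta_pushRep_rho_apply]

/-- inflation commutes with `d₁₂` -/
lemma pta_infl₂_d₁₂ (x : Γ → M.V) :
    pta_infl₂ π ((d₁₂ (pta_pushRep π hπ M hM)).hom x) = (d₁₂ M).hom (pta_infl₁ π x) := by
  funext ⟨g, h⟩
  simp only [pta_infl₂_apply, d₁₂_hom_apply, pta_infl₁_apply, map_mul]
  rw [pta_pushRep_rho_apply]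

/-- inflation commutes with `d₂₃` -/
lemma pta_infl₃_d₂₃ (x : Γ × Γ → M.V) :
    pta_infl₃ π ((d₂₃ (pta_pushRep π hπ M hM)).hom x) = (d₂₃ M).hom (pta_infl₂ π x) := by
  funext ⟨g, h, j⟩
  simp only [pta_infl₃_apply, d₂₃_hom_apply, pta_infl₂_apply, map_mul]
  rw [pta_pushRep_rho_apply]

include hπ in
/-- a cochain on `Γ` is a 1-cocycle iff its inflation is -/
lemma pta_infl₁_mem_cocycles₁_iff (x : Γ → M.V) :
    pta_infl₁ π x ∈ cocycles₁ M ↔ x ∈ cocycles₁ (pta_pushRep π hπ M hM) := by
  rw [mem_cocycles₁_def, mem_cocycles₁_def]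
  constructor
  · intro h a b
    obtain ⟨g, rfl⟩ := hπ a
    obtain ⟨g', rfl⟩ := hπ b
    have := h g g'
    simp only [pta_infl₁_apply, map_mul] at this
    rw [pta_pushRep_rho_apply]
    exact this
  · intro h g g'
    have := h (π g) (π g')
    rw [pta_pushRep_rho_apply] at this
    simp only [pta_infl₁_apply, map_mul]
    exact this

include hπ in
/-- a cochain on `Γ × Γ` is a 2-cocycle iff its inflation is -/
lemma pta_infl₂_mem_cocycles₂_iff (x : Γ × Γ → M.V) :
    pta_infl₂ π x ∈ cocycles₂ M ↔ x ∈ cocycles₂ (pta_pushRep π hπ M hM) := by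
  rw [mem_cocycles₂_def, mem_cocycles₂_def]
  constructor
  · intro h a b c
    obtain ⟨g, rfl⟩ := hπ a
    obtain ⟨g', rfl⟩ := hπ b
    obtain ⟨g'', rfl⟩ := hπ c
    have := h g g' g''
    simp only [pta_infl₂_apply, map_mul] at this
    rw [pta_pushRep_rho_apply]
    exact this
  · intro h g g' g''
    have := h (π g) (π g') (π g'')
    rw [pta_pushRep_rho_apply] at this
    simp only [pta_infl₂_apply, map_mul]
    exact this

end inflation

section descent

variable {G Γ : Type*} [Group G] [Group Γ] (π : G →* Γ) (hπ : Function.Surjective π)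

/-- right-invariance of a 1-cochain under `ker π` -/
def pta_RightInv₁ {X : Type*} (f : G → X) : Prop := ∀ g s : G, s ∈ π.ker → f (g * s) = f g

/-- right-invariance of a 2-cochain under `ker π` in both variables -/
def pta_RightInv₂ {X : Type*} (f : G × G → X) : Prop :=
  ∀ g g' s s' : G, s ∈ π.ker → s' ∈ π.ker → f (g * s, g' * s') = f (g, g')

lemma pta_rightInv₁_infl {X : Type*} (x : Γ → X) : pta_RightInv₁ π (pta_infl₁ π x) := by
  intro g s hs
  simp only [pta_infl₁_apply, map_mul, MonoidHom.mem_ker.mp hs, mul_one]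

lemma pta_rightInv₂_infl {X : Type*} (x : Γ × Γ → X) : pta_RightInv₂ π (pta_infl₂ π x) := by
  intro g g' s s' hs hs'
  simp only [pta_infl₂_apply, map_mul, MonoidHom.mem_ker.mp hs, MonoidHom.mem_ker.mp hs', mul_one]

/-- A right-invariant 1-cochain only depends on the image in `Γ`. -/
lemma pta_RightInv₁.eq_of_map_eq {X : Type*} {f : G → X} (hf : pta_RightInv₁ π f) {g h : G}
    (hgh : π g = π h) : f g = f h := by
  have h1 : h⁻¹ * g ∈ π.ker := by
    rw [MonoidHom.mem_ker, map_mul, map_inv, hgh, inv_mul_cancel]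
  have := hf h (h⁻¹ * g) h1
  rwa [mul_inv_cancel_left] at this

/-- A right-invariant 2-cochain only depends on the images in `Γ × Γ`. -/
lemma pta_RightInv₂.eq_of_map_eq {X : Type*} {f : G × G → X} (hf : pta_RightInv₂ π f)
    {g h g' h' : G} (hgh : π g = π h) (hgh' : π g' = π h') : f (g, g') = f (h, h') := by
  have h1 : h⁻¹ * g ∈ π.ker := by
    rw [MonoidHom.mem_ker, map_mul, map_inv, hgh, inv_mul_cancel]
  have h2 : h'⁻¹ * g' ∈ π.ker := by
    rw [MonoidHom.mem_ker, map_mul, map_inv, hgh', inv_mul_cancel]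
  have := hf h h' (h⁻¹ * g) (h'⁻¹ * g') h1 h2
  rwa [mul_inv_cancel_left, mul_inv_cancel_left] at this

/-- descent of a right-invariant 1-cochain -/
noncomputable def pta_desc₁ {X : Type*} (f : G → X) : Γ → X :=
  fun γ => f (Function.surjInv hπ γ)

/-- descent of a right-invariant 2-cochain -/
noncomputable def pta_desc₂ {X : Type*} (f : G × G → X) : Γ × Γ → X :=
  fun γ => f (Function.surjInv hπ γ.1, Function.surjInv hπ γ.2)

lemma pta_infl₁_desc₁ {X : Type*} {f : G → X} (hf : pta_RightInv₁ π f) :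
    pta_infl₁ π (pta_desc₁ π hπ f) = f := by
  funext g
  exact hf.eq_of_map_eq π (Function.surjInv_eq hπ (π g))

lemma pta_infl₂_desc₂ {X : Type*} {f : G × G → X} (hf : pta_RightInv₂ π f) :
    pta_infl₂ π (pta_desc₂ π hπ f) = f := by
  funext ⟨g, g'⟩
  exact hf.eq_of_map_eq π (Function.surjInv_eq hπ (π g)) (Function.surjInv_eq hπ (π g'))

lemma pta_desc₁_infl₁ {X : Type*} (x : Γ → X) : pta_desc₁ π hπ (pta_infl₁ π x) = x := by
  funext γ
  simp only [pta_desc₁, pta_infl₁_apply, Function.surjInv_eq hπ]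

lemma pta_desc₂_infl₂ {X : Type*} (x : Γ × Γ → X) : pta_desc₂ π hπ (pta_infl₂ π x) = x := by
  funext ⟨γ, δ⟩
  simp only [pta_desc₂, pta_infl₂_apply, Function.surjInv_eq hπ]

include hπ in
/-- every right-invariant 1-cochain is an inflation -/
lemma pta_RightInv₁.exists_infl {X : Type*} {f : G → X} (hf : pta_RightInv₁ π f) :
    ∃ x : Γ → X, pta_infl₁ π x = f :=
  ⟨pta_desc₁ π hπ f, pta_infl₁_desc₁ π hπ hf⟩

include hπ in
/-- every right-invariant 2-cochain is an inflation -/
lemma pta_RightInv₂.exists_infl {X : Type*} {f : G × G → X} (hf : pta_RightInv₂ π f) :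
    ∃ x : Γ × Γ → X, pta_infl₂ π x = f :=
  ⟨pta_desc₂ π hπ f, pta_infl₂_desc₂ π hπ hf⟩

end descent

end Fermat.Agent.Lib.PT
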