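/-
S55 (Poitou–Tate long-haul), GLOBAL FINITE-LEVEL DICTIONARY, field part.
Levels for `(S, M)`: finite Galois subfields `F ⊆ Q̄`, unramified outside `S`, whose fixing subgroup
acts trivially on `M`.  Stability of `IsUnramifiedOutside` under conjugation, normal closure and
suprema; the canonical level `fixedField (ker M.ρ)`; every `S`-level-constant cochain is constant
modulo a level.
-/
import Mathlib
import Fermat.Prelude.Def_GroupCohomology_ContinuousUnramified
import Fermat.Agent.Lib.Frey.OrdInertia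
import Fermat.Agent.Lib.CFT.RamBridgeVal
import Fermat.Agent.Lib.CFT.RamBridge
import Fermat.Agent.Lib.PT.GLevelAbs

set_option autoImplicit false
set_option linter.unusedSectionVars false

namespace Fermat.Agent.Lib.PT

open groupCohomology IntermediateField Fermat.Agent.Lib.Frey Fermat.Agent.Lib.CFT

local notation "Qbar" => AlgebraicClosure ℚ
local notation "GQ" => (AlgebraicClosure ℚ ≃ₐ[ℚ] AlgebraicClosure ℚ)

attribute [local instance] cfg_isGalois_QBar

section inertiaConj

variable {K L : Type*} [Field K] [Field L] [Algebra K L]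

/-- `g⁻¹(A)` as a valuation subring. -/
def pta_comapVS (A : ValuationSubring L) (g : L ≃ₐ[K] L) : ValuationSubring L :=
  A.comap (g : L →+* L)

lemma pta_mem_comapVS (A : ValuationSubring L) (g : L ≃ₐ[K] L) (x : L) :
    x ∈ pta_comapVS A g ↔ g x ∈ A := Iff.rfl

lemma pta_mem_nonunits_comapVS (A : ValuationSubring L) (g : L ≃ₐ[K] L) (x : L) :
    x ∈ (pta_comapVS A g).nonunits ↔ g x ∈ A.nonunits := by
  rw [ValuationSubring.mem_nonunits_iff_or, ValuationSubring.mem_nonunits_iff_or,
    pta_mem_comapVS, map_inv₀]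
  constructor
  · rintro (rfl | h)
    · exact Or.inl (map_zero g)
    · exact Or.inr h
  · rintro (h | h)
    · exact Or.inl ((map_eq_zero_iff g g.injective).mp h)
    · exact Or.inr h

lemma pta_liesOverPrime_comapVS (A : ValuationSubring L) (g : L ≃ₐ[K] L) (q : ℕ)
    (hA : A.LiesOverPrime q) : (pta_comapVS A g).LiesOverPrime q := by
  unfold ValuationSubring.LiesOverPrime at hA ⊢
  rw [pta_mem_nonunits_comapVS, map_natCast]
  exact hA

/-- Conjugation of inertia groups: `σ ∈ I(A) ⇒ g⁻¹ σ g ∈ I(g⁻¹ A)`. -/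
theorem pta_conj_mem_inertia (A : ValuationSubring L) (g σ : L ≃ₐ[K] L)
    (hσ : σ ∈ A.inertiaSubgroupIn K) :
    g⁻¹ * σ * g ∈ (pta_comapVS A g).inertiaSubgroupIn K := by
  obtain ⟨hD, hI⟩ := ford_inertia_spec A σ hσ
  have hD' : σ⁻¹ ∈ A.decompositionSubgroup K := inv_mem hD
  have h1 := ford_decomposition_mem A σ hD
  have h2 := ford_decomposition_mem A σ⁻¹ hD'
  have hdec : g⁻¹ * σ * g ∈ (pta_comapVS A g).decompositionSubgroup K := by
    apply cfg_mem_decompositionSubgroup
    · intro a ha
      rw [pta_mem_comapVS] at ha ⊢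
      show g (g⁻¹ (σ (g a))) ∈ A
      rw [show g (g⁻¹ (σ (g a))) = σ (g a) from g.apply_symm_apply _]
      exact h1 _ ha
    · intro a ha
      rw [pta_mem_comapVS] at ha ⊢
      have : (g⁻¹ * σ * g).symm a = g⁻¹ (σ⁻¹ (g a)) := by
        show (g⁻¹ * σ * g)⁻¹ a = _
        rw [mul_inv_rev, mul_inv_rev, inv_inv, ← mul_assoc]
        rfl
      rw [this, show g (g⁻¹ (σ⁻¹ (g a))) = σ⁻¹ (g a) from g.apply_symm_apply _]
      exact h2 _ ha
  apply cfg_mem_inertiaSubgroupIn _ _ hdec
  intro a ha
  rw [pta_mem_comapVS] at ha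
  rw [pta_mem_nonunits_comapVS, map_sub]
  show g (g⁻¹ (σ (g a))) - g a ∈ A.nonunits
  rw [show g (g⁻¹ (σ (g a))) = σ (g a) from g.apply_symm_apply _]
  exact hI _ ha

end inertiaConj

section unramMap

variable {S : Finset Nat.Primes}

/-- Conjugates of a field unramified outside `S` are unramified outside `S`. -/
theorem pta_isUnramifiedOutside_map {F : IntermediateField ℚ Qbar}
    (hF : F.IsUnramifiedOutside S) (g : GQ) :
    (F.map (g : Qbar →ₐ[ℚ] Qbar)).IsUnramifiedOutside S := by
  have := hF.1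
  refine ⟨inferInstance, fun q hq A hA σ hσ => ?_⟩
  rw [IntermediateField.mem_fixingSubgroup_iff]
  rintro y ⟨x, hx, rfl⟩
  have h1 := pta_conj_mem_inertia A g σ hσ
  have h2 := hF.2 q hq (pta_comapVS A g) (pta_liesOverPrime_comapVS A g q hA) h1
  rw [IntermediateField.mem_fixingSubgroup_iff] at h2
  have h3 := h2 x hx
  have h4 : g⁻¹ (σ (g x)) = x := h3
  have h5 : σ (g x) = g x := by
    have := congrArg g h4
    rwa [show g (g⁻¹ (σ (g x))) = σ (g x) from g.apply_symm_apply _] at this
  exact h5

/-- The Galois closure inside `Q̄`, as the compositum of all conjugates (avoids the two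
`ℚ`-algebra structures on a subfield). -/
noncomputable def pta_galClosure (F : IntermediateField ℚ Qbar) : IntermediateField ℚ Qbar :=
  ⨆ g : GQ, F.map (g : Qbar →ₐ[ℚ] Qbar)

lemma pta_map_le_galClosure (F : IntermediateField ℚ Qbar) (g : GQ) :
    F.map (g : Qbar →ₐ[ℚ] Qbar) ≤ pta_galClosure F :=
  le_iSup (fun g : GQ => F.map (g : Qbar →ₐ[ℚ] Qbar)) g

lemma pta_le_galClosure (F : IntermediateField ℚ Qbar) : F ≤ pta_galClosure F := by
  intro x hx
  exact pta_map_le_galClosure F 1 ⟨x, hx, rfl⟩

lemma pta_galClosure_le {F K : IntermediateField ℚ Qbar}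
    (h : ∀ g : GQ, F.map (g : Qbar →ₐ[ℚ] Qbar) ≤ K) : pta_galClosure F ≤ K :=
  iSup_le h

/-- The Galois closure is stable under `Gal(Q̄/ℚ)`. -/
lemma pta_galClosure_stable (F : IntermediateField ℚ Qbar) (σ : GQ) (x : Qbar)
    (hx : x ∈ pta_galClosure F) : σ x ∈ pta_galClosure F := by
  have h1 : (pta_galClosure F).map (σ : Qbar →ₐ[ℚ] Qbar) ≤ pta_galClosure F := by
    unfold pta_galClosure
    rw [IntermediateField.map_iSup]
    refine iSup_le fun g => ?_
    rw [IntermediateField.map_map]
    exact le_iSup (fun g : GQ => F.map (g : Qbar →ₐ[ℚ] Qbar)) (σ * g)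
  exact h1 ⟨x, hx, rfl⟩

lemma pta_galClosure_eq_normalClosure (F : IntermediateField ℚ Qbar) :
    pta_galClosure F = IntermediateField.normalClosure ℚ F Qbar :=
  (IntermediateField.normalClosure_def'' F).symm

instance pta_galClosure_finiteDimensional (F : IntermediateField ℚ Qbar)
    [FiniteDimensional ℚ F] : FiniteDimensional ℚ (pta_galClosure F) := by
  rw [pta_galClosure_eq_normalClosure]
  infer_instance

/-- The Galois closure of a field unramified outside `S` is unramified outside `S`. -/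
theorem pta_isUnramifiedOutside_galClosure {F : IntermediateField ℚ Qbar}
    (hF : F.IsUnramifiedOutside S) : (pta_galClosure F).IsUnramifiedOutside S := by
  have := hF.1
  refine ⟨inferInstance, fun q hq A hA σ hσ => ?_⟩
  have key : pta_galClosure F ≤ IntermediateField.fixedField (Subgroup.zpowers σ) := by
    refine pta_galClosure_le fun g => ?_
    rw [IntermediateField.le_iff_le, Subgroup.zpowers_le]
    exact (pta_isUnramifiedOutside_map hF g).2 q hq A hA hσ
  rw [IntermediateField.le_iff_le] at key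
  exact key (Subgroup.mem_zpowers σ)

end unramMap

section levels

variable {k : Type} [CommRing k] (S : Finset Nat.Primes) (M : Rep k GQ)

/-- A *level* for `(S, M)`: a finite Galois subfield `F ⊆ Q̄` (normality phrased as stability under
`Gal(Q̄/ℚ)`, same shape as `ptg_IsStable`), unramified outside `S`, whose fixing subgroup acts
trivially on `M`. -/
structure pta_IsLevel (F : IntermediateField ℚ Qbar) : Prop where
  unram : F.IsUnramifiedOutside S
  stable : ∀ σ : GQ, ∀ x ∈ F, σ x ∈ F
  triv : F.fixingSubgroup ≤ M.ρ.ker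

variable {S M}

lemma pta_IsLevel.finiteDimensional {F : IntermediateField ℚ Qbar} (hF : pta_IsLevel S M F) :
    FiniteDimensional ℚ F := hF.unram.1

/-- The fixing subgroup of a stable field is normal. -/
lemma pta_normal_fixingSubgroup {F : IntermediateField ℚ Qbar}
    (hF : ∀ σ : GQ, ∀ x ∈ F, σ x ∈ F) : F.fixingSubgroup.Normal := by
  refine ⟨fun n hn g => ?_⟩
  rw [IntermediateField.mem_fixingSubgroup_iff] at hn ⊢
  intro x hx
  have h1 := hn (g⁻¹ x) (hF g⁻¹ x hx)
  show g (n (g⁻¹ x)) = x
  rw [h1]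
  exact g.apply_symm_apply x

lemma pta_IsLevel.normal {F : IntermediateField ℚ Qbar} (hF : pta_IsLevel S M F) :
    F.fixingSubgroup.Normal := pta_normal_fixingSubgroup hF.stable

/-- The fixing subgroup of a finite extension has finite index. -/
lemma pta_finiteIndex_fixingSubgroup (F : IntermediateField ℚ Qbar) [FiniteDimensional ℚ F] :
    F.fixingSubgroup.FiniteIndex := by
  have hopen : IsOpen (F.fixingSubgroup : Set GQ) := F.fixingSubgroup_isOpen
  have : Finite (GQ ⧸ F.fixingSubgroup) := Subgroup.quotient_finite_of_isOpen _ hopen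
  exact Subgroup.finiteIndex_of_finite_quotient

lemma pta_IsLevel.finiteIndex {F : IntermediateField ℚ Qbar} (hF : pta_IsLevel S M F) :
    F.fixingSubgroup.FiniteIndex := by
  have := hF.finiteDimensional
  exact pta_finiteIndex_fixingSubgroup F

/-- The compositum of two stable fields is stable. -/
lemma pta_stable_sup {F F' : IntermediateField ℚ Qbar} (hF : ∀ σ : GQ, ∀ x ∈ F, σ x ∈ F)
    (hF' : ∀ σ : GQ, ∀ x ∈ F', σ x ∈ F') : ∀ σ : GQ, ∀ x ∈ F ⊔ F', σ x ∈ F ⊔ F' := by
  intro σ x hx
  have h1 : (F ⊔ F').map (σ : Qbar →ₐ[ℚ] Qbar) ≤ F ⊔ F' := by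
    rw [IntermediateField.map_sup]
    refine sup_le_sup ?_ ?_
    · rintro y ⟨z, hz, rfl⟩; exact hF σ z hz
    · rintro y ⟨z, hz, rfl⟩; exact hF' σ z hz
  exact h1 ⟨x, hx, rfl⟩

/-- Levels are closed under composita (first field carries the triviality). -/
lemma pta_IsLevel.sup_of_stable {F F' : IntermediateField ℚ Qbar} (hF : pta_IsLevel S M F)
    (hF' : F'.IsUnramifiedOutside S) (hst : ∀ σ : GQ, ∀ x ∈ F', σ x ∈ F') :
    pta_IsLevel S M (F ⊔ F') where
  unram := hF.unram.sup hF'
  stable := pta_stable_sup hF.stable hst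
  triv := (IntermediateField.fixingSubgroup_antitone le_sup_left).trans hF.triv

lemma pta_IsLevel.sup {F F' : IntermediateField ℚ Qbar} (hF : pta_IsLevel S M F)
    (hF' : pta_IsLevel S M F') : pta_IsLevel S M (F ⊔ F') :=
  hF.sup_of_stable hF'.unram hF'.stable

/-- Enlarging a level by any field unramified outside `S` (passing to the Galois closure). -/
lemma pta_IsLevel.sup_galClosure {F F' : IntermediateField ℚ Qbar} (hF : pta_IsLevel S M F)
    (hF' : F'.IsUnramifiedOutside S) : pta_IsLevel S M (F ⊔ pta_galClosure F') :=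
  hF.sup_of_stable (pta_isUnramifiedOutside_galClosure hF') (pta_galClosure_stable F')

lemma pta_le_sup_galClosure (F F' : IntermediateField ℚ Qbar) : F' ≤ F ⊔ pta_galClosure F' :=
  (pta_le_galClosure F').trans le_sup_right

/-- A level for `M` is a level for any representation on which its fixing subgroup acts
trivially. -/
lemma pta_IsLevel.of_triv {k' : Type} [CommRing k'] {M' : Rep k' GQ}
    {F : IntermediateField ℚ Qbar} (hF : pta_IsLevel S M F)
    (h : F.fixingSubgroup ≤ M'.ρ.ker) : pta_IsLevel S M' F :=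
  ⟨hF.unram, hF.stable, h⟩

lemma pta_IsLevel.mono {S' : Finset Nat.Primes} (h : S ⊆ S') {F : IntermediateField ℚ Qbar}
    (hF : pta_IsLevel S M F) : pta_IsLevel S' M F :=
  ⟨hF.unram.mono h, hF.stable, hF.triv⟩

end levels

section canonical

variable {k : Type} [CommRing k] {S : Finset Nat.Primes} {M : Rep k GQ}

/-- If every vector of a finitely generated module is fixed by the fixing subgroup of a finite
extension, the whole module is fixed by the fixing subgroup of one finite extension. -/
theorem pta_exists_finite_triv [Module.Finite k M]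
    (hsm : ∀ m : M, ∃ F : IntermediateField ℚ Qbar, FiniteDimensional ℚ F ∧
      ∀ s ∈ F.fixingSubgroup, M.ρ s m = m) :
    ∃ F : IntermediateField ℚ Qbar, FiniteDimensional ℚ F ∧ F.fixingSubgroup ≤ M.ρ.ker := by
  obtain ⟨T, hT⟩ := (Module.finite_def.mp (inferInstance : Module.Finite k M))
  choose Fm hFm1 hFm2 using hsm
  refine ⟨⨆ m : T, Fm m.1, ?_, ?_⟩
  · have : ∀ m : T, FiniteDimensional ℚ (Fm m.1) := fun m => hFm1 m.1
    exact IntermediateField.finiteDimensional_iSup_of_finite
  · intro s hs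
    rw [MonoidHom.mem_ker]
    apply LinearMap.ext_on hT
    intro m hm
    have h1 : s ∈ (Fm m).fixingSubgroup :=
      IntermediateField.fixingSubgroup_antitone (le_iSup (fun m : T => Fm m.1) ⟨m, hm⟩) hs
    simpa using hFm2 m s h1

/-- The canonical field of definition of `M`: the fixed field of `ker M.ρ`. -/
noncomputable def pta_kerField (M : Rep k GQ) : IntermediateField ℚ Qbar :=
  IntermediateField.fixedField M.ρ.ker

lemma pta_kerField_stable (M : Rep k GQ) : ∀ σ : GQ, ∀ x ∈ pta_kerField M, σ x ∈ pta_kerField M := by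
  intro σ x hx
  unfold pta_kerField at hx ⊢
  rw [IntermediateField.mem_fixedField_iff] at hx ⊢
  intro h hh
  have h1 : σ⁻¹ * h * σ ∈ M.ρ.ker := by
    have := (inferInstance : M.ρ.ker.Normal).conj_mem h hh σ⁻¹
    simpa using this
  have h2 := hx _ h1
  have h3 : σ⁻¹ (h (σ x)) = x := h2
  have := congrArg σ h3
  rwa [show σ (σ⁻¹ (h (σ x))) = h (σ x) from σ.apply_symm_apply _] at this

lemma pta_kerField_le {F : IntermediateField ℚ Qbar} (hF : F.fixingSubgroup ≤ M.ρ.ker) :
    pta_kerField M ≤ F := by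
  have h1 : IntermediateField.fixedField M.ρ.ker ≤
      IntermediateField.fixedField F.fixingSubgroup := by
    intro x hx
    rw [IntermediateField.mem_fixedField_iff] at hx ⊢
    exact fun g hg => hx g (hF hg)
  rwa [InfiniteGalois.fixedField_fixingSubgroup] at h1

lemma pta_fixingSubgroup_kerField {F : IntermediateField ℚ Qbar} [FiniteDimensional ℚ F]
    (hF : F.fixingSubgroup ≤ M.ρ.ker) : (pta_kerField M).fixingSubgroup = M.ρ.ker := by
  have hopen : IsOpen (M.ρ.ker : Set GQ) := Subgroup.isOpen_mono hF F.fixingSubgroup_isOpen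
  have hclosed : IsClosed (M.ρ.ker : Set GQ) := Subgroup.isClosed_of_isOpen _ hopen
  exact InfiniteGalois.fixingSubgroup_fixedField (⟨M.ρ.ker, hclosed⟩ : ClosedSubgroup GQ)

/-- **Existence of levels** under exactly the hypotheses of the Poitou–Tate statement: the field
cut out by `ker M.ρ` is a level. -/
theorem pta_isLevel_kerField [Module.Finite k M]
    (hsm : ∀ m : M, ∃ F : IntermediateField ℚ Qbar, FiniteDimensional ℚ F ∧
      ∀ s ∈ F.fixingSubgroup, M.ρ s m = m)
    (hMur : ∀ q : Nat.Primes, q ∉ S → ∀ A : ValuationSubring Qbar,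
      A.LiesOverPrime (q : ℕ) → ∀ g ∈ A.inertiaSubgroupIn ℚ, M.ρ g = 1) :
    pta_IsLevel S M (pta_kerField M) := by
  obtain ⟨F, hFfin, hF⟩ := pta_exists_finite_triv hsm
  have hfix := pta_fixingSubgroup_kerField hF
  refine ⟨⟨?_, fun q hq A hA σ hσ => ?_⟩, pta_kerField_stable M, hfix.le⟩
  · exact FiniteDimensional.of_injective
      (IntermediateField.inclusion (pta_kerField_le hF)).toLinearMap
      (IntermediateField.inclusion_injective (pta_kerField_le hF))
  · rw [hfix, MonoidHom.mem_ker]
    exact hMur q hq A hA σ hσ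

theorem pta_exists_isLevel [Module.Finite k M]
    (hsm : ∀ m : M, ∃ F : IntermediateField ℚ Qbar, FiniteDimensional ℚ F ∧
      ∀ s ∈ F.fixingSubgroup, M.ρ s m = m)
    (hMur : ∀ q : Nat.Primes, q ∉ S → ∀ A : ValuationSubring Qbar,
      A.LiesOverPrime (q : ℕ) → ∀ g ∈ A.inertiaSubgroupIn ℚ, M.ρ g = 1) :
    ∃ F, pta_IsLevel S M F := ⟨_, pta_isLevel_kerField hsm hMur⟩

end canonical

section levelConstant

variable {k : Type} [CommRing k] {S : Finset Nat.Primes} {M : Rep k GQ}

/-- Every `S`-level-constant 1-cochain is right-invariant modulo a level (containing any given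
level). -/
theorem pta_levelConstantS₁_iff {X : Type*} {F₀ : IntermediateField ℚ Qbar}
    (h₀ : pta_IsLevel S M F₀) (f : GQ → X) :
    IsLevelConstantS₁ S f ↔ ∃ F, pta_IsLevel S M F ∧ F₀ ≤ F ∧
      ∀ g s, s ∈ F.fixingSubgroup → f (g * s) = f g := by
  constructor
  · rintro ⟨F', hF', h⟩
    refine ⟨F₀ ⊔ pta_galClosure F', h₀.sup_galClosure hF', le_sup_left, fun g s hs => ?_⟩
    exact h g s (IntermediateField.fixingSubgroup_antitone (pta_le_sup_galClosure F₀ F') hs)
  · rintro ⟨F, hF, -, h⟩
    exact ⟨F, hF.unram, h⟩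

/-- Every `S`-level-constant 2-cochain is right-invariant modulo a level (containing any given
level). -/
theorem pta_levelConstantS₂_iff {X : Type*} {F₀ : IntermediateField ℚ Qbar}
    (h₀ : pta_IsLevel S M F₀) (f : GQ × GQ → X) :
    IsLevelConstantS₂ S f ↔ ∃ F, pta_IsLevel S M F ∧ F₀ ≤ F ∧
      ∀ g g' s s', s ∈ F.fixingSubgroup → s' ∈ F.fixingSubgroup →
        f (g * s, g' * s') = f (g, g') := by
  constructor
  · rintro ⟨F', hF', h⟩
    refine ⟨F₀ ⊔ pta_galClosure F', h₀.sup_galClosure hF', le_sup_left,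
      fun g g' s s' hs hs' => ?_⟩
    exact h g g' s s'
      (IntermediateField.fixingSubgroup_antitone (pta_le_sup_galClosure F₀ F') hs)
      (IntermediateField.fixingSubgroup_antitone (pta_le_sup_galClosure F₀ F') hs')
  · rintro ⟨F, hF, -, h⟩
    exact ⟨F, hF.unram, h⟩

end levelConstant

end Fermat.Agent.Lib.PT
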