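/-
S55 (Poitou–Tate long-haul), GLOBAL DICTIONARY: the cyclotomic character and the dual twist.
* inertia groups at `q ≠ p` fix the `p`-th roots of unity, so `cycloChar p` is unramified
  outside `p`;
* `ℚ(ζ_p)` is a finite Galois subfield unramified outside any `S ∋ p`, with fixing subgroup
  `ker (cycloChar p)`;
* the hypotheses `hsm`, `hMur` of the Poitou–Tate statement pass from `M` to
  `M.dualTwist (cycloChar p)`; a common level for `M`, `M.dualTwist (cycloChar p)` and `μ_p`.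
-/
import Mathlib
import Fermat.Prelude.Def_GroupCohomology_ContinuousUnramified
import Fermat.Agent.Lib.CFT.GalRed
import Fermat.Agent.Lib.PT.GLevelField

set_option autoImplicit false
set_option linter.unusedSectionVars false

namespace Fermat.Agent.Lib.PT

open groupCohomology IntermediateField ExtCitation Fermat.Agent.Lib.Frey Fermat.Agent.Lib.CFT

local notation "Qbar" => AlgebraicClosure ℚ
local notation "GQ" => (AlgebraicClosure ℚ ≃ₐ[ℚ] AlgebraicClosure ℚ)

section cyclo

variable {p : ℕ} [Fact p.Prime]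

lemma pta_cycloChar_eq_one_iff {ζ : Qbar} (hζ : IsPrimitiveRoot ζ p) (σ : GQ) :
    cycloChar p σ = 1 ↔ σ ζ = ζ :=
  cff_chi_eq_one_iff hζ σ

lemma pta_exists_primitiveRoot (p : ℕ) [Fact p.Prime] : ∃ ζ : Qbar, IsPrimitiveRoot ζ p := by
  have : NeZero p := ⟨(Fact.out : p.Prime).ne_zero⟩
  exact HasEnoughRootsOfUnity.exists_primitiveRoot Qbar p

/-- A valuation subring over `q` does not contain `p` in its maximal ideal, `p ≠ q` primes. -/
lemma pta_not_mem_nonunits_of_ne {q : ℕ} (hq : q.Prime) (hqp : q ≠ p) (A : ValuationSubring Qbar)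
    (hA : A.LiesOverPrime q) : (p : Qbar) ∉ A.nonunits := by
  intro hpA
  have hp : p.Prime := Fact.out
  have hcop : Nat.Coprime p q := (Nat.coprime_primes hp hq).2 (Ne.symm hqp)
  have hb : (p : ℤ) * Nat.gcdA p q + (q : ℤ) * Nat.gcdB p q = 1 := by
    have := Nat.gcd_eq_gcd_ab p q
    rw [hcop.gcd_eq_one] at this
    exact_mod_cast this.symm
  have h1 : ((p : Qbar)) * ((Nat.gcdA p q : ℤ) : Qbar) + (q : Qbar) * ((Nat.gcdB p q : ℤ) : Qbar)
      = 1 := by
    exact_mod_cast congrArg (fun z : ℤ => (z : Qbar)) hb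
  have hint : ∀ z : ℤ, A.valuation (z : Qbar) ≤ 1 := fun z =>
    (A.valuation_le_one_iff _).2 (intCast_mem A z)
  have hv1 : A.valuation ((p : Qbar) * ((Nat.gcdA p q : ℤ) : Qbar)) < 1 := by
    rw [map_mul]
    exact mul_lt_one_of_nonneg_of_lt_one_left zero_le (A.mem_nonunits_iff.mp hpA) (hint _)
  have hv2 : A.valuation ((q : Qbar) * ((Nat.gcdB p q : ℤ) : Qbar)) < 1 := by
    rw [map_mul]
    exact mul_lt_one_of_nonneg_of_lt_one_left zero_le (A.mem_nonunits_iff.mp hA) (hint _)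
  have := A.valuation.map_add_lt hv1 hv2
  rw [h1, map_one] at this
  exact lt_irrefl _ this

/-- Inertia groups at `q ≠ p` fix the `p`-th roots of unity. -/
theorem pta_inertia_fixes_root {q : ℕ} (hq : q.Prime) (hqp : q ≠ p) (A : ValuationSubring Qbar)
    (hA : A.LiesOverPrime q) (σ : GQ) (hσ : σ ∈ A.inertiaSubgroupIn ℚ) {ζ : Qbar}
    (hζ : IsPrimitiveRoot ζ p) : σ ζ = ζ := by
  have hp : p.Prime := Fact.out
  by_contra hne
  -- `ζ` is a unit of `A`
  have hζp : ζ ^ p = 1 := hζ.pow_eq_one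
  have hζ0 : ζ ≠ 0 := hζ.ne_zero hp.ne_zero
  have hinv : ζ⁻¹ = ζ ^ (p - 1) := by
    apply inv_eq_of_mul_eq_one_right
    rw [← pow_succ', Nat.sub_add_cancel hp.pos]
    exact hζp
  have hζA : ζ ∈ A := by
    rcases A.mem_or_inv_mem ζ with h | h
    · exact h
    · have : ζ = (ζ⁻¹) ^ (p - 1) := by
        rw [inv_pow, ← hinv, inv_inv]
      rw [this]; exact pow_mem h _
  have hζinvA : ζ⁻¹ ∈ A := by rw [hinv]; exact pow_mem hζA _
  -- `μ = σ ζ / ζ` is a primitive root congruent to `1`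
  obtain ⟨-, hI⟩ := ford_inertia_spec A σ hσ
  have h1 : σ ζ - ζ ∈ A.nonunits := hI ζ hζA
  set μ : Qbar := σ ζ * ζ⁻¹ with hμdef
  have hμ1 : μ ≠ 1 := by
    intro h
    apply hne
    rw [hμdef, mul_inv_eq_one₀ hζ0] at h
    exact h
  have hμp : μ ^ p = 1 := by
    rw [hμdef, mul_pow, inv_pow, ← map_pow, hζp, map_one, inv_one, mul_one]
  have hμprim : IsPrimitiveRoot μ p := by
    rw [IsPrimitiveRoot.iff_orderOf]
    exact orderOf_eq_prime hμp hμ1
  have hv : A.valuation (μ - 1) < 1 := by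
    have : μ - 1 = (σ ζ - ζ) * ζ⁻¹ := by
      rw [hμdef, sub_mul, mul_inv_cancel₀ hζ0]
    rw [this, map_mul]
    exact mul_lt_one_of_nonneg_of_lt_one_left zero_le (A.mem_nonunits_iff.mp h1)
      ((A.valuation_le_one_iff _).2 hζinvA)
  have hμA : μ ∈ A := by
    have : μ = (μ - 1) + 1 := by ring
    rw [this]
    exact add_mem ((A.valuation_le_one_iff _).1 hv.le) (one_mem A)
  -- `p = ∑_{j<p} (1 - μ^j)` lies in the maximal ideal
  have hsum0 : ∑ j ∈ Finset.range p, μ ^ j = 0 := hμprim.geom_sum_eq_zero hp.one_lt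
  have hpsum : (p : Qbar) = ∑ j ∈ Finset.range p, (1 - μ ^ j) := by
    rw [Finset.sum_sub_distrib, hsum0, sub_zero, Finset.sum_const, Finset.card_range,
      nsmul_eq_mul, mul_one]
  have hterm : ∀ j ∈ Finset.range p, A.valuation (1 - μ ^ j) < 1 := by
    intro j _
    have h2 : 1 - μ ^ j = -((∑ i ∈ Finset.range j, μ ^ i) * (μ - 1)) := by
      rw [geom_sum_mul]; ring
    rw [h2, Valuation.map_neg, map_mul]
    have h3 : (∑ i ∈ Finset.range j, μ ^ i) ∈ A := sum_mem fun i _ => pow_mem hμA i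
    exact mul_lt_one_of_nonneg_of_lt_one_right ((A.valuation_le_one_iff _).2 h3) zero_le hv
  have hpA : (p : Qbar) ∈ A.nonunits := by
    rw [A.mem_nonunits_iff, hpsum]
    exact A.valuation.map_sum_lt one_ne_zero hterm
  exact pta_not_mem_nonunits_of_ne hq hqp A hA hpA

/-- `cycloChar p` is unramified outside `p`. -/
theorem pta_cycloChar_unramified {q : ℕ} (hq : q.Prime) (hqp : q ≠ p) (A : ValuationSubring Qbar)
    (hA : A.LiesOverPrime q) (σ : GQ) (hσ : σ ∈ A.inertiaSubgroupIn ℚ) : cycloChar p σ = 1 := by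
  obtain ⟨ζ, hζ⟩ := pta_exists_primitiveRoot p
  exact (pta_cycloChar_eq_one_iff hζ σ).2 (pta_inertia_fixes_root hq hqp A hA σ hσ hζ)

/-- `ℚ(ζ_p)` inside `Q̄`. -/
noncomputable def pta_cycloField (p : ℕ) [Fact p.Prime] : IntermediateField ℚ Qbar :=
  IntermediateField.fixedField (cycloChar p).ker

lemma pta_cycloField_eq_adjoin {ζ : Qbar} (hζ : IsPrimitiveRoot ζ p) :
    pta_cycloField p = ℚ⟮ζ⟯ := by
  have h1 : (ℚ⟮ζ⟯).fixingSubgroup = (cycloChar p).ker := cff_fixingSubgroup_adjoin hζ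
  unfold pta_cycloField
  rw [← h1, InfiniteGalois.fixedField_fixingSubgroup]

lemma pta_fixingSubgroup_cycloField : (pta_cycloField p).fixingSubgroup = (cycloChar p).ker := by
  obtain ⟨ζ, hζ⟩ := pta_exists_primitiveRoot p
  rw [pta_cycloField_eq_adjoin hζ]
  exact cff_fixingSubgroup_adjoin hζ

instance pta_cycloField_finiteDimensional : FiniteDimensional ℚ (pta_cycloField p) := by
  obtain ⟨ζ, hζ⟩ := pta_exists_primitiveRoot p
  rw [pta_cycloField_eq_adjoin hζ]
  exact IntermediateField.adjoin.finiteDimensional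
    ((AlgebraicClosure.isAlgebraic ℚ).isAlgebraic ζ).isIntegral

lemma pta_mem_cycloField {ζ : Qbar} (hζ : IsPrimitiveRoot ζ p) : ζ ∈ pta_cycloField p := by
  rw [pta_cycloField_eq_adjoin hζ]
  exact mem_adjoin_simple_self ℚ ζ

lemma pta_cycloField_stable : ∀ σ : GQ, ∀ x ∈ pta_cycloField p, σ x ∈ pta_cycloField p := by
  intro σ x hx
  unfold pta_cycloField at hx ⊢
  rw [IntermediateField.mem_fixedField_iff] at hx ⊢
  intro h hh
  have h1 : σ⁻¹ * h * σ ∈ (cycloChar p).ker := by
    have := (inferInstance : (cycloChar p).ker.Normal).conj_mem h hh σ⁻¹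
    simpa using this
  have h2 := hx _ h1
  have h3 : σ⁻¹ (h (σ x)) = x := h2
  have := congrArg σ h3
  rwa [show σ (σ⁻¹ (h (σ x))) = h (σ x) from σ.apply_symm_apply _] at this

/-- `ℚ(ζ_p)` is unramified outside any `S ∋ p`. -/
theorem pta_cycloField_unram (S : Finset Nat.Primes) (hpS : pPrime p ∈ S) :
    (pta_cycloField p).IsUnramifiedOutside S := by
  refine ⟨inferInstance, fun q hq A hA σ hσ => ?_⟩
  rw [pta_fixingSubgroup_cycloField, MonoidHom.mem_ker]
  have hqp : (q : ℕ) ≠ p := by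
    intro h
    apply hq
    have : q = pPrime p := Subtype.ext h
    rw [this]; exact hpS
  exact pta_cycloChar_unramified q.2 hqp A hA σ hσ

end cyclo

section twist

variable {p : ℕ} [Fact p.Prime] {S : Finset Nat.Primes} (M : Rep.{0} (ZMod p) GQ)

/-- an element acting trivially on `M` and with trivial cyclotomic character acts trivially on the
dual twist -/
lemma pta_dualTwist_rho_eq_one {g : GQ} (hg : M.ρ g = 1) (hχ : cycloChar p g = 1) :
    (M.dualTwist (cycloChar p)).ρ g = 1 := by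
  ext f m
  have hginv : M.ρ g⁻¹ = 1 := by
    have h1 : M.ρ g⁻¹ * M.ρ g = 1 := by rw [← map_mul, inv_mul_cancel, map_one]
    rwa [hg, mul_one] at h1
  show ((cycloChar p g : ZMod p) • (f ∘ₗ M.ρ g⁻¹)) m = f m
  rw [hχ, hginv]
  simp

lemma pta_ker_inf_le_ker_dualTwist :
    M.ρ.ker ⊓ (cycloChar p).ker ≤ (M.dualTwist (cycloChar p)).ρ.ker := by
  intro g hg
  rw [MonoidHom.mem_ker]
  exact pta_dualTwist_rho_eq_one M (MonoidHom.mem_ker.mp hg.1) (MonoidHom.mem_ker.mp hg.2)

/-- a level of `M` containing `ℚ(ζ_p)` is a level of the dual twist -/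
theorem pta_IsLevel.dualTwist {F : IntermediateField ℚ Qbar} (hF : pta_IsLevel S M F)
    (hζ : pta_cycloField p ≤ F) : pta_IsLevel S (M.dualTwist (cycloChar p)) F := by
  refine hF.of_triv (fun g hg => pta_ker_inf_le_ker_dualTwist M ⟨hF.triv hg, ?_⟩)
  rw [← pta_fixingSubgroup_cycloField]
  exact IntermediateField.fixingSubgroup_antitone hζ hg

/-- the compositum of a level of `M` with `ℚ(ζ_p)` is a common level of `M` and its dual twist -/
theorem pta_IsLevel.sup_cycloField {F : IntermediateField ℚ Qbar} (hF : pta_IsLevel S M F)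
    (hpS : pPrime p ∈ S) :
    pta_IsLevel S M (F ⊔ pta_cycloField p) ∧
      pta_IsLevel S (M.dualTwist (cycloChar p)) (F ⊔ pta_cycloField p) := by
  have h1 : pta_IsLevel S M (F ⊔ pta_cycloField p) :=
    hF.sup_of_stable (pta_cycloField_unram S hpS) pta_cycloField_stable
  exact ⟨h1, h1.dualTwist M le_sup_right⟩

/-- **Existence of a common level** of `M`, `M.dualTwist (cycloChar p)` and `μ_p`, under exactly
the hypotheses of the Poitou–Tate statement. -/
theorem pta_exists_common_level [Module.Finite (ZMod p) M] (hpS : pPrime p ∈ S)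
    (hsm : ∀ m : M, ∃ F : IntermediateField ℚ Qbar, FiniteDimensional ℚ F ∧
      ∀ s ∈ F.fixingSubgroup, M.ρ s m = m)
    (hMur : ∀ q : Nat.Primes, q ∉ S → ∀ A : ValuationSubring Qbar,
      A.LiesOverPrime (q : ℕ) → ∀ g ∈ A.inertiaSubgroupIn ℚ, M.ρ g = 1) :
    ∃ F : IntermediateField ℚ Qbar, pta_IsLevel S M F ∧
      pta_IsLevel S (M.dualTwist (cycloChar p)) F ∧ pta_cycloField p ≤ F := by
  have h := (pta_isLevel_kerField hsm hMur).sup_cycloField M hpS
  exact ⟨_, h.1, h.2, le_sup_right⟩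

/-- the smoothness hypothesis passes to the dual twist -/
theorem pta_hsm_dualTwist [Module.Finite (ZMod p) M]
    (hsm : ∀ m : M, ∃ F : IntermediateField ℚ Qbar, FiniteDimensional ℚ F ∧
      ∀ s ∈ F.fixingSubgroup, M.ρ s m = m) :
    ∀ f : M.dualTwist (cycloChar p), ∃ F : IntermediateField ℚ Qbar, FiniteDimensional ℚ F ∧
      ∀ s ∈ F.fixingSubgroup, (M.dualTwist (cycloChar p)).ρ s f = f := by
  obtain ⟨F, hFfin, hF⟩ := pta_exists_finite_triv hsm
  intro f
  refine ⟨F ⊔ pta_cycloField p, IntermediateField.finiteDimensional_sup F (pta_cycloField p),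
    fun s hs => ?_⟩
  have h1 : M.ρ s = 1 :=
    MonoidHom.mem_ker.mp (hF (IntermediateField.fixingSubgroup_antitone le_sup_left hs))
  have h2 : cycloChar p s = 1 := by
    have := IntermediateField.fixingSubgroup_antitone
      (le_sup_right : pta_cycloField p ≤ F ⊔ pta_cycloField p) hs
    rw [pta_fixingSubgroup_cycloField] at this
    exact MonoidHom.mem_ker.mp this
  rw [pta_dualTwist_rho_eq_one M h1 h2]
  rfl

/-- the unramifiedness hypothesis passes to the dual twist (`p ∈ S`) -/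
theorem pta_hMur_dualTwist (hpS : pPrime p ∈ S)
    (hMur : ∀ q : Nat.Primes, q ∉ S → ∀ A : ValuationSubring Qbar,
      A.LiesOverPrime (q : ℕ) → ∀ g ∈ A.inertiaSubgroupIn ℚ, M.ρ g = 1) :
    ∀ q : Nat.Primes, q ∉ S → ∀ A : ValuationSubring Qbar,
      A.LiesOverPrime (q : ℕ) → ∀ g ∈ A.inertiaSubgroupIn ℚ,
        (M.dualTwist (cycloChar p)).ρ g = 1 := by
  intro q hq A hA g hg
  have hqp : (q : ℕ) ≠ p := by
    intro h
    apply hq
    have : q = pPrime p := Subtype.ext h
    rw [this]; exact hpS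
  exact pta_dualTwist_rho_eq_one M (hMur q hq A hA g hg)
    (pta_cycloChar_unramified q.2 hqp A hA g hg)

end twist

end Fermat.Agent.Lib.PT
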