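/-
S55 (Poitou–Tate long haul), A-track, "ADT-lite": the BIG-GROUP MODEL of continuous cohomology in
degrees 1 and 2.

A group `G` with a *level structure* `𝓛` (a directed family of normal subgroups of finite index);
cochains are plain functions `G → A`, `G × G → A` which are *level-constant* (right-invariant under
a level), exactly as in the Prelude's `continuousH2S` / `continuousH2 f`.  Inflation is the
identity in this model, so no tower bookkeeping is needed in the proofs.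

This file: level structures, level-constant cochains, discrete modules, the explicit differentials
and (level) cocycles / coboundaries for an arbitrary `Representation k G A`, restriction of a level
structure to an open subgroup.
-/
import Mathlib

set_option autoImplicit false

namespace Fermat.Agent.Lib.PT

/-- A *level structure* on a group: a nonempty, downward directed set of normal subgroups of
finite index. -/
structure ptd_Levels (G : Type*) [Group G] where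
  /-- the levels -/
  lev : Set (Subgroup G)
  nonempty : lev.Nonempty
  normal : ∀ N ∈ lev, N.Normal
  finiteIndex : ∀ N ∈ lev, N.FiniteIndex
  directed : ∀ N ∈ lev, ∀ N' ∈ lev, ∃ N'' ∈ lev, N'' ≤ N ⊓ N'

section Basic

variable {G : Type*} [Group G] (𝓛 : ptd_Levels G)

/-- level-constant functions of one variable -/
def ptd_IsLev₁ {X : Type*} (f : G → X) : Prop :=
  ∃ N ∈ 𝓛.lev, ∀ g, ∀ n ∈ N, f (g * n) = f g

/-- level-constant functions of two variables -/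
def ptd_IsLev₂ {X : Type*} (f : G × G → X) : Prop :=
  ∃ N ∈ 𝓛.lev, ∀ g h, ∀ n ∈ N, ∀ n' ∈ N, f (g * n, h * n') = f (g, h)

variable {𝓛}

lemma ptd_isLev₁_const {X : Type*} (x : X) : ptd_IsLev₁ 𝓛 (fun _ : G => x) := by
  obtain ⟨N, hN⟩ := 𝓛.nonempty
  exact ⟨N, hN, fun _ _ _ => rfl⟩

lemma ptd_isLev₂_const {X : Type*} (x : X) : ptd_IsLev₂ 𝓛 (fun _ : G × G => x) := by
  obtain ⟨N, hN⟩ := 𝓛.nonempty
  exact ⟨N, hN, fun _ _ _ _ _ _ => rfl⟩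

lemma ptd_IsLev₁.comp {X Y : Type*} {f : G → X} (hf : ptd_IsLev₁ 𝓛 f) (φ : X → Y) :
    ptd_IsLev₁ 𝓛 (φ ∘ f) := by
  obtain ⟨N, hN, h⟩ := hf
  exact ⟨N, hN, fun g n hn => by simp only [Function.comp_apply, h g n hn]⟩

lemma ptd_IsLev₂.comp {X Y : Type*} {f : G × G → X} (hf : ptd_IsLev₂ 𝓛 f) (φ : X → Y) :
    ptd_IsLev₂ 𝓛 (φ ∘ f) := by
  obtain ⟨N, hN, h⟩ := hf
  exact ⟨N, hN, fun g g' n hn n' hn' => by simp only [Function.comp_apply, h g g' n hn n' hn']⟩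

lemma ptd_IsLev₁.map₂ {X Y Z : Type*} {f : G → X} {f' : G → Y} (hf : ptd_IsLev₁ 𝓛 f)
    (hf' : ptd_IsLev₁ 𝓛 f') (φ : X → Y → Z) : ptd_IsLev₁ 𝓛 (fun g => φ (f g) (f' g)) := by
  obtain ⟨N, hN, h⟩ := hf
  obtain ⟨N', hN', h'⟩ := hf'
  obtain ⟨N'', hN'', hle⟩ := 𝓛.directed N hN N' hN'
  exact ⟨N'', hN'', fun g n hn => by
    show φ (f (g * n)) (f' (g * n)) = φ (f g) (f' g)
    rw [h g n (hle hn).1, h' g n (hle hn).2]⟩

lemma ptd_IsLev₂.map₂ {X Y Z : Type*} {f : G × G → X} {f' : G × G → Y} (hf : ptd_IsLev₂ 𝓛 f)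
    (hf' : ptd_IsLev₂ 𝓛 f') (φ : X → Y → Z) : ptd_IsLev₂ 𝓛 (fun x => φ (f x) (f' x)) := by
  obtain ⟨N, hN, h⟩ := hf
  obtain ⟨N', hN', h'⟩ := hf'
  obtain ⟨N'', hN'', hle⟩ := 𝓛.directed N hN N' hN'
  exact ⟨N'', hN'', fun g g' n hn n' hn' => by
    show φ (f (g * n, g' * n')) (f' (g * n, g' * n')) = φ (f (g, g')) (f' (g, g'))
    rw [h g g' n (hle hn).1 n' (hle hn').1, h' g g' n (hle hn).2 n' (hle hn').2]⟩

lemma ptd_IsLev₁.add {X : Type*} [Add X] {f f' : G → X} (hf : ptd_IsLev₁ 𝓛 f)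
    (hf' : ptd_IsLev₁ 𝓛 f') : ptd_IsLev₁ 𝓛 (f + f') := hf.map₂ hf' (· + ·)

lemma ptd_IsLev₁.sub {X : Type*} [Sub X] {f f' : G → X} (hf : ptd_IsLev₁ 𝓛 f)
    (hf' : ptd_IsLev₁ 𝓛 f') : ptd_IsLev₁ 𝓛 (f - f') := hf.map₂ hf' (· - ·)

lemma ptd_IsLev₁.neg {X : Type*} [Neg X] {f : G → X} (hf : ptd_IsLev₁ 𝓛 f) :
    ptd_IsLev₁ 𝓛 (-f) := hf.comp (- ·)

lemma ptd_IsLev₂.add {X : Type*} [Add X] {f f' : G × G → X} (hf : ptd_IsLev₂ 𝓛 f)
    (hf' : ptd_IsLev₂ 𝓛 f') : ptd_IsLev₂ 𝓛 (f + f') := hf.map₂ hf' (· + ·)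

lemma ptd_IsLev₂.sub {X : Type*} [Sub X] {f f' : G × G → X} (hf : ptd_IsLev₂ 𝓛 f)
    (hf' : ptd_IsLev₂ 𝓛 f') : ptd_IsLev₂ 𝓛 (f - f') := hf.map₂ hf' (· - ·)

lemma ptd_IsLev₂.neg {X : Type*} [Neg X] {f : G × G → X} (hf : ptd_IsLev₂ 𝓛 f) :
    ptd_IsLev₂ 𝓛 (-f) := hf.comp (- ·)

/-- a level-constant function of one variable, as a function of the first of two variables -/
lemma ptd_IsLev₁.fst {X : Type*} {f : G → X} (hf : ptd_IsLev₁ 𝓛 f) :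
    ptd_IsLev₂ 𝓛 (fun x : G × G => f x.1) := by
  obtain ⟨N, hN, h⟩ := hf
  exact ⟨N, hN, fun g _ n hn _ _ => h g n hn⟩

lemma ptd_IsLev₁.snd {X : Type*} {f : G → X} (hf : ptd_IsLev₁ 𝓛 f) :
    ptd_IsLev₂ 𝓛 (fun x : G × G => f x.2) := by
  obtain ⟨N, hN, h⟩ := hf
  exact ⟨N, hN, fun _ g _ _ n hn => h g n hn⟩

/-- level-constant functions are also left-invariant under the level (levels are normal) -/
lemma ptd_IsLev₁.left {X : Type*} {f : G → X} {N : Subgroup G} (hN : N ∈ 𝓛.lev)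
    (h : ∀ g, ∀ n ∈ N, f (g * n) = f g) (g : G) (n : G) (hn : n ∈ N) : f (n * g) = f g := by
  have := 𝓛.normal N hN
  have : n * g = g * (g⁻¹ * n * g) := by group
  rw [this]
  exact h g _ (by simpa using Subgroup.Normal.conj_mem ‹N.Normal› n hn g⁻¹)

lemma ptd_IsLev₁.mul {X : Type*} {f : G → X} (hf : ptd_IsLev₁ 𝓛 f) :
    ptd_IsLev₂ 𝓛 (fun x : G × G => f (x.1 * x.2)) := by
  obtain ⟨N, hN, h⟩ := hf
  have := 𝓛.normal N hN
  refine ⟨N, hN, fun g g' n hn n' hn' => ?_⟩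
  have : g * n * (g' * n') = g * g' * ((g'⁻¹ * n * g') * n') := by group
  simp only
  rw [this]
  exact h _ _ (N.mul_mem (by simpa using Subgroup.Normal.conj_mem ‹N.Normal› n hn g'⁻¹) hn')

/-- a level-constant function takes finitely many values -/
lemma ptd_IsLev₁.finite_range {X : Type*} {f : G → X} (hf : ptd_IsLev₁ 𝓛 f) :
    (Set.range f).Finite := by
  obtain ⟨N, hN, h⟩ := hf
  have := 𝓛.finiteIndex N hN
  have : Finite (G ⧸ N) := Subgroup.finite_quotient_of_finiteIndex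
  let f' : G ⧸ N → X := Quotient.lift f (fun a b hab => by
    have hab' : a⁻¹ * b ∈ N := QuotientGroup.leftRel_apply.mp hab
    have : b = a * (a⁻¹ * b) := by group
    rw [this]
    exact (h a _ hab').symm)
  have : Set.range f ⊆ Set.range f' := by
    rintro _ ⟨g, rfl⟩
    exact ⟨QuotientGroup.mk g, rfl⟩
  exact (Set.finite_range f').subset this

end Basic

section Rep

variable {G : Type*} [Group G] (𝓛 : ptd_Levels G)
variable {k : Type*} [CommRing k] {A : Type*} [AddCommGroup A] [Module k A]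
variable (ρ : Representation k G A)

/-- a discrete module: every element is fixed by a level -/
def ptd_IsDiscrete : Prop := ∀ a : A, ∃ N ∈ 𝓛.lev, ∀ n ∈ N, ρ n a = a

/-- the module is trivial on a level (e.g. a finite discrete module) -/
def ptd_IsTrivOnLevel : Prop := ∃ N ∈ 𝓛.lev, ∀ n ∈ N, ρ n = 1

/-- 1-cocycles (Mathlib's convention) -/
def ptd_IsZ1 (φ : G → A) : Prop := ∀ g h, φ (g * h) = ρ g (φ h) + φ g

/-- 2-cocycles (Mathlib's convention `mem_cocycles₂_iff`) -/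
def ptd_IsZ2 (z : G × G → A) : Prop :=
  ∀ g h j, z (g * h, j) + z (g, h) = ρ g (z (h, j)) + z (g, h * j)

/-- the differential `C⁰ → C¹` -/
def ptd_d0 (a : A) : G → A := fun g => ρ g a - a

/-- the differential `C¹ → C²` (Mathlib's `d₁₂`) -/
def ptd_d1 (φ : G → A) : G × G → A := fun x => ρ x.1 (φ x.2) - φ (x.1 * x.2) + φ x.1

/-- level 2-cocycles -/
def ptd_IsLZ2 (z : G × G → A) : Prop := ptd_IsZ2 ρ z ∧ ptd_IsLev₂ 𝓛 z

/-- level 1-cocycles -/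
def ptd_IsLZ1 (φ : G → A) : Prop := ptd_IsZ1 ρ φ ∧ ptd_IsLev₁ 𝓛 φ

/-- level 2-coboundaries -/
def ptd_IsB2 (z : G × G → A) : Prop := ∃ φ : G → A, ptd_IsLev₁ 𝓛 φ ∧ z = ptd_d1 ρ φ

/-- 1-coboundaries -/
def ptd_IsB1 (φ : G → A) : Prop := ∃ a : A, φ = ptd_d0 ρ a

variable {𝓛 ρ}

@[simp] lemma ptd_d1_apply (φ : G → A) (g h : G) :
    ptd_d1 ρ φ (g, h) = ρ g (φ h) - φ (g * h) + φ g := rfl

@[simp] lemma ptd_d0_apply (a : A) (g : G) : ptd_d0 ρ a g = ρ g a - a := rfl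

lemma ptd_d1_add (φ ψ : G → A) : ptd_d1 ρ (φ + ψ) = ptd_d1 ρ φ + ptd_d1 ρ ψ := by
  funext x; simp only [ptd_d1, Pi.add_apply, map_add]; abel

lemma ptd_d1_neg (φ : G → A) : ptd_d1 ρ (-φ) = -ptd_d1 ρ φ := by
  funext x; simp only [ptd_d1, Pi.neg_apply, map_neg]; abel

lemma ptd_d1_sub (φ ψ : G → A) : ptd_d1 ρ (φ - ψ) = ptd_d1 ρ φ - ptd_d1 ρ ψ := by
  funext x; simp only [ptd_d1, Pi.sub_apply, map_sub]; abel

lemma ptd_d1_zero : ptd_d1 ρ (0 : G → A) = 0 := by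
  funext x; simp [ptd_d1]

lemma ptd_isZ2_d1 (φ : G → A) : ptd_IsZ2 ρ (ptd_d1 ρ φ) := by
  intro g h j
  simp only [ptd_d1_apply, map_add, map_sub, map_mul, Module.End.mul_apply, mul_assoc]
  abel

lemma ptd_isZ1_d0 (a : A) : ptd_IsZ1 ρ (ptd_d0 ρ a) := by
  intro g h
  simp only [ptd_d0_apply, map_sub, map_mul, Module.End.mul_apply]
  abel

lemma ptd_d1_d0 (a : A) : ptd_d1 ρ (ptd_d0 ρ a) = 0 := by
  funext ⟨g, h⟩
  simp only [ptd_d1_apply, ptd_d0_apply, map_sub, map_mul, Module.End.mul_apply, Pi.zero_apply]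
  abel

lemma ptd_IsZ2.add {z z' : G × G → A} (h : ptd_IsZ2 ρ z) (h' : ptd_IsZ2 ρ z') :
    ptd_IsZ2 ρ (z + z') := by
  intro g a b
  have := h g a b
  have := h' g a b
  simp only [Pi.add_apply, map_add]
  rw [add_add_add_comm, h g a b, h' g a b]; abel

lemma ptd_IsZ2.neg {z : G × G → A} (h : ptd_IsZ2 ρ z) : ptd_IsZ2 ρ (-z) := by
  intro g a b
  simp only [Pi.neg_apply, map_neg]
  rw [← neg_add, h g a b, neg_add]

lemma ptd_IsZ2.sub {z z' : G × G → A} (h : ptd_IsZ2 ρ z) (h' : ptd_IsZ2 ρ z') :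
    ptd_IsZ2 ρ (z - z') := by
  rw [sub_eq_add_neg]; exact h.add h'.neg

lemma ptd_isZ2_zero : ptd_IsZ2 ρ (0 : G × G → A) := by
  intro g a b; simp

lemma ptd_IsZ2.nsmul {z : G × G → A} (h : ptd_IsZ2 ρ z) (n : ℕ) : ptd_IsZ2 ρ (n • z) := by
  induction n with
  | zero => simpa using ptd_isZ2_zero
  | succ n ih => rw [succ_nsmul]; exact ih.add h

lemma ptd_IsLZ2.add {z z' : G × G → A} (h : ptd_IsLZ2 𝓛 ρ z) (h' : ptd_IsLZ2 𝓛 ρ z') :
    ptd_IsLZ2 𝓛 ρ (z + z') := ⟨h.1.add h'.1, h.2.add h'.2⟩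

lemma ptd_IsLZ2.neg {z : G × G → A} (h : ptd_IsLZ2 𝓛 ρ z) : ptd_IsLZ2 𝓛 ρ (-z) :=
  ⟨h.1.neg, h.2.neg⟩

lemma ptd_IsLZ2.sub {z z' : G × G → A} (h : ptd_IsLZ2 𝓛 ρ z) (h' : ptd_IsLZ2 𝓛 ρ z') :
    ptd_IsLZ2 𝓛 ρ (z - z') := ⟨h.1.sub h'.1, h.2.sub h'.2⟩

lemma ptd_isLZ2_zero : ptd_IsLZ2 𝓛 ρ (0 : G × G → A) :=
  ⟨ptd_isZ2_zero, ptd_isLev₂_const (0 : A)⟩

/-- In a discrete module, finitely many elements are fixed by a common level. -/
lemma ptd_IsDiscrete.exists_level_of_finite (hd : ptd_IsDiscrete 𝓛 ρ) {s : Set A}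
    (hs : s.Finite) : ∃ N ∈ 𝓛.lev, ∀ a ∈ s, ∀ n ∈ N, ρ n a = a := by
  induction s, hs using Set.Finite.induction_on with
  | empty =>
    obtain ⟨N, hN⟩ := 𝓛.nonempty
    exact ⟨N, hN, fun a ha => (Set.notMem_empty a ha).elim⟩
  | insert _ _ ih =>
    rename_i a s _ _
    obtain ⟨N, hN, h⟩ := ih
    obtain ⟨N', hN', h'⟩ := hd a
    obtain ⟨N'', hN'', hle⟩ := 𝓛.directed N hN N' hN'
    refine ⟨N'', hN'', fun b hb n hn => ?_⟩
    rcases hb with rfl | hb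
    · exact h' n (hle hn).2
    · exact h b hb n (hle hn).1

/-- The coboundary of a level-constant 1-cochain with values in a discrete module is
level-constant. -/
lemma ptd_isLev₂_d1 (hd : ptd_IsDiscrete 𝓛 ρ) {φ : G → A} (hφ : ptd_IsLev₁ 𝓛 φ) :
    ptd_IsLev₂ 𝓛 (ptd_d1 ρ φ) := by
  obtain ⟨N₁, hN₁, hfix⟩ := hd.exists_level_of_finite hφ.finite_range
  have h1 : ptd_IsLev₂ 𝓛 (fun x : G × G => ρ x.1 (φ x.2)) := by
    obtain ⟨N, hN, h⟩ := hφ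
    obtain ⟨N', hN', hle⟩ := 𝓛.directed N hN N₁ hN₁
    refine ⟨N', hN', fun g g' n hn n' hn' => ?_⟩
    simp only
    rw [h g' n' (hle hn').1, map_mul, Module.End.mul_apply,
      hfix (φ g') ⟨g', rfl⟩ n (hle hn).2]
  exact (h1.sub hφ.mul).add hφ.fst

lemma ptd_IsB2.isLZ2 (hd : ptd_IsDiscrete 𝓛 ρ) {z : G × G → A} (hz : ptd_IsB2 𝓛 ρ z) :
    ptd_IsLZ2 𝓛 ρ z := by
  obtain ⟨φ, hφ, rfl⟩ := hz
  exact ⟨ptd_isZ2_d1 φ, ptd_isLev₂_d1 hd hφ⟩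

lemma ptd_IsB2.add {z z' : G × G → A} (h : ptd_IsB2 𝓛 ρ z) (h' : ptd_IsB2 𝓛 ρ z') :
    ptd_IsB2 𝓛 ρ (z + z') := by
  obtain ⟨φ, hφ, rfl⟩ := h
  obtain ⟨ψ, hψ, rfl⟩ := h'
  exact ⟨φ + ψ, hφ.add hψ, (ptd_d1_add φ ψ).symm⟩

lemma ptd_IsB2.neg {z : G × G → A} (h : ptd_IsB2 𝓛 ρ z) : ptd_IsB2 𝓛 ρ (-z) := by
  obtain ⟨φ, hφ, rfl⟩ := h
  exact ⟨-φ, hφ.neg, (ptd_d1_neg φ).symm⟩

lemma ptd_IsB2.sub {z z' : G × G → A} (h : ptd_IsB2 𝓛 ρ z) (h' : ptd_IsB2 𝓛 ρ z') :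
    ptd_IsB2 𝓛 ρ (z - z') := by
  rw [sub_eq_add_neg]; exact h.add h'.neg

lemma ptd_isB2_zero : ptd_IsB2 𝓛 ρ (0 : G × G → A) :=
  ⟨0, ptd_isLev₁_const (0 : A), ptd_d1_zero.symm⟩

/-- a module trivial on a level is discrete -/
lemma ptd_IsTrivOnLevel.isDiscrete (h : ptd_IsTrivOnLevel 𝓛 ρ) : ptd_IsDiscrete 𝓛 ρ := by
  obtain ⟨N, hN, hn⟩ := h
  exact fun a => ⟨N, hN, fun n hn' => by rw [hn n hn']; rfl⟩

end Rep

end Fermat.Agent.Lib.PT
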