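/-
S55 (Poitou–Tate long haul), A-track, "ADT-lite": definitions of the consumer-side contract in the
BIG-GROUP MODEL (see `AdtLevels.lean`).

* `ptd_Levels.IsOpen`, `ptd_Levels.sub` : open subgroups and their induced level structure;
* `ptd_res₁`, `ptd_res₂` : restriction of cochains to a subgroup;
* `ptd_IsLZ2p` : level 2-cocycles whose class is killed by `p`;
* `ptd_Inv` : an invariant map (additive on `p`-torsion level 2-cocycle classes);
* `ptd_NondegH2`, `ptd_NondegHom` : the two one-sided nondegeneracy statements of the pairing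
  `Hom_G(M, C) × H²(G, M) → T`;
* `ptd_bock` : the Bockstein cocycle of a character `G → ZMod p`;
* `ptd_retr`, `ptd_cor₁`, `ptd_cor₂`, `ptd_normHom` : explicit corestriction of inhomogeneous
  cochains and the norm of a `U`-equivariant homomorphism.
-/
import Fermat.Agent.Lib.PT.AdtLevels

set_option autoImplicit false

namespace Fermat.Agent.Lib.PT

section Open

variable {G : Type*} [Group G] (𝓛 : ptd_Levels G)

/-- open subgroups: those containing a level -/
def ptd_Levels.IsOpen (U : Subgroup G) : Prop := ∃ N ∈ 𝓛.lev, N ≤ U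

/-- the induced level structure on an open subgroup -/
def ptd_Levels.sub (U : Subgroup G) (hU : 𝓛.IsOpen U) : ptd_Levels U where
  lev := {N' | ∃ N ∈ 𝓛.lev, N ≤ U ∧ N' = N.subgroupOf U}
  nonempty := by
    obtain ⟨N, hN, hle⟩ := hU
    exact ⟨_, N, hN, hle, rfl⟩
  normal := by
    rintro _ ⟨N, hN, -, rfl⟩
    have := 𝓛.normal N hN
    infer_instance
  finiteIndex := by
    rintro _ ⟨N, hN, -, rfl⟩
    have := 𝓛.finiteIndex N hN
    infer_instance
  directed := by
    rintro _ ⟨N, hN, hle, rfl⟩ _ ⟨N', hN', hle', rfl⟩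
    obtain ⟨N'', hN'', h⟩ := 𝓛.directed N hN N' hN'
    refine ⟨_, ⟨N'', hN'', (h.trans inf_le_left).trans hle, rfl⟩, ?_⟩
    intro x hx
    exact ⟨(h hx).1, (h hx).2⟩

lemma ptd_Levels.isOpen_of_mem {N : Subgroup G} (hN : N ∈ 𝓛.lev) : 𝓛.IsOpen N := ⟨N, hN, le_rfl⟩

lemma ptd_Levels.isOpen_top : 𝓛.IsOpen ⊤ := by
  obtain ⟨N, hN⟩ := 𝓛.nonempty
  exact ⟨N, hN, le_top⟩

lemma ptd_Levels.IsOpen.finiteIndex {U : Subgroup G} (hU : 𝓛.IsOpen U) : U.FiniteIndex := by
  obtain ⟨N, hN, hle⟩ := hU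
  have := 𝓛.finiteIndex N hN
  exact Subgroup.finiteIndex_of_le hle

/-- restriction of 1-cochains to a subgroup -/
def ptd_res₁ {X : Type*} (U : Subgroup G) (f : G → X) : U → X := fun u => f u

/-- restriction of 2-cochains to a subgroup -/
def ptd_res₂ {X : Type*} (U : Subgroup G) (f : G × G → X) : U × U → X := fun x => f (x.1, x.2)

@[simp] lemma ptd_res₁_apply {X : Type*} (U : Subgroup G) (f : G → X) (u : U) :
    ptd_res₁ U f u = f u := rfl

@[simp] lemma ptd_res₂_apply {X : Type*} (U : Subgroup G) (f : G × G → X) (u v : U) :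
    ptd_res₂ U f (u, v) = f (u, v) := rfl

variable {𝓛}

/-- a level-constant function restricts to a level-constant function on an open subgroup -/
lemma ptd_IsLev₁.res {X : Type*} {f : G → X} (hf : ptd_IsLev₁ 𝓛 f) (U : Subgroup G)
    (hU : 𝓛.IsOpen U) : ptd_IsLev₁ (𝓛.sub U hU) (ptd_res₁ U f) := by
  obtain ⟨N, hN, h⟩ := hf
  obtain ⟨N', hN', hle'⟩ := hU
  obtain ⟨N'', hN'', hle⟩ := 𝓛.directed N hN N' hN'
  refine ⟨_, ⟨N'', hN'', (hle.trans inf_le_right).trans hle', rfl⟩, fun g n hn => ?_⟩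
  exact h g n (hle (Subgroup.mem_subgroupOf.mp hn)).1

lemma ptd_IsLev₂.res {X : Type*} {f : G × G → X} (hf : ptd_IsLev₂ 𝓛 f) (U : Subgroup G)
    (hU : 𝓛.IsOpen U) : ptd_IsLev₂ (𝓛.sub U hU) (ptd_res₂ U f) := by
  obtain ⟨N, hN, h⟩ := hf
  obtain ⟨N', hN', hle'⟩ := hU
  obtain ⟨N'', hN'', hle⟩ := 𝓛.directed N hN N' hN'
  refine ⟨_, ⟨N'', hN'', (hle.trans inf_le_right).trans hle', rfl⟩, fun g g' n hn n' hn' => ?_⟩
  exact h g g' n (hle (Subgroup.mem_subgroupOf.mp hn)).1 n'
    (hle (Subgroup.mem_subgroupOf.mp hn')).1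

end Open

section Contract

variable {G : Type*} [Group G] (𝓛 : ptd_Levels G)
variable {k : Type*} [CommRing k] {A : Type*} [AddCommGroup A] [Module k A]
variable (ρ : Representation k G A)

/-- restriction of a representation to a subgroup -/
abbrev ptd_resRep (U : Subgroup G) : Representation k U A := ρ.comp U.subtype

@[simp] lemma ptd_resRep_apply (U : Subgroup G) (u : U) (a : A) :
    ptd_resRep ρ U u a = ρ (u : G) a := rfl

/-- level 2-cocycles whose class is killed by `p` -/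
def ptd_IsLZ2p (p : ℕ) (z : G × G → A) : Prop := ptd_IsLZ2 𝓛 ρ z ∧ ptd_IsB2 𝓛 ρ (p • z)

variable {C : Type*} [AddCommGroup C] (ρC : Representation ℤ G C)
variable (T : Type*) [AddCommGroup T]

/-- An *invariant map* for the class module `C`: a function on 2-cochains which is additive on
level 2-cocycles with `p`-torsion class, and vanishes on level coboundaries. -/
structure ptd_Inv (p : ℕ) where
  /-- the underlying function (junk outside cocycles) -/
  toFun : (G × G → C) → T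
  map_add' : ∀ z z', ptd_IsLZ2p 𝓛 ρC p z → ptd_IsLZ2p 𝓛 ρC p z' →
    toFun (z + z') = toFun z + toFun z'
  map_b2' : ∀ z, ptd_IsB2 𝓛 ρC z → toFun z = 0

instance (p : ℕ) : CoeFun (ptd_Inv 𝓛 ρC T p) (fun _ => (G × G → C) → T) := ⟨ptd_Inv.toFun⟩

variable {T} {M : Type*} [AddCommGroup M] [Module k M]

/-- `G`-equivariant additive maps -/
def ptd_IsEquivariant (ρM : Representation k G M) (f : M →+ C) : Prop :=
  ∀ g m, f (ρM g m) = ρC g (f m)

/-- RIGHT NONDEGENERACY of `Hom_G(M,C) × H²(G,M) → T`: a level 2-cocycle `z` of `M` with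
`inv (f ∘ z) = 0` for all equivariant `f : M → C` is a level coboundary.
[`= a : Hom_G(M,C) → H²(G,M)^∨` is surjective] -/
def ptd_NondegH2 {p : ℕ} (inv : ptd_Inv 𝓛 ρC T p) (ρM : Representation k G M) : Prop :=
  ∀ z : G × G → M, ptd_IsLZ2 𝓛 ρM z →
    (∀ f : M →+ C, ptd_IsEquivariant ρC ρM f → inv (fun x => f (z x)) = 0) → ptd_IsB2 𝓛 ρM z

/-- LEFT NONDEGENERACY: an equivariant `f : M → C` with `inv (f ∘ z) = 0` for all level
2-cocycles `z` of `M` is zero.  [`= a` is injective] -/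
def ptd_NondegHom {p : ℕ} (inv : ptd_Inv 𝓛 ρC T p) (ρM : Representation k G M) : Prop :=
  ∀ f : M →+ C, ptd_IsEquivariant ρC ρM f →
    (∀ z : G × G → M, ptd_IsLZ2 𝓛 ρM z → inv (fun x => f (z x)) = 0) → f = 0

/-- additive characters `G → ZMod p` -/
def ptd_IsChar {p : ℕ} (χ : G → ZMod p) : Prop := ∀ g h, χ (g * h) = χ g + χ h

/-- the Bockstein 2-cocycle with values in `ℤ` of a character `χ : G → ZMod p`:
`(χ̃ h - χ̃ (g h) + χ̃ g) / p` for the lift `χ̃ = ZMod.val ∘ χ` -/
def ptd_bock (p : ℕ) (χ : G → ZMod p) : G × G → ℤ :=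
  fun x => (((χ x.2).val : ℤ) - ((χ (x.1 * x.2)).val : ℤ) + ((χ x.1).val : ℤ)) / (p : ℤ)

/-- the 2-cocycle `c · δχ` with values in `C`, for an invariant element `c` -/
def ptd_bockSmul (p : ℕ) (χ : G → ZMod p) (c : C) : G × G → C := fun x => ptd_bock p χ x • c

end Contract

section Cor

variable {G : Type*} [Group G] (U : Subgroup G)

/-- a `U`-equivariant retraction `G → U`: `ptd_retr U (u * g) = u * ptd_retr U g` -/
noncomputable def ptd_retr (g : G) : U :=
  ⟨g * (Quotient.out (QuotientGroup.mk g⁻¹ : G ⧸ U)), by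
    have h : (QuotientGroup.mk (Quotient.out (QuotientGroup.mk g⁻¹ : G ⧸ U)) : G ⧸ U)
        = QuotientGroup.mk g⁻¹ := Quotient.out_eq _
    have := QuotientGroup.eq.mp h.symm
    simpa using this⟩

lemma ptd_retr_mul_left (u : U) (g : G) : ptd_retr U ((u : G) * g) = u * ptd_retr U g := by
  have h : (QuotientGroup.mk ((u : G) * g)⁻¹ : G ⧸ U) = QuotientGroup.mk g⁻¹ := by
    rw [QuotientGroup.eq]
    simp
  apply Subtype.ext
  simp only [ptd_retr, h, Subgroup.coe_mul, mul_assoc]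

variable [U.FiniteIndex]
variable {k : Type*} [CommRing k] {A : Type*} [AddCommGroup A] [Module k A]
variable (ρ : Representation k G A)

attribute [local instance] Subgroup.fintypeQuotientOfFiniteIndex

/-- the `U`-equivariant homogeneous extension to `G²` of an inhomogeneous 1-cochain of `U` -/
noncomputable def ptd_ext₁ (φ : U → A) (a b : G) : A :=
  ρ (ptd_retr U a) (φ ((ptd_retr U a)⁻¹ * ptd_retr U b))

/-- the `U`-equivariant homogeneous extension to `G³` of an inhomogeneous 2-cochain of `U` -/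
noncomputable def ptd_ext₂ (y : U × U → A) (a b c : G) : A :=
  ρ (ptd_retr U a) (y ((ptd_retr U a)⁻¹ * ptd_retr U b, (ptd_retr U b)⁻¹ * ptd_retr U c))

/-- corestriction of inhomogeneous 1-cochains from `U` to `G` -/
noncomputable def ptd_cor₁ (φ : U → A) : G → A := fun g =>
  ∑ q : G ⧸ U, ρ q.out (ptd_ext₁ U ρ φ q.out⁻¹ (q.out⁻¹ * g))

/-- corestriction of inhomogeneous 2-cochains from `U` to `G` -/
noncomputable def ptd_cor₂ (y : U × U → A) : G × G → A := fun x =>
  ∑ q : G ⧸ U, ρ q.out (ptd_ext₂ U ρ y q.out⁻¹ (q.out⁻¹ * x.1) (q.out⁻¹ * (x.1 * x.2)))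

variable {B : Type*} [AddCommGroup B] [Module k B] (ρ' : Representation k G B)

/-- the norm `∑_{t ∈ G/U} t ∘ f ∘ t⁻¹` of an additive map (`G`-equivariant if `f` is
`U`-equivariant) -/
noncomputable def ptd_normHom (f : A →+ B) : A →+ B :=
  ∑ q : G ⧸ U, ((ρ' q.out : B →ₗ[k] B).toAddMonoidHom.comp f).comp
    (ρ q.out⁻¹ : A →ₗ[k] A).toAddMonoidHom

end Cor

end Fermat.Agent.Lib.PT
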