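/-
S55 (Poitou–Tate long haul), A-track, "ADT-lite": corestriction, part A — the norm of
`U`-equivariant functions on a `G`-set (`U ≤ G` of finite index), and the homogeneous calculus.
-/
import Fermat.Agent.Lib.PT.AdtDefs

set_option autoImplicit false

namespace Fermat.Agent.Lib.PT

section Norm

variable {G : Type*} [Group G] (U : Subgroup G) [U.FiniteIndex]
variable {k : Type*} [CommRing k] {A : Type*} [AddCommGroup A] [Module k A]
variable (ρ : Representation k G A)

attribute [local instance] Subgroup.fintypeQuotientOfFiniteIndex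

/-- Sums over coset representatives of a function which is constant on left cosets are invariant
under left translation. -/
lemma ptd_sum_out_mul {Y : Type*} [AddCommMonoid Y] (φ : G → Y)
    (hφ : ∀ t, ∀ u ∈ U, φ (t * u) = φ t) (g : G) :
    ∑ q : G ⧸ U, φ (g * q.out) = ∑ q : G ⧸ U, φ q.out := by
  let φ' : G ⧸ U → Y := Quotient.lift φ (fun a b hab => by
    have hab' : a⁻¹ * b ∈ U := QuotientGroup.leftRel_apply.mp hab
    have : b = a * (a⁻¹ * b) := by group
    rw [this]
    exact (hφ a _ hab').symm)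
  have h1 : ∀ q : G ⧸ U, φ q.out = φ' q := by
    intro q
    conv_rhs => rw [← Quotient.out_eq q]
    rfl
  have h2 : ∀ q : G ⧸ U, φ (g * q.out) = φ' (g • q) := by
    intro q
    conv_rhs => rw [← Quotient.out_eq q]
    rfl
  simp_rw [h1, h2]
  exact Fintype.sum_equiv (MulAction.toPerm g) _ _ (fun _ => rfl)

variable {X : Type*} [MulAction G X]

/-- the norm (transfer) of a function on a `G`-set with values in a `G`-module:
`∑_{t ∈ G/U} t · F (t⁻¹ x)` -/
noncomputable def ptd_N (F : X → A) (x : X) : A :=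
  ∑ q : G ⧸ U, ρ q.out (F (q.out⁻¹ • x))

/-- `U`-equivariant functions -/
def ptd_IsEquivOn (F : X → A) : Prop := ∀ u ∈ U, ∀ x, F (u • x) = ρ u (F x)

variable {U ρ}

lemma ptd_N_smul {F : X → A} (hF : ptd_IsEquivOn U ρ F) (g : G) (x : X) :
    ptd_N U ρ F (g • x) = ρ g (ptd_N U ρ F x) := by
  have key := ptd_sum_out_mul U (fun t => ρ (g * t) (F (t⁻¹ • x))) (fun t u hu => by
    simp only [mul_inv_rev, mul_smul]
    rw [hF u⁻¹ (U.inv_mem hu), ← Module.End.mul_apply, ← map_mul]
    congr 2
    group) g⁻¹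
  simp only [mul_inv_rev, inv_inv, mul_inv_cancel_left, mul_smul] at key
  rw [ptd_N, key, ptd_N, map_sum]
  refine Finset.sum_congr rfl fun q _ => ?_
  rw [map_mul, Module.End.mul_apply]

lemma ptd_N_of_equivariant {F : X → A} (hF : ∀ g x, F (g • x) = ρ g (F x)) (x : X) :
    ptd_N U ρ F x = U.index • F x := by
  have : ∀ q : G ⧸ U, ρ q.out (F (q.out⁻¹ • x)) = F x := by
    intro q
    rw [← hF, smul_inv_smul]
  rw [ptd_N, Finset.sum_congr rfl fun q _ => this q, Finset.sum_const, Finset.card_univ,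
    Subgroup.index_eq_card, Nat.card_eq_fintype_card]

lemma ptd_N_add (F F' : X → A) (x : X) :
    ptd_N U ρ (F + F') x = ptd_N U ρ F x + ptd_N U ρ F' x := by
  simp only [ptd_N, Pi.add_apply, map_add, Finset.sum_add_distrib]

lemma ptd_N_sub (F F' : X → A) (x : X) :
    ptd_N U ρ (F - F') x = ptd_N U ρ F x - ptd_N U ρ F' x := by
  simp only [ptd_N, Pi.sub_apply, map_sub, Finset.sum_sub_distrib]

variable {B : Type*} [AddCommGroup B] [Module k B] {ρ' : Representation k G B}

lemma ptd_N_comp {F : X → A} (hF : ∀ g x, F (g • x) = ρ g (F x)) (f : A →+ B) (x : X) :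
    ptd_N U ρ' (fun y => f (F y)) x = ptd_normHom U ρ ρ' f (F x) := by
  simp only [ptd_N, ptd_normHom, AddMonoidHom.finset_sum_apply, AddMonoidHom.comp_apply,
    LinearMap.toAddMonoidHom_coe, hF]

lemma ptd_N_natural {F : X → A} (f : A →+ B) (hf : ∀ g a, f (ρ g a) = ρ' g (f a)) (x : X) :
    ptd_N U ρ' (fun y => f (F y)) x = f (ptd_N U ρ F x) := by
  simp only [ptd_N, map_sum, hf]

/-- the norm of a `U`-equivariant homomorphism is `G`-equivariant -/
lemma ptd_normHom_equivariant {f : A →+ B} (hf : ∀ u ∈ U, ∀ a, f (ρ u a) = ρ' u (f a)) (g : G)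
    (a : A) : ptd_normHom U ρ ρ' f (ρ g a) = ρ' g (ptd_normHom U ρ ρ' f a) := by
  have key := ptd_sum_out_mul U (fun t => ρ' (g * t) (f (ρ t⁻¹ a))) (fun t u hu => by
    simp only [mul_inv_rev, map_mul, Module.End.mul_apply]
    rw [hf u⁻¹ (U.inv_mem hu), Representation.self_inv_apply]) g⁻¹
  simp only [mul_inv_rev, inv_inv, mul_inv_cancel_left] at key
  simp only [ptd_normHom, AddMonoidHom.finset_sum_apply, AddMonoidHom.comp_apply,
    LinearMap.toAddMonoidHom_coe, map_sum]
  simp only [map_mul, Module.End.mul_apply] at key ⊢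
  exact key

/-- the norm of a `G`-equivariant homomorphism is `index • f` -/
lemma ptd_normHom_of_equivariant {f : A →+ B} (hf : ∀ g a, f (ρ g a) = ρ' g (f a)) (a : A) :
    ptd_normHom U ρ ρ' f a = U.index • f a := by
  have : ∀ q : G ⧸ U, ρ' q.out (f (ρ q.out⁻¹ a)) = f a := by
    intro q
    rw [hf, ← Module.End.mul_apply, ← map_mul, mul_inv_cancel]
    simp
  simp only [ptd_normHom, AddMonoidHom.finset_sum_apply, AddMonoidHom.comp_apply,
    LinearMap.toAddMonoidHom_coe]
  rw [Finset.sum_congr rfl fun q _ => this q, Finset.sum_const, Finset.card_univ,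
    Subgroup.index_eq_card, Nat.card_eq_fintype_card]

end Norm

end Fermat.Agent.Lib.PT
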