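/-
S55 (Poitou–Tate long haul), A-track, "ADT-lite": corestriction, part B — the corestriction of
inhomogeneous 1- and 2-cochains: compatibility with the differentials, cocycles, naturality,
`cor ∘ res = index` and the projection formula (up to explicit coboundaries).
-/
import Fermat.Agent.Lib.PT.AdtCorA

set_option autoImplicit false

namespace Fermat.Agent.Lib.PT

section Cor

variable {G : Type*} [Group G] (U : Subgroup G) [U.FiniteIndex]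
variable {k : Type*} [CommRing k] {A : Type*} [AddCommGroup A] [Module k A]
variable (ρ : Representation k G A)

attribute [local instance] Subgroup.fintypeQuotientOfFiniteIndex

/-- uncurried `ptd_ext₁` -/
noncomputable def ptd_E₁ (φ : U → A) : G × G → A := fun x => ptd_ext₁ U ρ φ x.1 x.2

/-- uncurried `ptd_ext₂` -/
noncomputable def ptd_E₂ (y : U × U → A) : G × G × G → A :=
  fun x => ptd_ext₂ U ρ y x.1 x.2.1 x.2.2

lemma ptd_cor₁_eq (φ : U → A) (g : G) :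
    ptd_cor₁ U ρ φ g = ptd_N U ρ (ptd_E₁ U ρ φ) ((1, g) : G × G) := by
  simp only [ptd_cor₁, ptd_N, ptd_E₁, Prod.smul_mk, smul_eq_mul, mul_one]

lemma ptd_cor₂_eq (y : U × U → A) (g h : G) :
    ptd_cor₂ U ρ y (g, h) = ptd_N U ρ (ptd_E₂ U ρ y) ((1, g, g * h) : G × G × G) := by
  simp only [ptd_cor₂, ptd_N, ptd_E₂, Prod.smul_mk, smul_eq_mul, mul_one]

lemma ptd_retr_mul_left' (u : G) (hu : u ∈ U) (a : G) :
    ptd_retr U (u * a) = ⟨u, hu⟩ * ptd_retr U a := ptd_retr_mul_left U ⟨u, hu⟩ a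

lemma ptd_isEquivOn_E₁ (φ : U → A) : ptd_IsEquivOn U ρ (ptd_E₁ U ρ φ) := by
  rintro u hu ⟨a, b⟩
  simp only [ptd_E₁, ptd_ext₁, Prod.smul_mk, smul_eq_mul, ptd_retr_mul_left' U u hu,
    mul_inv_rev, Subgroup.coe_mul, map_mul, Module.End.mul_apply]
  congr 3
  group

lemma ptd_isEquivOn_E₂ (y : U × U → A) : ptd_IsEquivOn U ρ (ptd_E₂ U ρ y) := by
  rintro u hu ⟨a, b, c⟩
  simp only [ptd_E₂, ptd_ext₂, Prod.smul_mk, smul_eq_mul, ptd_retr_mul_left' U u hu,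
    mul_inv_rev, Subgroup.coe_mul, map_mul, Module.End.mul_apply]
  congr 4 <;> group

/-- the homogeneous differential `C¹ → C²` -/
def ptd_D₂ (Ψ : G × G → A) : G × G × G → A :=
  fun x => Ψ (x.2.1, x.2.2) - Ψ (x.1, x.2.2) + Ψ (x.1, x.2.1)

lemma ptd_N_D₂ (Ψ : G × G → A) (x : G × G × G) :
    ptd_N U ρ (ptd_D₂ Ψ) x = ptd_D₂ (ptd_N U ρ Ψ) x := by
  obtain ⟨a, b, c⟩ := x
  simp only [ptd_N, ptd_D₂, Prod.smul_mk, smul_eq_mul, map_add, map_sub,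
    Finset.sum_add_distrib, Finset.sum_sub_distrib]

/-- `ext₂ ∘ d = D ∘ ext₁` -/
lemma ptd_E₂_d1 (φ : U → A) : ptd_E₂ U ρ (ptd_d1 (ptd_resRep ρ U) φ) = ptd_D₂ (ptd_E₁ U ρ φ) := by
  funext ⟨a, b, c⟩
  simp only [ptd_E₂, ptd_ext₂, ptd_d1_apply, ptd_resRep_apply, ptd_D₂, ptd_E₁, ptd_ext₁,
    map_add, map_sub, Subgroup.coe_mul, Subgroup.coe_inv, map_mul, Module.End.mul_apply,
    Representation.self_inv_apply]
  congr 4
  group

/-- corestriction commutes with the differential -/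
theorem ptd_cor₂_d1 (φ : U → A) :
    ptd_cor₂ U ρ (ptd_d1 (ptd_resRep ρ U) φ) = ptd_d1 ρ (ptd_cor₁ U ρ φ) := by
  funext ⟨g, h⟩
  rw [ptd_cor₂_eq, ptd_E₂_d1, ptd_N_D₂, ptd_d1_apply, ptd_cor₁_eq, ptd_cor₁_eq, ptd_cor₁_eq]
  simp only [ptd_D₂]
  have : ((g, g * h) : G × G) = g • ((1, h) : G × G) := by
    simp [Prod.smul_mk]
  rw [this, ptd_N_smul (ptd_isEquivOn_E₁ U ρ φ)]

/-! ### Homogeneous cochains -/

/-- the homogeneous form of an inhomogeneous 2-cochain -/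
def ptd_hom₂ {H : Type*} [Group H] (σ : Representation k H A) (z : H × H → A) : H × H × H → A :=
  fun x => σ x.1 (z (x.1⁻¹ * x.2.1, x.2.1⁻¹ * x.2.2))

/-- the homogeneous differential `C² → C³` -/
def ptd_D₃ {H : Type*} (F : H × H × H → A) : H × H × H × H → A :=
  fun x => F (x.2.1, x.2.2.1, x.2.2.2) - F (x.1, x.2.2.1, x.2.2.2) + F (x.1, x.2.1, x.2.2.2)
    - F (x.1, x.2.1, x.2.2.1)

lemma ptd_hom₂_smul {H : Type*} [Group H] (σ : Representation k H A) (z : H × H → A) (g : H)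
    (x : H × H × H) : ptd_hom₂ σ z (g • x) = σ g (ptd_hom₂ σ z x) := by
  obtain ⟨a, b, c⟩ := x
  simp only [ptd_hom₂, Prod.smul_mk, smul_eq_mul, mul_inv_rev, map_mul, Module.End.mul_apply]
  congr 4 <;> group

lemma ptd_D₃_hom₂ {H : Type*} [Group H] {σ : Representation k H A} {z : H × H → A}
    (hz : ptd_IsZ2 σ z) (a b c d : H) : ptd_D₃ (ptd_hom₂ σ z) (a, b, c, d) = 0 := by
  have h := hz (a⁻¹ * b) (b⁻¹ * c) (c⁻¹ * d)
  have e1 : a⁻¹ * b * (b⁻¹ * c) = a⁻¹ * c := by group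
  have e2 : b⁻¹ * c * (c⁻¹ * d) = b⁻¹ * d := by group
  rw [e1, e2] at h
  simp only [ptd_D₃, ptd_hom₂]
  have h' := congrArg (σ a) h
  simp only [map_add, ← Module.End.mul_apply, ← map_mul, mul_inv_cancel_left] at h'
  have hb : σ b (z (b⁻¹ * c, c⁻¹ * d)) = σ a (z (a⁻¹ * c, c⁻¹ * d)) + σ a (z (a⁻¹ * b, b⁻¹ * c))
      - σ a (z (a⁻¹ * b, b⁻¹ * d)) := by
    rw [h']; abel
  rw [hb]; abel

/-- dehomogenisation -/
def ptd_inh₂ (F : G × G × G → A) : G × G → A := fun x => F (1, x.1, x.1 * x.2)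

lemma ptd_isZ2_inh₂ {F : G × G × G → A} (hF : ∀ g x, F (g • x) = ρ g (F x))
    (hD : ∀ a b c d, ptd_D₃ F (a, b, c, d) = 0) : ptd_IsZ2 ρ (ptd_inh₂ F) := by
  intro g h j
  have h1 := hD 1 g (g * h) (g * h * j)
  simp only [ptd_D₃] at h1
  have h2 : F (g, g * h, g * h * j) = ρ g (F (1, h, h * j)) := by
    rw [← hF]
    simp [Prod.smul_mk, mul_assoc]
  simp only [ptd_inh₂]
  rw [h2] at h1
  rw [mul_assoc] at h1 ⊢
  have := sub_eq_zero.mp h1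
  rw [← this]; abel

lemma ptd_E₂_eq_hom₂ (y : U × U → A) (a b c : G) :
    ptd_E₂ U ρ y (a, b, c)
      = ptd_hom₂ (ptd_resRep ρ U) y (ptd_retr U a, ptd_retr U b, ptd_retr U c) := rfl

lemma ptd_D₃_E₂ {y : U × U → A} (hy : ptd_IsZ2 (ptd_resRep ρ U) y) (a b c d : G) :
    ptd_D₃ (ptd_E₂ U ρ y) (a, b, c, d) = 0 := by
  have := ptd_D₃_hom₂ hy (ptd_retr U a) (ptd_retr U b) (ptd_retr U c) (ptd_retr U d)
  simpa only [ptd_D₃, ptd_E₂_eq_hom₂] using this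

lemma ptd_D₃_N {F : G × G × G → A} (hD : ∀ a b c d, ptd_D₃ F (a, b, c, d) = 0) (a b c d : G) :
    ptd_D₃ (ptd_N U ρ F) (a, b, c, d) = 0 := by
  simp only [ptd_D₃, ptd_N, Prod.smul_mk, smul_eq_mul, ← Finset.sum_sub_distrib,
    ← Finset.sum_add_distrib, ← map_sub, ← map_add]
  refine Finset.sum_eq_zero fun q _ => ?_
  have := hD (q.out⁻¹ * a) (q.out⁻¹ * b) (q.out⁻¹ * c) (q.out⁻¹ * d)
  simp only [ptd_D₃] at this
  rw [this, map_zero]

lemma ptd_cor₂_eq_inh₂ (y : U × U → A) : ptd_cor₂ U ρ y = ptd_inh₂ (ptd_N U ρ (ptd_E₂ U ρ y)) := by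
  funext ⟨g, h⟩
  rw [ptd_cor₂_eq]; rfl

/-- the corestriction of a cocycle is a cocycle -/
theorem ptd_isZ2_cor₂ {y : U × U → A} (hy : ptd_IsZ2 (ptd_resRep ρ U) y) :
    ptd_IsZ2 ρ (ptd_cor₂ U ρ y) := by
  rw [ptd_cor₂_eq_inh₂]
  exact ptd_isZ2_inh₂ ρ (fun g x => ptd_N_smul (ptd_isEquivOn_E₂ U ρ y) g x)
    (ptd_D₃_N U ρ (ptd_D₃_E₂ U ρ hy))

end Cor

end Fermat.Agent.Lib.PT
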