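/-
S55 (Poitou–Tate long haul), A-track, "ADT-lite": corestriction, part C — the prism homotopy,
`cor ∘ res = index` and the projection formula, up to explicit coboundaries; naturality.
-/
import Fermat.Agent.Lib.PT.AdtCorB

set_option autoImplicit false

namespace Fermat.Agent.Lib.PT

section Prism

variable {G : Type*} [Group G] (U : Subgroup G) [U.FiniteIndex]
variable {k : Type*} [CommRing k] {A : Type*} [AddCommGroup A] [Module k A]
variable (ρ : Representation k G A)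

attribute [local instance] Subgroup.fintypeQuotientOfFiniteIndex

/-- the prism homotopy between a homogeneous cocycle and its composition with the retraction -/
noncomputable def ptd_prism (z : G × G → A) : G × G → A := fun x =>
  ptd_hom₂ ρ z ((ptd_retr U x.1 : G), x.1, x.2)
    - ptd_hom₂ ρ z ((ptd_retr U x.1 : G), (ptd_retr U x.2 : G), x.2)

lemma ptd_isEquivOn_prism (z : G × G → A) : ptd_IsEquivOn U ρ (ptd_prism U ρ z) := by
  rintro u hu ⟨a, b⟩
  simp only [ptd_prism, Prod.smul_mk, smul_eq_mul, ptd_retr_mul_left' U u hu, Subgroup.coe_mul,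
    map_sub]
  have h1 := ptd_hom₂_smul ρ z u ((ptd_retr U a : G), a, b)
  have h2 := ptd_hom₂_smul ρ z u ((ptd_retr U a : G), (ptd_retr U b : G), b)
  simp only [Prod.smul_mk, smul_eq_mul] at h1 h2
  rw [h1, h2]

lemma ptd_hom₂_retr (z : G × G → A) (a b c : G) :
    ptd_E₂ U ρ (ptd_res₂ U z) (a, b, c)
      = ptd_hom₂ ρ z ((ptd_retr U a : G), (ptd_retr U b : G), (ptd_retr U c : G)) := rfl

/-- the prism identity -/
lemma ptd_prism_spec {z : G × G → A} (hz : ptd_IsZ2 ρ z) (x : G × G × G) :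
    ptd_E₂ U ρ (ptd_res₂ U z) x = ptd_hom₂ ρ z x - ptd_D₂ (ptd_prism U ρ z) x := by
  obtain ⟨a, b, c⟩ := x
  rw [ptd_hom₂_retr]
  have e1 := ptd_D₃_hom₂ hz (ptd_retr U a : G) a b c
  have e2 := ptd_D₃_hom₂ hz (ptd_retr U a : G) (ptd_retr U b : G) b c
  have e3 := ptd_D₃_hom₂ hz (ptd_retr U a : G) (ptd_retr U b : G) (ptd_retr U c : G) c
  simp only [ptd_D₃] at e1 e2 e3
  simp only [ptd_D₂, ptd_prism]
  have e1' := sub_eq_zero.mp e1
  have e2' := sub_eq_zero.mp e2
  have e3' := sub_eq_zero.mp e3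
  rw [← e3', ← sub_eq_zero]
  rw [← e1'] 
  rw [← sub_eq_zero] at e2'
  rw [← e2']
  abel

variable {B : Type*} [AddCommGroup B] [Module k B] (ρ' : Representation k G B)

/-- the explicit 1-cochain of the projection formula -/
noncomputable def ptd_projCochain (z : G × G → A) (f : A →+ B) : G → B := fun g =>
  ptd_N U ρ' (fun x => f (ptd_prism U ρ z x)) ((1, g) : G × G)

/-- PROJECTION FORMULA (cochain level): for a 2-cocycle `z` of `G` and a `U`-equivariant
`f : A → B`, `cor (f ∘ res z) = (N f) ∘ z - d(ψ)` with `ψ = ptd_projCochain`. -/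
theorem ptd_cor₂_comp_res {z : G × G → A} (hz : ptd_IsZ2 ρ z) (f : A →+ B)
    (hf : ∀ u ∈ U, ∀ a, f (ρ u a) = ρ' u (f a)) :
    ptd_cor₂ U ρ' (fun x => f (ptd_res₂ U z x))
      = (fun x => ptd_normHom U ρ ρ' f (z x)) - ptd_d1 ρ' (ptd_projCochain U ρ ρ' z f) := by
  have hE : ptd_E₂ U ρ' (fun x => f (ptd_res₂ U z x))
      = (fun x => f (ptd_hom₂ ρ z x)) - ptd_D₂ (fun x => f (ptd_prism U ρ z x)) := by
    funext x
    have h1 : ptd_E₂ U ρ' (fun x => f (ptd_res₂ U z x)) x = f (ptd_E₂ U ρ (ptd_res₂ U z) x) := by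
      obtain ⟨a, b, c⟩ := x
      simp only [ptd_E₂, ptd_ext₂]
      rw [hf _ (ptd_retr U a).2]
    rw [h1, ptd_prism_spec U ρ hz x, map_sub]
    simp only [Pi.sub_apply, ptd_D₂, map_add, map_sub]
  have hequiv : ptd_IsEquivOn U ρ' (fun x => f (ptd_prism U ρ z x)) := by
    intro u hu x
    simp only
    rw [ptd_isEquivOn_prism U ρ z u hu x, hf u hu]
  funext ⟨g, h⟩
  rw [ptd_cor₂_eq, hE, ptd_N_sub, ptd_N_D₂,
    ptd_N_comp (ρ := ρ) (ρ' := ρ') (fun g x => ptd_hom₂_smul ρ z g x) f]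
  simp only [Pi.sub_apply, ptd_d1_apply, ptd_projCochain, ptd_D₂]
  have h0 : ptd_hom₂ ρ z ((1, g, g * h) : G × G × G) = z (g, h) := by
    simp [ptd_hom₂]
  have h2 : ((g, g * h) : G × G) = g • ((1, h) : G × G) := by
    simp [Prod.smul_mk]
  rw [h0, h2, ptd_N_smul hequiv]

/-- `cor ∘ res = index` up to an explicit coboundary -/
theorem ptd_cor₂_res {z : G × G → A} (hz : ptd_IsZ2 ρ z) :
    ptd_cor₂ U ρ (ptd_res₂ U z)
      = U.index • z - ptd_d1 ρ (ptd_projCochain U ρ ρ z (AddMonoidHom.id A)) := by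
  have := ptd_cor₂_comp_res U ρ ρ hz (AddMonoidHom.id A) (fun _ _ _ => rfl)
  simp only [AddMonoidHom.id_apply] at this
  rw [this]
  congr 1
  funext x
  rw [ptd_normHom_of_equivariant (fun _ _ => rfl)]
  simp

/-- naturality of corestriction in the coefficients -/
theorem ptd_cor₂_natural (f : A →+ B) (hf : ∀ g a, f (ρ g a) = ρ' g (f a)) (y : U × U → A) :
    ptd_cor₂ U ρ' (fun x => f (y x)) = fun x => f (ptd_cor₂ U ρ y x) := by
  funext ⟨g, h⟩
  simp only [ptd_cor₂, ptd_ext₂, map_sum, hf]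

theorem ptd_cor₁_natural (f : A →+ B) (hf : ∀ g a, f (ρ g a) = ρ' g (f a)) (φ : U → A) :
    ptd_cor₁ U ρ' (fun x => f (φ x)) = fun x => f (ptd_cor₁ U ρ φ x) := by
  funext g
  simp only [ptd_cor₁, ptd_ext₁, map_sum, hf]

lemma ptd_cor₂_add (y y' : U × U → A) :
    ptd_cor₂ U ρ (y + y') = ptd_cor₂ U ρ y + ptd_cor₂ U ρ y' := by
  funext ⟨g, h⟩
  simp only [ptd_cor₂, ptd_ext₂, Pi.add_apply, map_add, Finset.sum_add_distrib]

lemma ptd_cor₂_nsmul (n : ℕ) (y : U × U → A) :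
    ptd_cor₂ U ρ (n • y) = n • ptd_cor₂ U ρ y := by
  funext ⟨g, h⟩
  simp only [ptd_cor₂, ptd_ext₂, Pi.smul_apply, map_nsmul, Finset.smul_sum]

end Prism

end Fermat.Agent.Lib.PT
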