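/-
S55 (Poitou–Tate long haul), A-track, "ADT-lite": corestriction, part D — level-constancy of
corestricted cochains, and the packaged statements on level cocycles / coboundaries, including
the Sylow-type injectivity of restriction.
-/
import Fermat.Agent.Lib.PT.AdtCorC

set_option autoImplicit false

namespace Fermat.Agent.Lib.PT

section Levels

variable {G : Type*} [Group G] (U : Subgroup G)

/-- the retraction is compatible with right multiplication by a normal subgroup `N ≤ U` -/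
lemma ptd_retr_mul_right (N : Subgroup G) [hN : N.Normal] (hNU : N ≤ U) (g n : G) (hn : n ∈ N) :
    ∃ m : U, (m : G) ∈ N ∧ ptd_retr U (g * n) = ptd_retr U g * m := by
  have hcoset : (QuotientGroup.mk (g * n)⁻¹ : G ⧸ U) = QuotientGroup.mk g⁻¹ := by
    rw [QuotientGroup.eq]
    apply hNU
    have : ((g * n)⁻¹)⁻¹ * g⁻¹ = g * n * g⁻¹ := by group
    rw [this]
    exact hN.conj_mem n hn g
  set t : G := Quotient.out (QuotientGroup.mk g⁻¹ : G ⧸ U) with ht
  have hm : t⁻¹ * n * t ∈ N := by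
    have := hN.conj_mem n hn t⁻¹
    simpa using this
  refine ⟨⟨t⁻¹ * n * t, hNU hm⟩, hm, ?_⟩
  apply Subtype.ext
  simp only [ptd_retr, hcoset, Subgroup.coe_mul]
  rw [← ht]
  group

variable [U.FiniteIndex]
variable {k : Type*} [CommRing k] {A : Type*} [AddCommGroup A] [Module k A]
variable (ρ : Representation k G A)

attribute [local instance] Subgroup.fintypeQuotientOfFiniteIndex

/-- right invariance of a 2-cochain of `U` under (the trace on `U` of) a subgroup `N` -/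
def ptd_RInv₂ {X : Type*} (N : Subgroup G) (y : U × U → X) : Prop :=
  ∀ a b : U, ∀ n n' : U, (n : G) ∈ N → (n' : G) ∈ N → y (a * n, b * n') = y (a, b)

/-- right invariance of a 1-cochain of `U` -/
def ptd_RInv₁ {X : Type*} (N : Subgroup G) (φ : U → X) : Prop :=
  ∀ a : U, ∀ n : U, (n : G) ∈ N → φ (a * n) = φ a

lemma ptd_ext₂_mul_right (N : Subgroup G) [hN : N.Normal] (hNU : N ≤ U) {y : U × U → A}
    (hy : ptd_RInv₂ U N y) (a b c n n' : G) (hn : n ∈ N) (hn' : n' ∈ N) :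
    ptd_ext₂ U ρ y a (b * n) (c * n') = ptd_ext₂ U ρ y a b c := by
  obtain ⟨m, hm, e⟩ := ptd_retr_mul_right U N hNU b n hn
  obtain ⟨m', hm', e'⟩ := ptd_retr_mul_right U N hNU c n' hn'
  simp only [ptd_ext₂, e, e']
  congr 1
  set w : U := (ptd_retr U b)⁻¹ * ptd_retr U c with hw
  have h2 : (ptd_retr U b * m)⁻¹ * (ptd_retr U c * m') = w * (w⁻¹ * m⁻¹ * w * m') := by
    rw [hw]; group
  have h1 : (ptd_retr U a)⁻¹ * (ptd_retr U b * m) = (ptd_retr U a)⁻¹ * ptd_retr U b * m := by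
    group
  rw [h1, h2]
  apply hy _ _ _ _ hm
  have : ((w⁻¹ * m⁻¹ * w * m' : U) : G) = ((w : G)⁻¹ * (m : G)⁻¹ * (w⁻¹ : G)⁻¹) * m' := by
    simp
  rw [this]
  exact N.mul_mem (hN.conj_mem _ (N.inv_mem hm) _) hm'

lemma ptd_ext₁_mul_right (N : Subgroup G) [hN : N.Normal] (hNU : N ≤ U) {φ : U → A}
    (hφ : ptd_RInv₁ U N φ) (a b n : G) (hn : n ∈ N) :
    ptd_ext₁ U ρ φ a (b * n) = ptd_ext₁ U ρ φ a b := by
  obtain ⟨m, hm, e⟩ := ptd_retr_mul_right U N hNU b n hn
  simp only [ptd_ext₁, e]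
  congr 1
  rw [← mul_assoc]
  exact hφ _ _ hm

lemma ptd_cor₂_mul_right (N : Subgroup G) [hN : N.Normal] (hNU : N ≤ U) {y : U × U → A}
    (hy : ptd_RInv₂ U N y) (g h n n' : G) (hn : n ∈ N) (hn' : n' ∈ N) :
    ptd_cor₂ U ρ y (g * n, h * n') = ptd_cor₂ U ρ y (g, h) := by
  simp only [ptd_cor₂]
  refine Finset.sum_congr rfl fun q _ => ?_
  congr 1
  have e1 : q.out⁻¹ * (g * n) = q.out⁻¹ * g * n := by group
  have e2 : q.out⁻¹ * (g * n * (h * n')) = q.out⁻¹ * (g * h) * (h⁻¹ * n * h * n') := by group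
  rw [e1, e2]
  apply ptd_ext₂_mul_right U ρ N hNU hy _ _ _ _ _ hn
  have := hN.conj_mem n hn h⁻¹
  rw [inv_inv] at this
  exact N.mul_mem this hn'

lemma ptd_cor₁_mul_right (N : Subgroup G) [hN : N.Normal] (hNU : N ≤ U) {φ : U → A}
    (hφ : ptd_RInv₁ U N φ) (g n : G) (hn : n ∈ N) :
    ptd_cor₁ U ρ φ (g * n) = ptd_cor₁ U ρ φ g := by
  simp only [ptd_cor₁]
  refine Finset.sum_congr rfl fun q _ => ?_
  congr 1
  rw [← mul_assoc]
  exact ptd_ext₁_mul_right U ρ N hNU hφ _ _ _ hn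

lemma ptd_prism_mul_right (N : Subgroup G) [hN : N.Normal] (hNU : N ≤ U) {z : G × G → A}
    (hz : ∀ g h, ∀ n ∈ N, ∀ n' ∈ N, z (g * n, h * n') = z (g, h)) (a b n : G) (hn : n ∈ N) :
    ptd_prism U ρ z (a, b * n) = ptd_prism U ρ z (a, b) := by
  obtain ⟨m, hm, e⟩ := ptd_retr_mul_right U N hNU b n hn
  simp only [ptd_prism, ptd_hom₂, e, Subgroup.coe_mul]
  congr 2
  · have : a⁻¹ * (b * n) = a⁻¹ * b * n := by group
    rw [this]
    have := hz ((ptd_retr U a : G)⁻¹ * a) (a⁻¹ * b) 1 N.one_mem n hn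
    rwa [mul_one] at this
  · set w : G := (ptd_retr U b : G)⁻¹ * b with hw
    have h1 : ((ptd_retr U b : G) * (m : G))⁻¹ * (b * n) = w * (w⁻¹ * (m : G)⁻¹ * w * n) := by
      rw [hw]; group
    have h2 : (ptd_retr U a : G)⁻¹ * ((ptd_retr U b : G) * (m : G))
        = (ptd_retr U a : G)⁻¹ * (ptd_retr U b : G) * (m : G) := by group
    rw [h1, h2]
    apply hz _ _ _ hm
    have := hN.conj_mem _ (N.inv_mem hm) w⁻¹
    rw [inv_inv] at this
    exact N.mul_mem this hn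

end Levels

end Fermat.Agent.Lib.PT
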