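/-
S55 (Poitou–Tate long haul), A-track, "ADT-lite": corestriction, part E — packaged statements on
level cocycles and level coboundaries: `cor` maps `Z²_lev(U) → Z²_lev(G)`, `B²_lev(U) → B²_lev(G)`,
`cor ∘ res - index ∈ B²_lev`, the projection formula modulo `B²_lev`, and the Sylow-type
injectivity of restriction ("A-sylow").
-/
import Fermat.Agent.Lib.PT.AdtCorD

set_option autoImplicit false

namespace Fermat.Agent.Lib.PT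

section Smul

variable {G : Type*} [Group G] {𝓛 : ptd_Levels G}
variable {k : Type*} [CommRing k] {A : Type*} [AddCommGroup A] [Module k A]
variable {ρ : Representation k G A}

lemma ptd_d1_nsmul (n : ℕ) (φ : G → A) : ptd_d1 ρ (n • φ) = n • ptd_d1 ρ φ := by
  funext ⟨g, h⟩
  simp only [ptd_d1_apply, Pi.smul_apply, map_nsmul, smul_add, smul_sub]

lemma ptd_d1_zsmul (n : ℤ) (φ : G → A) : ptd_d1 ρ (n • φ) = n • ptd_d1 ρ φ := by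
  funext ⟨g, h⟩
  simp only [ptd_d1_apply, Pi.smul_apply, map_zsmul, smul_add, smul_sub]

lemma ptd_IsB2.nsmul {z : G × G → A} (h : ptd_IsB2 𝓛 ρ z) (n : ℕ) : ptd_IsB2 𝓛 ρ (n • z) := by
  obtain ⟨φ, hφ, rfl⟩ := h
  exact ⟨n • φ, hφ.comp (n • ·), (ptd_d1_nsmul n φ).symm⟩

lemma ptd_IsB2.zsmul {z : G × G → A} (h : ptd_IsB2 𝓛 ρ z) (n : ℤ) : ptd_IsB2 𝓛 ρ (n • z) := by
  obtain ⟨φ, hφ, rfl⟩ := h
  exact ⟨n • φ, hφ.comp (n • ·), (ptd_d1_zsmul n φ).symm⟩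

lemma ptd_IsLev₂.nsmul {X : Type*} [AddMonoid X] {f : G × G → X} (hf : ptd_IsLev₂ 𝓛 f) (n : ℕ) :
    ptd_IsLev₂ 𝓛 (n • f) := hf.comp (n • ·)

lemma ptd_IsLZ2.nsmul {z : G × G → A} (h : ptd_IsLZ2 𝓛 ρ z) (n : ℕ) : ptd_IsLZ2 𝓛 ρ (n • z) :=
  ⟨h.1.nsmul n, h.2.nsmul n⟩

end Smul

section Packaged

variable {G : Type*} [Group G] {𝓛 : ptd_Levels G} (U : Subgroup G) (hU : 𝓛.IsOpen U)
variable {k : Type*} [CommRing k] {A : Type*} [AddCommGroup A] [Module k A]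
variable (ρ : Representation k G A)

omit [CommRing k] [AddCommGroup A] [Module k A] in
lemma ptd_IsLev₂.exists_rInv {X : Type*} {y : U × U → X} (hy : ptd_IsLev₂ (𝓛.sub U hU) y) :
    ∃ N ∈ 𝓛.lev, N ≤ U ∧ ptd_RInv₂ U N y := by
  obtain ⟨_, ⟨N, hN, hNU, rfl⟩, h⟩ := hy
  exact ⟨N, hN, hNU, fun a b n n' hn hn' =>
    h a b n (Subgroup.mem_subgroupOf.mpr hn) n' (Subgroup.mem_subgroupOf.mpr hn')⟩

omit [CommRing k] [AddCommGroup A] [Module k A] in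
lemma ptd_IsLev₁.exists_rInv {X : Type*} {φ : U → X} (hφ : ptd_IsLev₁ (𝓛.sub U hU) φ) :
    ∃ N ∈ 𝓛.lev, N ≤ U ∧ ptd_RInv₁ U N φ := by
  obtain ⟨_, ⟨N, hN, hNU, rfl⟩, h⟩ := hφ
  exact ⟨N, hN, hNU, fun a n hn => h a n (Subgroup.mem_subgroupOf.mpr hn)⟩

variable [U.FiniteIndex]

theorem ptd_isLev₂_cor₂ {y : U × U → A} (hy : ptd_IsLev₂ (𝓛.sub U hU) y) :
    ptd_IsLev₂ 𝓛 (ptd_cor₂ U ρ y) := by
  obtain ⟨N, hN, hNU, h⟩ := hy.exists_rInv U hU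
  have := 𝓛.normal N hN
  exact ⟨N, hN, fun g h' n hn n' hn' => ptd_cor₂_mul_right U ρ N hNU h g h' n n' hn hn'⟩

theorem ptd_isLev₁_cor₁ {φ : U → A} (hφ : ptd_IsLev₁ (𝓛.sub U hU) φ) :
    ptd_IsLev₁ 𝓛 (ptd_cor₁ U ρ φ) := by
  obtain ⟨N, hN, hNU, h⟩ := hφ.exists_rInv U hU
  have := 𝓛.normal N hN
  exact ⟨N, hN, fun g n hn => ptd_cor₁_mul_right U ρ N hNU h g n hn⟩

variable {B : Type*} [AddCommGroup B] [Module k B] (ρ' : Representation k G B)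

include hU in
theorem ptd_isLev₁_projCochain {z : G × G → A} (hz : ptd_IsLev₂ 𝓛 z) (f : A →+ B) :
    ptd_IsLev₁ 𝓛 (ptd_projCochain U ρ ρ' z f) := by
  obtain ⟨N, hN, hzN⟩ := hz
  obtain ⟨N', hN', hN'U⟩ := hU
  obtain ⟨N'', hN'', hle⟩ := 𝓛.directed N hN N' hN'
  have := 𝓛.normal N'' hN''
  refine ⟨N'', hN'', fun g n hn => ?_⟩
  simp only [ptd_projCochain, ptd_N, Prod.smul_mk, smul_eq_mul]
  refine Finset.sum_congr rfl fun q _ => ?_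
  congr 2
  rw [← mul_assoc]
  exact ptd_prism_mul_right U ρ N'' ((hle.trans inf_le_right).trans hN'U)
    (fun g h n hn n' hn' => hzN g h n (hle hn).1 n' (hle hn').1) _ _ _ hn

theorem ptd_isLZ2_cor₂ {y : U × U → A} (hy : ptd_IsLZ2 (𝓛.sub U hU) (ptd_resRep ρ U) y) :
    ptd_IsLZ2 𝓛 ρ (ptd_cor₂ U ρ y) :=
  ⟨ptd_isZ2_cor₂ U ρ hy.1, ptd_isLev₂_cor₂ U hU ρ hy.2⟩

theorem ptd_isB2_cor₂ {y : U × U → A} (hy : ptd_IsB2 (𝓛.sub U hU) (ptd_resRep ρ U) y) :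
    ptd_IsB2 𝓛 ρ (ptd_cor₂ U ρ y) := by
  obtain ⟨φ, hφ, rfl⟩ := hy
  exact ⟨ptd_cor₁ U ρ φ, ptd_isLev₁_cor₁ U hU ρ hφ, ptd_cor₂_d1 U ρ φ⟩

theorem ptd_isLZ2p_cor₂ {p : ℕ} {y : U × U → A}
    (hy : ptd_IsLZ2p (𝓛.sub U hU) (ptd_resRep ρ U) p y) :
    ptd_IsLZ2p 𝓛 ρ p (ptd_cor₂ U ρ y) := by
  refine ⟨ptd_isLZ2_cor₂ U hU ρ hy.1, ?_⟩
  rw [← ptd_cor₂_nsmul]
  exact ptd_isB2_cor₂ U hU ρ hy.2

omit [U.FiniteIndex] in
lemma ptd_res₂_d1 (φ : G → A) :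
    ptd_res₂ U (ptd_d1 ρ φ) = ptd_d1 (ptd_resRep ρ U) (ptd_res₁ U φ) := by
  funext ⟨a, b⟩
  simp [ptd_res₂, ptd_res₁, ptd_d1]

omit [U.FiniteIndex] in
theorem ptd_isLZ2_res₂ {z : G × G → A} (hz : ptd_IsLZ2 𝓛 ρ z) :
    ptd_IsLZ2 (𝓛.sub U hU) (ptd_resRep ρ U) (ptd_res₂ U z) :=
  ⟨fun g h j => hz.1 g h j, hz.2.res U hU⟩

omit [U.FiniteIndex] in
theorem ptd_isB2_res₂ {z : G × G → A} (hz : ptd_IsB2 𝓛 ρ z) :
    ptd_IsB2 (𝓛.sub U hU) (ptd_resRep ρ U) (ptd_res₂ U z) := by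
  obtain ⟨φ, hφ, rfl⟩ := hz
  exact ⟨ptd_res₁ U φ, hφ.res U hU, ptd_res₂_d1 U ρ φ⟩

include hU in
/-- `cor ∘ res = index` on level classes -/
theorem ptd_cor₂_res_sub_isB2 {z : G × G → A} (hz : ptd_IsLZ2 𝓛 ρ z) :
    ptd_IsB2 𝓛 ρ (U.index • z - ptd_cor₂ U ρ (ptd_res₂ U z)) := by
  refine ⟨ptd_projCochain U ρ ρ z (AddMonoidHom.id A),
    ptd_isLev₁_projCochain U hU ρ ρ hz.2 _, ?_⟩
  rw [ptd_cor₂_res U ρ hz.1]
  abel

include hU in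
/-- PROJECTION FORMULA on level classes -/
theorem ptd_cor₂_comp_res_sub_isB2 {z : G × G → A} (hz : ptd_IsLZ2 𝓛 ρ z) (f : A →+ B)
    (hf : ∀ u ∈ U, ∀ a, f (ρ u a) = ρ' u (f a)) :
    ptd_IsB2 𝓛 ρ' ((fun x => ptd_normHom U ρ ρ' f (z x))
      - ptd_cor₂ U ρ' (fun x => f (ptd_res₂ U z x))) := by
  refine ⟨ptd_projCochain U ρ ρ' z f, ptd_isLev₁_projCochain U hU ρ ρ' hz.2 _, ?_⟩
  rw [ptd_cor₂_comp_res U ρ ρ' hz.1 f hf]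
  abel

/-- "A-SYLOW": if the index of `U` is prime to `p`, a level cocycle whose class is killed by `p`
and by restriction to `U` is a level coboundary. -/
theorem ptd_isB2_of_res₂ {p : ℕ} (hp : Nat.Coprime U.index p) {z : G × G → A}
    (hz : ptd_IsLZ2p 𝓛 ρ p z)
    (hres : ptd_IsB2 (𝓛.sub U hU) (ptd_resRep ρ U) (ptd_res₂ U z)) : ptd_IsB2 𝓛 ρ z := by
  have h1 : ptd_IsB2 𝓛 ρ (U.index • z) := by
    have := (ptd_cor₂_res_sub_isB2 U hU ρ hz.1).add (ptd_isB2_cor₂ U hU ρ hres)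
    simpa using this
  have h2 : ptd_IsB2 𝓛 ρ (p • z) := hz.2
  have hb : (U.index : ℤ) * Nat.gcdA U.index p + (p : ℤ) * Nat.gcdB U.index p = 1 := by
    have := Nat.gcd_eq_gcd_ab U.index p
    rw [hp] at this
    simpa using this.symm
  have : z = (Nat.gcdA U.index p) • (U.index • z) + (Nat.gcdB U.index p) • (p • z) := by
    rw [← natCast_zsmul z U.index, ← natCast_zsmul z p, smul_smul, smul_smul, ← add_smul,
      mul_comm _ (U.index : ℤ), mul_comm _ (p : ℤ), hb, one_smul]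
  rw [this]
  exact (h1.zsmul _).add (h2.zsmul _)

end Packaged

end Fermat.Agent.Lib.PT
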