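/-
S55 (Poitou–Tate long haul), abstract class formation from an idelic invariant (ABS), part 1:
Bockstein cocycles `a · δχ` for characters `χ : G → ZMod m` of arbitrary modulus `m ≠ 0`
(helper3's `ptd_bock`, `ptd_bockSmul` with `p := m`), kernels of characters.
-/
import Fermat.Agent.Lib.PT.AdtCorE

set_option autoImplicit false
set_option linter.unusedSectionVars false

namespace Fermat.Agent.Lib.PT

section Char

variable {G : Type*} [Group G] {m : ℕ}

lemma ptn_char_one {χ : G → ZMod m} (hχ : ptd_IsChar χ) : χ 1 = 0 := by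
  have := hχ 1 1
  rw [mul_one] at this
  exact left_eq_add.mp this

lemma ptn_char_inv {χ : G → ZMod m} (hχ : ptd_IsChar χ) (g : G) : χ g⁻¹ = -χ g := by
  have := hχ g g⁻¹
  rw [mul_inv_cancel, ptn_char_one hχ] at this
  exact eq_neg_of_add_eq_zero_right this.symm

lemma ptn_char_pow {χ : G → ZMod m} (hχ : ptd_IsChar χ) (g : G) (n : ℕ) :
    χ (g ^ n) = n • χ g := by
  induction n with
  | zero => simp [ptn_char_one hχ]
  | succ n ih => rw [pow_succ, hχ, ih, succ_nsmul]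

/-- the kernel of a character -/
def ptn_charKer {χ : G → ZMod m} (hχ : ptd_IsChar χ) : Subgroup G where
  carrier := {g | χ g = 0}
  one_mem' := ptn_char_one hχ
  mul_mem' := fun {a b} ha hb => by
    show χ (a * b) = 0
    rw [hχ, ha, hb, add_zero]
  inv_mem' := fun {a} ha => by
    show χ a⁻¹ = 0
    rw [ptn_char_inv hχ, ha, neg_zero]

lemma ptn_mem_charKer {χ : G → ZMod m} (hχ : ptd_IsChar χ) {g : G} :
    g ∈ ptn_charKer hχ ↔ χ g = 0 := Iff.rfl

instance ptn_charKer_normal {χ : G → ZMod m} (hχ : ptd_IsChar χ) : (ptn_charKer hχ).Normal where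
  conj_mem n hn g := by
    rw [ptn_mem_charKer] at hn ⊢
    rw [hχ, hχ, hn, ptn_char_inv hχ]
    abel

/-- `χ` is right-invariant under its kernel -/
lemma ptn_char_mul_ker {χ : G → ZMod m} (hχ : ptd_IsChar χ) (g : G) {n : G}
    (hn : n ∈ ptn_charKer hχ) : χ (g * n) = χ g := by
  rw [hχ, (ptn_mem_charKer hχ).mp hn, add_zero]

/-- a level character has open kernel -/
lemma ptn_charKer_isOpen {𝓛 : ptd_Levels G} {χ : G → ZMod m} (hχ : ptd_IsChar χ)
    (hlev : ptd_IsLev₁ 𝓛 χ) : 𝓛.IsOpen (ptn_charKer hχ) := by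
  obtain ⟨N, hN, h⟩ := hlev
  refine ⟨N, hN, fun n hn => ?_⟩
  rw [ptn_mem_charKer]
  have := h 1 n hn
  rwa [one_mul, ptn_char_one hχ] at this

/-- the `m`-th power of any element lies in the kernel of a character mod `m` -/
lemma ptn_pow_mem_charKer {χ : G → ZMod m} (hχ : ptd_IsChar χ) (g : G) :
    g ^ m ∈ ptn_charKer hχ := by
  rw [ptn_mem_charKer, ptn_char_pow hχ]
  simp

/-- restriction of a character to a subgroup -/
lemma ptn_isChar_res {χ : G → ZMod m} (hχ : ptd_IsChar χ) (V : Subgroup G) :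
    ptd_IsChar (fun v : V => χ v) := fun g h => hχ g h

end Char

section Bock

variable {G : Type*} [Group G] {m : ℕ} [NeZero m]

lemma ptn_mul_bock {χ : G → ZMod m} (hχ : ptd_IsChar χ) (g h : G) :
    (m : ℤ) * ptd_bock m χ (g, h) =
      ((χ h).val : ℤ) - ((χ (g * h)).val : ℤ) + ((χ g).val : ℤ) := by
  have hdvd : (m : ℤ) ∣ ((χ h).val : ℤ) - ((χ (g * h)).val : ℤ) + ((χ g).val : ℤ) := by
    rw [← ZMod.intCast_zmod_eq_zero_iff_dvd]
    push_cast
    simp only [ZMod.natCast_val, ZMod.cast_id', id_eq]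
    rw [hχ g h]; ring
  exact Int.mul_ediv_cancel' hdvd

lemma ptn_bock_cocycle {χ : G → ZMod m} (hχ : ptd_IsChar χ) (g h j : G) :
    ptd_bock m χ (g * h, j) + ptd_bock m χ (g, h) =
      ptd_bock m χ (h, j) + ptd_bock m χ (g, h * j) := by
  have hm : (m : ℤ) ≠ 0 := by exact_mod_cast (NeZero.ne m)
  apply mul_left_cancel₀ hm
  rw [mul_add, mul_add, ptn_mul_bock hχ, ptn_mul_bock hχ, ptn_mul_bock hχ, ptn_mul_bock hχ,
    mul_assoc]
  ring

variable {k : Type*} [CommRing k] {A : Type*} [AddCommGroup A] [Module k A]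
variable {ρ : Representation k G A}

lemma ptn_bockSmul_apply (χ : G → ZMod m) (c : A) (x : G × G) :
    ptd_bockSmul m χ c x = ptd_bock m χ x • c := rfl

lemma ptn_isZ2_bockSmul {χ : G → ZMod m} (hχ : ptd_IsChar χ) {c : A} (hc : ∀ g, ρ g c = c) :
    ptd_IsZ2 ρ (ptd_bockSmul m χ c) := by
  intro g h j
  simp only [ptn_bockSmul_apply, map_zsmul, hc]
  rw [← add_smul, ← add_smul, ptn_bock_cocycle hχ]

lemma ptn_bockSmul_add (χ : G → ZMod m) (c c' : A) :
    ptd_bockSmul m χ (c + c') = ptd_bockSmul m χ c + ptd_bockSmul m χ c' := by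
  funext x
  simp only [ptn_bockSmul_apply, Pi.add_apply, smul_add]

lemma ptn_bockSmul_zsmul (χ : G → ZMod m) (n : ℤ) (c : A) :
    ptd_bockSmul m χ (n • c) = n • ptd_bockSmul m χ c := by
  funext x
  simp only [ptn_bockSmul_apply, Pi.smul_apply]
  rw [smul_comm]

lemma ptn_bockSmul_nsmul (χ : G → ZMod m) (n : ℕ) (c : A) :
    ptd_bockSmul m χ (n • c) = n • ptd_bockSmul m χ c := by
  funext x
  simp only [ptn_bockSmul_apply, Pi.smul_apply]
  rw [smul_comm]

lemma ptn_map_bockSmul {B : Type*} [AddCommGroup B] (f : A →+ B) (χ : G → ZMod m) (c : A) :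
    (fun x => f (ptd_bockSmul m χ c x)) = ptd_bockSmul m χ (f c) := by
  funext x
  simp only [ptn_bockSmul_apply, map_zsmul]

/-- `m • (c · δχ)` is the coboundary of `g ↦ χ̃(g) • c` -/
lemma ptn_nsmul_bockSmul {χ : G → ZMod m} (hχ : ptd_IsChar χ) {c : A} (hc : ∀ g, ρ g c = c) :
    m • ptd_bockSmul m χ c = ptd_d1 ρ (fun g => ((χ g).val : ℤ) • c) := by
  funext ⟨g, h⟩
  simp only [Pi.smul_apply, ptn_bockSmul_apply, ptd_d1_apply, map_zsmul, hc]
  rw [← natCast_zsmul, smul_smul, ptn_mul_bock hχ, add_smul, sub_smul]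

lemma ptn_isB2_nsmul_bockSmul {𝓛 : ptd_Levels G} {χ : G → ZMod m} (hχ : ptd_IsChar χ)
    (hlev : ptd_IsLev₁ 𝓛 χ) {c : A} (hc : ∀ g, ρ g c = c) :
    ptd_IsB2 𝓛 ρ (m • ptd_bockSmul m χ c) :=
  ⟨_, hlev.comp (fun a => ((a.val : ℕ) : ℤ) • c), ptn_nsmul_bockSmul hχ hc⟩

omit [NeZero m] in
lemma ptn_isLev₂_bock {𝓛 : ptd_Levels G} {χ : G → ZMod m} (hlev : ptd_IsLev₁ 𝓛 χ) :
    ptd_IsLev₂ 𝓛 (ptd_bock m χ) := by
  have h1 : ptd_IsLev₂ 𝓛 (fun x : G × G => ((χ x.2).val : ℤ)) :=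
    hlev.snd.comp (fun a => ((a.val : ℕ) : ℤ))
  have h2 : ptd_IsLev₂ 𝓛 (fun x : G × G => ((χ (x.1 * x.2)).val : ℤ)) :=
    hlev.mul.comp (fun a => ((a.val : ℕ) : ℤ))
  have h3 : ptd_IsLev₂ 𝓛 (fun x : G × G => ((χ x.1).val : ℤ)) :=
    hlev.fst.comp (fun a => ((a.val : ℕ) : ℤ))
  exact ((h1.sub h2).add h3).comp (· / (m : ℤ))

omit [NeZero m] in
lemma ptn_isLev₂_bockSmul {𝓛 : ptd_Levels G} {χ : G → ZMod m} (hlev : ptd_IsLev₁ 𝓛 χ) (c : A) :
    ptd_IsLev₂ 𝓛 (ptd_bockSmul m χ c) :=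
  (ptn_isLev₂_bock hlev).comp (· • c)

/-- the Bockstein cocycle is right-invariant under the kernel of the character -/
lemma ptn_bock_mul_ker {χ : G → ZMod m} (hχ : ptd_IsChar χ) (g h : G) {n n' : G}
    (hn : n ∈ ptn_charKer hχ) (hn' : n' ∈ ptn_charKer hχ) :
    ptd_bock m χ (g * n, h * n') = ptd_bock m χ (g, h) := by
  have h1 : g * n * (h * n') = g * h * ((h⁻¹ * n * h) * n') := by group
  have h2 : h⁻¹ * n * h ∈ ptn_charKer hχ := by
    have := (ptn_charKer_normal hχ).conj_mem n hn h⁻¹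
    simpa using this
  simp only [ptd_bock]
  rw [h1, ptn_char_mul_ker hχ g hn, ptn_char_mul_ker hχ h hn',
    ptn_char_mul_ker hχ (g * h) (mul_mem h2 hn')]

end Bock

end Fermat.Agent.Lib.PT
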