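/-
S55 (Poitou–Tate long haul), bridge "finite levels ⇒ big model": the target group of the invariant
maps, `ptn_T p = ℚ / ℤ_(p)` (`≅ ℚ_p/ℤ_p ≅ ℤ[1/p]/ℤ`), with the two arithmetic lemmas used for
well-definedness.
-/
import Mathlib

set_option autoImplicit false

namespace Fermat.Agent.Lib.PT

/-- the `p`-integral rational numbers, as an additive subgroup of `ℚ` -/
def ptn_pInt (p : ℕ) [hp : Fact p.Prime] : AddSubgroup ℚ where
  carrier := {q | ∃ m : ℕ, ¬ p ∣ m ∧ ∃ j : ℤ, (m : ℚ) * q = j}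
  zero_mem' := ⟨1, by simpa using hp.out.one_lt.ne', 0, by simp⟩
  add_mem' := by
    rintro a b ⟨m, hm, j, hj⟩ ⟨m', hm', j', hj'⟩
    refine ⟨m * m', fun h => ?_, m' * j + m * j', ?_⟩
    · rcases (Nat.Prime.dvd_mul hp.out).mp h with h | h
      · exact hm h
      · exact hm' h
    · push_cast
      rw [← hj, ← hj']; ring
  neg_mem' := by
    rintro a ⟨m, hm, j, hj⟩
    exact ⟨m, hm, -j, by push_cast; rw [← hj]; ring⟩

/-- `ℚ / ℤ_(p)`, the target of the `p`-primary invariant maps -/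
abbrev ptn_T (p : ℕ) [Fact p.Prime] : Type := ℚ ⧸ ptn_pInt p

variable {p : ℕ} [hp : Fact p.Prime]

lemma ptn_mem_pInt_iff (q : ℚ) :
    q ∈ ptn_pInt p ↔ ∃ m : ℕ, ¬ p ∣ m ∧ ∃ j : ℤ, (m : ℚ) * q = j := Iff.rfl

lemma ptn_intCast_mem_pInt (j : ℤ) : (j : ℚ) ∈ ptn_pInt p :=
  ⟨1, by simpa using hp.out.one_lt.ne', j, by simp⟩

/-- the class of `n / d` in `ℚ / ℤ_(p)` -/
noncomputable def ptn_frac (p : ℕ) [Fact p.Prime] (n : ℤ) (d : ℕ) : ptn_T p :=
  QuotientAddGroup.mk ((n : ℚ) / (d : ℚ))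

lemma ptn_frac_add (n n' : ℤ) (d : ℕ) : ptn_frac p (n + n') d = ptn_frac p n d + ptn_frac p n' d := by
  unfold ptn_frac
  rw [← QuotientAddGroup.mk_add]
  congr 1
  push_cast; ring

lemma ptn_frac_zero (d : ℕ) : ptn_frac p 0 d = 0 := by
  unfold ptn_frac
  simp

lemma ptn_frac_neg (n : ℤ) (d : ℕ) : ptn_frac p (-n) d = -ptn_frac p n d := by
  unfold ptn_frac
  rw [← QuotientAddGroup.mk_neg]
  congr 1
  push_cast; ring

lemma ptn_frac_smul (a : ℤ) (n : ℤ) (d : ℕ) : ptn_frac p (a * n) d = a • ptn_frac p n d := by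
  unfold ptn_frac
  rw [← QuotientAddGroup.mk_zsmul]
  congr 1
  push_cast
  rw [zsmul_eq_mul]; ring

/-- cancelling a common factor -/
lemma ptn_frac_mul_right (n : ℤ) (d e : ℕ) (he : e ≠ 0) :
    ptn_frac p (n * e) (d * e) = ptn_frac p n d := by
  unfold ptn_frac
  congr 1
  push_cast
  have : (e : ℚ) ≠ 0 := by exact_mod_cast he
  rw [mul_div_mul_right _ _ this]

lemma ptn_frac_aux (n₁ n₂ j : ℚ) (m₁ m₂ P D : ℚ) (hP : P ≠ 0) (hD : D ≠ 0) (hm₁ : m₁ ≠ 0)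
    (hm₂ : m₂ ≠ 0) (hj : m₂ * n₁ - m₁ * n₂ = P * j) :
    m₁ * m₂ * D * (-(n₁ / (m₁ * (P * D))) + n₂ / (m₂ * (P * D))) = -j := by
  field_simp
  linear_combination (-1 : ℚ) * hj

/-- `e • (n / (d e)) = n / d` -/
lemma ptn_nsmul_frac (n : ℤ) (d e : ℕ) (he : e ≠ 0) :
    e • ptn_frac p n (d * e) = ptn_frac p n d := by
  unfold ptn_frac
  rw [← QuotientAddGroup.mk_nsmul]
  congr 1
  have : (e : ℚ) ≠ 0 := by exact_mod_cast he
  push_cast
  rw [nsmul_eq_mul]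
  by_cases hd : (d : ℚ) = 0
  · simp [hd]
  · field_simp

/-- **Comparison criterion**: `n₁/(m₁ d) = n₂/(m₂ d)` in `ℚ / ℤ_(p)` as soon as `p ∤ m₁ m₂` and the
`p`-part of `d` divides `m₂ n₁ - m₁ n₂`. -/
lemma ptn_frac_eq_of_dvd (n₁ n₂ : ℤ) (m₁ m₂ d : ℕ) (hd : d ≠ 0) (hm₁ : ¬ p ∣ m₁) (hm₂ : ¬ p ∣ m₂)
    (h : ((p ^ d.factorization p : ℕ) : ℤ) ∣ m₂ * n₁ - m₁ * n₂) :
    ptn_frac p n₁ (m₁ * d) = ptn_frac p n₂ (m₂ * d) := by
  unfold ptn_frac
  rw [QuotientAddGroup.eq]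
  obtain ⟨j, hj⟩ := h
  have hm₁0 : (m₁ : ℚ) ≠ 0 := by
    have : m₁ ≠ 0 := fun h0 => hm₁ (h0 ▸ dvd_zero p)
    exact_mod_cast this
  have hm₂0 : (m₂ : ℚ) ≠ 0 := by
    have : m₂ ≠ 0 := fun h0 => hm₂ (h0 ▸ dvd_zero p)
    exact_mod_cast this
  have hdec : (p ^ d.factorization p) * (d / p ^ d.factorization p) = d :=
    Nat.ordProj_mul_ordCompl_eq_self d p
  have hnd : ¬ p ∣ d / p ^ d.factorization p := Nat.not_dvd_ordCompl hp.out hd
  generalize hPdef : p ^ d.factorization p = P at hdec hnd hj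
  generalize hDdef : d / P = D at hdec hnd
  subst hdec
  have hP0 : (P : ℚ) ≠ 0 := by
    have : P ≠ 0 := fun h0 => hd (by rw [h0, zero_mul])
    exact_mod_cast this
  have hD0 : (D : ℚ) ≠ 0 := by
    have : D ≠ 0 := fun h0 => hd (by rw [h0, mul_zero])
    exact_mod_cast this
  refine ⟨m₁ * m₂ * D, fun hdvd => ?_, -j, ?_⟩
  · rcases (Nat.Prime.dvd_mul hp.out).mp hdvd with h' | h'
    · rcases (Nat.Prime.dvd_mul hp.out).mp h' with h'' | h''
      · exact hm₁ h''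
      · exact hm₂ h''
    · exact hnd h'
  · have hjQ : (m₂ : ℚ) * n₁ - m₁ * n₂ = (P : ℚ) * j := by exact_mod_cast hj
    push_cast
    exact ptn_frac_aux _ _ _ _ _ _ _ hP0 hD0 hm₁0 hm₂0 hjQ

/-- **Vanishing criterion**: `n / d = 0` in `ℚ / ℤ_(p)` iff the `p`-part of `d` divides `n`. -/
lemma ptn_frac_eq_zero_iff (n : ℤ) (d : ℕ) (hd : d ≠ 0) :
    ptn_frac p n d = 0 ↔ ((p ^ d.factorization p : ℕ) : ℤ) ∣ n := by
  have hdec : (p ^ d.factorization p) * (d / p ^ d.factorization p) = d :=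
    Nat.ordProj_mul_ordCompl_eq_self d p
  have hnd : ¬ p ∣ d / p ^ d.factorization p := Nat.not_dvd_ordCompl hp.out hd
  constructor
  · intro h
    unfold ptn_frac at h
    rw [QuotientAddGroup.eq_zero_iff] at h
    obtain ⟨m, hm, j, hj⟩ := h
    have hd0 : (d : ℚ) ≠ 0 := by exact_mod_cast hd
    have h1 : (m : ℤ) * n = j * d := by
      have : (m : ℚ) * n = j * d := by
        field_simp at hj
        linear_combination hj
      exact_mod_cast this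
    have h2 : ((p ^ d.factorization p : ℕ) : ℤ) ∣ (m : ℤ) * n := by
      rw [h1]
      refine Dvd.dvd.mul_left ?_ j
      exact_mod_cast Nat.ordProj_dvd d p
    have hcop : IsCoprime ((p ^ d.factorization p : ℕ) : ℤ) (m : ℤ) := by
      rw [Int.isCoprime_iff_gcd_eq_one, Int.gcd_natCast_natCast]
      exact Nat.Coprime.pow_left _ ((Nat.Prime.coprime_iff_not_dvd hp.out).mpr hm)
    exact hcop.dvd_of_dvd_mul_left h2
  · intro h
    have := ptn_frac_eq_of_dvd (p := p) n 0 1 1 d hd (by simpa using hp.out.one_lt.ne')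
      (by simpa using hp.out.one_lt.ne') (by simpa using h)
    rw [one_mul] at this
    rw [this, ptn_frac_zero]

/-- `ℚ / ℤ_(p)` is `p`-primary torsion: `d • (n/d) = 0`. -/
lemma ptn_smul_frac (n : ℤ) (d : ℕ) (hd : d ≠ 0) : d • ptn_frac p n d = 0 := by
  unfold ptn_frac
  rw [← QuotientAddGroup.mk_nsmul, QuotientAddGroup.eq_zero_iff]
  have hd0 : (d : ℚ) ≠ 0 := by exact_mod_cast hd
  have : d • ((n : ℚ) / d) = n := by
    rw [nsmul_eq_mul]; field_simp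
  rw [this]
  exact ptn_intCast_mem_pInt n

end Fermat.Agent.Lib.PT
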