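/-
S55 (Poitou–Tate long haul), bridge "finite levels ⇒ big model", part I: the invariant map of an
abstract *fundamental system*.

A fundamental system on `(G, 𝓛, ρC)` at `p` is a family of level 2-cocycles `u N` (`N` a level)
such that `u N ∼ [N : N'] u N'` up to prime-to-`p` torsion, every level 2-cocycle with `p`-torsion
class is cohomologous to a multiple of some `u N`, and the class of `u N` has `p`-part of its order
equal to the `p`-part of `[G : N]`.  From this we construct `ptn_inv F : ptd_Inv 𝓛 ρC (ptn_T p) p`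
with `ptn_inv F z = n / (m [G : N])` whenever `m • z ∼ n • u N`, `p ∤ m` (`ptn_inv_eq`), and prove
its injectivity on `p`-torsion classes (`ptn_inv_eq_zero_iff`).
-/
import Fermat.Agent.Lib.PT.AdtCorE
import Fermat.Agent.Lib.PT.BrgT

set_option autoImplicit false

namespace Fermat.Agent.Lib.PT

section Aux

variable {G : Type*} [Group G] {𝓛 : ptd_Levels G}
variable {k : Type*} [CommRing k] {A : Type*} [AddCommGroup A] [Module k A]
variable {ρ : Representation k G A}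

lemma ptn_isLev₂_zsmul {z : G × G → A} (h : ptd_IsLev₂ 𝓛 z) (n : ℤ) : ptd_IsLev₂ 𝓛 (n • z) :=
  h.comp (n • ·)

lemma ptn_isZ2_zsmul {z : G × G → A} (h : ptd_IsZ2 ρ z) (n : ℤ) : ptd_IsZ2 ρ (n • z) := by
  intro g a b
  simp only [Pi.smul_apply, map_zsmul]
  rw [← smul_add, h g a b, smul_add]

lemma ptn_isLZ2_zsmul {z : G × G → A} (h : ptd_IsLZ2 𝓛 ρ z) (n : ℤ) : ptd_IsLZ2 𝓛 ρ (n • z) :=
  ⟨ptn_isZ2_zsmul h.1 n, ptn_isLev₂_zsmul h.2 n⟩

/-- if `IsB2 (a • z)` and `IsB2 (b • z)` with `a`, `b` coprime then `IsB2 z` -/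
lemma ptn_isB2_of_coprime {z : G × G → A} {a b : ℕ} (hab : Nat.Coprime a b)
    (ha : ptd_IsB2 𝓛 ρ (a • z)) (hb : ptd_IsB2 𝓛 ρ (b • z)) : ptd_IsB2 𝓛 ρ z := by
  have hbez : (a : ℤ) * Nat.gcdA a b + (b : ℤ) * Nat.gcdB a b = 1 := by
    have := Nat.gcd_eq_gcd_ab a b
    rw [hab.gcd_eq_one] at this
    rw [← this]; simp
  have h := (ha.zsmul (Nat.gcdA a b)).add (hb.zsmul (Nat.gcdB a b))
  have h2 : Nat.gcdA a b • a • z + Nat.gcdB a b • b • z = z := by
    rw [← natCast_zsmul z a, ← natCast_zsmul z b, smul_smul, smul_smul, ← add_smul,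
      mul_comm _ (a : ℤ), mul_comm _ (b : ℤ), hbez, one_smul]
  rwa [h2] at h

end Aux

section FundSys

variable {G : Type*} [Group G] {C : Type*} [AddCommGroup C]

/-- An abstract **fundamental system** at `p` on `(G, 𝓛, ρC)`. -/
structure ptn_FundSys (𝓛 : ptd_Levels G) (ρC : Representation ℤ G C) (p : ℕ) where
  /-- the fundamental cocycles, indexed by (level) subgroups -/
  u : Subgroup G → G × G → C
  isLZ2 : ∀ N ∈ 𝓛.lev, ptd_IsLZ2 𝓛 ρC (u N)
  /-- `u N ∼ [N : N'] u N'` up to prime-to-`p` torsion -/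
  compat : ∀ N ∈ 𝓛.lev, ∀ N' ∈ 𝓛.lev, N' ≤ N → ∃ m : ℕ, ¬ p ∣ m ∧
    ptd_IsB2 𝓛 ρC (m • (u N - (N'.relIndex N) • u N'))
  /-- classes killed by `p` are multiples of fundamental classes -/
  gen : ∀ z : G × G → C, ptd_IsLZ2p 𝓛 ρC p z →
    ∃ N ∈ 𝓛.lev, ∃ n : ℤ, ptd_IsB2 𝓛 ρC (z - n • u N)
  /-- the `p`-part of the order of the class of `u N` is the `p`-part of `[G : N]` -/
  ord : ∀ N ∈ 𝓛.lev, ∀ n : ℤ, ptd_IsB2 𝓛 ρC (n • u N) →
    ((p ^ (N.index).factorization p : ℕ) : ℤ) ∣ n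
  /-- `[G : N]` kills the class of `u N` -/
  tors : ∀ N ∈ 𝓛.lev, ptd_IsB2 𝓛 ρC (N.index • u N)

variable {𝓛 : ptd_Levels G} {ρC : Representation ℤ G C} {p : ℕ} [hp : Fact p.Prime]

/-- `m • z ∼ n • u N` with `p ∤ m` -/
def ptn_Rel (F : ptn_FundSys 𝓛 ρC p) (z : G × G → C) (N : Subgroup G) (n : ℤ) (m : ℕ) : Prop :=
  N ∈ 𝓛.lev ∧ ¬ p ∣ m ∧ ptd_IsB2 𝓛 ρC (m • z - n • F.u N)

lemma ptn_index_ne_zero {N : Subgroup G} (hN : N ∈ 𝓛.lev) : N.index ≠ 0 :=
  (𝓛.finiteIndex N hN).index_ne_zero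

/-- passing to a deeper level does not change the value -/
lemma ptn_Rel.deepen {F : ptn_FundSys 𝓛 ρC p} {z : G × G → C} {N : Subgroup G} {n : ℤ} {m : ℕ}
    (h : ptn_Rel F z N n m) {N' : Subgroup G} (hN' : N' ∈ 𝓛.lev) (hle : N' ≤ N) :
    ∃ (n' : ℤ) (m' : ℕ), ptn_Rel F z N' n' m' ∧
      ptn_frac p n' (m' * N'.index) = ptn_frac p n (m * N.index) := by
  obtain ⟨hN, hm, hB⟩ := h
  obtain ⟨m₀, hm₀, hB₀⟩ := F.compat N hN N' hN' hle
  refine ⟨n * (m₀ * N'.relIndex N : ℕ), m * m₀, ⟨hN', fun hd => ?_, ?_⟩, ?_⟩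
  · rcases (Nat.Prime.dvd_mul hp.out).mp hd with h | h
    · exact hm h
    · exact hm₀ h
  · have h1 := (hB.nsmul m₀).add (hB₀.zsmul n)
    have h2 : m₀ • (m • z - n • F.u N) + n • m₀ • (F.u N - N'.relIndex N • F.u N') =
        (m * m₀) • z - (n * (m₀ * N'.relIndex N : ℕ)) • F.u N' := by
      funext x
      simp only [Pi.add_apply, Pi.sub_apply, Pi.smul_apply, smul_sub, mul_smul, Nat.cast_mul,
        natCast_zsmul]
      rw [smul_comm m₀ m, smul_comm m₀ n (F.u N x)]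
      abel
    rwa [h2] at h1
  · have hidx : N'.relIndex N * N.index = N'.index := Subgroup.relIndex_mul_index hle
    have hr0 : N'.relIndex N ≠ 0 := by
      intro h0
      have := ptn_index_ne_zero hN'
      rw [← hidx, h0, zero_mul] at this
      exact this rfl
    have hm₀0 : m₀ ≠ 0 := fun h0 => hm₀ (h0 ▸ dvd_zero p)
    have he : m₀ * N'.relIndex N ≠ 0 := Nat.mul_ne_zero hm₀0 hr0
    have h3 : m * m₀ * N'.index = m * N.index * (m₀ * N'.relIndex N) := by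
      rw [← hidx]; ring
    rw [h3]
    exact ptn_frac_mul_right n (m * N.index) (m₀ * N'.relIndex N) he

/-- at the same level the value is unique -/
lemma ptn_Rel.unique_same {F : ptn_FundSys 𝓛 ρC p} {z : G × G → C} {N : Subgroup G}
    {n₁ n₂ : ℤ} {m₁ m₂ : ℕ} (h₁ : ptn_Rel F z N n₁ m₁) (h₂ : ptn_Rel F z N n₂ m₂) :
    ptn_frac p n₁ (m₁ * N.index) = ptn_frac p n₂ (m₂ * N.index) := by
  obtain ⟨hN, hm₁, hB₁⟩ := h₁
  obtain ⟨-, hm₂, hB₂⟩ := h₂
  apply ptn_frac_eq_of_dvd _ _ _ _ _ (ptn_index_ne_zero hN) hm₁ hm₂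
  apply F.ord N hN
  have h1 := (hB₂.nsmul m₁).sub (hB₁.nsmul m₂)
  have h2 : m₁ • (m₂ • z - n₂ • F.u N) - m₂ • (m₁ • z - n₁ • F.u N) =
      ((m₂ : ℤ) * n₁ - m₁ * n₂) • F.u N := by
    funext x
    simp only [Pi.sub_apply, Pi.smul_apply, smul_sub, sub_smul, mul_smul, natCast_zsmul]
    rw [smul_comm m₁ m₂]
    abel
  rwa [h2] at h1

/-- the value `n / (m [G:N])` does not depend on the representation `m • z ∼ n • u N` -/
lemma ptn_Rel.unique {F : ptn_FundSys 𝓛 ρC p} {z : G × G → C} {N₁ N₂ : Subgroup G}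
    {n₁ n₂ : ℤ} {m₁ m₂ : ℕ} (h₁ : ptn_Rel F z N₁ n₁ m₁) (h₂ : ptn_Rel F z N₂ n₂ m₂) :
    ptn_frac p n₁ (m₁ * N₁.index) = ptn_frac p n₂ (m₂ * N₂.index) := by
  obtain ⟨N, hN, hle⟩ := 𝓛.directed N₁ h₁.1 N₂ h₂.1
  obtain ⟨a₁, b₁, hr₁, he₁⟩ := h₁.deepen hN (hle.trans inf_le_left)
  obtain ⟨a₂, b₂, hr₂, he₂⟩ := h₂.deepen hN (hle.trans inf_le_right)
  rw [← he₁, ← he₂]
  exact hr₁.unique_same hr₂

open Classical in
/-- the invariant map of a fundamental system (junk value `0` on cochains which are not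
cohomologous to a multiple of a fundamental cocycle up to prime-to-`p` torsion) -/
noncomputable def ptn_invFun (F : ptn_FundSys 𝓛 ρC p) (z : G × G → C) : ptn_T p :=
  if h : ∃ (N : Subgroup G) (n : ℤ) (m : ℕ), ptn_Rel F z N n m then
    ptn_frac p h.choose_spec.choose (h.choose_spec.choose_spec.choose * h.choose.index)
  else 0

/-- **Evaluation of the invariant**: if `m • z ∼ n • u N` with `p ∤ m` then
`inv z = n / (m [G:N])`. -/
lemma ptn_invFun_eq {F : ptn_FundSys 𝓛 ρC p} {z : G × G → C} {N : Subgroup G} {n : ℤ} {m : ℕ}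
    (h : ptn_Rel F z N n m) : ptn_invFun F z = ptn_frac p n (m * N.index) := by
  have hex : ∃ (N : Subgroup G) (n : ℤ) (m : ℕ), ptn_Rel F z N n m := ⟨N, n, m, h⟩
  unfold ptn_invFun
  rw [dif_pos hex]
  exact ptn_Rel.unique hex.choose_spec.choose_spec.choose_spec h

lemma ptn_Rel.add {F : ptn_FundSys 𝓛 ρC p} {z z' : G × G → C} {N : Subgroup G} {n n' : ℤ}
    {m m' : ℕ} (h : ptn_Rel F z N n m) (h' : ptn_Rel F z' N n' m') :
    ptn_Rel F (z + z') N (m' * n + m * n') (m * m') := by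
  obtain ⟨hN, hm, hB⟩ := h
  obtain ⟨-, hm', hB'⟩ := h'
  refine ⟨hN, fun hd => ?_, ?_⟩
  · rcases (Nat.Prime.dvd_mul hp.out).mp hd with h | h
    · exact hm h
    · exact hm' h
  · have h1 := (hB.nsmul m').add (hB'.nsmul m)
    have h2 : m' • (m • z - n • F.u N) + m • (m' • z' - n' • F.u N) =
        (m * m') • (z + z') - ((m' : ℤ) * n + m * n') • F.u N := by
      funext x
      simp only [Pi.add_apply, Pi.sub_apply, Pi.smul_apply, smul_sub, smul_add, add_smul, mul_smul,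
        natCast_zsmul]
      rw [smul_comm m' m]
      abel
    rwa [h2] at h1

/-- **The invariant map of a fundamental system.** -/
noncomputable def ptn_inv (F : ptn_FundSys 𝓛 ρC p) : ptd_Inv 𝓛 ρC (ptn_T p) p where
  toFun := ptn_invFun F
  map_add' := by
    intro z z' hz hz'
    obtain ⟨N₁, hN₁, n₁, hB₁⟩ := F.gen z hz
    obtain ⟨N₂, hN₂, n₂, hB₂⟩ := F.gen z' hz'
    have hr₁ : ptn_Rel F z N₁ n₁ 1 := ⟨hN₁, by simpa using hp.out.one_lt.ne', by simpa using hB₁⟩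
    have hr₂ : ptn_Rel F z' N₂ n₂ 1 := ⟨hN₂, by simpa using hp.out.one_lt.ne', by simpa using hB₂⟩
    obtain ⟨N, hN, hle⟩ := 𝓛.directed N₁ hN₁ N₂ hN₂
    obtain ⟨a₁, b₁, hs₁, -⟩ := hr₁.deepen hN (hle.trans inf_le_left)
    obtain ⟨a₂, b₂, hs₂, -⟩ := hr₂.deepen hN (hle.trans inf_le_right)
    rw [ptn_invFun_eq hs₁, ptn_invFun_eq hs₂, ptn_invFun_eq (hs₁.add hs₂), ptn_frac_add]
    have hb₁ : b₁ ≠ 0 := fun h0 => hs₁.2.1 (h0 ▸ dvd_zero p)
    have hb₂ : b₂ ≠ 0 := fun h0 => hs₂.2.1 (h0 ▸ dvd_zero p)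
    congr 1
    · have : b₁ * b₂ * N.index = b₁ * N.index * b₂ := by ring
      rw [this, mul_comm (b₂ : ℤ) a₁]
      exact ptn_frac_mul_right a₁ (b₁ * N.index) b₂ hb₂
    · have : b₁ * b₂ * N.index = b₂ * N.index * b₁ := by ring
      rw [this, mul_comm (b₁ : ℤ) a₂]
      exact ptn_frac_mul_right a₂ (b₂ * N.index) b₁ hb₁
  map_b2' := by
    intro z hz
    obtain ⟨N, hN⟩ := 𝓛.nonempty
    have hr : ptn_Rel F z N 0 1 := ⟨hN, by simpa using hp.out.one_lt.ne', by simpa using hz⟩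
    rw [ptn_invFun_eq hr, ptn_frac_zero]

@[simp] lemma ptn_inv_apply (F : ptn_FundSys 𝓛 ρC p) (z : G × G → C) :
    ptn_inv F z = ptn_invFun F z := rfl

/-- `inv (u N) = 1 / [G : N]` -/
lemma ptn_inv_u (F : ptn_FundSys 𝓛 ρC p) {N : Subgroup G} (hN : N ∈ 𝓛.lev) :
    ptn_inv F (F.u N) = ptn_frac p 1 N.index := by
  have hr : ptn_Rel F (F.u N) N 1 1 :=
    ⟨hN, by simpa using hp.out.one_lt.ne', by simpa using ptd_isB2_zero⟩
  rw [ptn_inv_apply, ptn_invFun_eq hr, one_mul]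

/-- **Injectivity of the invariant** on classes killed by `p`. -/
lemma ptn_inv_eq_zero_iff (F : ptn_FundSys 𝓛 ρC p) {z : G × G → C} (hz : ptd_IsLZ2p 𝓛 ρC p z) :
    ptn_inv F z = 0 ↔ ptd_IsB2 𝓛 ρC z := by
  constructor
  · intro h0
    obtain ⟨N, hN, n, hB⟩ := F.gen z hz
    have hr : ptn_Rel F z N n 1 := ⟨hN, by simpa using hp.out.one_lt.ne', by simpa using hB⟩
    rw [ptn_inv_apply, ptn_invFun_eq hr, one_mul,
      ptn_frac_eq_zero_iff n N.index (ptn_index_ne_zero hN)] at h0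
    obtain ⟨j, rfl⟩ := h0
    -- `d₀ • z` is a coboundary, `d₀` the prime-to-`p` part of the index
    have hdec : (p ^ N.index.factorization p) * (N.index / p ^ N.index.factorization p) = N.index :=
      Nat.ordProj_mul_ordCompl_eq_self N.index p
    have hnd : ¬ p ∣ N.index / p ^ N.index.factorization p :=
      Nat.not_dvd_ordCompl hp.out (ptn_index_ne_zero hN)
    have htors := F.tors N hN
    rw [← hdec] at htors
    generalize p ^ N.index.factorization p = P at hB hr hdec hnd htors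
    generalize N.index / P = D at hdec hnd htors
    have h1 : ptd_IsB2 𝓛 ρC (D • z) := by
      have h2 := (hB.nsmul D).add (htors.zsmul j)
      have h3 : D • (z - (((P : ℕ) : ℤ) * j) • F.u N) + j • (P * D) • F.u N = D • z := by
        funext x
        simp only [Pi.add_apply, Pi.sub_apply, Pi.smul_apply, smul_sub, mul_smul, natCast_zsmul]
        rw [smul_comm D P, smul_comm D j, smul_comm P j]
        abel
      rwa [h3] at h2
    exact ptn_isB2_of_coprime ((Nat.Prime.coprime_iff_not_dvd hp.out).mpr hnd) hz.2 h1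
  · intro h
    exact (ptn_inv F).map_b2' z h

end FundSys

end Fermat.Agent.Lib.PT
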