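/-
S55 (Poitou–Tate long haul), bridge "finite levels ⇒ big model", part II-A: generalities in the
big-group model.

* `ptn_At₁`, `ptn_At₂` : cochains of an open subgroup `U` which live *at* a level `N ≤ U`
  (right `N`-invariant, values fixed by `N`); every level cochain with values in a discrete module
  lives at some level (`ptn_exists_at₁`, `ptn_exists_at₂`).
* `ptn_exists_sylow` : a subgroup `P ⊇ N'` of index prime to `p` with `P / N'` a `p`-group.
* `ptn_index_smul_eq_d1` : `[H : N'] • z = d1 ψ` for a 2-cocycle `z` right-invariant under the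
  normal subgroup `N'` of finite index in the second variable.
-/
import Fermat.Agent.Lib.PT.AdtCorE

set_option autoImplicit false

namespace Fermat.Agent.Lib.PT

section At

variable {G : Type*} [Group G] {𝓛 : ptd_Levels G} {C : Type*} [AddCommGroup C]
variable (U N : Subgroup G) (ρC : Representation ℤ G C)

/-- a 1-cochain of `U` living at the level `N` -/
def ptn_At₁ (φ : U → C) : Prop := ptd_RInv₁ U N φ ∧ ∀ x, ∀ n ∈ N, ρC n (φ x) = φ x

/-- a 2-cochain of `U` living at the level `N` -/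
def ptn_At₂ (z : U × U → C) : Prop := ptd_RInv₂ U N z ∧ ∀ x, ∀ n ∈ N, ρC n (z x) = z x

variable {U N ρC}

lemma ptn_At₁.mono {φ : U → C} (h : ptn_At₁ U N ρC φ) {N' : Subgroup G} (hle : N' ≤ N) :
    ptn_At₁ U N' ρC φ :=
  ⟨fun a n hn => h.1 a n (hle hn), fun x n hn => h.2 x n (hle hn)⟩

lemma ptn_At₂.mono {z : U × U → C} (h : ptn_At₂ U N ρC z) {N' : Subgroup G} (hle : N' ≤ N) :
    ptn_At₂ U N' ρC z :=
  ⟨fun a b n n' hn hn' => h.1 a b n n' (hle hn) (hle hn'), fun x n hn => h.2 x n (hle hn)⟩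

lemma ptn_At₁.isLev₁ {φ : U → C} (h : ptn_At₁ U N ρC φ) (hU : 𝓛.IsOpen U) (hN : N ∈ 𝓛.lev)
    (hNU : N ≤ U) : ptd_IsLev₁ (𝓛.sub U hU) φ :=
  ⟨_, ⟨N, hN, hNU, rfl⟩, fun g n hn => h.1 g n (Subgroup.mem_subgroupOf.mp hn)⟩

lemma ptn_At₂.isLev₂ {z : U × U → C} (h : ptn_At₂ U N ρC z) (hU : 𝓛.IsOpen U) (hN : N ∈ 𝓛.lev)
    (hNU : N ≤ U) : ptd_IsLev₂ (𝓛.sub U hU) z :=
  ⟨_, ⟨N, hN, hNU, rfl⟩, fun g g' n hn n' hn' =>
    h.1 g g' n n' (Subgroup.mem_subgroupOf.mp hn) (Subgroup.mem_subgroupOf.mp hn')⟩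

lemma ptn_At₁.sub {φ ψ : U → C} (h : ptn_At₁ U N ρC φ) (h' : ptn_At₁ U N ρC ψ) :
    ptn_At₁ U N ρC (φ - ψ) :=
  ⟨fun a n hn => by simp only [Pi.sub_apply, h.1 a n hn, h'.1 a n hn],
    fun x n hn => by simp only [Pi.sub_apply, map_sub, h.2 x n hn, h'.2 x n hn]⟩

lemma ptn_At₁.zsmul {φ : U → C} (h : ptn_At₁ U N ρC φ) (m : ℤ) : ptn_At₁ U N ρC (m • φ) :=
  ⟨fun a n hn => by simp only [Pi.smul_apply, h.1 a n hn],
    fun x n hn => by simp only [Pi.smul_apply, map_zsmul, h.2 x n hn]⟩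

lemma ptn_At₁.nsmul {φ : U → C} (h : ptn_At₁ U N ρC φ) (m : ℕ) : ptn_At₁ U N ρC (m • φ) :=
  ⟨fun a n hn => by simp only [Pi.smul_apply, h.1 a n hn],
    fun x n hn => by simp only [Pi.smul_apply, map_nsmul, h.2 x n hn]⟩

/-- a level-constant function of two variables takes finitely many values -/
lemma ptn_isLev₂_finite_range {X : Type*} {f : G × G → X} (hf : ptd_IsLev₂ 𝓛 f) :
    (Set.range f).Finite := by
  obtain ⟨N, hN, h⟩ := hf
  have := 𝓛.finiteIndex N hN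
  have : Finite (G ⧸ N) := Subgroup.finite_quotient_of_finiteIndex
  have hrep : ∀ g : G, ∃ n ∈ N, g = (QuotientGroup.mk g : G ⧸ N).out * n := by
    intro g
    refine ⟨((QuotientGroup.mk g : G ⧸ N).out)⁻¹ * g, ?_, by group⟩
    rw [← QuotientGroup.eq, QuotientGroup.out_eq']
  let f' : (G ⧸ N) × (G ⧸ N) → X := fun q => f (q.1.out, q.2.out)
  have : Set.range f ⊆ Set.range f' := by
    rintro _ ⟨⟨g, g'⟩, rfl⟩
    obtain ⟨n, hn, hg⟩ := hrep g
    obtain ⟨n', hn', hg'⟩ := hrep g'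
    refine ⟨(QuotientGroup.mk g, QuotientGroup.mk g'), ?_⟩
    show f (_, _) = f (g, g')
    conv_rhs => rw [hg, hg']
    exact (h _ _ n hn n' hn').symm
  exact (Set.finite_range f').subset this

/-- a level 1-cochain of an open subgroup with values in a discrete module lives at a level -/
lemma ptn_exists_at₁ (hd : ptd_IsDiscrete 𝓛 ρC) (hU : 𝓛.IsOpen U) {φ : U → C}
    (hφ : ptd_IsLev₁ (𝓛.sub U hU) φ) : ∃ N ∈ 𝓛.lev, N ≤ U ∧ ptn_At₁ U N ρC φ := by
  obtain ⟨N₁, hN₁, hfix⟩ := hd.exists_level_of_finite hφ.finite_range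
  obtain ⟨N₂, hN₂, hN₂U, h₂⟩ := hφ.exists_rInv U hU
  obtain ⟨N, hN, hle⟩ := 𝓛.directed N₁ hN₁ N₂ hN₂
  refine ⟨N, hN, (hle.trans inf_le_right).trans hN₂U, ?_, ?_⟩
  · exact fun a n hn => h₂ a n (hle hn).2
  · exact fun x n hn => hfix (φ x) ⟨x, rfl⟩ n (hle hn).1

/-- a level 2-cochain of an open subgroup with values in a discrete module lives at a level -/
lemma ptn_exists_at₂ (hd : ptd_IsDiscrete 𝓛 ρC) (hU : 𝓛.IsOpen U) {z : U × U → C}
    (hz : ptd_IsLev₂ (𝓛.sub U hU) z) : ∃ N ∈ 𝓛.lev, N ≤ U ∧ ptn_At₂ U N ρC z := by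
  obtain ⟨N₁, hN₁, hfix⟩ := hd.exists_level_of_finite (ptn_isLev₂_finite_range hz)
  obtain ⟨N₂, hN₂, hN₂U, h₂⟩ := hz.exists_rInv U hU
  obtain ⟨N, hN, hle⟩ := 𝓛.directed N₁ hN₁ N₂ hN₂
  refine ⟨N, hN, (hle.trans inf_le_right).trans hN₂U, ?_, ?_⟩
  · exact fun a b n n' hn hn' => h₂ a b n n' (hle hn).2 (hle hn').2
  · exact fun x n hn => hfix (z x) ⟨x, rfl⟩ n (hle hn).1

end At

section Sylow

variable {H : Type*} [Group H]

/-- **Sylow subgroups over a normal subgroup of finite index.** -/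
lemma ptn_exists_sylow (N' : Subgroup H) [N'.Normal] [N'.FiniteIndex] (p : ℕ) [Fact p.Prime] :
    ∃ P : Subgroup H, N' ≤ P ∧ ¬ p ∣ P.index ∧ ∀ x ∈ P, ∃ k : ℕ, x ^ p ^ k ∈ N' := by
  have : Finite (H ⧸ N') := Subgroup.finite_quotient_of_finiteIndex
  obtain ⟨S⟩ := (Sylow.nonempty : Nonempty (Sylow p (H ⧸ N')))
  refine ⟨(S : Subgroup (H ⧸ N')).comap (QuotientGroup.mk' N'), ?_, ?_, ?_⟩
  · intro n hn
    rw [Subgroup.mem_comap, QuotientGroup.mk'_apply, (QuotientGroup.eq_one_iff n).mpr hn]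
    exact one_mem _
  · rw [Subgroup.index_comap_of_surjective _ (QuotientGroup.mk'_surjective N')]
    exact S.not_dvd_index
  · intro x hx
    obtain ⟨k, hk⟩ := S.isPGroup' ⟨QuotientGroup.mk' N' x, hx⟩
    refine ⟨k, ?_⟩
    have h1 : (QuotientGroup.mk' N' x) ^ p ^ k = 1 := by
      have := congrArg Subtype.val hk
      simpa using this
    rw [← map_pow, QuotientGroup.mk'_apply, QuotientGroup.eq_one_iff] at h1
    exact h1

end Sylow

section Tors

variable {H : Type*} [Group H] {k : Type*} [CommRing k] {A : Type*} [AddCommGroup A] [Module k A]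
variable (ρ : Representation k H A)

attribute [local instance] Subgroup.fintypeQuotientOfFiniteIndex

/-- `[H : N'] • z` is the coboundary of `g ↦ ∑_{x ∈ H/N'} z (g, x)`, for a 2-cocycle `z` which is
right `N'`-invariant in the second variable. -/
lemma ptn_index_smul_eq_d1 (N' : Subgroup H) [N'.Normal] [N'.FiniteIndex] {z : H × H → A}
    (hz : ptd_IsZ2 ρ z) (hinv : ∀ g h, ∀ n ∈ N', z (g, h * n) = z (g, h)) :
    N'.index • z = ptd_d1 ρ (fun g => ∑ q : H ⧸ N', z (g, q.out)) := by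
  have hcos : ∀ g a b : H, (QuotientGroup.mk a : H ⧸ N') = QuotientGroup.mk b →
      z (g, a) = z (g, b) := by
    intro g a b hab
    have h1 : a⁻¹ * b ∈ N' := QuotientGroup.eq.mp hab
    have h2 : b = a * (a⁻¹ * b) := by group
    rw [h2, hinv g a _ h1]
  funext ⟨g, h⟩
  simp only [Pi.smul_apply, ptd_d1_apply, map_sum]
  have h1 : ∀ q : H ⧸ N', z (g * h, q.out) + z (g, h) = ρ g (z (h, q.out)) + z (g, h * q.out) :=
    fun q => hz g h q.out
  have h2 : ∑ q : H ⧸ N', (z (g * h, q.out) + z (g, h)) =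
      ∑ q : H ⧸ N', (ρ g (z (h, q.out)) + z (g, h * q.out)) :=
    Finset.sum_congr rfl fun q _ => h1 q
  rw [Finset.sum_add_distrib, Finset.sum_add_distrib, Finset.sum_const, Finset.card_univ] at h2
  have h3 : ∑ q : H ⧸ N', z (g, h * q.out) = ∑ q : H ⧸ N', z (g, q.out) := by
    have h4 : ∀ q : H ⧸ N', z (g, h * q.out) = z (g, (h • q).out) := by
      intro q
      apply hcos
      rw [QuotientGroup.out_eq']
      conv_rhs => rw [← QuotientGroup.out_eq' q]
      rfl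
    rw [Finset.sum_congr rfl fun q _ => h4 q]
    exact Fintype.sum_equiv (MulAction.toPerm h) _ _ fun q => rfl
  rw [h3] at h2
  rw [Subgroup.index_eq_card, Nat.card_eq_fintype_card]
  have h5 : Fintype.card (H ⧸ N') • z (g, h) =
      ∑ q : H ⧸ N', ρ g (z (h, q.out)) + ∑ q : H ⧸ N', z (g, q.out) -
        ∑ q : H ⧸ N', z (g * h, q.out) := by
    rw [← h2]; abel
  rw [h5]; abel

end Tors

end Fermat.Agent.Lib.PT
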