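/-
S55 (Poitou–Tate long haul), abstract class formation from an idelic invariant (ABS), part 3:
the abstract data `ptn_Abs` (idelic invariant maps `INV_U` on level cocycles with values in the
idele module `J`, reciprocity, the `p`-group class formation axioms (G5) for the idele class
module `C`, the cyclotomic `ℤ_p`-tower characters `χ_k` and the cyclic computation (H-cyc)),
nested restriction of cochains, linearity of `INV`, and the unboundedness of the local degrees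
`[V : V ⊓ ker χ_k]`.
-/
import Fermat.Agent.Lib.PT.BrgLevA
import Fermat.Agent.Lib.PT.BrgT
import Fermat.Agent.Lib.PT.BrgInv
import Fermat.Agent.Lib.PT.AbsBock

set_option autoImplicit false
set_option linter.unusedSectionVars false

namespace Fermat.Agent.Lib.PT

section ResLe

variable {G : Type*} [Group G] {𝓛 : ptd_Levels G}

/-- restriction of 2-cochains from a subgroup `U` to a smaller subgroup `V` -/
def ptn_resLe₂ {X : Type*} {V U : Subgroup G} (h : V ≤ U) (y : U × U → X) : V × V → X :=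
  fun x => y (Subgroup.inclusion h x.1, Subgroup.inclusion h x.2)

/-- restriction of 1-cochains from a subgroup `U` to a smaller subgroup `V` -/
def ptn_resLe₁ {X : Type*} {V U : Subgroup G} (h : V ≤ U) (φ : U → X) : V → X :=
  fun x => φ (Subgroup.inclusion h x)

lemma ptn_resLe₂_apply {X : Type*} {V U : Subgroup G} (h : V ≤ U) (y : U × U → X) (a b : V) :
    ptn_resLe₂ h y (a, b) = y (Subgroup.inclusion h a, Subgroup.inclusion h b) := rfl

lemma ptn_resLe₁_apply {X : Type*} {V U : Subgroup G} (h : V ≤ U) (φ : U → X) (a : V) :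
    ptn_resLe₁ h φ a = φ (Subgroup.inclusion h a) := rfl

lemma ptn_isLev₁_resLe {X : Type*} {V U : Subgroup G} (h : V ≤ U) (hU : 𝓛.IsOpen U)
    (hV : 𝓛.IsOpen V) {φ : U → X} (hφ : ptd_IsLev₁ (𝓛.sub U hU) φ) :
    ptd_IsLev₁ (𝓛.sub V hV) (ptn_resLe₁ h φ) := by
  obtain ⟨N, hN, hNU, hr⟩ := hφ.exists_rInv U hU
  obtain ⟨N', hN', hN'V⟩ := hV
  obtain ⟨N'', hN'', hle⟩ := 𝓛.directed N hN N' hN'
  refine ⟨_, ⟨N'', hN'', (hle.trans inf_le_right).trans hN'V, rfl⟩, fun g n hn => ?_⟩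
  have hn' : ((n : V) : G) ∈ N := (hle (Subgroup.mem_subgroupOf.mp hn)).1
  show φ (Subgroup.inclusion h (g * n)) = φ (Subgroup.inclusion h g)
  rw [map_mul]
  exact hr _ (Subgroup.inclusion h n) hn'

lemma ptn_isLev₂_resLe {X : Type*} {V U : Subgroup G} (h : V ≤ U) (hU : 𝓛.IsOpen U)
    (hV : 𝓛.IsOpen V) {y : U × U → X} (hy : ptd_IsLev₂ (𝓛.sub U hU) y) :
    ptd_IsLev₂ (𝓛.sub V hV) (ptn_resLe₂ h y) := by
  obtain ⟨N, hN, hNU, hr⟩ := hy.exists_rInv U hU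
  obtain ⟨N', hN', hN'V⟩ := hV
  obtain ⟨N'', hN'', hle⟩ := 𝓛.directed N hN N' hN'
  refine ⟨_, ⟨N'', hN'', (hle.trans inf_le_right).trans hN'V, rfl⟩,
    fun g g' n hn n' hn' => ?_⟩
  have hn1 : ((n : V) : G) ∈ N := (hle (Subgroup.mem_subgroupOf.mp hn)).1
  have hn2 : ((n' : V) : G) ∈ N := (hle (Subgroup.mem_subgroupOf.mp hn')).1
  show y (Subgroup.inclusion h (g * n), Subgroup.inclusion h (g' * n')) =
    y (Subgroup.inclusion h g, Subgroup.inclusion h g')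
  rw [map_mul, map_mul]
  exact hr _ _ (Subgroup.inclusion h n) (Subgroup.inclusion h n') hn1 hn2

variable {k : Type*} [CommRing k] {A : Type*} [AddCommGroup A] [Module k A]
variable (ρ : Representation k G A)

lemma ptn_isZ2_resLe {V U : Subgroup G} (h : V ≤ U) {z : U × U → A}
    (hz : ptd_IsZ2 (ptd_resRep ρ U) z) : ptd_IsZ2 (ptd_resRep ρ V) (ptn_resLe₂ h z) := by
  intro a b c
  have := hz (Subgroup.inclusion h a) (Subgroup.inclusion h b) (Subgroup.inclusion h c)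
  simp only [ptn_resLe₂_apply, map_mul]
  exact this

lemma ptn_resLe_d1 {V U : Subgroup G} (h : V ≤ U) (φ : U → A) :
    ptn_resLe₂ h (ptd_d1 (ptd_resRep ρ U) φ) = ptd_d1 (ptd_resRep ρ V) (ptn_resLe₁ h φ) := by
  funext ⟨a, b⟩
  simp only [ptn_resLe₂_apply, ptn_resLe₁_apply, ptd_d1_apply, map_mul]
  rfl

lemma ptn_isLZ2_resLe {V U : Subgroup G} (h : V ≤ U) (hU : 𝓛.IsOpen U) (hV : 𝓛.IsOpen V)
    {z : U × U → A} (hz : ptd_IsLZ2 (𝓛.sub U hU) (ptd_resRep ρ U) z) :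
    ptd_IsLZ2 (𝓛.sub V hV) (ptd_resRep ρ V) (ptn_resLe₂ h z) :=
  ⟨ptn_isZ2_resLe ρ h hz.1, ptn_isLev₂_resLe h hU hV hz.2⟩

lemma ptn_isB2_resLe {V U : Subgroup G} (h : V ≤ U) (hU : 𝓛.IsOpen U) (hV : 𝓛.IsOpen V)
    {z : U × U → A} (hz : ptd_IsB2 (𝓛.sub U hU) (ptd_resRep ρ U) z) :
    ptd_IsB2 (𝓛.sub V hV) (ptd_resRep ρ V) (ptn_resLe₂ h z) := by
  obtain ⟨φ, hφ, rfl⟩ := hz
  exact ⟨ptn_resLe₁ h φ, ptn_isLev₁_resLe h hU hV hφ, ptn_resLe_d1 ρ h φ⟩

lemma ptn_resLe₂_add {X : Type*} [Add X] {V U : Subgroup G} (h : V ≤ U) (y y' : U × U → X) :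
    ptn_resLe₂ h (y + y') = ptn_resLe₂ h y + ptn_resLe₂ h y' := rfl

lemma ptn_resLe₂_sub {X : Type*} [Sub X] {V U : Subgroup G} (h : V ≤ U) (y y' : U × U → X) :
    ptn_resLe₂ h (y - y') = ptn_resLe₂ h y - ptn_resLe₂ h y' := rfl

/-- the intersection of two open subgroups is open -/
lemma ptn_isOpen_inf {U V : Subgroup G} (hU : 𝓛.IsOpen U) (hV : 𝓛.IsOpen V) :
    𝓛.IsOpen (U ⊓ V) := by
  obtain ⟨N, hN, hNU⟩ := hU
  obtain ⟨N', hN', hN'V⟩ := hV
  obtain ⟨N'', hN'', hle⟩ := 𝓛.directed N hN N' hN'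
  exact ⟨N'', hN'', fun x hx => ⟨hNU (hle hx).1, hN'V (hle hx).2⟩⟩

lemma ptn_isOpen_of_le {U V : Subgroup G} (hU : 𝓛.IsOpen U) (h : U ≤ V) : 𝓛.IsOpen V := by
  obtain ⟨N, hN, hNU⟩ := hU
  exact ⟨N, hN, hNU.trans h⟩

end ResLe

section AtMore

variable {G : Type*} [Group G] {𝓛 : ptd_Levels G} {C : Type*} [AddCommGroup C]
variable {U N : Subgroup G} {ρC : Representation ℤ G C}

lemma ptn_At₁.add {φ ψ : U → C} (h : ptn_At₁ U N ρC φ) (h' : ptn_At₁ U N ρC ψ) :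
    ptn_At₁ U N ρC (φ + ψ) :=
  ⟨fun a n hn => by simp only [Pi.add_apply, h.1 a n hn, h'.1 a n hn],
    fun x n hn => by simp only [Pi.add_apply, map_add, h.2 x n hn, h'.2 x n hn]⟩

lemma ptn_At₂.sub {z w : U × U → C} (h : ptn_At₂ U N ρC z) (h' : ptn_At₂ U N ρC w) :
    ptn_At₂ U N ρC (z - w) :=
  ⟨fun a b n n' hn hn' => by
      simp only [Pi.sub_apply, h.1 a b n n' hn hn', h'.1 a b n n' hn hn'],
    fun x n hn => by simp only [Pi.sub_apply, map_sub, h.2 x n hn, h'.2 x n hn]⟩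

lemma ptn_At₂.zsmul {z : U × U → C} (h : ptn_At₂ U N ρC z) (m : ℤ) : ptn_At₂ U N ρC (m • z) :=
  ⟨fun a b n n' hn hn' => by simp only [Pi.smul_apply, h.1 a b n n' hn hn'],
    fun x n hn => by simp only [Pi.smul_apply, map_zsmul, h.2 x n hn]⟩

/-- a 1-cochain living at an open subgroup is level-constant -/
lemma ptn_At₁.isLev₁_of_isOpen {φ : U → C} (h : ptn_At₁ U N ρC φ) (hU : 𝓛.IsOpen U)
    (hN : 𝓛.IsOpen N) (hNU : N ≤ U) : ptd_IsLev₁ (𝓛.sub U hU) φ := by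
  obtain ⟨N', hN', hle⟩ := hN
  exact (h.mono hle).isLev₁ hU hN' (hle.trans hNU)

/-- a 2-cochain living at an open subgroup is level-constant -/
lemma ptn_At₂.isLev₂_of_isOpen {z : U × U → C} (h : ptn_At₂ U N ρC z) (hU : 𝓛.IsOpen U)
    (hN : 𝓛.IsOpen N) (hNU : N ≤ U) : ptd_IsLev₂ (𝓛.sub U hU) z := by
  obtain ⟨N', hN', hle⟩ := hN
  exact (h.mono hle).isLev₂ hU hN' (hle.trans hNU)

/-- restriction to a smaller subgroup of a 2-cochain living at `N` -/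
lemma ptn_At₂.resLe {V : Subgroup G} {z : U × U → C} (h : ptn_At₂ U N ρC z) (hVU : V ≤ U) :
    ptn_At₂ V N ρC (ptn_resLe₂ hVU z) :=
  ⟨fun a b n n' hn hn' => by
      show z (Subgroup.inclusion hVU (a * n), Subgroup.inclusion hVU (b * n')) =
        z (Subgroup.inclusion hVU a, Subgroup.inclusion hVU b)
      rw [map_mul, map_mul]
      exact h.1 _ _ (Subgroup.inclusion hVU n) (Subgroup.inclusion hVU n') hn hn',
    fun x n hn => h.2 _ n hn⟩

end AtMore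

section Data

variable {G : Type*} [Group G] {J C : Type*} [AddCommGroup J] [AddCommGroup C]

/-- **Abstract global class formation data** (big model): an idele-type module `J`, a class module
`C = J / (global units)`, idelic invariant maps `INV_U` on cochains of open subgroups with values
in `J` (additive, vanishing on cocycles whose image in `C` is a level coboundary [reciprocity],
multiplied by the index under restriction), the `p`-group class formation axioms for `C` on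
explicit cochains (G5), a tower of surjective level characters `χ_k : G → ℤ/p^k` (the cyclotomic
`ℤ_p`-extension) and the cyclic computation (H-cyc) of the invariants of `a · δχ_k`. -/
structure ptn_Abs (𝓛 : ptd_Levels G) (ρJ : Representation ℤ G J) (ρC : Representation ℤ G C)
    (p : ℕ) [Fact p.Prime] where
  /-- the projection from ideles to idele classes -/
  π : J →+ C
  π_equiv : ∀ g a, π (ρJ g a) = ρC g (π a)
  discJ : ptd_IsDiscrete 𝓛 ρJ
  discC : ptd_IsDiscrete 𝓛 ρC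
  /-- the tower characters -/
  χ : ∀ k : ℕ, G → ZMod (p ^ k)
  χ_char : ∀ k, ptd_IsChar (χ k)
  χ_lev : ∀ k, ptd_IsLev₁ 𝓛 (χ k)
  χ_surj : ∀ k, Function.Surjective (χ k)
  /-- the idelic invariant maps -/
  INV : ∀ U : Subgroup G, (U × U → J) → ptn_T p
  INV_add : ∀ (U : Subgroup G) (hU : 𝓛.IsOpen U) (y y' : U × U → J),
    ptd_IsLZ2 (𝓛.sub U hU) (ptd_resRep ρJ U) y → ptd_IsLZ2 (𝓛.sub U hU) (ptd_resRep ρJ U) y' →
    INV U (y + y') = INV U y + INV U y'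
  INV_b2 : ∀ (U : Subgroup G) (hU : 𝓛.IsOpen U) (y : U × U → J),
    ptd_IsLZ2 (𝓛.sub U hU) (ptd_resRep ρJ U) y →
    ptd_IsB2 (𝓛.sub U hU) (ptd_resRep ρC U) (fun x => π (y x)) → INV U y = 0
  INV_res : ∀ (U : Subgroup G) (hU : 𝓛.IsOpen U) (V : Subgroup G) (_ : 𝓛.IsOpen V) (hVU : V ≤ U)
    (y : U × U → J), ptd_IsLZ2 (𝓛.sub U hU) (ptd_resRep ρJ U) y →
    INV V (ptn_resLe₂ hVU y) = V.relIndex U • INV U y
  G5_1 : ∀ (U N : Subgroup G), 𝓛.IsOpen N → N ≤ U → (N.subgroupOf U).Normal →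
    (∀ x ∈ U, ∃ j : ℕ, x ^ p ^ j ∈ N) → ∀ φ : U → C, ptd_IsZ1 (ptd_resRep ρC U) φ →
    ptn_At₁ U N ρC φ → ptd_IsB1 (ptd_resRep ρC U) φ
  G5_2 : ∀ (U N : Subgroup G), 𝓛.IsOpen N → N ≤ U → (N.subgroupOf U).Normal →
    (∀ x ∈ U, ∃ j : ℕ, x ^ p ^ j ∈ N) → ∀ w : U × U → C, ptd_IsZ2 (ptd_resRep ρC U) w →
    ptn_At₂ U N ρC w →
    (∀ (m : ℤ) (ψ : U → C), ptn_At₁ U N ρC ψ → m • w = ptd_d1 (ptd_resRep ρC U) ψ →
      ((N.relIndex U : ℕ) : ℤ) ∣ m) →
    ∀ z : U × U → C, ptd_IsZ2 (ptd_resRep ρC U) z → ptn_At₂ U N ρC z →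
    ∃ (n : ℤ) (ψ : U → C), ptn_At₁ U N ρC ψ ∧ z - n • w = ptd_d1 (ptd_resRep ρC U) ψ
  cyc : ∀ (V : Subgroup G) (_ : 𝓛.IsOpen V) (k : ℕ), ∃ a : J, (∀ v ∈ V, ρJ v a = a) ∧
    ∀ m : ℤ, m • INV V (ptd_bockSmul (p ^ k) (fun v : V => χ k v) a) = 0 →
      (((ptn_charKer (χ_char k)).relIndex V : ℕ) : ℤ) ∣ m

end Data

namespace ptn_Abs

variable {G : Type*} [Group G] {J C : Type*} [AddCommGroup J] [AddCommGroup C]
variable {𝓛 : ptd_Levels G} {ρJ : Representation ℤ G J} {ρC : Representation ℤ G C}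
variable {p : ℕ} [hp : Fact p.Prime] (A : ptn_Abs 𝓛 ρJ ρC p)

instance neZero_pow (k : ℕ) : NeZero (p ^ k) := ⟨pow_ne_zero k hp.out.ne_zero⟩

/-- the image in `C` of a `J`-valued level cocycle is a level cocycle -/
lemma isLZ2_π (U : Subgroup G) (hU : 𝓛.IsOpen U) {y : U × U → J}
    (hy : ptd_IsLZ2 (𝓛.sub U hU) (ptd_resRep ρJ U) y) :
    ptd_IsLZ2 (𝓛.sub U hU) (ptd_resRep ρC U) (fun x => A.π (y x)) := by
  refine ⟨fun g h j => ?_, hy.2.comp A.π⟩
  have := congrArg A.π (hy.1 g h j)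
  simpa only [map_add, ptd_resRep_apply, A.π_equiv] using this

lemma INV_zero (U : Subgroup G) (hU : 𝓛.IsOpen U) : A.INV U 0 = 0 := by
  have := A.INV_add U hU 0 0 ptd_isLZ2_zero ptd_isLZ2_zero
  rw [add_zero] at this
  exact left_eq_add.mp this

lemma INV_neg (U : Subgroup G) (hU : 𝓛.IsOpen U) {y : U × U → J}
    (hy : ptd_IsLZ2 (𝓛.sub U hU) (ptd_resRep ρJ U) y) : A.INV U (-y) = -A.INV U y := by
  have := A.INV_add U hU y (-y) hy hy.neg
  rw [add_neg_cancel, A.INV_zero U hU] at this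
  exact eq_neg_of_add_eq_zero_right this.symm

lemma INV_sub (U : Subgroup G) (hU : 𝓛.IsOpen U) {y y' : U × U → J}
    (hy : ptd_IsLZ2 (𝓛.sub U hU) (ptd_resRep ρJ U) y)
    (hy' : ptd_IsLZ2 (𝓛.sub U hU) (ptd_resRep ρJ U) y') :
    A.INV U (y - y') = A.INV U y - A.INV U y' := by
  rw [sub_eq_add_neg, A.INV_add U hU y (-y') hy hy'.neg, A.INV_neg U hU hy', sub_eq_add_neg]

lemma INV_nsmul (U : Subgroup G) (hU : 𝓛.IsOpen U) {y : U × U → J}
    (hy : ptd_IsLZ2 (𝓛.sub U hU) (ptd_resRep ρJ U) y) (n : ℕ) :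
    A.INV U (n • y) = n • A.INV U y := by
  induction n with
  | zero => simpa using A.INV_zero U hU
  | succ n ih => rw [succ_nsmul, A.INV_add U hU _ _ (hy.nsmul n) hy, ih, succ_nsmul]

lemma INV_zsmul (U : Subgroup G) (hU : 𝓛.IsOpen U) {y : U × U → J}
    (hy : ptd_IsLZ2 (𝓛.sub U hU) (ptd_resRep ρJ U) y) (n : ℤ) :
    A.INV U (n • y) = n • A.INV U y := by
  obtain ⟨m, rfl | rfl⟩ := n.eq_nat_or_neg
  · rw [natCast_zsmul, natCast_zsmul, A.INV_nsmul U hU hy]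
  · rw [neg_smul, neg_smul, natCast_zsmul, natCast_zsmul, A.INV_neg U hU (hy.nsmul m),
      A.INV_nsmul U hU hy]

/-- `INV` only depends on the class of the image in `C` -/
lemma INV_congr (U : Subgroup G) (hU : 𝓛.IsOpen U) {y y' : U × U → J}
    (hy : ptd_IsLZ2 (𝓛.sub U hU) (ptd_resRep ρJ U) y)
    (hy' : ptd_IsLZ2 (𝓛.sub U hU) (ptd_resRep ρJ U) y')
    (h : ptd_IsB2 (𝓛.sub U hU) (ptd_resRep ρC U)
      ((fun x => A.π (y x)) - fun x => A.π (y' x))) : A.INV U y = A.INV U y' := by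
  have h1 : A.INV U (y - y') = 0 := by
    refine A.INV_b2 U hU _ (hy.sub hy') ?_
    have : (fun x => A.π ((y - y') x)) = (fun x => A.π (y x)) - fun x => A.π (y' x) := by
      funext x
      simp only [Pi.sub_apply, map_sub]
    rwa [this]
  rw [A.INV_sub U hU hy hy'] at h1
  exact sub_eq_zero.mp h1

end ptn_Abs

end Fermat.Agent.Lib.PT
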