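/-
S55 (Poitou–Tate long haul), A-track, "ADT-lite": the ingredients of the unipotent induction.

* `ptd_exists_factor` : factoring through / extending along homomorphisms into an elementary
  abelian `p`-group;
* the Bockstein cocycle `c · δχ` is a level cocycle with `p`-torsion class;
* for an invariant functional `π : M → ZMod p` with `π m₀ = 1`: the representation on `ker π`,
  the cocycle `u g = g m₀ - m₀`, the EXTENSION CRITERION (`ptd_exists_extension`) and the
  KEY COMPATIBILITY (`ptd_key_compat`).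
-/
import Fermat.Agent.Lib.PT.AdtCorE

set_option autoImplicit false

namespace Fermat.Agent.Lib.PT

section Factor

/-- Factoring a homomorphism through another one with values in a `ZMod p`-vector space, and
extending to the whole space. -/
lemma ptd_exists_factor' {p : ℕ} [Fact p.Prime] {X Q T : Type*} [AddCommGroup X]
    [AddCommGroup Q] [Module (ZMod p) Q] [AddCommGroup T] (d : X →+ Q) (Θ : X →+ T)
    (h : ∀ x, d x = 0 → Θ x = 0) : ∃ l : Q →+ T, ∀ x, l (d x) = Θ x := by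
  classical
  let R : Submodule (ZMod p) Q := AddSubgroup.toZModSubmodule p d.range
  obtain ⟨r, hr⟩ := LinearMap.exists_leftInverse_of_injective R.subtype R.ker_subtype
  have hmem : ∀ y : R, ∃ x, d x = (y : Q) := fun y => y.2
  choose s hs using hmem
  have hwd : ∀ x x', d x = d x' → Θ x = Θ x' := by
    intro x x' hxx
    have : Θ (x - x') = 0 := h _ (by rw [map_sub, hxx, sub_self])
    rwa [map_sub, sub_eq_zero] at this
  let l₀ : R →+ T :=
    { toFun := fun y => Θ (s y)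
      map_zero' := by
        have : d (s 0) = d 0 := by rw [hs]; simp
        rw [hwd _ _ this, map_zero]
      map_add' := fun y y' => by
        have : d (s (y + y')) = d (s y + s y') := by
          rw [hs, map_add, hs, hs]; rfl
        rw [hwd _ _ this, map_add] }
  refine ⟨l₀.comp r.toAddMonoidHom, fun x => ?_⟩
  have hx : d x ∈ R := ⟨x, rfl⟩
  have h1 : r (d x) = ⟨d x, hx⟩ := by
    have := LinearMap.congr_fun hr ⟨d x, hx⟩
    simpa using this
  show Θ (s (r (d x))) = Θ x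
  apply hwd
  rw [hs, h1]

/-- Factoring a homomorphism through another one with values in an elementary abelian
`p`-group, and extending to the whole group. -/
lemma ptd_exists_factor {p : ℕ} [Fact p.Prime] {X Q T : Type*} [AddCommGroup X]
    [AddCommGroup Q] [AddCommGroup T] (hQ : ∀ q : Q, p • q = 0) (d : X →+ Q) (Θ : X →+ T)
    (h : ∀ x, d x = 0 → Θ x = 0) : ∃ l : Q →+ T, ∀ x, l (d x) = Θ x :=
  @ptd_exists_factor' p _ X Q T _ _ (AddCommGroup.zmodModule hQ) _ d Θ h

end Factor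

section Bock

variable {G : Type*} [Group G] {𝓛 : ptd_Levels G}
variable {C : Type*} [AddCommGroup C] {ρC : Representation ℤ G C}
variable {p : ℕ} [Fact p.Prime]

lemma ptd_bock_spec {χ : G → ZMod p} (hχ : ptd_IsChar χ) (g h : G) :
    (p : ℤ) * ptd_bock p χ (g, h)
      = ((χ h).val : ℤ) - ((χ (g * h)).val : ℤ) + ((χ g).val : ℤ) := by
  apply Int.mul_ediv_cancel'
  rw [← ZMod.intCast_zmod_eq_zero_iff_dvd]
  push_cast
  rw [ZMod.natCast_zmod_val, ZMod.natCast_zmod_val, ZMod.natCast_zmod_val, hχ g h]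
  ring

lemma ptd_bock_cocycle {χ : G → ZMod p} (hχ : ptd_IsChar χ) (g h j : G) :
    ptd_bock p χ (g * h, j) + ptd_bock p χ (g, h) = ptd_bock p χ (h, j) + ptd_bock p χ (g, h * j) := by
  have hp : (p : ℤ) ≠ 0 := by exact_mod_cast (Fact.out : p.Prime).ne_zero
  apply mul_left_cancel₀ hp
  rw [mul_add, mul_add, ptd_bock_spec hχ, ptd_bock_spec hχ, ptd_bock_spec hχ, ptd_bock_spec hχ,
    mul_assoc]
  ring

lemma ptd_isZ2_bockSmul {χ : G → ZMod p} (hχ : ptd_IsChar χ) {c : C} (hc : ∀ g, ρC g c = c) :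
    ptd_IsZ2 ρC (ptd_bockSmul p χ c) := by
  intro g h j
  simp only [ptd_bockSmul, map_zsmul, hc]
  rw [← add_smul, ← add_smul, ptd_bock_cocycle hχ]

lemma ptd_isLev₂_bockSmul {χ : G → ZMod p} (hlev : ptd_IsLev₁ 𝓛 χ) (c : C) :
    ptd_IsLev₂ 𝓛 (ptd_bockSmul p χ c) := by
  have h := ((hlev.snd.map₂ hlev.mul Prod.mk).map₂ hlev.fst Prod.mk).comp
    (fun t : (ZMod p × ZMod p) × ZMod p =>
      ((((t.1.1).val : ℤ) - ((t.1.2).val : ℤ) + ((t.2).val : ℤ)) / (p : ℤ)) • c)
  exact h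

lemma ptd_nsmul_bockSmul {χ : G → ZMod p} (hχ : ptd_IsChar χ) {c : C} (hc : ∀ g, ρC g c = c) :
    p • ptd_bockSmul p χ c = ptd_d1 ρC (fun g => ((χ g).val : ℤ) • c) := by
  funext ⟨g, h⟩
  simp only [Pi.smul_apply, ptd_bockSmul, ptd_d1_apply, map_zsmul, hc]
  rw [← natCast_zsmul, smul_smul, ptd_bock_spec hχ, add_smul, sub_smul]

lemma ptd_isLZ2p_bockSmul {χ : G → ZMod p} (hχ : ptd_IsChar χ) (hlev : ptd_IsLev₁ 𝓛 χ) {c : C}
    (hc : ∀ g, ρC g c = c) : ptd_IsLZ2p 𝓛 ρC p (ptd_bockSmul p χ c) :=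
  ⟨⟨ptd_isZ2_bockSmul hχ hc, ptd_isLev₂_bockSmul hlev c⟩,
    ⟨fun g => ((χ g).val : ℤ) • c, hlev.comp (fun x : ZMod p => ((x.val : ℤ)) • c),
      ptd_nsmul_bockSmul hχ hc⟩⟩

end Bock

section Kernel

variable {G : Type*} [Group G]
variable {C : Type*} [AddCommGroup C] {ρC : Representation ℤ G C}
variable {p : ℕ} [Fact p.Prime]
variable {M : Type*} [AddCommGroup M] [Module (ZMod p) M] {ρM : Representation (ZMod p) G M}
variable (π : M →ₗ[ZMod p] ZMod p) (hπ : ∀ g m, π (ρM g m) = π m)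

/-- the representation on the kernel of an invariant functional -/
def ptd_kerRep : Representation (ZMod p) G (LinearMap.ker π) where
  toFun g := (ρM g).restrict (p := LinearMap.ker π) (q := LinearMap.ker π) (fun m hm => by
    rw [LinearMap.mem_ker] at hm ⊢
    rw [hπ, hm])
  map_one' := by ext; simp
  map_mul' x y := by ext; simp

@[simp] lemma ptd_kerRep_coe (g : G) (m : LinearMap.ker π) :
    ((ptd_kerRep π hπ g m : LinearMap.ker π) : M) = ρM g m := rfl

variable (m₀ : M)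

/-- the 1-cocycle `g ↦ g m₀ - m₀` with values in `ker π` -/
def ptd_u (g : G) : LinearMap.ker π :=
  ⟨ρM g m₀ - m₀, by rw [LinearMap.mem_ker, map_sub, hπ, sub_self]⟩

@[simp] lemma ptd_u_coe (g : G) : ((ptd_u π hπ m₀ g : LinearMap.ker π) : M) = ρM g m₀ - m₀ := rfl

lemma ptd_u_mul (g h : G) :
    ptd_u π hπ m₀ (g * h) = ptd_kerRep π hπ g (ptd_u π hπ m₀ h) + ptd_u π hπ m₀ g := by
  apply Subtype.ext
  simp only [ptd_u_coe, Submodule.coe_add, ptd_kerRep_coe, map_mul, Module.End.mul_apply,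
    map_sub]
  abel

/-- the coboundary of `g ↦ χ g • m₀` takes values in `ker π` -/
lemma ptd_coe_smul_u {χ : G → ZMod p} (hχ : ptd_IsChar χ) (g h : G) :
    ((χ h • ptd_u π hπ m₀ g : LinearMap.ker π) : M) = ptd_d1 ρM (fun g => χ g • m₀) (g, h) := by
  simp only [Submodule.coe_smul, ptd_u_coe, ptd_d1_apply, map_smul, hχ g h, add_smul, smul_sub]
  abel

variable (hm₀ : π m₀ = 1)

include hm₀ in
/-- the projection `M → ker π`, `m ↦ m - π m • m₀` -/
lemma ptd_proj_mem (m : M) : m - π m • m₀ ∈ LinearMap.ker π := by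
  rw [LinearMap.mem_ker, map_sub, map_smul, hm₀, smul_eq_mul, mul_one, sub_self]

/-- the projection `M → ker π` as an additive map -/
def ptd_proj : M →+ LinearMap.ker π where
  toFun m := ⟨m - π m • m₀, ptd_proj_mem π m₀ hm₀ m⟩
  map_zero' := by apply Subtype.ext; simp
  map_add' a b := by
    apply Subtype.ext
    simp only [map_add, add_smul, Submodule.coe_add]
    abel

@[simp] lemma ptd_proj_coe (m : M) : ((ptd_proj π m₀ hm₀ m : LinearMap.ker π) : M) = m - π m • m₀ :=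
  rfl

lemma ptd_proj_of_mem (m : LinearMap.ker π) : ptd_proj π m₀ hm₀ (m : M) = m := by
  apply Subtype.ext
  have : π (m : M) = 0 := m.2
  simp [this]

include hπ in
lemma ptd_proj_rho (g : G) (m : M) :
    ptd_proj π m₀ hm₀ (ρM g m)
      = ptd_kerRep π hπ g (ptd_proj π m₀ hm₀ m) + π m • ptd_u π hπ m₀ g := by
  apply Subtype.ext
  simp only [ptd_proj_coe, hπ, Submodule.coe_add, ptd_kerRep_coe, map_sub, map_smul,
    Submodule.coe_smul, ptd_u_coe, smul_sub]
  abel

include hm₀ in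
/-- EXTENSION CRITERION: if `f₁ ∘ u = d⁰ c₀` and `p • c₀ = p • c₁` with `c₁` invariant, then the
equivariant map `f₁ : ker π → C` extends to an equivariant map `M → C`. -/
theorem ptd_exists_extension (f₁ : LinearMap.ker π →+ C)
    (hf₁ : ptd_IsEquivariant ρC (ptd_kerRep π hπ) f₁) (c₀ : C)
    (hc₀ : ∀ g, f₁ (ptd_u π hπ m₀ g) = ρC g c₀ - c₀) (c₁ : C) (hc₁ : ∀ g, ρC g c₁ = c₁)
    (hp : p • c₀ = p • c₁) :
    ∃ f : M →+ C, ptd_IsEquivariant ρC ρM f ∧ ∀ m : LinearMap.ker π, f (m : M) = f₁ m := by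
  -- the map `x ↦ x • (c₀ - c₁)` on `ZMod p`
  let e : ZMod p →+ C := ZMod.lift p ⟨zmultiplesHom C (c₀ - c₁), by
    simp only [zmultiplesHom_apply, natCast_zsmul, smul_sub, hp, sub_self]⟩
  have he1 : e 1 = c₀ - c₁ := by
    have := ZMod.lift_coe p (⟨zmultiplesHom C (c₀ - c₁), by
      simp only [zmultiplesHom_apply, natCast_zsmul, smul_sub, hp, sub_self]⟩ :
        {f : ℤ →+ C // f p = 0}) 1
    simpa using this
  -- the key identity `g • e x = e x + f₁ (x • u g)`
  have hkey : ∀ (g : G) (x : ZMod p), ρC g (e x) = e x + f₁ (x • ptd_u π hπ m₀ g) := by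
    intro g x
    have hx : x = (x.val : ZMod p) := (ZMod.natCast_zmod_val x).symm
    have h1 : e x = x.val • e 1 := by
      conv_lhs => rw [hx, ← nsmul_one, map_nsmul]
    have h2 : x • ptd_u π hπ m₀ g = x.val • ptd_u π hπ m₀ g := by
      conv_lhs => rw [hx, Nat.cast_smul_eq_nsmul]
    rw [h1, h2, map_nsmul, map_nsmul, he1, map_sub, hc₁, hc₀, ← smul_add]
    congr 1
    abel
  let f : M →+ C := f₁.comp (ptd_proj π m₀ hm₀) + e.comp π.toAddMonoidHom
  refine ⟨f, ?_, ?_⟩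
  · intro g m
    simp only [f, AddMonoidHom.add_apply, AddMonoidHom.comp_apply, LinearMap.toAddMonoidHom_coe,
      hπ, map_add]
    rw [ptd_proj_rho π hπ m₀ hm₀, map_add, hf₁, hkey]
    abel
  · intro m
    have : π (m : M) = 0 := m.2
    simp only [f, AddMonoidHom.add_apply, AddMonoidHom.comp_apply, LinearMap.toAddMonoidHom_coe,
      this, map_zero, add_zero, ptd_proj_of_mem]

/-- KEY COMPATIBILITY: for `f₁ ∘ u = d⁰ c₀`, the cocycle `f₁ ∘ (χ ⊗ u)` is cohomologous to
`- (p • c₀) · δχ`, via the explicit cochain `g ↦ χ̃ g • c₀`. -/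
theorem ptd_key_compat (f₁ : LinearMap.ker π →+ C) (c₀ : C)
    (hc₀ : ∀ g, f₁ (ptd_u π hπ m₀ g) = ρC g c₀ - c₀) {χ : G → ZMod p} (hχ : ptd_IsChar χ) :
    (fun x : G × G => f₁ (χ x.2 • ptd_u π hπ m₀ x.1))
      = ptd_d1 ρC (fun g => ((χ g).val : ℤ) • c₀) - ptd_bockSmul p χ (p • c₀) := by
  funext ⟨g, h⟩
  have h2 : χ h • ptd_u π hπ m₀ g = (χ h).val • ptd_u π hπ m₀ g := by
    conv_lhs => rw [← ZMod.natCast_zmod_val (χ h), Nat.cast_smul_eq_nsmul]
  simp only [Pi.sub_apply, ptd_d1_apply, ptd_bockSmul, map_zsmul]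
  have hb : ptd_bock p χ (g, h) • p • c₀
      = (((χ h).val : ℤ) - ((χ (g * h)).val : ℤ) + ((χ g).val : ℤ)) • c₀ := by
    rw [← natCast_zsmul c₀ p, smul_smul, mul_comm, ptd_bock_spec hχ]
  rw [h2, map_nsmul, hc₀, hb, ← natCast_zsmul]
  simp only [add_smul, sub_smul, smul_sub]
  abel

end Kernel

end Fermat.Agent.Lib.PT
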