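/-
S55 (Poitou–Tate long haul), A-track, "ADT-lite": the induction step of the unipotent dévissage.
Given an invariant functional `π : M → ZMod p` with `π m₀ = 1`, right-nondegeneracy for `ker π`
implies right-nondegeneracy for `M` (inputs F1, F3, F4(i)).
-/
import Fermat.Agent.Lib.PT.AdtObstruction

set_option autoImplicit false

namespace Fermat.Agent.Lib.PT

section InvLemmas

variable {G : Type*} [Group G] {𝓛 : ptd_Levels G}
variable {C : Type*} [AddCommGroup C] {ρC : Representation ℤ G C}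
variable {T : Type*} [AddCommGroup T] {p : ℕ}

lemma ptd_IsB2.isLZ2p (hd : ptd_IsDiscrete 𝓛 ρC) {z : G × G → C} (hz : ptd_IsB2 𝓛 ρC z) :
    ptd_IsLZ2p 𝓛 ρC p z := ⟨hz.isLZ2 hd, hz.nsmul p⟩

lemma ptd_IsLZ2p.neg {z : G × G → C} (hz : ptd_IsLZ2p 𝓛 ρC p z) : ptd_IsLZ2p 𝓛 ρC p (-z) :=
  ⟨hz.1.neg, by rw [smul_neg]; exact hz.2.neg⟩

lemma ptd_IsLZ2p.add {z z' : G × G → C} (hz : ptd_IsLZ2p 𝓛 ρC p z)
    (hz' : ptd_IsLZ2p 𝓛 ρC p z') : ptd_IsLZ2p 𝓛 ρC p (z + z') :=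
  ⟨hz.1.add hz'.1, by rw [smul_add]; exact hz.2.add hz'.2⟩

lemma ptd_IsLZ2.isLZ2p_of_nsmul_eq_zero {z : G × G → C} (hz : ptd_IsLZ2 𝓛 ρC z)
    (h : p • z = 0) : ptd_IsLZ2p 𝓛 ρC p z := ⟨hz, by rw [h]; exact ptd_isB2_zero⟩

variable (inv : ptd_Inv 𝓛 ρC T p)

lemma ptd_Inv.map_add {z z' : G × G → C} (hz : ptd_IsLZ2p 𝓛 ρC p z)
    (hz' : ptd_IsLZ2p 𝓛 ρC p z') : inv (z + z') = inv z + inv z' := inv.map_add' z z' hz hz'

lemma ptd_Inv.map_b2 {z : G × G → C} (hz : ptd_IsB2 𝓛 ρC z) : inv z = 0 := inv.map_b2' z hz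

lemma ptd_Inv.map_neg {z : G × G → C} (hz : ptd_IsLZ2p 𝓛 ρC p z) : inv (-z) = -inv z := by
  have h := inv.map_add hz hz.neg
  rw [add_neg_cancel, inv.map_b2 ptd_isB2_zero] at h
  exact (neg_eq_of_add_eq_zero_right h.symm).symm

lemma ptd_Inv.map_sub_b2 (hd : ptd_IsDiscrete 𝓛 ρC) {z b : G × G → C}
    (hz : ptd_IsLZ2p 𝓛 ρC p z) (hb : ptd_IsB2 𝓛 ρC b) : inv (z - b) = inv z := by
  rw [sub_eq_add_neg, inv.map_add hz (hb.neg.isLZ2p hd), inv.map_b2 hb.neg, add_zero]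

lemma ptd_Inv.map_b2_sub (hd : ptd_IsDiscrete 𝓛 ρC) {z b : G × G → C}
    (hz : ptd_IsLZ2p 𝓛 ρC p z) (hb : ptd_IsB2 𝓛 ρC b) : inv (b - z) = -inv z := by
  rw [sub_eq_add_neg, inv.map_add (hb.isLZ2p hd) hz.neg, inv.map_b2 hb, zero_add, inv.map_neg hz]

end InvLemmas

section Compose

variable {G : Type*} [Group G] {𝓛 : ptd_Levels G}
variable {C : Type*} [AddCommGroup C] {ρC : Representation ℤ G C}
variable {k : Type*} [CommRing k] {M : Type*} [AddCommGroup M] [Module k M]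
variable {ρM : Representation k G M}

/-- composing a level cocycle with an equivariant map -/
lemma ptd_IsLZ2.comp_equivariant {z : G × G → M} (hz : ptd_IsLZ2 𝓛 ρM z) {f : M →+ C}
    (hf : ptd_IsEquivariant ρC ρM f) : ptd_IsLZ2 𝓛 ρC (fun x => f (z x)) := by
  have hf' : ∀ g m, f (ρM g m) = ρC g (f m) := hf
  refine ⟨fun g h j => ?_, hz.2.comp f⟩
  have := congrArg f (hz.1 g h j)
  simpa only [map_add, hf'] using this

lemma ptd_comp_d1 {f : M →+ C} (hf : ptd_IsEquivariant ρC ρM f) (φ : G → M) :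
    (fun x => f (ptd_d1 ρM φ x)) = ptd_d1 ρC (fun g => f (φ g)) := by
  have hf' : ∀ g m, f (ρM g m) = ρC g (f m) := hf
  funext ⟨g, h⟩
  simp only [ptd_d1_apply, map_add, map_sub, hf']

end Compose

section Step

variable {G : Type*} [Group G] (𝓛 : ptd_Levels G)
variable {C : Type*} [AddCommGroup C] (ρC : Representation ℤ G C)
variable {T : Type*} [AddCommGroup T] {p : ℕ} [Fact p.Prime]

/-- F1 (p-part): level 1-cocycles with `p`-torsion values are coboundaries -/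
def ptd_F1 (p : ℕ) : Prop :=
  ∀ φ : G → C, ptd_IsLZ1 𝓛 ρC φ → (∀ g, p • φ g = 0) → ptd_IsB1 ρC φ

/-- F3: reciprocity + existence theorem in exponent `p`: every functional on `C^G / p` is of the
form `c ↦ inv (c · δχ)` -/
def ptd_F3 (inv : ptd_Inv 𝓛 ρC T p) : Prop :=
  ∀ l : ρC.invariants →+ T, (∀ c, l (p • c) = 0) →
    ∃ χ : G → ZMod p, ptd_IsChar χ ∧ ptd_IsLev₁ 𝓛 χ ∧
      ∀ c : ρC.invariants, l c = inv (ptd_bockSmul p χ (c : C))

variable {𝓛 ρC}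
variable {M : Type*} [AddCommGroup M] [Module (ZMod p) M] {ρM : Representation (ZMod p) G M}
variable (π : M →ₗ[ZMod p] ZMod p) (hπ : ∀ g m, π (ρM g m) = π m) (m₀ : M) (hm₀ : π m₀ = 1)

/-- the cocycle `u` is level-constant when `M` is trivial on a level -/
lemma ptd_isLev₁_u (htriv : ptd_IsTrivOnLevel 𝓛 ρM) : ptd_IsLev₁ 𝓛 (ptd_u π hπ m₀) := by
  obtain ⟨N, hN, h⟩ := htriv
  refine ⟨N, hN, fun g n hn => Subtype.ext ?_⟩
  simp only [ptd_u_coe, map_mul, Module.End.mul_apply, h n hn, Module.End.one_apply]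

/-- the group of pairs `(f₁, c₀)`: `f₁ : ker π → C` equivariant, `f₁ ∘ u = d⁰ c₀` -/
def ptd_obsGroup (ρC : Representation ℤ G C) : AddSubgroup ((LinearMap.ker π →+ C) × C) where
  carrier := {x | ptd_IsEquivariant ρC (ptd_kerRep π hπ) x.1 ∧
    ∀ g, x.1 (ptd_u π hπ m₀ g) = ρC g x.2 - x.2}
  zero_mem' := ⟨fun g m => by simp, fun g => by simp⟩
  add_mem' := by
    rintro x y ⟨hx1, hx2⟩ ⟨hy1, hy2⟩
    have hx1' : ∀ g m, x.1 (ptd_kerRep π hπ g m) = ρC g (x.1 m) := hx1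
    have hy1' : ∀ g m, y.1 (ptd_kerRep π hπ g m) = ρC g (y.1 m) := hy1
    refine ⟨fun g m => ?_, fun g => ?_⟩
    · simp only [Prod.fst_add, AddMonoidHom.add_apply, hx1', hy1', map_add]
    · simp only [Prod.fst_add, AddMonoidHom.add_apply, hx2, hy2, Prod.snd_add, map_add]
      abel
  neg_mem' := by
    rintro x ⟨hx1, hx2⟩
    have hx1' : ∀ g m, x.1 (ptd_kerRep π hπ g m) = ρC g (x.1 m) := hx1
    refine ⟨fun g m => ?_, fun g => ?_⟩
    · simp only [Prod.fst_neg, AddMonoidHom.neg_apply, hx1', map_neg]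
    · simp only [Prod.fst_neg, AddMonoidHom.neg_apply, hx2, Prod.snd_neg, map_neg]
      abel

end Step

end Fermat.Agent.Lib.PT
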