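/-
S55 (Poitou–Tate long haul), A-track, "ADT-lite": THE UNIPOTENT DÉVISSAGE.
`ptd_nondegH2_step` : the induction step;  `ptd_nondegH2_of_isPGroup` : right nondegeneracy of
`Hom_G(M, C) × H²(G, M) → T` for every finite `𝔽_p[G]`-module on which `G` acts through a
`p`-group, from the inputs F1, F3, F4(i).
-/
import Fermat.Agent.Lib.PT.AdtStep

set_option autoImplicit false

namespace Fermat.Agent.Lib.PT

section Step

variable {G : Type*} [Group G] {𝓛 : ptd_Levels G}
variable {C : Type*} [AddCommGroup C] {ρC : Representation ℤ G C}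
variable {T : Type*} [AddCommGroup T] {p : ℕ} [Fact p.Prime]
variable {M : Type*} [AddCommGroup M] [Module (ZMod p) M] {ρM : Representation (ZMod p) G M}

set_option maxHeartbeats 1000000 in
/-- THE INDUCTION STEP of the unipotent dévissage. -/
theorem ptd_nondegH2_step (hdisc : ptd_IsDiscrete 𝓛 ρC) (inv : ptd_Inv 𝓛 ρC T p)
    (hF1 : ptd_F1 𝓛 ρC p) (hF3 : ptd_F3 𝓛 ρC inv)
    (hF4 : ptd_NondegH2 𝓛 ρC inv (Representation.trivial (ZMod p) G (ZMod p)))
    (htriv : ptd_IsTrivOnLevel 𝓛 ρM)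
    (π : M →ₗ[ZMod p] ZMod p) (hπ : ∀ g m, π (ρM g m) = π m) (m₀ : M) (hm₀ : π m₀ = 1)
    (IH : ptd_NondegH2 𝓛 ρC inv (ptd_kerRep π hπ)) : ptd_NondegH2 𝓛 ρC inv ρM := by
  intro z hz H
  have hdiscM : ptd_IsDiscrete 𝓛 ρM := htriv.isDiscrete
  -- (a) `π ∘ z` is a coboundary, by F4
  have hπz : ptd_IsLZ2 𝓛 (Representation.trivial (ZMod p) G (ZMod p)) (fun x => π (z x)) := by
    refine ⟨fun g h j => ?_, hz.2.comp π⟩
    have := congrArg π (hz.1 g h j)
    simpa only [map_add, hπ, Representation.trivial_apply] using this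
  obtain ⟨φ, hφlev, hφ⟩ := hF4 (fun x => π (z x)) hπz (fun f' hf' => by
    have hf'' : ∀ g m, f' (Representation.trivial (ZMod p) G (ZMod p) g m) = ρC g (f' m) := hf'
    exact H (f'.comp π.toAddMonoidHom) (fun g m => by
      simp only [AddMonoidHom.comp_apply, LinearMap.toAddMonoidHom_coe, hπ]
      rw [← hf'', Representation.trivial_apply]))
  -- (b) modify `z` by a coboundary so that it takes values in `ker π`
  set φ' : G → M := fun g => φ g • m₀ with hφ'
  have hφ'lev : ptd_IsLev₁ 𝓛 φ' := hφlev.comp (fun x => x • m₀)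
  have hB : ptd_IsLZ2 𝓛 ρM (ptd_d1 ρM φ') := ⟨ptd_isZ2_d1 φ', ptd_isLev₂_d1 hdiscM hφ'lev⟩
  set z' : G × G → M := z - ptd_d1 ρM φ' with hz'def
  have hz' : ptd_IsLZ2 𝓛 ρM z' := hz.sub hB
  have hz'ker : ∀ x, z' x ∈ LinearMap.ker π := by
    rintro ⟨g, h⟩
    have h1 := congrFun hφ (g, h)
    simp only [ptd_d1_apply, Representation.trivial_apply] at h1
    rw [LinearMap.mem_ker, hz'def]
    simp only [Pi.sub_apply, ptd_d1_apply, map_sub, map_add, hπ, h1, hφ', map_smul, hm₀,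
      smul_eq_mul, mul_one]
    abel
  set z₁ : G × G → LinearMap.ker π := fun x => ⟨z' x, hz'ker x⟩ with hz₁def
  have hz₁ : ptd_IsLZ2 𝓛 (ptd_kerRep π hπ) z₁ := by
    refine ⟨fun g h j => Subtype.ext ?_, ?_⟩
    · simpa using hz'.1 g h j
    · obtain ⟨N, hN, hN'⟩ := hz'.2
      exact ⟨N, hN, fun g h n hn n' hn' => Subtype.ext (hN' g h n hn n' hn')⟩
  -- (c) the functional on `C^G / p`
  have hpker : ∀ m : LinearMap.ker π, p • m = 0 := fun m => ZModModule.char_nsmul_eq_zero p m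
  set X := ptd_obsGroup π hπ m₀ ρC with hX
  have hinvmem : ∀ x : X, p • x.1.2 ∈ ρC.invariants := by
    intro x g
    have h2 := x.2.2 g
    have h3 : ρC g x.1.2 = x.1.1 (ptd_u π hπ m₀ g) + x.1.2 := by rw [h2]; abel
    rw [map_nsmul, h3, smul_add, ← map_nsmul, hpker, map_zero, zero_add]
  let pI : Submodule ℤ ρC.invariants := LinearMap.range (LinearMap.lsmul ℤ ρC.invariants (p : ℤ))
  have hQ : ∀ q : ρC.invariants ⧸ pI, p • q = 0 := by
    intro q
    obtain ⟨c, rfl⟩ := Submodule.Quotient.mk_surjective pI q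
    rw [← Submodule.Quotient.mk_smul, Submodule.Quotient.mk_eq_zero]
    exact ⟨c, by simp⟩
  have hcomp : ∀ x : X, ptd_IsLZ2p 𝓛 ρC p (fun w => x.1.1 (z₁ w)) := fun x =>
    (hz₁.comp_equivariant x.2.1).isLZ2p_of_nsmul_eq_zero (by
      funext w
      simp only [Pi.smul_apply, Pi.zero_apply]
      rw [← map_nsmul, hpker, map_zero])
  let d : X →+ ρC.invariants ⧸ pI :=
    { toFun := fun x => Submodule.Quotient.mk ⟨p • x.1.2, hinvmem x⟩
      map_zero' := by
        rw [Submodule.Quotient.mk_eq_zero]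
        convert pI.zero_mem
        simp
      map_add' := fun x y => by
        rw [← Submodule.Quotient.mk_add]
        congr 1
        apply Subtype.ext
        simp [smul_add] }
  let Θ : X →+ T :=
    { toFun := fun x => inv (fun w => x.1.1 (z₁ w))
      map_zero' := by
        have : (fun w => (0 : X).1.1 (z₁ w)) = (0 : G × G → C) := by funext w; simp
        rw [this]
        exact inv.map_b2 ptd_isB2_zero
      map_add' := fun x y => by
        have : (fun w => (x + y).1.1 (z₁ w))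
            = (fun w => x.1.1 (z₁ w)) + (fun w => y.1.1 (z₁ w)) := by funext w; simp
        rw [this]
        exact inv.map_add (hcomp x) (hcomp y) }
  have hker : ∀ x : X, d x = 0 → Θ x = 0 := by
    intro x hx
    have hx' : (⟨p • x.1.2, hinvmem x⟩ : ρC.invariants) ∈ pI :=
      (Submodule.Quotient.mk_eq_zero pI).mp hx
    obtain ⟨c₁, hc₁⟩ := hx'
    have hc₁' : p • x.1.2 = p • (c₁ : C) := by
      have := congrArg Subtype.val hc₁
      simpa using this.symm
    obtain ⟨f, hf, hfres⟩ := ptd_exists_extension π hπ m₀ hm₀ x.1.1 x.2.1 x.1.2 x.2.2 (c₁ : C)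
      (fun g => c₁.2 g) hc₁'
    show inv (fun w => x.1.1 (z₁ w)) = 0
    have e1 : (fun w => x.1.1 (z₁ w))
        = (fun w => f (z w)) - ptd_d1 ρC (fun g => f (φ' g)) := by
      rw [← ptd_comp_d1 hf φ']
      funext w
      rw [← hfres]
      simp [hz₁def, hz'def]
    rw [e1, inv.map_sub_b2 hdisc
      ((hz.comp_equivariant hf).isLZ2p_of_nsmul_eq_zero (by
        funext w
        simp only [Pi.smul_apply, Pi.zero_apply]
        rw [← map_nsmul, ZModModule.char_nsmul_eq_zero p (z w), map_zero]))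
      ⟨fun g => f (φ' g), hφ'lev.comp f, rfl⟩]
    exact H f hf
  obtain ⟨l, hl⟩ := ptd_exists_factor hQ d Θ hker
  -- (d) the character from F3
  obtain ⟨χ, hχ, hχlev, hχl⟩ := hF3 (l.comp (Submodule.mkQ pI).toAddMonoidHom) (fun c => by
    simp only [AddMonoidHom.comp_apply, LinearMap.toAddMonoidHom_coe, Submodule.mkQ_apply]
    have : Submodule.Quotient.mk (p • c) = (0 : ρC.invariants ⧸ pI) := by
      rw [Submodule.Quotient.mk_eq_zero]
      exact ⟨c, by simp⟩
    rw [this, map_zero])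
  -- (e) the correction cocycle `w = χ ⊗ u`
  set w : G × G → LinearMap.ker π := fun x => χ x.2 • ptd_u π hπ m₀ x.1 with hwdef
  have hwcoe : ∀ x, ((w x : LinearMap.ker π) : M) = ptd_d1 ρM (fun g => χ g • m₀) x := by
    rintro ⟨g, h⟩
    exact ptd_coe_smul_u π hπ m₀ hχ g h
  have hw : ptd_IsLZ2 𝓛 (ptd_kerRep π hπ) w := by
    refine ⟨fun g h j => Subtype.ext ?_, ?_⟩
    · simp only [Submodule.coe_add, ptd_kerRep_coe, hwcoe]
      exact ptd_isZ2_d1 (fun g => χ g • m₀) g h j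
    · exact hχlev.snd.map₂ (ptd_isLev₁_u π hπ m₀ htriv).fst (fun a b => a • b)
  have hz₁w : ptd_IsLZ2 𝓛 (ptd_kerRep π hπ) (z₁ + w) := hz₁.add hw
  -- (f) `z₁ + w` is killed by all test maps
  have hkill : ∀ f₁ : LinearMap.ker π →+ C, ptd_IsEquivariant ρC (ptd_kerRep π hπ) f₁ →
      inv (fun x => f₁ ((z₁ + w) x)) = 0 := by
    intro f₁ hf₁
    have hf₁' : ∀ g m, f₁ (ptd_kerRep π hπ g m) = ρC g (f₁ m) := hf₁
    -- the cochain `c₀` from F1
    have hκ : ptd_IsLZ1 𝓛 ρC (fun g => f₁ (ptd_u π hπ m₀ g)) := by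
      refine ⟨fun g h => ?_, (ptd_isLev₁_u π hπ m₀ htriv).comp f₁⟩
      simp only [ptd_u_mul, map_add, hf₁']
    obtain ⟨c₀, hc₀⟩ := hF1 _ hκ (fun g => by rw [← map_nsmul, hpker, map_zero])
    have hc₀' : ∀ g, f₁ (ptd_u π hπ m₀ g) = ρC g c₀ - c₀ := fun g => congrFun hc₀ g
    let x : X := ⟨(f₁, c₀), hf₁, hc₀'⟩
    have h1 : l (d x) = inv (fun y => f₁ (z₁ y)) := hl x
    have h2 := hχl ⟨p • c₀, hinvmem x⟩
    have h3 : (l.comp (Submodule.mkQ pI).toAddMonoidHom) ⟨p • c₀, hinvmem x⟩ = l (d x) := rfl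
    have hkc := ptd_key_compat π hπ m₀ f₁ c₀ hc₀' hχ
    have hsplit : (fun y => f₁ ((z₁ + w) y))
        = (fun y => f₁ (z₁ y)) + (fun y => f₁ (w y)) := by
      funext y; simp
    have hfw : ptd_IsLZ2p 𝓛 ρC p (fun y => f₁ (w y)) :=
      (hw.comp_equivariant hf₁).isLZ2p_of_nsmul_eq_zero (by
        funext y
        simp only [Pi.smul_apply, Pi.zero_apply]
        rw [← map_nsmul, hpker, map_zero])
    have hfz : ptd_IsLZ2p 𝓛 ρC p (fun y => f₁ (z₁ y)) := hcomp x
    rw [hsplit, inv.map_add hfz hfw]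
    have hfw' : (fun y => f₁ (w y))
        = ptd_d1 ρC (fun g => ((χ g).val : ℤ) • c₀) - ptd_bockSmul p χ (p • c₀) := hkc
    rw [hfw', inv.map_b2_sub hdisc (ptd_isLZ2p_bockSmul hχ hχlev (fun g => hinvmem x g))
      ⟨fun g => ((χ g).val : ℤ) • c₀, hχlev.comp (fun a : ZMod p => ((a.val : ℤ)) • c₀), rfl⟩]
    rw [← h1, ← h3, h2]
    exact add_neg_cancel _
  -- (g) conclusion
  obtain ⟨ψ₁, hψ₁lev, hψ₁⟩ := IH (z₁ + w) hz₁w hkill
  refine ⟨(fun g => ((ψ₁ g : LinearMap.ker π) : M)) - (fun g => χ g • m₀) + φ', ?_, ?_⟩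
  · exact ((hψ₁lev.comp Subtype.val).sub (hχlev.comp (fun a => a • m₀))).add hφ'lev
  · rw [ptd_d1_add, ptd_d1_sub]
    funext y
    have h4 := congrArg Subtype.val (congrFun hψ₁ y)
    have h5 : ((ptd_d1 (ptd_kerRep π hπ) ψ₁ y : LinearMap.ker π) : M)
        = ptd_d1 ρM (fun g => ((ψ₁ g : LinearMap.ker π) : M)) y := by
      obtain ⟨g, h⟩ := y
      simp [ptd_d1_apply]
    rw [h5] at h4
    simp only [Pi.add_apply, Submodule.coe_add, hwcoe] at h4
    simp only [Pi.add_apply, Pi.sub_apply, ← h4, hz₁def, hz'def]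
    abel

end Step

end Fermat.Agent.Lib.PT

namespace Fermat.Agent.Lib.PT

section Invariant

variable {G : Type*} [Group G] {p : ℕ} [Fact p.Prime]
variable {M : Type*} [AddCommGroup M] [Module (ZMod p) M] [Module.Finite (ZMod p) M]

/-- A unipotent finite `𝔽_p[G]`-module `M ≠ 0` has a nonzero `G`-invariant functional. -/
lemma ptd_exists_invariant_functional (ρM : Representation (ZMod p) G M)
    (hP : ∀ g : G, ∃ k : ℕ, ρM (g ^ p ^ k) = 1) (hM : 0 < Module.finrank (ZMod p) M) :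
    ∃ π : M →ₗ[ZMod p] ZMod p, π ≠ 0 ∧ ∀ g m, π (ρM g m) = π m := by
  classical
  let D := Module.Dual (ZMod p) M
  let ρD : Representation (ZMod p) G D := ρM.dual
  let H : Subgroup (D →ₗ[ZMod p] D)ˣ := ρD.asGroupHom.range
  have hinv1 : ∀ x : G, ρM x = 1 → ρM x⁻¹ = 1 := by
    intro x hx
    have : ρM x⁻¹ * ρM x = 1 := by rw [← map_mul, inv_mul_cancel, map_one]
    rwa [hx, mul_one] at this
  have hH : IsPGroup p H := by
    rintro ⟨h, g, rfl⟩
    obtain ⟨k, hk⟩ := hP g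
    refine ⟨k, Subtype.ext ?_⟩
    simp only [SubgroupClass.coe_pow, Subgroup.coe_one]
    rw [← map_pow]
    apply Units.ext
    rw [Representation.asGroupHom_apply]
    show ρM.dual (g ^ p ^ k) = 1
    rw [Representation.dual_apply, hinv1 _ hk]
    rfl
  have : Finite M := Module.finite_of_finite (ZMod p)
  have : Finite D := Finite.of_injective (fun f : D => (f : M → ZMod p)) DFunLike.coe_injective
  have hcard : p ∣ Nat.card D := by
    rw [Module.natCard_eq_pow_finrank (K := ZMod p) (V := D), Nat.card_zmod,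
      Subspace.dual_finrank_eq]
    exact dvd_pow_self p hM.ne'
  have h0 : (0 : D) ∈ MulAction.fixedPoints H D := by
    rintro ⟨h, g, rfl⟩
    show (ρD.asGroupHom g : D →ₗ[ZMod p] D) 0 = 0
    simp
  obtain ⟨b, hbfix, hb0⟩ := hH.exists_fixed_point_of_prime_dvd_card_of_fixed_point D hcard h0
  refine ⟨b, fun h => hb0 h.symm, fun g m => ?_⟩
  have := hbfix ⟨ρD.asGroupHom g⁻¹, ⟨g⁻¹, rfl⟩⟩
  have h1 : (ρD.asGroupHom g⁻¹ : D →ₗ[ZMod p] D) b = b := this
  rw [Representation.asGroupHom_apply] at h1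
  have h2 := LinearMap.congr_fun h1 m
  rw [Representation.dual_apply, inv_inv] at h2
  exact h2

end Invariant

section Main

variable {G : Type*} [Group G] {𝓛 : ptd_Levels G}
variable {C : Type*} [AddCommGroup C] {ρC : Representation ℤ G C}
variable {T : Type*} [AddCommGroup T] {p : ℕ} [Fact p.Prime]

universe v

/-- The unipotent dévissage, elementwise form of the `p`-group hypothesis. -/
theorem ptd_nondegH2_of_unipotent (hdisc : ptd_IsDiscrete 𝓛 ρC) (inv : ptd_Inv 𝓛 ρC T p)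
    (hF1 : ptd_F1 𝓛 ρC p) (hF3 : ptd_F3 𝓛 ρC inv)
    (hF4 : ptd_NondegH2 𝓛 ρC inv (Representation.trivial (ZMod p) G (ZMod p))) :
    ∀ (n : ℕ) (M : Type v) [AddCommGroup M] [Module (ZMod p) M] [Module.Finite (ZMod p) M]
      (ρM : Representation (ZMod p) G M), ptd_IsTrivOnLevel 𝓛 ρM →
      (∀ g : G, ∃ k : ℕ, ρM (g ^ p ^ k) = 1) → Module.finrank (ZMod p) M = n →
      ptd_NondegH2 𝓛 ρC inv ρM := by
  intro n
  induction n with
  | zero =>
    intro M _ _ _ ρM _ _ hn
    have : Subsingleton M := Module.finrank_zero_iff.mp hn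
    intro z _ _
    exact ⟨0, ptd_isLev₁_const (0 : M), funext fun x => Subsingleton.elim _ _⟩
  | succ n ih =>
    intro M _ _ _ ρM htriv hP hn
    obtain ⟨π, hπ0, hπ⟩ := ptd_exists_invariant_functional ρM hP (by omega)
    -- a vector with `π m₀ = 1`
    obtain ⟨m, hm⟩ : ∃ m, π m ≠ 0 := by
      by_contra hcon
      refine hπ0 (LinearMap.ext fun m => ?_)
      by_contra hm
      exact hcon ⟨m, hm⟩
    set m₀ : M := (π m)⁻¹ • m with hm₀def
    have hm₀ : π m₀ = 1 := by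
      rw [hm₀def, map_smul, smul_eq_mul, inv_mul_cancel₀ hm]
    -- the kernel has dimension `n`
    have hrange : LinearMap.range π = ⊤ := by
      rw [eq_top_iff]
      intro x _
      exact ⟨x • m₀, by rw [map_smul, hm₀, smul_eq_mul, mul_one]⟩
    have hker : Module.finrank (ZMod p) (LinearMap.ker π) = n := by
      have h1 := LinearMap.finrank_range_add_finrank_ker π
      rw [hrange, finrank_top, Module.finrank_self, hn] at h1
      omega
    have htriv' : ptd_IsTrivOnLevel 𝓛 (ptd_kerRep π hπ) := by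
      obtain ⟨N, hN, h⟩ := htriv
      refine ⟨N, hN, fun g hg => ?_⟩
      ext x
      simp [h g hg]
    have hP' : ∀ g : G, ∃ k : ℕ, ptd_kerRep π hπ (g ^ p ^ k) = 1 := by
      intro g
      obtain ⟨k, hk⟩ := hP g
      refine ⟨k, LinearMap.ext fun x => Subtype.ext ?_⟩
      rw [ptd_kerRep_coe, hk]
      rfl
    exact ptd_nondegH2_step hdisc inv hF1 hF3 hF4 htriv π hπ m₀ hm₀
      (ih (LinearMap.ker π) (ptd_kerRep π hπ) htriv' hP' hker)

/-- **THE UNIPOTENT DÉVISSAGE (ADT-lite, part (A) over a `p`-group image).**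
Right nondegeneracy of `Hom_G(M, C) × H²(G, M) → T` for every finite `𝔽_p[G]`-module `M`,
trivial on a level, on which `G` acts through a `p`-group; inputs F1, F3, F4(i). -/
theorem ptd_nondegH2_of_isPGroup (hdisc : ptd_IsDiscrete 𝓛 ρC) (inv : ptd_Inv 𝓛 ρC T p)
    (hF1 : ptd_F1 𝓛 ρC p) (hF3 : ptd_F3 𝓛 ρC inv)
    (hF4 : ptd_NondegH2 𝓛 ρC inv (Representation.trivial (ZMod p) G (ZMod p)))
    {M : Type v} [AddCommGroup M] [Module (ZMod p) M] [Module.Finite (ZMod p) M]
    (ρM : Representation (ZMod p) G M) (htriv : ptd_IsTrivOnLevel 𝓛 ρM)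
    (hP : IsPGroup p ρM.asGroupHom.range) : ptd_NondegH2 𝓛 ρC inv ρM := by
  refine ptd_nondegH2_of_unipotent hdisc inv hF1 hF3 hF4 _ M ρM htriv (fun g => ?_) rfl
  obtain ⟨k, hk⟩ := hP ⟨ρM.asGroupHom g, ⟨g, rfl⟩⟩
  refine ⟨k, ?_⟩
  have h1 := congrArg Subtype.val hk
  simp only [SubgroupClass.coe_pow, Subgroup.coe_one] at h1
  rw [← map_pow] at h1
  have h2 := congrArg Units.val h1
  rwa [Representation.asGroupHom_apply] at h2

end Main

end Fermat.Agent.Lib.PT
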