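/-
S55 (Poitou–Tate long haul), A-track, "ADT-lite": THE TWO NONDEGENERACY THEOREMS.

* `ptd_nondegH2` : (A) right nondegeneracy of `Hom_G(M, C) × H²(G, M) → T` for a finite
  `𝔽_p[G]`-module `M`, by Sylow descent to an open subgroup `U` of index prime to `p` acting on `M`
  through a `p`-group, where the inputs F1, F3, F4(i) hold;
* `ptd_nondegHom` : (B') left nondegeneracy, from the base case F4(ii) at a level acting
  trivially on `M`.
Both use the compatibility `inv_G ∘ cor = inv_U` of the invariant maps.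
-/
import Fermat.Agent.Lib.PT.AdtMain

set_option autoImplicit false

namespace Fermat.Agent.Lib.PT

section Sub

variable {G : Type*} [Group G] {𝓛 : ptd_Levels G} (U : Subgroup G) (hU : 𝓛.IsOpen U)
variable {k : Type*} [CommRing k] {A : Type*} [AddCommGroup A] [Module k A]
variable {ρ : Representation k G A}

lemma ptd_IsDiscrete.resRep (hd : ptd_IsDiscrete 𝓛 ρ) :
    ptd_IsDiscrete (𝓛.sub U hU) (ptd_resRep ρ U) := by
  intro a
  obtain ⟨N, hN, h⟩ := hd a
  obtain ⟨N', hN', hN'U⟩ := hU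
  obtain ⟨N'', hN'', hle⟩ := 𝓛.directed N hN N' hN'
  refine ⟨_, ⟨N'', hN'', (hle.trans inf_le_right).trans hN'U, rfl⟩, fun n hn => ?_⟩
  exact h n (hle (Subgroup.mem_subgroupOf.mp hn)).1

lemma ptd_IsTrivOnLevel.resRep (hd : ptd_IsTrivOnLevel 𝓛 ρ) :
    ptd_IsTrivOnLevel (𝓛.sub U hU) (ptd_resRep ρ U) := by
  obtain ⟨N, hN, h⟩ := hd
  obtain ⟨N', hN', hN'U⟩ := hU
  obtain ⟨N'', hN'', hle⟩ := 𝓛.directed N hN N' hN'
  refine ⟨_, ⟨N'', hN'', (hle.trans inf_le_right).trans hN'U, rfl⟩, fun n hn => ?_⟩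
  exact h n (hle (Subgroup.mem_subgroupOf.mp hn)).1

/-- level cocycles killed by `p` as cochains have `p`-torsion class (any coefficient ring) -/
lemma ptd_IsLZ2.isLZ2p_of_nsmul_eq_zero' {z : G × G → A} {p : ℕ} (hz : ptd_IsLZ2 𝓛 ρ z)
    (h : p • z = 0) : ptd_IsLZ2p 𝓛 ρ p z := ⟨hz, by rw [h]; exact ptd_isB2_zero⟩

variable (ρ) in
/-- a representation over any ring, as a representation over `ℤ` (same action) -/
def ptd_intRep : Representation ℤ G A where
  toFun g := (ρ g).toAddMonoidHom.toIntLinearMap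
  map_one' := by ext; simp
  map_mul' g h := by ext; simp

@[simp] lemma ptd_intRep_apply (g : G) (a : A) : ptd_intRep ρ g a = ρ g a := rfl

end Sub

section Full

variable {G : Type*} [Group G] {𝓛 : ptd_Levels G}
variable {C : Type*} [AddCommGroup C] {ρC : Representation ℤ G C}
variable {T : Type*} [AddCommGroup T] {p : ℕ} [Fact p.Prime]

/-- **ADT-lite (A): right nondegeneracy** of `Hom_G(M, C) × H²(G, M) → T` (`a` surjective). -/
theorem ptd_nondegH2 (hdisc : ptd_IsDiscrete 𝓛 ρC) (invG : ptd_Inv 𝓛 ρC T p)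
    (U : Subgroup G) (hU : 𝓛.IsOpen U) [U.FiniteIndex] (hidx : ¬ p ∣ U.index)
    (invU : ptd_Inv (𝓛.sub U hU) (ptd_resRep ρC U) T p)
    (hcor : ∀ y, ptd_IsLZ2p (𝓛.sub U hU) (ptd_resRep ρC U) p y →
      invG (ptd_cor₂ U ρC y) = invU y)
    (hF1 : ptd_F1 (𝓛.sub U hU) (ptd_resRep ρC U) p)
    (hF3 : ptd_F3 (𝓛.sub U hU) (ptd_resRep ρC U) invU)
    (hF4 : ptd_NondegH2 (𝓛.sub U hU) (ptd_resRep ρC U) invU
      (Representation.trivial (ZMod p) U (ZMod p)))
    {M : Type*} [AddCommGroup M] [Module (ZMod p) M] [Module.Finite (ZMod p) M]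
    (ρM : Representation (ZMod p) G M) (htriv : ptd_IsTrivOnLevel 𝓛 ρM)
    (hP : IsPGroup p (ptd_resRep ρM U).asGroupHom.range) : ptd_NondegH2 𝓛 ρC invG ρM := by
  intro z hz H
  have hpM : ∀ m : M, p • m = 0 := fun m => ZModModule.char_nsmul_eq_zero p m
  have hzp : ptd_IsLZ2p 𝓛 ρM p z := hz.isLZ2p_of_nsmul_eq_zero' (by
    funext x
    simp only [Pi.smul_apply, Pi.zero_apply, hpM])
  have hcop : Nat.Coprime U.index p :=
    ((Nat.Prime.coprime_iff_not_dvd (Fact.out : p.Prime)).mpr hidx).symm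
  refine ptd_isB2_of_res₂ U hU ρM hcop hzp ?_
  -- the unipotent theorem over `U`
  have hU_nd := ptd_nondegH2_of_isPGroup (hdisc.resRep U hU) invU hF1 hF3 hF4
    (ptd_resRep ρM U) (htriv.resRep U hU) hP
  refine hU_nd (ptd_res₂ U z) (ptd_isLZ2_res₂ U hU ρM hz) (fun f' hf' => ?_)
  have hf'' : ∀ u ∈ U, ∀ a, f' (ρM u a) = ρC u (f' a) := fun u hu a => hf' ⟨u, hu⟩ a
  -- `f' ∘ res z` has `p`-torsion class
  have h1 : ptd_IsLZ2p (𝓛.sub U hU) (ptd_resRep ρC U) p (fun x => f' (ptd_res₂ U z x)) :=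
    ((ptd_isLZ2_res₂ U hU ρM hz).comp_equivariant hf').isLZ2p_of_nsmul_eq_zero (by
      funext x
      simp only [Pi.smul_apply, Pi.zero_apply]
      rw [← map_nsmul, hpM, map_zero])
  rw [← hcor _ h1, ptd_cor₂_comp_res U (ptd_intRep ρM) ρC hz.1 f' hf'']
  have hNf : ptd_IsEquivariant ρC ρM (ptd_normHom U (ptd_intRep ρM) ρC f') :=
    fun g a => ptd_normHom_equivariant (ρ := ptd_intRep ρM) hf'' g a
  have h2 : ptd_IsLZ2p 𝓛 ρC p (fun x => ptd_normHom U (ptd_intRep ρM) ρC f' (z x)) :=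
    (hz.comp_equivariant hNf).isLZ2p_of_nsmul_eq_zero (by
      funext x
      simp only [Pi.smul_apply, Pi.zero_apply]
      rw [← map_nsmul, hpM, map_zero])
  rw [invG.map_sub_b2 hdisc h2
    ⟨_, ptd_isLev₁_projCochain U hU (ptd_intRep ρM) ρC hz.2 f', rfl⟩]
  exact H _ hNf

/-- **ADT-lite (B'): left nondegeneracy** of `Hom_G(M, C) × H²(G, M) → T` (`a` injective). -/
theorem ptd_nondegHom (invG : ptd_Inv 𝓛 ρC T p)
    {M : Type*} [AddCommGroup M] [Module (ZMod p) M]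
    (ρM : Representation (ZMod p) G M)
    (V : Subgroup G) (hV : V ∈ 𝓛.lev) (hVM : ∀ n ∈ V, ρM n = 1) [V.FiniteIndex]
    (invV : ptd_Inv (𝓛.sub V (𝓛.isOpen_of_mem hV)) (ptd_resRep ρC V) T p)
    (hcor : ∀ y, ptd_IsLZ2p (𝓛.sub V (𝓛.isOpen_of_mem hV)) (ptd_resRep ρC V) p y →
      invG (ptd_cor₂ V ρC y) = invV y)
    (hF4 : ptd_NondegHom (𝓛.sub V (𝓛.isOpen_of_mem hV)) (ptd_resRep ρC V) invV
      (Representation.trivial (ZMod p) V (ZMod p))) :
    ptd_NondegHom 𝓛 ρC invG ρM := by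
  intro f hf H
  have hf' : ∀ g m, f (ρM g m) = ρC g (f m) := hf
  have hpM : ∀ m : M, p • m = 0 := fun m => ZModModule.char_nsmul_eq_zero p m
  have hVopen := 𝓛.isOpen_of_mem hV
  ext m
  -- the test map `x ↦ f (x • m)` on `ZMod p`
  let fm : ZMod p →+ C := f.comp (LinearMap.toSpanSingleton (ZMod p) M m).toAddMonoidHom
  have hfm : ∀ x, fm x = f (x • m) := fun x => rfl
  have hfm_eq : ptd_IsEquivariant (ptd_resRep ρC V) (Representation.trivial (ZMod p) V (ZMod p))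
      fm := by
    intro v x
    rw [Representation.trivial_apply, hfm, ptd_resRep_apply, ← hf', hVM v v.2]
    rfl
  have key : fm = 0 := by
    refine hF4 fm hfm_eq (fun z₀ hz₀ => ?_)
    -- the cocycle `z₀ · m` of `V` with values in `M`
    set y : V × V → M := fun x => z₀ x • m with hy
    have hyZ : ptd_IsLZ2 (𝓛.sub V hVopen) (ptd_resRep ρM V) y := by
      refine ⟨fun g h j => ?_, hz₀.2.comp (fun a => a • m)⟩
      have := hz₀.1 g h j
      simp only [Representation.trivial_apply] at this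
      simp only [hy, ptd_resRep_apply, hVM g g.2, Module.End.one_apply, ← add_smul, this]
    have hfy : (fun x => fm (z₀ x)) = fun x => f (y x) := rfl
    have h1 : ptd_IsLZ2p (𝓛.sub V hVopen) (ptd_resRep ρC V) p (fun x => fm (z₀ x)) :=
      (hz₀.comp_equivariant hfm_eq).isLZ2p_of_nsmul_eq_zero (by
        funext x
        simp only [Pi.smul_apply, Pi.zero_apply, hfm]
        rw [← map_nsmul, hpM, map_zero])
    rw [← hcor _ h1, hfy, ptd_cor₂_natural V (ptd_intRep ρM) ρC f hf' y]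
    exact H _ (ptd_isLZ2_cor₂ V hVopen ρM hyZ)
  have := DFunLike.congr_fun key 1
  simpa [hfm] using this

end Full

end Fermat.Agent.Lib.PT
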