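/-
S55 (Poitou–Tate long haul), abstract class formation from an idelic invariant, SECOND VERSION
(ABS v2, "cyclic reciprocity only"), part 1.

Same as `AbsDefs`/`ptn_Abs`, but the reciprocity input `INV_b2` (for ALL `J`-valued level cocycles
whose image in `C` is a level coboundary) is replaced by its two primitive special cases
* `INV_d1`  : `INV_U` vanishes on level coboundaries IN `J`;
* `INV_cyc` : `INV_U (a · δχ_k) = 0` if `π(a) · δχ_k` is a level coboundary in `C`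
and the tower characters are assumed compatible (`χ_compat`).  Reciprocity is then available on
the GOOD cocycles `a · δχ_k + d1 ψ` (`ptn_AbsC.Good`, closed under `+`, `ℤ •`, restriction),
which is all the construction of the invariant maps needs.
-/
import Fermat.Agent.Lib.PT.AbsDefs
import Fermat.Agent.Lib.PT.AdtFull

set_option autoImplicit false
set_option linter.unusedSectionVars false

namespace Fermat.Agent.Lib.PT

section BockCompat

variable {G : Type*} [Group G] {m q n' : ℕ} [NeZero m] [NeZero q]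

/-- the carry cochain of a lift `χ'` of a character mod `m` -/
def ptn_carry (m : ℕ) {n' : ℕ} (χ' : G → ZMod n') (g : G) : ℤ := (((χ' g).val / m : ℕ) : ℤ)

lemma ptn_val_of_compat {χ : G → ZMod m} {χ' : G → ZMod n'}
    (hc : ∀ g, (((χ' g).val : ℕ) : ZMod m) = χ g) (g : G) :
    ((χ' g).val : ℤ) = (m : ℤ) * ptn_carry m χ' g + ((χ g).val : ℤ) := by
  have h1 : (χ g).val = (χ' g).val % m := by rw [← hc g, ZMod.val_natCast]
  unfold ptn_carry
  rw [h1]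
  exact_mod_cast (Nat.div_add_mod (χ' g).val m).symm

/-- **Bockstein compatibility**: `δχ = q • δχ' - d(carry)` for a lift `χ'` mod `m q` of `χ`. -/
lemma ptn_bock_compat (hn' : n' = m * q) {χ : G → ZMod m} {χ' : G → ZMod n'}
    (hχ : ptd_IsChar χ) (hχ' : ptd_IsChar χ') (hc : ∀ g, (((χ' g).val : ℕ) : ZMod m) = χ g)
    (g h : G) : ptd_bock m χ (g, h) = (q : ℤ) * ptd_bock n' χ' (g, h) -
      (ptn_carry m χ' h - ptn_carry m χ' (g * h) + ptn_carry m χ' g) := by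
  subst hn'
  have : NeZero (m * q) := ⟨Nat.mul_ne_zero (NeZero.ne m) (NeZero.ne q)⟩
  have hm : (m : ℤ) ≠ 0 := by exact_mod_cast NeZero.ne m
  apply mul_left_cancel₀ hm
  have h1 := ptn_mul_bock hχ g h
  have h2 := ptn_mul_bock hχ' g h
  rw [ptn_val_of_compat hc h, ptn_val_of_compat hc (g * h), ptn_val_of_compat hc g] at h2
  push_cast at h2
  rw [h1]
  linear_combination -h2

variable {k : Type*} [CommRing k] {A : Type*} [AddCommGroup A] [Module k A]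
variable {ρ : Representation k G A}

/-- Bockstein compatibility for the cocycles `a · δχ` -/
lemma ptn_bockSmul_compat (hn' : n' = m * q) {χ : G → ZMod m} {χ' : G → ZMod n'}
    (hχ : ptd_IsChar χ) (hχ' : ptd_IsChar χ') (hc : ∀ g, (((χ' g).val : ℕ) : ZMod m) = χ g)
    {a : A} (ha : ∀ g, ρ g a = a) :
    ptd_bockSmul m χ a = ptd_bockSmul n' χ' (q • a) -
      ptd_d1 ρ (fun g => ptn_carry m χ' g • a) := by
  funext ⟨g, h⟩
  simp only [ptd_bockSmul, Pi.sub_apply, ptd_d1_apply, map_zsmul, ha]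
  rw [ptn_bock_compat hn' hχ hχ' hc g h, sub_smul, mul_comm, mul_smul, natCast_zsmul, add_smul,
    sub_smul]

omit [NeZero m] [NeZero q] in
lemma ptn_isLev₁_carry {𝓛 : ptd_Levels G} {χ' : G → ZMod n'} (hlev : ptd_IsLev₁ 𝓛 χ') (a : A) :
    ptd_IsLev₁ 𝓛 (fun g => ptn_carry m χ' g • a) :=
  hlev.comp (fun x => (((x.val / m : ℕ) : ℤ)) • a)

omit [NeZero m] [NeZero q] in
lemma ptn_bockSmul_zero (χ : G → ZMod m) : ptd_bockSmul m χ (0 : A) = 0 := by
  funext x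
  simp only [ptd_bockSmul, smul_zero, Pi.zero_apply]

end BockCompat

section Data

variable {G : Type*} [Group G] {J C : Type*} [AddCommGroup J] [AddCommGroup C]

/-- **Abstract global class formation data, version 2** (big model): as `ptn_Abs`, with a
compatible tower of characters and reciprocity only for `J`-coboundaries and for the cyclic
cocycles `a · δχ_k`. -/
structure ptn_AbsC (𝓛 : ptd_Levels G) (ρJ : Representation ℤ G J) (ρC : Representation ℤ G C)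
    (p : ℕ) [Fact p.Prime] where
  /-- the projection from ideles to idele classes -/
  π : J →+ C
  π_equiv : ∀ g a, π (ρJ g a) = ρC g (π a)
  discJ : ptd_IsDiscrete 𝓛 ρJ
  discC : ptd_IsDiscrete 𝓛 ρC
  /-- the tower characters -/
  χ : ∀ k : ℕ, G → ZMod (p ^ k)
  χ_char : ∀ k, ptd_IsChar (χ k)
  χ_lev : ∀ k, ptd_IsLev₁ 𝓛 (χ k)
  χ_surj : ∀ k, Function.Surjective (χ k)
  χ_compat : ∀ (k : ℕ) (g : G),
    ZMod.castHom (pow_dvd_pow p (Nat.le_succ k)) (ZMod (p ^ k)) (χ (k + 1) g) = χ k g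
  /-- the idelic invariant maps -/
  INV : ∀ U : Subgroup G, (U × U → J) → ptn_T p
  INV_add : ∀ (U : Subgroup G) (hU : 𝓛.IsOpen U) (y y' : U × U → J),
    ptd_IsLZ2 (𝓛.sub U hU) (ptd_resRep ρJ U) y → ptd_IsLZ2 (𝓛.sub U hU) (ptd_resRep ρJ U) y' →
    INV U (y + y') = INV U y + INV U y'
  INV_d1 : ∀ (U : Subgroup G) (hU : 𝓛.IsOpen U) (ψ : U → J), ptd_IsLev₁ (𝓛.sub U hU) ψ →
    INV U (ptd_d1 (ptd_resRep ρJ U) ψ) = 0
  INV_cyc : ∀ (U : Subgroup G) (hU : 𝓛.IsOpen U) (k : ℕ) (a : J), (∀ u ∈ U, ρJ u a = a) →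
    ptd_IsB2 (𝓛.sub U hU) (ptd_resRep ρC U) (ptd_bockSmul (p ^ k) (fun u : U => χ k u) (π a)) →
    INV U (ptd_bockSmul (p ^ k) (fun u : U => χ k u) a) = 0
  INV_res : ∀ (U : Subgroup G) (hU : 𝓛.IsOpen U) (V : Subgroup G) (_ : 𝓛.IsOpen V) (hVU : V ≤ U)
    (y : U × U → J), ptd_IsLZ2 (𝓛.sub U hU) (ptd_resRep ρJ U) y →
    INV V (ptn_resLe₂ hVU y) = V.relIndex U • INV U y
  G5_1 : ∀ (U N : Subgroup G), 𝓛.IsOpen N → N ≤ U → (N.subgroupOf U).Normal →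
    (∀ x ∈ U, ∃ j : ℕ, x ^ p ^ j ∈ N) → ∀ φ : U → C, ptd_IsZ1 (ptd_resRep ρC U) φ →
    ptn_At₁ U N ρC φ → ptd_IsB1 (ptd_resRep ρC U) φ
  G5_2 : ∀ (U N : Subgroup G), 𝓛.IsOpen N → N ≤ U → (N.subgroupOf U).Normal →
    (∀ x ∈ U, ∃ j : ℕ, x ^ p ^ j ∈ N) → ∀ w : U × U → C, ptd_IsZ2 (ptd_resRep ρC U) w →
    ptn_At₂ U N ρC w →
    (∀ (m : ℤ) (ψ : U → C), ptn_At₁ U N ρC ψ → m • w = ptd_d1 (ptd_resRep ρC U) ψ →
      ((N.relIndex U : ℕ) : ℤ) ∣ m) →
    ∀ z : U × U → C, ptd_IsZ2 (ptd_resRep ρC U) z → ptn_At₂ U N ρC z →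
    ∃ (n : ℤ) (ψ : U → C), ptn_At₁ U N ρC ψ ∧ z - n • w = ptd_d1 (ptd_resRep ρC U) ψ
  cyc : ∀ (V : Subgroup G) (_ : 𝓛.IsOpen V) (k : ℕ), ∃ a : J, (∀ v ∈ V, ρJ v a = a) ∧
    ∀ m : ℤ, m • INV V (ptd_bockSmul (p ^ k) (fun v : V => χ k v) a) = 0 →
      (((ptn_charKer (χ_char k)).relIndex V : ℕ) : ℤ) ∣ m

end Data

namespace ptn_AbsC

variable {G : Type*} [Group G] {J C : Type*} [AddCommGroup J] [AddCommGroup C]
variable {𝓛 : ptd_Levels G} {ρJ : Representation ℤ G J} {ρC : Representation ℤ G C}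
variable {p : ℕ} [hp : Fact p.Prime] (A : ptn_AbsC 𝓛 ρJ ρC p)

instance neZero_pow (k : ℕ) : NeZero (p ^ k) := ⟨pow_ne_zero k hp.out.ne_zero⟩

instance neZero_p : NeZero p := ⟨hp.out.ne_zero⟩

/-- the image in `C` of a `J`-valued level cocycle is a level cocycle -/
lemma isLZ2_π (U : Subgroup G) (hU : 𝓛.IsOpen U) {y : U × U → J}
    (hy : ptd_IsLZ2 (𝓛.sub U hU) (ptd_resRep ρJ U) y) :
    ptd_IsLZ2 (𝓛.sub U hU) (ptd_resRep ρC U) (fun x => A.π (y x)) := by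
  refine ⟨fun g h j => ?_, hy.2.comp A.π⟩
  have := congrArg A.π (hy.1 g h j)
  simpa only [map_add, ptd_resRep_apply, A.π_equiv] using this

/-- `π` commutes with the differential -/
lemma π_d1 (U : Subgroup G) (ψ : U → J) :
    (fun x => A.π (ptd_d1 (ptd_resRep ρJ U) ψ x)) =
      ptd_d1 (ptd_resRep ρC U) (fun g => A.π (ψ g)) := by
  funext ⟨g, h⟩
  simp only [ptd_d1_apply, map_add, map_sub, ptd_resRep_apply, A.π_equiv]

lemma INV_zero (U : Subgroup G) (hU : 𝓛.IsOpen U) : A.INV U 0 = 0 := by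
  have := A.INV_add U hU 0 0 ptd_isLZ2_zero ptd_isLZ2_zero
  rw [add_zero] at this
  exact left_eq_add.mp this

lemma INV_neg (U : Subgroup G) (hU : 𝓛.IsOpen U) {y : U × U → J}
    (hy : ptd_IsLZ2 (𝓛.sub U hU) (ptd_resRep ρJ U) y) : A.INV U (-y) = -A.INV U y := by
  have := A.INV_add U hU y (-y) hy hy.neg
  rw [add_neg_cancel, A.INV_zero U hU] at this
  exact eq_neg_of_add_eq_zero_right this.symm

lemma INV_sub (U : Subgroup G) (hU : 𝓛.IsOpen U) {y y' : U × U → J}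
    (hy : ptd_IsLZ2 (𝓛.sub U hU) (ptd_resRep ρJ U) y)
    (hy' : ptd_IsLZ2 (𝓛.sub U hU) (ptd_resRep ρJ U) y') :
    A.INV U (y - y') = A.INV U y - A.INV U y' := by
  rw [sub_eq_add_neg, A.INV_add U hU y (-y') hy hy'.neg, A.INV_neg U hU hy', sub_eq_add_neg]

lemma INV_nsmul (U : Subgroup G) (hU : 𝓛.IsOpen U) {y : U × U → J}
    (hy : ptd_IsLZ2 (𝓛.sub U hU) (ptd_resRep ρJ U) y) (n : ℕ) :
    A.INV U (n • y) = n • A.INV U y := by
  induction n with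
  | zero => simpa using A.INV_zero U hU
  | succ n ih => rw [succ_nsmul, A.INV_add U hU _ _ (hy.nsmul n) hy, ih, succ_nsmul]

lemma INV_zsmul (U : Subgroup G) (hU : 𝓛.IsOpen U) {y : U × U → J}
    (hy : ptd_IsLZ2 (𝓛.sub U hU) (ptd_resRep ρJ U) y) (n : ℤ) :
    A.INV U (n • y) = n • A.INV U y := by
  obtain ⟨m, rfl | rfl⟩ := n.eq_nat_or_neg
  · rw [natCast_zsmul, natCast_zsmul, A.INV_nsmul U hU hy]
  · rw [neg_smul, neg_smul, natCast_zsmul, natCast_zsmul, A.INV_neg U hU (hy.nsmul m),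
      A.INV_nsmul U hU hy]

section BockBasic

variable {X : Type*} [AddCommGroup X] (ρ : Representation ℤ G X)

lemma bock_isZ2 (k : ℕ) (V : Subgroup G) {c : X} (hc : ∀ v ∈ V, ρ v c = c) :
    ptd_IsZ2 (ptd_resRep ρ V) (ptd_bockSmul (p ^ k) (fun v : V => A.χ k v) c) :=
  ptn_isZ2_bockSmul (ptn_isChar_res (A.χ_char k) V) (fun g => hc g g.2)

lemma bock_isLZ2 (k : ℕ) {V : Subgroup G} (hV : 𝓛.IsOpen V) {c : X} (hc : ∀ v ∈ V, ρ v c = c) :
    ptd_IsLZ2 (𝓛.sub V hV) (ptd_resRep ρ V) (ptd_bockSmul (p ^ k) (fun v : V => A.χ k v) c) :=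
  ⟨A.bock_isZ2 ρ k V hc, ptn_isLev₂_bockSmul ((A.χ_lev k).res V hV) c⟩

end BockBasic

lemma π_fixed {V : Subgroup G} {a : J} (ha : ∀ v ∈ V, ρJ v a = a) :
    ∀ v ∈ V, ρC v (A.π a) = A.π a := fun v hv => by rw [← A.π_equiv, ha v hv]

/-- the compatibility of the tower, in the form used by `ptn_bockSmul_compat` -/
lemma χ_compat' (k : ℕ) (g : G) : (((A.χ (k + 1) g).val : ℕ) : ZMod (p ^ k)) = A.χ k g := by
  rw [← A.χ_compat k g, ZMod.castHom_apply, ZMod.natCast_val]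

/-- `y` is, up to a `J`-coboundary, the cyclic cocycle `a · δχ_k` of the layer `k` -/
def GoodAt (U : Subgroup G) (hU : 𝓛.IsOpen U) (k : ℕ) (y : U × U → J) : Prop :=
  ∃ (a : J) (ψ : U → J), (∀ u ∈ U, ρJ u a = a) ∧ ptd_IsLev₁ (𝓛.sub U hU) ψ ∧
    y = ptd_bockSmul (p ^ k) (fun u : U => A.χ k u) a + ptd_d1 (ptd_resRep ρJ U) ψ

/-- **Good cocycles**: cyclic cocycles `a · δχ_k` of the tower up to `J`-coboundaries -/
def Good (U : Subgroup G) (hU : 𝓛.IsOpen U) (y : U × U → J) : Prop :=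
  ∃ k, A.GoodAt U hU k y

variable {A}

lemma GoodAt.succ {U : Subgroup G} {hU : 𝓛.IsOpen U} {k : ℕ} {y : U × U → J}
    (h : A.GoodAt U hU k y) : A.GoodAt U hU (k + 1) y := by
  obtain ⟨a, ψ, ha, hψ, rfl⟩ := h
  have hcomp := ptn_bockSmul_compat (ρ := ptd_resRep ρJ U) (m := p ^ k) (q := p)
    (n' := p ^ (k + 1)) (pow_succ p k) (ptn_isChar_res (A.χ_char k) U)
    (ptn_isChar_res (A.χ_char (k + 1)) U) (fun g : U => A.χ_compat' k g)
    (a := a) (fun g => ha g g.2)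
  refine ⟨p • a, ψ - fun g : U => ptn_carry (p ^ k) (fun u : U => A.χ (k + 1) u) g • a,
    fun u hu => by rw [map_nsmul, ha u hu],
    hψ.sub (ptn_isLev₁_carry ((A.χ_lev (k + 1)).res U hU) a), ?_⟩
  rw [hcomp, ptd_d1_sub]
  abel

lemma GoodAt.mono {U : Subgroup G} {hU : 𝓛.IsOpen U} {k k' : ℕ} {y : U × U → J}
    (h : A.GoodAt U hU k y) (hkk' : k ≤ k') : A.GoodAt U hU k' y := by
  induction k', hkk' using Nat.le_induction with
  | base => exact h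
  | succ n _ ih => exact ih.succ

lemma GoodAt.add {U : Subgroup G} {hU : 𝓛.IsOpen U} {k : ℕ} {y y' : U × U → J}
    (h : A.GoodAt U hU k y) (h' : A.GoodAt U hU k y') : A.GoodAt U hU k (y + y') := by
  obtain ⟨a, ψ, ha, hψ, rfl⟩ := h
  obtain ⟨a', ψ', ha', hψ', rfl⟩ := h'
  refine ⟨a + a', ψ + ψ', fun u hu => by rw [map_add, ha u hu, ha' u hu], hψ.add hψ', ?_⟩
  rw [ptn_bockSmul_add, ptd_d1_add]
  abel

lemma GoodAt.zsmul {U : Subgroup G} {hU : 𝓛.IsOpen U} {k : ℕ} {y : U × U → J}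
    (h : A.GoodAt U hU k y) (n : ℤ) : A.GoodAt U hU k (n • y) := by
  obtain ⟨a, ψ, ha, hψ, rfl⟩ := h
  refine ⟨n • a, n • ψ, fun u hu => by rw [map_zsmul, ha u hu], hψ.comp (n • ·), ?_⟩
  rw [ptn_bockSmul_zsmul, ptd_d1_zsmul, smul_add]

lemma Good.add {U : Subgroup G} {hU : 𝓛.IsOpen U} {y y' : U × U → J}
    (h : A.Good U hU y) (h' : A.Good U hU y') : A.Good U hU (y + y') := by
  obtain ⟨k, hk⟩ := h
  obtain ⟨k', hk'⟩ := h'
  exact ⟨max k k', (hk.mono (le_max_left k k')).add (hk'.mono (le_max_right k k'))⟩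

lemma Good.zsmul {U : Subgroup G} {hU : 𝓛.IsOpen U} {y : U × U → J}
    (h : A.Good U hU y) (n : ℤ) : A.Good U hU (n • y) := by
  obtain ⟨k, hk⟩ := h
  exact ⟨k, hk.zsmul n⟩

lemma Good.nsmul {U : Subgroup G} {hU : 𝓛.IsOpen U} {y : U × U → J}
    (h : A.Good U hU y) (n : ℕ) : A.Good U hU (n • y) := by
  have := h.zsmul (n : ℤ)
  rwa [natCast_zsmul] at this

lemma Good.neg {U : Subgroup G} {hU : 𝓛.IsOpen U} {y : U × U → J}
    (h : A.Good U hU y) : A.Good U hU (-y) := by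
  have := h.zsmul (-1)
  simpa using this

lemma Good.sub {U : Subgroup G} {hU : 𝓛.IsOpen U} {y y' : U × U → J}
    (h : A.Good U hU y) (h' : A.Good U hU y') : A.Good U hU (y - y') := by
  rw [sub_eq_add_neg]
  exact h.add h'.neg

variable (A)

lemma good_bock (k : ℕ) {U : Subgroup G} (hU : 𝓛.IsOpen U) {a : J} (ha : ∀ u ∈ U, ρJ u a = a) :
    A.Good U hU (ptd_bockSmul (p ^ k) (fun u : U => A.χ k u) a) :=
  ⟨k, a, 0, ha, ptd_isLev₁_const (0 : J), by rw [ptd_d1_zero, add_zero]⟩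

lemma good_d1 {U : Subgroup G} (hU : 𝓛.IsOpen U) {ψ : U → J}
    (hψ : ptd_IsLev₁ (𝓛.sub U hU) ψ) : A.Good U hU (ptd_d1 (ptd_resRep ρJ U) ψ) :=
  ⟨0, 0, ψ, fun u _ => map_zero _, hψ, by rw [ptn_bockSmul_zero, zero_add]⟩

lemma good_zero {U : Subgroup G} (hU : 𝓛.IsOpen U) : A.Good U hU 0 := by
  have := A.good_d1 hU (ptd_isLev₁_const (0 : J))
  rwa [show (fun _ : U => (0 : J)) = 0 from rfl, ptd_d1_zero] at this

variable {A}

lemma Good.isLZ2 {U : Subgroup G} {hU : 𝓛.IsOpen U} {y : U × U → J}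
    (h : A.Good U hU y) : ptd_IsLZ2 (𝓛.sub U hU) (ptd_resRep ρJ U) y := by
  obtain ⟨k, a, ψ, ha, hψ, rfl⟩ := h
  exact (A.bock_isLZ2 ρJ k hU ha).add
    (ptd_IsB2.isLZ2 (A.discJ.resRep U hU) ⟨ψ, hψ, rfl⟩)

lemma Good.resLe {U V : Subgroup G} {hU : 𝓛.IsOpen U} (hV : 𝓛.IsOpen V) (hVU : V ≤ U)
    {y : U × U → J} (h : A.Good U hU y) : A.Good V hV (ptn_resLe₂ hVU y) := by
  obtain ⟨k, a, ψ, ha, hψ, rfl⟩ := h
  refine ⟨k, a, ptn_resLe₁ hVU ψ, fun v hv => ha v (hVU hv), ptn_isLev₁_resLe hVU hU hV hψ, ?_⟩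
  rw [ptn_resLe₂_add, ptn_resLe_d1]
  rfl

variable (A)

/-- **Reciprocity on good cocycles**: `INV_U y = 0` if `y` is good and `π ∘ y` is a level
coboundary. -/
theorem INV_b2 (U : Subgroup G) (hU : 𝓛.IsOpen U) {y : U × U → J} (hy : A.Good U hU y)
    (h : ptd_IsB2 (𝓛.sub U hU) (ptd_resRep ρC U) (fun x => A.π (y x))) : A.INV U y = 0 := by
  obtain ⟨k, a, ψ, ha, hψ, rfl⟩ := hy
  have hlz := A.bock_isLZ2 ρJ k hU ha
  have hd1 : ptd_IsLZ2 (𝓛.sub U hU) (ptd_resRep ρJ U) (ptd_d1 (ptd_resRep ρJ U) ψ) :=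
    ptd_IsB2.isLZ2 (A.discJ.resRep U hU) ⟨ψ, hψ, rfl⟩
  rw [A.INV_add U hU _ _ hlz hd1, A.INV_d1 U hU ψ hψ, add_zero]
  refine A.INV_cyc U hU k a ha ?_
  have h1 : ptd_IsB2 (𝓛.sub U hU) (ptd_resRep ρC U)
      (ptd_d1 (ptd_resRep ρC U) (fun g => A.π (ψ g))) := ⟨_, hψ.comp A.π, rfl⟩
  have h2 := h.sub h1
  convert h2 using 1
  rw [← A.π_d1 U ψ, ← ptn_map_bockSmul]
  funext x
  simp only [Pi.sub_apply, Pi.add_apply, map_add, add_sub_cancel_right]

/-- `INV` of a good cocycle only depends on the class of its image in `C` -/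
lemma INV_congr (U : Subgroup G) (hU : 𝓛.IsOpen U) {y y' : U × U → J}
    (hy : A.Good U hU y) (hy' : A.Good U hU y')
    (h : ptd_IsB2 (𝓛.sub U hU) (ptd_resRep ρC U)
      ((fun x => A.π (y x)) - fun x => A.π (y' x))) : A.INV U y = A.INV U y' := by
  have h1 : A.INV U (y - y') = 0 := by
    refine A.INV_b2 U hU (hy.sub hy') ?_
    have : (fun x => A.π ((y - y') x)) = (fun x => A.π (y x)) - fun x => A.π (y' x) := by
      funext x
      simp only [Pi.sub_apply, map_sub]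
    rwa [this]
  rw [A.INV_sub U hU hy.isLZ2 hy'.isLZ2] at h1
  exact sub_eq_zero.mp h1

end ptn_AbsC

end Fermat.Agent.Lib.PT
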