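/-
S55 (Poitou–Tate long haul), abstract class formation from an idelic invariant (ABS), part 2:
EXACTNESS OF INFLATION–RESTRICTION IN DEGREE 2 on explicit cochains, with control of the level.

`H` a group, `N₁ ≤ N` normal subgroups, `z` a 2-cocycle of `H` living at `N₁` (right-invariant
under `N₁` in both variables, values fixed by `N₁`).  If the restriction of `z` to `N` is the
coboundary of a 1-cochain at `N₁`, and every 1-cocycle of `N` at `N₁` is a coboundary, then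
`z - d1 ψ` lives at `N` for some `ψ` at `N₁` (`ptn_infres_exact`).
-/
import Fermat.Agent.Lib.PT.AdtCorE

set_option autoImplicit false
set_option linter.unusedSectionVars false

namespace Fermat.Agent.Lib.PT

section AtH

variable {H : Type*} [Group H] {k : Type*} [CommRing k] {A : Type*} [AddCommGroup A] [Module k A]
variable (ρ : Representation k H A)

/-- a 1-cochain of `H` living at the subgroup `N` -/
def ptn_AtH₁ (N : Subgroup H) (φ : H → A) : Prop :=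
  (∀ a, ∀ n ∈ N, φ (a * n) = φ a) ∧ ∀ a, ∀ n ∈ N, ρ n (φ a) = φ a

/-- a 2-cochain of `H` living at the subgroup `N` -/
def ptn_AtH₂ (N : Subgroup H) (z : H × H → A) : Prop :=
  (∀ a b, ∀ n ∈ N, ∀ n' ∈ N, z (a * n, b * n') = z (a, b)) ∧ ∀ x, ∀ n ∈ N, ρ n (z x) = z x

variable {ρ}

lemma ptn_AtH₁.add {N : Subgroup H} {φ ψ : H → A} (h : ptn_AtH₁ ρ N φ) (h' : ptn_AtH₁ ρ N ψ) :
    ptn_AtH₁ ρ N (φ + ψ) :=
  ⟨fun a n hn => by simp only [Pi.add_apply, h.1 a n hn, h'.1 a n hn],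
    fun a n hn => by simp only [Pi.add_apply, map_add, h.2 a n hn, h'.2 a n hn]⟩

lemma ptn_AtH₁.neg {N : Subgroup H} {φ : H → A} (h : ptn_AtH₁ ρ N φ) : ptn_AtH₁ ρ N (-φ) :=
  ⟨fun a n hn => by simp only [Pi.neg_apply, h.1 a n hn],
    fun a n hn => by simp only [Pi.neg_apply, map_neg, h.2 a n hn]⟩

lemma ptn_AtH₁.sub {N : Subgroup H} {φ ψ : H → A} (h : ptn_AtH₁ ρ N φ) (h' : ptn_AtH₁ ρ N ψ) :
    ptn_AtH₁ ρ N (φ - ψ) := by
  rw [sub_eq_add_neg]; exact h.add h'.neg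

lemma ptn_AtH₂.add {N : Subgroup H} {z w : H × H → A} (h : ptn_AtH₂ ρ N z) (h' : ptn_AtH₂ ρ N w) :
    ptn_AtH₂ ρ N (z + w) :=
  ⟨fun a b n hn n' hn' => by simp only [Pi.add_apply, h.1 a b n hn n' hn', h'.1 a b n hn n' hn'],
    fun x n hn => by simp only [Pi.add_apply, map_add, h.2 x n hn, h'.2 x n hn]⟩

lemma ptn_AtH₂.neg {N : Subgroup H} {z : H × H → A} (h : ptn_AtH₂ ρ N z) : ptn_AtH₂ ρ N (-z) :=
  ⟨fun a b n hn n' hn' => by simp only [Pi.neg_apply, h.1 a b n hn n' hn'],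
    fun x n hn => by simp only [Pi.neg_apply, map_neg, h.2 x n hn]⟩

lemma ptn_AtH₂.sub {N : Subgroup H} {z w : H × H → A} (h : ptn_AtH₂ ρ N z) (h' : ptn_AtH₂ ρ N w) :
    ptn_AtH₂ ρ N (z - w) := by
  rw [sub_eq_add_neg]; exact h.add h'.neg

/-- conjugating the representation: `ρ n (ρ a x) = ρ a x` if `x` is fixed by the normal `N` -/
lemma ptn_fixed_smul {N : Subgroup H} [hN : N.Normal] {x : A} (hx : ∀ n ∈ N, ρ n x = x) (a : H)
    {n : H} (hn : n ∈ N) : ρ n (ρ a x) = ρ a x := by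
  have h1 : n * a = a * (a⁻¹ * n * a) := by group
  have h2 : a⁻¹ * n * a ∈ N := by simpa using hN.conj_mem n hn a⁻¹
  rw [← Module.End.mul_apply, ← map_mul, h1, map_mul, Module.End.mul_apply, hx _ h2]

/-- the coboundary of a 1-cochain at a normal subgroup `N` lives at `N` -/
lemma ptn_atH₂_d1 {N : Subgroup H} [hN : N.Normal] {φ : H → A} (h : ptn_AtH₁ ρ N φ) :
    ptn_AtH₂ ρ N (ptd_d1 ρ φ) := by
  refine ⟨fun a b n hn n' hn' => ?_, fun x n hn => ?_⟩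
  · have h1 : a * n * (b * n') = a * b * ((b⁻¹ * n * b) * n') := by group
    have h2 : b⁻¹ * n * b ∈ N := by simpa using hN.conj_mem n hn b⁻¹
    simp only [ptd_d1_apply]
    rw [h1, h.1 (a * b) _ (mul_mem h2 hn'), h.1 a n hn, h.1 b n' hn', map_mul,
      Module.End.mul_apply, h.2 b n hn]
  · obtain ⟨a, b⟩ := x
    simp only [ptd_d1_apply, map_add, map_sub]
    rw [ptn_fixed_smul (h.2 b) a hn, h.2 _ n hn, h.2 _ n hn]

end AtH

section InfRes

variable {H : Type*} [Group H] {k : Type*} [CommRing k] {A : Type*} [AddCommGroup A] [Module k A]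
variable {ρ : Representation k H A} (N : Subgroup H) [hN : N.Normal]

open Classical in
/-- a set-theoretic section of `H → H ⧸ N`, as a function on `H`, equal to `1` on `N` -/
noncomputable def ptn_sec (g : H) : H := if g ∈ N then 1 else (QuotientGroup.mk g : H ⧸ N).out

lemma ptn_sec_of_mem {g : H} (hg : g ∈ N) : ptn_sec N g = 1 := if_pos hg

/-- `g = ν(g) * sec(g)` with `ν(g) ∈ N` -/
lemma ptn_mul_sec_inv_mem (g : H) : g * (ptn_sec N g)⁻¹ ∈ N := by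
  unfold ptn_sec
  split_ifs with h
  · simpa using h
  · have h1 : (QuotientGroup.mk ((QuotientGroup.mk g : H ⧸ N).out) : H ⧸ N) = QuotientGroup.mk g :=
      QuotientGroup.out_eq' _
    have h2 : ((QuotientGroup.mk g : H ⧸ N).out)⁻¹ * g ∈ N := QuotientGroup.eq.mp h1
    have h3 := hN.conj_mem _ h2 ((QuotientGroup.mk g : H ⧸ N).out)
    have h4 : (QuotientGroup.mk g : H ⧸ N).out * (((QuotientGroup.mk g : H ⧸ N).out)⁻¹ * g) *
        ((QuotientGroup.mk g : H ⧸ N).out)⁻¹ = g * ((QuotientGroup.mk g : H ⧸ N).out)⁻¹ := by group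
    rwa [h4] at h3

/-- the section only depends on the coset -/
lemma ptn_sec_congr {g g' : H} (h : (QuotientGroup.mk g : H ⧸ N) = QuotientGroup.mk g') :
    ptn_sec N g = ptn_sec N g' := by
  have hiff : g ∈ N ↔ g' ∈ N := by
    rw [← QuotientGroup.eq_one_iff (N := N), ← QuotientGroup.eq_one_iff (N := N), h]
  unfold ptn_sec
  by_cases hg : g ∈ N
  · rw [if_pos hg, if_pos (hiff.mp hg)]
  · rw [if_neg hg, if_neg (fun h' => hg (hiff.mpr h')), h]

lemma ptn_sec_mul_right (g : H) {n : H} (hn : n ∈ N) : ptn_sec N (g * n) = ptn_sec N g := by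
  apply ptn_sec_congr
  rw [QuotientGroup.mk_mul, (QuotientGroup.eq_one_iff n).mpr hn, mul_one]

lemma ptn_sec_mul_left (g : H) {n : H} (hn : n ∈ N) : ptn_sec N (n * g) = ptn_sec N g := by
  apply ptn_sec_congr
  rw [QuotientGroup.mk_mul, (QuotientGroup.eq_one_iff n).mpr hn, one_mul]

variable (N₁ : Subgroup H) [hN₁ : N₁.Normal]

/-- Step A: a 2-cocycle vanishing on `N × N` can be modified by a coboundary so that it vanishes
on `N × H`. -/
lemma ptn_infres_stepA (hle : N₁ ≤ N) {z : H × H → A} (hz : ptd_IsZ2 ρ z)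
    (hat : ptn_AtH₂ ρ N₁ z) (hvan : ∀ n ∈ N, ∀ m ∈ N, z (n, m) = 0) :
    ∃ ψ₁ : H → A, ptn_AtH₁ ρ N₁ ψ₁ ∧ ∀ n ∈ N, ∀ g, (z + ptd_d1 ρ ψ₁) (n, g) = 0 := by
  refine ⟨fun g => z (g * (ptn_sec N g)⁻¹, ptn_sec N g), ⟨fun g n₁ hn₁ => ?_, fun g n hn => ?_⟩,
    fun n hn g => ?_⟩
  · simp only
    rw [ptn_sec_mul_right N g (hle hn₁)]
    have h1 : g * n₁ * (ptn_sec N g)⁻¹ =
        g * (ptn_sec N g)⁻¹ * (ptn_sec N g * n₁ * (ptn_sec N g)⁻¹) := by group
    have h2 : ptn_sec N g * n₁ * (ptn_sec N g)⁻¹ ∈ N₁ := hN₁.conj_mem n₁ hn₁ _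
    rw [h1]
    have := hat.1 (g * (ptn_sec N g)⁻¹) (ptn_sec N g) _ h2 1 (one_mem _)
    rwa [mul_one] at this
  · exact hat.2 _ n hn
  · simp only [Pi.add_apply, ptd_d1_apply]
    have hν : g * (ptn_sec N g)⁻¹ ∈ N := ptn_mul_sec_inv_mem N g
    have h1 : z (n * (ptn_sec N n)⁻¹, ptn_sec N n) = 0 := by
      rw [ptn_sec_of_mem N hn, inv_one, mul_one]
      exact hvan n hn 1 (one_mem _)
    have h2 : z (n * g * (ptn_sec N (n * g))⁻¹, ptn_sec N (n * g)) =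
        ρ n (z (g * (ptn_sec N g)⁻¹, ptn_sec N g)) + z (n, g) := by
      rw [ptn_sec_mul_left N g hn, mul_assoc]
      have h3 := hz n (g * (ptn_sec N g)⁻¹) (ptn_sec N g)
      rw [hvan n hn _ hν, add_zero] at h3
      rw [h3]
      congr 2
      group
    rw [h1, h2]
    abel

/-- Step C: a 2-cocycle vanishing on `N × H` can be modified by a coboundary so that it also
vanishes on `H × N`, if `H¹(N, A) = 0` at the level `N₁`. -/
lemma ptn_infres_stepC (hle : N₁ ≤ N) {z : H × H → A} (hz : ptd_IsZ2 ρ z)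
    (hat : ptn_AtH₂ ρ N₁ z) (hvan : ∀ n ∈ N, ∀ g, z (n, g) = 0)
    (hH1 : ∀ θ : N → A, ptd_IsZ1 (ptd_resRep ρ N) θ →
      (∀ a n : N, (n : H) ∈ N₁ → θ (a * n) = θ a) → (∀ a : N, ∀ n ∈ N₁, ρ n (θ a) = θ a) →
      ptd_IsB1 (ptd_resRep ρ N) θ) :
    ∃ ψ₂ : H → A, ptn_AtH₁ ρ N₁ ψ₂ ∧ (∀ n ∈ N, ∀ g, (z - ptd_d1 ρ ψ₂) (n, g) = 0) ∧
      (∀ n ∈ N, ∀ g, (z - ptd_d1 ρ ψ₂) (g, n) = 0) := by
  -- (ii) `z (n h, j) = n z (h, j)`
  have hii : ∀ n ∈ N, ∀ h j, z (n * h, j) = ρ n (z (h, j)) := by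
    intro n hn h j
    have := hz n h j
    rwa [hvan n hn h, hvan n hn (h * j), add_zero, add_zero] at this
  -- the twisted 1-cocycles
  have hθ : ∀ g : H, ∃ b : A, ∀ n : N, ρ g⁻¹ (z (g, n)) = ρ n b - b := by
    intro g
    have hZ1 : ptd_IsZ1 (ptd_resRep ρ N) (fun n : N => ρ g⁻¹ (z (g, n))) := by
      intro m n
      simp only [ptd_resRep_apply, Subgroup.coe_mul]
      have h1 := hz g m n
      rw [hvan m m.2 n, map_zero, zero_add] at h1
      have h2 : z (g * m, n) = ρ (g * m * g⁻¹) (z (g, n)) := by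
        have h4 := hii _ (hN.conj_mem m m.2 g) g n
        have h3 : g * (m : H) * g⁻¹ * g = g * m := by group
        rwa [h3] at h4
      rw [← h1, h2, map_add, ← Module.End.mul_apply, ← map_mul, ← Module.End.mul_apply,
        ← map_mul]
      congr 3
      group
    obtain ⟨b, hb⟩ := hH1 _ hZ1
      (fun a n hn => by
        simp only [Subgroup.coe_mul]
        have := hat.1 g a 1 (one_mem _) n hn
        rw [mul_one] at this
        rw [this])
      (fun a n hn => by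
        have h1 : ρ n (ρ g⁻¹ (z (g, a))) = ρ g⁻¹ (ρ (g * n * g⁻¹) (z (g, a))) := by
          rw [← Module.End.mul_apply, ← map_mul, ← Module.End.mul_apply, ← map_mul]
          congr 2
          group
        rw [h1, hat.2 _ _ (hN₁.conj_mem n hn g)])
    exact ⟨b, fun n => by
      have := congrFun hb n
      simpa using this⟩
  choose b hb using hθ
  classical
  set b' : H → A := fun g => if g = 1 then 0 else b g with hb'def
  have hb' : ∀ g : H, ∀ n : N, ρ g⁻¹ (z (g, n)) = ρ n (b' g) - b' g := by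
    intro g n
    by_cases hg : g = 1
    · subst hg
      simp only [hb'def, if_true, map_zero, sub_zero]
      rw [hvan 1 (one_mem _) n, map_zero]
    · simp only [hb'def, if_neg hg]
      exact hb g n
  have hb'1 : b' 1 = 0 := by simp [hb'def]
  -- `b' g` is fixed by `N₁`
  have hb'fix : ∀ g : H, ∀ n ∈ N₁, ρ n (b' g) = b' g := by
    intro g n hn
    have h1 := hb' g ⟨n, hle hn⟩
    have h2 := hb' g (1 : N)
    simp only [Subgroup.coe_one, map_one, Module.End.one_apply, sub_self] at h2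
    have h3 : z (g, n) = z (g, 1) := by
      have := hat.1 g 1 1 (one_mem _) n hn
      rwa [mul_one, one_mul] at this
    simp only at h1
    rw [h3, h2] at h1
    exact (sub_eq_zero.mp h1.symm)
  refine ⟨fun g => -ρ g (b' (ptn_sec N g)), ⟨fun g n₁ hn₁ => ?_, fun g n hn => ?_⟩,
    fun n hn g => ?_, fun n hn g => ?_⟩
  · simp only
    rw [ptn_sec_mul_right N g (hle hn₁), map_mul, Module.End.mul_apply, hb'fix _ n₁ hn₁]
  · simp only [map_neg]
    rw [ptn_fixed_smul (N := N₁) (hb'fix _) g hn]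
  · simp only [Pi.sub_apply, ptd_d1_apply, hvan n hn g]
    rw [ptn_sec_mul_left N g hn, ptn_sec_of_mem N hn, hb'1]
    simp only [map_zero, neg_zero, map_neg, map_mul, Module.End.mul_apply]
    abel
  · simp only [Pi.sub_apply, ptd_d1_apply]
    rw [ptn_sec_mul_right N g hn, ptn_sec_of_mem N hn, hb'1]
    simp only [map_zero, neg_zero, map_mul, Module.End.mul_apply]
    have h1 := hb' (ptn_sec N g) ⟨n, hn⟩
    simp only at h1
    have h2 : z (g, n) = ρ (g * (ptn_sec N g)⁻¹) (z (ptn_sec N g, n)) := by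
      have := hii _ (ptn_mul_sec_inv_mem N g) (ptn_sec N g) n
      rw [← this]
      congr 2
      group
    have h3 : ρ g (ρ n (b' (ptn_sec N g)) - b' (ptn_sec N g)) = z (g, n) := by
      rw [← h1, h2, ← Module.End.mul_apply, ← map_mul]
    rw [← h3, map_sub]
    abel

/-- Step D: a 2-cocycle vanishing on `N × H` and `H × N` lives at `N`. -/
lemma ptn_infres_stepD {z : H × H → A} (hz : ptd_IsZ2 ρ z) (hv1 : ∀ n ∈ N, ∀ g, z (n, g) = 0)
    (hv2 : ∀ n ∈ N, ∀ g, z (g, n) = 0) : ptn_AtH₂ ρ N z := by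
  have hr2 : ∀ g h, ∀ n ∈ N, z (g, h * n) = z (g, h) := by
    intro g h n hn
    have := hz g h n
    rw [hv2 n hn (g * h), hv2 n hn h, map_zero, zero_add, zero_add] at this
    exact this.symm
  have hr1 : ∀ g j, ∀ n ∈ N, z (g * n, j) = z (g, j) := by
    intro g j n hn
    have h1 := hz g n j
    rw [hv2 n hn g, hv1 n hn j, map_zero, zero_add, add_zero] at h1
    have h2 : n * j = j * (j⁻¹ * n * j) := by group
    have h3 : j⁻¹ * n * j ∈ N := by simpa using hN.conj_mem n hn j⁻¹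
    rw [h1, h2, hr2 g j _ h3]
  refine ⟨fun a b n hn n' hn' => by rw [hr1 _ _ n hn, hr2 _ _ n' hn'], fun x n hn => ?_⟩
  obtain ⟨h, j⟩ := x
  have h1 := hz n h j
  rw [hv1 n hn h, hv1 n hn (h * j), add_zero, add_zero] at h1
  have h2 : n * h = h * (h⁻¹ * n * h) := by group
  have h3 : h⁻¹ * n * h ∈ N := by simpa using hN.conj_mem n hn h⁻¹
  rw [← h1, h2, hr1 h j _ h3]

/-- **Exactness of inflation–restriction in degree 2**, on explicit cochains with control of the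
level: if `z` is a 2-cocycle of `H` at `N₁` whose restriction to `N` is the coboundary of a
1-cochain at `N₁`, and `H¹(N, A) = 0` at the level `N₁`, then `z - d1 ψ` lives at `N` for some
`ψ` at `N₁`. -/
theorem ptn_infres_exact (hle : N₁ ≤ N) {z : H × H → A} (hz : ptd_IsZ2 ρ z)
    (hat : ptn_AtH₂ ρ N₁ z) (ψ₀ : N → A)
    (hψ₀1 : ∀ a n : N, (n : H) ∈ N₁ → ψ₀ (a * n) = ψ₀ a)
    (hψ₀2 : ∀ a : N, ∀ n ∈ N₁, ρ n (ψ₀ a) = ψ₀ a)
    (hres : ∀ n m : N, z (n, m) = ptd_d1 (ptd_resRep ρ N) ψ₀ (n, m))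
    (hH1 : ∀ θ : N → A, ptd_IsZ1 (ptd_resRep ρ N) θ →
      (∀ a n : N, (n : H) ∈ N₁ → θ (a * n) = θ a) → (∀ a : N, ∀ n ∈ N₁, ρ n (θ a) = θ a) →
      ptd_IsB1 (ptd_resRep ρ N) θ) :
    ∃ ψ : H → A, ptn_AtH₁ ρ N₁ ψ ∧ ptn_AtH₂ ρ N (z - ptd_d1 ρ ψ) := by
  classical
  -- step 1: extend `ψ₀` by zero
  set ψt : H → A := fun g => if h : g ∈ N then ψ₀ ⟨g, h⟩ else 0 with hψt
  have hψt_mem : ∀ n : N, ψt n = ψ₀ n := fun n => by simp [hψt]
  have hψt_at : ptn_AtH₁ ρ N₁ ψt := by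
    refine ⟨fun a n hn => ?_, fun a n hn => ?_⟩
    · by_cases ha : a ∈ N
      · have han : a * n ∈ N := mul_mem ha (hle hn)
        simp only [hψt, dif_pos ha, dif_pos han]
        exact hψ₀1 ⟨a, ha⟩ ⟨n, hle hn⟩ hn
      · have han : a * n ∉ N := fun h => ha (by
          have := mul_mem h (inv_mem (hle hn))
          simpa using this)
        simp only [hψt, dif_neg ha, dif_neg han]
    · by_cases ha : a ∈ N
      · simp only [hψt, dif_pos ha]
        exact hψ₀2 ⟨a, ha⟩ n hn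
      · simp only [hψt, dif_neg ha, map_zero]
  have hz1 : ptd_IsZ2 ρ (z - ptd_d1 ρ ψt) := hz.sub (ptd_isZ2_d1 ψt)
  have hat1 : ptn_AtH₂ ρ N₁ (z - ptd_d1 ρ ψt) := hat.sub (ptn_atH₂_d1 hψt_at)
  have hvan1 : ∀ n ∈ N, ∀ m ∈ N, (z - ptd_d1 ρ ψt) (n, m) = 0 := by
    intro n hn m hm
    have h1 := hres ⟨n, hn⟩ ⟨m, hm⟩
    simp only [ptd_d1_apply, ptd_resRep_apply] at h1
    simp only [Pi.sub_apply, ptd_d1_apply]
    have h2 : ψt m = ψ₀ ⟨m, hm⟩ := hψt_mem ⟨m, hm⟩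
    have h3 : ψt n = ψ₀ ⟨n, hn⟩ := hψt_mem ⟨n, hn⟩
    have h4 : ψt (n * m) = ψ₀ (⟨n, hn⟩ * ⟨m, hm⟩) := hψt_mem (⟨n, hn⟩ * ⟨m, hm⟩)
    rw [h2, h3, h4, h1]
    abel
  -- step A
  obtain ⟨ψ₁, hψ₁_at, hvan2⟩ := ptn_infres_stepA N N₁ hle hz1 hat1 hvan1
  have hz2 : ptd_IsZ2 ρ (z - ptd_d1 ρ ψt + ptd_d1 ρ ψ₁) := hz1.add (ptd_isZ2_d1 ψ₁)
  have hat2 : ptn_AtH₂ ρ N₁ (z - ptd_d1 ρ ψt + ptd_d1 ρ ψ₁) := hat1.add (ptn_atH₂_d1 hψ₁_at)
  -- step C
  obtain ⟨ψ₂, hψ₂_at, hv1, hv2⟩ := ptn_infres_stepC N N₁ hle hz2 hat2 hvan2 hH1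
  have hz3 : ptd_IsZ2 ρ (z - ptd_d1 ρ ψt + ptd_d1 ρ ψ₁ - ptd_d1 ρ ψ₂) := hz2.sub (ptd_isZ2_d1 ψ₂)
  -- step D
  have hD := ptn_infres_stepD N hz3 hv1 hv2
  refine ⟨ψt - ψ₁ + ψ₂, (hψt_at.sub hψ₁_at).add hψ₂_at, ?_⟩
  have : z - ptd_d1 ρ (ψt - ψ₁ + ψ₂) = z - ptd_d1 ρ ψt + ptd_d1 ρ ψ₁ - ptd_d1 ρ ψ₂ := by
    rw [ptd_d1_add, ptd_d1_sub]
    abel
  rw [this]
  exact hD

end InfRes

end Fermat.Agent.Lib.PT
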