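/-
S55 (Poitou–Tate long haul), abstract class formation from an idelic invariant, SECOND VERSION
(ABS v2), part 3: the `p`-group case (as `AbsPG`, for `ptn_AbsC`; the lifts are GOOD cocycles).
-/
import Fermat.Agent.Lib.PT.AbcCyc
import Fermat.Agent.Lib.PT.AbsPG

set_option autoImplicit false
set_option linter.unusedSectionVars false

namespace Fermat.Agent.Lib.PT

namespace ptn_AbsC

variable {G : Type*} [Group G] {J C : Type*} [AddCommGroup J] [AddCommGroup C]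
variable {𝓛 : ptd_Levels G} {ρJ : Representation ℤ G J} {ρC : Representation ℤ G C}
variable {p : ℕ} [hp : Fact p.Prime] (A : ptn_AbsC 𝓛 ρJ ρC p)

/-- **Structure of the `p`-group layers**: for `U / N₀` a `p`-group there are `k` and `a ∈ J^U`
such that `INV_U (a · δχ_k)` has exact order `[U : N₀]` and `π(a) · δχ_k - d1 ψ'` lives at `N₀`. -/
theorem pg_struct (U : Subgroup G) (hU : 𝓛.IsOpen U) (N₀ : Subgroup G) (hN₀ : N₀ ∈ 𝓛.lev)
    (hN₀U : N₀ ≤ U) (hpg : ∀ x ∈ U, ∃ j : ℕ, x ^ p ^ j ∈ N₀) :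
    ∃ (k : ℕ) (a : J) (ψ' : U → C), (∀ u ∈ U, ρJ u a = a) ∧
      (∀ m : ℤ, m • A.INV U (ptd_bockSmul (p ^ k) (fun u : U => A.χ k u) a) = 0 →
        ((N₀.relIndex U : ℕ) : ℤ) ∣ m) ∧
      ptd_IsLev₁ (𝓛.sub U hU) ψ' ∧
      ptn_At₂ U N₀ ρC (ptd_bockSmul (p ^ k) (fun u : U => A.χ k u) (A.π a) -
        ptd_d1 (ptd_resRep ρC U) ψ') := by
  have hN₀n : N₀.Normal := 𝓛.normal N₀ hN₀
  have hN₀f : N₀.FiniteIndex := 𝓛.finiteIndex N₀ hN₀
  have hN₀o : 𝓛.IsOpen N₀ := 𝓛.isOpen_of_mem hN₀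
  obtain ⟨s, hs⟩ := ptn_relIndex_eq_pow (p := p) (U := U) (N₀ := N₀) hpg
  obtain ⟨k, b, hsb, hb⟩ := A.exists_large_relIndex U hU s
  obtain ⟨a₀, ha₀, hord⟩ := A.cyc U hU k
  set c : ℕ := p ^ (b - s) with hc
  have hcne : c ≠ 0 := pow_ne_zero _ hp.out.ne_zero
  have hbs : p ^ b = p ^ s * c := by rw [hc, ← pow_add]; congr 1; omega
  have ha : ∀ u ∈ U, ρJ u (c • a₀) = c • a₀ := fun u hu => by rw [map_nsmul, ha₀ u hu]
  have hlz₀ := A.bock_isLZ2 ρJ k hU ha₀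
  have hINVc : A.INV U (ptd_bockSmul (p ^ k) (fun u : U => A.χ k u) (c • a₀)) =
      c • A.INV U (ptd_bockSmul (p ^ k) (fun u : U => A.χ k u) a₀) := by
    rw [ptn_bockSmul_nsmul, A.INV_nsmul U hU hlz₀]
  -- exact order
  have hordc : ∀ m : ℤ,
      m • A.INV U (ptd_bockSmul (p ^ k) (fun u : U => A.χ k u) (c • a₀)) = 0 →
      ((N₀.relIndex U : ℕ) : ℤ) ∣ m := by
    intro m hm
    rw [hINVc, ← natCast_zsmul, smul_smul] at hm
    have h1 := hord (m * c) hm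
    rw [hb, hbs] at h1
    rw [hs]
    push_cast at h1 ⊢
    exact Int.dvd_of_mul_dvd_mul_right (by exact_mod_cast hcne) h1
  -- the invariant of the restriction to `N₀` vanishes
  have hresN₀ : A.INV N₀ (ptd_bockSmul (p ^ k) (fun v : N₀ => A.χ k v) (c • a₀)) = 0 := by
    have h1 := A.INV_res U hU N₀ hN₀o hN₀U _ (A.bock_isLZ2 ρJ k hU ha)
    have h2 : ptn_resLe₂ hN₀U (ptd_bockSmul (p ^ k) (fun u : U => A.χ k u) (c • a₀)) =
        ptd_bockSmul (p ^ k) (fun v : N₀ => A.χ k v) (c • a₀) := rfl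
    rw [h2, hINVc, hs, ← mul_smul, ← hbs, ← hb] at h1
    rw [h1]
    exact A.INV_bock_tors k hU ha₀
  have haN₀ : ∀ v ∈ N₀, ρJ v (c • a₀) = c • a₀ := fun v hv => ha v (hN₀U hv)
  obtain ⟨ψ₀, hψ₀, hψ₀d⟩ := A.cyc_split k hN₀o haN₀ hresN₀
  -- inflation-restriction
  have hWn : (A.W k N₀).Normal := by unfold W; infer_instance
  have hNn : (N₀.subgroupOf U).Normal := inferInstance
  have hN₁n : ((A.W k N₀).subgroupOf U).Normal := inferInstance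
  have hle : (A.W k N₀).subgroupOf U ≤ N₀.subgroupOf U :=
    fun x hx => Subgroup.mem_subgroupOf.mpr (Subgroup.mem_subgroupOf.mp hx).1
  have hx'Z := A.bock_isZ2 ρC k U (A.π_fixed ha)
  have hx'At := A.bock_at k U (A.π_fixed ha)
  have hat : ptn_AtH₂ (ptd_resRep ρC U) ((A.W k N₀).subgroupOf U)
      (ptd_bockSmul (p ^ k) (fun u : U => A.χ k u) (A.π (c • a₀))) :=
    ⟨fun a b n hn n' hn' => hx'At.1 a b n n' (A.W_mono k hN₀U (Subgroup.mem_subgroupOf.mp hn))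
        (A.W_mono k hN₀U (Subgroup.mem_subgroupOf.mp hn')),
      fun x n hn => hx'At.2 x n (A.W_mono k hN₀U (Subgroup.mem_subgroupOf.mp hn))⟩
  -- transport between `↥(N₀.subgroupOf U)` and `↥N₀`
  let toN : N₀ → N₀.subgroupOf U := fun x => ⟨⟨x.1, hN₀U x.2⟩, Subgroup.mem_subgroupOf.mpr x.2⟩
  let ofN : N₀.subgroupOf U → N₀ := fun n => ⟨((n : U) : G), Subgroup.mem_subgroupOf.mp n.2⟩
  obtain ⟨ψ', hψ'At, hw⟩ := ptn_infres_exact (ρ := ptd_resRep ρC U) (N₀.subgroupOf U)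
    ((A.W k N₀).subgroupOf U) hle hx'Z hat (fun n => ψ₀ (ofN n))
    (fun a n hn => hψ₀.1 (ofN a) (ofN n) (Subgroup.mem_subgroupOf.mp hn))
    (fun a n hn => hψ₀.2 (ofN a) n (Subgroup.mem_subgroupOf.mp hn))
    (fun n m => congrFun hψ₀d (ofN n, ofN m))
    (fun θ hθZ hθ1 hθ2 => by
      have hZ' : ptd_IsZ1 (ptd_resRep ρC N₀) (fun x => θ (toN x)) :=
        fun g h => hθZ (toN g) (toN h)
      have hAt' : ptn_At₁ N₀ (A.W k N₀) ρC (fun x => θ (toN x)) :=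
        ⟨fun a n hn => hθ1 (toN a) (toN n) (Subgroup.mem_subgroupOf.mpr hn),
          fun x n hn => hθ2 (toN x) ⟨n, hN₀U hn.1⟩ (Subgroup.mem_subgroupOf.mpr hn)⟩
      obtain ⟨e, he⟩ := A.G5_1 N₀ (A.W k N₀) (A.W_isOpen k hN₀o) (A.W_le k N₀)
        (A.W_normal k N₀) (A.W_pgroup k N₀) _ hZ' hAt'
      exact ⟨e, funext fun n => congrFun he (ofN n)⟩)
  refine ⟨k, c • a₀, ψ', ha, hordc, ?_, ?_⟩
  · obtain ⟨N₂, hN₂, hN₂le⟩ := A.W_isOpen k hN₀o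
    refine ⟨_, ⟨N₂, hN₂, (hN₂le.trans (A.W_le k N₀)).trans hN₀U, rfl⟩, fun g n hn => ?_⟩
    exact hψ'At.1 g n (Subgroup.mem_subgroupOf.mpr (hN₂le (Subgroup.mem_subgroupOf.mp hn)))
  · exact ⟨fun a b n n' hn hn' => hw.1 a b n (Subgroup.mem_subgroupOf.mpr hn) n'
        (Subgroup.mem_subgroupOf.mpr hn'),
      fun x n hn => hw.2 x ⟨n, hN₀U hn⟩ (Subgroup.mem_subgroupOf.mpr hn)⟩

attribute [local instance] Subgroup.fintypeQuotientOfFiniteIndex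

/-- **The `p`-group case**: for `U / N₀` a `p`-group, every 2-cocycle of `U` living at `N₀` lifts
(up to a level coboundary) to a `J`-valued level cocycle `y`; if `INV_U y = 0` then the cocycle is
a level coboundary. -/
theorem pg_main (U : Subgroup G) (hU : 𝓛.IsOpen U) (N₀ : Subgroup G) (hN₀ : N₀ ∈ 𝓛.lev)
    (hN₀U : N₀ ≤ U) (hpg : ∀ x ∈ U, ∃ j : ℕ, x ^ p ^ j ∈ N₀) {z : U × U → C}
    (hz : ptd_IsZ2 (ptd_resRep ρC U) z) (hat : ptn_At₂ U N₀ ρC z) :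
    ∃ y : U × U → J, A.Good U hU y ∧
      ptd_IsB2 (𝓛.sub U hU) (ptd_resRep ρC U) ((fun x => A.π (y x)) - z) ∧
      (A.INV U y = 0 → ptd_IsB2 (𝓛.sub U hU) (ptd_resRep ρC U) z) := by
  obtain ⟨k, a, ψ', ha, hord, hψ'lev, hwAt⟩ := A.pg_struct U hU N₀ hN₀ hN₀U hpg
  have hN₀n : N₀.Normal := 𝓛.normal N₀ hN₀
  have hN₀f : N₀.FiniteIndex := 𝓛.finiteIndex N₀ hN₀
  have hN₀o : 𝓛.IsOpen N₀ := 𝓛.isOpen_of_mem hN₀
  have hNn : (N₀.subgroupOf U).Normal := inferInstance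
  have hNf : (N₀.subgroupOf U).FiniteIndex := inferInstance
  have hwZ : ptd_IsZ2 (ptd_resRep ρC U) (ptd_bockSmul (p ^ k) (fun u : U => A.χ k u) (A.π a) -
      ptd_d1 (ptd_resRep ρC U) ψ') :=
    (A.bock_isZ2 ρC k U (A.π_fixed ha)).sub (ptd_isZ2_d1 ψ')
  -- exact order of `w` at `N₀`
  have hordw : ∀ (m : ℤ) (ψ : U → C), ptn_At₁ U N₀ ρC ψ →
      m • (ptd_bockSmul (p ^ k) (fun u : U => A.χ k u) (A.π a) -
        ptd_d1 (ptd_resRep ρC U) ψ') = ptd_d1 (ptd_resRep ρC U) ψ →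
      ((N₀.relIndex U : ℕ) : ℤ) ∣ m := by
    intro m ψ hψ h
    apply hord m
    refine A.INV_bock_of_d1 k hU ha m (ψ := ψ + m • ψ')
      ((hψ.isLev₁ hU hN₀ hN₀U).add (hψ'lev.comp (m • ·))) ?_
    rw [ptd_d1_add, ptd_d1_zsmul, ← h, smul_sub]
    abel
  obtain ⟨n, ψ, hψ, hn⟩ := A.G5_2 U N₀ hN₀o hN₀U hNn hpg _ hwZ hwAt hordw z hz hat
  have hlz := A.bock_isLZ2 ρJ k hU ha
  refine ⟨n • ptd_bockSmul (p ^ k) (fun u : U => A.χ k u) a, (A.good_bock k hU ha).zsmul n,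
    ?_, ?_⟩
  · refine ⟨n • ψ' - ψ, (hψ'lev.comp (n • ·)).sub (hψ.isLev₁ hU hN₀ hN₀U), ?_⟩
    rw [ptd_d1_sub, ptd_d1_zsmul, ← hn]
    funext x
    simp only [Pi.sub_apply, Pi.smul_apply, ptn_bockSmul_apply, map_zsmul, smul_sub]
    abel
  · intro h0
    rw [A.INV_zsmul U hU hlz] at h0
    obtain ⟨c, hc⟩ := hord n h0
    have h3 := ptn_index_smul_eq_d1 (ptd_resRep ρC U) (N₀.subgroupOf U) hwZ
      (fun g h n hn => by
        have := hwAt.1 g h 1 n (one_mem _) (Subgroup.mem_subgroupOf.mp hn)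
        rwa [mul_one] at this)
    have hlev'' : ptd_IsLev₁ (𝓛.sub U hU) (fun g : U => ∑ q : U ⧸ N₀.subgroupOf U,
        (ptd_bockSmul (p ^ k) (fun u : U => A.χ k u) (A.π a) -
          ptd_d1 (ptd_resRep ρC U) ψ') (g, q.out)) := by
      refine ⟨_, ⟨N₀, hN₀, hN₀U, rfl⟩, fun g n hn => ?_⟩
      refine Finset.sum_congr rfl fun q _ => ?_
      have := hwAt.1 g (Quotient.out q) n 1 (Subgroup.mem_subgroupOf.mp hn) (one_mem _)
      rwa [mul_one] at this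
    refine ⟨ψ + c • (fun g => ∑ q : U ⧸ N₀.subgroupOf U,
      (ptd_bockSmul (p ^ k) (fun u : U => A.χ k u) (A.π a) -
        ptd_d1 (ptd_resRep ρC U) ψ') (g, q.out)), (hψ.isLev₁ hU hN₀ hN₀U).add
        (hlev''.comp (c • ·)), ?_⟩
    rw [ptd_d1_add, ptd_d1_zsmul, ← h3, ← hn, hc]
    funext x
    simp only [Pi.add_apply, Pi.sub_apply, Pi.smul_apply]
    rw [mul_comm, mul_smul, natCast_zsmul]
    show _ = _ + c • ((N₀.relIndex U) • _)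
    abel

end ptn_AbsC

end Fermat.Agent.Lib.PT
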