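/-
Poitou–Tate long haul (S55): the single-level CLASS MODULE interface.

`ptc_ClassModuleOn 𝒰 C` : for a group `Γ`, a family `𝒰` of subgroups and `C : Rep.{0} ℤ Γ`,
a 2-cocycle `u : Γ × Γ → C` (the fundamental cocycle) such that for every `U ∈ 𝒰`
* `H¹(U, C) = 0`,
* `H²(U, C)` is generated by the class of `u|_{U × U}`,
* the class of `u|_{U × U}` has order exactly `#U`.
Everything is phrased with Mathlib's explicit low-degree cochains
(`groupCohomology.cocycles₁/₂`, `coboundaries₁/₂`), no category theory.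

* `ptc_ClassModule p C`   := `𝒰 = {U | IsPGroup p U}`  (what the global side produces, `p`-part only;
                              this is all that Tate–Nakayama at `p` consumes, by Sylow).
* `ptc_ClassModuleFull C` := `𝒰 = univ`                (what the local side produces).

Producers working with a multiplicative module (`Lˣ`, idèle classes) use
`ptc_MulClassData 𝒰 u` (Mathlib's `IsMulCocycle₂`, `IsMulCoboundary₁`, … predicates) and the
bridge `ptc_MulClassData.toClassModuleOn`.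
-/
import Mathlib

set_option autoImplicit false

namespace Fermat.Agent.Lib.PT

open groupCohomology Rep CategoryTheory

variable {Γ : Type} [Group Γ]

/-- Restriction of a 2-cochain `Γ × Γ → A` to a subgroup. -/
def ptc_res₂ (U : Subgroup Γ) {A : Type*} (f : Γ × Γ → A) : U × U → A :=
  fun x => f ((x.1 : Γ), (x.2 : Γ))

@[simp] lemma ptc_res₂_apply (U : Subgroup Γ) {A : Type*} (f : Γ × Γ → A) (x : U × U) :
    ptc_res₂ U f x = f ((x.1 : Γ), (x.2 : Γ)) := rfl

/-- Restriction of a 1-cochain `Γ → A` to a subgroup. -/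
def ptc_res₁ (U : Subgroup Γ) {A : Type*} (f : Γ → A) : U → A :=
  fun x => f (x : Γ)

@[simp] lemma ptc_res₁_apply (U : Subgroup Γ) {A : Type*} (f : Γ → A) (x : U) :
    ptc_res₁ U f x = f (x : Γ) := rfl

lemma ptc_res₂_mem_cocycles₂ (U : Subgroup Γ) (C : Rep.{0} ℤ Γ) {f : Γ × Γ → C}
    (hf : f ∈ cocycles₂ C) : (ptc_res₂ U f : U × U → (res U.subtype C)) ∈
      cocycles₂ (res U.subtype C) := by
  rw [mem_cocycles₂_iff] at hf ⊢
  intro g h j
  exact hf g h j

lemma ptc_res₁_mem_cocycles₁ (U : Subgroup Γ) (C : Rep.{0} ℤ Γ) {f : Γ → C}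
    (hf : f ∈ cocycles₁ C) : (ptc_res₁ U f : U → (res U.subtype C)) ∈
      cocycles₁ (res U.subtype C) := by
  rw [mem_cocycles₁_iff] at hf ⊢
  intro g h
  exact hf g h

/-- `#G` kills `H²(G, A)`, on cocycles: for a finite group `G` and a 2-cocycle `f`,
`#G • f` is the coboundary of `g ↦ ∑ x, f (g, x)`. -/
lemma ptc_card_smul_mem_coboundaries₂ {k G : Type} [CommRing k] [Group G] [Fintype G]
    (A : Rep.{0} k G) (f : G × G → A) (hf : f ∈ cocycles₂ A) :
    (Fintype.card G) • f ∈ coboundaries₂ A := by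
  rw [mem_cocycles₂_iff] at hf
  refine ⟨fun g => ∑ x : G, f (g, x), ?_⟩
  funext ⟨g, h⟩
  rw [d₁₂_hom_apply]
  simp only [Pi.smul_apply]
  have h1 : ∀ x : G, f (g * h, x) + f (g, h) = A.ρ g (f (h, x)) + f (g, h * x) := fun x => hf g h x
  have h2 : ∑ x : G, (f (g * h, x) + f (g, h)) = ∑ x : G, (A.ρ g (f (h, x)) + f (g, h * x)) :=
    Finset.sum_congr rfl fun x _ => h1 x
  rw [Finset.sum_add_distrib, Finset.sum_add_distrib, Finset.sum_const, Finset.card_univ] at h2
  have h3 : ∑ x : G, f (g, h * x) = ∑ x : G, f (g, x) :=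
    Fintype.sum_equiv (Equiv.mulLeft h) _ _ fun x => rfl
  rw [h3] at h2
  rw [map_sum]
  have h4 : Fintype.card G • f (g, h) =
      ∑ x : G, A.ρ g (f (h, x)) + ∑ x : G, f (g, x) - ∑ x : G, f (g * h, x) := by
    rw [← h2]; abel
  rw [h4]; abel

/-- `#G` kills `H²(G, A)` for a finite group `G`. -/
lemma ptc_card_smul_H2_eq_zero {G : Type} [Group G] [Finite G] (A : Rep.{0} ℤ G)
    (x : groupCohomology A 2) : (Nat.card G : ℤ) • x = 0 := by
  have := Fintype.ofFinite G
  induction x using H2_induction_on with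
  | h f =>
    rw [← map_zsmul, H2π_eq_zero_iff]
    have := ptc_card_smul_mem_coboundaries₂ A f f.2
    rw [Nat.card_eq_fintype_card]
    show ((Fintype.card G : ℤ) • (f : G × G → A)) ∈ coboundaries₂ A
    rw [natCast_zsmul]
    exact this

/-- An additive group in which every element is a multiple of `g`, with `N • g = 0` and
`n • g = 0 → N ∣ n`, has cardinality `N`. -/
lemma ptc_card_of_gen {H : Type*} [AddCommGroup H] (g : H) (N : ℕ) (hN : N ≠ 0)
    (hgen : ∀ x : H, ∃ n : ℤ, x = n • g) (hord : ∀ n : ℤ, n • g = 0 → (N : ℤ) ∣ n)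
    (hN0 : (N : ℤ) • g = 0) : Nat.card H = N := by
  let φ : ℤ →+ H := (zmultiplesHom H) g
  have hφ : ∀ n : ℤ, φ n = n • g := fun n => rfl
  have hsurj : Function.Surjective φ := fun x => by
    obtain ⟨n, rfl⟩ := hgen x; exact ⟨n, rfl⟩
  have hker : φ.ker = AddSubgroup.zmultiples (N : ℤ) := by
    ext n
    rw [AddMonoidHom.mem_ker, hφ, Int.mem_zmultiples_iff]
    constructor
    · exact hord n
    · rintro ⟨m, rfl⟩
      rw [mul_comm, mul_smul, hN0, smul_zero]
  have e1 : (ℤ ⧸ φ.ker) ≃+ H := QuotientAddGroup.quotientKerEquivOfSurjective φ hsurj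
  have e2 : (ℤ ⧸ AddSubgroup.zmultiples (N : ℤ)) ≃+ ZMod N := Int.quotientZMultiplesNatEquivZMod N
  rw [← Nat.card_congr e1.toEquiv, hker, Nat.card_congr e2.toEquiv]
  have : NeZero N := ⟨hN⟩
  simp [Nat.card_eq_fintype_card, ZMod.card]

/-- **Class module** relative to a family `𝒰` of subgroups of `Γ`. -/
structure ptc_ClassModuleOn (𝒰 : Set (Subgroup Γ)) (C : Rep.{0} ℤ Γ) where
  /-- the fundamental 2-cocycle -/
  u : Γ × Γ → C
  hu : u ∈ cocycles₂ C
  /-- `H¹(U, C) = 0` -/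
  h1 : ∀ U ∈ 𝒰, cocycles₁ (res U.subtype C) ≤ coboundaries₁ (res U.subtype C)
  /-- `H²(U, C)` is generated by `res u` -/
  h2gen : ∀ U ∈ 𝒰, ∀ f ∈ cocycles₂ (res U.subtype C),
    ∃ n : ℤ, f - n • (ptc_res₂ U u : U × U → (res U.subtype C)) ∈ coboundaries₂ (res U.subtype C)
  /-- `res u` has order (a multiple of, hence exactly) `#U` -/
  h2ord : ∀ U ∈ 𝒰, ∀ n : ℤ,
    n • (ptc_res₂ U u : U × U → (res U.subtype C)) ∈ coboundaries₂ (res U.subtype C) →
      (Nat.card U : ℤ) ∣ n

/-- Class module at `p`: conditions for all `p`-subgroups. -/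
abbrev ptc_ClassModule (p : ℕ) (C : Rep.{0} ℤ Γ) := ptc_ClassModuleOn {U : Subgroup Γ | IsPGroup p U} C

/-- Full class module: conditions for all subgroups. -/
abbrev ptc_ClassModuleFull (C : Rep.{0} ℤ Γ) := ptc_ClassModuleOn (Set.univ : Set (Subgroup Γ)) C

namespace ptc_ClassModuleOn

variable {𝒰 𝒱 : Set (Subgroup Γ)} {C : Rep.{0} ℤ Γ}

/-- Shrinking the family. -/
def mono (c : ptc_ClassModuleOn 𝒰 C) (h : 𝒱 ⊆ 𝒰) : ptc_ClassModuleOn 𝒱 C where
  u := c.u
  hu := c.hu
  h1 U hU := c.h1 U (h hU)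
  h2gen U hU := c.h2gen U (h hU)
  h2ord U hU := c.h2ord U (h hU)

/-- A full class module is a class module at every `p`. -/
def toAt (c : ptc_ClassModuleFull C) (p : ℕ) : ptc_ClassModule p C := c.mono (Set.subset_univ _)

/-- The fundamental cocycle as an element of `cocycles₂`. -/
def uCocycle (c : ptc_ClassModuleOn 𝒰 C) : cocycles₂ C := ⟨c.u, c.hu⟩

/-- The restricted fundamental cocycle as an element of `cocycles₂ (res U C)`. -/
def uRes (c : ptc_ClassModuleOn 𝒰 C) (U : Subgroup Γ) : cocycles₂ (res U.subtype C) :=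
  ⟨ptc_res₂ U c.u, ptc_res₂_mem_cocycles₂ U C c.hu⟩

/-- `H¹(U, C) = 0` in `H1` language. -/
lemma h1_eq_zero (c : ptc_ClassModuleOn 𝒰 C) {U : Subgroup Γ} (hU : U ∈ 𝒰)
    (x : H1 (res U.subtype C)) : x = 0 := by
  induction x using H1_induction_on with
  | h f =>
    rw [H1π_eq_zero_iff]
    exact c.h1 U hU f.2

/-- `H²(U, C)` is generated by the class of `res u`, in `H2` language. -/
lemma h2_gen (c : ptc_ClassModuleOn 𝒰 C) {U : Subgroup Γ} (hU : U ∈ 𝒰)
    (x : H2 (res U.subtype C)) : ∃ n : ℤ, x = n • H2π (res U.subtype C) (c.uRes U) := by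
  induction x using H2_induction_on with
  | h f =>
    obtain ⟨n, hn⟩ := c.h2gen U hU f f.2
    refine ⟨n, ?_⟩
    rw [← map_zsmul, H2π_eq_iff]
    exact hn

/-- The class of `res u` has order exactly a multiple of `#U`, in `H2` language. -/
lemma h2_ord (c : ptc_ClassModuleOn 𝒰 C) {U : Subgroup Γ} (hU : U ∈ 𝒰) (n : ℤ)
    (hn : n • H2π (res U.subtype C) (c.uRes U) = 0) : (Nat.card U : ℤ) ∣ n := by
  rw [← map_zsmul, H2π_eq_zero_iff] at hn
  exact c.h2ord U hU n hn

/-- `H¹(U, C) = 0` as `IsZero`. -/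
lemma isZero_H1 (c : ptc_ClassModuleOn 𝒰 C) {U : Subgroup Γ} (hU : U ∈ 𝒰) :
    Limits.IsZero (groupCohomology (res U.subtype C) 1) := by
  have : Subsingleton (groupCohomology (res U.subtype C) 1) :=
    ⟨fun x y => by rw [c.h1_eq_zero hU x, c.h1_eq_zero hU y]⟩
  exact ModuleCat.isZero_of_subsingleton _

/-- Restriction of the fundamental class, computed with Mathlib's `groupCohomology.map`. -/
lemma map_H2π_uCocycle (c : ptc_ClassModuleOn 𝒰 C) (U : Subgroup Γ) :
    groupCohomology.map U.subtype (𝟙 (res U.subtype C)) 2 (H2π C c.uCocycle) =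
      H2π (res U.subtype C) (c.uRes U) := by
  have h := H2π_comp_map_apply (A := C) (B := res U.subtype C) U.subtype (𝟙 _) c.uCocycle
  rw [h]
  congr 1

/-- `H²(U, C)` is generated by the restriction of the fundamental class (Mathlib `map` form). -/
lemma h2_gen_map (c : ptc_ClassModuleOn 𝒰 C) {U : Subgroup Γ} (hU : U ∈ 𝒰)
    (x : groupCohomology (res U.subtype C) 2) : ∃ n : ℤ,
      x = n • (groupCohomology.map U.subtype (𝟙 (res U.subtype C)) 2 (H2π C c.uCocycle)) := by
  rw [c.map_H2π_uCocycle U]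
  exact c.h2_gen hU x

/-- `#H²(U, C) = #U`. -/
lemma card_H2 (c : ptc_ClassModuleOn 𝒰 C) {U : Subgroup Γ} [Finite U] (hU : U ∈ 𝒰) :
    Nat.card (groupCohomology (res U.subtype C) 2) = Nat.card U := by
  exact ptc_card_of_gen (H2π (res U.subtype C) (c.uRes U)) (Nat.card U) Nat.card_pos.ne'
    (c.h2_gen hU) (c.h2_ord hU) (ptc_card_smul_H2_eq_zero (res U.subtype C) _)

end ptc_ClassModuleOn

/-! ### Multiplicative producers' form -/

section Mul

variable {A : Type} [CommGroup A] [MulDistribMulAction Γ A]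

/-- The class-module axioms for a multiplicatively written `Γ`-module `A`
(e.g. `Lˣ` or an idèle class group), in terms of Mathlib's multiplicative cocycle predicates. -/
structure ptc_MulClassData (𝒰 : Set (Subgroup Γ)) (u : Γ × Γ → A) : Prop where
  hu : IsMulCocycle₂ u
  h1 : ∀ U ∈ 𝒰, ∀ f : U → A, IsMulCocycle₁ f → IsMulCoboundary₁ f
  h2gen : ∀ U ∈ 𝒰, ∀ f : U × U → A, IsMulCocycle₂ f →
    ∃ n : ℤ, IsMulCoboundary₂ (fun x : U × U => f x / (u ((x.1 : Γ), (x.2 : Γ))) ^ n)
  h2ord : ∀ U ∈ 𝒰, ∀ n : ℤ,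
    IsMulCoboundary₂ (fun x : U × U => (u ((x.1 : Γ), (x.2 : Γ))) ^ n) → (Nat.card U : ℤ) ∣ n

section BridgeAux

variable {G : Type} [Group G] {B : Type} [CommGroup B] [MulDistribMulAction G B]

lemma ptc_bridge_h1 (h : ∀ f : G → B, IsMulCocycle₁ f → IsMulCoboundary₁ f) :
    cocycles₁ (Rep.ofMulDistribMulAction G B) ≤ coboundaries₁ (Rep.ofMulDistribMulAction G B) := by
  intro f hf
  have h1 : IsMulCocycle₁ (G := G) (M := B) (Additive.toMul ∘ (f : G → Additive B)) :=
    isMulCocycle₁_of_mem_cocycles₁ (G := G) (M := B) f hf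
  exact (coboundariesOfIsMulCoboundary₁ (h _ h1)).2

lemma ptc_bridge_h2gen (v : G × G → B)
    (h : ∀ f : G × G → B, IsMulCocycle₂ f →
      ∃ n : ℤ, IsMulCoboundary₂ (fun x : G × G => f x / (v x) ^ n))
    (f : G × G → Additive B) (hf : f ∈ cocycles₂ (Rep.ofMulDistribMulAction G B)) :
    ∃ n : ℤ, f - n • (Additive.ofMul ∘ v : G × G → Additive B) ∈
      coboundaries₂ (Rep.ofMulDistribMulAction G B) := by
  have h1 : IsMulCocycle₂ (G := G) (M := B) (Additive.toMul ∘ f) :=
    isMulCocycle₂_of_mem_cocycles₂ (G := G) (M := B) f hf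
  obtain ⟨n, hn⟩ := h _ h1
  refine ⟨n, ?_⟩
  have h2 := (coboundariesOfIsMulCoboundary₂ hn).2
  have h3 : (f - n • (Additive.ofMul ∘ v : G × G → Additive B)) =
      (coboundariesOfIsMulCoboundary₂ hn).1 := by
    funext x
    show f x - n • Additive.ofMul (v x) = Additive.ofMul (Additive.toMul (f x) / v x ^ n)
    rw [ofMul_div, ofMul_zpow, ofMul_toMul]
  rw [h3]
  exact h2

lemma ptc_bridge_h2ord (v : G × G → B) (n : ℤ)
    (hn : n • (Additive.ofMul ∘ v : G × G → Additive B) ∈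
      coboundaries₂ (Rep.ofMulDistribMulAction G B)) :
    IsMulCoboundary₂ (fun x : G × G => (v x) ^ n) := by
  have h2 := isMulCoboundary₂_of_mem_coboundaries₂ (G := G) (M := B) _ hn
  have h3 : (fun x : G × G => (v x) ^ n) =
      Additive.toMul ∘ (n • (Additive.ofMul ∘ v : G × G → Additive B)) := by
    funext x
    show v x ^ n = Additive.toMul (n • Additive.ofMul (v x))
    rw [toMul_zsmul, toMul_ofMul]
  rw [h3]
  exact h2

end BridgeAux

/-- Bridge: multiplicative class data give a class module structure on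
`Rep.ofMulDistribMulAction Γ A` (carrier `Additive A`). -/
def ptc_MulClassData.toClassModuleOn {𝒰 : Set (Subgroup Γ)} {u : Γ × Γ → A}
    (h : ptc_MulClassData 𝒰 u) : ptc_ClassModuleOn 𝒰 (Rep.ofMulDistribMulAction Γ A) where
  u := Additive.ofMul ∘ u
  hu := (cocyclesOfIsMulCocycle₂ h.hu).2
  h1 U hU := ptc_bridge_h1 (G := U) (B := A) (h.h1 U hU)
  h2gen U hU := ptc_bridge_h2gen (G := U) (B := A) (fun x => u ((x.1 : Γ), (x.2 : Γ)))
    (h.h2gen U hU)
  h2ord U hU n hn := h.h2ord U hU n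
    (ptc_bridge_h2ord (G := U) (B := A) (fun x => u ((x.1 : Γ), (x.2 : Γ))) n hn)

end Mul

end Fermat.Agent.Lib.PT
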