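/-
S55 (Poitou–Tate long haul), bridge "finite levels ⇒ big model", part III: PRESENTED LEVELS.

A presented level of `(G, ρC)` at a normal subgroup `N` is a surjection `π : G → Γ` with kernel `N`,
a `Γ`-module `CN` with an injective equivariant map `ι : CN → C` onto the `N`-invariants, and a
class module at `p` (helper4's `ptc_ClassModule p`) on `(Γ, CN)`.  We translate the three
class-module axioms into statements about explicit cochains on an arbitrary group `H` mapping to `G`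
(`j : H →* G`, e.g. a subgroup of an open subgroup of `G`) whose image in `Γ` is a `p`-group:
`ptn_PLevel.h1`, `ptn_PLevel.h2gen`, `ptn_PLevel.h2ord`; the big-model fundamental cocycle is
`ptn_PLevel.bigU`.
-/
import Fermat.Agent.Lib.PT.AdtDefs
import Fermat.Agent.Lib.PT.IfaceClassModule

set_option autoImplicit false

namespace Fermat.Agent.Lib.PT

open groupCohomology Rep

variable {G : Type*} [Group G] {C : Type*} [AddCommGroup C]

/-- A **presented level** of `(G, ρC)` at `N`, with a class module at `p`. -/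
structure ptn_PLevel (ρC : Representation ℤ G C) (p : ℕ) (N : Subgroup G) where
  /-- the finite quotient -/
  Γ : Type
  [grp : Group Γ]
  /-- the projection -/
  π : G →* Γ
  surj : Function.Surjective π
  ker_eq : π.ker = N
  /-- the module of the level -/
  CN : Rep.{0} ℤ Γ
  /-- the inclusion into the big module -/
  ι : CN →+ C
  inj : Function.Injective ι
  equiv : ∀ (g : G) (x : CN), ι (CN.ρ (π g) x) = ρC g (ι x)
  range : ∀ c : C, (∀ n ∈ N, ρC n c = c) → ∃ x : CN, ι x = c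
  /-- the class module at `p` -/
  cm : ptc_ClassModule p CN

attribute [instance] ptn_PLevel.grp

namespace ptn_PLevel

variable {ρC : Representation ℤ G C} {p : ℕ} {N : Subgroup G} (L : ptn_PLevel ρC p N)

lemma π_eq_one {n : G} (hn : n ∈ N) : L.π n = 1 := by
  have : n ∈ L.π.ker := by rw [L.ker_eq]; exact hn
  exact MonoidHom.mem_ker.mp this

lemma π_eq_iff (g g' : G) : L.π g = L.π g' ↔ g⁻¹ * g' ∈ N := by
  refine Iff.trans ?_ (SetLike.ext_iff.mp L.ker_eq _)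
  rw [MonoidHom.mem_ker, map_mul, map_inv, inv_mul_eq_one]

/-- the values of `ι` are `N`-invariant -/
lemma ι_inv (x : L.CN) {n : G} (hn : n ∈ N) : ρC n (L.ι x) = L.ι x := by
  have h1 : L.CN.ρ (L.π n) x = x := by
    rw [L.π_eq_one hn, map_one]; rfl
  rw [← L.equiv, h1]

lemma ι_zsmul (n : ℤ) (x : L.CN) : L.ι (n • x) = n • L.ι x := by
  exact map_zsmul L.ι n x

/-- the fundamental cocycle of the level, as a 2-cochain of the big group -/
def bigU : G × G → C := fun x => L.ι (L.cm.u (L.π x.1, L.π x.2))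

lemma bigU_apply (g h : G) : L.bigU (g, h) = L.ι (L.cm.u (L.π g, L.π h)) := rfl

lemma bigU_isZ2 : ptd_IsZ2 ρC L.bigU := by
  intro g h j
  have hu := (mem_cocycles₂_iff _).mp L.cm.hu (L.π g) (L.π h) (L.π j)
  simp only [bigU_apply, map_mul, ← L.equiv, ← map_add]
  rw [hu]

lemma bigU_mul_right (g h : G) {n n' : G} (hn : n ∈ N) (hn' : n' ∈ N) :
    L.bigU (g * n, h * n') = L.bigU (g, h) := by
  simp only [bigU_apply, map_mul, L.π_eq_one hn, L.π_eq_one hn', mul_one]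

lemma bigU_inv (x : G × G) {n : G} (hn : n ∈ N) : ρC n (L.bigU x) = L.bigU x :=
  L.ι_inv _ hn

section Descent

variable {H : Type*} [Group H] (j : H →* G)

/-- a section of `H → (π ∘ j).range` -/
noncomputable def sec (γ : (L.π.comp j).range) : H := γ.2.choose

lemma π_sec (γ : (L.π.comp j).range) : L.π (j (L.sec j γ)) = γ := γ.2.choose_spec

open Classical in
/-- descent of a `C`-valued function on `H` to a `CN`-valued function on the image of `H` in `Γ`
(junk if the values are not `N`-invariant) -/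
noncomputable def desc₁ (φ : H → C) : (L.π.comp j).range → L.CN := fun γ =>
  if h : ∃ x : L.CN, L.ι x = φ (L.sec j γ) then h.choose else 0

open Classical in
/-- descent of 2-cochains -/
noncomputable def desc₂ (z : H × H → C) : (L.π.comp j).range × (L.π.comp j).range → L.CN :=
  fun x => if h : ∃ y : L.CN, L.ι y = z (L.sec j x.1, L.sec j x.2) then h.choose else 0

variable {j}

lemma ι_desc₁ {φ : H → C} (hinv : ∀ h, ∀ n ∈ N, ρC n (φ h) = φ h) (γ : (L.π.comp j).range) :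
    L.ι (L.desc₁ j φ γ) = φ (L.sec j γ) := by
  have hex : ∃ x : L.CN, L.ι x = φ (L.sec j γ) := L.range _ (hinv _)
  unfold desc₁
  rw [dif_pos hex]
  exact hex.choose_spec

lemma ι_desc₁_mk {φ : H → C} (hfac : ∀ h h', L.π (j h) = L.π (j h') → φ h = φ h')
    (hinv : ∀ h, ∀ n ∈ N, ρC n (φ h) = φ h) (h : H) :
    L.ι (L.desc₁ j φ ⟨L.π (j h), h, rfl⟩) = φ h := by
  rw [L.ι_desc₁ hinv]
  exact hfac _ _ (L.π_sec j _)

lemma ι_desc₂ {z : H × H → C} (hinv : ∀ x, ∀ n ∈ N, ρC n (z x) = z x)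
    (γ δ : (L.π.comp j).range) :
    L.ι (L.desc₂ j z (γ, δ)) = z (L.sec j γ, L.sec j δ) := by
  have hex : ∃ y : L.CN, L.ι y = z (L.sec j γ, L.sec j δ) := L.range _ (hinv _)
  unfold desc₂
  rw [dif_pos hex]
  exact hex.choose_spec

lemma ι_desc₂_mk {z : H × H → C}
    (hfac : ∀ a b a' b', L.π (j a) = L.π (j a') → L.π (j b) = L.π (j b') → z (a, b) = z (a', b'))
    (hinv : ∀ x, ∀ n ∈ N, ρC n (z x) = z x) (a b : H) :
    L.ι (L.desc₂ j z (⟨L.π (j a), a, rfl⟩, ⟨L.π (j b), b, rfl⟩)) = z (a, b) := by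
  rw [L.ι_desc₂ hinv]
  exact hfac _ _ _ _ (L.π_sec j _) (L.π_sec j _)

/-- the section is multiplicative up to the kernel -/
lemma π_sec_mul (γ δ : (L.π.comp j).range) :
    L.π (j (L.sec j (γ * δ))) = L.π (j (L.sec j γ * L.sec j δ)) := by
  rw [map_mul, map_mul, L.π_sec, L.π_sec, L.π_sec]
  rfl

/-- the descent of a 1-cocycle is a 1-cocycle -/
lemma desc₁_mem_cocycles₁ {φ : H → C} (hZ : ptd_IsZ1 (ρC.comp j) φ)
    (hfac : ∀ h h', L.π (j h) = L.π (j h') → φ h = φ h')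
    (hinv : ∀ h, ∀ n ∈ N, ρC n (φ h) = φ h) :
    (L.desc₁ j φ : (L.π.comp j).range → (res (L.π.comp j).range.subtype L.CN)) ∈
      cocycles₁ (res (L.π.comp j).range.subtype L.CN) := by
  rw [mem_cocycles₁_iff]
  intro γ δ
  apply L.inj
  rw [map_add, L.ι_desc₁ hinv, L.ι_desc₁ hinv]
  have h1 : φ (L.sec j (γ * δ)) = φ (L.sec j γ * L.sec j δ) := hfac _ _ (L.π_sec_mul γ δ)
  rw [h1, hZ]
  congr 1
  have h2 : L.ι ((res (L.π.comp j).range.subtype L.CN).ρ γ (L.desc₁ j φ δ)) =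
      L.ι (L.CN.ρ (L.π (j (L.sec j γ))) (L.desc₁ j φ δ)) := by
    rw [L.π_sec]; rfl
  rw [h2, L.equiv, L.ι_desc₁ hinv]
  rfl

/-- the descent of a 2-cocycle is a 2-cocycle -/
lemma desc₂_mem_cocycles₂ {z : H × H → C} (hZ : ptd_IsZ2 (ρC.comp j) z)
    (hfac : ∀ a b a' b', L.π (j a) = L.π (j a') → L.π (j b) = L.π (j b') → z (a, b) = z (a', b'))
    (hinv : ∀ x, ∀ n ∈ N, ρC n (z x) = z x) :
    (L.desc₂ j z : (L.π.comp j).range × (L.π.comp j).range →
      (res (L.π.comp j).range.subtype L.CN)) ∈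
      cocycles₂ (res (L.π.comp j).range.subtype L.CN) := by
  rw [mem_cocycles₂_iff]
  intro γ δ ε
  apply L.inj
  rw [map_add, map_add, L.ι_desc₂ hinv, L.ι_desc₂ hinv, L.ι_desc₂ hinv]
  have h1 : z (L.sec j (γ * δ), L.sec j ε) = z (L.sec j γ * L.sec j δ, L.sec j ε) :=
    hfac _ _ _ _ (L.π_sec_mul γ δ) rfl
  have h3 : z (L.sec j γ, L.sec j (δ * ε)) = z (L.sec j γ, L.sec j δ * L.sec j ε) :=
    hfac _ _ _ _ rfl (L.π_sec_mul δ ε)
  have h2 : L.ι ((res (L.π.comp j).range.subtype L.CN).ρ γ (L.desc₂ j z (δ, ε))) =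
      L.ι (L.CN.ρ (L.π (j (L.sec j γ))) (L.desc₂ j z (δ, ε))) := by
    rw [L.π_sec]; rfl
  rw [h1, h3, h2, L.equiv, L.ι_desc₂ hinv]
  exact hZ _ _ _

end Descent

section Axioms

variable {H : Type*} [Group H] {j : H →* G}

/-- **`H¹ = 0` at a presented level**, on explicit cochains of a group `H → G` with `p`-group
image. -/
theorem h1 (hQ : IsPGroup p (L.π.comp j).range) {φ : H → C} (hZ : ptd_IsZ1 (ρC.comp j) φ)
    (hfac : ∀ h h', L.π (j h) = L.π (j h') → φ h = φ h')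
    (hinv : ∀ h, ∀ n ∈ N, ρC n (φ h) = φ h) : ptd_IsB1 (ρC.comp j) φ := by
  have hc := L.cm.h1 (L.π.comp j).range hQ (L.desc₁_mem_cocycles₁ hZ hfac hinv)
  obtain ⟨a, ha⟩ := hc
  refine ⟨L.ι a, ?_⟩
  funext h
  have h1 := congrFun ha ⟨L.π (j h), h, rfl⟩
  rw [d₀₁_hom_apply] at h1
  rw [ptd_d0_apply, ← L.ι_desc₁_mk hfac hinv h, ← h1, map_sub]
  congr 1
  exact L.equiv (j h) a

/-- **`H²` is generated by the fundamental class at a presented level**, on explicit cochains. -/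
theorem h2gen (hQ : IsPGroup p (L.π.comp j).range) {z : H × H → C} (hZ : ptd_IsZ2 (ρC.comp j) z)
    (hfac : ∀ a b a' b', L.π (j a) = L.π (j a') → L.π (j b) = L.π (j b') → z (a, b) = z (a', b'))
    (hinv : ∀ x, ∀ n ∈ N, ρC n (z x) = z x) :
    ∃ (n : ℤ) (ψ : H → C), (∀ h h', L.π (j h) = L.π (j h') → ψ h = ψ h') ∧
      (∀ h, ∀ n ∈ N, ρC n (ψ h) = ψ h) ∧
      z - n • (fun x : H × H => L.bigU (j x.1, j x.2)) = ptd_d1 (ρC.comp j) ψ := by
  obtain ⟨n, ψ, hψ⟩ := L.cm.h2gen (L.π.comp j).range hQ _ (L.desc₂_mem_cocycles₂ hZ hfac hinv)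
  refine ⟨n, fun h => L.ι (ψ ⟨L.π (j h), h, rfl⟩), ?_, ?_, ?_⟩
  · intro h h' hh
    have : (⟨L.π (j h), h, rfl⟩ : (L.π.comp j).range) = ⟨L.π (j h'), h', rfl⟩ := Subtype.ext hh
    simp only [this]
  · intro h n hn
    exact L.ι_inv _ hn
  · funext ⟨a, b⟩
    have h1 := congrFun hψ (⟨L.π (j a), a, rfl⟩, ⟨L.π (j b), b, rfl⟩)
    rw [d₁₂_hom_apply] at h1
    simp only [Pi.sub_apply, Pi.smul_apply, ptc_res₂_apply] at h1
    simp only [Pi.sub_apply, Pi.smul_apply, ptd_d1_apply, bigU_apply]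
    rw [← L.ι_desc₂_mk hfac hinv a b, ← L.ι_zsmul, ← map_sub, ← h1, map_add, map_sub]
    have hmul : (⟨L.π (j a), a, rfl⟩ * ⟨L.π (j b), b, rfl⟩ : (L.π.comp j).range) =
        ⟨L.π (j (a * b)), a * b, rfl⟩ := Subtype.ext (by simp [map_mul])
    rw [hmul]
    congr 2
    exact L.equiv (j a) _

/-- **The order of the fundamental class at a presented level**, on explicit cochains. -/
theorem h2ord (hQ : IsPGroup p (L.π.comp j).range) (n : ℤ) {ψ : H → C}
    (hfac : ∀ h h', L.π (j h) = L.π (j h') → ψ h = ψ h')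
    (hinv : ∀ h, ∀ n ∈ N, ρC n (ψ h) = ψ h)
    (h : n • (fun x : H × H => L.bigU (j x.1, j x.2)) = ptd_d1 (ρC.comp j) ψ) :
    (Nat.card (L.π.comp j).range : ℤ) ∣ n := by
  apply L.cm.h2ord (L.π.comp j).range hQ n
  refine ⟨L.desc₁ j ψ, ?_⟩
  funext ⟨γ, δ⟩
  rw [d₁₂_hom_apply]
  apply L.inj
  simp only [Pi.smul_apply, ptc_res₂_apply]
  rw [map_add, map_sub, L.ι_desc₁ hinv, L.ι_desc₁ hinv, L.ι_zsmul]
  have h1 := congrFun h (L.sec j γ, L.sec j δ)
  simp only [Pi.smul_apply, ptd_d1_apply, bigU_apply, L.π_sec] at h1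
  rw [h1]
  have h2 : ψ (L.sec j (γ * δ)) = ψ (L.sec j γ * L.sec j δ) := hfac _ _ (L.π_sec_mul γ δ)
  have h3 : L.ι ((res (L.π.comp j).range.subtype L.CN).ρ γ (L.desc₁ j ψ δ)) =
      L.ι (L.CN.ρ (L.π (j (L.sec j γ))) (L.desc₁ j ψ δ)) := by
    rw [L.π_sec]; rfl
  rw [h2, h3, L.equiv, L.ι_desc₁ hinv]
  rfl

end Axioms

end ptn_PLevel

end Fermat.Agent.Lib.PT
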