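/-
S55 (Poitou–Tate long haul): the Sylow argument in degree 1, by hand, on explicit cochains.

If a 1-cocycle `φ : G → A` restricts to a coboundary on a subgroup `U` of finite index, then
`U.index • φ` is a coboundary (`ptn_index_smul_isB1`).  Consequently a cocycle killed by `p` whose
restriction to a subgroup of index prime to `p` is a coboundary is itself a coboundary
(`ptn_isB1_of_res`).  Function-level vocabulary of `AdtLevels` (`ptd_IsZ1`, `ptd_d0`, `ptd_IsB1`)
and Mathlib `H1` wrappers.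
-/
import Fermat.Agent.Lib.PT.AdtDefs

set_option autoImplicit false

namespace Fermat.Agent.Lib.PT

section Fun

variable {G : Type*} [Group G] (U : Subgroup G) [U.FiniteIndex]
variable {k : Type*} [CommRing k] {A : Type*} [AddCommGroup A] [Module k A]
variable (ρ : Representation k G A)

attribute [local instance] Subgroup.fintypeQuotientOfFiniteIndex

lemma ptn_isZ1_one {φ : G → A} (hφ : ptd_IsZ1 ρ φ) : φ 1 = 0 := by
  have := hφ 1 1
  simpa using this

omit [U.FiniteIndex] in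
/-- a cocycle vanishing on `U` is constant on left cosets of `U` -/
lemma ptn_isZ1_coset {φ : G → A} (hφ : ptd_IsZ1 ρ φ) (h0 : ∀ u ∈ U, φ u = 0) (g g' : G)
    (h : (QuotientGroup.mk g : G ⧸ U) = QuotientGroup.mk g') : φ g = φ g' := by
  have h1 : g⁻¹ * g' ∈ U := QuotientGroup.eq.mp h
  have h2 : g' = g * (g⁻¹ * g') := by group
  rw [h2, hφ, h0 _ h1, map_zero, zero_add]

/-- a cocycle vanishing on `U`: `U.index • φ` is the coboundary of `-∑_{q ∈ G/U} φ(q)` -/
lemma ptn_index_smul_of_vanish {φ : G → A} (hφ : ptd_IsZ1 ρ φ) (h0 : ∀ u ∈ U, φ u = 0) :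
    U.index • φ = ptd_d0 ρ (-∑ q : G ⧸ U, φ q.out) := by
  funext g
  simp only [Pi.smul_apply, ptd_d0_apply, map_neg, map_sum]
  have h1 : ∀ q : G ⧸ U, ρ g (φ q.out) = φ ((g • q).out) - φ g := by
    intro q
    have h2 : φ (g * q.out) = φ ((g • q).out) := by
      apply ptn_isZ1_coset U ρ hφ h0
      rw [QuotientGroup.out_eq']
      conv_rhs => rw [← QuotientGroup.out_eq' q]
      rfl
    rw [← h2, hφ]; abel
  rw [Finset.sum_congr rfl fun q _ => h1 q, Finset.sum_sub_distrib, Finset.sum_const,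
    Finset.card_univ]
  have h3 : ∑ q : G ⧸ U, φ ((g • q).out) = ∑ q : G ⧸ U, φ q.out :=
    Fintype.sum_equiv (MulAction.toPerm g) _ _ fun q => rfl
  rw [h3, Subgroup.index_eq_card, Nat.card_eq_fintype_card]
  abel

/-- **Sylow argument in degree 1**: if the restriction of a cocycle to `U` is a coboundary then
`U.index • φ` is a coboundary. -/
lemma ptn_index_smul_isB1 {φ : G → A} (hφ : ptd_IsZ1 ρ φ)
    (hres : ptd_IsB1 (ptd_resRep ρ U) (ptd_res₁ U φ)) : ptd_IsB1 ρ (U.index • φ) := by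
  obtain ⟨a, ha⟩ := hres
  have hφ' : ptd_IsZ1 ρ (φ - ptd_d0 ρ a) := by
    intro g h
    have h1 := hφ g h
    have h2 := ptd_isZ1_d0 (ρ := ρ) a g h
    simp only [Pi.sub_apply, map_sub]
    rw [h1, h2]; abel
  have h0 : ∀ u ∈ U, (φ - ptd_d0 ρ a) u = 0 := by
    intro u hu
    have := congrFun ha ⟨u, hu⟩
    simp only [ptd_res₁_apply, ptd_d0_apply, ptd_resRep_apply] at this
    simp only [Pi.sub_apply, ptd_d0_apply, this, sub_self]
  have h := ptn_index_smul_of_vanish U ρ hφ' h0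
  refine ⟨U.index • a + -∑ q : G ⧸ U, (φ - ptd_d0 ρ a) q.out, ?_⟩
  funext g
  have hg := congrFun h g
  simp only [Pi.smul_apply, Pi.sub_apply, ptd_d0_apply, smul_sub, map_add, map_nsmul] at hg ⊢
  rw [← sub_eq_zero] at hg ⊢
  rw [← hg]; abel

/-- a cocycle with `p • φ = 0` whose restriction to a subgroup of index prime to `p` is a
coboundary is a coboundary -/
lemma ptn_isB1_of_res {p : ℕ} (hp : Nat.Coprime p U.index) {φ : G → A} (hφ : ptd_IsZ1 ρ φ)
    (hpφ : ptd_IsB1 ρ (p • φ))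
    (hres : ptd_IsB1 (ptd_resRep ρ U) (ptd_res₁ U φ)) : ptd_IsB1 ρ φ := by
  obtain ⟨a, ha⟩ := hpφ
  obtain ⟨b, hb⟩ := ptn_index_smul_isB1 U ρ hφ hres
  have hbez : (p : ℤ) * Nat.gcdA p U.index + (U.index : ℤ) * Nat.gcdB p U.index = 1 := by
    have := Nat.gcd_eq_gcd_ab p U.index
    rw [hp.gcd_eq_one] at this
    rw [← this]; simp
  refine ⟨Nat.gcdA p U.index • a + Nat.gcdB p U.index • b, ?_⟩
  funext g
  have h1 := congrFun ha g
  have h2 := congrFun hb g
  simp only [Pi.smul_apply, ptd_d0_apply] at h1 h2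
  simp only [ptd_d0_apply, map_add, map_zsmul]
  have h3 : φ g = ((p : ℤ) * Nat.gcdA p U.index + (U.index : ℤ) * Nat.gcdB p U.index) • φ g := by
    rw [hbez, one_smul]
  rw [h3, add_smul, mul_comm (p : ℤ), mul_comm (U.index : ℤ), mul_smul, mul_smul, natCast_zsmul,
    natCast_zsmul, h1, h2]
  simp only [smul_sub]
  abel

end Fun

end Fermat.Agent.Lib.PT
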