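/-
S55 (Poitou–Tate long haul), bridge "finite levels ⇒ big model", part II-B: from presented levels
with class modules at `p` to the big-model statements.

* `ptn_LevelData 𝓛 ρC p` : a presented level (`ptn_PLevel`) for every level of `𝓛`, with the
  compatibility `u_N ∼ [N : N'] u_N'` (up to prime-to-`p` torsion, coboundary at level `N'`).
* `ptn_gen` : every level 2-cocycle of an open subgroup `U` with `p`-torsion class is cohomologous
  to a multiple of the restriction of a fundamental cocycle.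
* `ptn_ord` : the `p`-part of the order of `res_U u_N` in `H²_lev(U, C)` is the `p`-part of `[U:N]`.
* `ptn_tors` : `[U : N]` kills `res_U u_N`.
* `ptn_F1` : helper3's `ptd_F1` for every open subgroup.
-/
import Fermat.Agent.Lib.PT.BrgLevA
import Fermat.Agent.Lib.PT.BrgInv
import Fermat.Agent.Lib.PT.BrgFin
import Fermat.Agent.Lib.PT.SylH1

set_option autoImplicit false

namespace Fermat.Agent.Lib.PT

variable {G : Type*} [Group G] {C : Type*} [AddCommGroup C]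

/-- **Level data**: a presented level with a class module at `p` for every level, compatible under
inflation. -/
structure ptn_LevelData (𝓛 : ptd_Levels G) (ρC : Representation ℤ G C) (p : ℕ) where
  /-- the presented levels -/
  lvl : ∀ N ∈ 𝓛.lev, ptn_PLevel ρC p N
  /-- `u_N ∼ [N : N'] u_N'` up to prime-to-`p` torsion, by a coboundary at the level `N'` -/
  compat : ∀ (N : Subgroup G) (hN : N ∈ 𝓛.lev) (N' : Subgroup G) (hN' : N' ∈ 𝓛.lev), N' ≤ N →
    ∃ m : ℕ, ¬ p ∣ m ∧ ∃ ψ : G → C, (∀ g, ∀ n ∈ N', ψ (g * n) = ψ g) ∧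
      (∀ g, ∀ n ∈ N', ρC n (ψ g) = ψ g) ∧
      m • ((lvl N hN).bigU - (N'.relIndex N) • (lvl N' hN').bigU) = ptd_d1 ρC ψ

variable {𝓛 : ptd_Levels G} {ρC : Representation ℤ G C} {p : ℕ}

lemma ptn_PLevel.bigU_isLZ2 {N : Subgroup G} (L : ptn_PLevel ρC p N) (hN : N ∈ 𝓛.lev) :
    ptd_IsLZ2 𝓛 ρC L.bigU :=
  ⟨L.bigU_isZ2, N, hN, fun g h _ hn _ hn' => L.bigU_mul_right g h hn hn'⟩

namespace ptn_LevelData

variable (D : ptn_LevelData 𝓛 ρC p)

open Classical in
/-- the fundamental cocycle attached to a level (zero for subgroups which are not levels) -/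
noncomputable def U (N : Subgroup G) : G × G → C :=
  if h : N ∈ 𝓛.lev then (D.lvl N h).bigU else 0

lemma U_eq {N : Subgroup G} (hN : N ∈ 𝓛.lev) : D.U N = (D.lvl N hN).bigU := dif_pos hN

lemma U_isLZ2 {N : Subgroup G} (hN : N ∈ 𝓛.lev) : ptd_IsLZ2 𝓛 ρC (D.U N) := by
  rw [D.U_eq hN]; exact (D.lvl N hN).bigU_isLZ2 hN

end ptn_LevelData

section Restrict

variable (U : Subgroup G) (P' : Subgroup U)

/-- the inclusion of a subgroup of a subgroup -/
abbrev ptn_jj : ↥P' →* G := U.subtype.comp P'.subtype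

variable {U P'} {N : Subgroup G} (L : ptn_PLevel ρC p N)

lemma ptn_isPGroup_range (hPp : ∀ x ∈ P', ∃ k : ℕ, x ^ p ^ k ∈ N.subgroupOf U) :
    IsPGroup p (L.π.comp (ptn_jj U P')).range := by
  rintro ⟨_, y, rfl⟩
  obtain ⟨k, hk⟩ := hPp y.1 y.2
  refine ⟨k, Subtype.ext ?_⟩
  have h1 : ((y.1 : U) : G) ^ p ^ k ∈ N := by
    have := Subgroup.mem_subgroupOf.mp hk
    simpa using this
  have h2 := L.π_eq_one h1
  rw [map_pow] at h2
  simpa using h2

lemma ptn_π_jj_eq_iff (a a' : P') :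
    L.π (ptn_jj U P' a) = L.π (ptn_jj U P' a') ↔ (((a⁻¹ * a' : P') : U) : G) ∈ N := by
  rw [L.π_eq_iff]
  simp

/-- the cardinality of the image of `P'` in `Γ` is `[P' : N ∩ P']` -/
lemma ptn_card_range : Nat.card (L.π.comp (ptn_jj U P')).range = (N.subgroupOf U).relIndex P' := by
  rw [← Subgroup.index_ker, Subgroup.relIndex]
  congr 1
  ext y
  rw [MonoidHom.mem_ker, Subgroup.mem_subgroupOf, Subgroup.mem_subgroupOf]
  have := L.π_eq_iff 1 ((y : U) : G)
  simp only [map_one, inv_one, one_mul] at this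
  rw [← this, eq_comm]
  rfl

end Restrict

section Gen

variable [hp : Fact p.Prime] (D : ptn_LevelData 𝓛 ρC p)

/-- the Sylow set-up over a level `N ≤ U` -/
lemma ptn_exists_sylow_over (U : Subgroup G) (hU : 𝓛.IsOpen U) {N : Subgroup G} (hN : N ∈ 𝓛.lev)
    (hNU : N ≤ U) : ∃ P' : Subgroup U, N.subgroupOf U ≤ P' ∧ ¬ p ∣ P'.index ∧
      (∀ x ∈ P', ∃ k : ℕ, x ^ p ^ k ∈ N.subgroupOf U) ∧ (𝓛.sub U hU).IsOpen P' := by
  have := 𝓛.normal N hN
  have := 𝓛.finiteIndex N hN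
  obtain ⟨P', h1, h2, h3⟩ := ptn_exists_sylow (N.subgroupOf U) p
  exact ⟨P', h1, h2, h3, ⟨_, ⟨N, hN, hNU, rfl⟩, h1⟩⟩

/-- **Generation**: every level 2-cocycle of an open subgroup `U` whose class is killed by `p` is
cohomologous to a multiple of the restriction of a fundamental cocycle. -/
theorem ptn_gen (hd : ptd_IsDiscrete 𝓛 ρC) (U : Subgroup G) (hU : 𝓛.IsOpen U) (z : U × U → C)
    (hz : ptd_IsLZ2p (𝓛.sub U hU) (ptd_resRep ρC U) p z) :
    ∃ N ∈ 𝓛.lev, N ≤ U ∧ ∃ n : ℤ,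
      ptd_IsB2 (𝓛.sub U hU) (ptd_resRep ρC U) (z - n • ptd_res₂ U (D.U N)) := by
  obtain ⟨N, hN, hNU, hat⟩ := ptn_exists_at₂ hd hU hz.1.2
  obtain ⟨P', hNP, hidx, hPp, hP'⟩ := ptn_exists_sylow_over (p := p) U hU hN hNU
  have hfin : P'.FiniteIndex := ⟨fun h => hidx (h ▸ dvd_zero p)⟩
  set L := D.lvl N hN with hL
  -- apply `h2gen` to the restriction of `z` to `P'`
  have hZ : ptd_IsZ2 (ρC.comp (ptn_jj U P')) (ptd_res₂ P' z) := fun g h j => hz.1.1 g h j
  have hfac : ∀ a b a' b' : P', L.π (ptn_jj U P' a) = L.π (ptn_jj U P' a') →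
      L.π (ptn_jj U P' b) = L.π (ptn_jj U P' b') →
      ptd_res₂ P' z (a, b) = ptd_res₂ P' z (a', b') := by
    intro a b a' b' ha hb
    rw [ptn_π_jj_eq_iff] at ha hb
    have h1 := hat.1 a b (a⁻¹ * a' : P') (b⁻¹ * b' : P') ha hb
    simp only [ptd_res₂_apply]
    rw [← h1]
    congr 2 <;> simp
  have hinv : ∀ x, ∀ n ∈ N, ρC n (ptd_res₂ P' z x) = ptd_res₂ P' z x := fun x n hn => hat.2 _ n hn
  obtain ⟨n₀, ψ, hψfac, -, hψ⟩ := L.h2gen (ptn_isPGroup_range L hPp) hZ hfac hinv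
  -- `z' = z - n₀ • res u` restricts to a level coboundary on `P'`
  have hz' : ptd_IsLZ2 (𝓛.sub U hU) (ptd_resRep ρC U) (z - n₀ • ptd_res₂ U (D.U N)) :=
    hz.1.sub (ptn_isLZ2_zsmul (ptd_isLZ2_res₂ U hU ρC (D.U_isLZ2 hN)) n₀)
  have hres : ptd_IsB2 ((𝓛.sub U hU).sub P' hP') (ptd_resRep (ptd_resRep ρC U) P')
      (ptd_res₂ P' (z - n₀ • ptd_res₂ U (D.U N))) := by
    refine ⟨ψ, ⟨_, ⟨N.subgroupOf U, ⟨N, hN, hNU, rfl⟩, hNP, rfl⟩, fun g n hn => ?_⟩, ?_⟩
    · apply hψfac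
      rw [ptn_π_jj_eq_iff]
      have : ((n : U) : G) ∈ N := Subgroup.mem_subgroupOf.mp (Subgroup.mem_subgroupOf.mp hn)
      simpa using this
    · rw [D.U_eq hN]
      exact hψ
  have h1 : ptd_IsB2 (𝓛.sub U hU) (ptd_resRep ρC U)
      (P'.index • (z - n₀ • ptd_res₂ U (D.U N))) := by
    have := (ptd_cor₂_res_sub_isB2 P' hP' (ptd_resRep ρC U) hz').add
      (ptd_isB2_cor₂ P' hP' (ptd_resRep ρC U) hres)
    simpa using this
  -- Bezout
  have hcop : Nat.Coprime P'.index p :=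
    ((Nat.Prime.coprime_iff_not_dvd hp.out).mpr hidx).symm
  have hbez : (P'.index : ℤ) * Nat.gcdA P'.index p + (p : ℤ) * Nat.gcdB P'.index p = 1 := by
    have := Nat.gcd_eq_gcd_ab P'.index p
    rw [hcop.gcd_eq_one] at this
    rw [← this]; simp
  refine ⟨N, hN, hNU, (P'.index : ℤ) * Nat.gcdA P'.index p * n₀, ?_⟩
  have h2 := (h1.zsmul (Nat.gcdA P'.index p)).add (hz.2.zsmul (Nat.gcdB P'.index p))
  have h3 : Nat.gcdA P'.index p • P'.index • (z - n₀ • ptd_res₂ U (D.U N)) +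
      Nat.gcdB P'.index p • p • z =
      z - ((P'.index : ℤ) * Nat.gcdA P'.index p * n₀) • ptd_res₂ U (D.U N) := by
    funext x
    simp only [Pi.add_apply, Pi.sub_apply, Pi.smul_apply]
    have h4 : z x =
        ((P'.index : ℤ) * Nat.gcdA P'.index p + (p : ℤ) * Nat.gcdB P'.index p) • z x := by
      rw [hbez, one_smul]
    conv_rhs => rw [h4]
    rw [← natCast_zsmul _ P'.index, ← natCast_zsmul (z x) p]
    module
  rwa [h3] at h2

end Gen

end Fermat.Agent.Lib.PT
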