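/-
S55 (Poitou–Tate long haul), bridge "finite levels ⇒ big model", part II-C: order of the
fundamental classes, torsion, and `H¹ = 0` (helper3's `F1`) in the big model.
-/
import Fermat.Agent.Lib.PT.BrgLevB

set_option autoImplicit false

namespace Fermat.Agent.Lib.PT

/-- the arithmetic behind `ptn_ord` -/
lemma ptn_ord_arith (p : ℕ) [hp : Fact p.Prime] (n : ℤ) (m r d : ℕ) (hr : r ≠ 0) (hd : d ≠ 0)
    (hm : ¬ p ∣ m)
    (h : ((p ^ (r * d).factorization p : ℕ) : ℤ) ∣ n * m * r) :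
    ((p ^ d.factorization p : ℕ) : ℤ) ∣ n := by
  have h1 : p ^ (r * d).factorization p = p ^ r.factorization p * p ^ d.factorization p :=
    Nat.ordProj_mul p hr hd
  have h2 : p ^ r.factorization p * (r / p ^ r.factorization p) = r :=
    Nat.ordProj_mul_ordCompl_eq_self r p
  have h3 : ¬ p ∣ r / p ^ r.factorization p := Nat.not_dvd_ordCompl hp.out hr
  rw [h1] at h
  generalize p ^ r.factorization p = R at h h2 h3
  generalize r / R = r₀ at h2 h3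
  subst h2
  have hR0 : R ≠ 0 := fun h0 => hr (by rw [h0, zero_mul])
  have h4 : ((p ^ d.factorization p : ℕ) : ℤ) ∣ n * ((m * r₀ : ℕ) : ℤ) := by
    have hRz : (R : ℤ) ≠ 0 := by exact_mod_cast hR0
    have h5 : (R : ℤ) * ((p ^ d.factorization p : ℕ) : ℤ) ∣ (R : ℤ) * (n * ((m * r₀ : ℕ) : ℤ)) := by
      have : (R : ℤ) * (n * ((m * r₀ : ℕ) : ℤ)) = n * m * ((R * r₀ : ℕ) : ℤ) := by
        push_cast; ring
      rw [this]
      exact_mod_cast h
    exact (mul_dvd_mul_iff_left hRz).mp h5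
  have hcop : IsCoprime ((p ^ d.factorization p : ℕ) : ℤ) ((m * r₀ : ℕ) : ℤ) := by
    rw [Nat.isCoprime_iff_coprime]
    apply Nat.Coprime.pow_left
    rw [Nat.Prime.coprime_iff_not_dvd hp.out]
    intro hdvd
    rcases (Nat.Prime.dvd_mul hp.out).mp hdvd with h' | h'
    · exact hm h'
    · exact h3 h'
  exact hcop.dvd_of_dvd_mul_right h4

variable {G : Type*} [Group G] {C : Type*} [AddCommGroup C]
variable {𝓛 : ptd_Levels G} {ρC : Representation ℤ G C} {p : ℕ} [hp : Fact p.Prime]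
variable (D : ptn_LevelData 𝓛 ρC p)

/-- the restriction to `U` of a cochain of `G` living at the level `N` -/
lemma ptn_at₁_res₁ (U : Subgroup G) {N : Subgroup G} {ψ : G → C}
    (h1 : ∀ g, ∀ n ∈ N, ψ (g * n) = ψ g) (h2 : ∀ g, ∀ n ∈ N, ρC n (ψ g) = ψ g) :
    ptn_At₁ U N ρC (ptd_res₁ U ψ) :=
  ⟨fun a n hn => h1 a n hn, fun x n hn => h2 x n hn⟩

/-- **Order**: if `n • res_U u_N` is a level coboundary on the open subgroup `U ⊇ N` then the
`p`-part of `[U : N]` divides `n`. -/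
theorem ptn_ord (hd : ptd_IsDiscrete 𝓛 ρC) (U : Subgroup G) (hU : 𝓛.IsOpen U) {N : Subgroup G}
    (hN : N ∈ 𝓛.lev) (hNU : N ≤ U) (n : ℤ)
    (h : ptd_IsB2 (𝓛.sub U hU) (ptd_resRep ρC U) (n • ptd_res₂ U (D.U N))) :
    ((p ^ (N.relIndex U).factorization p : ℕ) : ℤ) ∣ n := by
  obtain ⟨ψ₀, hψ₀lev, hψ₀⟩ := h
  obtain ⟨N₁, hN₁, hN₁U, hat₁⟩ := ptn_exists_at₁ hd hU hψ₀lev
  obtain ⟨N₂, hN₂, hle⟩ := 𝓛.directed N hN N₁ hN₁
  have hN₂N : N₂ ≤ N := hle.trans inf_le_left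
  have hN₂U : N₂ ≤ U := hN₂N.trans hNU
  obtain ⟨m, hm, ψ', hψ'1, hψ'2, hψ'⟩ := D.compat N hN N₂ hN₂ hN₂N
  set L₂ := D.lvl N₂ hN₂ with hL₂
  rw [D.U_eq hN] at hψ₀
  set r := N₂.relIndex N with hr
  -- the cochain whose coboundary is `(n m r) • res u_{N₂}`
  have hat₂ : ptn_At₁ U N₂ ρC (m • ψ₀ - n • ptd_res₁ U ψ') :=
    ((hat₁.mono (hle.trans inf_le_right)).nsmul m).sub ((ptn_at₁_res₁ U hψ'1 hψ'2).zsmul n)
  have heq : (n * m * r) • ptd_res₂ U L₂.bigU =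
      ptd_d1 (ptd_resRep ρC U) (m • ψ₀ - n • ptd_res₁ U ψ') := by
    rw [ptd_d1_sub, ptd_d1_nsmul, ptd_d1_zsmul, ← hψ₀, ← ptd_res₂_d1, ← hψ']
    funext x
    simp only [Pi.smul_apply, Pi.sub_apply, ptd_res₂, smul_sub, natCast_zsmul, mul_smul]
    rw [smul_comm m n]
    abel
  obtain ⟨P', hNP, hidx, hPp, hP'⟩ := ptn_exists_sylow_over (p := p) U hU hN₂ hN₂U
  -- restrict to `P'` and apply `h2ord`
  have hfac : ∀ a a' : P', L₂.π (ptn_jj U P' a) = L₂.π (ptn_jj U P' a') →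
      (m • ψ₀ - n • ptd_res₁ U ψ') a = (m • ψ₀ - n • ptd_res₁ U ψ') a' := by
    intro a a' ha
    rw [ptn_π_jj_eq_iff] at ha
    have h1 := hat₂.1 a (a⁻¹ * a' : P') ha
    rw [← h1]
    simp
  have hdvd := L₂.h2ord (j := ptn_jj U P') (ptn_isPGroup_range L₂ hPp) (n * m * r)
    (ψ := fun a => (m • ψ₀ - n • ptd_res₁ U ψ') a) hfac (fun a n hn => hat₂.2 a n hn)
    (by
      funext x
      exact congrFun heq (x.1, x.2))
  rw [ptn_card_range] at hdvd
  -- arithmetic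
  have hd₂ : (N₂.subgroupOf U).relIndex P' * P'.index = N₂.relIndex U :=
    Subgroup.relIndex_mul_index hNP
  have hrd : r * N.relIndex U = N₂.relIndex U := Subgroup.relIndex_mul_relIndex _ _ _ hN₂N hNU
  have hfinN : N.FiniteIndex := 𝓛.finiteIndex N hN
  have hfinN₂ : N₂.FiniteIndex := 𝓛.finiteIndex N₂ hN₂
  have hd0 : N.relIndex U ≠ 0 := fun h0 => hfinN.index_ne_zero (by
    rw [← Subgroup.relIndex_mul_index hNU, h0, zero_mul])
  have hd₂0 : N₂.relIndex U ≠ 0 := fun h0 => hfinN₂.index_ne_zero (by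
    rw [← Subgroup.relIndex_mul_index hN₂U, h0, zero_mul])
  have hr0 : r ≠ 0 := fun h0 => hd₂0 (by rw [← hrd, h0, zero_mul])
  have hproj : p ^ (r * N.relIndex U).factorization p ∣ (N₂.subgroupOf U).relIndex P' := by
    rw [hrd]
    have h1 : p ^ (N₂.relIndex U).factorization p ∣ (N₂.subgroupOf U).relIndex P' * P'.index := by
      rw [hd₂]; exact Nat.ordProj_dvd _ _
    exact (Nat.Coprime.pow_left _
      ((Nat.Prime.coprime_iff_not_dvd hp.out).mpr hidx)).dvd_of_dvd_mul_right h1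
  apply ptn_ord_arith p n m r (N.relIndex U) hr0 hd0 hm
  exact (Int.natCast_dvd_natCast.mpr hproj).trans hdvd

omit hp in
/-- **Torsion**: `[U : N]` kills the class of `res_U u_N`. -/
theorem ptn_tors (U : Subgroup G) (hU : 𝓛.IsOpen U) {N : Subgroup G} (hN : N ∈ 𝓛.lev)
    (hNU : N ≤ U) :
    ptd_IsB2 (𝓛.sub U hU) (ptd_resRep ρC U) ((N.relIndex U) • ptd_res₂ U (D.U N)) := by
  have := 𝓛.normal N hN
  have := 𝓛.finiteIndex N hN
  rw [D.U_eq hN]
  set L := D.lvl N hN with hL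
  have hz : ptd_IsZ2 (ptd_resRep ρC U) (ptd_res₂ U L.bigU) := fun g h j => L.bigU_isZ2 g h j
  have hinv : ∀ g h : U, ∀ n ∈ N.subgroupOf U,
      ptd_res₂ U L.bigU (g, h * n) = ptd_res₂ U L.bigU (g, h) := by
    intro g h n hn
    have := L.bigU_mul_right (g : G) (h : G) (one_mem N) (Subgroup.mem_subgroupOf.mp hn)
    simpa using this
  have h := ptn_index_smul_eq_d1 (ptd_resRep ρC U) (N.subgroupOf U) hz hinv
  refine ⟨_, ⟨_, ⟨N, hN, hNU, rfl⟩, fun g n hn => ?_⟩, h⟩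
  refine Finset.sum_congr rfl fun q _ => ?_
  have := L.bigU_mul_right (g : G) ((Quotient.out q : U) : G) (Subgroup.mem_subgroupOf.mp hn)
    (one_mem N)
  simpa using this

include D in
/-- **`H¹ = 0` on classes killed by `p`** for every open subgroup. -/
theorem ptn_F1' (hd : ptd_IsDiscrete 𝓛 ρC) (U : Subgroup G) (hU : 𝓛.IsOpen U) (φ : U → C)
    (hφ : ptd_IsLZ1 (𝓛.sub U hU) (ptd_resRep ρC U) φ)
    (hpφ : ptd_IsB1 (ptd_resRep ρC U) (p • φ)) : ptd_IsB1 (ptd_resRep ρC U) φ := by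
  obtain ⟨N, hN, hNU, hat⟩ := ptn_exists_at₁ hd hU hφ.2
  obtain ⟨P', hNP, hidx, hPp, hP'⟩ := ptn_exists_sylow_over (p := p) U hU hN hNU
  have hfin : P'.FiniteIndex := ⟨fun h => hidx (h ▸ dvd_zero p)⟩
  set L := D.lvl N hN with hL
  have hZ : ptd_IsZ1 (ρC.comp (ptn_jj U P')) (ptd_res₁ P' φ) := fun g h => hφ.1 g h
  have hfac : ∀ a a' : P', L.π (ptn_jj U P' a) = L.π (ptn_jj U P' a') →
      ptd_res₁ P' φ a = ptd_res₁ P' φ a' := by
    intro a a' ha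
    rw [ptn_π_jj_eq_iff] at ha
    have h1 := hat.1 a (a⁻¹ * a' : P') ha
    simp only [ptd_res₁_apply]
    rw [← h1]
    congr 1
    simp
  have hres := L.h1 (ptn_isPGroup_range L hPp) hZ hfac (fun a n hn => hat.2 a n hn)
  exact ptn_isB1_of_res P' (ptd_resRep ρC U) ((Nat.Prime.coprime_iff_not_dvd hp.out).mpr hidx)
    hφ.1 hpφ hres

include D in
/-- **helper3's `F1`** for every open subgroup: a level 1-cocycle with `p`-torsion values is a
coboundary. -/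
theorem ptn_F1 (hd : ptd_IsDiscrete 𝓛 ρC) (U : Subgroup G) (hU : 𝓛.IsOpen U) (φ : U → C)
    (hφ : ptd_IsLZ1 (𝓛.sub U hU) (ptd_resRep ρC U) φ) (hp0 : ∀ g, p • φ g = 0) :
    ptd_IsB1 (ptd_resRep ρC U) φ := by
  refine ptn_F1' D hd U hU φ hφ ⟨0, ?_⟩
  funext g
  simp [hp0 g]

end Fermat.Agent.Lib.PT
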