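/-
S55 (Poitou–Tate long haul), bridge "finite levels ⇒ big model", part II-D: ASSEMBLY.

From level data `D : ptn_LevelData 𝓛 ρC p` (presented levels with class modules at `p`, compatible
fundamental cocycles) and discreteness of `C`, we obtain for every open subgroup `U`

* `ptn_invU D hd U hU : ptd_Inv (𝓛.sub U hU) (ptd_resRep ρC U) (ptn_T p) p`, with the evaluation
  rule `ptn_invU_eq`, the normalisation `ptn_invU_res_u` and injectivity `ptn_invU_eq_zero_iff`;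
* `ptn_invG D hd : ptd_Inv 𝓛 ρC (ptn_T p) p` (`= inv_⊤ ∘ res`), `ptn_invG_eq`;
* `ptn_hcor` : `inv_G (cor y) = inv_U y` (the hypothesis `hcor` of helper3's `ptd_nondegH2`,
  `ptd_nondegHom`);
* `ptn_invU_res` : `inv_U (res z) = [G : U] • inv_G z`.
(`ptn_F1` is in `BrgLevC`.)
-/
import Fermat.Agent.Lib.PT.BrgLevC

set_option autoImplicit false

namespace Fermat.Agent.Lib.PT

section CorAux

variable {G : Type*} [Group G] (U : Subgroup G) [U.FiniteIndex]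
variable {k : Type*} [CommRing k] {A : Type*} [AddCommGroup A] [Module k A]
variable (ρ : Representation k G A)

lemma ptn_cor₂_zero : ptd_cor₂ U ρ (0 : U × U → A) = 0 := by
  have := ptd_cor₂_nsmul U ρ 0 (0 : U × U → A)
  simpa using this

lemma ptn_cor₂_neg (y : U × U → A) : ptd_cor₂ U ρ (-y) = -ptd_cor₂ U ρ y := by
  have h := ptd_cor₂_add U ρ y (-y)
  rw [add_neg_cancel, ptn_cor₂_zero] at h
  exact eq_neg_of_add_eq_zero_right h.symm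

lemma ptn_cor₂_sub (y y' : U × U → A) :
    ptd_cor₂ U ρ (y - y') = ptd_cor₂ U ρ y - ptd_cor₂ U ρ y' := by
  rw [sub_eq_add_neg, ptd_cor₂_add, ptn_cor₂_neg, ← sub_eq_add_neg]

lemma ptn_cor₂_zsmul (n : ℤ) (y : U × U → A) : ptd_cor₂ U ρ (n • y) = n • ptd_cor₂ U ρ y := by
  obtain ⟨m, rfl | rfl⟩ := Int.eq_nat_or_neg n
  · rw [natCast_zsmul, natCast_zsmul, ptd_cor₂_nsmul]
  · rw [neg_smul, neg_smul, natCast_zsmul, natCast_zsmul, ptn_cor₂_neg, ptd_cor₂_nsmul]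

end CorAux

section TopAux

variable {G : Type*} [Group G] {𝓛 : ptd_Levels G}
variable {k : Type*} [CommRing k] {A : Type*} [AddCommGroup A] [Module k A]
variable {ρ : Representation k G A}

lemma ptn_isLZ2p_res₂ (U : Subgroup G) (hU : 𝓛.IsOpen U) {p : ℕ} {z : G × G → A}
    (hz : ptd_IsLZ2p 𝓛 ρ p z) : ptd_IsLZ2p (𝓛.sub U hU) (ptd_resRep ρ U) p (ptd_res₂ U z) :=
  ⟨ptd_isLZ2_res₂ U hU ρ hz.1, ptd_isB2_res₂ U hU ρ hz.2⟩

/-- a level coboundary on `⊤` is a level coboundary on `G` -/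
lemma ptn_isB2_of_res₂_top {w : G × G → A}
    (h : ptd_IsB2 (𝓛.sub ⊤ 𝓛.isOpen_top) (ptd_resRep ρ ⊤) (ptd_res₂ ⊤ w)) : ptd_IsB2 𝓛 ρ w := by
  obtain ⟨ψ, ⟨_, ⟨N, hN, -, rfl⟩, hψlev⟩, hψ⟩ := h
  refine ⟨fun g => ψ ⟨g, Subgroup.mem_top g⟩, ⟨N, hN, fun g n hn => ?_⟩, ?_⟩
  · exact hψlev ⟨g, Subgroup.mem_top g⟩ ⟨n, Subgroup.mem_top n⟩ (Subgroup.mem_subgroupOf.mpr hn)
  · funext ⟨g, h⟩
    exact congrFun hψ (⟨g, Subgroup.mem_top g⟩, ⟨h, Subgroup.mem_top h⟩)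

end TopAux

variable {G : Type*} [Group G] {C : Type*} [AddCommGroup C]
variable {𝓛 : ptd_Levels G} {ρC : Representation ℤ G C} {p : ℕ} [hp : Fact p.Prime]
variable (D : ptn_LevelData 𝓛 ρC p) (hd : ptd_IsDiscrete 𝓛 ρC)
variable (U : Subgroup G) (hU : 𝓛.IsOpen U)

/-- **The fundamental system of an open subgroup** attached to level data. -/
noncomputable def ptn_fundSys : ptn_FundSys (𝓛.sub U hU) (ptd_resRep ρC U) p where
  u N' := ptd_res₂ U (D.U (N'.map U.subtype))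
  isLZ2 := by
    rintro _ ⟨N, hN, hNU, rfl⟩
    rw [Subgroup.map_subgroupOf_eq_of_le hNU]
    exact ptd_isLZ2_res₂ U hU ρC (D.U_isLZ2 hN)
  compat := by
    rintro _ ⟨N, hN, hNU, rfl⟩ _ ⟨N₂, hN₂, hN₂U, rfl⟩ hle
    have hle' : N₂ ≤ N := fun x hx =>
      Subgroup.mem_subgroupOf.mp (hle (Subgroup.mem_subgroupOf.mpr (show ((⟨x, hN₂U hx⟩ : U) : G) ∈ N₂
        from hx)))
    obtain ⟨m, hm, ψ, hψ1, -, hψ⟩ := D.compat N hN N₂ hN₂ hle'
    refine ⟨m, hm, ?_⟩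
    rw [Subgroup.map_subgroupOf_eq_of_le hNU, Subgroup.map_subgroupOf_eq_of_le hN₂U,
      Subgroup.relIndex_subgroupOf hNU, D.U_eq hN, D.U_eq hN₂]
    have hB : ptd_IsB2 𝓛 ρC
        (m • ((D.lvl N hN).bigU - N₂.relIndex N • (D.lvl N₂ hN₂).bigU)) :=
      ⟨ψ, ⟨N₂, hN₂, hψ1⟩, hψ⟩
    exact ptd_isB2_res₂ U hU ρC hB
  gen := by
    intro z hz
    obtain ⟨N, hN, hNU, n, hB⟩ := ptn_gen D hd U hU z hz
    refine ⟨_, ⟨N, hN, hNU, rfl⟩, n, ?_⟩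
    rw [Subgroup.map_subgroupOf_eq_of_le hNU]
    exact hB
  ord := by
    rintro _ ⟨N, hN, hNU, rfl⟩ n hB
    rw [Subgroup.map_subgroupOf_eq_of_le hNU] at hB
    exact ptn_ord D hd U hU hN hNU n hB
  tors := by
    rintro _ ⟨N, hN, hNU, rfl⟩
    rw [Subgroup.map_subgroupOf_eq_of_le hNU]
    exact ptn_tors D U hU hN hNU

/-- **The invariant map of an open subgroup.** -/
noncomputable def ptn_invU : ptd_Inv (𝓛.sub U hU) (ptd_resRep ρC U) (ptn_T p) p :=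
  ptn_inv (ptn_fundSys D hd U hU)

variable {U}

/-- **Evaluation rule**: if `m • y - n • res_U u_N` is a level coboundary with `p ∤ m` then
`inv_U y = n / (m [U : N])`. -/
theorem ptn_invU_eq {N : Subgroup G} (hN : N ∈ 𝓛.lev) (hNU : N ≤ U) {y : U × U → C} {n : ℤ}
    {m : ℕ} (hm : ¬ p ∣ m)
    (h : ptd_IsB2 (𝓛.sub U hU) (ptd_resRep ρC U) (m • y - n • ptd_res₂ U (D.U N))) :
    ptn_invU D hd U hU y = ptn_frac p n (m * N.relIndex U) := by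
  have hr : ptn_Rel (ptn_fundSys D hd U hU) y (N.subgroupOf U) n m := by
    refine ⟨⟨N, hN, hNU, rfl⟩, hm, ?_⟩
    show ptd_IsB2 _ _ (m • y - n • ptd_res₂ U (D.U ((N.subgroupOf U).map U.subtype)))
    rw [Subgroup.map_subgroupOf_eq_of_le hNU]
    exact h
  exact ptn_invFun_eq hr

/-- **Normalisation**: `inv_U (res_U u_N) = 1 / [U : N]`. -/
theorem ptn_invU_res_u {N : Subgroup G} (hN : N ∈ 𝓛.lev) (hNU : N ≤ U) :
    ptn_invU D hd U hU (ptd_res₂ U (D.U N)) = ptn_frac p 1 (N.relIndex U) := by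
  have h := ptn_invU_eq D hd hU hN hNU (y := ptd_res₂ U (D.U N)) (n := 1) (m := 1)
    (by simpa using hp.out.one_lt.ne') (by simpa using ptd_isB2_zero)
  rw [h, one_mul]

/-- **Injectivity** of the invariant on classes killed by `p`. -/
theorem ptn_invU_eq_zero_iff {y : U × U → C}
    (hy : ptd_IsLZ2p (𝓛.sub U hU) (ptd_resRep ρC U) p y) :
    ptn_invU D hd U hU y = 0 ↔ ptd_IsB2 (𝓛.sub U hU) (ptd_resRep ρC U) y :=
  ptn_inv_eq_zero_iff (ptn_fundSys D hd U hU) hy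

variable (U)

/-- **The invariant map of the big group** `= inv_⊤ ∘ res`. -/
noncomputable def ptn_invG : ptd_Inv 𝓛 ρC (ptn_T p) p where
  toFun z := ptn_invU D hd ⊤ 𝓛.isOpen_top (ptd_res₂ ⊤ z)
  map_add' _ _ hz hz' :=
    (ptn_invU D hd ⊤ 𝓛.isOpen_top).map_add' _ _ (ptn_isLZ2p_res₂ ⊤ 𝓛.isOpen_top hz)
      (ptn_isLZ2p_res₂ ⊤ 𝓛.isOpen_top hz')
  map_b2' _ hz := (ptn_invU D hd ⊤ 𝓛.isOpen_top).map_b2' _ (ptd_isB2_res₂ ⊤ 𝓛.isOpen_top ρC hz)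

/-- **Evaluation rule** for the big group. -/
theorem ptn_invG_eq {N : Subgroup G} (hN : N ∈ 𝓛.lev) {z : G × G → C} {n : ℤ} {m : ℕ}
    (hm : ¬ p ∣ m) (h : ptd_IsB2 𝓛 ρC (m • z - n • D.U N)) :
    ptn_invG D hd z = ptn_frac p n (m * N.index) := by
  have h1 := ptn_invU_eq D hd 𝓛.isOpen_top hN le_top hm (y := ptd_res₂ ⊤ z) (n := n)
    (ptd_isB2_res₂ ⊤ 𝓛.isOpen_top ρC h)
  rw [Subgroup.relIndex_top_right] at h1
  exact h1

theorem ptn_invG_eq_zero_iff {z : G × G → C} (hz : ptd_IsLZ2p 𝓛 ρC p z) :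
    ptn_invG D hd z = 0 ↔ ptd_IsB2 𝓛 ρC z := by
  refine (ptn_invU_eq_zero_iff D hd 𝓛.isOpen_top (ptn_isLZ2p_res₂ ⊤ 𝓛.isOpen_top hz)).trans
    ⟨ptn_isB2_of_res₂_top, ptd_isB2_res₂ ⊤ 𝓛.isOpen_top ρC⟩

/-- **`inv_G ∘ cor = inv_U`** on level cocycles of `U` whose class is killed by `p`: the hypothesis
`hcor` of helper3's `ptd_nondegH2` and `ptd_nondegHom`. -/
theorem ptn_hcor [U.FiniteIndex] (y : U × U → C)
    (hy : ptd_IsLZ2p (𝓛.sub U hU) (ptd_resRep ρC U) p y) :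
    ptn_invG D hd (ptd_cor₂ U ρC y) = ptn_invU D hd U hU y := by
  obtain ⟨N, hN, hNU, n, hB⟩ := ptn_gen D hd U hU y hy
  have h1 : ptn_invU D hd U hU y = ptn_frac p n (1 * N.relIndex U) :=
    ptn_invU_eq D hd hU hN hNU (by simpa using hp.out.one_lt.ne') (by simpa using hB)
  have hB1 := ptd_isB2_cor₂ U hU ρC hB
  rw [ptn_cor₂_sub, ptn_cor₂_zsmul] at hB1
  have hB2 := ptd_cor₂_res_sub_isB2 U hU ρC (D.U_isLZ2 hN)
  have hB3 := hB1.sub (hB2.zsmul n)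
  have h2 : ptd_cor₂ U ρC y - n • ptd_cor₂ U ρC (ptd_res₂ U (D.U N)) -
      n • (U.index • D.U N - ptd_cor₂ U ρC (ptd_res₂ U (D.U N))) =
      1 • ptd_cor₂ U ρC y - (n * U.index) • D.U N := by
    funext x
    simp only [Pi.sub_apply, Pi.smul_apply, smul_sub, mul_smul, natCast_zsmul, one_smul]
    abel
  rw [h2] at hB3
  rw [ptn_invG_eq D hd hN (by simpa using hp.out.one_lt.ne') hB3, h1,
    ← Subgroup.relIndex_mul_index hNU, ← mul_assoc]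
  exact ptn_frac_mul_right n (1 * N.relIndex U) U.index (Subgroup.FiniteIndex.index_ne_zero)

include hd hU in
/-- every level 2-cocycle of `G` whose class is killed by `p` is cohomologous to a multiple of a
fundamental cocycle of a level contained in any given open subgroup, up to prime-to-`p` torsion -/
theorem ptn_gen_le (z : G × G → C) (hz : ptd_IsLZ2p 𝓛 ρC p z) :
    ∃ N ∈ 𝓛.lev, N ≤ U ∧ ∃ (n : ℤ) (m : ℕ), ¬ p ∣ m ∧ ptd_IsB2 𝓛 ρC (m • z - n • D.U N) := by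
  obtain ⟨N₀, hN₀, -, n₀, hB₀⟩ := ptn_gen D hd ⊤ 𝓛.isOpen_top _ (ptn_isLZ2p_res₂ ⊤ 𝓛.isOpen_top hz)
  have hB₀' : ptd_IsB2 𝓛 ρC (z - n₀ • D.U N₀) := ptn_isB2_of_res₂_top hB₀
  obtain ⟨N₁, hN₁, hN₁U⟩ := hU
  obtain ⟨N, hN, hle⟩ := 𝓛.directed N₀ hN₀ N₁ hN₁
  obtain ⟨m, hm, ψ, hψ1, -, hψ⟩ := D.compat N₀ hN₀ N hN (hle.trans inf_le_left)
  refine ⟨N, hN, (hle.trans inf_le_right).trans hN₁U, n₀ * (m * N.relIndex N₀ : ℕ), m, hm, ?_⟩
  have hB : ptd_IsB2 𝓛 ρC (m • (D.U N₀ - N.relIndex N₀ • D.U N)) := by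
    rw [D.U_eq hN₀, D.U_eq hN]
    exact ⟨ψ, ⟨N, hN, hψ1⟩, hψ⟩
  have h1 := (hB₀'.nsmul m).add (hB.zsmul n₀)
  have h2 : m • (z - n₀ • D.U N₀) + n₀ • m • (D.U N₀ - N.relIndex N₀ • D.U N) =
      m • z - (n₀ * (m * N.relIndex N₀ : ℕ)) • D.U N := by
    funext x
    simp only [Pi.add_apply, Pi.sub_apply, Pi.smul_apply, smul_sub, mul_smul, Nat.cast_mul,
      natCast_zsmul]
    rw [smul_comm m n₀ (D.U N₀ x)]
    abel
  rwa [h2] at h1

/-- **`inv_U ∘ res = [G : U] • inv_G`** on level cocycles of `G` whose class is killed by `p`. -/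
theorem ptn_invU_res [U.FiniteIndex] (z : G × G → C) (hz : ptd_IsLZ2p 𝓛 ρC p z) :
    ptn_invU D hd U hU (ptd_res₂ U z) = U.index • ptn_invG D hd z := by
  obtain ⟨N, hN, hNU, n, m, hm, hB⟩ := ptn_gen_le D hd U hU z hz
  rw [ptn_invG_eq D hd hN hm hB,
    ptn_invU_eq D hd hU hN hNU hm (y := ptd_res₂ U z) (n := n) (ptd_isB2_res₂ U hU ρC hB),
    ← Subgroup.relIndex_mul_index hNU, ← mul_assoc]
  exact (ptn_nsmul_frac n (m * N.relIndex U) U.index (Subgroup.FiniteIndex.index_ne_zero)).symm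

end Fermat.Agent.Lib.PT
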