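/-
S55 (Poitou–Tate long haul), A-track, cochain package (lead's ruling: (HOM), (PF)):

* `ptd_bock` for an arbitrary modulus `n ≠ 0`: `n · bock χ = d χ̃`, cocycle identity, levels;
* **(PF)** `ptd_cor₂_bockSmul`: for `b ∈ A^U` and a character `χ : G → ZMod n`,
  `cor (b · δ(χ|U)) = (N_{G/U} b) · δχ - d ψ` with an explicit level cochain `ψ`;
* **(HOM)** `ptd_cor₂_inhU`: for a `U`-equivariant homogeneous `2`-cocycle `F` on `G³`,
  `cor (F|_U) = inh (N_{G/U} F) - d ψ`, `ψ = N (prism F) (1, ·)`.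
-/
import Fermat.Agent.Lib.PT.AdtFull

set_option autoImplicit false
set_option linter.unusedSectionVars false

namespace Fermat.Agent.Lib.PT

section BockN

variable {G : Type*} [Group G] {n : ℕ} [NeZero n]

/-- `n · bock χ = d χ̃` for an arbitrary modulus `n ≠ 0` -/
lemma ptd_mul_bockN {χ : G → ZMod n} (hχ : ptd_IsChar χ) (g h : G) :
    (n : ℤ) * ptd_bock n χ (g, h) =
      ((χ h).val : ℤ) - ((χ (g * h)).val : ℤ) + ((χ g).val : ℤ) := by
  simp only [ptd_bock]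
  apply Int.mul_ediv_cancel'
  rw [← ZMod.intCast_zmod_eq_zero_iff_dvd]
  push_cast
  rw [ZMod.natCast_zmod_val, ZMod.natCast_zmod_val, ZMod.natCast_zmod_val, hχ g h]
  ring

/-- the Bockstein is an integral `2`-cocycle, arbitrary modulus -/
lemma ptd_bockN_cocycle {χ : G → ZMod n} (hχ : ptd_IsChar χ) (g h j : G) :
    ptd_bock n χ (g * h, j) + ptd_bock n χ (g, h) =
      ptd_bock n χ (h, j) + ptd_bock n χ (g, h * j) := by
  have hn : (n : ℤ) ≠ 0 := by exact_mod_cast NeZero.ne n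
  apply mul_left_cancel₀ hn
  rw [mul_add, mul_add, ptd_mul_bockN hχ, ptd_mul_bockN hχ, ptd_mul_bockN hχ, ptd_mul_bockN hχ,
    mul_assoc]
  ring

lemma ptd_isZ2_bockN {χ : G → ZMod n} (hχ : ptd_IsChar χ) :
    ptd_IsZ2 (Representation.trivial ℤ G ℤ) (ptd_bock n χ) := by
  intro g h j
  simp only [Representation.trivial_apply]
  exact ptd_bockN_cocycle hχ g h j

omit [NeZero n] in
lemma ptd_isLev₂_bockN {𝓛 : ptd_Levels G} {χ : G → ZMod n} (hlev : ptd_IsLev₁ 𝓛 χ) :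
    ptd_IsLev₂ 𝓛 (ptd_bock n χ) := by
  have hl : ptd_IsLev₁ 𝓛 (fun g => ((χ g).val : ℤ)) := hlev.comp (fun z : ZMod n => ((z.val : ℕ) : ℤ))
  have h1 : ptd_IsLev₂ 𝓛 (fun x : G × G => ((χ x.2).val : ℤ)) := hl.snd
  have h2 : ptd_IsLev₂ 𝓛 (fun x : G × G => ((χ (x.1 * x.2)).val : ℤ)) :=
    ptd_IsLev₁.mul (f := fun g => ((χ g).val : ℤ)) hl
  have h3 : ptd_IsLev₂ 𝓛 (fun x : G × G => ((χ x.1).val : ℤ)) := hl.fst
  exact ((h1.sub h2).add h3).comp (fun m : ℤ => m / (n : ℤ))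

omit [NeZero n] in
lemma ptd_bockN_res (U : Subgroup G) (χ : G → ZMod n) (x : U × U) :
    ptd_bock n (fun u : U => χ u) x = ptd_bock n χ ((x.1 : G), (x.2 : G)) := rfl

end BockN

section PF

variable {G : Type*} [Group G] (U : Subgroup G) [U.FiniteIndex]
variable {A : Type*} [AddCommGroup A] (ρ : Representation ℤ G A)
variable {n : ℕ} [NeZero n]

attribute [local instance] Subgroup.fintypeQuotientOfFiniteIndex

/-- the explicit cochain of (PF) -/
noncomputable def ptd_pfCochain (χ : G → ZMod n) (b : A) : G → A :=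
  ptd_projCochain U (Representation.trivial ℤ G ℤ) ρ (ptd_bock n χ) (zmultiplesHom A b)

/-- **(PF)**, cochain level: `cor (b · δ(χ|U)) = (N_{G/U} b) · δχ - d ψ`. -/
theorem ptd_cor₂_bockSmul {χ : G → ZMod n} (hχ : ptd_IsChar χ) {b : A}
    (hb : ∀ u ∈ U, ρ u b = b) :
    ptd_cor₂ U ρ (ptd_bockSmul n (fun u : U => χ u) b) =
      ptd_bockSmul n χ (∑ q : G ⧸ U, ρ q.out b) - ptd_d1 ρ (ptd_pfCochain U ρ χ b) := by
  have hf : ∀ u ∈ U, ∀ a : ℤ, (zmultiplesHom A b) (Representation.trivial ℤ G ℤ u a) =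
      ρ u ((zmultiplesHom A b) a) := fun u hu a => by
    simp only [Representation.trivial_apply, zmultiplesHom_apply, map_zsmul, hb u hu]
  have key := ptd_cor₂_comp_res U (Representation.trivial ℤ G ℤ) ρ (ptd_isZ2_bockN hχ)
    (zmultiplesHom A b) hf
  have e1 : (fun x => (zmultiplesHom A b) (ptd_res₂ U (ptd_bock n χ) x)) =
      ptd_bockSmul n (fun u : U => χ u) b := by
    funext ⟨u, v⟩
    simp only [ptd_res₂_apply, zmultiplesHom_apply, ptd_bockSmul]
    rfl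
  have e2 : (fun x => ptd_normHom U (Representation.trivial ℤ G ℤ) ρ (zmultiplesHom A b)
      (ptd_bock n χ x)) = ptd_bockSmul n χ (∑ q : G ⧸ U, ρ q.out b) := by
    funext x
    simp only [ptd_normHom, AddMonoidHom.finsetSum_apply, AddMonoidHom.comp_apply,
      LinearMap.toAddMonoidHom_coe, Representation.trivial_apply, zmultiplesHom_apply,
      map_zsmul, ptd_bockSmul, Finset.smul_sum]
  rw [e1, e2] at key
  exact key

variable {𝓛 : ptd_Levels G} (hU : 𝓛.IsOpen U)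

include hU in
lemma ptd_isLev₁_pfCochain {χ : G → ZMod n} (hlev : ptd_IsLev₁ 𝓛 χ) (b : A) :
    ptd_IsLev₁ 𝓛 (ptd_pfCochain U ρ χ b) :=
  ptd_isLev₁_projCochain U hU (Representation.trivial ℤ G ℤ) ρ (ptd_isLev₂_bockN hlev) _

include hU in
/-- **(PF)**, packaged: the difference is a level coboundary. -/
theorem ptd_cor₂_bockSmul_sub_isB2 {χ : G → ZMod n} (hχ : ptd_IsChar χ)
    (hlev : ptd_IsLev₁ 𝓛 χ) {b : A} (hb : ∀ u ∈ U, ρ u b = b) :
    ptd_IsB2 𝓛 ρ (ptd_bockSmul n χ (∑ q : G ⧸ U, ρ q.out b)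
      - ptd_cor₂ U ρ (ptd_bockSmul n (fun u : U => χ u) b)) := by
  refine ⟨ptd_pfCochain U ρ χ b, ptd_isLev₁_pfCochain U ρ hU hlev b, ?_⟩
  rw [ptd_cor₂_bockSmul U ρ hχ hb]
  abel

end PF

section HOM

variable {G : Type*} [Group G] (U : Subgroup G) [U.FiniteIndex]
variable {k : Type*} [CommRing k] {A : Type*} [AddCommGroup A] [Module k A]
variable (ρ : Representation k G A)

attribute [local instance] Subgroup.fintypeQuotientOfFiniteIndex

/-- the prism homotopy of a homogeneous `2`-cochain `F` on `G³` -/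
noncomputable def ptd_prismF (F : G × G × G → A) : G × G → A := fun x =>
  F ((ptd_retr U x.1 : G), x.1, x.2) - F ((ptd_retr U x.1 : G), (ptd_retr U x.2 : G), x.2)

/-- the inhomogeneous restriction to `U` of a homogeneous `2`-cochain on `G³` -/
def ptd_inhU (F : G × G × G → A) : U × U → A := fun y => F (1, (y.1 : G), (y.1 : G) * (y.2 : G))

variable {U ρ}

/-- the prism identity for a homogeneous cocycle (no equivariance needed) -/
lemma ptd_prismF_spec {F : G × G × G → A} (hD : ∀ a b c d, ptd_D₃ F (a, b, c, d) = 0)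
    (a b c : G) :
    F ((ptd_retr U a : G), (ptd_retr U b : G), (ptd_retr U c : G)) =
      F (a, b, c) - ptd_D₂ (ptd_prismF U F) (a, b, c) := by
  have e1 := hD (ptd_retr U a : G) a b c
  have e2 := hD (ptd_retr U a : G) (ptd_retr U b : G) b c
  have e3 := hD (ptd_retr U a : G) (ptd_retr U b : G) (ptd_retr U c : G) c
  simp only [ptd_D₃] at e1 e2 e3
  simp only [ptd_D₂, ptd_prismF]
  have e1' := sub_eq_zero.mp e1
  have e2' := sub_eq_zero.mp e2
  have e3' := sub_eq_zero.mp e3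
  rw [← e3', ← sub_eq_zero]
  rw [← e1']
  rw [← sub_eq_zero] at e2'
  rw [← e2']
  abel

lemma ptd_isEquivOn_prismF {F : G × G × G → A} (hF : ptd_IsEquivOn U ρ F) :
    ptd_IsEquivOn U ρ (ptd_prismF U F) := by
  rintro u hu ⟨a, b⟩
  simp only [ptd_prismF, Prod.smul_mk, smul_eq_mul, ptd_retr_mul_left' U u hu, Subgroup.coe_mul,
    map_sub]
  have h1 := hF u hu ((ptd_retr U a : G), a, b)
  have h2 := hF u hu ((ptd_retr U a : G), (ptd_retr U b : G), b)
  simp only [Prod.smul_mk, smul_eq_mul] at h1 h2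
  rw [h1, h2]

/-- the homogeneous extension of the inhomogeneous restriction of a `U`-equivariant `F` -/
lemma ptd_E₂_inhU {F : G × G × G → A} (hF : ptd_IsEquivOn U ρ F) (a b c : G) :
    ptd_E₂ U ρ (ptd_inhU U F) (a, b, c) =
      F ((ptd_retr U a : G), (ptd_retr U b : G), (ptd_retr U c : G)) := by
  simp only [ptd_E₂, ptd_ext₂, ptd_inhU]
  have := hF (ptd_retr U a : G) (ptd_retr U a).2
    (1, ((ptd_retr U a)⁻¹ * ptd_retr U b : U),
      (((ptd_retr U a)⁻¹ * ptd_retr U b : U) : G) * (((ptd_retr U b)⁻¹ * ptd_retr U c : U) : G))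
  rw [← this]
  congr 1
  simp only [Prod.smul_mk, smul_eq_mul, mul_one, Subgroup.coe_mul, Subgroup.coe_inv]
  congr 2 <;> group

/-- **(HOM)**, cochain level: `cor (F|_U) = inh (N F) - d ψ`. -/
theorem ptd_cor₂_inhU {F : G × G × G → A} (hF : ptd_IsEquivOn U ρ F)
    (hD : ∀ a b c d, ptd_D₃ F (a, b, c, d) = 0) :
    ptd_cor₂ U ρ (ptd_inhU U F) = ptd_inh₂ (ptd_N U ρ F)
      - ptd_d1 ρ (fun g => ptd_N U ρ (ptd_prismF U F) ((1, g) : G × G)) := by
  have hE : ptd_E₂ U ρ (ptd_inhU U F) = F - ptd_D₂ (ptd_prismF U F) := by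
    funext ⟨a, b, c⟩
    rw [ptd_E₂_inhU hF, ptd_prismF_spec hD]
    rfl
  funext ⟨g, h⟩
  rw [ptd_cor₂_eq, hE, ptd_N_sub, ptd_N_D₂]
  simp only [Pi.sub_apply, ptd_d1_apply, ptd_D₂, ptd_inh₂]
  have h2 : ((g, g * h) : G × G) = g • ((1, h) : G × G) := by
    simp [Prod.smul_mk]
  rw [h2, ptd_N_smul (ptd_isEquivOn_prismF hF)]

end HOM

end Fermat.Agent.Lib.PT
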