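/-
S55 (Poitou–Tate long haul), abstract class formation from an idelic invariant, SECOND VERSION
(ABS v2), part 4: the general case via Sylow subgroups and corestriction (as `AbsLift`, for
`ptn_AbsC`).  The lifts are GOOD cocycles: corestriction preserves good cocycles by helper3's
projection formula (PF) `ptd_cor₂_bockSmul`.
-/
import Fermat.Agent.Lib.PT.AbcPG
import Fermat.Agent.Lib.PT.AbsLift
import Fermat.Agent.Lib.PT.AdtCorF

set_option autoImplicit false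
set_option linter.unusedSectionVars false

namespace Fermat.Agent.Lib.PT

section NormFixed

variable {G : Type*} [Group G] (U : Subgroup G) [U.FiniteIndex]
variable {k : Type*} [CommRing k] {A : Type*} [AddCommGroup A] [Module k A]
variable (ρ : Representation k G A)

attribute [local instance] Subgroup.fintypeQuotientOfFiniteIndex

/-- the norm of a `U`-invariant element is `G`-invariant -/
lemma ptn_norm_fixed {b : A} (hb : ∀ u ∈ U, ρ u b = b) (g : G) :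
    ρ g (∑ q : G ⧸ U, ρ q.out b) = ∑ q : G ⧸ U, ρ q.out b := by
  rw [map_sum]
  have := ptd_sum_out_mul U (fun t => ρ t b) (fun t u hu => by
    simp only [map_mul, Module.End.mul_apply, hb u hu]) g
  simpa only [map_mul, Module.End.mul_apply] using this

end NormFixed

namespace ptn_AbsC

variable {G : Type*} [Group G] {J C : Type*} [AddCommGroup J] [AddCommGroup C]
variable {𝓛 : ptd_Levels G} {ρJ : Representation ℤ G J} {ρC : Representation ℤ G C}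
variable {p : ℕ} [hp : Fact p.Prime] (A : ptn_AbsC 𝓛 ρJ ρC p)

/-- the Sylow set-up over a level `N₀ ≤ U`, with the image `P` of `P'` in `G` -/
lemma sylow_setup (U : Subgroup G) (hU : 𝓛.IsOpen U) {N₀ : Subgroup G} (hN₀ : N₀ ∈ 𝓛.lev)
    (hN₀U : N₀ ≤ U) : ∃ P' : Subgroup U, ¬ p ∣ P'.index ∧ (𝓛.sub U hU).IsOpen P' ∧
      N₀ ≤ ptn_img U P' ∧ ∀ x ∈ ptn_img U P', ∃ j : ℕ, x ^ p ^ j ∈ N₀ := by
  obtain ⟨P', hNP, hidx, hPp, hP'⟩ := ptn_exists_sylow_over (p := p) U hU hN₀ hN₀U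
  refine ⟨P', hidx, hP', fun x hx => ⟨⟨x, hN₀U hx⟩, hNP (Subgroup.mem_subgroupOf.mpr hx), rfl⟩, ?_⟩
  rintro _ ⟨x, hx, rfl⟩
  obtain ⟨j, hj⟩ := hPp x hx
  exact ⟨j, by simpa using Subgroup.mem_subgroupOf.mp hj⟩

attribute [local instance] Subgroup.fintypeQuotientOfFiniteIndex

/-- corestriction of (the transport of) a good cocycle from a subgroup `P'` of `↥U` is good,
by the projection formula (PF) -/
lemma good_cor (U : Subgroup G) (hU : 𝓛.IsOpen U) (P' : Subgroup U)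
    (hP' : (𝓛.sub U hU).IsOpen P') [P'.FiniteIndex] (hPo : 𝓛.IsOpen (ptn_img U P'))
    {yP : ptn_img U P' × ptn_img U P' → J} (hyP : A.Good (ptn_img U P') hPo yP) :
    A.Good U hU (ptd_cor₂ P' (ptd_resRep ρJ U) (ptn_pull₂ U P' yP)) := by
  obtain ⟨k, a, ψ, ha, hψ, rfl⟩ := hyP
  have hb : ∀ u ∈ P', ptd_resRep ρJ U u a = a := fun u hu =>
    ha _ (Subgroup.mem_map_of_mem U.subtype hu)
  have hpull : ptn_pull₂ U P' (ptd_bockSmul (p ^ k) (fun u : ptn_img U P' => A.χ k u) a +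
      ptd_d1 (ptd_resRep ρJ (ptn_img U P')) ψ) =
      ptd_bockSmul (p ^ k) (fun x : P' => (fun u : U => A.χ k u) x) a +
        ptd_d1 (ptd_resRep (ptd_resRep ρJ U) P') (ptn_pull₁ U P' ψ) := rfl
  rw [hpull, ptd_cor₂_add, ptd_cor₂_bockSmul P' (ptd_resRep ρJ U)
    (ptn_isChar_res (A.χ_char k) U) hb, ptd_cor₂_d1]
  refine ⟨k, ∑ q : U ⧸ P', ptd_resRep ρJ U q.out a,
    ptd_cor₁ P' (ptd_resRep ρJ U) (ptn_pull₁ U P' ψ) -
      ptd_pfCochain P' (ptd_resRep ρJ U) (fun u : U => A.χ k u) a,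
    fun u hu => ptn_norm_fixed P' (ptd_resRep ρJ U) hb ⟨u, hu⟩,
    (ptd_isLev₁_cor₁ P' hP' (ptd_resRep ρJ U) (ptn_isLev₁_pull U P' hU hP' hPo hψ)).sub
      (ptd_isLev₁_pfCochain P' (ptd_resRep ρJ U) hP' ((A.χ_lev k).res U hU) a), ?_⟩
  rw [ptd_d1_sub]
  abel

/-- **Liftability**: every level 2-cocycle of an open subgroup `U` with values in `C` whose class
is killed by a power of `p` is cohomologous to the image of a `J`-valued level cocycle. -/
theorem exists_lift (U : Subgroup G) (hU : 𝓛.IsOpen U) {z : U × U → C}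
    (hz : ptd_IsLZ2 (𝓛.sub U hU) (ptd_resRep ρC U) z) (e : ℕ)
    (hze : ptd_IsB2 (𝓛.sub U hU) (ptd_resRep ρC U) (p ^ e • z)) :
    ∃ y : U × U → J, A.Good U hU y ∧
      ptd_IsB2 (𝓛.sub U hU) (ptd_resRep ρC U) ((fun x => A.π (y x)) - z) := by
  obtain ⟨N₀, hN₀, hN₀U, hat⟩ := ptn_exists_at₂ A.discC hU hz.2
  obtain ⟨P', hidx, hP', hN₀P, hpg⟩ := sylow_setup (p := p) U hU hN₀ hN₀U
  have hfin : P'.FiniteIndex := ⟨fun h => hidx (h ▸ dvd_zero p)⟩
  have hPo : 𝓛.IsOpen (ptn_img U P') := ptn_img_isOpen U P' hU hP'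
  have hPU := ptn_img_le U P'
  obtain ⟨yP, hyP, hyPz, -⟩ := A.pg_main (ptn_img U P') hPo N₀ hN₀ hN₀P hpg
    (ptn_isZ2_resLe ρC hPU hz.1) (hat.resLe hPU)
  -- transport to `P'`
  have hy' := ptn_isLZ2_pull U P' ρJ hU hP' hPo hyP.isLZ2
  have hb' : ptd_IsB2 ((𝓛.sub U hU).sub P' hP') (ptd_resRep (ptd_resRep ρC U) P')
      ((fun x => A.π (ptn_pull₂ U P' yP x)) - ptd_res₂ P' z) :=
    ptn_isB2_pull U P' ρC hU hP' hPo hyPz
  -- corestriction
  have hyU : ptd_IsLZ2 (𝓛.sub U hU) (ptd_resRep ρJ U)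
      (ptd_cor₂ P' (ptd_resRep ρJ U) (ptn_pull₂ U P' yP)) :=
    ptd_isLZ2_cor₂ P' hP' (ptd_resRep ρJ U) hy'
  have h1 : ptd_IsB2 (𝓛.sub U hU) (ptd_resRep ρC U)
      ((fun x => A.π (ptd_cor₂ P' (ptd_resRep ρJ U) (ptn_pull₂ U P' yP) x)) - P'.index • z) := by
    have hnat := ptd_cor₂_natural P' (ptd_resRep ρJ U) (ptd_resRep ρC U) A.π
      (fun g a => A.π_equiv g a) (ptn_pull₂ U P' yP)
    have h2 := ptd_isB2_cor₂ P' hP' (ptd_resRep ρC U) hb'
    have h3 := ptd_cor₂_res_sub_isB2 P' hP' (ptd_resRep ρC U) hz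
    rw [ptn_cor₂_sub] at h2
    have h4 := h2.sub h3
    rw [← hnat]
    convert h4 using 1
    abel
  have hcop : Nat.Coprime P'.index (p ^ e) :=
    Nat.Coprime.pow_right e ((Nat.Prime.coprime_iff_not_dvd hp.out).mpr hidx).symm
  have hbez : (P'.index : ℤ) * Nat.gcdA P'.index (p ^ e) +
      ((p ^ e : ℕ) : ℤ) * Nat.gcdB P'.index (p ^ e) = 1 := by
    have := Nat.gcd_eq_gcd_ab P'.index (p ^ e)
    rw [hcop.gcd_eq_one] at this
    rw [← this]; simp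
  refine ⟨Nat.gcdA P'.index (p ^ e) • ptd_cor₂ P' (ptd_resRep ρJ U) (ptn_pull₂ U P' yP),
    (A.good_cor U hU P' hP' hPo hyP).zsmul _, ?_⟩
  have h5 := (h1.zsmul (Nat.gcdA P'.index (p ^ e))).sub (hze.zsmul (Nat.gcdB P'.index (p ^ e)))
  convert h5 using 1
  funext x
  simp only [Pi.sub_apply, Pi.smul_apply, map_zsmul]
  have h6 : z x = ((P'.index : ℤ) * Nat.gcdA P'.index (p ^ e) +
      ((p ^ e : ℕ) : ℤ) * Nat.gcdB P'.index (p ^ e)) • z x := by rw [hbez, one_smul]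
  conv_lhs => rw [h6]
  rw [← natCast_zsmul (z x) P'.index, ← natCast_zsmul (z x) (p ^ e)]
  module

/-- **Injectivity** of the invariant on `p`-primary classes: a `J`-valued level cocycle `y` with
`INV_U y = 0` whose image in `C` has class killed by a power of `p` has image a level
coboundary. -/
theorem isB2_of_INV_eq_zero (U : Subgroup G) (hU : 𝓛.IsOpen U) {y : U × U → J}
    (hy : A.Good U hU y) (h0 : A.INV U y = 0) (e : ℕ)
    (hye : ptd_IsB2 (𝓛.sub U hU) (ptd_resRep ρC U) (p ^ e • fun x => A.π (y x))) :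
    ptd_IsB2 (𝓛.sub U hU) (ptd_resRep ρC U) (fun x => A.π (y x)) := by
  have hz := A.isLZ2_π U hU hy.isLZ2
  obtain ⟨N₀, hN₀, hN₀U, hat⟩ := ptn_exists_at₂ A.discC hU hz.2
  obtain ⟨P', hidx, hP', hN₀P, hpg⟩ := sylow_setup (p := p) U hU hN₀ hN₀U
  have hfin : P'.FiniteIndex := ⟨fun h => hidx (h ▸ dvd_zero p)⟩
  have hPo : 𝓛.IsOpen (ptn_img U P') := ptn_img_isOpen U P' hU hP'
  have hPU := ptn_img_le U P'
  obtain ⟨yP, hyP, hyPz, hinj⟩ := A.pg_main (ptn_img U P') hPo N₀ hN₀ hN₀P hpg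
    (ptn_isZ2_resLe ρC hPU hz.1) (hat.resLe hPU)
  have h1 : A.INV (ptn_img U P') yP = 0 := by
    rw [A.INV_congr (ptn_img U P') hPo hyP (hy.resLe hPo hPU) hyPz,
      A.INV_res U hU (ptn_img U P') hPo hPU y hy.isLZ2, h0, smul_zero]
  have h3 := ptn_isB2_pull U P' ρC hU hP' hPo (hinj h1)
  rw [ptn_pull₂_resLe] at h3
  have hcop : Nat.Coprime P'.index (p ^ e) :=
    Nat.Coprime.pow_right e ((Nat.Prime.coprime_iff_not_dvd hp.out).mpr hidx).symm
  exact ptd_isB2_of_res₂ P' hP' (ptd_resRep ρC U) hcop ⟨hz, hye⟩ h3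

include A in
/-- **`H¹ = 0` up to prime-to-`p` multiples**, for every open subgroup. -/
theorem F1_gen (U : Subgroup G) (hU : 𝓛.IsOpen U) {φ : U → C}
    (hφ : ptd_IsLZ1 (𝓛.sub U hU) (ptd_resRep ρC U) φ) :
    ∃ m : ℕ, ¬ p ∣ m ∧ ptd_IsB1 (ptd_resRep ρC U) (m • φ) := by
  obtain ⟨N₀, hN₀, hN₀U, hat⟩ := ptn_exists_at₁ A.discC hU hφ.2
  obtain ⟨P', hidx, hP', hN₀P, hpg⟩ := sylow_setup (p := p) U hU hN₀ hN₀U
  have hfin : P'.FiniteIndex := ⟨fun h => hidx (h ▸ dvd_zero p)⟩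
  have hPU := ptn_img_le U P'
  have hN₀n : N₀.Normal := 𝓛.normal N₀ hN₀
  have hZ : ptd_IsZ1 (ptd_resRep ρC (ptn_img U P')) (ptn_resLe₁ hPU φ) := fun g h => by
    have := hφ.1 (Subgroup.inclusion hPU g) (Subgroup.inclusion hPU h)
    simp only [ptn_resLe₁_apply, map_mul]
    exact this
  have hAt : ptn_At₁ (ptn_img U P') N₀ ρC (ptn_resLe₁ hPU φ) :=
    ⟨fun a n hn => by
      show φ (Subgroup.inclusion hPU (a * n)) = φ (Subgroup.inclusion hPU a)
      rw [map_mul]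
      exact hat.1 _ (Subgroup.inclusion hPU n) hn, fun x n hn => hat.2 _ n hn⟩
  obtain ⟨c, hc⟩ := A.G5_1 (ptn_img U P') N₀ (𝓛.isOpen_of_mem hN₀) hN₀P inferInstance hpg _ hZ hAt
  have hres : ptd_IsB1 (ptd_resRep (ptd_resRep ρC U) P') (ptd_res₁ P' φ) :=
    ⟨c, funext fun x => congrFun hc (ptn_toImg U P' x)⟩
  exact ⟨P'.index, hidx, ptn_index_smul_isB1 P' (ptd_resRep ρC U) hφ.1 hres⟩

end ptn_AbsC

end Fermat.Agent.Lib.PT
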