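/-
S55 (Poitou–Tate long haul), bridge: the `p`-torsion of `ptn_T p = ℚ / ℤ_(p)` is cyclic of order `p`
generated by `1/p` (`ptn_exists_frac_of_tors`, `ptn_T_tors_cyclic`), and the identification
`ptn_theta : ptn_T p → ZMod p`, additive and injective on the `p`-torsion, `k/p ↦ k`
(the input of helper4's `ptd_Inv.conv`).
-/
import Fermat.Agent.Lib.PT.BrgT

set_option autoImplicit false

namespace Fermat.Agent.Lib.PT

variable {p : ℕ} [hp : Fact p.Prime]

lemma ptn_frac_sub (n n' : ℤ) (d : ℕ) :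
    ptn_frac p (n - n') d = ptn_frac p n d - ptn_frac p n' d := by
  rw [sub_eq_add_neg, ptn_frac_add, ptn_frac_neg, ← sub_eq_add_neg]

/-- `k/p = k'/p` in `ℚ / ℤ_(p)` iff `k ≡ k' mod p` -/
lemma ptn_frac_p_eq_iff (k k' : ℤ) :
    ptn_frac p k p = ptn_frac p k' p ↔ (p : ℤ) ∣ k - k' := by
  rw [← sub_eq_zero, ← ptn_frac_sub, ptn_frac_eq_zero_iff _ _ hp.out.ne_zero,
    hp.out.factorization_self, pow_one]

lemma ptn_frac_p_eq_zero_iff (k : ℤ) : ptn_frac p k p = 0 ↔ (p : ℤ) ∣ k := by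
  rw [ptn_frac_eq_zero_iff _ _ hp.out.ne_zero, hp.out.factorization_self, pow_one]

lemma ptn_frac_one_ne_zero : ptn_frac p 1 p ≠ 0 := by
  rw [Ne, ptn_frac_p_eq_zero_iff]
  intro h
  have := Int.le_of_dvd one_pos h
  have h2 : (2 : ℤ) ≤ p := by exact_mod_cast hp.out.two_le
  omega

lemma ptn_smul_frac_p (k : ℤ) : p • ptn_frac p k p = 0 := ptn_smul_frac k p hp.out.ne_zero

/-- every `p`-torsion element of `ℚ / ℤ_(p)` is `k/p` -/
lemma ptn_exists_frac_of_tors (t : ptn_T p) (ht : p • t = 0) : ∃ k : ℕ, t = ptn_frac p k p := by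
  obtain ⟨q, rfl⟩ := QuotientAddGroup.mk_surjective t
  rw [← QuotientAddGroup.mk_nsmul, QuotientAddGroup.eq_zero_iff] at ht
  obtain ⟨m, hm, j, hj⟩ := ht
  have hcop : Nat.Coprime m p := ((Nat.Prime.coprime_iff_not_dvd hp.out).mpr hm).symm
  have hbez : (m : ℤ) * Nat.gcdA m p + (p : ℤ) * Nat.gcdB m p = 1 := by
    have := Nat.gcd_eq_gcd_ab m p
    rw [hcop.gcd_eq_one] at this
    rw [← this]; simp
  have hm0 : (m : ℚ) ≠ 0 := by
    have : m ≠ 0 := fun h0 => hm (h0 ▸ dvd_zero p)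
    exact_mod_cast this
  have hp0 : (p : ℚ) ≠ 0 := by exact_mod_cast hp.out.ne_zero
  -- `k₀ = j * a` with `a m + b p = 1`
  have key : (QuotientAddGroup.mk q : ptn_T p) = ptn_frac p (j * Nat.gcdA m p) p := by
    unfold ptn_frac
    rw [QuotientAddGroup.eq]
    refine ⟨m, hm, -(j * Nat.gcdB m p), ?_⟩
    have hq : q = (j : ℚ) / (m * p) := by
      rw [nsmul_eq_mul] at hj
      field_simp
      linear_combination hj
    have hbezQ : (m : ℚ) * (Nat.gcdA m p : ℤ) + (p : ℚ) * (Nat.gcdB m p : ℤ) = 1 := by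
      exact_mod_cast hbez
    rw [hq]
    push_cast
    field_simp
    linear_combination (j : ℚ) * hbezQ
  -- make it a natural number
  have hmod : (p : ℤ) ∣ j * Nat.gcdA m p - ((j * Nat.gcdA m p) % p) :=
    Int.dvd_self_sub_emod
  have hnn : 0 ≤ (j * Nat.gcdA m p) % (p : ℤ) :=
    Int.emod_nonneg _ (by exact_mod_cast hp.out.ne_zero)
  refine ⟨((j * Nat.gcdA m p) % (p : ℤ)).toNat, ?_⟩
  rw [key, Int.toNat_of_nonneg hnn, ptn_frac_p_eq_iff]
  exact hmod

/-- the `p`-torsion of `ℚ / ℤ_(p)` is cyclic, generated by `1/p` -/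
lemma ptn_T_tors_cyclic : ∃ t₀ : ptn_T p, p • t₀ = 0 ∧ t₀ ≠ 0 ∧
    ∀ t : ptn_T p, p • t = 0 → ∃ k : ℕ, t = k • t₀ := by
  refine ⟨ptn_frac p 1 p, ptn_smul_frac_p 1, ptn_frac_one_ne_zero, fun t ht => ?_⟩
  obtain ⟨k, rfl⟩ := ptn_exists_frac_of_tors t ht
  refine ⟨k, ?_⟩
  rw [← natCast_zsmul, ← ptn_frac_smul, mul_one]

open Classical in
/-- the identification of the `p`-torsion of `ℚ / ℤ_(p)` with `ZMod p`, `k/p ↦ k`
(zero outside the `p`-torsion) -/
noncomputable def ptn_theta (p : ℕ) [Fact p.Prime] (t : ptn_T p) : ZMod p :=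
  if h : ∃ k : ℕ, t = ptn_frac p k p then (h.choose : ZMod p) else 0

lemma ptn_theta_frac (k : ℤ) : ptn_theta p (ptn_frac p k p) = (k : ZMod p) := by
  have hex : ∃ k' : ℕ, ptn_frac p k p = ptn_frac p k' p :=
    ptn_exists_frac_of_tors _ (ptn_smul_frac_p k)
  unfold ptn_theta
  rw [dif_pos hex]
  have h := hex.choose_spec
  rw [ptn_frac_p_eq_iff] at h
  have h2 := (ZMod.intCast_eq_intCast_iff_dvd_sub (hex.choose : ℤ) k p).mpr h
  rw [← h2]
  simp

/-- `ptn_theta` is additive on the `p`-torsion -/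
lemma ptn_theta_add (t t' : ptn_T p) (ht : p • t = 0) (ht' : p • t' = 0) :
    ptn_theta p (t + t') = ptn_theta p t + ptn_theta p t' := by
  obtain ⟨k, rfl⟩ := ptn_exists_frac_of_tors t ht
  obtain ⟨k', rfl⟩ := ptn_exists_frac_of_tors t' ht'
  rw [← ptn_frac_add, ptn_theta_frac, ptn_theta_frac, ptn_theta_frac]
  push_cast; ring

/-- `ptn_theta` is injective on the `p`-torsion -/
lemma ptn_theta_inj (t : ptn_T p) (ht : p • t = 0) (h : ptn_theta p t = 0) : t = 0 := by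
  obtain ⟨k, rfl⟩ := ptn_exists_frac_of_tors t ht
  rw [ptn_theta_frac] at h
  rw [ptn_frac_p_eq_zero_iff]
  exact (ZMod.intCast_zmod_eq_zero_iff_dvd _ p).mp h

end Fermat.Agent.Lib.PT
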