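/-
S55 (Poitou–Tate long haul), abstract class formation from an idelic invariant (ABS), part 8:
the invariant map of `G` itself, `inv_G ∘ cor = inv_U` (helper3's `hcor`), and helper3's `F1` for
every open subgroup.

OUTPUT OF (ABS) for the S-track consumer `pts_nondegH2_of_invSystem` / `pts_S55_of_invSystems`:
`A.invG`, `A.inv`, `A.hcor`, `A.F1`; with `A.invG_π` / `A.inv_π` as the (rfl-grade) local–global
formula, `A.inv_eq_zero_iff_p` / `A.invG_eq_zero_iff` (injectivity), `A.F1_gen` (helper3's `F1''`).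
-/
import Fermat.Agent.Lib.PT.AbsInv
import Fermat.Agent.Lib.PT.AdtStep

set_option autoImplicit false
set_option linter.unusedSectionVars false

namespace Fermat.Agent.Lib.PT

section B1

variable {G : Type*} [Group G] {k : Type*} [CommRing k] {A : Type*} [AddCommGroup A] [Module k A]
variable {ρ : Representation k G A}

lemma ptn_isB1_zsmul {φ : G → A} (h : ptd_IsB1 ρ φ) (n : ℤ) : ptd_IsB1 ρ (n • φ) := by
  obtain ⟨a, rfl⟩ := h
  refine ⟨n • a, ?_⟩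
  funext g
  simp only [Pi.smul_apply, ptd_d0_apply, map_zsmul, smul_sub]

lemma ptn_isB1_add {φ ψ : G → A} (h : ptd_IsB1 ρ φ) (h' : ptd_IsB1 ρ ψ) : ptd_IsB1 ρ (φ + ψ) := by
  obtain ⟨a, rfl⟩ := h
  obtain ⟨b, rfl⟩ := h'
  refine ⟨a + b, ?_⟩
  funext g
  simp only [Pi.add_apply, ptd_d0_apply, map_add]
  abel

lemma ptn_isB1_of_coprime {φ : G → A} {a b : ℕ} (hab : Nat.Coprime a b)
    (ha : ptd_IsB1 ρ (a • φ)) (hb : ptd_IsB1 ρ (b • φ)) : ptd_IsB1 ρ φ := by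
  have hbez : (a : ℤ) * Nat.gcdA a b + (b : ℤ) * Nat.gcdB a b = 1 := by
    have := Nat.gcd_eq_gcd_ab a b
    rw [hab.gcd_eq_one] at this
    rw [← this]; simp
  have h := ptn_isB1_add (ptn_isB1_zsmul ha (Nat.gcdA a b)) (ptn_isB1_zsmul hb (Nat.gcdB a b))
  convert h using 1
  funext g
  simp only [Pi.add_apply, Pi.smul_apply]
  have h1 : φ g = ((a : ℤ) * Nat.gcdA a b + (b : ℤ) * Nat.gcdB a b) • φ g := by
    rw [hbez, one_smul]
  conv_lhs => rw [h1]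
  rw [← natCast_zsmul (φ g) a, ← natCast_zsmul (φ g) b]
  module

end B1

namespace ptn_Abs

variable {G : Type*} [Group G] {J C : Type*} [AddCommGroup J] [AddCommGroup C]
variable {𝓛 : ptd_Levels G} {ρJ : Representation ℤ G J} {ρC : Representation ℤ G C}
variable {p : ℕ} [hp : Fact p.Prime] (A : ptn_Abs 𝓛 ρJ ρC p)

include A in
/-- **`F1'`** for every open subgroup: a level 1-cocycle whose `p`-th multiple is a coboundary is
a coboundary. -/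
theorem F1' (U : Subgroup G) (hU : 𝓛.IsOpen U) (φ : U → C)
    (hφ : ptd_IsLZ1 (𝓛.sub U hU) (ptd_resRep ρC U) φ)
    (hpφ : ptd_IsB1 (ptd_resRep ρC U) (p • φ)) : ptd_IsB1 (ptd_resRep ρC U) φ := by
  obtain ⟨m, hm, hmφ⟩ := A.F1_gen U hU hφ
  exact ptn_isB1_of_coprime ((Nat.Prime.coprime_iff_not_dvd hp.out).mpr hm).symm hmφ hpφ

include A in
/-- **helper3's `F1`** for every open subgroup. -/
theorem F1 (U : Subgroup G) (hU : 𝓛.IsOpen U) : ptd_F1 (𝓛.sub U hU) (ptd_resRep ρC U) p := by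
  intro φ hφ hp0
  refine A.F1' U hU φ hφ ⟨0, ?_⟩
  funext g
  simp [hp0 g]

/-- the image in `C` of a `J`-valued level cocycle of `G` is a level cocycle -/
lemma isLZ2_π_G {y : G × G → J} (hy : ptd_IsLZ2 𝓛 ρJ y) :
    ptd_IsLZ2 𝓛 ρC (fun x => A.π (y x)) := by
  refine ⟨fun g h j => ?_, hy.2.comp A.π⟩
  have := congrArg A.π (hy.1 g h j)
  simpa only [map_add, A.π_equiv] using this

/-- **The invariant map of `G`** itself. -/
noncomputable def invG : ptd_Inv 𝓛 ρC (ptn_T p) p where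
  toFun z := A.inv ⊤ 𝓛.isOpen_top (ptd_res₂ ⊤ z)
  map_add' _ _ hz hz' := (A.inv ⊤ 𝓛.isOpen_top).map_add' _ _
    (ptn_isLZ2p_res₂ ⊤ 𝓛.isOpen_top hz) (ptn_isLZ2p_res₂ ⊤ 𝓛.isOpen_top hz')
  map_b2' _ hz := (A.inv ⊤ 𝓛.isOpen_top).map_b2' _ (ptd_isB2_res₂ ⊤ 𝓛.isOpen_top ρC hz)

lemma invG_apply (z : G × G → C) : A.invG z = A.inv ⊤ 𝓛.isOpen_top (ptd_res₂ ⊤ z) := rfl

/-- **The defining formula for `G`**: `inv_G (π ∘ y) = INV_⊤ (y|_⊤)`. -/
theorem invG_π {y : G × G → J} (hy : ptd_IsLZ2 𝓛 ρJ y) :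
    A.invG (fun x => A.π (y x)) = A.INV ⊤ (ptd_res₂ ⊤ y) :=
  A.inv_π ⊤ 𝓛.isOpen_top (ptd_isLZ2_res₂ ⊤ 𝓛.isOpen_top ρJ hy)

/-- injectivity of `inv_G` on classes killed by `p` -/
theorem invG_eq_zero_iff {z : G × G → C} (hz : ptd_IsLZ2p 𝓛 ρC p z) :
    A.invG z = 0 ↔ ptd_IsB2 𝓛 ρC z :=
  (A.inv_eq_zero_iff_p ⊤ 𝓛.isOpen_top (ptn_isLZ2p_res₂ ⊤ 𝓛.isOpen_top hz)).trans
    ⟨ptn_isB2_of_res₂_top, ptd_isB2_res₂ ⊤ 𝓛.isOpen_top ρC⟩

/-- **`inv_U ∘ res = [G : U] • inv_G`** on classes killed by `p`. -/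
theorem inv_res (U : Subgroup G) (hU : 𝓛.IsOpen U) {z : G × G → C}
    (hz : ptd_IsLZ2p 𝓛 ρC p z) : A.inv U hU (ptd_res₂ U z) = U.index • A.invG z := by
  have h0 : ptd_IsB2 (𝓛.sub ⊤ 𝓛.isOpen_top) (ptd_resRep ρC ⊤) (p ^ 1 • ptd_res₂ ⊤ z) := by
    rw [pow_one]
    exact ptd_isB2_res₂ ⊤ 𝓛.isOpen_top ρC hz.2
  have h := A.inv_resLe ⊤ 𝓛.isOpen_top U hU le_top
    (ptd_isLZ2_res₂ ⊤ 𝓛.isOpen_top ρC hz.1) 1 h0
  rw [Subgroup.relIndex_top_right] at h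
  exact h

/-- **`inv_G ∘ cor = inv_U`** on level cocycles of `U` whose class is killed by `p`: the
hypothesis `hcor` of helper3's `ptd_nondegH2` / `ptd_nondegHom` and of helper4's
`pts_nondegH2_of_invSystem`. -/
theorem hcor (U : Subgroup G) (hU : 𝓛.IsOpen U) [U.FiniteIndex] (y : U × U → C)
    (hy : ptd_IsLZ2p (𝓛.sub U hU) (ptd_resRep ρC U) p y) :
    A.invG (ptd_cor₂ U ρC y) = A.inv U hU y := by
  have htop := 𝓛.isOpen_top
  have ht := A.nsmul_inv_eq_zero U hU hy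
  have hidx : U.index ≠ 0 := Subgroup.FiniteIndex.index_ne_zero
  obtain ⟨a, ha⟩ : ∃ a, a = U.index.factorization p := ⟨_, rfl⟩
  have hdec : p ^ a * (U.index / p ^ a) = U.index := by
    rw [ha]; exact Nat.ordProj_mul_ordCompl_eq_self U.index p
  obtain ⟨a₁, ha₁, hord⟩ := A.cyc ⊤ htop (a + 1)
  have htors := A.INV_bock_tors (a + 1) htop ha₁
  have hrel : (ptn_charKer (A.χ_char (a + 1))).relIndex ⊤ = p ^ (a + 1) := by
    rw [Subgroup.relIndex_top_right, ptn_charKer_index (A.χ_char (a + 1)) (A.χ_surj (a + 1))]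
  rw [hrel] at htors hord
  obtain ⟨t₁, ht₁⟩ : ∃ t₁, t₁ = A.INV ⊤ (ptd_bockSmul (p ^ (a + 1))
    (fun v : (⊤ : Subgroup G) => A.χ (a + 1) v) a₁) := ⟨_, rfl⟩
  rw [← ht₁] at htors hord
  -- `t₂ = [G : U] • t₁` has exact order `p`
  have h2 : p • (U.index • t₁) = 0 := by
    have e1 : p * U.index = (U.index / p ^ a) * p ^ (a + 1) := by
      conv_lhs => rw [← hdec]
      ring
    rw [← mul_smul, e1, mul_smul, htors, smul_zero]
  have hne : U.index • t₁ ≠ 0 := by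
    intro h0
    have := hord (U.index : ℕ) (by rw [natCast_zsmul]; exact h0)
    have h3 : p ^ (a + 1) ∣ U.index := by exact_mod_cast this
    rw [ha] at h3
    exact Nat.pow_succ_factorization_not_dvd hidx hp.out h3
  obtain ⟨s, hs⟩ := ptn_T_tors_gen h2 hne (A.inv U hU y) ht
  -- the global cyclic class
  have hfix : ∀ g, ρJ g (s • a₁) = s • a₁ := fun g => by
    rw [map_zsmul, ha₁ g (Subgroup.mem_top g)]
  obtain ⟨y₀, hy₀⟩ : ∃ y₀ : G × G → J,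
    y₀ = ptd_bockSmul (p ^ (a + 1)) (A.χ (a + 1)) (s • a₁) := ⟨_, rfl⟩
  have hy₀lz : ptd_IsLZ2 𝓛 ρJ y₀ := by
    rw [hy₀]
    exact ⟨ptn_isZ2_bockSmul (A.χ_char _) hfix, ptn_isLev₂_bockSmul (A.χ_lev _) _⟩
  have hINVtop : A.INV ⊤ (ptd_res₂ ⊤ y₀) = s • t₁ := by
    have : ptd_res₂ ⊤ y₀ = s • ptd_bockSmul (p ^ (a + 1))
        (fun v : (⊤ : Subgroup G) => A.χ (a + 1) v) a₁ := by
      rw [← ptn_bockSmul_zsmul, hy₀]; rfl
    rw [this, A.INV_zsmul ⊤ htop (A.bock_isLZ2 ρJ (a + 1) htop ha₁), ht₁]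
  have hINVU : A.INV U (ptd_res₂ U y₀) = A.inv U hU y := by
    have h1 := A.INV_res ⊤ htop U hU le_top (ptd_res₂ ⊤ y₀) (ptd_isLZ2_res₂ ⊤ htop ρJ hy₀lz)
    have h2' : ptn_resLe₂ le_top (ptd_res₂ ⊤ y₀) = ptd_res₂ U y₀ := rfl
    rw [h2', Subgroup.relIndex_top_right, hINVtop] at h1
    rw [h1, hs, ← natCast_zsmul, smul_comm, natCast_zsmul]
  -- a lift of `y`
  obtain ⟨yJ, hyJ⟩ := A.exists_isLift U hU hy.1 1 (by simpa using hy.2)
  have hy₀U := ptd_isLZ2_res₂ U hU ρJ hy₀lz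
  have hdiff : A.INV U (yJ - ptd_res₂ U y₀) = 0 := by
    rw [A.INV_sub U hU hyJ.1 hy₀U, hINVU, ← A.inv_eq_of_lift hyJ, sub_self]
  have hz₀lz : ptd_IsLZ2 𝓛 ρC (fun x => A.π (y₀ x)) := A.isLZ2_π_G hy₀lz
  have hz₀ : ptd_IsB2 𝓛 ρC (p ^ (a + 1) • fun x => A.π (y₀ x)) := by
    rw [hy₀, ptn_map_bockSmul]
    exact ptn_isB2_nsmul_bockSmul (A.χ_char (a + 1)) (A.χ_lev (a + 1))
      (fun g => by rw [← A.π_equiv, hfix])
  have hB : ptd_IsB2 (𝓛.sub U hU) (ptd_resRep ρC U)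
      (fun x => A.π ((yJ - ptd_res₂ U y₀) x)) := by
    refine A.isB2_of_INV_eq_zero U hU (hyJ.1.sub hy₀U) hdiff (a + 1) ?_
    have h3 := ((hyJ.2.nsmul (p ^ (a + 1))).add (hy.2.nsmul (p ^ a))).sub
      (ptd_isB2_res₂ U hU ρC hz₀)
    convert h3 using 1
    funext x
    simp only [Pi.smul_apply, Pi.sub_apply, Pi.add_apply, map_sub, ptd_res₂, smul_sub, pow_succ,
      mul_smul]
    abel
  have hB' : ptd_IsB2 (𝓛.sub U hU) (ptd_resRep ρC U)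
      (y - ptd_res₂ U (fun x => A.π (y₀ x))) := by
    have := hB.sub hyJ.2
    convert this using 1
    funext x
    simp only [Pi.sub_apply, map_sub, ptd_res₂]
    abel
  -- corestriction
  have hc1 := ptd_isB2_cor₂ U hU ρC hB'
  rw [ptn_cor₂_sub] at hc1
  have hc2 := ptd_cor₂_res_sub_isB2 U hU ρC hz₀lz
  have hc3 := hc2.sub hc1
  have hlift : A.IsLift ⊤ htop (ptd_res₂ ⊤ (ptd_cor₂ U ρC y)) (U.index • ptd_res₂ ⊤ y₀) := by
    refine ⟨(ptd_isLZ2_res₂ ⊤ htop ρJ hy₀lz).nsmul _, ?_⟩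
    have := ptd_isB2_res₂ ⊤ htop ρC hc3
    convert this using 1
    funext x
    simp only [Pi.sub_apply, Pi.smul_apply, ptd_res₂, map_nsmul]
    abel
  rw [invG_apply, A.inv_eq_of_lift hlift, A.INV_nsmul ⊤ htop (ptd_isLZ2_res₂ ⊤ htop ρJ hy₀lz),
    hINVtop, hs, ← natCast_zsmul, smul_comm, natCast_zsmul]

end ptn_Abs

end Fermat.Agent.Lib.PT
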