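/-
S55 (Poitou–Tate long haul), abstract class formation from an idelic invariant, SECOND VERSION
(ABS v2), part 2: the cyclic layers `V ⊇ W = V ⊓ ker χ_k` of the tower (as `AbsCyc`, for
`ptn_AbsK`).
-/
import Fermat.Agent.Lib.PT.AbkDefs
import Fermat.Agent.Lib.PT.AbsCyc

set_option autoImplicit false
set_option linter.unusedSectionVars false

namespace Fermat.Agent.Lib.PT

namespace ptn_AbsK

variable {G : Type*} [Group G] {J C : Type*} [AddCommGroup J] [AddCommGroup C]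
variable {𝓛 : ptd_Levels G} {ρJ : Representation ℤ G J} {ρC : Representation ℤ G C}
variable {p : ℕ} [hp : Fact p.Prime] (A : ptn_AbsK 𝓛 ρJ ρC p)

/-- the degrees `[V : V ⊓ ker χ_k]` are powers of `p`, unbounded in `k` -/
lemma exists_large_relIndex (V : Subgroup G) (hV : 𝓛.IsOpen V) (B : ℕ) :
    ∃ k b : ℕ, B ≤ b ∧ (ptn_charKer (A.χ_char k)).relIndex V = p ^ b := by
  have hfin := hV.finiteIndex
  have hidx : V.index ≠ 0 := Subgroup.FiniteIndex.index_ne_zero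
  set k := B + V.index with hk
  have hKidx : (ptn_charKer (A.χ_char k)).index = p ^ k :=
    ptn_charKer_index (A.χ_char k) (A.χ_surj k)
  have h1 : (ptn_charKer (A.χ_char k)).relIndex V ∣ p ^ k := by
    have := Subgroup.relIndex_dvd_index_of_normal (ptn_charKer (A.χ_char k)) V
    rwa [hKidx] at this
  obtain ⟨b, hbk, hb⟩ := (Nat.dvd_prime_pow hp.out).mp h1
  refine ⟨k, b, ?_, hb⟩
  have h2 : p ^ k ∣ p ^ b * V.index := by
    have h := Subgroup.index_dvd_of_le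
      (inf_le_left : ptn_charKer (A.χ_char k) ⊓ V ≤ ptn_charKer (A.χ_char k))
    rw [hKidx, ← Subgroup.relIndex_mul_index
      (inf_le_right : ptn_charKer (A.χ_char k) ⊓ V ≤ V), Subgroup.inf_relIndex_right, hb] at h
    exact h
  by_contra hlt
  rw [not_le] at hlt
  have h3 : p ^ (k - b) ∣ V.index := by
    have : p ^ k = p ^ b * p ^ (k - b) := by rw [← pow_add]; congr 1; omega
    rw [this] at h2
    exact Nat.dvd_of_mul_dvd_mul_left (pow_pos hp.out.pos b) h2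
  have h4 : p ^ (k - b) ≤ V.index := Nat.le_of_dvd (Nat.pos_of_ne_zero hidx) h3
  have h5 : k - b < p ^ (k - b) := Nat.lt_pow_self hp.out.one_lt
  omega

/-- the cyclic layer `W = V ⊓ ker χ_k` -/
def W (k : ℕ) (V : Subgroup G) : Subgroup G := V ⊓ ptn_charKer (A.χ_char k)

lemma W_le (k : ℕ) (V : Subgroup G) : A.W k V ≤ V := inf_le_left

lemma W_isOpen (k : ℕ) {V : Subgroup G} (hV : 𝓛.IsOpen V) : 𝓛.IsOpen (A.W k V) :=
  ptn_isOpen_inf hV (ptn_charKer_isOpen (A.χ_char k) (A.χ_lev k))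

lemma W_normal (k : ℕ) (V : Subgroup G) : ((A.W k V).subgroupOf V).Normal := by
  unfold W
  rw [Subgroup.inf_subgroupOf_left]
  infer_instance

lemma W_pgroup (k : ℕ) (V : Subgroup G) : ∀ x ∈ V, ∃ j : ℕ, x ^ p ^ j ∈ A.W k V :=
  fun x hx => ⟨k, pow_mem hx _, ptn_pow_mem_charKer (A.χ_char k) x⟩

lemma W_relIndex (k : ℕ) (V : Subgroup G) :
    (A.W k V).relIndex V = (ptn_charKer (A.χ_char k)).relIndex V :=
  Subgroup.inf_relIndex_left V _

lemma W_mono (k : ℕ) {V U : Subgroup G} (h : V ≤ U) : A.W k V ≤ A.W k U :=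
  inf_le_inf_right _ h

/-- the cocycle `c · δχ_k` of `V` lives at `W` -/
lemma bock_at (k : ℕ) (V : Subgroup G) {c : C} (hc : ∀ v ∈ V, ρC v c = c) :
    ptn_At₂ V (A.W k V) ρC (ptd_bockSmul (p ^ k) (fun v : V => A.χ k v) c) := by
  refine ⟨fun a b n n' hn hn' => ?_, fun x n hn => ?_⟩
  · rw [ptn_bockSmul_apply, ptn_bockSmul_apply,
      ptn_bock_mul_ker (ptn_isChar_res (A.χ_char k) V) a b (n := n) (n' := n') hn.2 hn'.2]
  · rw [ptn_bockSmul_apply, map_zsmul, hc n hn.1]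

/-- `[V : W] • (c · δχ_k)` is the coboundary of a 1-cochain living at `W` -/
lemma bock_index_smul (k : ℕ) {V : Subgroup G} (hV : 𝓛.IsOpen V) {c : C}
    (hc : ∀ v ∈ V, ρC v c = c) :
    ∃ ψ : V → C, ptn_At₁ V (A.W k V) ρC ψ ∧
      ((ptn_charKer (A.χ_char k)).relIndex V) •
        ptd_bockSmul (p ^ k) (fun v : V => A.χ k v) c = ptd_d1 (ptd_resRep ρC V) ψ := by
  have : ((A.W k V).subgroupOf V).Normal := A.W_normal k V
  have : (A.W k V).FiniteIndex := (A.W_isOpen k hV).finiteIndex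
  have : ((A.W k V).subgroupOf V).FiniteIndex := inferInstance
  have hat := A.bock_at k V hc
  have h := ptn_index_smul_eq_d1 (ptd_resRep ρC V) ((A.W k V).subgroupOf V)
    (A.bock_isZ2 ρC k V hc) (fun g h n hn => by
      have := hat.1 g h 1 n (one_mem _) (Subgroup.mem_subgroupOf.mp hn)
      rwa [mul_one] at this)
  rw [← A.W_relIndex k V]
  refine ⟨_, ⟨fun a n hn => ?_, fun x n hn => ?_⟩, h⟩
  · refine Finset.sum_congr rfl fun q _ => ?_
    have := hat.1 a (Quotient.out q) n 1 hn (one_mem _)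
    rwa [mul_one] at this
  · rw [map_sum]
    exact Finset.sum_congr rfl fun q _ => hat.2 _ n hn

/-- `[V : W]` kills `INV_V (a · δχ_k)` -/
lemma INV_bock_tors (k : ℕ) {V : Subgroup G} (hV : 𝓛.IsOpen V) {a : J}
    (ha : ∀ v ∈ V, ρJ v a = a) :
    ((ptn_charKer (A.χ_char k)).relIndex V) •
      A.INV V (ptd_bockSmul (p ^ k) (fun v : V => A.χ k v) a) = 0 := by
  obtain ⟨ψ, hψ, h⟩ := A.bock_index_smul k hV (A.π_fixed ha)
  rw [← A.INV_nsmul V hV (A.bock_isLZ2 ρJ k hV ha)]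
  refine A.INV_b2 V hV ((A.good_bock k hV ha).nsmul _) ?_
  refine ⟨ψ, hψ.isLev₁_of_isOpen hV (A.W_isOpen k hV) (A.W_le k V), ?_⟩
  rw [← h]
  funext x
  simp only [Pi.smul_apply, ptn_bockSmul_apply, map_nsmul, map_zsmul]

/-- if `m • (π(a) · δχ_k)` is the coboundary of a 1-cochain at `W` then `m` kills
`INV_V (a · δχ_k)` -/
lemma INV_bock_of_d1 (k : ℕ) {V : Subgroup G} (hV : 𝓛.IsOpen V) {a : J}
    (ha : ∀ v ∈ V, ρJ v a = a) (m : ℤ) {ψ : V → C} (hψ : ptd_IsLev₁ (𝓛.sub V hV) ψ)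
    (h : m • ptd_bockSmul (p ^ k) (fun v : V => A.χ k v) (A.π a) = ptd_d1 (ptd_resRep ρC V) ψ) :
    m • A.INV V (ptd_bockSmul (p ^ k) (fun v : V => A.χ k v) a) = 0 := by
  rw [← A.INV_zsmul V hV (A.bock_isLZ2 ρJ k hV ha)]
  refine A.INV_b2 V hV ((A.good_bock k hV ha).zsmul _) ⟨ψ, hψ, ?_⟩
  rw [← h]
  funext x
  simp only [Pi.smul_apply, ptn_bockSmul_apply, map_zsmul]

/-- **(L1), the cyclic case**: if `a ∈ J^V` has `INV_V (a · δχ_k) = 0` then `π(a) · δχ_k` is the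
coboundary of a 1-cochain living at `W = V ⊓ ker χ_k`. -/
theorem cyc_split (k : ℕ) {V : Subgroup G} (hV : 𝓛.IsOpen V) (hWK : A.W k V ≤ A.K₀) {a : J}
    (ha : ∀ v ∈ V, ρJ v a = a)
    (h0 : A.INV V (ptd_bockSmul (p ^ k) (fun v : V => A.χ k v) a) = 0) :
    ∃ ψ : V → C, ptn_At₁ V (A.W k V) ρC ψ ∧
      ptd_bockSmul (p ^ k) (fun v : V => A.χ k v) (A.π a) = ptd_d1 (ptd_resRep ρC V) ψ := by
  obtain ⟨a₀, ha₀, hord⟩ := A.cyc V hV k
  have hWo := A.W_isOpen k hV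
  -- the generator `w₀ = π(a₀) · δχ_k` has exact order `[V : W]` at `W`
  have hord' : ∀ (m : ℤ) (ψ : V → C), ptn_At₁ V (A.W k V) ρC ψ →
      m • ptd_bockSmul (p ^ k) (fun v : V => A.χ k v) (A.π a₀) = ptd_d1 (ptd_resRep ρC V) ψ →
      (((A.W k V).relIndex V : ℕ) : ℤ) ∣ m := by
    intro m ψ hψ h
    rw [A.W_relIndex]
    exact hord m (A.INV_bock_of_d1 k hV ha₀ m (hψ.isLev₁_of_isOpen hV hWo (A.W_le k V)) h)
  obtain ⟨n, ψ, hψ, hn⟩ := A.G5_2 V (A.W k V) hWo hWK (A.W_le k V) (A.W_normal k V) (A.W_pgroup k V)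
    _ (A.bock_isZ2 ρC k V (A.π_fixed ha₀)) (A.bock_at k V (A.π_fixed ha₀)) hord'
    _ (A.bock_isZ2 ρC k V (A.π_fixed ha)) (A.bock_at k V (A.π_fixed ha))
  -- `INV` of the difference vanishes
  have hlz := A.bock_isLZ2 ρJ k hV ha
  have hlz₀ := A.bock_isLZ2 ρJ k hV ha₀
  have h1 : A.INV V (ptd_bockSmul (p ^ k) (fun v : V => A.χ k v) a -
      n • ptd_bockSmul (p ^ k) (fun v : V => A.χ k v) a₀) = 0 := by
    refine A.INV_b2 V hV ((A.good_bock k hV ha).sub ((A.good_bock k hV ha₀).zsmul n))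
      ⟨ψ, hψ.isLev₁_of_isOpen hV hWo (A.W_le k V), ?_⟩
    rw [← hn]
    funext x
    simp only [Pi.sub_apply, Pi.smul_apply, ptn_bockSmul_apply, map_sub, map_zsmul]
  rw [A.INV_sub V hV hlz (ptn_isLZ2_zsmul hlz₀ n), h0, A.INV_zsmul V hV hlz₀, zero_sub,
    neg_eq_zero] at h1
  obtain ⟨c, hc⟩ := hord n h1
  obtain ⟨ψ', hψ', h2⟩ := A.bock_index_smul k hV (A.π_fixed ha₀)
  refine ⟨ψ + c • ψ', hψ.add (hψ'.zsmul c), ?_⟩
  rw [ptd_d1_add, ptd_d1_zsmul, ← h2, ← hn, hc]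
  funext x
  simp only [Pi.add_apply, Pi.sub_apply, Pi.smul_apply]
  rw [mul_comm, mul_smul, natCast_zsmul]
  abel

end ptn_AbsK

end Fermat.Agent.Lib.PT
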