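/-
S55 (Poitou–Tate long haul), abstract class formation from an idelic invariant, THIRD VERSION
(ABS v3), part 5: THE INVARIANT MAPS (as `AbsInv`, for `ptn_AbsK`).  Lifts are GOOD cocycles
`a · δχ_k + d1 ψ`; the defining formula `inv_U (π ∘ y) = INV_U y` holds for good `y`.
-/
import Fermat.Agent.Lib.PT.AbkLift
import Fermat.Agent.Lib.PT.AbsInv

set_option autoImplicit false
set_option linter.unusedSectionVars false

namespace Fermat.Agent.Lib.PT

namespace ptn_AbsK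

variable {G : Type*} [Group G] {J C : Type*} [AddCommGroup J] [AddCommGroup C]
variable {𝓛 : ptd_Levels G} {ρJ : Representation ℤ G J} {ρC : Representation ℤ G C}
variable {p : ℕ} [hp : Fact p.Prime] (A : ptn_AbsK 𝓛 ρJ ρC p)

/-- `y` is a GOOD `J`-valued level cocycle lifting the class of `z` -/
def IsLift (U : Subgroup G) (hU : 𝓛.IsOpen U) (z : U × U → C) (y : U × U → J) : Prop :=
  A.Good U hU y ∧
    ptd_IsB2 (𝓛.sub U hU) (ptd_resRep ρC U) ((fun x => A.π (y x)) - z)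

variable {A}

lemma IsLift.self {U : Subgroup G} {hU : 𝓛.IsOpen U} {y : U × U → J}
    (hy : A.Good U hU y) :
    A.IsLift U hU (fun x => A.π (y x)) y :=
  ⟨hy, by rw [sub_self]; exact ptd_isB2_zero⟩

lemma IsLift.of_isB2 {U : Subgroup G} {hU : 𝓛.IsOpen U} {z : U × U → C}
    (hz : ptd_IsB2 (𝓛.sub U hU) (ptd_resRep ρC U) z) : A.IsLift U hU z 0 := by
  refine ⟨A.good_zero hU, ?_⟩
  have : (fun x => A.π ((0 : U × U → J) x)) - z = -z := by
    funext x
    simp only [Pi.zero_apply, map_zero, Pi.sub_apply, Pi.neg_apply, zero_sub]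
  rw [this]
  exact hz.neg

lemma IsLift.add {U : Subgroup G} {hU : 𝓛.IsOpen U} {z z' : U × U → C} {y y' : U × U → J}
    (h : A.IsLift U hU z y) (h' : A.IsLift U hU z' y') : A.IsLift U hU (z + z') (y + y') := by
  refine ⟨h.1.add h'.1, ?_⟩
  have : (fun x => A.π ((y + y') x)) - (z + z') =
      ((fun x => A.π (y x)) - z) + ((fun x => A.π (y' x)) - z') := by
    funext x
    simp only [Pi.add_apply, Pi.sub_apply, map_add]
    abel
  rw [this]
  exact h.2.add h'.2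

lemma IsLift.zsmul {U : Subgroup G} {hU : 𝓛.IsOpen U} {z : U × U → C} {y : U × U → J}
    (h : A.IsLift U hU z y) (n : ℤ) : A.IsLift U hU (n • z) (n • y) := by
  refine ⟨h.1.zsmul n, ?_⟩
  have : (fun x => A.π ((n • y) x)) - n • z = n • ((fun x => A.π (y x)) - z) := by
    funext x
    simp only [Pi.smul_apply, Pi.sub_apply, map_zsmul, smul_sub]
  rw [this]
  exact h.2.zsmul n

lemma IsLift.sub {U : Subgroup G} {hU : 𝓛.IsOpen U} {z z' : U × U → C} {y y' : U × U → J}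
    (h : A.IsLift U hU z y) (h' : A.IsLift U hU z' y') : A.IsLift U hU (z - z') (y - y') := by
  have := h.add (h'.zsmul (-1))
  simpa [sub_eq_add_neg] using this

lemma IsLift.congr {U : Subgroup G} {hU : 𝓛.IsOpen U} {z z' : U × U → C} {y : U × U → J}
    (h : A.IsLift U hU z y) (hzz' : ptd_IsB2 (𝓛.sub U hU) (ptd_resRep ρC U) (z - z')) :
    A.IsLift U hU z' y := by
  refine ⟨h.1, ?_⟩
  have : (fun x => A.π (y x)) - z' = ((fun x => A.π (y x)) - z) + (z - z') := by abel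
  rw [this]
  exact h.2.add hzz'

lemma IsLift.resLe {U V : Subgroup G} {hU : 𝓛.IsOpen U} (hV : 𝓛.IsOpen V) (hVU : V ≤ U)
    {z : U × U → C} {y : U × U → J} (h : A.IsLift U hU z y) :
    A.IsLift V hV (ptn_resLe₂ hVU z) (ptn_resLe₂ hVU y) :=
  ⟨h.1.resLe hV hVU, ptn_isB2_resLe ρC hVU hU hV h.2⟩

variable (A)

open Classical in
/-- the invariant of a 2-cochain of `U` with values in `C`: `INV_U` of any `J`-valued lift -/
noncomputable def invFun (U : Subgroup G) (hU : 𝓛.IsOpen U) (z : U × U → C) : ptn_T p :=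
  if h : ∃ y, A.IsLift U hU z y then A.INV U h.choose else 0

variable {A}

lemma invFun_eq {U : Subgroup G} {hU : 𝓛.IsOpen U} {z : U × U → C} {y : U × U → J}
    (h : A.IsLift U hU z y) : A.invFun U hU z = A.INV U y := by
  have hex : ∃ y, A.IsLift U hU z y := ⟨y, h⟩
  rw [invFun, dif_pos hex]
  have h' := hex.choose_spec
  refine A.INV_congr U hU h'.1 h.1 ?_
  have := h'.2.sub h.2
  convert this using 1
  abel

variable (A)

/-- **The invariant map** of the open subgroup `U`. -/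
noncomputable def inv (U : Subgroup G) (hU : 𝓛.IsOpen U) :
    ptd_Inv (𝓛.sub U hU) (ptd_resRep ρC U) (ptn_T p) p where
  toFun := A.invFun U hU
  map_add' z z' hz hz' := by
    obtain ⟨y, hy⟩ := A.exists_lift U hU hz.1 1 (by simpa using hz.2)
    obtain ⟨y', hy'⟩ := A.exists_lift U hU hz'.1 1 (by simpa using hz'.2)
    have h1 : A.IsLift U hU z y := hy
    have h2 : A.IsLift U hU z' y' := hy'
    rw [invFun_eq (h1.add h2), invFun_eq h1, invFun_eq h2,
      A.INV_add U hU y y' hy.1.isLZ2 hy'.1.isLZ2]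
  map_b2' z hz := by
    rw [invFun_eq (IsLift.of_isB2 hz), A.INV_zero U hU]

lemma inv_apply (U : Subgroup G) (hU : 𝓛.IsOpen U) (z : U × U → C) :
    A.inv U hU z = A.invFun U hU z := rfl

/-- the invariant of a class is `INV` of any lift -/
lemma inv_eq_of_lift {U : Subgroup G} {hU : 𝓛.IsOpen U} {z : U × U → C} {y : U × U → J}
    (h : A.IsLift U hU z y) : A.inv U hU z = A.INV U y := invFun_eq h

/-- **The defining formula** `inv_U (π ∘ y) = INV_U y`, for every GOOD `J`-valued cocycle `y`. -/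
theorem inv_π (U : Subgroup G) (hU : 𝓛.IsOpen U) {y : U × U → J}
    (hy : A.Good U hU y) :
    A.inv U hU (fun x => A.π (y x)) = A.INV U y := invFun_eq (IsLift.self hy)

/-- liftability of `p`-primary classes, as `IsLift` -/
lemma exists_isLift (U : Subgroup G) (hU : 𝓛.IsOpen U) {z : U × U → C}
    (hz : ptd_IsLZ2 (𝓛.sub U hU) (ptd_resRep ρC U) z) (e : ℕ)
    (hze : ptd_IsB2 (𝓛.sub U hU) (ptd_resRep ρC U) (p ^ e • z)) : ∃ y, A.IsLift U hU z y :=
  A.exists_lift U hU hz e hze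

/-- **Injectivity** on `p`-primary classes. -/
theorem inv_eq_zero_iff (U : Subgroup G) (hU : 𝓛.IsOpen U) {z : U × U → C}
    (hz : ptd_IsLZ2 (𝓛.sub U hU) (ptd_resRep ρC U) z) (e : ℕ)
    (hze : ptd_IsB2 (𝓛.sub U hU) (ptd_resRep ρC U) (p ^ e • z)) :
    A.inv U hU z = 0 ↔ ptd_IsB2 (𝓛.sub U hU) (ptd_resRep ρC U) z := by
  refine ⟨fun h => ?_, fun h => (A.inv U hU).map_b2' z h⟩
  obtain ⟨y, hy⟩ := A.exists_isLift U hU hz e hze
  rw [A.inv_eq_of_lift hy] at h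
  have h1 : ptd_IsB2 (𝓛.sub U hU) (ptd_resRep ρC U) (p ^ e • fun x => A.π (y x)) := by
    have := (hy.2.nsmul (p ^ e)).add hze
    convert this using 1
    rw [smul_sub]
    abel
  have h2 := A.isB2_of_INV_eq_zero U hU hy.1 h e h1
  have := h2.sub hy.2
  convert this using 1
  abel

/-- injectivity on classes killed by `p` -/
theorem inv_eq_zero_iff_p (U : Subgroup G) (hU : 𝓛.IsOpen U) {z : U × U → C}
    (hz : ptd_IsLZ2p (𝓛.sub U hU) (ptd_resRep ρC U) p z) :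
    A.inv U hU z = 0 ↔ ptd_IsB2 (𝓛.sub U hU) (ptd_resRep ρC U) z :=
  A.inv_eq_zero_iff U hU hz.1 1 (by simpa using hz.2)

/-- additivity on `p`-primary classes -/
theorem inv_add_gen (U : Subgroup G) (hU : 𝓛.IsOpen U) {z z' : U × U → C}
    (hz : ptd_IsLZ2 (𝓛.sub U hU) (ptd_resRep ρC U) z) (e : ℕ)
    (hze : ptd_IsB2 (𝓛.sub U hU) (ptd_resRep ρC U) (p ^ e • z))
    (hz' : ptd_IsLZ2 (𝓛.sub U hU) (ptd_resRep ρC U) z') (e' : ℕ)
    (hze' : ptd_IsB2 (𝓛.sub U hU) (ptd_resRep ρC U) (p ^ e' • z')) :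
    A.inv U hU (z + z') = A.inv U hU z + A.inv U hU z' := by
  obtain ⟨y, hy⟩ := A.exists_isLift U hU hz e hze
  obtain ⟨y', hy'⟩ := A.exists_isLift U hU hz' e' hze'
  rw [A.inv_eq_of_lift (hy.add hy'), A.inv_eq_of_lift hy, A.inv_eq_of_lift hy',
    A.INV_add U hU y y' hy.1.isLZ2 hy'.1.isLZ2]

theorem inv_zsmul_gen (U : Subgroup G) (hU : 𝓛.IsOpen U) {z : U × U → C}
    (hz : ptd_IsLZ2 (𝓛.sub U hU) (ptd_resRep ρC U) z) (e : ℕ)
    (hze : ptd_IsB2 (𝓛.sub U hU) (ptd_resRep ρC U) (p ^ e • z)) (n : ℤ) :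
    A.inv U hU (n • z) = n • A.inv U hU z := by
  obtain ⟨y, hy⟩ := A.exists_isLift U hU hz e hze
  rw [A.inv_eq_of_lift (hy.zsmul n), A.inv_eq_of_lift hy, A.INV_zsmul U hU hy.1.isLZ2]

/-- the invariant only depends on the class -/
theorem inv_congr (U : Subgroup G) (hU : 𝓛.IsOpen U) {z z' : U × U → C}
    (hz : ptd_IsLZ2 (𝓛.sub U hU) (ptd_resRep ρC U) z) (e : ℕ)
    (hze : ptd_IsB2 (𝓛.sub U hU) (ptd_resRep ρC U) (p ^ e • z))
    (hzz' : ptd_IsB2 (𝓛.sub U hU) (ptd_resRep ρC U) (z - z')) :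
    A.inv U hU z = A.inv U hU z' := by
  obtain ⟨y, hy⟩ := A.exists_isLift U hU hz e hze
  rw [A.inv_eq_of_lift hy, A.inv_eq_of_lift (hy.congr hzz')]

/-- **`inv_V ∘ res = [U : V] • inv_U`** on `p`-primary classes. -/
theorem inv_resLe (U : Subgroup G) (hU : 𝓛.IsOpen U) (V : Subgroup G) (hV : 𝓛.IsOpen V)
    (hVU : V ≤ U) {z : U × U → C} (hz : ptd_IsLZ2 (𝓛.sub U hU) (ptd_resRep ρC U) z) (e : ℕ)
    (hze : ptd_IsB2 (𝓛.sub U hU) (ptd_resRep ρC U) (p ^ e • z)) :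
    A.inv V hV (ptn_resLe₂ hVU z) = V.relIndex U • A.inv U hU z := by
  obtain ⟨y, hy⟩ := A.exists_isLift U hU hz e hze
  rw [A.inv_eq_of_lift (hy.resLe hV hVU), A.inv_eq_of_lift hy,
    A.INV_res U hU V hV hVU y hy.1.isLZ2]

/-- the invariant of a class killed by `p` is killed by `p` -/
lemma nsmul_inv_eq_zero (U : Subgroup G) (hU : 𝓛.IsOpen U) {z : U × U → C}
    (hz : ptd_IsLZ2p (𝓛.sub U hU) (ptd_resRep ρC U) p z) : p • A.inv U hU z = 0 := by
  have h1 := A.inv_zsmul_gen U hU hz.1 1 (by simpa using hz.2) (p : ℤ)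
  rw [natCast_zsmul, natCast_zsmul] at h1
  rw [← h1]
  exact (A.inv U hU).map_b2' _ hz.2

/-- **Surjectivity** onto the `p`-torsion of `ptn_T p`, by cyclic classes of the tower. -/
theorem exists_inv_eq (U : Subgroup G) (hU : 𝓛.IsOpen U) (t : ptn_T p) (ht : p • t = 0) :
    ∃ (k : ℕ) (a : J), (∀ u ∈ U, ρJ u a = a) ∧
      A.INV U (ptd_bockSmul (p ^ k) (fun u : U => A.χ k u) a) = t ∧
      ptd_IsLZ2p (𝓛.sub U hU) (ptd_resRep ρC U) p
        (ptd_bockSmul (p ^ k) (fun u : U => A.χ k u) (A.π a)) := by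
  obtain ⟨k, b, hb1, hb⟩ := A.exists_large_relIndex U hU 1
  obtain ⟨a₁, ha₁, hord⟩ := A.cyc U hU k
  have htors := A.INV_bock_tors k hU ha₁
  rw [hb] at htors hord
  set t₁ := A.INV U (ptd_bockSmul (p ^ k) (fun u : U => A.χ k u) a₁) with ht₁
  have hpb : p ^ b = p * p ^ (b - 1) := by rw [← pow_succ']; congr 1; omega
  -- `t₂ = p^(b-1) • t₁` has exact order `p`
  have h2 : p • (p ^ (b - 1) • t₁) = 0 := by rw [← mul_smul, ← hpb]; exact htors
  have hne : p ^ (b - 1) • t₁ ≠ 0 := by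
    intro h0
    have := hord (p ^ (b - 1) : ℕ) (by rw [natCast_zsmul]; exact h0)
    have h3 : p ^ b ∣ p ^ (b - 1) := by exact_mod_cast this
    have h4 := (Nat.pow_dvd_pow_iff_le_right hp.out.one_lt).mp h3
    omega
  obtain ⟨s, hs⟩ := ptn_T_tors_gen h2 hne t ht
  have ha : ∀ u ∈ U, ρJ u ((s * (p ^ (b - 1) : ℕ)) • a₁) = (s * (p ^ (b - 1) : ℕ)) • a₁ :=
    fun u hu => by rw [map_zsmul, ha₁ u hu]
  have hINV : A.INV U (ptd_bockSmul (p ^ k) (fun u : U => A.χ k u)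
      ((s * (p ^ (b - 1) : ℕ)) • a₁)) = t := by
    rw [ptn_bockSmul_zsmul, A.INV_zsmul U hU (A.bock_isLZ2 ρJ k hU ha₁), ← ht₁, hs, mul_smul,
      natCast_zsmul]
  refine ⟨k, (s * (p ^ (b - 1) : ℕ)) • a₁, ha, hINV, A.bock_isLZ2 ρC k hU (A.π_fixed ha), ?_⟩
  -- `p • z` is a level coboundary by injectivity
  have hlz := A.bock_isLZ2 ρJ k hU ha
  have hz := A.bock_isLZ2 ρC k hU (A.π_fixed ha)
  have hpk : ptd_IsB2 (𝓛.sub U hU) (ptd_resRep ρC U) (p ^ k •
      ptd_bockSmul (p ^ k) (fun u : U => A.χ k u) (A.π ((s * (p ^ (b - 1) : ℕ)) • a₁))) :=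
    ptn_isB2_nsmul_bockSmul (ptn_isChar_res (A.χ_char k) U) ((A.χ_lev k).res U hU)
      (fun g => A.π_fixed ha g g.2)
  have hpz : ptd_IsLZ2 (𝓛.sub U hU) (ptd_resRep ρC U) (p •
      ptd_bockSmul (p ^ k) (fun u : U => A.χ k u) (A.π ((s * (p ^ (b - 1) : ℕ)) • a₁))) :=
    hz.nsmul p
  refine (A.inv_eq_zero_iff U hU hpz k ?_).mp ?_
  · rw [smul_comm]
    exact hpk.nsmul p
  · have h5 := A.inv_zsmul_gen U hU hz k hpk (p : ℤ)
    rw [natCast_zsmul, natCast_zsmul] at h5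
    rw [h5]
    have h6 : A.inv U hU (ptd_bockSmul (p ^ k) (fun u : U => A.χ k u)
        (A.π ((s * (p ^ (b - 1) : ℕ)) • a₁))) = t := by
      rw [← hINV, ← A.inv_π U hU (A.good_bock k hU ha), ptn_map_bockSmul]
    rw [h6, ht]

end ptn_AbsK

end Fermat.Agent.Lib.PT
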