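/-
S55 (Poitou–Tate long haul), abstract class formation from an idelic invariant (ABS v3),
complements on the `p`-sections `(U, N₀)` (`N₀` a level below `K₀`, `U / N₀` a `p`-group), for
helper3's (G8.A):

* `ptn_AbsK.INV_tors_of_at` : if `π(a) · δχ_k - d1 ψ'` lives at `N₀` then `[U : N₀]` kills
  `INV_U (a · δχ_k)` (the converse of the exact-order statement of `pg_struct`);
* `ptn_AbsK.pg_isB2_at`     : **inflation from the level `N₀` is injective**: a 2-cocycle of `U`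
  living at `N₀` which is a level coboundary is the coboundary of a 1-cochain living at `N₀`.
-/
import Fermat.Agent.Lib.PT.AbkMain

set_option autoImplicit false
set_option linter.unusedSectionVars false

namespace Fermat.Agent.Lib.PT

namespace ptn_AbsK

variable {G : Type*} [Group G] {J C : Type*} [AddCommGroup J] [AddCommGroup C]
variable {𝓛 : ptd_Levels G} {ρJ : Representation ℤ G J} {ρC : Representation ℤ G C}
variable {p : ℕ} [hp : Fact p.Prime] (A : ptn_AbsK 𝓛 ρJ ρC p)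

attribute [local instance] Subgroup.fintypeQuotientOfFiniteIndex

/-- `[U : N₀] • w` is the coboundary of a 1-cochain living at `N₀`, for a 2-cocycle `w` of `U`
living at the level `N₀` -/
lemma index_smul_at' (U : Subgroup G) (N₀ : Subgroup G) (hN₀ : N₀ ∈ 𝓛.lev) {w : U × U → C}
    (hwZ : ptd_IsZ2 (ptd_resRep ρC U) w) (hwAt : ptn_At₂ U N₀ ρC w) :
    ∃ ψ : U → C, ptn_At₁ U N₀ ρC ψ ∧ (N₀.relIndex U) • w = ptd_d1 (ptd_resRep ρC U) ψ := by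
  have hN₀n : N₀.Normal := 𝓛.normal N₀ hN₀
  have hN₀f : N₀.FiniteIndex := 𝓛.finiteIndex N₀ hN₀
  have hNn : (N₀.subgroupOf U).Normal := inferInstance
  have hNf : (N₀.subgroupOf U).FiniteIndex := inferInstance
  have h3 := ptn_index_smul_eq_d1 (ptd_resRep ρC U) (N₀.subgroupOf U) hwZ
    (fun g h n hn => by
      have := hwAt.1 g h 1 n (one_mem _) (Subgroup.mem_subgroupOf.mp hn)
      rwa [mul_one] at this)
  refine ⟨_, ⟨fun g n hn => ?_, fun x n hn => ?_⟩, h3⟩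
  · refine Finset.sum_congr rfl fun q _ => ?_
    have := hwAt.1 g (Quotient.out q) n 1 hn (one_mem _)
    rwa [mul_one] at this
  · rw [map_sum]
    exact Finset.sum_congr rfl fun q _ => hwAt.2 _ n hn

/-- if `π(a) · δχ_k - d1 ψ'` lives at the level `N₀` then `[U : N₀]` kills `INV_U (a · δχ_k)` -/
theorem INV_tors_of_at (U : Subgroup G) (hU : 𝓛.IsOpen U) (N₀ : Subgroup G) (hN₀ : N₀ ∈ 𝓛.lev)
    (hN₀U : N₀ ≤ U) (k : ℕ) {a : J} (ha : ∀ u ∈ U, ρJ u a = a) {ψ' : U → C}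
    (hψ'lev : ptd_IsLev₁ (𝓛.sub U hU) ψ')
    (hwAt : ptn_At₂ U N₀ ρC (ptd_bockSmul (p ^ k) (fun u : U => A.χ k u) (A.π a) -
      ptd_d1 (ptd_resRep ρC U) ψ')) :
    (N₀.relIndex U) • A.INV U (ptd_bockSmul (p ^ k) (fun u : U => A.χ k u) a) = 0 := by
  have hwZ : ptd_IsZ2 (ptd_resRep ρC U) (ptd_bockSmul (p ^ k) (fun u : U => A.χ k u) (A.π a) -
      ptd_d1 (ptd_resRep ρC U) ψ') :=
    (A.bock_isZ2 ρC k U (A.π_fixed ha)).sub (ptd_isZ2_d1 ψ')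
  obtain ⟨ψ, hψ, h⟩ := index_smul_at' (ρC := ρC) U N₀ hN₀ hwZ hwAt
  have := A.INV_bock_of_d1 k hU ha ((N₀.relIndex U : ℕ) : ℤ)
    (ψ := ψ + ((N₀.relIndex U : ℕ) : ℤ) • ψ')
    ((hψ.isLev₁ hU hN₀ hN₀U).add (hψ'lev.comp ((((N₀.relIndex U : ℕ) : ℤ)) • ·))) (by
      rw [ptd_d1_add, ptd_d1_zsmul, ← h, natCast_zsmul, natCast_zsmul, smul_sub]
      abel)
  rwa [natCast_zsmul] at this

/-- **Inflation from a level of a `p`-section is injective**: a 2-cocycle of `U` living at `N₀`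
which is a level coboundary is the coboundary of a 1-cochain living at `N₀`. -/
theorem pg_isB2_at (U : Subgroup G) (hU : 𝓛.IsOpen U) (N₀ : Subgroup G) (hN₀ : N₀ ∈ 𝓛.lev)
    (hN₀K : N₀ ≤ A.K₀) (hN₀U : N₀ ≤ U) (hpg : ∀ x ∈ U, ∃ j : ℕ, x ^ p ^ j ∈ N₀)
    {z : U × U → C} (hz : ptd_IsZ2 (ptd_resRep ρC U) z) (hat : ptn_At₂ U N₀ ρC z)
    (hB : ptd_IsB2 (𝓛.sub U hU) (ptd_resRep ρC U) z) :
    ∃ ψ : U → C, ptn_At₁ U N₀ ρC ψ ∧ z = ptd_d1 (ptd_resRep ρC U) ψ := by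
  obtain ⟨k, a, ψ', ha, hord, hψ'lev, hwAt⟩ := A.pg_struct U hU N₀ hN₀ hN₀K hN₀U hpg
  have hN₀n : N₀.Normal := 𝓛.normal N₀ hN₀
  have hN₀o : 𝓛.IsOpen N₀ := 𝓛.isOpen_of_mem hN₀
  have hNn : (N₀.subgroupOf U).Normal := inferInstance
  have hwZ : ptd_IsZ2 (ptd_resRep ρC U) (ptd_bockSmul (p ^ k) (fun u : U => A.χ k u) (A.π a) -
      ptd_d1 (ptd_resRep ρC U) ψ') :=
    (A.bock_isZ2 ρC k U (A.π_fixed ha)).sub (ptd_isZ2_d1 ψ')
  have hordw : ∀ (m : ℤ) (ψ : U → C), ptn_At₁ U N₀ ρC ψ →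
      m • (ptd_bockSmul (p ^ k) (fun u : U => A.χ k u) (A.π a) -
        ptd_d1 (ptd_resRep ρC U) ψ') = ptd_d1 (ptd_resRep ρC U) ψ →
      ((N₀.relIndex U : ℕ) : ℤ) ∣ m := by
    intro m ψ hψ h
    apply hord m
    refine A.INV_bock_of_d1 k hU ha m (ψ := ψ + m • ψ')
      ((hψ.isLev₁ hU hN₀ hN₀U).add (hψ'lev.comp (m • ·))) ?_
    rw [ptd_d1_add, ptd_d1_zsmul, ← h, smul_sub]
    abel
  obtain ⟨n, ψ, hψ, hn⟩ := A.G5_2 U N₀ hN₀o hN₀K hN₀U hNn hpg _ hwZ hwAt hordw z hz hat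
  -- `n • (π(a) · δχ_k)` is a level coboundary, hence `n` kills the invariant
  obtain ⟨ψz, hψzlev, hψz⟩ := hB
  have h0 : n • A.INV U (ptd_bockSmul (p ^ k) (fun u : U => A.χ k u) a) = 0 := by
    refine A.INV_bock_of_d1 k hU ha n (ψ := ψz - ψ + n • ψ')
      ((hψzlev.sub (hψ.isLev₁ hU hN₀ hN₀U)).add (hψ'lev.comp (n • ·))) ?_
    rw [ptd_d1_add, ptd_d1_sub, ptd_d1_zsmul, ← hψz, ← hn, smul_sub]
    abel
  obtain ⟨c, hc⟩ := hord n h0
  obtain ⟨ψ'', hψ'', h3⟩ := index_smul_at' (ρC := ρC) U N₀ hN₀ hwZ hwAt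
  refine ⟨ψ + c • ψ'', hψ.add (hψ''.zsmul c), ?_⟩
  rw [ptd_d1_add, ptd_d1_zsmul, ← h3, ← hn, hc]
  funext x
  simp only [Pi.add_apply, Pi.sub_apply, Pi.smul_apply]
  rw [mul_comm, mul_smul, natCast_zsmul]
  abel

end ptn_AbsK

end Fermat.Agent.Lib.PT
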