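/-
S55 (Poitou–Tate long haul), abstract class formation from an idelic invariant (ABS v3),
the NORM CRITERION for cyclic cocycles, part A (pure group cohomology):

* `ptn_exists_char_gen`  : the image of a nonzero character `χ : G → ZMod n` is `d · ZMod n` for
  a value `d = χ̃ g₀` of `χ` with `d ∣ n`, `0 < d < n`;
* `ptn_charDiv`          : the character `χ / d` with values in `ZMod (n / d)`; it has the same
  Bockstein cochain and takes the value `1` (same construction as helper9's `pti_charDiv`,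
  repeated here under other names to keep the abstract files independent of the local theory);
* `ptn_sum_bock`         : `∑_{i<n} δχ (τ^i, τ) = 1` if `χ τ = 1`, `n ≠ 1`;
* `ptn_norm_of_bockSmul_eq_d1` : **norm criterion**: if `c · δχ = d1 ψ` with `ψ` vanishing on
  `ker χ` and `χ τ = 1`, then `ψ τ` is `ker χ`-invariant and `c = ∑_{i<n} τ^i (ψ τ)`;
* `ptn_norm_fixed_cyc`   : the norm `∑_{i<n} τ^i y` of a `ker χ`-invariant `y` is invariant.
-/
import Fermat.Agent.Lib.PT.RcpBock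
import Fermat.Agent.Lib.PT.AbsBock

set_option autoImplicit false
set_option linter.unusedSectionVars false

namespace Fermat.Agent.Lib.PT

section CharGen

variable {G : Type*} [Group G] {n : ℕ} [NeZero n]

/-- the image of a nonzero character with values in `ZMod n` is generated by a value `d` of (the
lift of) the character, with `d ∣ n` -/
theorem ptn_exists_char_gen {χ : G → ZMod n} (hχ : ptd_IsChar χ) (h0 : ∃ g, χ g ≠ 0) :
    ∃ (g₀ : G) (d : ℕ), (χ g₀).val = d ∧ 0 < d ∧ d < n ∧ d ∣ n ∧ ∀ g, d ∣ (χ g).val := by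
  classical
  have hex : ∃ m, 0 < m ∧ ∃ g, (χ g).val = m := by
    obtain ⟨g, hg⟩ := h0
    exact ⟨(χ g).val, Nat.pos_of_ne_zero (fun h => hg ((ZMod.val_eq_zero _).mp h)), g, rfl⟩
  obtain ⟨hdpos, g₀, hg₀⟩ := Nat.find_spec hex
  have hmin : ∀ m, 0 < m → (∃ g, (χ g).val = m) → Nat.find hex ≤ m :=
    fun m hm hg => Nat.find_min' hex ⟨hm, hg⟩
  generalize Nat.find hex = d at hdpos hg₀ hmin
  have hdn : d < n := by rw [← hg₀]; exact ZMod.val_lt _
  have h2 : χ g₀ = (d : ZMod n) := by rw [← hg₀, ZMod.natCast_zmod_val]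
  have key : ∀ (v q : ℕ) (g : G), χ g = (v : ZMod n) → q * d ≤ v → v - q * d < n →
      ∃ g', (χ g').val = v - q * d := by
    intro v q g hv hq hlt
    refine ⟨g * (g₀ ^ q)⁻¹, ?_⟩
    rw [hχ, ptn_char_inv hχ, ptn_char_pow hχ, hv, h2, nsmul_eq_mul, ← Nat.cast_mul,
      ← sub_eq_add_neg, ← Nat.cast_sub hq, ZMod.val_natCast, Nat.mod_eq_of_lt hlt]
  have hdvd : ∀ (v : ℕ) (g : G), χ g = (v : ZMod n) → v % d < n → d ∣ v := by
    intro v g hv hlt
    have h3 : v - v / d * d = v % d := by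
      have := Nat.mod_add_div' v d
      omega
    obtain ⟨g', hg'⟩ := key v (v / d) g hv (Nat.div_mul_le_self v d) (by rw [h3]; exact hlt)
    rw [h3] at hg'
    by_contra hnd
    have hpos : 0 < v % d := Nat.pos_of_ne_zero (fun h => hnd (Nat.dvd_of_mod_eq_zero h))
    have := hmin _ hpos ⟨g', hg'⟩
    have := Nat.mod_lt v hdpos
    omega
  refine ⟨g₀, d, hg₀, hdpos, hdn, ?_, fun g => ?_⟩
  · refine hdvd n 1 ?_ ((Nat.mod_lt n hdpos).trans hdn)
    rw [ptn_char_one hχ, ZMod.natCast_self]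
  · exact hdvd _ g (ZMod.natCast_zmod_val _).symm ((Nat.mod_lt _ hdpos).trans hdn)

end CharGen

section CharDiv

variable {G : Type*} [Group G] {n : ℕ} [NeZero n] (d : ℕ)

/-- division of a character with image `d · ZMod n` by `d`: a character with values in
`ZMod (n / d)` -/
def ptn_charDiv (χ : G → ZMod n) : G → ZMod (n / d) :=
  fun g => (((χ g).val / d : ℕ) : ZMod (n / d))

variable {d} {χ : G → ZMod n} (hχ : ptd_IsChar χ) (hd : d ∣ n) (hdvd : ∀ g, d ∣ (χ g).val)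

include hd in
lemma ptn_charDiv_d_pos : 0 < d :=
  Nat.pos_of_ne_zero (fun h => NeZero.ne n (by rw [h] at hd; exact Nat.eq_zero_of_zero_dvd hd))

include hd in
lemma ptn_charDiv_neZero : NeZero (n / d) :=
  ⟨(Nat.div_pos (Nat.le_of_dvd (Nat.pos_of_ne_zero (NeZero.ne n)) hd)
    (ptn_charDiv_d_pos hd)).ne'⟩

include hd hdvd in
lemma ptn_charDiv_lt (g : G) : (χ g).val / d < n / d := by
  have hdpos := ptn_charDiv_d_pos hd
  obtain ⟨a, ha⟩ := hdvd g
  obtain ⟨n', hn'⟩ := hd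
  have h1 : (χ g).val < n := ZMod.val_lt _
  rw [ha, hn', Nat.mul_div_cancel_left _ hdpos, Nat.mul_div_cancel_left _ hdpos]
  rw [ha, hn'] at h1
  exact lt_of_mul_lt_mul_left h1 (Nat.zero_le d)

include hd hdvd in
lemma ptn_charDiv_val (g : G) : (ptn_charDiv d χ g).val = (χ g).val / d := by
  have := ptn_charDiv_neZero (n := n) hd
  rw [ptn_charDiv, ZMod.val_natCast, Nat.mod_eq_of_lt (ptn_charDiv_lt hd hdvd g)]

include hχ hd hdvd in
lemma ptn_charDiv_isChar : ptd_IsChar (ptn_charDiv d χ) := by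
  intro g h
  have hdpos := ptn_charDiv_d_pos hd
  obtain ⟨a, ha⟩ := hdvd g
  obtain ⟨b, hb⟩ := hdvd h
  have hn2 : n = d * (n / d) := (Nat.mul_div_cancel' hd).symm
  have h1 : (χ (g * h)).val = ((χ g).val + (χ h).val) % n := by rw [hχ, ZMod.val_add]
  have h2 : (χ (g * h)).val / d = ((χ g).val / d + (χ h).val / d) % (n / d) := by
    have h3 : ((χ g).val + (χ h).val) % n = (d * a + d * b) % (d * (n / d)) := by
      rw [← hn2, ← ha, ← hb]
    rw [h1, h3, ← Nat.mul_add, Nat.mul_mod_mul_left, Nat.mul_div_cancel_left _ hdpos, ha, hb,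
      Nat.mul_div_cancel_left _ hdpos, Nat.mul_div_cancel_left _ hdpos]
  simp only [ptn_charDiv]
  rw [h2, ZMod.natCast_mod, Nat.cast_add]

include hχ hd hdvd in
/-- the Bockstein cochains of `χ` and `χ / d` coincide -/
lemma ptn_bock_charDiv (x : G × G) : ptd_bock (n / d) (ptn_charDiv d χ) x = ptd_bock n χ x := by
  obtain ⟨g, h⟩ := x
  have hdpos := ptn_charDiv_d_pos hd
  have hχ' := ptn_charDiv_isChar hχ hd hdvd
  have := ptn_charDiv_neZero (n := n) hd
  have hn : (n : ℤ) ≠ 0 := by exact_mod_cast (NeZero.ne n)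
  apply mul_left_cancel₀ hn
  rw [ptn_mul_bock hχ]
  have h2 := ptn_mul_bock hχ' g h
  rw [ptn_charDiv_val hd hdvd, ptn_charDiv_val hd hdvd, ptn_charDiv_val hd hdvd] at h2
  obtain ⟨a, ha⟩ := hdvd g
  obtain ⟨b, hb⟩ := hdvd h
  obtain ⟨c, hc⟩ := hdvd (g * h)
  have hnZ : (n : ℤ) = (d : ℤ) * ((n / d : ℕ) : ℤ) := by
    exact_mod_cast (Nat.mul_div_cancel' hd).symm
  rw [ha, hb, hc, Nat.mul_div_cancel_left _ hdpos, Nat.mul_div_cancel_left _ hdpos,
    Nat.mul_div_cancel_left _ hdpos] at h2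
  rw [ha, hb, hc, hnZ]
  simp only [Nat.cast_mul]
  linear_combination (d : ℤ) * h2

include hd hdvd in
lemma ptn_charDiv_eq_zero_iff (g : G) : ptn_charDiv d χ g = 0 ↔ χ g = 0 := by
  have hdpos := ptn_charDiv_d_pos hd
  have := ptn_charDiv_neZero (n := n) hd
  rw [← ZMod.val_eq_zero, ptn_charDiv_val hd hdvd, ← ZMod.val_eq_zero (χ g)]
  obtain ⟨a, ha⟩ := hdvd g
  rw [ha, Nat.mul_div_cancel_left _ hdpos]
  constructor
  · intro h; rw [h, mul_zero]
  · intro h
    rcases Nat.mul_eq_zero.mp h with h | h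
    · omega
    · exact h

include hd in
lemma ptn_charDiv_eq_one {g₀ : G} (hg₀ : (χ g₀).val = d) : ptn_charDiv d χ g₀ = 1 := by
  have hdpos := ptn_charDiv_d_pos hd
  rw [ptn_charDiv, hg₀, Nat.div_self hdpos, Nat.cast_one]

include hd in
lemma ptn_charDiv_ne_one (hdn : d < n) : n / d ≠ 1 := by
  have hdpos := ptn_charDiv_d_pos hd
  obtain ⟨n', rfl⟩ := hd
  rw [Nat.mul_div_cancel_left _ hdpos]
  rintro rfl
  omega

omit [NeZero n] in
lemma ptn_isLev₁_charDiv {𝓛 : ptd_Levels G} (hlev : ptd_IsLev₁ 𝓛 χ) :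
    ptd_IsLev₁ 𝓛 (ptn_charDiv d χ) :=
  hlev.comp (fun x : ZMod n => ((x.val / d : ℕ) : ZMod (n / d)))

end CharDiv

section NormCrit

variable {G : Type*} [Group G] {n : ℕ} [NeZero n]

lemma ptn_bock_right_ker {χ : G → ZMod n} (hχ : ptd_IsChar χ) (g : G) {v : G} (hv : χ v = 0) :
    ptd_bock n χ (g, v) = 0 := by
  simp only [ptd_bock, hχ g v, hv, add_zero, ZMod.val_zero, Nat.cast_zero, zero_sub,
    neg_add_cancel, Int.zero_ediv]

lemma ptn_bock_left_ker {χ : G → ZMod n} (hχ : ptd_IsChar χ) (g : G) {v : G} (hv : χ v = 0) :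
    ptd_bock n χ (v, g) = 0 := by
  simp only [ptd_bock, hχ v g, hv, zero_add, ZMod.val_zero, Nat.cast_zero, sub_self, add_zero,
    Int.zero_ediv]

/-- `∑_{i<n} δχ (τ^i, τ) = 1` when `χ τ = 1` -/
lemma ptn_sum_bock {χ : G → ZMod n} (hχ : ptd_IsChar χ) (hn1 : n ≠ 1) {τ : G} (hτ : χ τ = 1) :
    ∑ i ∈ Finset.range n, ptd_bock n χ (τ ^ i, τ) = 1 := by
  have hn : (n : ℤ) ≠ 0 := by exact_mod_cast NeZero.ne n
  apply mul_left_cancel₀ hn
  rw [Finset.mul_sum]
  have h1 : ∀ i ∈ Finset.range n, (n : ℤ) * ptd_bock n χ (τ ^ i, τ) =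
      ((χ τ).val : ℤ) - (((χ (τ ^ (i + 1))).val : ℤ) - ((χ (τ ^ i)).val : ℤ)) := by
    intro i _
    rw [ptn_mul_bock hχ, ← pow_succ]; ring
  rw [Finset.sum_congr rfl h1, Finset.sum_sub_distrib, Finset.sum_const, Finset.card_range,
    Finset.sum_range_sub (fun i => ((χ (τ ^ i)).val : ℤ))]
  have h2 : χ (τ ^ n) = 0 := by rw [ptn_char_pow hχ, hτ]; simp
  have h3 : χ (τ ^ 0) = 0 := by rw [pow_zero, ptn_char_one hχ]
  rw [h2, h3, hτ, ZMod.val_one'' hn1, ZMod.val_zero]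
  simp

variable {C : Type*} [AddCommGroup C] {ρ : Representation ℤ G C}

/-- **Norm criterion**: if `c · δχ = d1 ψ` with `ψ` vanishing on `ker χ`, and `χ τ = 1`, then
`ψ τ` is `ker χ`-invariant and `c` is its norm. -/
theorem ptn_norm_of_bockSmul_eq_d1 {χ : G → ZMod n} (hχ : ptd_IsChar χ) (hn1 : n ≠ 1) {τ : G}
    (hτ : χ τ = 1) {c : C} {ψ : G → C} (hψ : ptd_bockSmul n χ c = ptd_d1 ρ ψ)
    (hψ0 : ∀ v, χ v = 0 → ψ v = 0) :
    (∀ v, χ v = 0 → ρ v (ψ τ) = ψ τ) ∧ c = ∑ i ∈ Finset.range n, ρ (τ ^ i) (ψ τ) := by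
  have hd : ∀ g h, ρ g (ψ h) - ψ (g * h) + ψ g = ptd_bock n χ (g, h) • c := fun g h => by
    have := congrFun hψ (g, h)
    rw [ptn_bockSmul_apply, ptd_d1_apply] at this
    exact this.symm
  -- right invariance under the kernel
  have hi : ∀ g v, χ v = 0 → ψ (g * v) = ψ g := fun g v hv => by
    have := hd g v
    rw [ptn_bock_right_ker hχ g hv, zero_smul, hψ0 v hv, map_zero, zero_sub] at this
    have h2 : ψ (g * v) = ψ g - (-ψ (g * v) + ψ g) := by abel
    rw [h2, this, sub_zero]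
  -- the values are invariant under the kernel
  have hii : ∀ g v, χ v = 0 → ρ v (ψ g) = ψ g := fun g v hv => by
    have := hd v g
    rw [ptn_bock_left_ker hχ g hv, zero_smul, hψ0 v hv, add_zero] at this
    have h3 : v * g = g * (g⁻¹ * v * g) := by group
    have h4 : χ (g⁻¹ * v * g) = 0 := by rw [hχ, hχ, ptn_char_inv hχ, hv]; ring
    rw [h3, hi g _ h4] at this
    exact sub_eq_zero.mp this
  refine ⟨hii τ, ?_⟩
  have hsum : ∑ i ∈ Finset.range n, ptd_bock n χ (τ ^ i, τ) • c =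
      ∑ i ∈ Finset.range n, ρ (τ ^ i) (ψ τ) := by
    have h1 : ∀ i ∈ Finset.range n, ptd_bock n χ (τ ^ i, τ) • c =
        ρ (τ ^ i) (ψ τ) - (ψ (τ ^ (i + 1)) - ψ (τ ^ i)) := by
      intro i _
      rw [← hd, ← pow_succ]; abel
    rw [Finset.sum_congr rfl h1, Finset.sum_sub_distrib,
      Finset.sum_range_sub (fun i => ψ (τ ^ i))]
    have hτn : χ (τ ^ n) = 0 := by rw [ptn_char_pow hχ, hτ]; simp
    rw [hψ0 _ hτn, pow_zero, hψ0 1 (ptn_char_one hχ), sub_self, sub_zero]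
  rw [← hsum, ← Finset.sum_smul, ptn_sum_bock hχ hn1 hτ, one_smul]

/-- the norm `∑_{i<n} τ^i y` of a `ker χ`-invariant element is invariant -/
lemma ptn_norm_fixed_cyc {χ : G → ZMod n} (hχ : ptd_IsChar χ) {τ : G} (hτ : χ τ = 1) {y : C}
    (hy : ∀ v, χ v = 0 → ρ v y = y) (g : G) :
    ρ g (∑ i ∈ Finset.range n, ρ (τ ^ i) y) = ∑ i ∈ Finset.range n, ρ (τ ^ i) y := by
  have h1 := ptl_act_partialNorm (ρC := ρ) hχ hτ hy g n
  have h2 := ptl_partialNorm_add_mul (ρC := ρ) hχ hτ hy (χ g).val 1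
  rw [mul_one, one_smul] at h2
  rw [add_comm, h2, add_sub_cancel_right] at h1
  exact h1

end NormCrit

end Fermat.Agent.Lib.PT
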