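/-
S55 (Poitou–Tate long haul), A-track: `ptn_T p = ℚ / ℤ_(p)` has no prime-to-`p` torsion
(the hypothesis `hT` of `ptd_GLG_of_good`).
-/
import Fermat.Agent.Lib.PT.BrgT

set_option autoImplicit false

namespace Fermat.Agent.Lib.PT

variable {p : ℕ} [hp : Fact p.Prime]

/-- multiplication by a number prime to `p` is injective on `ℚ / ℤ_(p)` -/
theorem ptd_T_eq_zero_of_coprime_nsmul (m : ℕ) (hm : ¬ p ∣ m) (t : ptn_T p) (h : m • t = 0) :
    t = 0 := by
  obtain ⟨q, rfl⟩ := QuotientAddGroup.mk_surjective t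
  rw [← QuotientAddGroup.mk_nsmul, QuotientAddGroup.eq_zero_iff] at h
  rw [QuotientAddGroup.eq_zero_iff]
  obtain ⟨m', hm', j, hj⟩ := h
  refine ⟨m' * m, fun hd => ?_, j, ?_⟩
  · rcases (Nat.Prime.dvd_mul hp.out).mp hd with h' | h'
    · exact hm' h'
    · exact hm h'
  · rw [← hj, nsmul_eq_mul]
    push_cast
    ring

end Fermat.Agent.Lib.PT
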