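/-
S55 (Poitou–Tate long haul), abstract class formation from an idelic invariant (ABS v3),
the NORM CRITERION for cyclic cocycles, part B: **`INV_cyc` from primitive inputs**.

`ptn_AbsP` = `ptn_AbsK` with the cyclic reciprocity `INV_cyc` replaced by
* `INV_ker` : `INV_U (z · δχ_k) = 0` for `z ∈ J^U` with `π z = 0`  (reciprocity for PRINCIPAL
  ideles in the tower + unit cocycles);
* `lift`    : `C^W = π (J^W)` for every open `W`.
`ptn_AbsP.INV_cyc` derives the cyclic reciprocity: if `π(a) · δχ_k|U` is a level coboundary then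
`INV_U (a · δχ_k|U) = 0`.  Proof: pass to a Sylow `p`-subgroup `P` of `U` over a deep level `N₁`
(`INV_res` and the absence of prime-to-`p` torsion in `ptn_T p`); on `P`, Hilbert 90 (`G5_1`) for
`(P ⊓ ker χ_k, N₁)` makes the bounding cochain vanish on `P ⊓ ker χ_k`; the norm criterion gives
`π(a) = Nm(c')`, `c'` invariant under `P ⊓ ker χ_k`; lift `c' = π(a')`; then
`a = Nm(a') + z`, `π z = 0`, and `Nm(a') · δχ` is a `J`-coboundary (helper6's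
`ptl_bockSmulN_norm_eq_d1`).  `ptn_AbsP.toAbsK` is the resulting `ptn_AbsK`.
-/
import Fermat.Agent.Lib.PT.AbkMain
import Fermat.Agent.Lib.PT.AbkNormA
import Fermat.Agent.Lib.PT.AdtT

set_option autoImplicit false
set_option linter.unusedSectionVars false

namespace Fermat.Agent.Lib.PT

section Img

variable {G : Type*} [Group G] (U : Subgroup G) (P' : Subgroup U)

lemma ptn_img_relIndex : (ptn_img U P').relIndex U = P'.index := by
  show ((P'.map U.subtype).comap U.subtype).index = P'.index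
  rw [Subgroup.comap_map_eq_self_of_injective U.subtype_injective]

end Img

section BockDiv

variable {G : Type*} [Group G] {n : ℕ} [NeZero n] {d : ℕ} {χ : G → ZMod n}

lemma ptn_bockSmul_charDiv (hχ : ptd_IsChar χ) (hd : d ∣ n) (hdvd : ∀ g, d ∣ (χ g).val)
    {X : Type*} [AddCommGroup X] (c : X) :
    ptd_bockSmul (n / d) (ptn_charDiv d χ) c = ptd_bockSmul n χ c := by
  funext x
  show ptd_bock (n / d) (ptn_charDiv d χ) x • c = ptd_bock n χ x • c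
  rw [ptn_bock_charDiv hχ hd hdvd]

end BockDiv

section Data

variable {G : Type*} [Group G] {J C : Type*} [AddCommGroup J] [AddCommGroup C]

/-- **Abstract global class formation data, primitive form**: as `ptn_AbsK`, with the cyclic
reciprocity replaced by reciprocity on the kernel of `π` (`INV_ker`) and the surjectivity of `π`
on invariants (`lift`). -/
structure ptn_AbsP (𝓛 : ptd_Levels G) (ρJ : Representation ℤ G J) (ρC : Representation ℤ G C)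
    (p : ℕ) [Fact p.Prime] where
  /-- the projection from ideles to idele classes -/
  π : J →+ C
  π_equiv : ∀ g a, π (ρJ g a) = ρC g (π a)
  discJ : ptd_IsDiscrete 𝓛 ρJ
  discC : ptd_IsDiscrete 𝓛 ρC
  /-- the tower characters -/
  χ : ∀ k : ℕ, G → ZMod (p ^ k)
  χ_char : ∀ k, ptd_IsChar (χ k)
  χ_lev : ∀ k, ptd_IsLev₁ 𝓛 (χ k)
  χ_surj : ∀ k, Function.Surjective (χ k)
  χ_compat : ∀ (k : ℕ) (g : G),
    ZMod.castHom (pow_dvd_pow p (Nat.le_succ k)) (ZMod (p ^ k)) (χ (k + 1) g) = χ k g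
  /-- the idelic invariant maps -/
  INV : ∀ U : Subgroup G, (U × U → J) → ptn_T p
  INV_add : ∀ (U : Subgroup G) (hU : 𝓛.IsOpen U) (y y' : U × U → J),
    ptd_IsLZ2 (𝓛.sub U hU) (ptd_resRep ρJ U) y → ptd_IsLZ2 (𝓛.sub U hU) (ptd_resRep ρJ U) y' →
    INV U (y + y') = INV U y + INV U y'
  INV_d1 : ∀ (U : Subgroup G) (hU : 𝓛.IsOpen U) (ψ : U → J), ptd_IsLev₁ (𝓛.sub U hU) ψ →
    INV U (ptd_d1 (ptd_resRep ρJ U) ψ) = 0
  INV_ker : ∀ (U : Subgroup G) (_ : 𝓛.IsOpen U) (k : ℕ) (z : J), (∀ u ∈ U, ρJ u z = z) →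
    π z = 0 → INV U (ptd_bockSmul (p ^ k) (fun u : U => χ k u) z) = 0
  lift : ∀ (W : Subgroup G) (_ : 𝓛.IsOpen W) (c : C), (∀ w ∈ W, ρC w c = c) →
    ∃ j : J, (∀ w ∈ W, ρJ w j = j) ∧ π j = c
  INV_res : ∀ (U : Subgroup G) (hU : 𝓛.IsOpen U) (V : Subgroup G) (_ : 𝓛.IsOpen V) (hVU : V ≤ U)
    (y : U × U → J), ptd_IsLZ2 (𝓛.sub U hU) (ptd_resRep ρJ U) y →
    INV V (ptn_resLe₂ hVU y) = V.relIndex U • INV U y
  /-- the open subgroup below which the `p`-sections are controlled -/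
  K₀ : Subgroup G
  K₀_open : 𝓛.IsOpen K₀
  G5_1 : ∀ (U N : Subgroup G), 𝓛.IsOpen N → N ≤ K₀ → N ≤ U → (N.subgroupOf U).Normal →
    (∀ x ∈ U, ∃ j : ℕ, x ^ p ^ j ∈ N) → ∀ φ : U → C, ptd_IsZ1 (ptd_resRep ρC U) φ →
    ptn_At₁ U N ρC φ → ptd_IsB1 (ptd_resRep ρC U) φ
  G5_2 : ∀ (U N : Subgroup G), 𝓛.IsOpen N → N ≤ K₀ → N ≤ U → (N.subgroupOf U).Normal →
    (∀ x ∈ U, ∃ j : ℕ, x ^ p ^ j ∈ N) → ∀ w : U × U → C, ptd_IsZ2 (ptd_resRep ρC U) w →
    ptn_At₂ U N ρC w →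
    (∀ (m : ℤ) (ψ : U → C), ptn_At₁ U N ρC ψ → m • w = ptd_d1 (ptd_resRep ρC U) ψ →
      ((N.relIndex U : ℕ) : ℤ) ∣ m) →
    ∀ z : U × U → C, ptd_IsZ2 (ptd_resRep ρC U) z → ptn_At₂ U N ρC z →
    ∃ (n : ℤ) (ψ : U → C), ptn_At₁ U N ρC ψ ∧ z - n • w = ptd_d1 (ptd_resRep ρC U) ψ
  cyc : ∀ (V : Subgroup G) (_ : 𝓛.IsOpen V) (k : ℕ), ∃ a : J, (∀ v ∈ V, ρJ v a = a) ∧
    ∀ m : ℤ, m • INV V (ptd_bockSmul (p ^ k) (fun v : V => χ k v) a) = 0 →
      (((ptn_charKer (χ_char k)).relIndex V : ℕ) : ℤ) ∣ m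

end Data

namespace ptn_AbsP

variable {G : Type*} [Group G] {J C : Type*} [AddCommGroup J] [AddCommGroup C]
variable {𝓛 : ptd_Levels G} {ρJ : Representation ℤ G J} {ρC : Representation ℤ G C}
variable {p : ℕ} [hp : Fact p.Prime] (B : ptn_AbsP 𝓛 ρJ ρC p)

instance neZero_pow (k : ℕ) : NeZero (p ^ k) := ⟨pow_ne_zero k hp.out.ne_zero⟩

lemma INV_zero (U : Subgroup G) (hU : 𝓛.IsOpen U) : B.INV U 0 = 0 := by
  have := B.INV_add U hU 0 0 ptd_isLZ2_zero ptd_isLZ2_zero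
  rw [add_zero] at this
  exact left_eq_add.mp this

lemma bock_isLZ2 (k : ℕ) {V : Subgroup G} (hV : 𝓛.IsOpen V) {c : J} (hc : ∀ v ∈ V, ρJ v c = c) :
    ptd_IsLZ2 (𝓛.sub V hV) (ptd_resRep ρJ V) (ptd_bockSmul (p ^ k) (fun v : V => B.χ k v) c) :=
  ⟨ptn_isZ2_bockSmul (ptn_isChar_res (B.χ_char k) V) (fun g => hc g g.2),
    ptn_isLev₂_bockSmul ((B.χ_lev k).res V hV) c⟩

/-- **The `p`-section case of cyclic reciprocity.** -/
theorem INV_cyc_pg (P : Subgroup G) (hP : 𝓛.IsOpen P) (k : ℕ) (N₁ : Subgroup G)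
    (hN₁ : N₁ ∈ 𝓛.lev) (hN₁P : N₁ ≤ P) (hN₁K : N₁ ≤ B.K₀)
    (hN₁χ : N₁ ≤ ptn_charKer (B.χ_char k)) (hpg : ∀ x ∈ P, ∃ j : ℕ, x ^ p ^ j ∈ N₁)
    {a : J} (ha : ∀ u ∈ P, ρJ u a = a) {ψ : P → C} (hψ : ptn_At₁ P N₁ ρC ψ)
    (h : ptd_bockSmul (p ^ k) (fun u : P => B.χ k u) (B.π a) = ptd_d1 (ptd_resRep ρC P) ψ) :
    B.INV P (ptd_bockSmul (p ^ k) (fun u : P => B.χ k u) a) = 0 := by
  have hχP : ptd_IsChar (fun u : P => B.χ k u) := ptn_isChar_res (B.χ_char k) P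
  have hlevP : ptd_IsLev₁ (𝓛.sub P hP) (fun u : P => B.χ k u) := (B.χ_lev k).res P hP
  by_cases h0 : ∃ g : P, B.χ k g ≠ 0
  swap
  · -- the character is trivial on `P`: the cocycle vanishes
    push Not at h0
    have : ptd_bockSmul (p ^ k) (fun u : P => B.χ k u) a = 0 := by
      funext x
      rw [ptn_bockSmul_apply, ptn_bock_right_ker hχP x.1 (h0 x.2), zero_smul]
      rfl
    rw [this, B.INV_zero P hP]
  -- the normalised character
  obtain ⟨g₀, d, hg₀, hdpos, hdn, hdn', hdvd⟩ := ptn_exists_char_gen hχP h0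
  have hnz : NeZero (p ^ k / d) := ptn_charDiv_neZero hdn'
  have hχ' : ptd_IsChar (ptn_charDiv d (fun u : P => B.χ k u)) :=
    ptn_charDiv_isChar hχP hdn' hdvd
  have hτ : ptn_charDiv d (fun u : P => B.χ k u) g₀ = 1 := ptn_charDiv_eq_one hdn' hg₀
  have hn1 : p ^ k / d ≠ 1 := ptn_charDiv_ne_one hdn' hdn
  have hker : ∀ g : P, ptn_charDiv d (fun u : P => B.χ k u) g = 0 ↔ B.χ k g = 0 :=
    ptn_charDiv_eq_zero_iff hdn' hdvd
  -- Hilbert 90 on `W = P ⊓ ker χ_k`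
  have hN₁n : N₁.Normal := 𝓛.normal N₁ hN₁
  have hWP : P ⊓ ptn_charKer (B.χ_char k) ≤ P := inf_le_left
  have hN₁W : N₁ ≤ P ⊓ ptn_charKer (B.χ_char k) := le_inf hN₁P hN₁χ
  have hWo : 𝓛.IsOpen (P ⊓ ptn_charKer (B.χ_char k)) :=
    ptn_isOpen_inf hP (ptn_charKer_isOpen (B.χ_char k) (B.χ_lev k))
  have hZ : ptd_IsZ1 (ptd_resRep ρC (P ⊓ ptn_charKer (B.χ_char k))) (ptn_resLe₁ hWP ψ) := by
    intro g g'
    have h1 := congrFun h (Subgroup.inclusion hWP g, Subgroup.inclusion hWP g')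
    rw [ptn_bockSmul_apply, ptn_bock_right_ker hχP _
      (show B.χ k (Subgroup.inclusion hWP g') = 0 from g'.2.2), zero_smul, ptd_d1_apply] at h1
    simp only [ptn_resLe₁_apply, map_mul]
    have h2 : ψ (Subgroup.inclusion hWP g * Subgroup.inclusion hWP g') =
        ptd_resRep ρC P (Subgroup.inclusion hWP g) (ψ (Subgroup.inclusion hWP g')) +
          ψ (Subgroup.inclusion hWP g) -
        (ptd_resRep ρC P (Subgroup.inclusion hWP g) (ψ (Subgroup.inclusion hWP g')) -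
          ψ (Subgroup.inclusion hWP g * Subgroup.inclusion hWP g') +
          ψ (Subgroup.inclusion hWP g)) := by abel
    rw [h2, ← h1, sub_zero]
    rfl
  have hAt : ptn_At₁ (P ⊓ ptn_charKer (B.χ_char k)) N₁ ρC (ptn_resLe₁ hWP ψ) :=
    ⟨fun x n hn => by
      show ψ (Subgroup.inclusion hWP (x * n)) = ψ (Subgroup.inclusion hWP x)
      rw [map_mul]
      exact hψ.1 _ (Subgroup.inclusion hWP n) hn, fun x n hn => hψ.2 _ n hn⟩
  obtain ⟨e, he⟩ := B.G5_1 (P ⊓ ptn_charKer (B.χ_char k)) N₁ (𝓛.isOpen_of_mem hN₁) hN₁K hN₁W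
    inferInstance (fun x hx => hpg x hx.1) _ hZ hAt
  -- the corrected cochain vanishes on `W`
  have hψ' : ptd_bockSmul (p ^ k / d) (ptn_charDiv d (fun u : P => B.χ k u)) (B.π a) =
      ptd_d1 (ptd_resRep ρC P) (ψ - ptd_d0 (ptd_resRep ρC P) e) := by
    rw [ptn_bockSmul_charDiv hχP hdn' hdvd, h, ptd_d1_sub, ptd_d1_d0, sub_zero]
  have hψ'0 : ∀ v : P, ptn_charDiv d (fun u : P => B.χ k u) v = 0 →
      (ψ - ptd_d0 (ptd_resRep ρC P) e) v = 0 := by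
    intro v hv
    have hvW : (v : G) ∈ P ⊓ ptn_charKer (B.χ_char k) := ⟨v.2, (hker v).mp hv⟩
    have h1 := congrFun he ⟨(v : G), hvW⟩
    rw [Pi.sub_apply, sub_eq_zero]
    exact h1
  obtain ⟨hc'fix, hc'⟩ := ptn_norm_of_bockSmul_eq_d1 hχ' hn1 hτ hψ' hψ'0
  -- lift `c'`
  obtain ⟨a', ha'fix, ha'π⟩ := B.lift (P ⊓ ptn_charKer (B.χ_char k)) hWo
    ((ψ - ptd_d0 (ptd_resRep ρC P) e) g₀) (fun w hw => by
      have := hc'fix ⟨w, hw.1⟩ ((hker _).mpr hw.2)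
      exact this)
  have hy : ∀ v : P, ptn_charDiv d (fun u : P => B.χ k u) v = 0 →
      ptd_resRep ρJ P v a' = a' := fun v hv => ha'fix v ⟨v.2, (hker v).mp hv⟩
  -- the norm `b` of `a'`
  have hbfix : ∀ u ∈ P, ρJ u (∑ i ∈ Finset.range (p ^ k / d), ptd_resRep ρJ P (g₀ ^ i) a') =
      ∑ i ∈ Finset.range (p ^ k / d), ptd_resRep ρJ P (g₀ ^ i) a' := fun u hu =>
    ptn_norm_fixed_cyc (ρ := ptd_resRep ρJ P) hχ' hτ hy ⟨u, hu⟩
  have hbπ : B.π (∑ i ∈ Finset.range (p ^ k / d), ptd_resRep ρJ P (g₀ ^ i) a') = B.π a := by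
    rw [hc', map_sum]
    refine Finset.sum_congr rfl fun i _ => ?_
    rw [ptd_resRep_apply, B.π_equiv, ha'π]
    rfl
  have hbd1 := ptl_bockSmulN_norm_eq_d1 (ρC := ptd_resRep ρJ P) hχ' hτ hy
  rw [ptn_bockSmul_charDiv hχP hdn' hdvd] at hbd1
  have hlevφ : ptd_IsLev₁ (𝓛.sub P hP) (fun g : P => ptl_partialNorm (ptd_resRep ρJ P) g₀ a'
      (ptn_charDiv d (fun u : P => B.χ k u) g).val) :=
    (ptn_isLev₁_charDiv hlevP).comp
      (fun z : ZMod (p ^ k / d) => ptl_partialNorm (ptd_resRep ρJ P) g₀ a' z.val)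
  -- the difference `z = a - b`
  have hzfix : ∀ u ∈ P, ρJ u (a - ∑ i ∈ Finset.range (p ^ k / d),
      ptd_resRep ρJ P (g₀ ^ i) a') = a - ∑ i ∈ Finset.range (p ^ k / d),
      ptd_resRep ρJ P (g₀ ^ i) a' := fun u hu => by rw [map_sub, ha u hu, hbfix u hu]
  have hzπ : B.π (a - ∑ i ∈ Finset.range (p ^ k / d), ptd_resRep ρJ P (g₀ ^ i) a') = 0 := by
    rw [map_sub, hbπ, sub_self]
  have hsplit : ptd_bockSmul (p ^ k) (fun u : P => B.χ k u) a =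
      ptd_bockSmul (p ^ k) (fun u : P => B.χ k u)
        (∑ i ∈ Finset.range (p ^ k / d), ptd_resRep ρJ P (g₀ ^ i) a') +
      ptd_bockSmul (p ^ k) (fun u : P => B.χ k u)
        (a - ∑ i ∈ Finset.range (p ^ k / d), ptd_resRep ρJ P (g₀ ^ i) a') := by
    rw [← ptn_bockSmul_add, add_sub_cancel]
  rw [hsplit, B.INV_add P hP _ _ (B.bock_isLZ2 k hP hbfix) (B.bock_isLZ2 k hP hzfix),
    B.INV_ker P hP k _ hzfix hzπ, add_zero, hbd1]
  exact B.INV_d1 P hP _ hlevφ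

/-- **Cyclic reciprocity from the primitive inputs**: if `π(a) · δχ_k|U` is a level coboundary,
then `INV_U (a · δχ_k|U) = 0`. -/
theorem INV_cyc (U : Subgroup G) (hU : 𝓛.IsOpen U) (k : ℕ) (a : J) (ha : ∀ u ∈ U, ρJ u a = a)
    (hB : ptd_IsB2 (𝓛.sub U hU) (ptd_resRep ρC U)
      (ptd_bockSmul (p ^ k) (fun u : U => B.χ k u) (B.π a))) :
    B.INV U (ptd_bockSmul (p ^ k) (fun u : U => B.χ k u) a) = 0 := by
  obtain ⟨ψ, hψlev, hψ⟩ := hB
  -- a deep level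
  obtain ⟨N₀, hN₀, hN₀U, hat⟩ := ptn_exists_at₁ B.discC hU hψlev
  obtain ⟨NK, hNK, hNKK⟩ := B.K₀_open
  obtain ⟨Nχ, hNχ, hNχle⟩ := ptn_charKer_isOpen (B.χ_char k) (B.χ_lev k)
  obtain ⟨N₂, hN₂, hN₂le⟩ := 𝓛.directed N₀ hN₀ NK hNK
  obtain ⟨N₁, hN₁, hN₁le⟩ := 𝓛.directed N₂ hN₂ Nχ hNχ
  have hN₁N₀ : N₁ ≤ N₀ := (hN₁le.trans inf_le_left).trans (hN₂le.trans inf_le_left)
  have hN₁K : N₁ ≤ B.K₀ := ((hN₁le.trans inf_le_left).trans (hN₂le.trans inf_le_right)).trans hNKK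
  have hN₁χ : N₁ ≤ ptn_charKer (B.χ_char k) := (hN₁le.trans inf_le_right).trans hNχle
  have hN₁U : N₁ ≤ U := hN₁N₀.trans hN₀U
  -- a Sylow subgroup over `N₁`
  obtain ⟨P', hidx, hP', hN₁P, hpg⟩ := ptn_AbsK.sylow_setup (p := p) U hU hN₁ hN₁U
  have hPo : 𝓛.IsOpen (ptn_img U P') := ptn_img_isOpen U P' hU hP'
  have hPU := ptn_img_le U P'
  have hres := B.INV_res U hU (ptn_img U P') hPo hPU _ (B.bock_isLZ2 k hU ha)
  have h2 : ptn_resLe₂ hPU (ptd_bockSmul (p ^ k) (fun u : U => B.χ k u) a) =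
      ptd_bockSmul (p ^ k) (fun v : ptn_img U P' => B.χ k v) a := rfl
  have hψP : ptn_At₁ (ptn_img U P') N₁ ρC (ptn_resLe₁ hPU ψ) :=
    ⟨fun x n hn => by
      show ψ (Subgroup.inclusion hPU (x * n)) = ψ (Subgroup.inclusion hPU x)
      rw [map_mul]
      exact hat.1 _ (Subgroup.inclusion hPU n) (hN₁N₀ hn), fun x n hn => hat.2 _ n (hN₁N₀ hn)⟩
  have hP0 := B.INV_cyc_pg (ptn_img U P') hPo k N₁ hN₁ hN₁P hN₁K hN₁χ hpg
    (fun u hu => ha u (hPU hu)) hψP (by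
      have := congrArg (ptn_resLe₂ hPU) hψ
      rw [ptn_resLe_d1] at this
      exact this)
  rw [h2, hP0, ptn_img_relIndex] at hres
  exact ptd_T_eq_zero_of_coprime_nsmul _ hidx _ hres.symm

/-- the class formation data `ptn_AbsK` defined by the primitive data -/
def toAbsK : ptn_AbsK 𝓛 ρJ ρC p where
  π := B.π
  π_equiv := B.π_equiv
  discJ := B.discJ
  discC := B.discC
  χ := B.χ
  χ_char := B.χ_char
  χ_lev := B.χ_lev
  χ_surj := B.χ_surj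
  χ_compat := B.χ_compat
  INV := B.INV
  INV_add := B.INV_add
  INV_d1 := B.INV_d1
  INV_cyc := B.INV_cyc
  INV_res := B.INV_res
  K₀ := B.K₀
  K₀_open := B.K₀_open
  G5_1 := B.G5_1
  G5_2 := B.G5_2
  cyc := B.cyc

end ptn_AbsP

end Fermat.Agent.Lib.PT
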