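/-
  S55, ADT-lite arithmetic inputs, formal part (helper6, prefix `ptl_`): elementary properties of
  helper3's Bockstein cocycle `ptd_bock p χ` and of `ptd_bockSmul p χ c = c · δχ`:
  `p · bock χ = d χ̃`, cocycle identity, level-constancy, `p • (c·δχ) = d(χ̃ • c)` (so `c·δχ` is a
  level cocycle with `p`-torsion class for invariant `c`), additivity in `χ` up to an explicit
  coboundary, additivity in `c`.
-/
import Fermat.Agent.Lib.PT.AdtDefs

set_option autoImplicit false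
set_option linter.unusedSectionVars false

namespace Fermat.Agent.Lib.PT

section Bock

variable {G : Type*} [Group G] {p : ℕ} [Fact p.Prime]

/-- the integer lift `χ̃ = ZMod.val ∘ χ` of a function `χ : G → ZMod p` -/
def ptl_lift (χ : G → ZMod p) (g : G) : ℤ := ((χ g).val : ℤ)

theorem ptl_lift_nonneg (χ : G → ZMod p) (g : G) : 0 ≤ ptl_lift χ g := Int.natCast_nonneg _

theorem ptl_lift_lt (χ : G → ZMod p) (g : G) : ptl_lift χ g < p := by
  have : (χ g).val < p := ZMod.val_lt _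
  unfold ptl_lift; exact_mod_cast this

theorem ptl_lift_cast (χ : G → ZMod p) (g : G) : ((ptl_lift χ g : ℤ) : ZMod p) = χ g := by
  unfold ptl_lift; simp

theorem ptl_bock_def (χ : G → ZMod p) (g h : G) :
    ptd_bock p χ (g, h) = (ptl_lift χ h - ptl_lift χ (g * h) + ptl_lift χ g) / (p : ℤ) := rfl

/-- `p · bock χ = d χ̃` -/
theorem ptl_mul_bock {χ : G → ZMod p} (hχ : ptd_IsChar χ) (g h : G) :
    (p : ℤ) * ptd_bock p χ (g, h) = ptl_lift χ h - ptl_lift χ (g * h) + ptl_lift χ g := by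
  rw [ptl_bock_def]
  apply Int.mul_ediv_cancel'
  rw [← ZMod.intCast_zmod_eq_zero_iff_dvd]
  push_cast
  rw [ptl_lift_cast, ptl_lift_cast, ptl_lift_cast, hχ g h]
  ring

/-- the Bockstein is an integral `2`-cocycle (trivial action) -/
theorem ptl_bock_cocycle {χ : G → ZMod p} (hχ : ptd_IsChar χ) (g h j : G) :
    ptd_bock p χ (g * h, j) + ptd_bock p χ (g, h) =
      ptd_bock p χ (h, j) + ptd_bock p χ (g, h * j) := by
  have hp : (p : ℤ) ≠ 0 := by exact_mod_cast (Fact.out : p.Prime).ne_zero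
  apply mul_left_cancel₀ hp
  rw [mul_add, mul_add, ptl_mul_bock hχ, ptl_mul_bock hχ, ptl_mul_bock hχ, ptl_mul_bock hχ,
    mul_assoc]
  ring

theorem ptl_bock_zero (x : G × G) : ptd_bock p (0 : G → ZMod p) x = 0 := by
  simp [ptd_bock]

/-- values of the Bockstein are `0` or `1` -/
theorem ptl_bock_mem {χ : G → ZMod p} (hχ : ptd_IsChar χ) (g h : G) :
    ptd_bock p χ (g, h) = 0 ∨ ptd_bock p χ (g, h) = 1 := by
  have hp : (0 : ℤ) < p := by exact_mod_cast (Fact.out : p.Prime).pos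
  have h1 := ptl_mul_bock hχ g h
  have a1 := ptl_lift_nonneg χ g
  have a2 := ptl_lift_lt χ g
  have b1 := ptl_lift_nonneg χ h
  have b2 := ptl_lift_lt χ h
  have c1 := ptl_lift_nonneg χ (g * h)
  have c2 := ptl_lift_lt χ (g * h)
  have hlt : (p : ℤ) * ptd_bock p χ (g, h) < p * 2 := by rw [h1]; linarith
  have hgt : (p : ℤ) * (-1) < p * ptd_bock p χ (g, h) := by rw [h1]; linarith
  have h2 : ptd_bock p χ (g, h) < 2 := lt_of_mul_lt_mul_left hlt hp.le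
  have h3 : -1 < ptd_bock p χ (g, h) := lt_of_mul_lt_mul_left hgt hp.le
  omega

end Bock

section BockSmul

variable {G : Type*} [Group G] {𝓛 : ptd_Levels G} {p : ℕ} [Fact p.Prime]
variable {C : Type*} [AddCommGroup C] {ρC : Representation ℤ G C}

theorem ptl_bockSmul_apply (χ : G → ZMod p) (c : C) (x : G × G) :
    ptd_bockSmul p χ c x = ptd_bock p χ x • c := rfl

theorem ptl_bockSmul_add (χ : G → ZMod p) (c c' : C) :
    ptd_bockSmul p χ (c + c') = ptd_bockSmul p χ c + ptd_bockSmul p χ c' := by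
  funext x; simp [ptl_bockSmul_apply, smul_add]

theorem ptl_bockSmul_zero_right (χ : G → ZMod p) : ptd_bockSmul p χ (0 : C) = 0 := by
  funext x; simp [ptl_bockSmul_apply]

theorem ptl_bockSmul_zero_left (c : C) : ptd_bockSmul p (0 : G → ZMod p) c = 0 := by
  funext x; simp [ptl_bockSmul_apply, ptl_bock_zero]

theorem ptl_bockSmul_nsmul (χ : G → ZMod p) (n : ℕ) (c : C) :
    ptd_bockSmul p χ (n • c) = n • ptd_bockSmul p χ c := by
  funext x; simp only [ptl_bockSmul_apply, Pi.smul_apply]; exact smul_comm _ _ _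

/-- `c · δχ` is a `2`-cocycle when `c` is invariant -/
theorem ptl_bockSmul_isZ2 {χ : G → ZMod p} (hχ : ptd_IsChar χ) {c : C} (hc : ∀ g, ρC g c = c) :
    ptd_IsZ2 ρC (ptd_bockSmul p χ c) := by
  intro g h j
  simp only [ptl_bockSmul_apply, map_zsmul, hc, ← add_smul]
  rw [ptl_bock_cocycle hχ]

theorem ptl_lift_isLev₁ {χ : G → ZMod p} (hlev : ptd_IsLev₁ 𝓛 χ) : ptd_IsLev₁ 𝓛 (ptl_lift χ) :=
  hlev.comp (fun z : ZMod p => ((z.val : ℕ) : ℤ))

/-- the Bockstein of a level-constant character is level-constant -/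
theorem ptl_bock_isLev₂ {χ : G → ZMod p} (hlev : ptd_IsLev₁ 𝓛 χ) : ptd_IsLev₂ 𝓛 (ptd_bock p χ) := by
  have h1 : ptd_IsLev₂ 𝓛 (fun x : G × G => ptl_lift χ x.2) := (ptl_lift_isLev₁ hlev).snd
  have h2 : ptd_IsLev₂ 𝓛 (fun x : G × G => ptl_lift χ (x.1 * x.2)) :=
    ptd_IsLev₁.mul (f := ptl_lift χ) (ptl_lift_isLev₁ hlev)
  have h3 : ptd_IsLev₂ 𝓛 (fun x : G × G => ptl_lift χ x.1) := (ptl_lift_isLev₁ hlev).fst
  exact ((h1.sub h2).add h3).comp (fun n : ℤ => n / (p : ℤ))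

theorem ptl_bockSmul_isLev₂ {χ : G → ZMod p} (hlev : ptd_IsLev₁ 𝓛 χ) (c : C) :
    ptd_IsLev₂ 𝓛 (ptd_bockSmul p χ c) :=
  (ptl_bock_isLev₂ hlev).comp (fun n : ℤ => n • c)

theorem ptl_bockSmul_isLZ2 {χ : G → ZMod p} (hχ : ptd_IsChar χ) (hlev : ptd_IsLev₁ 𝓛 χ) {c : C}
    (hc : ∀ g, ρC g c = c) : ptd_IsLZ2 𝓛 ρC (ptd_bockSmul p χ c) :=
  ⟨ptl_bockSmul_isZ2 hχ hc, ptl_bockSmul_isLev₂ hlev c⟩

/-- `p • (c · δχ) = d (χ̃ • c)` -/
theorem ptl_nsmul_bockSmul {χ : G → ZMod p} (hχ : ptd_IsChar χ) {c : C} (hc : ∀ g, ρC g c = c) :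
    p • ptd_bockSmul p χ c = ptd_d1 ρC (fun g => ptl_lift χ g • c) := by
  funext ⟨g, h⟩
  simp only [Pi.smul_apply, ptl_bockSmul_apply, ptd_d1_apply, map_zsmul, hc]
  rw [← natCast_zsmul, smul_smul, ptl_mul_bock hχ, ← sub_smul, ← add_smul]

theorem ptl_bockSmul_isLZ2p {χ : G → ZMod p} (hχ : ptd_IsChar χ) (hlev : ptd_IsLev₁ 𝓛 χ) {c : C}
    (hc : ∀ g, ρC g c = c) : ptd_IsLZ2p 𝓛 ρC p (ptd_bockSmul p χ c) := by
  refine ⟨ptl_bockSmul_isLZ2 hχ hlev hc, _, ?_, ptl_nsmul_bockSmul hχ hc⟩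
  exact (ptl_lift_isLev₁ hlev).comp (fun n : ℤ => n • c)

/-- additivity of the Bockstein in `χ` up to an explicit coboundary -/
theorem ptl_bock_add {χ χ' : G → ZMod p} (hχ : ptd_IsChar χ) (hχ' : ptd_IsChar χ') (g h : G) :
    ptd_bock p (χ + χ') (g, h) = ptd_bock p χ (g, h) + ptd_bock p χ' (g, h) -
      ((ptl_lift χ h + ptl_lift χ' h - ptl_lift (χ + χ') h) / (p : ℤ)
        - (ptl_lift χ (g * h) + ptl_lift χ' (g * h) - ptl_lift (χ + χ') (g * h)) / (p : ℤ)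
        + (ptl_lift χ g + ptl_lift χ' g - ptl_lift (χ + χ') g) / (p : ℤ)) := by
  have hp : (p : ℤ) ≠ 0 := by exact_mod_cast (Fact.out : p.Prime).ne_zero
  have hχχ' : ptd_IsChar (χ + χ') := fun a b => by
    simp only [Pi.add_apply, hχ a b, hχ' a b]; ring
  have hdiv : ∀ a : G, (p : ℤ) * ((ptl_lift χ a + ptl_lift χ' a - ptl_lift (χ + χ') a) / (p : ℤ))
      = ptl_lift χ a + ptl_lift χ' a - ptl_lift (χ + χ') a := by
    intro a
    apply Int.mul_ediv_cancel'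
    rw [← ZMod.intCast_zmod_eq_zero_iff_dvd]
    push_cast
    rw [ptl_lift_cast, ptl_lift_cast, ptl_lift_cast]
    simp
  apply mul_left_cancel₀ hp
  rw [ptl_mul_bock hχχ', mul_sub, mul_add, mul_add, mul_sub, ptl_mul_bock hχ, ptl_mul_bock hχ',
    hdiv, hdiv, hdiv]
  ring

theorem ptl_isChar_add {χ χ' : G → ZMod p} (hχ : ptd_IsChar χ) (hχ' : ptd_IsChar χ') :
    ptd_IsChar (χ + χ') := fun a b => by
  simp only [Pi.add_apply, hχ a b, hχ' a b]; ring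

theorem ptl_isChar_zero : ptd_IsChar (0 : G → ZMod p) := fun a b => by simp

theorem ptl_isChar_neg {χ : G → ZMod p} (hχ : ptd_IsChar χ) : ptd_IsChar (-χ) := fun a b => by
  simp only [Pi.neg_apply, hχ a b]; ring

theorem ptl_isChar_nsmul {χ : G → ZMod p} (hχ : ptd_IsChar χ) (n : ℕ) : ptd_IsChar (n • χ) :=
  fun a b => by simp only [Pi.smul_apply, hχ a b, smul_add]

/-- `c · δ(χ+χ') = c · δχ + c · δχ' - d(ε • c)` for invariant `c` -/
theorem ptl_bockSmul_add_left {χ χ' : G → ZMod p} (hχ : ptd_IsChar χ) (hχ' : ptd_IsChar χ')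
    {c : C} (hc : ∀ g, ρC g c = c) :
    ptd_bockSmul p (χ + χ') c = ptd_bockSmul p χ c + ptd_bockSmul p χ' c -
      ptd_d1 ρC (fun g =>
        ((ptl_lift χ g + ptl_lift χ' g - ptl_lift (χ + χ') g) / (p : ℤ)) • c) := by
  funext ⟨g, h⟩
  simp only [Pi.add_apply, Pi.sub_apply, ptl_bockSmul_apply, ptd_d1_apply, map_zsmul, hc]
  rw [ptl_bock_add hχ hχ', sub_smul, add_smul, add_smul, sub_smul]

theorem ptl_bockSmul_add_left_isB2 {χ χ' : G → ZMod p} (hχ : ptd_IsChar χ) (hχ' : ptd_IsChar χ')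
    (hlev : ptd_IsLev₁ 𝓛 χ) (hlev' : ptd_IsLev₁ 𝓛 χ') {c : C} (hc : ∀ g, ρC g c = c) :
    ptd_IsB2 𝓛 ρC (ptd_bockSmul p χ c + ptd_bockSmul p χ' c - ptd_bockSmul p (χ + χ') c) := by
  refine ⟨fun g => ((ptl_lift χ g + ptl_lift χ' g - ptl_lift (χ + χ') g) / (p : ℤ)) • c, ?_, ?_⟩
  · have h1 : ptd_IsLev₁ 𝓛 (ptl_lift χ) := ptl_lift_isLev₁ hlev
    have h2 : ptd_IsLev₁ 𝓛 (ptl_lift χ') := ptl_lift_isLev₁ hlev'
    have h3 : ptd_IsLev₁ 𝓛 (ptl_lift (χ + χ')) := ptl_lift_isLev₁ (hlev.add hlev')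
    exact ((h1.add h2).sub h3).comp (fun n : ℤ => (n / (p : ℤ)) • c)
  · rw [ptl_bockSmul_add_left hχ hχ' hc]; abel

end BockSmul

end Fermat.Agent.Lib.PT
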