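/-
  S55, ADT-lite arithmetic inputs, formal part (helper6, prefix `ptl_`): the LOCAL base case F4 in
  the big-group model, from abstract "local class formation" hypotheses on `(G, 𝓛, ρC, inv)`:
  * `hdisc` discreteness, `hdiv` `p`-divisibility of `C`, `C[p] = ⟨ζ⟩ ⊆ C^G` (`hζ hζ0 hζfix htors`),
  * `h90` Hilbert 90 for level `1`-cocycles, `hinj` injectivity of `inv` on `p`-torsion classes,
  * `hnz` a `p`-torsion class with nonzero invariant.
  `ptl_nondegH2_trivial` = F4(i) = `ptd_NondegH2` for the trivial module `ZMod p`,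
  `ptl_nondegHom_trivial` = F4(ii) = `ptd_NondegHom` for the trivial module `ZMod p`.
-/
import Fermat.Agent.Lib.PT.ClsBock

set_option autoImplicit false
set_option linter.unusedSectionVars false

namespace Fermat.Agent.Lib.PT

section ZetaHom

variable {p : ℕ} [Fact p.Prime] {C : Type*} [AddCommGroup C]

/-- the homomorphism `ZMod p → C`, `k ↦ k • ζ`, for a `p`-torsion element `ζ` -/
noncomputable def ptl_zetaHom (ζ : C) (hζ : p • ζ = 0) : ZMod p →+ C :=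
  ZMod.lift p ⟨zmultiplesHom C ζ, by simpa using hζ⟩

theorem ptl_zetaHom_intCast (ζ : C) (hζ : p • ζ = 0) (k : ℤ) :
    ptl_zetaHom ζ hζ (k : ZMod p) = k • ζ := by
  rw [ptl_zetaHom, ZMod.lift_coe]; rfl

theorem ptl_zetaHom_one (ζ : C) (hζ : p • ζ = 0) : ptl_zetaHom ζ hζ 1 = ζ := by
  have := ptl_zetaHom_intCast ζ hζ 1
  simpa using this

theorem ptl_zetaHom_apply (ζ : C) (hζ : p • ζ = 0) (x : ZMod p) :
    ptl_zetaHom ζ hζ x = (x.val : ℤ) • ζ := by
  have := ptl_zetaHom_intCast ζ hζ (x.val : ℤ)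
  simpa using this

theorem ptl_zetaHom_injective {ζ : C} (hζ : p • ζ = 0) (hζ0 : ζ ≠ 0) :
    Function.Injective (ptl_zetaHom ζ hζ) := by
  rw [ptl_zetaHom, ZMod.lift_injective]
  intro m hm
  by_contra hne
  have hcop : IsCoprime m (p : ℤ) := by
    rw [Int.isCoprime_iff_gcd_eq_one]
    rcases Nat.Prime.eq_one_or_self_of_dvd (Fact.out : p.Prime) _
      (Int.gcd_dvd_natAbs_right m p) with h | h
    · exact h
    · exfalso
      apply hne
      rw [ZMod.intCast_zmod_eq_zero_iff_dvd]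
      have : (Int.gcd m p : ℤ) ∣ m := Int.gcd_dvd_left m p
      rwa [h] at this
  obtain ⟨a, b, hab⟩ := hcop
  have h1 : (a * m + b * p) • ζ = ζ := by rw [hab, one_smul]
  rw [add_smul, mul_smul, mul_smul] at h1
  have h2 : m • ζ = 0 := hm
  have h3 : (p : ℤ) • ζ = 0 := by rw [natCast_zsmul]; exact hζ
  rw [h2, h3, smul_zero, smul_zero, add_zero] at h1
  exact hζ0 h1.symm

theorem ptl_zetaHom_surjOn {ζ : C} (hζ : p • ζ = 0)
    (htors : ∀ c : C, p • c = 0 → ∃ k : ℕ, c = k • ζ) {c : C} (hc : p • c = 0) :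
    ∃ x : ZMod p, ptl_zetaHom ζ hζ x = c := by
  obtain ⟨k, rfl⟩ := htors c hc
  refine ⟨(k : ZMod p), ?_⟩
  have := ptl_zetaHom_intCast ζ hζ (k : ℤ)
  simpa using this

end ZetaHom

section F4

variable {G : Type*} [Group G] {𝓛 : ptd_Levels G} {p : ℕ} [Fact p.Prime]
variable {C : Type*} [AddCommGroup C] {ρC : Representation ℤ G C}
variable {T : Type*} [AddCommGroup T]

/-- `d⁰ a` is level-constant in a discrete module -/
theorem ptl_isLev₁_d0 (hdisc : ptd_IsDiscrete 𝓛 ρC) (a : C) : ptd_IsLev₁ 𝓛 (ptd_d0 ρC a) := by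
  obtain ⟨N, hN, h⟩ := hdisc a
  refine ⟨N, hN, fun g n hn => ?_⟩
  simp only [ptd_d0_apply, map_mul, Module.End.mul_apply, h n hn]

/-- a cochain with vanishing coboundary is a cocycle -/
theorem ptl_isZ1_of_d1_eq_zero {φ : G → C} (h : ptd_d1 ρC φ = 0) : ptd_IsZ1 ρC φ := by
  intro g k
  have := congrFun h (g, k)
  simp only [ptd_d1_apply, Pi.zero_apply] at this
  have h2 : φ (g * k) = ρC g (φ k) + φ g - (ρC g (φ k) - φ (g * k) + φ g) := by abel
  rw [h2, this, sub_zero]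

theorem ptl_d1_nsmul (n : ℕ) (φ : G → C) : ptd_d1 ρC (n • φ) = n • ptd_d1 ρC φ := by
  funext x
  simp only [ptd_d1, Pi.smul_apply, map_nsmul, smul_add, smul_sub]

/-- the trivial representation on `ZMod p`: `d¹` commutes with an additive map into invariants -/
theorem ptl_map_d1_trivial (f : ZMod p →+ C) (hf : ∀ g x, ρC g (f x) = f x) (ψ : G → ZMod p) :
    (fun x => f (ptd_d1 (Representation.trivial (ZMod p) G (ZMod p)) ψ x)) =
      ptd_d1 ρC (fun g => f (ψ g)) := by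
  funext ⟨g, h⟩
  simp only [ptd_d1_apply, Representation.trivial_apply, map_add, map_sub, hf]

theorem ptl_isZ2_comp_trivial (f : ZMod p →+ C) (hf : ∀ g x, ρC g (f x) = f x)
    {z : G × G → ZMod p} (hz : ptd_IsZ2 (Representation.trivial (ZMod p) G (ZMod p)) z) :
    ptd_IsZ2 ρC (fun x => f (z x)) := by
  intro g h j
  have := hz g h j
  simp only [Representation.trivial_apply] at this
  simp only [hf, ← map_add, this]

theorem ptl_isZ2_trivial_of_comp {f : ZMod p →+ C} (hinj : Function.Injective f)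
    (hf : ∀ g x, ρC g (f x) = f x) {z : G × G → ZMod p}
    (hz : ptd_IsZ2 ρC (fun x => f (z x))) :
    ptd_IsZ2 (Representation.trivial (ZMod p) G (ZMod p)) z := by
  intro g h j
  have := hz g h j
  simp only [hf, ← map_add] at this
  simp only [Representation.trivial_apply]
  exact hinj this

/-- **F4(i), local/formal**: right nondegeneracy for the trivial module `𝔽_p`, from Hilbert 90,
`p`-divisibility of `C`, `C[p] = ⟨ζ⟩ ⊆ C^G` and injectivity of the invariant. -/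
theorem ptl_nondegH2_trivial (hdisc : ptd_IsDiscrete 𝓛 ρC) (hdiv : ∀ c : C, ∃ c' : C, p • c' = c)
    {ζ : C} (hζ : p • ζ = 0) (hζ0 : ζ ≠ 0) (hζfix : ∀ g, ρC g ζ = ζ)
    (htors : ∀ c : C, p • c = 0 → ∃ k : ℕ, c = k • ζ)
    (h90 : ∀ φ : G → C, ptd_IsLZ1 𝓛 ρC φ → ptd_IsB1 ρC φ)
    (inv : ptd_Inv 𝓛 ρC T p)
    (hinj : ∀ z, ptd_IsLZ2p 𝓛 ρC p z → inv z = 0 → ptd_IsB2 𝓛 ρC z) :
    ptd_NondegH2 𝓛 ρC inv (Representation.trivial (ZMod p) G (ZMod p)) := by
  intro z hz hall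
  set f := ptl_zetaHom ζ hζ with hf
  have hfix : ∀ g x, ρC g (f x) = f x := by
    intro g x
    rw [hf, ptl_zetaHom_apply, map_zsmul, hζfix]
  have hfinj : Function.Injective f := ptl_zetaHom_injective hζ hζ0
  have hpf : ∀ x, p • f x = 0 := fun x => by
    rw [← map_nsmul]
    have : p • x = 0 := by simp
    rw [this, map_zero]
  have hfz : inv (fun x => f (z x)) = 0 := hall f (fun g m => by
    rw [Representation.trivial_apply, hfix])
  have hlz : ptd_IsLZ2 𝓛 ρC (fun x => f (z x)) :=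
    ⟨ptl_isZ2_comp_trivial f hfix hz.1, hz.2.comp f⟩
  have hpz : p • (fun x => f (z x)) = 0 := by
    funext x; simp only [Pi.smul_apply, hpf, Pi.zero_apply]
  have h1 : ptd_IsLZ2p 𝓛 ρC p (fun x => f (z x)) := ⟨hlz, by rw [hpz]; exact ptd_isB2_zero⟩
  obtain ⟨φ, hφlev, hφ⟩ := hinj _ h1 hfz
  have h2 : ptd_IsLZ1 𝓛 ρC (p • φ) := by
    refine ⟨ptl_isZ1_of_d1_eq_zero ?_, hφlev.comp (fun c : C => p • c)⟩
    rw [ptl_d1_nsmul, ← hφ, hpz]
  obtain ⟨a, ha⟩ := h90 _ h2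
  obtain ⟨α, hα⟩ := hdiv a
  set φ' : G → C := φ - ptd_d0 ρC α with hφ'
  have hφ'lev : ptd_IsLev₁ 𝓛 φ' := hφlev.sub (ptl_isLev₁_d0 hdisc α)
  have hφ'd : ptd_d1 ρC φ' = fun x => f (z x) := by
    rw [hφ', ptd_d1_sub, ptd_d1_d0, sub_zero, hφ]
  have hφ'p : ∀ g, p • φ' g = 0 := by
    intro g
    have h3 := congrFun ha g
    simp only [Pi.smul_apply, ptd_d0_apply] at h3
    simp only [hφ', Pi.sub_apply, ptd_d0_apply, smul_sub, h3, ← map_nsmul, hα, sub_self]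
  choose ψ hψ using fun g => ptl_zetaHom_surjOn hζ htors (hφ'p g)
  have hψlev : ptd_IsLev₁ 𝓛 ψ := by
    obtain ⟨N, hN, h⟩ := hφ'lev
    refine ⟨N, hN, fun g n hn => hfinj ?_⟩
    rw [← hf] at hψ
    rw [hψ, hψ, h g n hn]
  refine ⟨ψ, hψlev, ?_⟩
  funext x
  apply hfinj
  have h4 := congrFun (ptl_map_d1_trivial f hfix ψ) x
  rw [h4]
  have h5 : (fun g => f (ψ g)) = φ' := funext hψ
  rw [h5, hφ'd]


/-- an additive map out of `ZMod p` is `k ↦ k • f 1` -/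
theorem ptl_eq_zetaHom (f : ZMod p →+ C) :
    f = ptl_zetaHom (f 1) (by rw [← map_nsmul]; simp) := by
  refine AddMonoidHom.ext fun x => ?_
  rw [ptl_zetaHom_apply, natCast_zsmul, ← map_nsmul, nsmul_one, ZMod.natCast_zmod_val]

/-- a nonzero element of a cyclic group of prime order generates it -/
theorem ptl_tors_of_ne_zero {ζ : C} (hζ : p • ζ = 0)
    (htors : ∀ c : C, p • c = 0 → ∃ k : ℕ, c = k • ζ) {c : C} (hc : p • c = 0) (hc0 : c ≠ 0) :
    ∀ d : C, p • d = 0 → ∃ k : ℕ, d = k • c := by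
  obtain ⟨k, rfl⟩ := htors c hc
  have hk : (k : ZMod p) ≠ 0 := by
    intro h0
    apply hc0
    rw [ZMod.natCast_eq_zero_iff] at h0
    obtain ⟨j, rfl⟩ := h0
    rw [mul_comm, mul_smul, hζ, smul_zero]
  -- inverse of `k` mod `p`
  obtain ⟨m, hm⟩ : ∃ m : ℕ, ((m * k : ℕ) : ZMod p) = 1 := by
    refine ⟨((k : ZMod p)⁻¹).val, ?_⟩
    push_cast
    rw [ZMod.natCast_zmod_val, inv_mul_cancel₀ hk]
  have hζ' : ζ = (m * k) • ζ := by
    have h1 : ((m * k : ℕ) : ZMod p) = ((1 : ℕ) : ZMod p) := by rw [hm]; simp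
    rw [ZMod.natCast_eq_natCast_iff] at h1
    -- `m * k ≡ 1 [MOD p]`
    have h2 := Nat.ModEq.symm h1
    obtain ⟨t, ht⟩ : ∃ t : ℕ, m * k = 1 + t * p := by
      refine ⟨m * k / p, ?_⟩
      have h3 : (m * k) % p = 1 := by
        have hp1 : 1 % p = 1 := Nat.mod_eq_of_lt (Fact.out : p.Prime).one_lt
        rw [← hp1]; exact h1
      have h4 := Nat.div_add_mod (m * k) p
      rw [h3] at h4
      rw [mul_comm (m * k / p) p, add_comm]
      exact h4.symm
    rw [ht, add_smul, one_smul, mul_smul, hζ, smul_zero, add_zero]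
  intro d hd
  obtain ⟨j, rfl⟩ := htors d hd
  refine ⟨j * m, ?_⟩
  conv_lhs => rw [hζ']
  rw [← mul_smul, ← mul_smul, mul_assoc]

/-- **F4(ii), local/formal**: left nondegeneracy for the trivial module `𝔽_p`. -/
theorem ptl_nondegHom_trivial (hdisc : ptd_IsDiscrete 𝓛 ρC)
    (hdiv : ∀ c : C, ∃ c' : C, p • c' = c)
    {ζ : C} (hζ : p • ζ = 0) (htors : ∀ c : C, p • c = 0 → ∃ k : ℕ, c = k • ζ)
    (inv : ptd_Inv 𝓛 ρC T p)
    (hnz : ∃ z₀, ptd_IsLZ2p 𝓛 ρC p z₀ ∧ inv z₀ ≠ 0) :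
    ptd_NondegHom 𝓛 ρC inv (Representation.trivial (ZMod p) G (ZMod p)) := by
  intro f hfeq hall
  by_contra hf0
  set c := f 1 with hc
  have hcp : p • c = 0 := by rw [hc, ← map_nsmul]; simp
  have hfc : f = ptl_zetaHom c hcp := ptl_eq_zetaHom f
  have hc0 : c ≠ 0 := by
    intro h0
    apply hf0
    refine AddMonoidHom.ext fun x => ?_
    rw [hfc, ptl_zetaHom_apply, h0, smul_zero, AddMonoidHom.zero_apply]
  have hfinj : Function.Injective f := by rw [hfc]; exact ptl_zetaHom_injective hcp hc0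
  have hfix : ∀ g x, ρC g (f x) = f x := fun g x => by
    rw [← hfeq g x, Representation.trivial_apply]
  have htors' := ptl_tors_of_ne_zero hζ htors hcp hc0
  obtain ⟨z₀, hz₀, hinv⟩ := hnz
  obtain ⟨ψ, hψlev, hψ⟩ := hz₀.2
  choose r hr using hdiv
  set ψ' : G → C := fun g => r (ψ g) with hψ'
  have hψ'lev : ptd_IsLev₁ 𝓛 ψ' := hψlev.comp r
  have hpψ' : p • ψ' = ψ := by funext g; simp only [Pi.smul_apply, hψ', hr]
  set z₁ : G × G → C := z₀ - ptd_d1 ρC ψ' with hz₁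
  have hB : ptd_IsB2 𝓛 ρC (ptd_d1 ρC ψ') := ⟨ψ', hψ'lev, rfl⟩
  have hz₁lz : ptd_IsLZ2 𝓛 ρC z₁ := hz₀.1.sub (hB.isLZ2 hdisc)
  have hpz₁ : p • z₁ = 0 := by
    rw [hz₁, smul_sub, hψ, ← ptl_d1_nsmul, hpψ', sub_self]
  have hz₁p : ptd_IsLZ2p 𝓛 ρC p z₁ := ⟨hz₁lz, by rw [hpz₁]; exact ptd_isB2_zero⟩
  have hBp : ptd_IsLZ2p 𝓛 ρC p (ptd_d1 ρC ψ') :=
    ⟨hB.isLZ2 hdisc, ⟨ψ, hψlev, by rw [← ptl_d1_nsmul, hpψ']⟩⟩
  have hinv₁ : inv z₁ = inv z₀ := by
    have h1 : z₀ = z₁ + ptd_d1 ρC ψ' := by rw [hz₁]; abel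
    have h2 := inv.map_add' z₁ (ptd_d1 ρC ψ') hz₁p hBp
    rw [← h1, inv.map_b2' _ hB, add_zero] at h2
    exact h2.symm
  have hval : ∀ x, ∃ y : ZMod p, f y = z₁ x := by
    intro x
    have hx : p • z₁ x = 0 := by
      have := congrFun hpz₁ x
      simpa using this
    rw [hfc]
    exact ptl_zetaHom_surjOn hcp htors' hx
  choose w hw using hval
  have hwz : (fun x => f (w x)) = z₁ := funext hw
  have hwlz : ptd_IsLZ2 𝓛 (Representation.trivial (ZMod p) G (ZMod p)) w := by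
    refine ⟨ptl_isZ2_trivial_of_comp hfinj hfix (by rw [hwz]; exact hz₁lz.1), ?_⟩
    obtain ⟨N, hN, h⟩ := hz₁lz.2
    refine ⟨N, hN, fun g g' n hn n' hn' => hfinj ?_⟩
    rw [hw, hw, h g g' n hn n' hn']
  have := hall w hwlz
  rw [hwz, hinv₁] at this
  exact hinv this

end F4

end Fermat.Agent.Lib.PT
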