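/-
  S55, ADT-lite arithmetic inputs, formal part (helper6, prefix `ptl_`): KUMMER THEORY in the
  big-group model.  If `C` is discrete, `p`-divisible and `C[p] = ⟨ζ⟩ ⊆ C^G` with `ζ ≠ 0`, then
  every `γ` with `p γ ∈ C^G` defines a level character `χ` with `g γ - γ = χ(g) ζ`
  (`ptl_exists_kummerChar`), and this gives a map `C^G → {level characters}` which is injective
  modulo `p C^G` (`ptl_exists_kummerMap`).
-/
import Fermat.Agent.Lib.PT.ClsF4
import Fermat.Agent.Lib.PT.AdtStep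

set_option autoImplicit false
set_option linter.unusedSectionVars false

namespace Fermat.Agent.Lib.PT

section Kummer

variable {G : Type*} [Group G] {𝓛 : ptd_Levels G} {p : ℕ} [Fact p.Prime]
variable {C : Type*} [AddCommGroup C] {ρC : Representation ℤ G C}

/-- the subgroup `p · C^G` of the invariants -/
noncomputable def ptl_pInv (ρC : Representation ℤ G C) (p : ℕ) : AddSubgroup ρC.invariants :=
  (nsmulAddMonoidHom (α := ρC.invariants) p).range

theorem ptl_mem_pInv {c : ρC.invariants} : c ∈ ptl_pInv ρC p ↔ ∃ d : ρC.invariants, p • d = c :=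
  Iff.rfl

/-- **Kummer character**: for `γ` with `p • γ ∈ C^G` there is a level character `χ` with
`g γ - γ = χ(g) • ζ`. -/
theorem ptl_exists_kummerChar (hdisc : ptd_IsDiscrete 𝓛 ρC) {ζ : C} (hζ : p • ζ = 0)
    (hζ0 : ζ ≠ 0) (hζfix : ∀ g, ρC g ζ = ζ) (htors : ∀ c : C, p • c = 0 → ∃ k : ℕ, c = k • ζ)
    {γ : C} (hγ : ∀ g, ρC g (p • γ) = p • γ) :
    ∃ χ : G → ZMod p, ptd_IsChar χ ∧ ptd_IsLev₁ 𝓛 χ ∧
      ∀ g, ρC g γ - γ = ptl_zetaHom ζ hζ (χ g) := by
  have hp : ∀ g, p • (ρC g γ - γ) = 0 := fun g => by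
    rw [smul_sub, ← map_nsmul, hγ, sub_self]
  choose χ hχ using fun g => ptl_zetaHom_surjOn hζ htors (hp g)
  have hfinj : Function.Injective (ptl_zetaHom ζ hζ) := ptl_zetaHom_injective hζ hζ0
  have hfix : ∀ g x, ρC g (ptl_zetaHom ζ hζ x) = ptl_zetaHom ζ hζ x := fun g x => by
    rw [ptl_zetaHom_apply, map_zsmul, hζfix]
  refine ⟨χ, ?_, ?_, fun g => (hχ g).symm⟩
  · intro g h
    apply hfinj
    rw [map_add, hχ, hχ, hχ, map_mul, Module.End.mul_apply]
    have h1 : ρC g (ρC h γ) - γ = ρC g (ρC h γ - γ) + (ρC g γ - γ) := by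
      rw [map_sub]; abel
    rw [h1, ← hχ h, hfix, hχ h]
    abel
  · obtain ⟨N, hN, h⟩ := hdisc γ
    refine ⟨N, hN, fun g n hn => hfinj ?_⟩
    rw [hχ, hχ, map_mul, Module.End.mul_apply, h n hn]

/-- **Kummer injection**: a map `κ : C^G → {level characters}` which is injective modulo `p`. -/
theorem ptl_exists_kummerMap (hdisc : ptd_IsDiscrete 𝓛 ρC)
    (hdiv : ∀ c : C, ∃ c' : C, p • c' = c) {ζ : C} (hζ : p • ζ = 0)
    (hζ0 : ζ ≠ 0) (hζfix : ∀ g, ρC g ζ = ζ) (htors : ∀ c : C, p • c = 0 → ∃ k : ℕ, c = k • ζ) :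
    ∃ κ : ρC.invariants → (G → ZMod p), (∀ c, ptd_IsChar (κ c) ∧ ptd_IsLev₁ 𝓛 (κ c)) ∧
      ∀ c c', κ c = κ c' → c - c' ∈ ptl_pInv ρC p := by
  choose r hr using hdiv
  have hγ : ∀ c : ρC.invariants, ∀ g, ρC g (p • r (c : C)) = p • r (c : C) := fun c g => by
    rw [hr]; exact c.2 g
  choose κ hκ using fun c : ρC.invariants =>
    ptl_exists_kummerChar (𝓛 := 𝓛) hdisc hζ hζ0 hζfix htors (hγ c)
  refine ⟨κ, fun c => ⟨(hκ c).1, (hκ c).2.1⟩, fun c c' h => ?_⟩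
  have hinv : ∀ g, ρC g (r (c : C) - r (c' : C)) = r (c : C) - r (c' : C) := by
    intro g
    have h1 := (hκ c).2.2 g
    have h2 := (hκ c').2.2 g
    rw [h] at h1
    rw [map_sub]
    have : ρC g (r (c : C)) - r (c : C) = ρC g (r (c' : C)) - r (c' : C) := by rw [h1, h2]
    have h3 : ρC g (r ↑c) - ρC g (r ↑c') = (ρC g (r ↑c) - r ↑c) - (ρC g (r ↑c') - r ↑c')
        + (r ↑c - r ↑c') := by abel
    rw [h3, this, sub_self, zero_add]
  refine ⟨⟨r (c : C) - r (c' : C), hinv⟩, Subtype.ext ?_⟩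
  show p • (r (c : C) - r (c' : C)) = (c : C) - (c' : C)
  rw [smul_sub, hr, hr]

end Kummer

end Fermat.Agent.Lib.PT
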