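/-
  S55, ADT-lite arithmetic inputs, formal part (helper6, prefix `ptl_`): the NORM CRITERION in the
  big-group model.  For a level character `χ` with kernel `V` (`ptl_charKer`) and `τ` with
  `χ τ = 1`: if `c · δχ` is a level coboundary and Hilbert 90 holds for `V`, then
  `c = ∑_{i<p} τ^i a` for some `a ∈ C^V` (`ptl_exists_norm_of_bockSmul_isB2`).
-/
import Fermat.Agent.Lib.PT.ClsF4
import Fermat.Agent.Lib.PT.AdtStep

set_option autoImplicit false
set_option linter.unusedSectionVars false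

namespace Fermat.Agent.Lib.PT

section CharKer

variable {G : Type*} [Group G] {𝓛 : ptd_Levels G} {p : ℕ} [Fact p.Prime]

theorem ptl_char_one {χ : G → ZMod p} (hχ : ptd_IsChar χ) : χ 1 = 0 := by
  have := hχ 1 1
  rw [mul_one] at this
  exact left_eq_add.mp this

theorem ptl_char_inv {χ : G → ZMod p} (hχ : ptd_IsChar χ) (g : G) : χ g⁻¹ = -χ g := by
  have := hχ g g⁻¹
  rw [mul_inv_cancel, ptl_char_one hχ] at this
  exact (neg_eq_of_add_eq_zero_right this.symm).symm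

theorem ptl_char_pow {χ : G → ZMod p} (hχ : ptd_IsChar χ) (g : G) (n : ℕ) :
    χ (g ^ n) = n • χ g := by
  induction n with
  | zero => simp [ptl_char_one hχ]
  | succ n ih => rw [pow_succ, hχ, ih, succ_nsmul]

/-- the kernel of a character -/
def ptl_charKer {χ : G → ZMod p} (hχ : ptd_IsChar χ) : Subgroup G where
  carrier := {g | χ g = 0}
  one_mem' := ptl_char_one hχ
  mul_mem' := fun {a b} ha hb => by
    show χ (a * b) = 0
    rw [hχ, ha, hb, add_zero]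
  inv_mem' := fun {a} ha => by
    show χ a⁻¹ = 0
    rw [ptl_char_inv hχ, ha, neg_zero]

theorem ptl_mem_charKer {χ : G → ZMod p} (hχ : ptd_IsChar χ) {g : G} :
    g ∈ ptl_charKer hχ ↔ χ g = 0 := Iff.rfl

theorem ptl_charKer_isOpen {χ : G → ZMod p} (hχ : ptd_IsChar χ) (hlev : ptd_IsLev₁ 𝓛 χ) :
    𝓛.IsOpen (ptl_charKer hχ) := by
  obtain ⟨N, hN, h⟩ := hlev
  refine ⟨N, hN, fun n hn => ?_⟩
  rw [ptl_mem_charKer]
  have := h 1 n hn
  rwa [one_mul, ptl_char_one hχ] at this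

theorem ptl_charKer_conj {χ : G → ZMod p} (hχ : ptd_IsChar χ) {v : G} (hv : v ∈ ptl_charKer hχ)
    (g : G) : g⁻¹ * v * g ∈ ptl_charKer hχ := by
  rw [ptl_mem_charKer] at hv ⊢
  rw [hχ, hχ, ptl_char_inv hχ, hv]
  ring

theorem ptl_lift_eq_zero {χ : G → ZMod p} {g : G} (h : χ g = 0) : ptl_lift χ g = 0 := by
  unfold ptl_lift; rw [h]; simp

/-- the Bockstein vanishes when the second argument is in the kernel -/
theorem ptl_bock_right_ker {χ : G → ZMod p} (hχ : ptd_IsChar χ) (g : G) {v : G}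
    (hv : χ v = 0) : ptd_bock p χ (g, v) = 0 := by
  have hgv : χ (g * v) = χ g := by rw [hχ, hv, add_zero]
  rw [ptl_bock_def, ptl_lift_eq_zero hv]
  unfold ptl_lift
  rw [hgv]
  simp

theorem ptl_bock_left_ker {χ : G → ZMod p} (hχ : ptd_IsChar χ) (g : G) {v : G}
    (hv : χ v = 0) : ptd_bock p χ (v, g) = 0 := by
  have hgv : χ (v * g) = χ g := by rw [hχ, hv, zero_add]
  rw [ptl_bock_def, ptl_lift_eq_zero hv]
  unfold ptl_lift
  rw [hgv]
  simp

/-- `∑_{i<p} bock χ (τ^i, τ) = 1` when `χ τ = 1` -/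
theorem ptl_sum_bock {χ : G → ZMod p} (hχ : ptd_IsChar χ) {τ : G} (hτ : χ τ = 1) :
    ∑ i ∈ Finset.range p, ptd_bock p χ (τ ^ i, τ) = 1 := by
  have hp : (p : ℤ) ≠ 0 := by exact_mod_cast (Fact.out : p.Prime).ne_zero
  apply mul_left_cancel₀ hp
  rw [Finset.mul_sum]
  have h1 : ∀ i ∈ Finset.range p, (p : ℤ) * ptd_bock p χ (τ ^ i, τ) =
      ptl_lift χ τ - (ptl_lift χ (τ ^ (i + 1)) - ptl_lift χ (τ ^ i)) := by
    intro i _
    rw [ptl_mul_bock hχ, ← pow_succ]; ring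
  rw [Finset.sum_congr rfl h1, Finset.sum_sub_distrib, Finset.sum_const, Finset.card_range,
    Finset.sum_range_sub (fun i => ptl_lift χ (τ ^ i))]
  have h2 : ptl_lift χ (τ ^ p) = 0 := ptl_lift_eq_zero (by rw [ptl_char_pow hχ, hτ]; simp)
  have h3 : ptl_lift χ (τ ^ 0) = 0 := ptl_lift_eq_zero (by rw [pow_zero, ptl_char_one hχ])
  have h4 : ptl_lift χ τ = 1 := by
    unfold ptl_lift
    rw [hτ, ZMod.val_one]; rfl
  rw [h2, h3, h4]; simp

/-- a nonzero character takes the value `1` -/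
theorem ptl_exists_char_eq_one {χ : G → ZMod p} (hχ : ptd_IsChar χ) (h0 : χ ≠ 0) :
    ∃ τ : G, χ τ = 1 := by
  obtain ⟨g, hg⟩ : ∃ g, χ g ≠ 0 := by
    by_contra hcon
    push Not at hcon
    exact h0 (funext hcon)
  refine ⟨g ^ ((χ g)⁻¹).val, ?_⟩
  rw [ptl_char_pow hχ, nsmul_eq_mul, ZMod.natCast_zmod_val, inv_mul_cancel₀ hg]

end CharKer

section Norm

variable {G : Type*} [Group G] {𝓛 : ptd_Levels G} {p : ℕ} [Fact p.Prime]
variable {C : Type*} [AddCommGroup C] {ρC : Representation ℤ G C}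

/-- **Norm criterion in the big model**: if `c · δχ` is a level coboundary (and Hilbert 90 holds
on `V = ker χ`), then `c` is a norm from `C^V`: `c = ∑_{i<p} τ^i a` with `a ∈ C^V`, `χ τ = 1`. -/
theorem ptl_exists_norm_of_bockSmul_isB2 {χ : G → ZMod p}
    (hχ : ptd_IsChar χ) (hlev : ptd_IsLev₁ 𝓛 χ)
    (h90V : ∀ φ : ptl_charKer hχ → C,
      ptd_IsLZ1 (𝓛.sub (ptl_charKer hχ) (ptl_charKer_isOpen hχ hlev))
        (ptd_resRep ρC (ptl_charKer hχ)) φ → ptd_IsB1 (ptd_resRep ρC (ptl_charKer hχ)) φ)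
    {τ : G} (hτ : χ τ = 1) {c : C}
    (hB : ptd_IsB2 𝓛 ρC (ptd_bockSmul p χ c)) :
    ∃ a : C, (∀ v ∈ ptl_charKer hχ, ρC v a = a) ∧
      c = ∑ i ∈ Finset.range p, ρC (τ ^ i) a := by
  obtain ⟨φ, hφlev, hφ⟩ := hB
  have hd : ∀ g h, ρC g (φ h) - φ (g * h) + φ g = ptd_bock p χ (g, h) • c := fun g h => by
    have := congrFun hφ (g, h)
    rw [ptl_bockSmul_apply, ptd_d1_apply] at this
    exact this.symm
  set V := ptl_charKer hχ with hV
  have hVo := ptl_charKer_isOpen hχ hlev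
  -- restrict to `V`: a level cocycle
  have hφV : ptd_IsLZ1 (𝓛.sub V hVo) (ptd_resRep ρC V) (ptd_res₁ V φ) := by
    refine ⟨fun v v' => ?_, hφlev.res V hVo⟩
    have := hd v v'
    rw [ptl_bock_right_ker hχ _ v'.2, zero_smul] at this
    simp only [ptd_res₁_apply, ptd_resRep_apply, Subgroup.coe_mul]
    have h2 : φ (↑v * ↑v') = ρC v (φ v') + φ v - (ρC v (φ v') - φ (↑v * ↑v') + φ v) := by abel
    rw [h2, this, sub_zero]
  obtain ⟨a₀, ha₀⟩ := h90V _ hφV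
  have ha₀' : ∀ v ∈ V, φ v = ρC v a₀ - a₀ := fun v hv => by
    have := congrFun ha₀ ⟨v, hv⟩
    simpa using this
  set φ' : G → C := φ - ptd_d0 ρC a₀ with hφ'
  have hd' : ∀ g h, ρC g (φ' h) - φ' (g * h) + φ' g = ptd_bock p χ (g, h) • c := fun g h => by
    have h1 := congrFun (ptd_d1_sub (ρ := ρC) φ (ptd_d0 ρC a₀)) (g, h)
    rw [ptd_d1_d0, sub_zero, ptd_d1_apply, ptd_d1_apply] at h1
    rw [← hd g h]
    exact h1
  have hφ'V : ∀ v ∈ V, φ' v = 0 := fun v hv => by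
    simp only [hφ', Pi.sub_apply, ptd_d0_apply, ha₀' v hv, sub_self]
  -- (i) right `V`-invariance
  have hi : ∀ g, ∀ v ∈ V, φ' (g * v) = φ' g := fun g v hv => by
    have := hd' g v
    rw [ptl_bock_right_ker hχ g hv, zero_smul, hφ'V v hv, map_zero, zero_sub] at this
    have h2 : φ' (g * v) = φ' g - (-φ' (g * v) + φ' g) := by abel
    rw [h2, this, sub_zero]
  -- (ii) values are `V`-invariant
  have hii : ∀ g, ∀ v ∈ V, ρC v (φ' g) = φ' g := fun g v hv => by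
    have := hd' v g
    rw [ptl_bock_left_ker hχ g hv, zero_smul, hφ'V v hv, add_zero] at this
    have h3 : v * g = g * (g⁻¹ * v * g) := by group
    rw [h3, hi g _ (ptl_charKer_conj hχ hv g)] at this
    exact sub_eq_zero.mp this
  refine ⟨φ' τ, hii τ, ?_⟩
  have hsum : ∑ i ∈ Finset.range p, ptd_bock p χ (τ ^ i, τ) • c =
      ∑ i ∈ Finset.range p, ρC (τ ^ i) (φ' τ) := by
    have h1 : ∀ i ∈ Finset.range p, ptd_bock p χ (τ ^ i, τ) • c =
        ρC (τ ^ i) (φ' τ) - (φ' (τ ^ (i + 1)) - φ' (τ ^ i)) := by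
      intro i _
      rw [← hd', ← pow_succ]; abel
    rw [Finset.sum_congr rfl h1, Finset.sum_sub_distrib,
      Finset.sum_range_sub (fun i => φ' (τ ^ i))]
    have hτp : τ ^ p ∈ V := by
      rw [hV, ptl_mem_charKer, ptl_char_pow hχ, hτ]; simp
    rw [hφ'V _ hτp, pow_zero, hφ'V 1 V.one_mem, sub_self, sub_zero]
  rw [← hsum, ← Finset.sum_smul, ptl_sum_bock hχ hτ, one_smul]

/-- for a nonzero level character, if the norm `C^V → C^G` is not surjective then some `c · δχ`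
is not a level coboundary -/
theorem ptl_exists_not_isB2 {χ : G → ZMod p}
    (hχ : ptd_IsChar χ) (hlev : ptd_IsLev₁ 𝓛 χ)
    (h90V : ∀ φ : ptl_charKer hχ → C,
      ptd_IsLZ1 (𝓛.sub (ptl_charKer hχ) (ptl_charKer_isOpen hχ hlev))
        (ptd_resRep ρC (ptl_charKer hχ)) φ → ptd_IsB1 (ptd_resRep ρC (ptl_charKer hχ)) φ)
    {τ : G} (hτ : χ τ = 1)
    (hnorm : ∃ c : ρC.invariants, ∀ a : C, (∀ v ∈ ptl_charKer hχ, ρC v a = a) →
      (c : C) ≠ ∑ i ∈ Finset.range p, ρC (τ ^ i) a) :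
    ∃ c : ρC.invariants, ¬ ptd_IsB2 𝓛 ρC (ptd_bockSmul p χ (c : C)) := by
  obtain ⟨c, hcn⟩ := hnorm
  refine ⟨c, fun hB => ?_⟩
  obtain ⟨a, ha, hca⟩ := ptl_exists_norm_of_bockSmul_isB2 hχ hlev h90V hτ hB
  exact hcn a ha hca

end Norm

end Fermat.Agent.Lib.PT
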