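/-
  S55, ADT-lite arithmetic inputs, formal part (helper6, prefix `ptl_`): F3 (reciprocity +
  existence theorem in exponent `p`) BY COUNTING, in the big-group model.
  * `ptl_symb inv hχ hlev : C^G →+ T`, `c ↦ inv (c · δχ)`; additive in `χ` (`ptl_symb_add`).
  * `ptl_F3_of_count` : `ptd_F3` from injectivity of `inv`, the "first inequality" `hnorm`,
    finiteness of `C^G/p`, a Kummer injection `hkum`, and `T[p]` cyclic.
  * `ptl_F3_local` : `ptd_F3` from the local class formation hypotheses (Hilbert 90 on kernels of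
    characters, non-surjectivity of the norm for cyclic degree `p`, `p`-divisibility,
    `C[p] = ⟨ζ⟩ ⊆ C^G`).
-/
import Fermat.Agent.Lib.PT.ClsKummer
import Fermat.Agent.Lib.PT.ClsNorm

set_option autoImplicit false
set_option linter.unusedSectionVars false
set_option linter.style.haveILetI false

namespace Fermat.Agent.Lib.PT

section Count

theorem ptl_card_dual (p : ℕ) [Fact p.Prime] (Q : Type*) [AddCommGroup Q] [Module (ZMod p) Q]
    [Finite Q] :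
    Finite (Module.Dual (ZMod p) Q) ∧ Nat.card (Module.Dual (ZMod p) Q) = Nat.card Q := by
  haveI : Module.Finite (ZMod p) Q := Module.Finite.of_finite
  haveI : Module.Finite (ZMod p) (Module.Dual (ZMod p) Q) := inferInstance
  refine ⟨Module.finite_of_finite (ZMod p), ?_⟩
  rw [Module.natCard_eq_pow_finrank (K := ZMod p),
    Module.natCard_eq_pow_finrank (K := ZMod p) (V := Q), Subspace.dual_finrank_eq]

/-- additive maps `A → ZMod p` inject into the dual of `A / H` (`p A ≤ H` of finite index), hence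
are at most `[A : H]` many -/
theorem ptl_card_addHom_le (p : ℕ) [Fact p.Prime] {A : Type*} [AddCommGroup A]
    (H : AddSubgroup A) (hH : ∀ x : A, p • x ∈ H) (hle : ∀ L : A →+ ZMod p, H ≤ L.ker)
    (hfin : H.index ≠ 0) :
    Finite (A →+ ZMod p) ∧ Nat.card (A →+ ZMod p) ≤ H.index := by
  haveI : H.FiniteIndex := ⟨hfin⟩
  haveI : Finite (A ⧸ H) := AddSubgroup.finite_quotient_of_finiteIndex
  letI inst : Module (ZMod p) (A ⧸ H) := QuotientAddGroup.zmodModule hH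
  obtain ⟨hf, hc⟩ := @ptl_card_dual p _ (A ⧸ H) _ inst _
  let Θ : (A →+ ZMod p) → Module.Dual (ZMod p) (A ⧸ H) :=
    fun L => (QuotientAddGroup.lift H L (hle L)).toZModLinearMap p
  have hΘ : Function.Injective Θ := by
    intro L L' h
    refine AddMonoidHom.ext fun c => ?_
    have := LinearMap.congr_fun h (QuotientAddGroup.mk c)
    simpa [Θ] using this
  refine ⟨Finite.of_injective Θ hΘ, ?_⟩
  calc Nat.card (A →+ ZMod p)
      ≤ Nat.card (Module.Dual (ZMod p) (A ⧸ H)) := Nat.card_le_card_of_injective Θ hΘ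
    _ = Nat.card (A ⧸ H) := hc
    _ = H.index := (AddSubgroup.index_eq_card _).symm

end Count

section F3

variable {G : Type*} [Group G] {𝓛 : ptd_Levels G} {p : ℕ} [Fact p.Prime]
variable {C : Type*} [AddCommGroup C] {ρC : Representation ℤ G C}
variable {T : Type*} [AddCommGroup T]

/-- the symbol `c ↦ inv (c · δχ)` as an additive map on the invariants -/
noncomputable def ptl_symb (inv : ptd_Inv 𝓛 ρC T p) {χ : G → ZMod p} (hχ : ptd_IsChar χ)
    (hlev : ptd_IsLev₁ 𝓛 χ) : ρC.invariants →+ T :=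
  AddMonoidHom.mk' (fun c => inv (ptd_bockSmul p χ (c : C))) (fun c c' => by
    rw [Submodule.coe_add, ptl_bockSmul_add]
    exact inv.map_add' _ _ (ptl_bockSmul_isLZ2p hχ hlev (fun g => c.2 g))
      (ptl_bockSmul_isLZ2p hχ hlev (fun g => c'.2 g)))

theorem ptl_symb_apply (inv : ptd_Inv 𝓛 ρC T p) {χ : G → ZMod p} (hχ : ptd_IsChar χ)
    (hlev : ptd_IsLev₁ 𝓛 χ) (c : ρC.invariants) :
    ptl_symb inv hχ hlev c = inv (ptd_bockSmul p χ (c : C)) := rfl

theorem ptl_nsmul_symb (inv : ptd_Inv 𝓛 ρC T p) {χ : G → ZMod p} (hχ : ptd_IsChar χ)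
    (hlev : ptd_IsLev₁ 𝓛 χ) (c : ρC.invariants) : p • ptl_symb inv hχ hlev c = 0 := by
  rw [← map_nsmul, ptl_symb_apply, Submodule.coe_smul_of_tower, ptl_bockSmul_nsmul,
    ptl_nsmul_bockSmul hχ (fun g => c.2 g)]
  exact inv.map_b2' _ ⟨_, (ptl_lift_isLev₁ hlev).comp (fun n : ℤ => n • (c : C)), rfl⟩

theorem ptl_symb_add (hdisc : ptd_IsDiscrete 𝓛 ρC) (inv : ptd_Inv 𝓛 ρC T p)
    {χ χ' : G → ZMod p} (hχ : ptd_IsChar χ) (hlev : ptd_IsLev₁ 𝓛 χ) (hχ' : ptd_IsChar χ')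
    (hlev' : ptd_IsLev₁ 𝓛 χ') (c : ρC.invariants) :
    ptl_symb inv (ptl_isChar_add hχ hχ') (hlev.add hlev') c =
      ptl_symb inv hχ hlev c + ptl_symb inv hχ' hlev' c := by
  have hc : ∀ g, ρC g (c : C) = c := fun g => c.2 g
  have hB := ptl_bockSmul_add_left_isB2 hχ hχ' hlev hlev' hc
  have h1 := ptl_bockSmul_isLZ2p hχ hlev hc
  have h2 := ptl_bockSmul_isLZ2p hχ' hlev' hc
  have h3 := ptl_bockSmul_isLZ2p (ptl_isChar_add hχ hχ') (hlev.add hlev') hc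
  simp only [ptl_symb_apply]
  rw [← inv.map_add h1 h2]
  have h4 : ptd_bockSmul p χ (c : C) + ptd_bockSmul p χ' (c : C) =
      ptd_bockSmul p (χ + χ') (c : C) +
        (ptd_bockSmul p χ (c : C) + ptd_bockSmul p χ' (c : C) - ptd_bockSmul p (χ + χ') (c : C)) := by
    abel
  rw [h4, inv.map_add h3 (hB.isLZ2p hdisc), inv.map_b2 hB, add_zero]


theorem ptl_isChar_sub {χ χ' : G → ZMod p} (hχ : ptd_IsChar χ) (hχ' : ptd_IsChar χ') :
    ptd_IsChar (χ - χ') := fun a b => by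
  simp only [Pi.sub_apply, hχ a b, hχ' a b]; ring

/-- **F3 by counting** (formal class formation): if `inv` is injective on `p`-torsion classes,
every nonzero level character `χ` admits `c` with `c·δχ` not a coboundary (first inequality),
`C^G/p` is finite and injects into the level characters (Kummer / existence), and `T[p]` is
cyclic, then every functional on `C^G/p` is a symbol `c ↦ inv (c·δχ)`. -/
theorem ptl_F3_of_count (hdisc : ptd_IsDiscrete 𝓛 ρC) (inv : ptd_Inv 𝓛 ρC T p)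
    (hT : ∃ t₀ : T, p • t₀ = 0 ∧ ∀ t : T, p • t = 0 → ∃ k : ℕ, t = k • t₀)
    (hinj : ∀ z, ptd_IsLZ2p 𝓛 ρC p z → inv z = 0 → ptd_IsB2 𝓛 ρC z)
    (hnorm : ∀ χ : G → ZMod p, ptd_IsChar χ → ptd_IsLev₁ 𝓛 χ → χ ≠ 0 →
      ∃ c : ρC.invariants, ¬ ptd_IsB2 𝓛 ρC (ptd_bockSmul p χ (c : C)))
    (hfin : (ptl_pInv ρC p).index ≠ 0)
    (hkum : ∃ κ : ρC.invariants → (G → ZMod p), (∀ c, ptd_IsChar (κ c) ∧ ptd_IsLev₁ 𝓛 (κ c)) ∧
      ∀ c c', κ c = κ c' → c - c' ∈ ptl_pInv ρC p) :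
    ptd_F3 𝓛 ρC inv := by
  intro l hl
  obtain ⟨t₀, ht₀, hcyc⟩ := hT
  by_cases h0 : t₀ = 0
  · refine ⟨0, ptl_isChar_zero, ptd_isLev₁_const 0, fun c => ?_⟩
    have h1 : l c = 0 := by
      obtain ⟨k, hk⟩ := hcyc (l c) (by rw [← map_nsmul, hl])
      rw [hk, h0, smul_zero]
    have h2 : ptd_bockSmul p (fun _ : G => (0 : ZMod p)) (c : C) = 0 :=
      ptl_bockSmul_zero_left (c : C)
    rw [h1]
    show (0 : T) = inv (ptd_bockSmul p (fun _ : G => (0 : ZMod p)) (c : C))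
    rw [h2, inv.map_b2 ptd_isB2_zero]
  set ι := ptl_zetaHom t₀ ht₀ with hι
  have hιinj : Function.Injective ι := ptl_zetaHom_injective ht₀ h0
  have hιsurj : ∀ t : T, p • t = 0 → ∃ x, ι x = t := fun t ht => ptl_zetaHom_surjOn ht₀ hcyc ht
  -- factor a `T[p]`-valued additive map through `ι`
  have hfac : ∀ m : ρC.invariants →+ T, (∀ c, p • m c = 0) →
      ∃ L : ρC.invariants →+ ZMod p, ∀ c, ι (L c) = m c := by
    intro m hm
    choose L hL using fun c => hιsurj (m c) (hm c)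
    exact ⟨AddMonoidHom.mk' L (fun c c' => hιinj (by rw [map_add, hL, hL, hL, map_add])), hL⟩
  choose Φ hΦ using fun χ : {χ : G → ZMod p // ptd_IsChar χ ∧ ptd_IsLev₁ 𝓛 χ} =>
    hfac (ptl_symb inv χ.2.1 χ.2.2) (ptl_nsmul_symb inv χ.2.1 χ.2.2)
  have hΦinj : Function.Injective Φ := by
    intro χ χ' h
    by_contra hne
    have hd0 : χ.1 - χ'.1 ≠ 0 := fun h0 => hne (Subtype.ext (sub_eq_zero.mp h0))
    have hdχ := ptl_isChar_sub χ.2.1 χ'.2.1
    have hdlev := χ.2.2.sub χ'.2.2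
    obtain ⟨c, hc⟩ := hnorm _ hdχ hdlev hd0
    apply hc
    apply hinj _ (ptl_bockSmul_isLZ2p hdχ hdlev (fun g => c.2 g))
    have h1 := ptl_symb_add hdisc inv χ'.2.1 χ'.2.2 hdχ hdlev c
    have h2 : ptl_symb inv χ.2.1 χ.2.2 c = ptl_symb inv χ'.2.1 χ'.2.2 c := by
      rw [← hΦ, ← hΦ, h]
    have h3 : ptl_symb inv (ptl_isChar_add χ'.2.1 hdχ) (χ'.2.2.add hdlev) c =
        ptl_symb inv χ.2.1 χ.2.2 c := by
      simp only [ptl_symb_apply]
      congr 2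
      abel
    rw [h3, h2] at h1
    have h4 : ptl_symb inv hdχ hdlev c = 0 := by
      have := h1
      rwa [left_eq_add] at this
    exact h4
  have hker : ∀ L : ρC.invariants →+ ZMod p, ptl_pInv ρC p ≤ L.ker := by
    rintro L _ ⟨d, rfl⟩
    rw [AddMonoidHom.mem_ker]
    show L (p • d) = 0
    rw [map_nsmul]; simp
  obtain ⟨hfinE, hcardE⟩ := ptl_card_addHom_le p (ptl_pInv ρC p)
    (fun x => ⟨x, rfl⟩) hker hfin
  haveI : Finite {χ : G → ZMod p // ptd_IsChar χ ∧ ptd_IsLev₁ 𝓛 χ} :=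
    Finite.of_injective Φ hΦinj
  have hQX : (ptl_pInv ρC p).index ≤
      Nat.card {χ : G → ZMod p // ptd_IsChar χ ∧ ptd_IsLev₁ 𝓛 χ} := by
    obtain ⟨κ, hκ1, hκ2⟩ := hkum
    rw [AddSubgroup.index_eq_card]
    refine Nat.card_le_card_of_injective
      (fun q : ρC.invariants ⧸ ptl_pInv ρC p => (⟨κ q.out, hκ1 _⟩ :
        {χ : G → ZMod p // ptd_IsChar χ ∧ ptd_IsLev₁ 𝓛 χ})) ?_
    intro q q' h
    have h1 := hκ2 _ _ (congrArg Subtype.val h)
    rw [← QuotientAddGroup.out_eq' q, ← QuotientAddGroup.out_eq' q']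
    rw [QuotientAddGroup.eq]
    have h2 : -q.out + q'.out = -(q.out - q'.out) := by abel
    rw [h2]
    exact (ptl_pInv ρC p).neg_mem h1
  have hbij := hΦinj.bijective_of_nat_card_le (hcardE.trans hQX)
  obtain ⟨L, hL⟩ := hfac l (fun c => by rw [← map_nsmul, hl])
  obtain ⟨χ, hχ⟩ := hbij.2 L
  refine ⟨χ.1, χ.2.1, χ.2.2, fun c => ?_⟩
  rw [← hL, ← hχ, hΦ, ptl_symb_apply]


/-- **F3, local/formal**: the existence theorem in exponent `p` for a "local class formation" in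
the big-group model. -/
theorem ptl_F3_local (hdisc : ptd_IsDiscrete 𝓛 ρC) (hdiv : ∀ c : C, ∃ c' : C, p • c' = c)
    {ζ : C} (hζ : p • ζ = 0) (hζ0 : ζ ≠ 0) (hζfix : ∀ g, ρC g ζ = ζ)
    (htors : ∀ c : C, p • c = 0 → ∃ k : ℕ, c = k • ζ)
    (inv : ptd_Inv 𝓛 ρC T p)
    (hT : ∃ t₀ : T, p • t₀ = 0 ∧ ∀ t : T, p • t = 0 → ∃ k : ℕ, t = k • t₀)
    (hinj : ∀ z, ptd_IsLZ2p 𝓛 ρC p z → inv z = 0 → ptd_IsB2 𝓛 ρC z)
    (hfin : (ptl_pInv ρC p).index ≠ 0)
    (h90V : ∀ (χ : G → ZMod p) (hχ : ptd_IsChar χ) (hlev : ptd_IsLev₁ 𝓛 χ), χ ≠ 0 →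
      ∀ φ : ptl_charKer hχ → C,
        ptd_IsLZ1 (𝓛.sub (ptl_charKer hχ) (ptl_charKer_isOpen hχ hlev))
          (ptd_resRep ρC (ptl_charKer hχ)) φ → ptd_IsB1 (ptd_resRep ρC (ptl_charKer hχ)) φ)
    (hnormidx : ∀ (χ : G → ZMod p) (hχ : ptd_IsChar χ), ptd_IsLev₁ 𝓛 χ → χ ≠ 0 →
      ∀ τ : G, χ τ = 1 → ∃ c : ρC.invariants, ∀ a : C,
        (∀ v ∈ ptl_charKer hχ, ρC v a = a) → (c : C) ≠ ∑ i ∈ Finset.range p, ρC (τ ^ i) a) :
    ptd_F3 𝓛 ρC inv := by
  refine ptl_F3_of_count hdisc inv hT hinj ?_ hfin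
    (ptl_exists_kummerMap hdisc hdiv hζ hζ0 hζfix htors)
  intro χ hχ hlev h0
  obtain ⟨τ, hτ⟩ := ptl_exists_char_eq_one hχ h0
  exact ptl_exists_not_isB2 hχ hlev (h90V χ hχ hlev h0) hτ (hnormidx χ hχ hlev h0 τ hτ)

end F3

end Fermat.Agent.Lib.PT
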