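/-
S55 (Poitou–Tate long haul), A-track, F4-GLOBAL (base case over `U = G_S(F)`, `μ_p ⊂ F`), part 1:
the SWAP LEMMA — pure cochain algebra in the big-group model.

Data: `π : J → C` equivariant, `ζ : ZMod p →+ J` with trivial action on its image and `π ∘ ζ = 0`;
a character `χ : G → ZMod p`, a `2`-cocycle `z : G × G → ZMod p` (trivial action);
`f : ZMod p →+ J` with `g • f a - f a = ζ (χ g * a)`  (i.e. `f a = a • x`, `x ∈ J[p]`,
`g x - x = ζ (χ g)`);  `η : G → J`, `j₀ : J` with `d η = ζ ∘ z`, `p • η = d⁰ j₀`.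
Then
  `W' := f ∘ z - η·χ̃ - j₀·δχ + ζ ∘ h`,   `h (σ, τ) = z (σ, τ) * χ (σ τ)`,
is a `2`-cocycle with values in `J`, and
  `π ∘ W' = (π ∘ f) ∘ z - (π ∘ η)·χ̃ - (π j₀)·δχ`;
if moreover `π ∘ η = d⁰ c₀` then `(π ∘ η)·χ̃ = d (c₀·χ̃) - (p c₀)·δχ`, whence
  `(π ∘ f) ∘ z = π ∘ W' + d (c₀·χ̃) + (π j₀ - p c₀)·δχ`.
-/
import Fermat.Agent.Lib.PT.AdtFull
import Fermat.Agent.Lib.PT.ClsF3

set_option autoImplicit false
set_option linter.unusedSectionVars false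

namespace Fermat.Agent.Lib.PT

section D2

variable {G : Type*} [Group G] {k : Type*} [CommRing k] {A : Type*} [AddCommGroup A] [Module k A]
variable (ρ : Representation k G A)

/-- the differential `C² → C³` (defect of the `2`-cocycle condition) -/
def ptd_d2 (W : G × G → A) (g h j : G) : A :=
  ρ g (W (h, j)) - W (g * h, j) + W (g, h * j) - W (g, h)

variable {ρ}

lemma ptd_isZ2_iff_d2 (W : G × G → A) : ptd_IsZ2 ρ W ↔ ∀ g h j, ptd_d2 ρ W g h j = 0 := by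
  constructor
  · intro hW g h j
    have := hW g h j
    unfold ptd_d2
    rw [sub_eq_zero, sub_add_eq_add_sub, sub_eq_iff_eq_add]
    rw [add_comm (W (g, h))]
    exact this.symm
  · intro hW g h j
    have := hW g h j
    unfold ptd_d2 at this
    rw [sub_eq_zero, sub_add_eq_add_sub, sub_eq_iff_eq_add] at this
    rw [this, add_comm]

lemma ptd_d2_add (W W' : G × G → A) (g h j : G) :
    ptd_d2 ρ (W + W') g h j = ptd_d2 ρ W g h j + ptd_d2 ρ W' g h j := by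
  simp only [ptd_d2, Pi.add_apply, map_add]; abel

lemma ptd_d2_sub (W W' : G × G → A) (g h j : G) :
    ptd_d2 ρ (W - W') g h j = ptd_d2 ρ W g h j - ptd_d2 ρ W' g h j := by
  simp only [ptd_d2, Pi.sub_apply, map_sub]; abel

end D2

section Swap

variable {G : Type*} [Group G] {p : ℕ} [Fact p.Prime]
variable {J : Type*} [AddCommGroup J] (ρJ : Representation ℤ G J)
variable (ζ : ZMod p →+ J)

/-- the auxiliary cochain `h (σ, τ) = z (σ, τ) * χ (σ τ)` -/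
def ptd_swapH (χ : G → ZMod p) (z : G × G → ZMod p) : G × G → ZMod p :=
  fun y => z y * χ (y.1 * y.2)

/-- the cochain `η·χ̃ : (σ, τ) ↦ χ̃ (τ) • η (σ)` -/
def ptd_cupLift (χ : G → ZMod p) (η : G → J) : G × G → J :=
  fun y => ptl_lift χ y.2 • η y.1

/-- the swap cocycle `W' = f ∘ z - η·χ̃ - j₀·δχ + ζ ∘ h` -/
def ptd_swapW (χ : G → ZMod p) (z : G × G → ZMod p) (f : ZMod p →+ J) (η : G → J) (j₀ : J) :
    G × G → J :=
  (fun y => f (z y)) - ptd_cupLift χ η - ptd_bockSmul p χ j₀ + fun y => ζ (ptd_swapH χ z y)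

variable {ρJ ζ}

/-- `n • ζ a = ζ (n * a)` for integers `n` -/
lemma ptd_zsmul_zeta (n : ℤ) (a : ZMod p) : n • ζ a = ζ ((n : ZMod p) * a) := by
  rw [← map_zsmul, zsmul_eq_mul]

lemma ptd_d2_comp_cocycle {χ : G → ZMod p} {z : G × G → ZMod p}
    (hz : ptd_IsZ2 (Representation.trivial (ZMod p) G (ZMod p)) z) {f : ZMod p →+ J}
    (hf : ∀ g a, ρJ g (f a) - f a = ζ (χ g * a)) (g h j : G) :
    ptd_d2 ρJ (fun y => f (z y)) g h j = ζ (χ g * z (h, j)) := by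
  have h1 := hz g h j
  simp only [Representation.trivial_apply] at h1
  have h2 : z (g, h * j) = z (g * h, j) + z (g, h) - z (h, j) := by rw [h1]; abel
  unfold ptd_d2
  simp only
  rw [h2, map_sub, map_add, ← hf g (z (h, j))]
  abel

lemma ptd_d2_cupLift {χ : G → ZMod p} (hχ : ptd_IsChar χ) {z : G × G → ZMod p} {η : G → J}
    (hη : ptd_d1 ρJ η = fun y => ζ (z y)) (g h j : G) :
    ptd_d2 ρJ (ptd_cupLift χ η) g h j =
      ζ (χ j * z (g, h)) - ((p : ℤ) * ptd_bock p χ (h, j)) • η g := by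
  have h1 := congrFun hη (g, h)
  simp only [ptd_d1_apply] at h1
  have h2 : ρJ g (η h) = ζ (z (g, h)) + η (g * h) - η g := by rw [← h1]; abel
  unfold ptd_d2 ptd_cupLift
  simp only [map_zsmul]
  rw [h2, ptl_mul_bock hχ, ← ptl_lift_cast χ j, ← ptd_zsmul_zeta]
  simp only [smul_sub, smul_add, sub_smul, add_smul]
  abel

lemma ptd_d2_bockSmul {χ : G → ZMod p} (hχ : ptd_IsChar χ) (j₀ : J) (g h j : G) :
    ptd_d2 ρJ (ptd_bockSmul p χ j₀) g h j = ptd_bock p χ (h, j) • (ρJ g j₀ - j₀) := by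
  have h1 := ptl_bock_cocycle hχ g h j
  have h2 : ptd_bock p χ (g, h * j) =
      ptd_bock p χ (g * h, j) + ptd_bock p χ (g, h) - ptd_bock p χ (h, j) := by rw [h1]; abel
  unfold ptd_d2
  simp only [ptl_bockSmul_apply, map_zsmul]
  rw [h2]
  simp only [smul_sub, sub_smul, add_smul]
  abel

lemma ptd_d2_swapH {χ : G → ZMod p} (hχ : ptd_IsChar χ) {z : G × G → ZMod p}
    (hz : ptd_IsZ2 (Representation.trivial (ZMod p) G (ZMod p)) z)
    (hζ : ∀ g a, ρJ g (ζ a) = ζ a) (g h j : G) :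
    ptd_d2 ρJ (fun y => ζ (ptd_swapH χ z y)) g h j =
      ζ (z (g, h) * χ j - z (h, j) * χ g) := by
  have h1 := hz g h j
  simp only [Representation.trivial_apply] at h1
  have h2 : z (g, h * j) = z (g * h, j) + z (g, h) - z (h, j) := by rw [h1]; abel
  unfold ptd_d2 ptd_swapH
  simp only [hζ, ← map_sub, ← map_add]
  congr 1
  rw [h2, mul_assoc g h j, hχ g (h * j), hχ h j, hχ g h]
  ring

/-- **SWAP LEMMA, part 1**: `W'` is a `2`-cocycle. -/
theorem ptd_isZ2_swapW {χ : G → ZMod p} (hχ : ptd_IsChar χ) {z : G × G → ZMod p}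
    (hz : ptd_IsZ2 (Representation.trivial (ZMod p) G (ZMod p)) z)
    (hζ : ∀ g a, ρJ g (ζ a) = ζ a) {f : ZMod p →+ J}
    (hf : ∀ g a, ρJ g (f a) - f a = ζ (χ g * a)) {η : G → J} {j₀ : J}
    (hη : ptd_d1 ρJ η = fun y => ζ (z y)) (hpη : ∀ g, p • η g = ρJ g j₀ - j₀) :
    ptd_IsZ2 ρJ (ptd_swapW ζ χ z f η j₀) := by
  rw [ptd_isZ2_iff_d2]
  intro g h j
  unfold ptd_swapW
  rw [ptd_d2_add, ptd_d2_sub, ptd_d2_sub, ptd_d2_comp_cocycle hz hf, ptd_d2_cupLift hχ hη,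
    ptd_d2_bockSmul hχ, ptd_d2_swapH hχ hz hζ, mul_smul, natCast_zsmul,
    smul_comm p (ptd_bock p χ (h, j)) (η g), hpη g, map_sub]
  rw [mul_comm (χ j) (z (g, h)), mul_comm (z (h, j)) (χ g)]
  abel

end Swap

section SwapLevel

variable {G : Type*} [Group G] {𝓛 : ptd_Levels G} {p : ℕ} [Fact p.Prime]
variable {J : Type*} [AddCommGroup J] {ζ : ZMod p →+ J}

lemma ptd_isLev₂_cupLift {χ : G → ZMod p} (hχl : ptd_IsLev₁ 𝓛 χ) {η : G → J}
    (hη : ptd_IsLev₁ 𝓛 η) : ptd_IsLev₂ 𝓛 (ptd_cupLift χ η) :=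
  (ptl_lift_isLev₁ hχl).snd.map₂ hη.fst (fun (n : ℤ) (a : J) => n • a)

lemma ptd_isLev₂_swapH {χ : G → ZMod p} (hχl : ptd_IsLev₁ 𝓛 χ) {z : G × G → ZMod p}
    (hz : ptd_IsLev₂ 𝓛 z) : ptd_IsLev₂ 𝓛 (ptd_swapH χ z) :=
  hz.map₂ (ptd_IsLev₁.mul (f := χ) hχl) (fun a b : ZMod p => a * b)

lemma ptd_isLev₂_swapW {χ : G → ZMod p} (hχl : ptd_IsLev₁ 𝓛 χ) {z : G × G → ZMod p}
    (hz : ptd_IsLev₂ 𝓛 z) (f : ZMod p →+ J) {η : G → J} (hη : ptd_IsLev₁ 𝓛 η) (j₀ : J) :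
    ptd_IsLev₂ 𝓛 (ptd_swapW ζ χ z f η j₀) :=
  (((hz.comp f).sub (ptd_isLev₂_cupLift hχl hη)).sub (ptl_bockSmul_isLev₂ hχl j₀)).add
    ((ptd_isLev₂_swapH hχl hz).comp ζ)

end SwapLevel

section SwapPi

variable {G : Type*} [Group G] {p : ℕ} [Fact p.Prime]
variable {J : Type*} [AddCommGroup J] {ρJ : Representation ℤ G J}
variable {C : Type*} [AddCommGroup C] {ρC : Representation ℤ G C}
variable {ζ : ZMod p →+ J} (π : J →+ C)

/-- **SWAP LEMMA, part 2**: the image of `W'` in `C`. -/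
lemma ptd_pi_swapW (hπζ : ∀ a, π (ζ a) = 0) (χ : G → ZMod p) (z : G × G → ZMod p)
    (f : ZMod p →+ J) (η : G → J) (j₀ : J) :
    (fun y => π (ptd_swapW ζ χ z f η j₀ y)) =
      (fun y => π (f (z y))) - ptd_cupLift χ (fun g => π (η g)) - ptd_bockSmul p χ (π j₀) := by
  funext y
  simp only [ptd_swapW, ptd_cupLift, ptl_bockSmul_apply, Pi.add_apply, Pi.sub_apply, map_add,
    map_sub, map_zsmul, hπζ, add_zero]

/-- `(d⁰ c₀)·χ̃ = d (c₀·χ̃) - (p c₀)·δχ` -/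
lemma ptd_cupLift_d0 {χ : G → ZMod p} (hχ : ptd_IsChar χ) (c₀ : C) :
    ptd_cupLift χ (ptd_d0 ρC c₀) =
      ptd_d1 ρC (fun g => ptl_lift χ g • c₀) - ptd_bockSmul p χ (p • c₀) := by
  funext ⟨g, h⟩
  simp only [ptd_cupLift, ptd_d0_apply, ptd_d1_apply, ptl_bockSmul_apply, Pi.sub_apply,
    map_zsmul]
  rw [← natCast_zsmul, smul_smul, mul_comm, ptl_mul_bock hχ]
  simp only [smul_sub, sub_smul, add_smul]
  abel

/-- **SWAP LEMMA, part 3**: `(π ∘ f) ∘ z = π ∘ W' + d (c₀·χ̃) + (π j₀ - p c₀)·δχ`. -/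
theorem ptd_swap_identity (hπζ : ∀ a, π (ζ a) = 0) {χ : G → ZMod p} (hχ : ptd_IsChar χ)
    (z : G × G → ZMod p) (f : ZMod p →+ J) (η : G → J) (j₀ : J) (c₀ : C)
    (hc₀ : ∀ g, π (η g) = ρC g c₀ - c₀) :
    (fun y => π (f (z y))) =
      (fun y => π (ptd_swapW ζ χ z f η j₀ y)) + ptd_d1 ρC (fun g => ptl_lift χ g • c₀)
        + ptd_bockSmul p χ (π j₀ - p • c₀) := by
  have h1 : (fun g => π (η g)) = ptd_d0 ρC c₀ := by
    funext g; rw [hc₀ g]; rfl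
  rw [ptd_pi_swapW π hπζ, h1, ptd_cupLift_d0 hχ c₀]
  have h2 : ptd_bockSmul p χ (π j₀ - p • c₀) =
      ptd_bockSmul p χ (π j₀) - ptd_bockSmul p χ (p • c₀) := by
    funext y; simp only [ptl_bockSmul_apply, Pi.sub_apply, smul_sub]
  rw [h2]
  abel

end SwapPi

section SwapLoc

variable {G : Type*} [Group G] {p : ℕ} [Fact p.Prime]
variable {J : Type*} [AddCommGroup J] {ζ : ZMod p →+ J}
variable {H : Type*} [Group H] (r : H →* G)

lemma ptd_bock_comp (χ : G → ZMod p) (a b : H) :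
    ptd_bock p (fun t => χ (r t)) (a, b) = ptd_bock p χ (r a, r b) := by
  simp only [ptd_bock, map_mul]

/-- locally (where `χ` vanishes) the swap cocycle is `f ∘ z` -/
lemma ptd_swapW_loc {χ : G → ZMod p} (hr : ∀ t, χ (r t) = 0) (z : G × G → ZMod p)
    (f : ZMod p →+ J) (η : G → J) (j₀ : J) (a b : H) :
    ptd_swapW ζ χ z f η j₀ (r a, r b) = f (z (r a, r b)) := by
  have h1 : ptd_bock p χ (r a, r b) = 0 := by
    rw [← ptd_bock_comp]
    have : (fun t => χ (r t)) = 0 := by funext t; exact hr t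
    rw [this, ptl_bock_zero]
  have h2 : χ (r a * r b) = 0 := by rw [← map_mul]; exact hr _
  simp only [ptd_swapW, ptd_cupLift, ptd_swapH, ptl_bockSmul_apply, Pi.add_apply, Pi.sub_apply,
    ptl_lift, hr, h1, h2]
  simp

end SwapLoc

end Fermat.Agent.Lib.PT
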