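/-
S55 (Poitou–Tate long haul), A-track, F4-GLOBAL (base case over `U = G_S(F)`, `μ_p ⊂ F`), part 2:
the abstract setting.

* `ptd_loc₁`, `ptd_loc₂` : restriction of cochains along a homomorphism `r : H → G` composed with a
  coefficient map (localisation at a place);
* `ptd_IsLevCont` : level-continuity of a homomorphism;
* `ptd_GKummer` : the Kummer/capitulation package for `0 → E → J → C` (`E = ker π` is
  `p`-divisible, `E[p] = ζ (ZMod p)` with trivial action, `C / π J` is torsion of order prime to `p`);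
* `ptd_GSemiLocal` : the semi-local structure of `J` with respect to a finite family of local
  groups `r v : Gv v → G` and evaluation maps `ev v : J → Av v`;
* `ptd_GLG` : the local–global formula `inv (π ∘ W) = ∑ v, inv_v (W_v)` for `J`-valued cocycles.
-/
import Fermat.Agent.Lib.PT.AdtSwap

set_option autoImplicit false
set_option linter.unusedSectionVars false

namespace Fermat.Agent.Lib.PT

section Loc

variable {H G : Type*} [Group H] [Group G]

/-- localisation of `1`-cochains along `r : H → G` with coefficient map `e` -/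
def ptd_loc₁ {X Y : Type*} (r : H → G) (e : X → Y) (φ : G → X) : H → Y := fun t => e (φ (r t))

/-- localisation of `2`-cochains along `r : H → G` with coefficient map `e` -/
def ptd_loc₂ {X Y : Type*} (r : H → G) (e : X → Y) (W : G × G → X) : H × H → Y :=
  fun y => e (W (r y.1, r y.2))

@[simp] lemma ptd_loc₁_apply {X Y : Type*} (r : H → G) (e : X → Y) (φ : G → X) (t : H) :
    ptd_loc₁ r e φ t = e (φ (r t)) := rfl

@[simp] lemma ptd_loc₂_apply {X Y : Type*} (r : H → G) (e : X → Y) (W : G × G → X) (a b : H) :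
    ptd_loc₂ r e W (a, b) = e (W (r a, r b)) := rfl

/-- level-continuity of a homomorphism -/
def ptd_IsLevCont (𝓛H : ptd_Levels H) (𝓛 : ptd_Levels G) (r : H →* G) : Prop :=
  ∀ N ∈ 𝓛.lev, ∃ N' ∈ 𝓛H.lev, ∀ n ∈ N', r n ∈ N

variable {𝓛H : ptd_Levels H} {𝓛 : ptd_Levels G} {r : H →* G}

lemma ptd_IsLev₁.loc {X Y : Type*} {φ : G → X} (hφ : ptd_IsLev₁ 𝓛 φ)
    (hr : ptd_IsLevCont 𝓛H 𝓛 r) (e : X → Y) : ptd_IsLev₁ 𝓛H (ptd_loc₁ r e φ) := by
  obtain ⟨N, hN, h⟩ := hφ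
  obtain ⟨N', hN', hle⟩ := hr N hN
  refine ⟨N', hN', fun g n hn => ?_⟩
  simp only [ptd_loc₁_apply, map_mul]
  rw [h (r g) (r n) (hle n hn)]

lemma ptd_IsLev₂.loc {X Y : Type*} {W : G × G → X} (hW : ptd_IsLev₂ 𝓛 W)
    (hr : ptd_IsLevCont 𝓛H 𝓛 r) (e : X → Y) : ptd_IsLev₂ 𝓛H (ptd_loc₂ r e W) := by
  obtain ⟨N, hN, h⟩ := hW
  obtain ⟨N', hN', hle⟩ := hr N hN
  refine ⟨N', hN', fun g g' n hn n' hn' => ?_⟩
  simp only [ptd_loc₂_apply, map_mul]
  rw [h (r g) (r g') (r n) (hle n hn) (r n') (hle n' hn')]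

variable {k k' : Type*} [CommRing k] [CommRing k']
variable {A : Type*} [AddCommGroup A] [Module k A] {ρA : Representation k G A}
variable {B : Type*} [AddCommGroup B] [Module k' B] {ρB : Representation k' H B}

lemma ptd_loc₂_d1 (e : A →+ B) (he : ∀ t x, e (ρA (r t) x) = ρB t (e x)) (φ : G → A) :
    ptd_loc₂ r e (ptd_d1 ρA φ) = ptd_d1 ρB (ptd_loc₁ r e φ) := by
  funext ⟨a, b⟩
  simp only [ptd_loc₂_apply, ptd_d1_apply, ptd_loc₁_apply, map_add, map_sub, he, map_mul]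

lemma ptd_IsZ2.loc {W : G × G → A} (hW : ptd_IsZ2 ρA W) (e : A →+ B)
    (he : ∀ t x, e (ρA (r t) x) = ρB t (e x)) : ptd_IsZ2 ρB (ptd_loc₂ r e W) := by
  intro a b c
  have := congrArg e (hW (r a) (r b) (r c))
  simp only [map_add, he] at this
  simpa only [ptd_loc₂_apply, map_mul] using this

lemma ptd_IsLZ2.loc {W : G × G → A} (hW : ptd_IsLZ2 𝓛 ρA W) (hr : ptd_IsLevCont 𝓛H 𝓛 r)
    (e : A →+ B) (he : ∀ t x, e (ρA (r t) x) = ρB t (e x)) :
    ptd_IsLZ2 𝓛H ρB (ptd_loc₂ r e W) := ⟨hW.1.loc e he, hW.2.loc hr e⟩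

lemma ptd_IsB2.loc {W : G × G → A} (hW : ptd_IsB2 𝓛 ρA W) (hr : ptd_IsLevCont 𝓛H 𝓛 r)
    (e : A →+ B) (he : ∀ t x, e (ρA (r t) x) = ρB t (e x)) :
    ptd_IsB2 𝓛H ρB (ptd_loc₂ r e W) := by
  obtain ⟨φ, hφ, rfl⟩ := hW
  exact ⟨ptd_loc₁ r e φ, hφ.loc hr e, ptd_loc₂_d1 e he φ⟩

lemma ptd_isChar_loc {p : ℕ} {χ : G → ZMod p} (hχ : ptd_IsChar χ) :
    ptd_IsChar (fun t => χ (r t)) := fun a b => by
  show χ (r (a * b)) = χ (r a) + χ (r b)
  rw [map_mul]; exact hχ _ _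

end Loc

section Packages

variable {G : Type*} [Group G] (𝓛 : ptd_Levels G) (p : ℕ) [Fact p.Prime]
variable {J : Type*} [AddCommGroup J] (ρJ : Representation ℤ G J)
variable {C : Type*} [AddCommGroup C] (ρC : Representation ℤ G C)
variable (π : J →+ C) (ζ : ZMod p →+ J)

/-- the Kummer / capitulation package for `0 → E → J → C`, `E = ker π` -/
structure ptd_GKummer : Prop where
  π_equiv : ∀ g x, π (ρJ g x) = ρC g (π x)
  ζ_inj : Function.Injective ζ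
  π_ζ : ∀ a, π (ζ a) = 0
  ζ_fix : ∀ g a, ρJ g (ζ a) = ζ a
  ker_tors : ∀ e : J, π e = 0 → p • e = 0 → ∃ a, ζ a = e
  ker_div : ∀ e : J, π e = 0 → ∃ u : J, π u = 0 ∧ p • u = e
  /-- `C / π J` (the limit of the `S`-class groups) is torsion of order prime to `p` -/
  cl : ∀ c : C, ∃ m : ℕ, ¬ p ∣ m ∧ ∃ j : J, π j = m • c

variable {𝒱 : Type*} {Gv : 𝒱 → Type*} [∀ v, Group (Gv v)] (𝓛v : ∀ v, ptd_Levels (Gv v))
variable {Av : 𝒱 → Type*} [∀ v, AddCommGroup (Av v)] (ρv : ∀ v, Representation ℤ (Gv v) (Av v))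
variable (r : ∀ v, Gv v →* G) (ev : ∀ v, J →+ Av v)

/-- the semi-local structure of `J` with respect to the local groups `r v : Gv v → G` -/
structure ptd_GSemiLocal : Prop where
  disc : ptd_IsDiscrete 𝓛 ρJ
  r_cont : ∀ v, ptd_IsLevCont (𝓛v v) 𝓛 (r v)
  ev_equiv : ∀ v (t : Gv v) (x : J), ev v (ρJ (r v t) x) = ρv v t (ev v x)
  /-- invariant ideles with one prescribed local component -/
  ev_indep : ∀ v (a : Av v), (∀ t, ρv v t a = a) → ∃ j : J, (∀ g, ρJ g j = j) ∧ ev v j = a ∧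
    (∀ v', v' ≠ v → ev v' j = 0) ∧ (p • a = 0 → p • j = 0)
  /-- an invariant `p`-torsion idele is determined by its local components -/
  ev_inj : ∀ j : J, (∀ g, ρJ g j = j) → p • j = 0 → (∀ v, ev v j = 0) → j = 0
  /-- Shapiro in degree one for `J[p]`: locally trivial characters come from `C^G[p]` -/
  sh1 : ∀ χ : G → ZMod p, ptd_IsChar χ → ptd_IsLev₁ 𝓛 χ → (∀ v t, χ (r v t) = 0) →
    ∃ x : J, p • x = 0 ∧ ∀ g, ρJ g x - x = ζ (χ g)
  /-- Hilbert 90 for ideles -/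
  h1J : ∀ ψ : G → J, ptd_IsLZ1 𝓛 ρJ ψ → ptd_IsB1 ρJ ψ
  /-- Hasse principle for `H²` of the ideles (on `p`-torsion-valued cocycles) -/
  h2J : ∀ W : G × G → J, ptd_IsLZ2 𝓛 ρJ W → (∀ y, p • W y = 0) →
    (∀ v, ptd_IsB2 (𝓛v v) (ρv v) (ptd_loc₂ (r v) (ev v) W)) → ptd_IsB2 𝓛 ρJ W

variable {T : Type*} [AddCommGroup T] [Fintype 𝒱]

/-- the local–global formula for the invariant of a `J`-valued level cocycle -/
def ptd_GLG (inv : ptd_Inv 𝓛 ρC T p) (invv : ∀ v, ptd_Inv (𝓛v v) (ρv v) T p) : Prop :=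
  ∀ W : G × G → J, ptd_IsLZ2 𝓛 ρJ W → ptd_IsLZ2p 𝓛 ρC p (fun y => π (W y)) →
    inv (fun y => π (W y)) = ∑ v, invv v (ptd_loc₂ (r v) (ev v) W)

end Packages

end Fermat.Agent.Lib.PT
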