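/-
S55 (Poitou–Tate long haul), A-track, F4-GLOBAL part 3:  **F4(i) over `U = G_S(F)`, `μ_p ⊂ F`**
as an abstract theorem in the big-group model: right nondegeneracy of
`C^G[p] × H²(G, 𝔽_p) → T` from the Kummer package, the semi-local structure of `J`, the
local–global formula for the invariant, `H¹(G, C)(p) = 0`, the existence theorem in exponent `p`
(`ptd_F3`), and the local inputs (local F4(i), injectivity of the local reciprocity map mod `p`).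
-/
import Fermat.Agent.Lib.PT.AdtBaseDefs

set_option autoImplicit false
set_option linter.unusedSectionVars false

namespace Fermat.Agent.Lib.PT

section BaseI

variable {G : Type*} [Group G] {𝓛 : ptd_Levels G} {p : ℕ} [Fact p.Prime]
variable {J : Type*} [AddCommGroup J] {ρJ : Representation ℤ G J}
variable {C : Type*} [AddCommGroup C] {ρC : Representation ℤ G C}
variable {π : J →+ C} {ζ : ZMod p →+ J}
variable {𝒱 : Type*} [Fintype 𝒱] [DecidableEq 𝒱] {Gv : 𝒱 → Type*} [∀ v, Group (Gv v)]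
variable {𝓛v : ∀ v, ptd_Levels (Gv v)}
variable {Av : 𝒱 → Type*} [∀ v, AddCommGroup (Av v)] {ρv : ∀ v, Representation ℤ (Gv v) (Av v)}
variable {r : ∀ v, Gv v →* G} {ev : ∀ v, J →+ Av v}
variable {T : Type*} [AddCommGroup T]
variable {inv : ptd_Inv 𝓛 ρC T p} {invv : ∀ v, ptd_Inv (𝓛v v) (ρv v) T p}

/-- the torsion homomorphism `a ↦ a • j` is equivariant for the trivial action if `j` is
invariant -/
lemma ptd_zetaHom_fix {A : Type*} [AddCommGroup A] {ρ : Representation ℤ G A} {j : A}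
    (hj : p • j = 0) (hfix : ∀ g, ρ g j = j) (g : G) (x : ZMod p) :
    ρ g (ptl_zetaHom j hj x) = ptl_zetaHom j hj x := by
  rw [ptl_zetaHom_apply, map_zsmul, hfix]

/-- a `p`-torsion-valued level cocycle composed with `ZMod p → A` is in `LZ2p` -/
lemma ptd_isLZ2p_comp_trivial {A : Type*} [AddCommGroup A] {ρ : Representation ℤ G A}
    (f : ZMod p →+ A) (hf : ∀ g x, ρ g (f x) = f x) {z : G × G → ZMod p}
    (hz : ptd_IsLZ2 𝓛 (Representation.trivial (ZMod p) G (ZMod p)) z) :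
    ptd_IsLZ2p 𝓛 ρ p (fun y => f (z y)) := by
  refine ptd_IsLZ2.isLZ2p_of_nsmul_eq_zero ⟨ptl_isZ2_comp_trivial f hf hz.1, hz.2.comp f⟩ ?_
  funext y
  simp only [Pi.smul_apply, Pi.zero_apply]
  rw [← map_nsmul, nsmul_eq_mul, ZMod.natCast_self, zero_mul, map_zero]

/-- **(Loc2)** a class in `H²(G, 𝔽_p)` orthogonal to `π (J^G[p])` is locally trivial. -/
lemma ptd_base_loc2 (K : ptd_GKummer p ρJ ρC π ζ) (SL : ptd_GSemiLocal 𝓛 p ρJ ζ 𝓛v ρv r ev)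
    (hLG : ptd_GLG 𝓛 p ρJ ρC π 𝓛v ρv r ev inv invv)
    (hF4loc : ∀ v, ptd_NondegH2 (𝓛v v) (ρv v) (invv v)
      (Representation.trivial (ZMod p) (Gv v) (ZMod p)))
    {z : G × G → ZMod p} (hz : ptd_IsLZ2 𝓛 (Representation.trivial (ZMod p) G (ZMod p)) z)
    (hzero : ∀ f : ZMod p →+ C,
      ptd_IsEquivariant ρC (Representation.trivial (ZMod p) G (ZMod p)) f →
        inv (fun x => f (z x)) = 0) (v : 𝒱) :
    ptd_IsB2 (𝓛v v) (Representation.trivial (ZMod p) (Gv v) (ZMod p))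
      (ptd_loc₂ (r v) (AddMonoidHom.id (ZMod p)) z) := by
  have hzv : ptd_IsLZ2 (𝓛v v) (Representation.trivial (ZMod p) (Gv v) (ZMod p))
      (ptd_loc₂ (r v) (AddMonoidHom.id (ZMod p)) z) :=
    hz.loc (SL.r_cont v) (AddMonoidHom.id (ZMod p)) (fun t x => by
      simp only [Representation.trivial_apply])
  refine hF4loc v _ hzv (fun fv hfv => ?_)
  have hfv' : ∀ t x, ρv v t (fv x) = fv x := fun t x => by
    rw [← hfv t x, Representation.trivial_apply]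
  have ha_tors : p • fv 1 = 0 := by
    rw [← map_nsmul, nsmul_eq_mul, ZMod.natCast_self, zero_mul, map_zero]
  obtain ⟨j, hjfix, hjv, hjv', hjt⟩ := SL.ev_indep v (fv 1) (fun t => hfv' t 1)
  have hj : p • j = 0 := hjt ha_tors
  set F := ptl_zetaHom j hj with hF
  have hFfix : ∀ g x, ρJ g (F x) = F x := ptd_zetaHom_fix hj hjfix
  have hW : ptd_IsLZ2 𝓛 ρJ (fun y => F (z y)) :=
    ⟨ptl_isZ2_comp_trivial F hFfix hz.1, hz.2.comp F⟩
  have hπFfix : ∀ g x, ρC g ((π.comp F) x) = (π.comp F) x := fun g x => by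
    rw [AddMonoidHom.comp_apply, ← K.π_equiv, hFfix]
  have hπW : ptd_IsLZ2p 𝓛 ρC p (fun y => π (F (z y))) :=
    ptd_isLZ2p_comp_trivial (π.comp F) hπFfix hz
  have h0 : inv (fun y => π (F (z y))) = 0 :=
    hzero (π.comp F) (fun g x => by rw [Representation.trivial_apply, hπFfix])
  have hlg := hLG _ hW hπW
  rw [h0, Finset.sum_eq_single v] at hlg
  · rw [hlg]
    congr 1
    funext ⟨a, b⟩
    simp only [ptd_loc₂_apply, AddMonoidHom.id_apply, hF, ptl_zetaHom_apply, map_zsmul, hjv]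
    conv_lhs => rw [ptl_eq_zetaHom fv, ptl_zetaHom_apply]
  · intro v' _ hv'
    have : ptd_loc₂ (r v') (ev v') (fun y => F (z y)) = 0 := by
      funext ⟨a, b⟩
      simp only [ptd_loc₂_apply, hF, ptl_zetaHom_apply, map_zsmul, hjv' v' hv', smul_zero,
        Pi.zero_apply]
    rw [this]
    exact (invv v').map_b2 ptd_isB2_zero
  · intro hv
    exact absurd (Finset.mem_univ v) hv

/-- **(η, j₀)**: a locally trivial class `z ∈ H²(G, 𝔽_p)` dies in `H²(G, J)`, with a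
trivialisation `η` whose `p`-th multiple is a coboundary. -/
lemma ptd_base_eta (K : ptd_GKummer p ρJ ρC π ζ) (SL : ptd_GSemiLocal 𝓛 p ρJ ζ 𝓛v ρv r ev)
    {z : G × G → ZMod p} (hz : ptd_IsLZ2 𝓛 (Representation.trivial (ZMod p) G (ZMod p)) z)
    (hloc : ∀ v, ptd_IsB2 (𝓛v v) (Representation.trivial (ZMod p) (Gv v) (ZMod p))
      (ptd_loc₂ (r v) (AddMonoidHom.id (ZMod p)) z)) :
    ∃ η : G → J, ptd_IsLev₁ 𝓛 η ∧ ptd_d1 ρJ η = (fun y => ζ (z y)) ∧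
      ∃ j₀ : J, ∀ g, p • η g = ρJ g j₀ - j₀ := by
  have hW : ptd_IsLZ2 𝓛 ρJ (fun y => ζ (z y)) :=
    ⟨ptl_isZ2_comp_trivial ζ K.ζ_fix hz.1, hz.2.comp ζ⟩
  have htors : ∀ y, p • ζ (z y) = 0 := fun y => by
    rw [← map_nsmul, nsmul_eq_mul, ZMod.natCast_self, zero_mul, map_zero]
  have hlocW : ∀ v, ptd_IsB2 (𝓛v v) (ρv v) (ptd_loc₂ (r v) (ev v) (fun y => ζ (z y))) := by
    intro v
    obtain ⟨k, hk, hzk⟩ := hloc v
    have hfix : ∀ t x, ρv v t (((ev v).comp ζ) x) = ((ev v).comp ζ) x := fun t x => by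
      rw [AddMonoidHom.comp_apply, ← SL.ev_equiv, K.ζ_fix]
    refine ⟨fun t => ev v (ζ (k t)), hk.comp (fun a => ev v (ζ a)), ?_⟩
    have h1 := ptl_map_d1_trivial ((ev v).comp ζ) hfix k
    funext y
    have h2 := congrFun hzk y
    have h3 := congrFun h1 y
    simp only [AddMonoidHom.comp_apply] at h3
    rw [← h3, ← h2]
    rfl
  obtain ⟨η, hη, hWη⟩ := SL.h2J _ hW htors hlocW
  have hpη1 : ptd_d1 ρJ (p • η) = 0 := by
    rw [ptl_d1_nsmul, ← hWη]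
    funext y
    simp only [Pi.smul_apply, Pi.zero_apply, htors]
  have hpηlev : ptd_IsLev₁ 𝓛 (p • η) := hη.comp (fun a => p • a)
  obtain ⟨j₀, hj₀⟩ := SL.h1J (p • η) ⟨ptl_isZ1_of_d1_eq_zero hpη1, hpηlev⟩
  refine ⟨η, hη, hWη.symm, j₀, fun g => ?_⟩
  have := congrFun hj₀ g
  simpa using this

/-- Bézout for a prime and a number it does not divide -/
lemma ptd_bezout {m : ℕ} (hm : ¬ p ∣ m) : ∃ a b : ℤ, a * p + b * m = 1 := by
  have hcop : Nat.Coprime p m := (Nat.Prime.coprime_iff_not_dvd (Fact.out : p.Prime)).mpr hm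
  have := Nat.isCoprime_iff_coprime.mpr hcop
  obtain ⟨a, b, hab⟩ := this
  exact ⟨a, b, hab⟩

/-- **(c₀)**: `π ∘ η` is a coboundary. -/
lemma ptd_base_c0 (K : ptd_GKummer p ρJ ρC π ζ)
    (hF1 : ∀ θ : G → C, ptd_IsLZ1 𝓛 ρC θ → ∃ m : ℕ, ¬ p ∣ m ∧ ptd_IsB1 ρC (m • θ))
    {η : G → J} (hη : ptd_IsLev₁ 𝓛 η) {z : G × G → ZMod p}
    (hdη : ptd_d1 ρJ η = fun y => ζ (z y)) {j₀ : J} (hj₀ : ∀ g, p • η g = ρJ g j₀ - j₀) :
    ∃ c₀ : C, ∀ g, π (η g) = ρC g c₀ - c₀ := by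
  set θ : G → C := fun g => π (η g) with hθ
  have hd : ptd_d1 ρC θ = 0 := by
    rw [hθ, ← ptd_comp_d1 (ρM := ρJ) (f := π) K.π_equiv η, hdη]
    funext y
    simp only [K.π_ζ, Pi.zero_apply]
  obtain ⟨m, hm, c', hc'⟩ := hF1 θ ⟨ptl_isZ1_of_d1_eq_zero hd, hη.comp π⟩
  obtain ⟨a, b, hab⟩ := ptd_bezout hm
  refine ⟨a • π j₀ + b • c', fun g => ?_⟩
  have h1 : ρC g (π j₀) - π j₀ = p • θ g := by
    rw [← K.π_equiv, ← map_sub, ← hj₀ g, map_nsmul]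
  have h2 : ρC g c' - c' = m • θ g := by
    have := congrFun hc' g
    simp only [Pi.smul_apply, ptd_d0_apply] at this
    exact this.symm
  have h3 : ρC g (a • π j₀ + b • c') - (a • π j₀ + b • c') =
      a • (ρC g (π j₀) - π j₀) + b • (ρC g c' - c') := by
    simp only [map_add, map_zsmul, smul_sub]; abel
  rw [h3, h1, h2, ← natCast_zsmul, ← natCast_zsmul, smul_smul, smul_smul, ← add_smul, hab,
    one_smul]

/-- the class `b̃ = π j₀ - p c₀` is invariant -/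
lemma ptd_base_btilde_fix (K : ptd_GKummer p ρJ ρC π ζ) {η : G → J} {j₀ : J}
    (hj₀ : ∀ g, p • η g = ρJ g j₀ - j₀) {c₀ : C} (hc₀ : ∀ g, π (η g) = ρC g c₀ - c₀) (g : G) :
    ρC g (π j₀ - p • c₀) = π j₀ - p • c₀ := by
  have h1 : ρC g (π j₀) = π j₀ + p • (ρC g c₀ - c₀) := by
    rw [← hc₀ g, ← map_nsmul, hj₀ g, map_sub, K.π_equiv]; abel
  rw [map_sub, map_nsmul, h1, smul_sub]; abel

/-- **(swap)**: if `z` is locally trivial, with trivialisation data `(η, j₀, c₀)`, and is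
orthogonal to `C^G[p]`, then `b̃ = π j₀ - p c₀` is orthogonal to all locally trivial characters. -/
lemma ptd_base_swap (K : ptd_GKummer p ρJ ρC π ζ) (SL : ptd_GSemiLocal 𝓛 p ρJ ζ 𝓛v ρv r ev)
    (hdC : ptd_IsDiscrete 𝓛 ρC) (hLG : ptd_GLG 𝓛 p ρJ ρC π 𝓛v ρv r ev inv invv)
    {z : G × G → ZMod p} (hz : ptd_IsLZ2 𝓛 (Representation.trivial (ZMod p) G (ZMod p)) z)
    (hloc : ∀ v, ptd_IsB2 (𝓛v v) (Representation.trivial (ZMod p) (Gv v) (ZMod p))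
      (ptd_loc₂ (r v) (AddMonoidHom.id (ZMod p)) z))
    (hzero : ∀ f : ZMod p →+ C,
      ptd_IsEquivariant ρC (Representation.trivial (ZMod p) G (ZMod p)) f →
        inv (fun x => f (z x)) = 0)
    {η : G → J} (hη : ptd_IsLev₁ 𝓛 η) (hdη : ptd_d1 ρJ η = fun y => ζ (z y)) {j₀ : J}
    (hj₀ : ∀ g, p • η g = ρJ g j₀ - j₀) {c₀ : C} (hc₀ : ∀ g, π (η g) = ρC g c₀ - c₀)
    {χ : G → ZMod p} (hχ : ptd_IsChar χ) (hχl : ptd_IsLev₁ 𝓛 χ) (hχloc : ∀ v t, χ (r v t) = 0) :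
    inv (ptd_bockSmul p χ (π j₀ - p • c₀)) = 0 := by
  obtain ⟨x, hx, hxχ⟩ := SL.sh1 χ hχ hχl hχloc
  set f := ptl_zetaHom x hx with hfdef
  have hf : ∀ g a, ρJ g (f a) - f a = ζ (χ g * a) := fun g a => by
    rw [hfdef, ptl_zetaHom_apply, map_zsmul, ← smul_sub, hxχ, ptd_zsmul_zeta, Int.cast_natCast,
      ZMod.natCast_zmod_val, mul_comm]
  have hW'Z : ptd_IsZ2 ρJ (ptd_swapW ζ χ z f η j₀) :=
    ptd_isZ2_swapW hχ hz.1 K.ζ_fix hf hdη hj₀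
  have hW'L : ptd_IsLev₂ 𝓛 (ptd_swapW ζ χ z f η j₀) := ptd_isLev₂_swapW hχl hz.2 f hη j₀
  have hid := ptd_swap_identity (ρC := ρC) π K.π_ζ hχ z f η j₀ c₀ hc₀
  have hbfix := ptd_base_btilde_fix K hj₀ hc₀
  have hbock : ptd_IsLZ2p 𝓛 ρC p (ptd_bockSmul p χ (π j₀ - p • c₀)) :=
    ptl_bockSmul_isLZ2p hχ hχl hbfix
  have hπf : ∀ g a, ρC g ((π.comp f) a) = (π.comp f) a := fun g a => by
    have h1 : ρJ g (f a) = f a + ζ (χ g * a) := by rw [← hf g a]; abel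
    rw [AddMonoidHom.comp_apply, ← K.π_equiv, h1, map_add, K.π_ζ, add_zero]
  have hfz : ptd_IsLZ2p 𝓛 ρC p (fun y => π (f (z y))) :=
    ptd_isLZ2p_comp_trivial (π.comp f) hπf hz
  have hB : ptd_IsB2 𝓛 ρC (ptd_d1 ρC (fun g => ptl_lift χ g • c₀)) :=
    ⟨_, (ptl_lift_isLev₁ hχl).comp (fun n : ℤ => n • c₀), rfl⟩
  have hπW'eq : (fun y => π (ptd_swapW ζ χ z f η j₀ y)) =
      (fun y => π (f (z y))) + -ptd_d1 ρC (fun g => ptl_lift χ g • c₀)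
        + -ptd_bockSmul p χ (π j₀ - p • c₀) := by
    rw [hid]; abel
  have hπW' : ptd_IsLZ2p 𝓛 ρC p (fun y => π (ptd_swapW ζ χ z f η j₀ y)) := by
    rw [hπW'eq]
    exact (hfz.add (hB.neg.isLZ2p hdC)).add hbock.neg
  have hlg := hLG _ ⟨hW'Z, hW'L⟩ hπW'
  have hlocW' : ∀ v, invv v (ptd_loc₂ (r v) (ev v) (ptd_swapW ζ χ z f η j₀)) = 0 := by
    intro v
    apply (invv v).map_b2
    obtain ⟨k, hk, hzk⟩ := hloc v
    have hfix : ∀ t a, ρv v t (((ev v).comp f) a) = ((ev v).comp f) a := fun t a => by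
      have h1 : ρJ (r v t) (f a) = f a + ζ (χ (r v t) * a) := by rw [← hf (r v t) a]; abel
      rw [AddMonoidHom.comp_apply, ← SL.ev_equiv, h1, hχloc v t, zero_mul, map_zero, add_zero]
    refine ⟨fun t => ev v (f (k t)), hk.comp (fun a => ev v (f a)), ?_⟩
    have h1 := ptl_map_d1_trivial ((ev v).comp f) hfix k
    funext ⟨a, b⟩
    have h2 := congrFun hzk (a, b)
    have h3 := congrFun h1 (a, b)
    simp only [AddMonoidHom.comp_apply] at h3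
    rw [← h3, ← h2, ptd_loc₂_apply, ptd_swapW_loc (r v) (hχloc v)]
    rfl
  rw [Finset.sum_eq_zero (fun v _ => hlocW' v)] at hlg
  have h0 : inv (fun y => π (f (z y))) = 0 :=
    hzero (π.comp f) (fun g a => by rw [Representation.trivial_apply, hπf])
  rw [hid, inv.map_add (hπW'.add (hB.isLZ2p hdC)) hbock, inv.map_add hπW' (hB.isLZ2p hdC), hlg,
    inv.map_b2 hB, zero_add, zero_add] at h0
  exact h0

/-- localisation of `c · δχ` -/
lemma ptd_loc₂_bockSmul {H : Type*} [Group H] {A : Type*} [AddCommGroup A] (rr : H →* G)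
    (e : J →+ A) (χ : G → ZMod p) (j : J) :
    ptd_loc₂ rr e (ptd_bockSmul p χ j) = ptd_bockSmul p (fun t => χ (rr t)) (e j) := by
  funext ⟨a, b⟩
  simp only [ptd_loc₂_apply, ptl_bockSmul_apply, map_zsmul, ptd_bock_comp]

/-- **(Loc1)**: a level character whose symbol kills `π (J^G)` is locally trivial. -/
lemma ptd_base_loc1 (K : ptd_GKummer p ρJ ρC π ζ) (SL : ptd_GSemiLocal 𝓛 p ρJ ζ 𝓛v ρv r ev)
    (hLG : ptd_GLG 𝓛 p ρJ ρC π 𝓛v ρv r ev inv invv)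
    (hF3Lloc : ∀ v (χ : Gv v → ZMod p), ptd_IsChar χ → ptd_IsLev₁ (𝓛v v) χ →
      (∀ a : Av v, (∀ t, ρv v t a = a) → invv v (ptd_bockSmul p χ a) = 0) → χ = 0)
    {χ : G → ZMod p} (hχ : ptd_IsChar χ) (hχl : ptd_IsLev₁ 𝓛 χ)
    (hkill : ∀ j : J, (∀ g, ρJ g j = j) → inv (ptd_bockSmul p χ (π j)) = 0) (v : 𝒱) (t : Gv v) :
    χ (r v t) = 0 := by
  have hmain := hF3Lloc v (fun t => χ (r v t)) (ptd_isChar_loc hχ)
    (hχl.loc (SL.r_cont v) id) (fun a ha => ?_)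
  · exact congrFun hmain t
  obtain ⟨j, hjfix, hjv, hjv', -⟩ := SL.ev_indep v a ha
  have hW : ptd_IsLZ2 𝓛 ρJ (ptd_bockSmul p χ j) := ptl_bockSmul_isLZ2 hχ hχl hjfix
  have hπj : ∀ g, ρC g (π j) = π j := fun g => by rw [← K.π_equiv, hjfix]
  have hπWeq : (fun y => π (ptd_bockSmul p χ j y)) = ptd_bockSmul p χ (π j) := by
    funext y; simp only [ptl_bockSmul_apply, map_zsmul]
  have hπW : ptd_IsLZ2p 𝓛 ρC p (fun y => π (ptd_bockSmul p χ j y)) := by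
    rw [hπWeq]; exact ptl_bockSmul_isLZ2p hχ hχl hπj
  have hlg := hLG _ hW hπW
  rw [hπWeq, hkill j hjfix, Finset.sum_eq_single v] at hlg
  · rw [hlg, ptd_loc₂_bockSmul, hjv]
  · intro v' _ hv'
    rw [ptd_loc₂_bockSmul, hjv' v' hv', ptl_bockSmul_zero_right]
    exact (invv v').map_b2 ptd_isB2_zero
  · intro hv
    exact absurd (Finset.mem_univ v) hv

/-- **(F3 step)**: an invariant class orthogonal to all locally trivial characters lies in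
`π (J^G) + p C^G`. -/
lemma ptd_base_mem (K : ptd_GKummer p ρJ ρC π ζ) (SL : ptd_GSemiLocal 𝓛 p ρJ ζ 𝓛v ρv r ev)
    (hLG : ptd_GLG 𝓛 p ρJ ρC π 𝓛v ρv r ev inv invv) (hF3 : ptd_F3 𝓛 ρC inv)
    (ht₀ : ∃ t₀ : T, t₀ ≠ 0 ∧ p • t₀ = 0)
    (hF3Lloc : ∀ v (χ : Gv v → ZMod p), ptd_IsChar χ → ptd_IsLev₁ (𝓛v v) χ →
      (∀ a : Av v, (∀ t, ρv v t a = a) → invv v (ptd_bockSmul p χ a) = 0) → χ = 0)
    {b : C} (hb : ∀ g, ρC g b = b)
    (hswap : ∀ χ : G → ZMod p, ptd_IsChar χ → ptd_IsLev₁ 𝓛 χ → (∀ v t, χ (r v t) = 0) →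
      inv (ptd_bockSmul p χ b) = 0) :
    ∃ j₁ : J, (∀ g, ρJ g j₁ = j₁) ∧ ∃ c₁ : C, (∀ g, ρC g c₁ = c₁) ∧ b = π j₁ + p • c₁ := by
  classical
  by_contra hcon
  obtain ⟨t₀, ht₀0, ht₀p⟩ := ht₀
  -- the subgroup `B = π (J^G) + p C^G` of `C^G`
  let πInv : ρJ.invariants →+ ρC.invariants :=
    { toFun := fun j => ⟨π j.1, fun g => by rw [← K.π_equiv, j.2 g]⟩
      map_zero' := by ext; simp
      map_add' := fun a b => by ext; simp }
  let B : AddSubgroup ρC.invariants :=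
    πInv.range ⊔ (nsmulAddMonoidHom (α := ρC.invariants) p).range
  have hpB : ∀ c : ρC.invariants, p • c ∈ B :=
    fun c => AddSubgroup.mem_sup_right ⟨c, rfl⟩
  have hQ : ∀ q : ρC.invariants ⧸ B, p • q = 0 := by
    intro q
    obtain ⟨c, rfl⟩ := QuotientAddGroup.mk_surjective q
    rw [← QuotientAddGroup.mk_nsmul, QuotientAddGroup.eq_zero_iff]
    exact hpB c
  let b' : ρC.invariants := ⟨b, hb⟩
  have hb' : (QuotientAddGroup.mk b' : ρC.invariants ⧸ B) ≠ 0 := by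
    intro h0
    rw [QuotientAddGroup.eq_zero_iff] at h0
    obtain ⟨y, ⟨j, rfl⟩, w, ⟨c, rfl⟩, hyw⟩ := AddSubgroup.mem_sup.mp h0
    apply hcon
    refine ⟨j.1, j.2, c.1, c.2, ?_⟩
    have := congrArg Subtype.val hyw
    simpa [πInv] using this.symm
  let d : ZMod p →+ (ρC.invariants ⧸ B) := ptl_zetaHom (QuotientAddGroup.mk b') (hQ _)
  have hdinj : Function.Injective d := ptl_zetaHom_injective (hQ _) hb'
  let Θ : ZMod p →+ T := ptl_zetaHom t₀ ht₀p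
  obtain ⟨l₀, hl₀⟩ := ptd_exists_factor hQ d Θ (fun x hx => by
    have : x = 0 := hdinj (by rw [hx, map_zero])
    rw [this, map_zero])
  let l : ρC.invariants →+ T := l₀.comp (QuotientAddGroup.mk' B)
  have hlB : ∀ c ∈ B, l c = 0 := fun c hc => by
    show l₀ (QuotientAddGroup.mk c) = 0
    rw [(QuotientAddGroup.eq_zero_iff c).mpr hc, map_zero]
  obtain ⟨χ, hχ, hχl, hlχ⟩ := hF3 l (fun c => hlB _ (hpB c))
  have hlb : l b' = t₀ := by
    show l₀ (QuotientAddGroup.mk b') = t₀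
    have h1 : d 1 = QuotientAddGroup.mk b' := ptl_zetaHom_one _ _
    rw [← h1, hl₀ 1]
    exact ptl_zetaHom_one _ _
  have hloc1 : ∀ v t, χ (r v t) = 0 := by
    refine ptd_base_loc1 K SL hLG hF3Lloc hχ hχl (fun j hj => ?_)
    have hmem : (⟨π j, fun g => by rw [← K.π_equiv, hj g]⟩ : ρC.invariants) ∈ B :=
      AddSubgroup.mem_sup_left ⟨⟨j, hj⟩, rfl⟩
    have := hlχ ⟨π j, fun g => by rw [← K.π_equiv, hj g]⟩
    rw [hlB _ hmem] at this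
    exact this.symm
  have h1 := hswap χ hχ hχl hloc1
  have h2 := hlχ b'
  rw [hlb] at h2
  exact ht₀0 (h2.trans h1)

/-- **(conclusion)**: if `b̃ = π j₀ - p c₀ ∈ π (J^G) + p C^G` then `z` is a level coboundary. -/
lemma ptd_base_conclude (K : ptd_GKummer p ρJ ρC π ζ) (hdJ : ptd_IsDiscrete 𝓛 ρJ)
    {z : G × G → ZMod p} {η : G → J} (hη : ptd_IsLev₁ 𝓛 η)
    (hdη : ptd_d1 ρJ η = fun y => ζ (z y)) {j₀ : J}
    (hj₀ : ∀ g, p • η g = ρJ g j₀ - j₀) {c₀ : C} (hc₀ : ∀ g, π (η g) = ρC g c₀ - c₀)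
    {j₁ : J} (hj₁ : ∀ g, ρJ g j₁ = j₁) {c₁ : C} (hc₁ : ∀ g, ρC g c₁ = c₁)
    (hb : π j₀ - p • c₀ = π j₁ + p • c₁) :
    ptd_IsB2 𝓛 (Representation.trivial (ZMod p) G (ZMod p)) z := by
  obtain ⟨m, hm, j', hj'⟩ := K.cl (c₀ + c₁)
  obtain ⟨a, b, hab⟩ := ptd_bezout hm
  have hπ01 : π (j₀ - j₁) = p • (c₀ + c₁) := by
    have : π j₀ = π j₁ + p • c₁ + p • c₀ := by rw [← hb]; abel
    rw [map_sub, this, smul_add]; abel
  -- `j₂` with `π j₂ = c₀ + c₁`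
  set j₂ : J := a • (j₀ - j₁) + b • j' with hj₂
  have hπj₂ : π j₂ = c₀ + c₁ := by
    rw [hj₂, map_add, map_zsmul, map_zsmul, hπ01, hj', ← natCast_zsmul, ← natCast_zsmul,
      smul_smul, smul_smul, ← add_smul, hab, one_smul]
  have hπe : π (p • j₂ - (j₀ - j₁)) = 0 := by
    rw [map_sub, map_nsmul, hπj₂, hπ01, sub_self]
  obtain ⟨u, hu, hpu⟩ := K.ker_div _ hπe
  set j₃ : J := j₂ - u with hj₃
  have hπj₃ : π j₃ = c₀ + c₁ := by rw [hj₃, map_sub, hu, sub_zero, hπj₂]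
  have hpj₃ : p • j₃ = j₀ - j₁ := by rw [hj₃, smul_sub, hpu]; abel
  set η' : G → J := η - ptd_d0 ρJ j₃ with hη'
  have hπη' : ∀ g, π (η' g) = 0 := fun g => by
    simp only [hη', Pi.sub_apply, ptd_d0_apply, map_sub, K.π_equiv, hπj₃, hc₀ g, map_add, hc₁ g]
    abel
  have hpη' : ∀ g, p • η' g = 0 := fun g => by
    simp only [hη', Pi.sub_apply, ptd_d0_apply, smul_sub, hj₀ g]
    rw [← map_nsmul, hpj₃, map_sub, hj₁ g]
    abel
  choose k hk using fun g => K.ker_tors (η' g) (hπη' g) (hpη' g)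
  have hη'lev : ptd_IsLev₁ 𝓛 η' := hη.sub (ptl_isLev₁_d0 hdJ j₃)
  have hklev : ptd_IsLev₁ 𝓛 k := by
    obtain ⟨N, hN, h⟩ := hη'lev
    exact ⟨N, hN, fun g n hn => K.ζ_inj (by rw [hk, hk, h g n hn])⟩
  refine ⟨k, hklev, ?_⟩
  funext y
  apply K.ζ_inj
  have h1 := congrFun (ptl_map_d1_trivial ζ K.ζ_fix k) y
  have h2 : (fun g => ζ (k g)) = η' := funext hk
  rw [h1, h2, hη', ptd_d1_sub, ptd_d1_d0, sub_zero, hdη]

/-- **F4(i), GLOBAL**: right nondegeneracy of `C^G[p] × H²(G, 𝔽_p) → T` for `G = G_S(F)`,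
`μ_p ⊂ F`, in the big-group model. -/
theorem ptd_F4i_global (K : ptd_GKummer p ρJ ρC π ζ) (SL : ptd_GSemiLocal 𝓛 p ρJ ζ 𝓛v ρv r ev)
    (hdC : ptd_IsDiscrete 𝓛 ρC) (hLG : ptd_GLG 𝓛 p ρJ ρC π 𝓛v ρv r ev inv invv)
    (hF1 : ∀ θ : G → C, ptd_IsLZ1 𝓛 ρC θ → ∃ m : ℕ, ¬ p ∣ m ∧ ptd_IsB1 ρC (m • θ))
    (hF3 : ptd_F3 𝓛 ρC inv) (ht₀ : ∃ t₀ : T, t₀ ≠ 0 ∧ p • t₀ = 0)
    (hF4loc : ∀ v, ptd_NondegH2 (𝓛v v) (ρv v) (invv v)
      (Representation.trivial (ZMod p) (Gv v) (ZMod p)))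
    (hF3Lloc : ∀ v (χ : Gv v → ZMod p), ptd_IsChar χ → ptd_IsLev₁ (𝓛v v) χ →
      (∀ a : Av v, (∀ t, ρv v t a = a) → invv v (ptd_bockSmul p χ a) = 0) → χ = 0) :
    ptd_NondegH2 𝓛 ρC inv (Representation.trivial (ZMod p) G (ZMod p)) := by
  intro z hz hzero
  have hloc := ptd_base_loc2 K SL hLG hF4loc hz hzero
  obtain ⟨η, hη, hdη, j₀, hj₀⟩ := ptd_base_eta K SL hz hloc
  obtain ⟨c₀, hc₀⟩ := ptd_base_c0 K hF1 hη hdη hj₀
  obtain ⟨j₁, hj₁, c₁, hc₁, hb⟩ := ptd_base_mem K SL hLG hF3 ht₀ hF3Lloc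
    (ptd_base_btilde_fix K hj₀ hc₀)
    (fun χ hχ hχl hχloc => ptd_base_swap K SL hdC hLG hz hloc hzero hη hdη hj₀ hc₀ hχ hχl hχloc)
  exact ptd_base_conclude K SL.disc hη hdη hj₀ hc₀ hj₁ hc₁ hb

end BaseI

end Fermat.Agent.Lib.PT
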