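/-
S55 (Poitou–Tate long haul), A-track, F4-GLOBAL part 4:  **F4(ii) over `U = G_S(F)`, `μ_p ⊂ F`**
as an abstract theorem in the big-group model: left nondegeneracy of
`C^G[p] × H²(G, 𝔽_p) → T`.

Step A: for `c = π x ∈ C^G[p]` orthogonal to `H²(G, 𝔽_p)`, the Kummer character `χ_c` of `x` is
orthogonal to all of `C^G` (swap lemma with the Kummer classes `z_β`), hence zero.
Step B: then `x ∈ J^G[p]`; the classes obtained by pushing `j · δψ₀` into `μ_p` force all local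
coordinates of `x` to be equal, so `x ∈ ζ (ZMod p)` and `c = 0`.
-/
import Fermat.Agent.Lib.PT.AdtBaseI

set_option autoImplicit false
set_option linter.unusedSectionVars false

namespace Fermat.Agent.Lib.PT

section BaseII

variable {G : Type*} [Group G] {𝓛 : ptd_Levels G} {p : ℕ} [Fact p.Prime]
variable {J : Type*} [AddCommGroup J] {ρJ : Representation ℤ G J}
variable {C : Type*} [AddCommGroup C] {ρC : Representation ℤ G C}
variable {π : J →+ C} {ζ : ZMod p →+ J}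
variable {𝒱 : Type*} [Fintype 𝒱] [DecidableEq 𝒱] {Gv : 𝒱 → Type*} [∀ v, Group (Gv v)]
variable {𝓛v : ∀ v, ptd_Levels (Gv v)}
variable {Av : 𝒱 → Type*} [∀ v, AddCommGroup (Av v)] {ρv : ∀ v, Representation ℤ (Gv v) (Av v)}
variable {r : ∀ v, Gv v →* G} {ev : ∀ v, J →+ Av v}
variable {T : Type*} [AddCommGroup T]
variable {inv : ptd_Inv 𝓛 ρC T p} {invv : ∀ v, ptd_Inv (𝓛v v) (ρv v) T p}

/-- `inv` commutes with natural multiples on `p`-torsion classes -/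
lemma ptd_Inv.map_nsmul {G : Type*} [Group G] {𝓛 : ptd_Levels G} {C : Type*} [AddCommGroup C]
    {ρC : Representation ℤ G C} {T : Type*} [AddCommGroup T] {p : ℕ}
    (inv : ptd_Inv 𝓛 ρC T p) {z : G × G → C} (hz : ptd_IsLZ2p 𝓛 ρC p z) (n : ℕ) :
    inv (n • z) = n • inv z ∧ ptd_IsLZ2p 𝓛 ρC p (n • z) := by
  induction n with
  | zero =>
    refine ⟨?_, ?_⟩
    · rw [zero_smul, zero_smul]; exact inv.map_b2 ptd_isB2_zero
    · rw [zero_smul]; exact ⟨ptd_isLZ2_zero, by rw [smul_zero]; exact ptd_isB2_zero⟩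
  | succ n ih =>
    refine ⟨?_, ?_⟩
    · rw [succ_nsmul, succ_nsmul, inv.map_add ih.2 hz, ih.1]
    · rw [succ_nsmul]; exact ih.2.add hz

/-- the Kummer hom `f a = a • x` of a `p`-torsion element with `g x - x = ζ (χ g)` -/
lemma ptd_zetaHom_twist {x : J} (hx : p • x = 0) {χ : G → ZMod p}
    (hxχ : ∀ g, ρJ g x - x = ζ (χ g)) (g : G) (a : ZMod p) :
    ρJ g (ptl_zetaHom x hx a) - ptl_zetaHom x hx a = ζ (χ g * a) := by
  rw [ptl_zetaHom_apply, map_zsmul, ← smul_sub, hxχ, ptd_zsmul_zeta, Int.cast_natCast,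
    ZMod.natCast_zmod_val, mul_comm]

/-- **(swap)**, general form with a given Kummer hom `f`. -/
lemma ptd_base_swap' (K : ptd_GKummer p ρJ ρC π ζ) (SL : ptd_GSemiLocal 𝓛 p ρJ ζ 𝓛v ρv r ev)
    (hdC : ptd_IsDiscrete 𝓛 ρC) (hLG : ptd_GLG 𝓛 p ρJ ρC π 𝓛v ρv r ev inv invv)
    {z : G × G → ZMod p} (hz : ptd_IsLZ2 𝓛 (Representation.trivial (ZMod p) G (ZMod p)) z)
    (hloc : ∀ v, ptd_IsB2 (𝓛v v) (Representation.trivial (ZMod p) (Gv v) (ZMod p))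
      (ptd_loc₂ (r v) (AddMonoidHom.id (ZMod p)) z))
    {η : G → J} (hη : ptd_IsLev₁ 𝓛 η) (hdη : ptd_d1 ρJ η = fun y => ζ (z y)) {j₀ : J}
    (hj₀ : ∀ g, p • η g = ρJ g j₀ - j₀) {c₀ : C} (hc₀ : ∀ g, π (η g) = ρC g c₀ - c₀)
    {χ : G → ZMod p} (hχ : ptd_IsChar χ) (hχl : ptd_IsLev₁ 𝓛 χ) (hχloc : ∀ v t, χ (r v t) = 0)
    {f : ZMod p →+ J} (hf : ∀ g a, ρJ g (f a) - f a = ζ (χ g * a))
    (h0 : inv (fun y => π (f (z y))) = 0) :
    inv (ptd_bockSmul p χ (π j₀ - p • c₀)) = 0 := by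
  have hW'Z : ptd_IsZ2 ρJ (ptd_swapW ζ χ z f η j₀) :=
    ptd_isZ2_swapW hχ hz.1 K.ζ_fix hf hdη hj₀
  have hW'L : ptd_IsLev₂ 𝓛 (ptd_swapW ζ χ z f η j₀) := ptd_isLev₂_swapW hχl hz.2 f hη j₀
  have hid := ptd_swap_identity (ρC := ρC) π K.π_ζ hχ z f η j₀ c₀ hc₀
  have hbfix := ptd_base_btilde_fix K hj₀ hc₀
  have hbock : ptd_IsLZ2p 𝓛 ρC p (ptd_bockSmul p χ (π j₀ - p • c₀)) :=
    ptl_bockSmul_isLZ2p hχ hχl hbfix
  have hπf : ∀ g a, ρC g ((π.comp f) a) = (π.comp f) a := fun g a => by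
    have h1 : ρJ g (f a) = f a + ζ (χ g * a) := by rw [← hf g a]; abel
    rw [AddMonoidHom.comp_apply, ← K.π_equiv, h1, map_add, K.π_ζ, add_zero]
  have hfz : ptd_IsLZ2p 𝓛 ρC p (fun y => π (f (z y))) :=
    ptd_isLZ2p_comp_trivial (π.comp f) hπf hz
  have hB : ptd_IsB2 𝓛 ρC (ptd_d1 ρC (fun g => ptl_lift χ g • c₀)) :=
    ⟨_, (ptl_lift_isLev₁ hχl).comp (fun n : ℤ => n • c₀), rfl⟩
  have hπW'eq : (fun y => π (ptd_swapW ζ χ z f η j₀ y)) =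
      (fun y => π (f (z y))) + -ptd_d1 ρC (fun g => ptl_lift χ g • c₀)
        + -ptd_bockSmul p χ (π j₀ - p • c₀) := by
    rw [hid]; abel
  have hπW' : ptd_IsLZ2p 𝓛 ρC p (fun y => π (ptd_swapW ζ χ z f η j₀ y)) := by
    rw [hπW'eq]
    exact (hfz.add (hB.neg.isLZ2p hdC)).add hbock.neg
  have hlg := hLG _ ⟨hW'Z, hW'L⟩ hπW'
  have hlocW' : ∀ v, invv v (ptd_loc₂ (r v) (ev v) (ptd_swapW ζ χ z f η j₀)) = 0 := by
    intro v
    apply (invv v).map_b2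
    obtain ⟨k, hk, hzk⟩ := hloc v
    have hfix : ∀ t a, ρv v t (((ev v).comp f) a) = ((ev v).comp f) a := fun t a => by
      have h1 : ρJ (r v t) (f a) = f a + ζ (χ (r v t) * a) := by rw [← hf (r v t) a]; abel
      rw [AddMonoidHom.comp_apply, ← SL.ev_equiv, h1, hχloc v t, zero_mul, map_zero, add_zero]
    refine ⟨fun t => ev v (f (k t)), hk.comp (fun a => ev v (f a)), ?_⟩
    have h1 := ptl_map_d1_trivial ((ev v).comp f) hfix k
    funext ⟨a, b⟩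
    have h2 := congrFun hzk (a, b)
    have h3 := congrFun h1 (a, b)
    simp only [AddMonoidHom.comp_apply] at h3
    rw [← h3, ← h2, ptd_loc₂_apply, ptd_swapW_loc (r v) (hχloc v)]
    rfl
  rw [Finset.sum_eq_zero (fun v _ => hlocW' v)] at hlg
  rw [hid, inv.map_add (hπW'.add (hB.isLZ2p hdC)) hbock, inv.map_add hπW' (hB.isLZ2p hdC), hlg,
    inv.map_b2 hB, zero_add, zero_add] at h0
  exact h0

/-- **(L1)** a `p`-torsion class lifts to a `p`-torsion idele. -/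
lemma ptd_base2_lift (K : ptd_GKummer p ρJ ρC π ζ) {c : C} (hc : p • c = 0) :
    ∃ x : J, π x = c ∧ p • x = 0 := by
  obtain ⟨m, hm, j, hj⟩ := K.cl c
  obtain ⟨a, b, hab⟩ := ptd_bezout hm
  have h1 : π (b • j) = c := by
    rw [map_zsmul, hj, ← natCast_zsmul, smul_smul]
    have : (b * m : ℤ) = 1 - a * p := by rw [← hab]; ring
    rw [this, sub_smul, one_smul, mul_smul, natCast_zsmul, hc, smul_zero, sub_zero]
  have h2 : π (p • (b • j)) = 0 := by rw [map_nsmul, h1, hc]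
  obtain ⟨u, hu, hpu⟩ := K.ker_div _ h2
  refine ⟨b • j - u, by rw [map_sub, h1, hu, sub_zero], by rw [smul_sub, hpu, sub_self]⟩

/-- **(L2)** the Kummer character of a `p`-torsion idele with invariant class; it is a locally
trivial level character. -/
lemma ptd_base2_char (K : ptd_GKummer p ρJ ρC π ζ) (SL : ptd_GSemiLocal 𝓛 p ρJ ζ 𝓛v ρv r ev)
    (htorsloc : ∀ v (a : Av v), p • a = 0 → ∃ k : ZMod p, ev v (ζ k) = a)
    (hζloc : ∀ v, Function.Injective (fun k => ev v (ζ k)))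
    {x : J} (hx : p • x = 0) (hcx : ∀ g, ρC g (π x) = π x) :
    ∃ χ : G → ZMod p, ptd_IsChar χ ∧ ptd_IsLev₁ 𝓛 χ ∧ (∀ v t, χ (r v t) = 0) ∧
      ∀ g, ρJ g x - x = ζ (χ g) := by
  have h1 : ∀ g, ∃ a, ζ a = ρJ g x - x := fun g =>
    K.ker_tors _ (by rw [map_sub, K.π_equiv, hcx, sub_self])
      (by rw [smul_sub, ← map_nsmul, hx, map_zero, sub_zero])
  choose χ hχ using h1
  refine ⟨χ, fun g h => K.ζ_inj ?_, ?_, fun v t => ?_, fun g => (hχ g).symm⟩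
  · rw [map_add, hχ, hχ, hχ, map_mul, Module.End.mul_apply]
    have : ρJ g (ρJ h x) - x = ρJ g (ρJ h x - x) + (ρJ g x - x) := by rw [map_sub]; abel
    rw [this, ← hχ h, K.ζ_fix, hχ h]; abel
  · obtain ⟨N, hN, h⟩ := SL.disc x
    refine ⟨N, hN, fun g n hn => K.ζ_inj ?_⟩
    rw [hχ, hχ, map_mul, Module.End.mul_apply, h n hn]
  · apply hζloc v
    show ev v (ζ (χ (r v t))) = ev v (ζ 0)
    rw [hχ, map_sub, SL.ev_equiv, map_zero, map_zero]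
    obtain ⟨k, hk⟩ := htorsloc v (ev v x) (by rw [← map_nsmul, hx, map_zero])
    rw [← hk, ← SL.ev_equiv, K.ζ_fix, sub_self]

/-- **(L3)** the Kummer class `z_β ∈ H²(G, 𝔽_p)` of an idele `β` with invariant class (the image
of its `S`-ideal class under `Cl_S / p → Ш²(μ_p)`), with its trivialisation data, is locally
trivial. -/
lemma ptd_base2_kummer (K : ptd_GKummer p ρJ ρC π ζ) (SL : ptd_GSemiLocal 𝓛 p ρJ ζ 𝓛v ρv r ev)
    (hdv : ∀ v, ptd_IsDiscrete (𝓛v v) (ρv v))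
    (hdivloc : ∀ v (a : Av v), ∃ a' : Av v, p • a' = a)
    (htorsloc : ∀ v (a : Av v), p • a = 0 → ∃ k : ZMod p, ev v (ζ k) = a)
    (hζloc : ∀ v, Function.Injective (fun k => ev v (ζ k)))
    {β : J} (hβ : ∀ g, ρC g (π β) = π β) :
    ∃ (z : G × G → ZMod p) (ε : G → J),
      ptd_IsLZ2 𝓛 (Representation.trivial (ZMod p) G (ZMod p)) z ∧ ptd_IsLev₁ 𝓛 ε ∧
      ptd_d1 ρJ ε = (fun y => ζ (z y)) ∧ (∀ g, p • ε g = ρJ g β - β) ∧ (∀ g, π (ε g) = 0) ∧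
      ∀ v, ptd_IsB2 (𝓛v v) (Representation.trivial (ZMod p) (Gv v) (ZMod p))
        (ptd_loc₂ (r v) (AddMonoidHom.id (ZMod p)) z) := by
  classical
  have hker : ∀ g, π (ρJ g β - β) = 0 := fun g => by rw [map_sub, K.π_equiv, hβ, sub_self]
  -- a section of multiplication by `p` on `ker π`
  let s : J → J := fun e => if h : π e = 0 then Classical.choose (K.ker_div e h) else 0
  have hs : ∀ e, π e = 0 → π (s e) = 0 ∧ p • s e = e := fun e h => by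
    simp only [s, dif_pos h]
    exact Classical.choose_spec (K.ker_div e h)
  set ε : G → J := fun g => s (ρJ g β - β) with hε
  have hεlev : ptd_IsLev₁ 𝓛 ε := (ptl_isLev₁_d0 SL.disc β).comp s
  have hπε : ∀ g, π (ε g) = 0 := fun g => (hs _ (hker g)).1
  have hpε : ∀ g, p • ε g = ρJ g β - β := fun g => (hs _ (hker g)).2
  have hπd : ∀ y, π (ptd_d1 ρJ ε y) = 0 := fun y => by
    have h1 := congrFun (ptd_comp_d1 (ρM := ρJ) (f := π) K.π_equiv ε) y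
    have h2 : (fun g => π (ε g)) = 0 := funext hπε
    rw [h1, h2, ptd_d1_zero]; rfl
  have hpd : ∀ y, p • ptd_d1 ρJ ε y = 0 := fun y => by
    have h1 : p • ε = ptd_d0 ρJ β := funext hpε
    have h2 := congrFun (ptl_d1_nsmul (ρC := ρJ) p ε) y
    rw [Pi.smul_apply] at h2
    rw [← h2, h1, ptd_d1_d0]; rfl
  choose z hz using fun y => K.ker_tors (ptd_d1 ρJ ε y) (hπd y) (hpd y)
  have hdε : ptd_d1 ρJ ε = fun y => ζ (z y) := (funext hz).symm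
  have hzlev : ptd_IsLev₂ 𝓛 z := by
    obtain ⟨N, hN, h⟩ := ptd_isLev₂_d1 SL.disc hεlev
    exact ⟨N, hN, fun g g' n hn n' hn' => K.ζ_inj (by rw [hz, hz, h g g' n hn n' hn'])⟩
  have hzZ : ptd_IsZ2 (Representation.trivial (ZMod p) G (ZMod p)) z :=
    ptl_isZ2_trivial_of_comp K.ζ_inj K.ζ_fix (by rw [← hdε]; exact ptd_isZ2_d1 ε)
  refine ⟨z, ε, ⟨hzZ, hzlev⟩, hεlev, hdε, hpε, hπε, fun v => ?_⟩
  obtain ⟨γ, hγ⟩ := hdivloc v (ev v β)
  set εv : Gv v → Av v := ptd_loc₁ (r v) (ev v) ε with hεv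
  have hεvlev : ptd_IsLev₁ (𝓛v v) εv := hεlev.loc (SL.r_cont v) (ev v)
  have htors : ∀ t, p • (εv t - ptd_d0 (ρv v) γ t) = 0 := fun t => by
    simp only [hεv, ptd_loc₁_apply, ptd_d0_apply, smul_sub]
    rw [← map_nsmul, hpε, map_sub, SL.ev_equiv, ← map_nsmul (ρv v t), hγ]
    abel
  choose k hk using fun t => htorsloc v _ (htors t)
  have hklev : ptd_IsLev₁ (𝓛v v) k := by
    obtain ⟨N, hN, h⟩ := hεvlev.sub (ptl_isLev₁_d0 (hdv v) γ)
    refine ⟨N, hN, fun g n hn => hζloc v ?_⟩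
    show ev v (ζ (k (g * n))) = ev v (ζ (k g))
    rw [hk, hk]
    exact h g n hn
  have hfix : ∀ t x, ρv v t (((ev v).comp ζ) x) = ((ev v).comp ζ) x := fun t x => by
    rw [AddMonoidHom.comp_apply, ← SL.ev_equiv, K.ζ_fix]
  refine ⟨k, hklev, ?_⟩
  funext ⟨a, b⟩
  apply hζloc v
  show ev v (ζ (z (r v a, r v b))) = ((ev v).comp ζ) (ptd_d1 _ k (a, b))
  have h1 := congrFun (ptl_map_d1_trivial ((ev v).comp ζ) hfix k) (a, b)
  have h2 : (fun g => ((ev v).comp ζ) (k g)) = εv - ptd_d0 (ρv v) γ := funext hk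
  have h3 := congrFun (ptd_loc₂_d1 (r := r v) (ev v) (SL.ev_equiv v) ε) (a, b)
  rw [h1, h2, ptd_d1_sub, ptd_d1_d0, sub_zero, ← h3, ptd_loc₂_apply, hz]

/-- an element of `T` killed by `p` and by some `m` prime to `p` is zero -/
lemma ptd_eq_zero_of_coprime_smul {T' : Type*} [AddCommGroup T'] {t : T'} (hp : p • t = 0) {m : ℕ}
    (hm : ¬ p ∣ m) (hmt : m • t = 0) : t = 0 := by
  obtain ⟨a, b, hab⟩ := ptd_bezout hm
  have : (a * p + b * m) • t = 0 := by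
    rw [add_smul, mul_smul, mul_smul, natCast_zsmul, natCast_zsmul, hp, hmt, smul_zero, smul_zero,
      add_zero]
  rwa [hab, one_smul] at this

/-- **STEP A**: the Kummer character of `x` vanishes if `π x` is orthogonal to `H²(G, 𝔽_p)`. -/
lemma ptd_base2_stepA (K : ptd_GKummer p ρJ ρC π ζ) (SL : ptd_GSemiLocal 𝓛 p ρJ ζ 𝓛v ρv r ev)
    (hdC : ptd_IsDiscrete 𝓛 ρC) (hLG : ptd_GLG 𝓛 p ρJ ρC π 𝓛v ρv r ev inv invv)
    (hdv : ∀ v, ptd_IsDiscrete (𝓛v v) (ρv v))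
    (hdivloc : ∀ v (a : Av v), ∃ a' : Av v, p • a' = a)
    (htorsloc : ∀ v (a : Av v), p • a = 0 → ∃ k : ZMod p, ev v (ζ k) = a)
    (hζloc : ∀ v, Function.Injective (fun k => ev v (ζ k)))
    (hF3L : ∀ χ : G → ZMod p, ptd_IsChar χ → ptd_IsLev₁ 𝓛 χ →
      (∀ c : C, (∀ g, ρC g c = c) → inv (ptd_bockSmul p χ c) = 0) → χ = 0)
    {x : J} (hx : p • x = 0) {χ : G → ZMod p} (hχ : ptd_IsChar χ) (hχl : ptd_IsLev₁ 𝓛 χ)
    (hχloc : ∀ v t, χ (r v t) = 0) (hxχ : ∀ g, ρJ g x - x = ζ (χ g))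
    (hall : ∀ z : G × G → ZMod p, ptd_IsLZ2 𝓛 (Representation.trivial (ZMod p) G (ZMod p)) z →
      inv (fun y => π (ptl_zetaHom x hx (z y))) = 0) :
    χ = 0 := by
  refine hF3L χ hχ hχl (fun c' hc' => ?_)
  obtain ⟨m, hm, β, hβ⟩ := K.cl c'
  have hβinv : ∀ g, ρC g (π β) = π β := fun g => by rw [hβ, map_nsmul, hc']
  obtain ⟨z, ε, hz, hεlev, hdε, hpε, hπε, hloc⟩ :=
    ptd_base2_kummer K SL hdv hdivloc htorsloc hζloc hβinv
  have h1 := ptd_base_swap' K SL hdC hLG hz hloc hεlev hdε hpε (c₀ := 0)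
    (fun g => by rw [hπε g, map_zero, sub_zero]) hχ hχl hχloc (ptd_zetaHom_twist hx hxχ)
    (hall z hz)
  rw [smul_zero, sub_zero, hβ, ptl_bockSmul_nsmul] at h1
  have hb : ptd_IsLZ2p 𝓛 ρC p (ptd_bockSmul p χ c') := ptl_bockSmul_isLZ2p hχ hχl hc'
  rw [(inv.map_nsmul hb m).1] at h1
  have h2 : p • inv (ptd_bockSmul p χ c') = 0 := by
    rw [← (inv.map_nsmul hb p).1]
    exact inv.map_b2 hb.2
  exact ptd_eq_zero_of_coprime_smul h2 hm h1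

/-- finitely many classes have a common prime-to-`p` multiple in `π J` -/
lemma ptd_exists_common_mult (K : ptd_GKummer p ρJ ρC π ζ) {s : Set C} (hs : s.Finite) :
    ∃ m : ℕ, ¬ p ∣ m ∧ ∀ c ∈ s, ∃ j : J, π j = m • c := by
  induction s, hs using Set.Finite.induction_on with
  | empty =>
    exact ⟨1, (Fact.out : p.Prime).one_lt.ne' ∘ Nat.dvd_one.mp, fun c hc => (Set.notMem_empty c hc).elim⟩
  | insert _ _ ih =>
    rename_i c s _ _
    obtain ⟨m, hm, h⟩ := ih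
    obtain ⟨m', hm', j', hj'⟩ := K.cl c
    refine ⟨m' * m, fun hd => ?_, fun b hb => ?_⟩
    · rcases (Nat.Prime.dvd_mul (Fact.out : p.Prime)).mp hd with h1 | h1
      · exact hm' h1
      · exact hm h1
    · rcases hb with rfl | hb
      · exact ⟨m • j', by rw [map_nsmul, hj', smul_smul, mul_comm]⟩
      · obtain ⟨j, hj⟩ := h b hb
        exact ⟨m' • j, by rw [map_nsmul, hj, smul_smul]⟩

lemma ptd_IsLZ2.nsmul' {k : Type*} [CommRing k] {A : Type*} [AddCommGroup A] [Module k A]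
    {ρ : Representation k G A} {z : G × G → A} (hz : ptd_IsLZ2 𝓛 ρ z) (n : ℕ) :
    ptd_IsLZ2 𝓛 ρ (n • z) := ⟨hz.1.nsmul n, hz.2.comp (fun a => n • a)⟩

/-- **(push into `μ_p`)**: a `J`-valued level cocycle `W` with `p • W` a coboundary whose image in
`C` is a coboundary is cohomologous in `J`, up to a prime-to-`p` multiple, to `ζ ∘ z` for a level
cocycle `z` with values in `𝔽_p`. -/
lemma ptd_base2_pushE (K : ptd_GKummer p ρJ ρC π ζ) (hdJ : ptd_IsDiscrete 𝓛 ρJ)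
    (hF1 : ∀ θ : G → C, ptd_IsLZ1 𝓛 ρC θ → ∃ m : ℕ, ¬ p ∣ m ∧ ptd_IsB1 ρC (m • θ))
    {W : G × G → J} (hW : ptd_IsLZ2 𝓛 ρJ W) {κ₀ : G → J} (hκ₀ : ptd_IsLev₁ 𝓛 κ₀)
    (hpW : p • W = ptd_d1 ρJ κ₀) {φ : G → C} (hφ : ptd_IsLev₁ 𝓛 φ)
    (hπW : (fun y => π (W y)) = ptd_d1 ρC φ) :
    ∃ (M : ℕ) (z : G × G → ZMod p) (Φ : G → J), ¬ p ∣ M ∧
      ptd_IsLZ2 𝓛 (Representation.trivial (ZMod p) G (ZMod p)) z ∧ ptd_IsLev₁ 𝓛 Φ ∧
      (fun y => ζ (z y)) = M • W - ptd_d1 ρJ Φ := by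
  classical
  have hπd : ∀ ψ : G → J, (fun x => π (ptd_d1 ρJ ψ x)) = ptd_d1 ρC (fun g => π (ψ g)) :=
    fun ψ => ptd_comp_d1 (ρM := ρJ) (f := π) K.π_equiv ψ
  -- (i) lift `m • φ` to `J`
  obtain ⟨m, hm, hmφ⟩ := ptd_exists_common_mult K hφ.finite_range
  let sec : C → J := fun c => if h : ∃ j, π j = c then Classical.choose h else 0
  have hsec : ∀ c, (∃ j, π j = c) → π (sec c) = c := fun c h => by
    simp only [sec, dif_pos h]
    exact Classical.choose_spec h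
  set φ' : G → J := fun g => sec (m • φ g) with hφ'
  have hφ'lev : ptd_IsLev₁ 𝓛 φ' := hφ.comp (fun c => sec (m • c))
  have hπφ' : (fun g => π (φ' g)) = m • φ := funext fun g => hsec _ (hmφ _ ⟨g, rfl⟩)
  -- (ii) `W₁ = m W - d φ'` is `E`-valued
  set W₁ : G × G → J := m • W - ptd_d1 ρJ φ' with hW₁
  have hBφ' : ptd_IsB2 𝓛 ρJ (ptd_d1 ρJ φ') := ⟨φ', hφ'lev, rfl⟩
  have hW₁Z : ptd_IsLZ2 𝓛 ρJ W₁ := (hW.nsmul' m).sub (hBφ'.isLZ2 hdJ)
  have hπW₁ : ∀ y, π (W₁ y) = 0 := fun y => by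
    have h1 := congrFun (hπd φ') y
    have h2 := congrFun hπW y
    simp only [hW₁, Pi.sub_apply, Pi.smul_apply, map_sub, map_nsmul, h1, h2, hπφ', ptl_d1_nsmul]
    exact sub_self _
  -- (iii) `p • W₁ = d κ`
  set κ : G → J := m • κ₀ - p • φ' with hκ
  have hκlev : ptd_IsLev₁ 𝓛 κ :=
    (hκ₀.comp (fun a => m • a)).sub (hφ'lev.comp (fun a => p • a))
  have hdκ : ptd_d1 ρJ κ = p • W₁ := by
    rw [hκ, ptd_d1_sub, ptl_d1_nsmul, ptl_d1_nsmul, ← hpW, hW₁, smul_sub, smul_comm]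
  set θ' : G → C := fun g => π (κ g) with hθ'
  have hdθ' : ptd_d1 ρC θ' = 0 := by
    rw [hθ', ← hπd κ, hdκ]
    funext y
    simp only [Pi.smul_apply, map_nsmul, hπW₁, smul_zero, Pi.zero_apply]
  obtain ⟨m', hm', c₂, hc₂⟩ := hF1 θ' ⟨ptl_isZ1_of_d1_eq_zero hdθ', hκlev.comp π⟩
  -- (iv) make `κ` `E`-valued
  obtain ⟨m'', hm'', j₂, hj₂⟩ := K.cl c₂
  set κ' : G → J := (m'' * m') • κ - ptd_d0 ρJ j₂ with hκ'
  have hκ'lev : ptd_IsLev₁ 𝓛 κ' :=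
    (hκlev.comp (fun a => (m'' * m') • a)).sub (ptl_isLev₁_d0 hdJ j₂)
  have hπκ' : ∀ g, π (κ' g) = 0 := fun g => by
    have h1 := congrFun hc₂ g
    simp only [Pi.smul_apply, ptd_d0_apply] at h1
    simp only [hκ', Pi.sub_apply, Pi.smul_apply, ptd_d0_apply, map_sub, map_nsmul, K.π_equiv, hj₂]
    rw [mul_smul]
    show m'' • m' • θ' g - _ = 0
    rw [h1, smul_sub, sub_self]
  -- (v) divide by `p` inside `E`
  let s : J → J := fun e => if h : π e = 0 then Classical.choose (K.ker_div e h) else 0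
  have hs : ∀ e, π e = 0 → π (s e) = 0 ∧ p • s e = e := fun e h => by
    simp only [s, dif_pos h]
    exact Classical.choose_spec (K.ker_div e h)
  set κ'' : G → J := fun g => s (κ' g) with hκ''
  have hκ''lev : ptd_IsLev₁ 𝓛 κ'' := hκ'lev.comp s
  have hπκ'' : (fun g => π (κ'' g)) = 0 := funext fun g => (hs _ (hπκ' g)).1
  have hpκ'' : p • κ'' = κ' := funext fun g => (hs _ (hπκ' g)).2
  -- (vi) `W₃` has values in `E[p]`
  set W₃ : G × G → J := (m'' * m') • W₁ - ptd_d1 ρJ κ'' with hW₃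
  have hBκ'' : ptd_IsB2 𝓛 ρJ (ptd_d1 ρJ κ'') := ⟨κ'', hκ''lev, rfl⟩
  have hW₃Z : ptd_IsLZ2 𝓛 ρJ W₃ := (hW₁Z.nsmul' _).sub (hBκ''.isLZ2 hdJ)
  have hπW₃ : ∀ y, π (W₃ y) = 0 := fun y => by
    have h1 := congrFun (hπd κ'') y
    simp only [hW₃, Pi.sub_apply, Pi.smul_apply, map_sub, map_nsmul, hπW₁, h1, hπκ'', ptd_d1_zero,
      smul_zero, Pi.zero_apply, sub_zero]
  have hpW₃ : ∀ y, p • W₃ y = 0 := fun y => by
    have e1 : p • ((m'' * m') • W₁) = (m'' * m') • ptd_d1 ρJ κ := by rw [smul_comm, hdκ]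
    have e2 : p • ptd_d1 ρJ κ'' = (m'' * m') • ptd_d1 ρJ κ := by
      rw [← ptl_d1_nsmul, hpκ'', hκ', ptd_d1_sub, ptl_d1_nsmul, ptd_d1_d0, sub_zero]
    have h1 : p • W₃ = 0 := by
      rw [hW₃, smul_sub, e1, e2, sub_self]
    exact congrFun h1 y
  choose z hz using fun y => K.ker_tors (W₃ y) (hπW₃ y) (hpW₃ y)
  have hζz : (fun y => ζ (z y)) = W₃ := funext hz
  have hzlev : ptd_IsLev₂ 𝓛 z := by
    obtain ⟨N, hN, h⟩ := hW₃Z.2
    exact ⟨N, hN, fun g g' n hn n' hn' => K.ζ_inj (by rw [hz, hz, h g g' n hn n' hn'])⟩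
  have hzZ : ptd_IsZ2 (Representation.trivial (ZMod p) G (ZMod p)) z :=
    ptl_isZ2_trivial_of_comp K.ζ_inj K.ζ_fix (by rw [hζz]; exact hW₃Z.1)
  refine ⟨m'' * m' * m, z, (m'' * m') • φ' + κ'', fun hd => ?_, ⟨hzZ, hzlev⟩,
    (hφ'lev.comp (fun a => (m'' * m') • a)).add hκ''lev, ?_⟩
  · rcases (Nat.Prime.dvd_mul (Fact.out : p.Prime)).mp hd with h1 | h1
    · rcases (Nat.Prime.dvd_mul (Fact.out : p.Prime)).mp h1 with h2 | h2
      · exact hm'' h2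
      · exact hm' h2
    · exact hm h1
  · rw [hζz, hW₃, hW₁, ptd_d1_add, ptl_d1_nsmul, smul_sub, mul_smul (m'' * m') m W]
    abel

/-- the local symbol `a ↦ inv_v (a · δψ)` takes `p`-torsion values -/
lemma ptd_nsmul_symb {H : Type*} [Group H] {𝓛H : ptd_Levels H} {A : Type*} [AddCommGroup A]
    {ρA : Representation ℤ H A} (iv : ptd_Inv 𝓛H ρA T p) {ψ : H → ZMod p} (hψ : ptd_IsChar ψ)
    (hψl : ptd_IsLev₁ 𝓛H ψ) {a : A} (ha : ∀ t, ρA t a = a) :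
    p • iv (ptd_bockSmul p ψ a) = 0 := by
  have hb : ptd_IsLZ2p 𝓛H ρA p (ptd_bockSmul p ψ a) := ptl_bockSmul_isLZ2p hψ hψl ha
  rw [← (iv.map_nsmul hb p).1]
  exact iv.map_b2 hb.2

/-- **STEP B**: an invariant `p`-torsion idele whose class is orthogonal to `H²(G, 𝔽_p)` is a
root of unity. -/
lemma ptd_base2_stepB (K : ptd_GKummer p ρJ ρC π ζ) (SL : ptd_GSemiLocal 𝓛 p ρJ ζ 𝓛v ρv r ev)
    (hLG : ptd_GLG 𝓛 p ρJ ρC π 𝓛v ρv r ev inv invv)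
    (hF1 : ∀ θ : G → C, ptd_IsLZ1 𝓛 ρC θ → ∃ m : ℕ, ¬ p ∣ m ∧ ptd_IsB1 ρC (m • θ))
    (hinj : ∀ y, ptd_IsLZ2p 𝓛 ρC p y → inv y = 0 → ptd_IsB2 𝓛 ρC y)
    (hT : ∃ t₀ : T, p • t₀ = 0 ∧ ∀ t : T, p • t = 0 → ∃ k : ℕ, t = k • t₀)
    (hdv : ∀ v, ptd_IsDiscrete (𝓛v v) (ρv v))
    (htorsloc : ∀ v (a : Av v), p • a = 0 → ∃ k : ZMod p, ev v (ζ k) = a)
    (hF3Lloc : ∀ v (χ : Gv v → ZMod p), ptd_IsChar χ → ptd_IsLev₁ (𝓛v v) χ →
      (∀ a : Av v, (∀ t, ρv v t a = a) → invv v (ptd_bockSmul p χ a) = 0) → χ = 0)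
    (hcyc : ∃ ψ₀ : G → ZMod p, ptd_IsChar ψ₀ ∧ ptd_IsLev₁ 𝓛 ψ₀ ∧ ∀ v, ∃ t, ψ₀ (r v t) ≠ 0)
    {x : J} (hx : p • x = 0) (hxfix : ∀ g, ρJ g x = x)
    (hall : ∀ z : G × G → ZMod p, ptd_IsLZ2 𝓛 (Representation.trivial (ZMod p) G (ZMod p)) z →
      inv (fun y => π (ptl_zetaHom x hx (z y))) = 0) :
    π x = 0 := by
  classical
  have hevx : ∀ v, ∃ k : ZMod p, ev v (ζ k) = ev v x := fun v =>
    htorsloc v _ (by rw [← map_nsmul, hx, map_zero])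
  choose kv hkv using hevx
  -- all local coordinates agree
  have hclaim : ∀ v₁ v₂, v₁ ≠ v₂ → kv v₁ = kv v₂ := by
    intro v₁ v₂ hne
    obtain ⟨ψ₀, hψ, hψl, hψne⟩ := hcyc
    have hψv : ∀ v, ptd_IsChar (fun t => ψ₀ (r v t)) := fun v => ptd_isChar_loc hψ
    have hψvl : ∀ v, ptd_IsLev₁ (𝓛v v) (fun t => ψ₀ (r v t)) := fun v =>
      hψl.loc (SL.r_cont v) id
    -- local classes with nonzero invariant
    have hex : ∀ v, ∃ a : Av v, (∀ t, ρv v t a = a) ∧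
        invv v (ptd_bockSmul p (fun t => ψ₀ (r v t)) a) ≠ 0 := by
      intro v
      by_contra hcon
      push Not at hcon
      have := hF3Lloc v _ (hψv v) (hψvl v) hcon
      obtain ⟨t, ht⟩ := hψne v
      exact ht (congrFun this t)
    obtain ⟨a₁, ha₁, hτ₁⟩ := hex v₁
    obtain ⟨a₂, ha₂, hτ₂⟩ := hex v₂
    set τ₁ := invv v₁ (ptd_bockSmul p (fun t => ψ₀ (r v₁ t)) a₁) with hτ₁def
    set τ₂ := invv v₂ (ptd_bockSmul p (fun t => ψ₀ (r v₂ t)) a₂) with hτ₂def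
    have hpτ₁ : p • τ₁ = 0 := ptd_nsmul_symb (invv v₁) (hψv v₁) (hψvl v₁) ha₁
    have hpτ₂ : p • τ₂ = 0 := ptd_nsmul_symb (invv v₂) (hψv v₂) (hψvl v₂) ha₂
    obtain ⟨t₀, ht₀p, ht₀⟩ := hT
    obtain ⟨n, hn⟩ := ptl_tors_of_ne_zero ht₀p ht₀ hpτ₁ hτ₁ τ₂ hpτ₂
    -- the idele `j` with components `n • a₁` at `v₁`, `-a₂` at `v₂`
    have hna₁ : ∀ t, ρv v₁ t (n • a₁) = n • a₁ := fun t => by rw [map_nsmul, ha₁]
    obtain ⟨j₁, hj₁fix, hj₁v, hj₁v', -⟩ := SL.ev_indep v₁ (n • a₁) hna₁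
    obtain ⟨j₂, hj₂fix, hj₂v, hj₂v', -⟩ := SL.ev_indep v₂ a₂ ha₂
    set j : J := j₁ - j₂ with hj
    have hjfix : ∀ g, ρJ g j = j := fun g => by rw [hj, map_sub, hj₁fix, hj₂fix]
    have hevj₁ : ev v₁ j = n • a₁ := by rw [hj, map_sub, hj₁v, hj₂v' v₁ hne, sub_zero]
    have hevj₂ : ev v₂ j = -a₂ := by rw [hj, map_sub, hj₂v, hj₁v' v₂ hne.symm, zero_sub]
    have hevj : ∀ v, v ≠ v₁ → v ≠ v₂ → ev v j = 0 := fun v h1 h2 => by
      rw [hj, map_sub, hj₁v' v h1, hj₂v' v h2, sub_zero]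
    have hevjfix : ∀ v t, ρv v t (ev v j) = ev v j := fun v t => by
      rw [← SL.ev_equiv, hjfix]
    -- local invariants of `W = j · δψ₀`
    have hBv : ∀ v, ptd_IsLZ2p (𝓛v v) (ρv v) p
        (ptd_bockSmul p (fun t => ψ₀ (r v t)) (ev v j)) := fun v =>
      ptl_bockSmul_isLZ2p (hψv v) (hψvl v) (hevjfix v)
    have hinv₁ : invv v₁ (ptd_bockSmul p (fun t => ψ₀ (r v₁ t)) (ev v₁ j)) = τ₂ := by
      rw [hevj₁, ptl_bockSmul_nsmul,
        ((invv v₁).map_nsmul (ptl_bockSmul_isLZ2p (hψv v₁) (hψvl v₁) ha₁) n).1, hn]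
    have hinv₂ : invv v₂ (ptd_bockSmul p (fun t => ψ₀ (r v₂ t)) (ev v₂ j)) = -τ₂ := by
      have : ptd_bockSmul p (fun t => ψ₀ (r v₂ t)) (-a₂) =
          -ptd_bockSmul p (fun t => ψ₀ (r v₂ t)) a₂ := by
        funext y; simp only [ptl_bockSmul_apply, Pi.neg_apply, smul_neg]
      rw [hevj₂, this, (invv v₂).map_neg (ptl_bockSmul_isLZ2p (hψv v₂) (hψvl v₂) ha₂)]
    have hinv₀ : ∀ v, v ≠ v₁ → v ≠ v₂ →
        invv v (ptd_bockSmul p (fun t => ψ₀ (r v t)) (ev v j)) = 0 := fun v h1 h2 => by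
      rw [hevj v h1 h2, ptl_bockSmul_zero_right]
      exact (invv v).map_b2 ptd_isB2_zero
    -- the global class `W`
    have hW : ptd_IsLZ2 𝓛 ρJ (ptd_bockSmul p ψ₀ j) := ptl_bockSmul_isLZ2 hψ hψl hjfix
    have hπj : ∀ g, ρC g (π j) = π j := fun g => by rw [← K.π_equiv, hjfix]
    have hπWeq : (fun y => π (ptd_bockSmul p ψ₀ j y)) = ptd_bockSmul p ψ₀ (π j) := by
      funext y; simp only [ptl_bockSmul_apply, map_zsmul]
    have hπW : ptd_IsLZ2p 𝓛 ρC p (fun y => π (ptd_bockSmul p ψ₀ j y)) := by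
      rw [hπWeq]; exact ptl_bockSmul_isLZ2p hψ hψl hπj
    have hlg := hLG _ hW hπW
    have hsum : ∑ v, invv v (ptd_loc₂ (r v) (ev v) (ptd_bockSmul p ψ₀ j)) = 0 := by
      rw [Finset.sum_eq_add v₁ v₂ hne]
      · rw [ptd_loc₂_bockSmul, ptd_loc₂_bockSmul, hinv₁, hinv₂, add_neg_cancel]
      · intro v _ hv
        rw [ptd_loc₂_bockSmul]
        exact hinv₀ v hv.1 hv.2
      · intro h; exact absurd (Finset.mem_univ _) h
      · intro h; exact absurd (Finset.mem_univ _) h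
    rw [hsum] at hlg
    obtain ⟨φ, hφ, hφW⟩ := hinj _ hπW hlg
    -- push into `μ_p`
    have hκ₀ : ptd_IsLev₁ 𝓛 (fun g => ptl_lift ψ₀ g • j) :=
      (ptl_lift_isLev₁ hψl).comp (fun n : ℤ => n • j)
    obtain ⟨M, z, Φ, hM, hz, hΦ, hζz⟩ := ptd_base2_pushE K SL.disc hF1 hW hκ₀
      (ptl_nsmul_bockSmul hψ hjfix) hφ hφW
    -- evaluate the hypothesis on `z`
    set f := ptl_zetaHom x hx with hfdef
    have hffix : ∀ g a, ρJ g (f a) = f a := ptd_zetaHom_fix hx hxfix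
    have hY : ptd_IsLZ2 𝓛 ρJ (fun y => f (z y)) :=
      ⟨ptl_isZ2_comp_trivial f hffix hz.1, hz.2.comp f⟩
    have hπffix : ∀ g a, ρC g ((π.comp f) a) = (π.comp f) a := fun g a => by
      rw [AddMonoidHom.comp_apply, ← K.π_equiv, hffix]
    have hπY : ptd_IsLZ2p 𝓛 ρC p (fun y => π (f (z y))) :=
      ptd_isLZ2p_comp_trivial (π.comp f) hπffix hz
    have hlgY := hLG _ hY hπY
    rw [hall z hz] at hlgY
    -- local invariants of `Y`
    have hlocY : ∀ v, invv v (ptd_loc₂ (r v) (ev v) (fun y => f (z y))) =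
        (kv v).val • (M • invv v (ptd_bockSmul p (fun t => ψ₀ (r v t)) (ev v j))) := by
      intro v
      have hD : ptd_IsB2 (𝓛v v) (ρv v) (ptd_d1 (ρv v) (ptd_loc₁ (r v) (ev v) Φ)) :=
        ⟨_, hΦ.loc (SL.r_cont v) (ev v), rfl⟩
      have hMB := ((invv v).map_nsmul (hBv v) M)
      have e1 : ptd_loc₂ (r v) (ev v) (fun y => ζ (z y)) =
          M • ptd_bockSmul p (fun t => ψ₀ (r v t)) (ev v j)
            - ptd_d1 (ρv v) (ptd_loc₁ (r v) (ev v) Φ) := by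
        rw [hζz, ← ptd_loc₂_d1 (r := r v) (ev v) (SL.ev_equiv v) Φ, ← ptd_loc₂_bockSmul]
        funext ⟨a, b⟩
        simp only [ptd_loc₂_apply, Pi.sub_apply, Pi.smul_apply, map_sub, map_nsmul]
      have e2 : ptd_loc₂ (r v) (ev v) (fun y => f (z y)) =
          (kv v).val • ptd_loc₂ (r v) (ev v) (fun y => ζ (z y)) := by
        funext ⟨a, b⟩
        simp only [ptd_loc₂_apply, Pi.smul_apply, hfdef, ptl_zetaHom_apply, map_zsmul, ← hkv v]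
        rw [natCast_zsmul, ← map_nsmul, ← map_nsmul, ← map_nsmul (ev v), ← map_nsmul ζ,
          nsmul_eq_mul, nsmul_eq_mul, ZMod.natCast_zmod_val, ZMod.natCast_zmod_val, mul_comm]
      have h3 : ptd_IsLZ2p (𝓛v v) (ρv v) p (ptd_loc₂ (r v) (ev v) (fun y => ζ (z y))) := by
        rw [e1, sub_eq_add_neg]
        exact hMB.2.add (hD.neg.isLZ2p (hdv v))
      rw [e2, ((invv v).map_nsmul h3 _).1, e1, (invv v).map_sub_b2 (hdv v) hMB.2 hD, hMB.1]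
    rw [Finset.sum_eq_add v₁ v₂ hne] at hlgY
    · rw [hlocY, hlocY, hinv₁, hinv₂, smul_neg, smul_neg] at hlgY
      have hMτ : M • τ₂ ≠ 0 := by
        intro h0
        have hτ₂0 : τ₂ = 0 := ptd_eq_zero_of_coprime_smul hpτ₂ hM h0
        apply hτ₁
        have : τ₁ ≠ 0 := hτ₁
        exact absurd hτ₂0 hτ₂
      have hpMτ : p • (M • τ₂) = 0 := by rw [smul_comm, hpτ₂, smul_zero]
      have hinjT := ptl_zetaHom_injective hpMτ hMτ
      apply hinjT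
      rw [ptl_zetaHom_apply, ptl_zetaHom_apply, natCast_zsmul, natCast_zsmul]
      have := hlgY.symm
      rwa [← sub_eq_add_neg, sub_eq_zero] at this
    · intro v _ hv
      rw [hlocY, hinv₀ v hv.1 hv.2, smul_zero, smul_zero]
    · intro h; exact absurd (Finset.mem_univ _) h
    · intro h; exact absurd (Finset.mem_univ _) h
  -- conclude
  by_cases hne : Nonempty 𝒱
  · obtain ⟨v₀⟩ := hne
    have hx' : x - ζ (kv v₀) = 0 := by
      refine SL.ev_inj _ (fun g => by rw [map_sub, hxfix, K.ζ_fix]) ?_ (fun v => ?_)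
      · rw [smul_sub, hx, ← map_nsmul, nsmul_eq_mul, ZMod.natCast_self, zero_mul, map_zero,
          sub_zero]
      · rw [map_sub, ← hkv v]
        by_cases hv : v = v₀
        · rw [hv, sub_self]
        · rw [hclaim v v₀ hv, sub_self]
    rw [sub_eq_zero.mp hx', K.π_ζ]
  · have : x = 0 := SL.ev_inj x hxfix hx (fun v => (hne ⟨v⟩).elim)
    rw [this, map_zero]

/-- **F4(ii), GLOBAL**: left nondegeneracy of `C^G[p] × H²(G, 𝔽_p) → T` for `G = G_S(F)`,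
`μ_p ⊂ F` (deep enough in the cyclotomic tower: hypothesis `hcyc`), in the big-group model. -/
theorem ptd_F4ii_global (K : ptd_GKummer p ρJ ρC π ζ) (SL : ptd_GSemiLocal 𝓛 p ρJ ζ 𝓛v ρv r ev)
    (hdC : ptd_IsDiscrete 𝓛 ρC) (hLG : ptd_GLG 𝓛 p ρJ ρC π 𝓛v ρv r ev inv invv)
    (hF1 : ∀ θ : G → C, ptd_IsLZ1 𝓛 ρC θ → ∃ m : ℕ, ¬ p ∣ m ∧ ptd_IsB1 ρC (m • θ))
    (hinj : ∀ y, ptd_IsLZ2p 𝓛 ρC p y → inv y = 0 → ptd_IsB2 𝓛 ρC y)
    (hF3L : ∀ χ : G → ZMod p, ptd_IsChar χ → ptd_IsLev₁ 𝓛 χ →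
      (∀ c : C, (∀ g, ρC g c = c) → inv (ptd_bockSmul p χ c) = 0) → χ = 0)
    (hT : ∃ t₀ : T, p • t₀ = 0 ∧ ∀ t : T, p • t = 0 → ∃ k : ℕ, t = k • t₀)
    (hdv : ∀ v, ptd_IsDiscrete (𝓛v v) (ρv v))
    (hdivloc : ∀ v (a : Av v), ∃ a' : Av v, p • a' = a)
    (htorsloc : ∀ v (a : Av v), p • a = 0 → ∃ k : ZMod p, ev v (ζ k) = a)
    (hζloc : ∀ v, Function.Injective (fun k => ev v (ζ k)))
    (hF3Lloc : ∀ v (χ : Gv v → ZMod p), ptd_IsChar χ → ptd_IsLev₁ (𝓛v v) χ →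
      (∀ a : Av v, (∀ t, ρv v t a = a) → invv v (ptd_bockSmul p χ a) = 0) → χ = 0)
    (hcyc : ∃ ψ₀ : G → ZMod p, ptd_IsChar ψ₀ ∧ ptd_IsLev₁ 𝓛 ψ₀ ∧ ∀ v, ∃ t, ψ₀ (r v t) ≠ 0) :
    ptd_NondegHom 𝓛 ρC inv (Representation.trivial (ZMod p) G (ZMod p)) := by
  intro f hfeq hall
  have hffix : ∀ g a, ρC g (f a) = f a := fun g a => by
    rw [← hfeq g a, Representation.trivial_apply]
  have hcp : p • f 1 = 0 := by
    rw [← map_nsmul, nsmul_eq_mul, ZMod.natCast_self, zero_mul, map_zero]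
  obtain ⟨x, hπx, hx⟩ := ptd_base2_lift K hcp
  have hcx : ∀ g, ρC g (π x) = π x := fun g => by rw [hπx, hffix]
  obtain ⟨χ, hχ, hχl, hχloc, hxχ⟩ := ptd_base2_char K SL htorsloc hζloc hx hcx
  -- `f = π ∘ f_x`
  have hfeq' : ∀ a, f a = π (ptl_zetaHom x hx a) := fun a => by
    conv_lhs => rw [ptl_eq_zetaHom f]
    rw [ptl_zetaHom_apply, ptl_zetaHom_apply, map_zsmul, hπx]
  have hall' : ∀ z : G × G → ZMod p,
      ptd_IsLZ2 𝓛 (Representation.trivial (ZMod p) G (ZMod p)) z →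
        inv (fun y => π (ptl_zetaHom x hx (z y))) = 0 := fun z hz => by
    have := hall z hz
    simpa only [hfeq'] using this
  have hχ0 : χ = 0 := ptd_base2_stepA K SL hdC hLG hdv hdivloc htorsloc hζloc hF3L hx hχ hχl
    hχloc hxχ hall'
  have hxfix : ∀ g, ρJ g x = x := fun g => by
    have := hxχ g
    rw [hχ0, Pi.zero_apply, map_zero, sub_eq_zero] at this
    exact this
  have hπx0 : π x = 0 := ptd_base2_stepB K SL hLG hF1 hinj hT hdv htorsloc hF3Lloc hcyc hx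
    hxfix hall'
  refine AddMonoidHom.ext fun a => ?_
  rw [hfeq' a, ptl_zetaHom_apply, map_zsmul, hπx0, smul_zero, AddMonoidHom.zero_apply]

end BaseII

end Fermat.Agent.Lib.PT
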