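/-
S55 (Poitou–Tate long haul), A-track, cochain package, part G:

* `ptd_prismK` : the general prism homotopy between `Ψ ∘ κ₁³` and `Ψ ∘ κ₂³` for a homogeneous
  `2`-cocycle `Ψ` on `Y³` and two maps `κ₁ κ₂ : X → Y`;
* `ptd_inh₂_N_prismK` : the norm version: `inh (N (Ψ ∘ κ₁³)) = inh (N (Ψ ∘ κ₂³)) - d ψ`;
* `ptd_N_eq_sum` : the norm of an equivariant function can be computed with any system of coset
  representatives;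
* `ptd_hom₂_inh₂` : `hom₂ (inh₂ Φ) = Φ` for equivariant homogeneous `Φ`.
-/
import Fermat.Agent.Lib.PT.AdtCorF

set_option autoImplicit false
set_option linter.unusedSectionVars false

namespace Fermat.Agent.Lib.PT

section PrismK

variable {X Y : Type*} {A : Type*} [AddCommGroup A]

/-- the prism homotopy between `Ψ ∘ κ₁³` and `Ψ ∘ κ₂³` -/
def ptd_prismK (Ψ : Y × Y × Y → A) (κ₁ κ₂ : X → Y) : X × X → A := fun x =>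
  Ψ (κ₁ x.1, κ₂ x.1, κ₂ x.2) - Ψ (κ₁ x.1, κ₁ x.2, κ₂ x.2)

/-- the prism identity -/
lemma ptd_prismK_spec {Ψ : Y × Y × Y → A} (hD : ∀ a b c d, ptd_D₃ Ψ (a, b, c, d) = 0)
    (κ₁ κ₂ : X → Y) (a b c : X) :
    Ψ (κ₁ a, κ₁ b, κ₁ c) =
      Ψ (κ₂ a, κ₂ b, κ₂ c) - ptd_D₂ (ptd_prismK Ψ κ₁ κ₂) (a, b, c) := by
  have e1 := hD (κ₁ a) (κ₂ a) (κ₂ b) (κ₂ c)
  have e2 := hD (κ₁ a) (κ₁ b) (κ₂ b) (κ₂ c)
  have e3 := hD (κ₁ a) (κ₁ b) (κ₁ c) (κ₂ c)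
  simp only [ptd_D₃] at e1 e2 e3
  simp only [ptd_D₂, ptd_prismK]
  have e1' := sub_eq_zero.mp e1
  have e2' := sub_eq_zero.mp e2
  have e3' := sub_eq_zero.mp e3
  rw [← e3', ← sub_eq_zero]
  rw [← e1']
  rw [← sub_eq_zero] at e2'
  rw [← e2']
  abel

end PrismK

section PrismN

variable {H : Type*} [Group H] (V : Subgroup H) [V.FiniteIndex]
variable {k : Type*} [CommRing k] {B : Type*} [AddCommGroup B] [Module k B]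
variable (σ : Representation k H B)
variable {Y : Type*}

attribute [local instance] Subgroup.fintypeQuotientOfFiniteIndex

/-- the composite `Ψ ∘ κ³` -/
def ptd_comp₃ (Ψ : Y × Y × Y → B) (κ : H → Y) : H × H × H → B :=
  fun x => Ψ (κ x.1, κ x.2.1, κ x.2.2)

variable {V σ}

/-- **general prism, norm version**: for a homogeneous `2`-cocycle `Ψ` on `Y³` and two maps
`κ₁ κ₂ : H → Y`, equivariant for a "left action" `m` of `V` on `Y` for which `Ψ` is equivariant: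
`inh (N (Ψ ∘ κ₁³)) = inh (N (Ψ ∘ κ₂³)) - d ψ`. -/
theorem ptd_inh₂_N_prismK {Ψ : Y × Y × Y → B} (hD : ∀ a b c d, ptd_D₃ Ψ (a, b, c, d) = 0)
    (m : V → Y → Y) (hΨ : ∀ (v : V) a b c, Ψ (m v a, m v b, m v c) = σ v (Ψ (a, b, c)))
    {κ₁ κ₂ : H → Y} (hκ₁ : ∀ (v : V) y, κ₁ (v * y) = m v (κ₁ y))
    (hκ₂ : ∀ (v : V) y, κ₂ (v * y) = m v (κ₂ y)) :
    ptd_inh₂ (ptd_N V σ (ptd_comp₃ Ψ κ₁)) = ptd_inh₂ (ptd_N V σ (ptd_comp₃ Ψ κ₂))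
      - ptd_d1 σ (fun g => ptd_N V σ (ptd_prismK Ψ κ₁ κ₂) ((1, g) : H × H)) := by
  have hE : ptd_comp₃ Ψ κ₁ = ptd_comp₃ Ψ κ₂ - ptd_D₂ (ptd_prismK Ψ κ₁ κ₂) := by
    funext ⟨a, b, c⟩
    exact ptd_prismK_spec hD κ₁ κ₂ a b c
  have hequiv : ptd_IsEquivOn V σ (ptd_prismK Ψ κ₁ κ₂) := by
    rintro v hv ⟨a, b⟩
    have e1 : ∀ y, κ₁ (v * y) = m ⟨v, hv⟩ (κ₁ y) := fun y => hκ₁ ⟨v, hv⟩ y
    have e2 : ∀ y, κ₂ (v * y) = m ⟨v, hv⟩ (κ₂ y) := fun y => hκ₂ ⟨v, hv⟩ y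
    have e3 : ∀ a b c, Ψ (m ⟨v, hv⟩ a, m ⟨v, hv⟩ b, m ⟨v, hv⟩ c) = σ v (Ψ (a, b, c)) :=
      fun a b c => hΨ ⟨v, hv⟩ a b c
    simp only [ptd_prismK, Prod.smul_mk, smul_eq_mul, e1, e2, e3, map_sub]
  funext ⟨g, h⟩
  simp only [ptd_inh₂, Pi.sub_apply, ptd_d1_apply]
  rw [hE, ptd_N_sub, ptd_N_D₂]
  simp only [ptd_D₂]
  have h2 : ((g, g * h) : H × H) = g • ((1, h) : H × H) := by
    simp [Prod.smul_mk]
  rw [h2, ptd_N_smul hequiv]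

/-- `Ψ ∘ κ³` is `V`-equivariant -/
lemma ptd_isEquivOn_comp₃ {Ψ : Y × Y × Y → B} (m : V → Y → Y)
    (hΨ : ∀ (v : V) a b c, Ψ (m v a, m v b, m v c) = σ v (Ψ (a, b, c)))
    {κ : H → Y} (hκ : ∀ (v : V) y, κ (v * y) = m v (κ y)) :
    ptd_IsEquivOn V σ (ptd_comp₃ Ψ κ) := by
  rintro v hv ⟨a, b, c⟩
  have e1 : ∀ y, κ (v * y) = m ⟨v, hv⟩ (κ y) := fun y => hκ ⟨v, hv⟩ y
  have e3 : ∀ a b c, Ψ (m ⟨v, hv⟩ a, m ⟨v, hv⟩ b, m ⟨v, hv⟩ c) = σ v (Ψ (a, b, c)) :=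
    fun a b c => hΨ ⟨v, hv⟩ a b c
  simp only [ptd_comp₃, Prod.smul_mk, smul_eq_mul, e1, e3]

/-- the norm of a `V`-equivariant function, computed with an arbitrary system of coset
representatives -/
lemma ptd_N_eq_sum {X : Type*} [MulAction H X] {ι : Type*} [Fintype ι] (e : ι ≃ H ⧸ V)
    (t : ι → H) (ht : ∀ i, (QuotientGroup.mk (t i) : H ⧸ V) = e i) {F : X → B}
    (hF : ptd_IsEquivOn V σ F) (x : X) :
    ptd_N V σ F x = ∑ i, σ (t i) (F ((t i)⁻¹ • x)) := by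
  rw [ptd_N, ← Equiv.sum_comp e]
  refine Finset.sum_congr rfl fun i _ => ?_
  have h1 : (QuotientGroup.mk (e i).out : H ⧸ V) = QuotientGroup.mk (t i) := by
    rw [ht i]; exact Quotient.out_eq _
  have h2 : (t i)⁻¹ * (e i).out ∈ V := QuotientGroup.eq.mp h1.symm
  set u : H := (t i)⁻¹ * (e i).out with hu
  have h3 : (e i).out = t i * u := by rw [hu]; group
  rw [h3, mul_inv_rev, mul_smul, hF u⁻¹ (V.inv_mem h2), map_mul, Module.End.mul_apply,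
    ← Module.End.mul_apply (σ u), ← map_mul, mul_inv_cancel, map_one, Module.End.one_apply]

/-- `hom₂ (inh₂ Φ) = Φ` for an equivariant homogeneous cochain `Φ` -/
lemma ptd_hom₂_inh₂ {Φ : H × H × H → B} (hΦ : ∀ g x, Φ (g • x) = σ g (Φ x)) (x : H × H × H) :
    ptd_hom₂ σ (ptd_inh₂ Φ) x = Φ x := by
  obtain ⟨a, b, c⟩ := x
  simp only [ptd_hom₂, ptd_inh₂]
  rw [← hΦ]
  simp only [Prod.smul_mk, smul_eq_mul, mul_one]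
  have e1 : a * (a⁻¹ * b) = b := by group
  have e2 : a * (a⁻¹ * b * (b⁻¹ * c)) = c := by group
  rw [e1, e2]

/-- right invariance of `prismK` in the second variable -/
lemma ptd_prismK_mul_right {X : Type*} [Group Y] (NY : Subgroup Y) {Ψ : Y × Y × Y → B}
    (hΨ : ∀ a b c, ∀ n ∈ NY, ∀ n' ∈ NY, Ψ (a, b * n, c * n') = Ψ (a, b, c))
    (κ₁ κ₂ : X → Y) (a b b' : X) (h₁ : ∃ m ∈ NY, κ₁ b' = κ₁ b * m)
    (h₂ : ∃ m ∈ NY, κ₂ b' = κ₂ b * m) :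
    ptd_prismK Ψ κ₁ κ₂ (a, b') = ptd_prismK Ψ κ₁ κ₂ (a, b) := by
  obtain ⟨m₁, hm₁, e₁⟩ := h₁
  obtain ⟨m₂, hm₂, e₂⟩ := h₂
  simp only [ptd_prismK, e₁, e₂]
  have h1 := hΨ (κ₁ a) (κ₂ a) (κ₂ b) 1 NY.one_mem m₂ hm₂
  rw [mul_one] at h1
  rw [h1, hΨ (κ₁ a) (κ₁ b) (κ₂ b) m₁ hm₁ m₂ hm₂]

/-- right invariance of the prism `1`-cochain -/
lemma ptd_N_prismK_mul_right [Group Y] (NY : Subgroup Y) {Ψ : Y × Y × Y → B}
    (hΨ : ∀ a b c, ∀ n ∈ NY, ∀ n' ∈ NY, Ψ (a, b * n, c * n') = Ψ (a, b, c))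
    (κ₁ κ₂ : H → Y) (g n : H) (h₁ : ∀ b, ∃ m ∈ NY, κ₁ (b * n) = κ₁ b * m)
    (h₂ : ∀ b, ∃ m ∈ NY, κ₂ (b * n) = κ₂ b * m) :
    ptd_N V σ (ptd_prismK Ψ κ₁ κ₂) ((1, g * n) : H × H)
      = ptd_N V σ (ptd_prismK Ψ κ₁ κ₂) ((1, g) : H × H) := by
  simp only [ptd_N, Prod.smul_mk, smul_eq_mul]
  refine Finset.sum_congr rfl fun q _ => ?_
  congr 1
  rw [← mul_assoc]
  exact ptd_prismK_mul_right NY hΨ κ₁ κ₂ _ _ _ (h₁ _) (h₂ _)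

/-- right invariance of `hom₂ σ z` in the last two slots -/
lemma ptd_hom₂_mul_right (N : Subgroup H) [hN : N.Normal] {z : H × H → B}
    (hz : ∀ g h, ∀ n ∈ N, ∀ n' ∈ N, z (g * n, h * n') = z (g, h))
    (a b c n n' : H) (hn : n ∈ N) (hn' : n' ∈ N) :
    ptd_hom₂ σ z (a, b * n, c * n') = ptd_hom₂ σ z (a, b, c) := by
  simp only [ptd_hom₂]
  congr 1
  set w : H := b⁻¹ * c with hw
  have h1 : a⁻¹ * (b * n) = a⁻¹ * b * n := by group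
  have h2 : (b * n)⁻¹ * (c * n') = w * (w⁻¹ * n⁻¹ * w * n') := by rw [hw]; group
  rw [h1, h2]
  apply hz _ _ _ hn
  have := hN.conj_mem _ (N.inv_mem hn) w⁻¹
  rw [inv_inv] at this
  exact N.mul_mem this hn'

end PrismN

end Fermat.Agent.Lib.PT
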