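/-
S55 (Poitou–Tate long haul), A-track, cochain package, part H: TRANSITIVITY of corestriction (TR).

For `V ≤ U ≤ G` of finite index and a `2`-cocycle `z` of `V`:
`cor^G_U (cor^U_V z) = cor^G_V z - d ψ` with an explicit (level) `1`-cochain `ψ`; consequently
`cor^G_V (res^U_V y) - [U : V] • cor^G_U y` is a level coboundary.
-/
import Fermat.Agent.Lib.PT.AdtCorG

set_option autoImplicit false
set_option linter.unusedSectionVars false

namespace Fermat.Agent.Lib.PT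

section Trans

variable {G : Type*} [Group G] {U V : Subgroup G} (hVU : V ≤ U) [U.FiniteIndex] [V.FiniteIndex]
variable {k : Type*} [CommRing k] {A : Type*} [AddCommGroup A] [Module k A]
variable (ρ : Representation k G A)

attribute [local instance] Subgroup.fintypeQuotientOfFiniteIndex

/-- transport of a `2`-cochain of `V` to the subgroup `V.subgroupOf U` of `U` -/
def ptd_trLift {X : Type*} (z : V × V → X) : (V.subgroupOf U) × (V.subgroupOf U) → X :=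
  fun x => z (Subgroup.subgroupOfEquivOfLe hVU x.1, Subgroup.subgroupOfEquivOfLe hVU x.2)

/-- restriction of a `2`-cochain of `U` to a smaller subgroup `V ≤ U` of `G` -/
def ptd_resLE {X : Type*} (y : U × U → X) : V × V → X :=
  fun x => y (Subgroup.inclusion hVU x.1, Subgroup.inclusion hVU x.2)

lemma ptd_trLift_resLE {X : Type*} (y : U × U → X) :
    ptd_trLift hVU (ptd_resLE hVU y) = ptd_res₂ (V.subgroupOf U) y := by
  funext ⟨a, b⟩
  rfl

/-- the two-step retraction `G → U → V` -/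
noncomputable def ptd_retr₂ (g : G) : V :=
  Subgroup.subgroupOfEquivOfLe hVU (ptd_retr (V.subgroupOf U) (ptd_retr U g))

lemma ptd_retr₂_mul_left (v : V) (g : G) :
    ptd_retr₂ hVU ((v : G) * g) = v * ptd_retr₂ hVU g := by
  have h1 : ptd_retr U ((v : G) * g) = (Subgroup.inclusion hVU v) * ptd_retr U g :=
    ptd_retr_mul_left U (Subgroup.inclusion hVU v) g
  have hv : Subgroup.inclusion hVU v ∈ V.subgroupOf U := by
    rw [Subgroup.mem_subgroupOf]; exact v.2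
  have h2 := ptd_retr_mul_left (V.subgroupOf U) ⟨Subgroup.inclusion hVU v, hv⟩ (ptd_retr U g)
  simp only [ptd_retr₂, h1]
  rw [h2, map_mul]
  congr 1

/-- the first-stage homogeneous cocycle `Φ = N_{U/V}(E₂ z)` on `U³` -/
noncomputable def ptd_trPhi (z : V × V → A) : U × U × U → A :=
  ptd_N (V.subgroupOf U) (ptd_resRep ρ U)
    (ptd_E₂ (V.subgroupOf U) (ptd_resRep ρ U) (ptd_trLift hVU z))

lemma ptd_trPhi_smul (z : V × V → A) (u : U) (x : U × U × U) :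
    ptd_trPhi hVU ρ z (u • x) = ρ u (ptd_trPhi hVU ρ z x) :=
  ptd_N_smul (ptd_isEquivOn_E₂ (V.subgroupOf U) (ptd_resRep ρ U) (ptd_trLift hVU z)) u x

lemma ptd_cor₂_trLift (z : V × V → A) :
    ptd_cor₂ (V.subgroupOf U) (ptd_resRep ρ U) (ptd_trLift hVU z)
      = ptd_inh₂ (ptd_trPhi hVU ρ z) :=
  ptd_cor₂_eq_inh₂ _ _ _

/-- `E₂ (z ∘ e) = hom₂ z ∘ e³ ∘ retr³` on `U³` -/
lemma ptd_E₂_trLift (z : V × V → A) (a b c : U) :
    ptd_E₂ (V.subgroupOf U) (ptd_resRep ρ U) (ptd_trLift hVU z) (a, b, c)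
      = ptd_hom₂ (ptd_resRep ρ V) z
          (Subgroup.subgroupOfEquivOfLe hVU (ptd_retr (V.subgroupOf U) a),
           Subgroup.subgroupOfEquivOfLe hVU (ptd_retr (V.subgroupOf U) b),
           Subgroup.subgroupOfEquivOfLe hVU (ptd_retr (V.subgroupOf U) c)) := by
  simp only [ptd_E₂, ptd_ext₂, ptd_hom₂, ptd_trLift, map_mul, map_inv]
  rfl

/-- the homogeneous form of `cor^G_U (cor^U_V z)` -/
lemma ptd_E₂_inh₂_trPhi (z : V × V → A) (x : G × G × G) :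
    ptd_E₂ U ρ (ptd_inh₂ (ptd_trPhi hVU ρ z)) x
      = ptd_trPhi hVU ρ z (ptd_retr U x.1, ptd_retr U x.2.1, ptd_retr U x.2.2) := by
  obtain ⟨a, b, c⟩ := x
  rw [ptd_E₂_eq_hom₂]
  exact ptd_hom₂_inh₂ (σ := ptd_resRep ρ U) (fun g x => ptd_trPhi_smul hVU ρ z g x) _

/-- the double sum -/
lemma ptd_N_E₂_inh₂_trPhi (z : V × V → A) (x : G × G × G) :
    ptd_N U ρ (ptd_E₂ U ρ (ptd_inh₂ (ptd_trPhi hVU ρ z))) x
      = ∑ i : (G ⧸ U) × (U ⧸ V.subgroupOf U),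
          ρ (i.1.out * (i.2.out : G))
            (ptd_comp₃ (ptd_hom₂ (ptd_resRep ρ V) z) (ptd_retr₂ hVU)
              ((i.1.out * (i.2.out : G))⁻¹ • x)) := by
  obtain ⟨a, b, c⟩ := x
  rw [Fintype.sum_prod_type, ptd_N]
  refine Finset.sum_congr rfl fun s _ => ?_
  rw [ptd_E₂_inh₂_trPhi, ptd_trPhi, ptd_N, map_sum]
  refine Finset.sum_congr rfl fun w _ => ?_
  simp only [Prod.smul_mk, smul_eq_mul, ptd_resRep_apply, map_mul, Module.End.mul_apply]
  congr 2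
  rw [ptd_E₂_trLift]
  have e : ∀ t : G, (w.out)⁻¹ * ptd_retr U (s.out⁻¹ * t)
      = ptd_retr U ((s.out * (w.out : G))⁻¹ * t) := by
    intro t
    rw [mul_inv_rev, mul_assoc, ← Subgroup.coe_inv, ptd_retr_mul_left]
  simp only [e, ptd_comp₃, ptd_retr₂]

/-- the double sum is the norm from `V` -/
lemma ptd_N_trans (z : V × V → A) (x : G × G × G) :
    ptd_N U ρ (ptd_E₂ U ρ (ptd_inh₂ (ptd_trPhi hVU ρ z))) x
      = ptd_N V ρ (ptd_comp₃ (ptd_hom₂ (ptd_resRep ρ V) z) (ptd_retr₂ hVU)) x := by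
  rw [ptd_N_E₂_inh₂_trPhi]
  have hF : ptd_IsEquivOn V ρ (ptd_comp₃ (ptd_hom₂ (ptd_resRep ρ V) z) (ptd_retr₂ hVU)) :=
    ptd_isEquivOn_comp₃ (fun v y => v * y)
      (fun v a b c => ptd_hom₂_smul (ptd_resRep ρ V) z v (a, b, c))
      (fun v y => ptd_retr₂_mul_left hVU v y)
  refine (ptd_N_eq_sum (Subgroup.quotientEquivProdOfLE hVU).symm
    (fun i => i.1.out * (i.2.out : G)) (fun i => ?_) hF x).symm
  obtain ⟨s, w⟩ := i
  have hw : w = Quotient.mk'' w.out := (Quotient.out_eq' w).symm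
  conv_rhs => rw [hw]
  rfl

/-- the explicit `1`-cochain of the transitivity formula -/
noncomputable def ptd_trCochain (z : V × V → A) : G → A := fun g =>
  ptd_N V ρ (ptd_prismK (ptd_hom₂ (ptd_resRep ρ V) z) (ptd_retr₂ hVU) (ptd_retr V))
    ((1, g) : G × G)

/-- **TRANSITIVITY of corestriction** (cochain level): for `V ≤ U ≤ G` and a `2`-cocycle `z` of
`V`, `cor^G_U (cor^U_V z) = cor^G_V z - d ψ`, `ψ = ptd_trCochain`. -/
theorem ptd_cor₂_cor₂ {z : V × V → A} (hz : ptd_IsZ2 (ptd_resRep ρ V) z) :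
    ptd_cor₂ U ρ (ptd_cor₂ (V.subgroupOf U) (ptd_resRep ρ U) (ptd_trLift hVU z))
      = ptd_cor₂ V ρ z - ptd_d1 ρ (ptd_trCochain hVU ρ z) := by
  have h1 : ptd_cor₂ U ρ (ptd_cor₂ (V.subgroupOf U) (ptd_resRep ρ U) (ptd_trLift hVU z))
      = ptd_inh₂ (ptd_N V ρ (ptd_comp₃ (ptd_hom₂ (ptd_resRep ρ V) z) (ptd_retr₂ hVU))) := by
    rw [ptd_cor₂_trLift, ptd_cor₂_eq_inh₂]
    funext ⟨g, h⟩
    simp only [ptd_inh₂]
    exact ptd_N_trans hVU ρ z _
  have h2 : ptd_cor₂ V ρ z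
      = ptd_inh₂ (ptd_N V ρ (ptd_comp₃ (ptd_hom₂ (ptd_resRep ρ V) z) (ptd_retr V))) :=
    ptd_cor₂_eq_inh₂ V ρ z
  rw [h1, h2]
  exact ptd_inh₂_N_prismK (fun a b c d => ptd_D₃_hom₂ hz a b c d) (fun v y => v * y)
    (fun v a b c => ptd_hom₂_smul (ptd_resRep ρ V) z v (a, b, c))
    (fun v y => ptd_retr₂_mul_left hVU v y) (fun v y => ptd_retr_mul_left V v y)

end Trans

section TransLev

variable {G : Type*} [Group G] {𝓛 : ptd_Levels G} {U V : Subgroup G} (hVU : V ≤ U)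
variable (hU : 𝓛.IsOpen U) (hV : 𝓛.IsOpen V) [U.FiniteIndex] [V.FiniteIndex]
variable {k : Type*} [CommRing k] {A : Type*} [AddCommGroup A] [Module k A]
variable (ρ : Representation k G A)

attribute [local instance] Subgroup.fintypeQuotientOfFiniteIndex

/-- right-multiplication behaviour of the two-step retraction -/
lemma ptd_retr₂_mul_right (N : Subgroup G) [hN : N.Normal] (hNV : N ≤ V) (g n : G) (hn : n ∈ N) :
    ∃ m ∈ N.subgroupOf V, ptd_retr₂ hVU (g * n) = ptd_retr₂ hVU g * m := by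
  obtain ⟨m₁, hm₁, e₁⟩ := ptd_retr_mul_right U N (hNV.trans hVU) g n hn
  have hle : N.subgroupOf U ≤ V.subgroupOf U := fun x hx =>
    Subgroup.mem_subgroupOf.mpr (hNV (Subgroup.mem_subgroupOf.mp hx))
  obtain ⟨m₂, hm₂, e₂⟩ := ptd_retr_mul_right (V.subgroupOf U) (N.subgroupOf U) hle
    (ptd_retr U g) m₁ (Subgroup.mem_subgroupOf.mpr hm₁)
  refine ⟨Subgroup.subgroupOfEquivOfLe hVU m₂, ?_, ?_⟩
  · rw [Subgroup.mem_subgroupOf, Subgroup.subgroupOfEquivOfLe_apply_coe]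
    exact Subgroup.mem_subgroupOf.mp hm₂
  · simp only [ptd_retr₂, e₁, e₂, map_mul]

/-- the transitivity `1`-cochain is level-constant -/
theorem ptd_isLev₁_trCochain {z : V × V → A} (hz : ptd_IsLev₂ (𝓛.sub V hV) z) :
    ptd_IsLev₁ 𝓛 (ptd_trCochain hVU ρ z) := by
  obtain ⟨N, hN, hNV, hzN⟩ := hz.exists_rInv V hV
  have := 𝓛.normal N hN
  refine ⟨N, hN, fun g n hn => ?_⟩
  refine ptd_N_prismK_mul_right (V := V) (σ := ρ) (N.subgroupOf V) ?_ _ _ g n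
    (fun b => ptd_retr₂_mul_right hVU N hNV b n hn) (fun b => ?_)
  · intro a b c n hn n' hn'
    exact ptd_hom₂_mul_right (σ := ptd_resRep ρ V) (N.subgroupOf V)
      (fun g h n hn n' hn' => hzN g h n n' (Subgroup.mem_subgroupOf.mp hn)
        (Subgroup.mem_subgroupOf.mp hn')) a b c n n' hn hn'
  · obtain ⟨m, hm, e⟩ := ptd_retr_mul_right V N hNV b n hn
    exact ⟨m, Subgroup.mem_subgroupOf.mpr hm, e⟩

/-- **TRANSITIVITY of corestriction** on level classes -/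
theorem ptd_cor₂_cor₂_sub_isB2 {z : V × V → A} (hz : ptd_IsLZ2 (𝓛.sub V hV) (ptd_resRep ρ V) z) :
    ptd_IsB2 𝓛 ρ (ptd_cor₂ V ρ z
      - ptd_cor₂ U ρ (ptd_cor₂ (V.subgroupOf U) (ptd_resRep ρ U) (ptd_trLift hVU z))) := by
  refine ⟨ptd_trCochain hVU ρ z, ptd_isLev₁_trCochain hVU hV ρ hz.2, ?_⟩
  rw [ptd_cor₂_cor₂ hVU ρ hz.1]
  abel

lemma ptd_cor₂_sub (y y' : U × U → A) :
    ptd_cor₂ U ρ (y - y') = ptd_cor₂ U ρ y - ptd_cor₂ U ρ y' := by
  funext ⟨g, h⟩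
  simp only [ptd_cor₂, ptd_ext₂, Pi.sub_apply, map_sub, Finset.sum_sub_distrib]

include hVU hV in
/-- `V.subgroupOf U` is open in `U` for the induced level structure -/
lemma ptd_isOpen_subgroupOf : (𝓛.sub U hU).IsOpen (V.subgroupOf U) := by
  obtain ⟨N, hN, hNV⟩ := hV
  exact ⟨N.subgroupOf U, ⟨N, hN, hNV.trans hVU, rfl⟩, fun x hx =>
    Subgroup.mem_subgroupOf.mpr (hNV (Subgroup.mem_subgroupOf.mp hx))⟩

include hV in
/-- `cor^G_V ∘ res^U_V = [U : V] • cor^G_U` on level classes -/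
theorem ptd_cor₂_resLE_sub_isB2 {y : U × U → A} (hy : ptd_IsLZ2 (𝓛.sub U hU) (ptd_resRep ρ U) y) :
    ptd_IsB2 𝓛 ρ (ptd_cor₂ V ρ (ptd_resLE hVU y) - V.relIndex U • ptd_cor₂ U ρ y) := by
  have hzV : ptd_IsLZ2 (𝓛.sub V hV) (ptd_resRep ρ V) (ptd_resLE hVU y) := by
    refine ⟨fun g h j => hy.1 (Subgroup.inclusion hVU g) (Subgroup.inclusion hVU h)
      (Subgroup.inclusion hVU j), ?_⟩
    obtain ⟨_, ⟨N, hN, hNU, rfl⟩, h⟩ := hy.2
    obtain ⟨N', hN', hN'V⟩ := hV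
    obtain ⟨N'', hN'', hle⟩ := 𝓛.directed N hN N' hN'
    refine ⟨_, ⟨N'', hN'', (hle.trans inf_le_right).trans hN'V, rfl⟩, fun g g' n hn n' hn' => ?_⟩
    exact h (Subgroup.inclusion hVU g) (Subgroup.inclusion hVU g') (Subgroup.inclusion hVU n)
      (Subgroup.mem_subgroupOf.mpr (hle (Subgroup.mem_subgroupOf.mp hn)).1)
      (Subgroup.inclusion hVU n')
      (Subgroup.mem_subgroupOf.mpr (hle (Subgroup.mem_subgroupOf.mp hn')).1)
  have h1 := ptd_cor₂_cor₂_sub_isB2 hVU hV ρ hzV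
  rw [ptd_trLift_resLE] at h1
  have hV' := ptd_isOpen_subgroupOf hVU hU hV
  have h2 : ptd_IsB2 (𝓛.sub U hU) (ptd_resRep ρ U)
      ((V.subgroupOf U).index • y
        - ptd_cor₂ (V.subgroupOf U) (ptd_resRep ρ U) (ptd_res₂ (V.subgroupOf U) y)) :=
    ptd_cor₂_res_sub_isB2 (V.subgroupOf U) hV' (ptd_resRep ρ U) hy
  have h3 := ptd_isB2_cor₂ U hU ρ h2
  have h4 : ptd_cor₂ U ρ ((V.subgroupOf U).index • y
        - ptd_cor₂ (V.subgroupOf U) (ptd_resRep ρ U) (ptd_res₂ (V.subgroupOf U) y))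
      = V.relIndex U • ptd_cor₂ U ρ y
        - ptd_cor₂ U ρ (ptd_cor₂ (V.subgroupOf U) (ptd_resRep ρ U)
            (ptd_res₂ (V.subgroupOf U) y)) := by
    rw [ptd_cor₂_sub, ptd_cor₂_nsmul]
    rfl
  rw [h4] at h3
  have := h1.sub h3
  convert this using 1
  abel

end TransLev

end Fermat.Agent.Lib.PT
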