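/-
S55 (Poitou–Tate long haul), A-track, cochain package, part I: the cochain MACKEY formula (MK).

`r : H →* G`, `U ≤ G` of finite index, `ev : A →+ B` equivariant along `r`; `g i` (`i : ι`) a system
of representatives of the double cosets `r(H) \ G / U`, `V i = r⁻¹ (g i U (g i)⁻¹)`,
`rV i : V i →* U`, `h ↦ (g i)⁻¹ r(h) g i`, `ev_i = ev ∘ ρ (g i)`.  For a `2`-cocycle `W` of `U`:

`ev ∘ cor^G_U W ∘ (r × r) = ∑ i, (cor^H_{V i} (ev_i ∘ W ∘ (rV i × rV i)) - d ψ_i)`

with explicit level `1`-cochains `ψ_i`.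
-/
import Fermat.Agent.Lib.PT.AdtCorH
import Fermat.Agent.Lib.PT.AdtBaseDefs

set_option autoImplicit false
set_option linter.unusedSectionVars false

namespace Fermat.Agent.Lib.PT

section B2sum

variable {G : Type*} [Group G] {𝓛 : ptd_Levels G}
variable {k : Type*} [CommRing k] {A : Type*} [AddCommGroup A] [Module k A]
variable {ρ : Representation k G A}

lemma ptd_IsB2.sum {ι : Type*} (s : Finset ι) {z : ι → G × G → A}
    (h : ∀ i ∈ s, ptd_IsB2 𝓛 ρ (z i)) : ptd_IsB2 𝓛 ρ (∑ i ∈ s, z i) := by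
  classical
  induction s using Finset.induction_on with
  | empty => simpa using ptd_isB2_zero
  | insert a s ha ih =>
    rw [Finset.sum_insert ha]
    exact (h a (Finset.mem_insert_self a s)).add
      (ih fun i hi => h i (Finset.mem_insert_of_mem hi))

end B2sum

section Mackey

variable {G H : Type*} [Group G] [Group H] (r : H →* G) (U : Subgroup G) [U.FiniteIndex]
variable {k : Type*} [CommRing k] {A : Type*} [AddCommGroup A] [Module k A]
variable (ρ : Representation k G A)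
variable {k' : Type*} [CommRing k'] {B : Type*} [AddCommGroup B] [Module k' B]
variable (σ : Representation k' H B)
variable (ev : A →+ B)
variable {ι : Type*} (g : ι → G) (V : ι → Subgroup H) [∀ i, (V i).FiniteIndex]
variable (rV : ∀ i, V i →* U)

attribute [local instance] Subgroup.fintypeQuotientOfFiniteIndex

/-- the evaluation at the `i`-th double coset: `ev ∘ ρ (g i)` -/
def ptd_mkEv (i : ι) : A →+ B := ev.comp (ρ (g i)).toAddMonoidHom

@[simp] lemma ptd_mkEv_apply (i : ι) (a : A) : ptd_mkEv ρ ev g i a = ev (ρ (g i) a) := rfl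

/-- the homogeneous cocycle `ev_i ∘ hom₂ W` on `U³` -/
def ptd_mkPsi (W : U × U → A) (i : ι) : U × U × U → B :=
  fun x => ptd_mkEv ρ ev g i (ptd_hom₂ (ptd_resRep ρ U) W x)

/-- first comparison map `H → U`: `y ↦ retr_U ((g i)⁻¹ r y)` -/
noncomputable def ptd_mkK₁ (i : ι) : H → U := fun y => ptd_retr U ((g i)⁻¹ * r y)

/-- second comparison map `H → U`: `y ↦ rV i (retr_{V i} y)` -/
noncomputable def ptd_mkK₂ (i : ι) : H → U := fun y => rV i (ptd_retr (V i) y)

variable {r U ρ σ ev g V rV}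
variable (hev : ∀ h a, ev (ρ (r h) a) = σ h (ev a))
variable (hrV : ∀ i (h : V i), (rV i h : G) = (g i)⁻¹ * r h * g i)

include hev hrV in
lemma ptd_mkEv_equiv (i : ι) (v : V i) (a : A) :
    ptd_mkEv ρ ev g i (ρ (rV i v : G) a) = σ (v : H) (ptd_mkEv ρ ev g i a) := by
  simp only [ptd_mkEv_apply]
  rw [← hev, hrV, ← Module.End.mul_apply, ← Module.End.mul_apply, ← map_mul, ← map_mul]
  congr 2
  group

include hev hrV in
lemma ptd_mkPsi_equiv (W : U × U → A) (i : ι) (v : V i) (a b c : U) :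
    ptd_mkPsi U ρ ev g W i (rV i v * a, rV i v * b, rV i v * c)
      = σ (v : H) (ptd_mkPsi U ρ ev g W i (a, b, c)) := by
  have h1 := ptd_hom₂_smul (ptd_resRep ρ U) W (rV i v) (a, b, c)
  simp only [Prod.smul_mk, smul_eq_mul] at h1
  simp only [ptd_mkPsi]
  rw [h1, ptd_resRep_apply, ptd_mkEv_equiv hev hrV]

lemma ptd_mkPsi_D₃ {W : U × U → A} (hW : ptd_IsZ2 (ptd_resRep ρ U) W) (i : ι) (a b c d : U) :
    ptd_D₃ (ptd_mkPsi U ρ ev g W i) (a, b, c, d) = 0 := by
  have := ptd_D₃_hom₂ hW a b c d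
  simp only [ptd_D₃, ptd_mkPsi] at this ⊢
  rw [← map_sub, ← map_add, ← map_sub, this, map_zero]

include hrV in
lemma ptd_mkK₁_mul_left (i : ι) (v : V i) (y : H) :
    ptd_mkK₁ r U g i ((v : H) * y) = rV i v * ptd_mkK₁ r U g i y := by
  simp only [ptd_mkK₁]
  rw [← ptd_retr_mul_left, hrV, map_mul]
  congr 1
  group

lemma ptd_mkK₂_mul_left (i : ι) (v : V i) (y : H) :
    ptd_mkK₂ U V rV i ((v : H) * y) = rV i v * ptd_mkK₂ U V rV i y := by
  simp only [ptd_mkK₂]
  rw [ptd_retr_mul_left, map_mul]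

include hev hrV in
/-- the homogeneous form of `cor^H_{V i} (loc_i W)` -/
lemma ptd_E₂_mkLoc (W : U × U → A) (i : ι) :
    ptd_E₂ (V i) σ (ptd_loc₂ (rV i) (ptd_mkEv ρ ev g i) W)
      = ptd_comp₃ (ptd_mkPsi U ρ ev g W i) (ptd_mkK₂ U V rV i) := by
  funext ⟨a, b, c⟩
  simp only [ptd_E₂, ptd_ext₂, ptd_loc₂_apply, ptd_comp₃, ptd_mkPsi, ptd_hom₂, ptd_mkK₂,
    ptd_resRep_apply, map_mul, map_inv]
  rw [ptd_mkEv_equiv hev hrV]

/-- the `1`-cochain of the Mackey formula at the `i`-th double coset -/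
noncomputable def ptd_mkCochain (r : H →* G) (ρ : Representation k G A)
    (σ : Representation k' H B) (ev : A →+ B) (g : ι → G) (rV : ∀ i, V i →* U) (W : U × U → A)
    (i : ι) : H → B := fun h =>
  ptd_N (V i) σ (ptd_prismK (ptd_mkPsi U ρ ev g W i) (ptd_mkK₁ r U g i)
    (ptd_mkK₂ U V rV i)) ((1, h) : H × H)

include hev hrV in
/-- the prism step at the `i`-th double coset -/
lemma ptd_mk_prism {W : U × U → A} (hW : ptd_IsZ2 (ptd_resRep ρ U) W) (i : ι) :
    ptd_inh₂ (ptd_N (V i) σ (ptd_comp₃ (ptd_mkPsi U ρ ev g W i) (ptd_mkK₁ r U g i)))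
      = ptd_cor₂ (V i) σ (ptd_loc₂ (rV i) (ptd_mkEv ρ ev g i) W)
        - ptd_d1 σ (ptd_mkCochain r ρ σ ev g rV W i) := by
  rw [ptd_cor₂_eq_inh₂, ptd_E₂_mkLoc hev hrV]
  exact ptd_inh₂_N_prismK (fun a b c d => ptd_mkPsi_D₃ hW i a b c d)
    (fun v y => rV i v * y) (fun v a b c => ptd_mkPsi_equiv hev hrV W i v a b c)
    (fun v y => ptd_mkK₁_mul_left hrV i v y) (fun v y => ptd_mkK₂_mul_left i v y)

end Mackey

section Decomp

variable {G H : Type*} [Group G] [Group H] {r : H →* G} {U : Subgroup G} [U.FiniteIndex]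
variable {k : Type*} [CommRing k] {A : Type*} [AddCommGroup A] [Module k A]
variable {ρ : Representation k G A}
variable {k' : Type*} [CommRing k'] {B : Type*} [AddCommGroup B] [Module k' B]
variable {σ : Representation k' H B}
variable {ev : A →+ B}
variable {ι : Type*} {g : ι → G} {V : ι → Subgroup H} [∀ i, (V i).FiniteIndex]
variable (hV : ∀ i h, h ∈ V i ↔ (g i)⁻¹ * r h * g i ∈ U)
variable (hsurj : ∀ t : G, ∃ i, ∃ h : H, ∃ u ∈ U, t = r h * g i * u)
variable (hinj : ∀ i j (h : H) (u : G), u ∈ U → g j = r h * g i * u → i = j)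

attribute [local instance] Subgroup.fintypeQuotientOfFiniteIndex

/-- the map `(i, s V_i) ↦ r(s) g_i U` from `⨆ i, H / V_i` to `G / U` -/
noncomputable def ptd_mkMap (r : H →* G) (U : Subgroup G) (g : ι → G) (V : ι → Subgroup H)
    (j : Σ i, H ⧸ V i) : G ⧸ U := QuotientGroup.mk (r j.2.out * g j.1)

include hV hinj in
lemma ptd_mkMap_injective : Function.Injective (ptd_mkMap r U g V) := by
  rintro ⟨i, s⟩ ⟨i', s'⟩ h
  simp only [ptd_mkMap] at h
  have hu : (r s.out * g i)⁻¹ * (r s'.out * g i') ∈ U := QuotientGroup.eq.mp h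
  have hii' : i = i' := by
    refine hinj i i' (s'.out⁻¹ * s.out) _ hu ?_
    rw [map_mul, map_inv]; group
  subst hii'
  have hmem : s.out⁻¹ * s'.out ∈ V i := by
    rw [hV, map_mul, map_inv]
    convert hu using 1
    group
  have : s = s' := by
    rw [← Quotient.out_eq' s, ← Quotient.out_eq' s']
    exact QuotientGroup.eq.mpr hmem
  rw [this]

include hV hsurj in
lemma ptd_mkMap_surjective : Function.Surjective (ptd_mkMap r U g V) := by
  intro q
  obtain ⟨t, rfl⟩ := QuotientGroup.mk_surjective q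
  obtain ⟨i, h, u, hu, rfl⟩ := hsurj t
  refine ⟨⟨i, QuotientGroup.mk h⟩, ?_⟩
  simp only [ptd_mkMap]
  rw [QuotientGroup.eq]
  obtain ⟨v, hv⟩ := QuotientGroup.mk_out_eq_mul (V i) h
  rw [hv, map_mul]
  have h1 : (g i)⁻¹ * r ((v : H)⁻¹) * g i ∈ U := (hV i _).mp ((V i).inv_mem v.2)
  have h2 : (r h * r (v : H) * g i)⁻¹ * (r h * g i * u) = (g i)⁻¹ * r ((v : H)⁻¹) * g i * u := by
    rw [map_inv]; group
  rw [h2]
  exact U.mul_mem h1 hu

/-- the bijection `⨆ i, H / V_i ≃ G / U` -/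
noncomputable def ptd_mkEquiv : (Σ i, H ⧸ V i) ≃ G ⧸ U :=
  Equiv.ofBijective (ptd_mkMap r U g V)
    ⟨ptd_mkMap_injective hV hinj, ptd_mkMap_surjective hV hsurj⟩

variable [Fintype ι]
variable (hev : ∀ h a, ev (ρ (r h) a) = σ h (ev a))

include hV hsurj hinj hev in
/-- **double coset decomposition of the norm**: for a `U`-equivariant `F` on a `G`-set `X` and an
`r`-equivariant map `f : X' → X` from an `H`-set,
`ev (N_{G/U} F (f x)) = ∑ i, N_{H/V i} (ev_i ∘ F ∘ (g i)⁻¹ ∘ f) x`. -/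
theorem ptd_N_doubleCoset {X X' : Type*} [MulAction G X] [MulAction H X'] (f : X' → X)
    (hf : ∀ (h : H) (x : X'), f (h • x) = r h • f x) {F : X → A} (hF : ptd_IsEquivOn U ρ F)
    (x : X') :
    ev (ptd_N U ρ F (f x))
      = ∑ i, ptd_N (V i) σ (fun y => ptd_mkEv ρ ev g i (F ((g i)⁻¹ • f y))) x := by
  rw [ptd_N_eq_sum (ptd_mkEquiv hV hsurj hinj) (fun j => r j.2.out * g j.1) (fun _ => rfl) hF,
    map_sum, Fintype.sum_sigma]
  refine Finset.sum_congr rfl fun i _ => ?_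
  rw [ptd_N]
  refine Finset.sum_congr rfl fun s _ => ?_
  simp only [ptd_mkEv_apply]
  rw [map_mul, Module.End.mul_apply, hev, hf, map_inv, mul_inv_rev, mul_smul]

end Decomp

section MackeyMain

variable {G H : Type*} [Group G] [Group H] {r : H →* G} {U : Subgroup G} [U.FiniteIndex]
variable {k : Type*} [CommRing k] {A : Type*} [AddCommGroup A] [Module k A]
variable {ρ : Representation k G A}
variable {k' : Type*} [CommRing k'] {B : Type*} [AddCommGroup B] [Module k' B]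
variable {σ : Representation k' H B}
variable {ev : A →+ B}
variable {ι : Type*} [Fintype ι] {g : ι → G} {V : ι → Subgroup H} [∀ i, (V i).FiniteIndex]
variable {rV : ∀ i, V i →* U}
variable (hev : ∀ h a, ev (ρ (r h) a) = σ h (ev a))
variable (hrV : ∀ i (h : V i), (rV i h : G) = (g i)⁻¹ * r h * g i)
variable (hV : ∀ i h, h ∈ V i ↔ (g i)⁻¹ * r h * g i ∈ U)
variable (hsurj : ∀ t : G, ∃ i, ∃ h : H, ∃ u ∈ U, t = r h * g i * u)
variable (hinj : ∀ i j (h : H) (u : G), u ∈ U → g j = r h * g i * u → i = j)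

attribute [local instance] Subgroup.fintypeQuotientOfFiniteIndex

include hev hrV hV hsurj hinj in
/-- **the cochain MACKEY formula**: for a `2`-cocycle `W` of `U`,
`ev ∘ cor^G_U W ∘ (r × r) = ∑ i, (cor^H_{V i} (ev_i ∘ W ∘ (rV i × rV i)) - d ψ_i)`. -/
theorem ptd_mackey {W : U × U → A} (hW : ptd_IsZ2 (ptd_resRep ρ U) W) :
    ptd_loc₂ r ev (ptd_cor₂ U ρ W)
      = ∑ i, (ptd_cor₂ (V i) σ (ptd_loc₂ (rV i) (ptd_mkEv ρ ev g i) W)
          - ptd_d1 σ (ptd_mkCochain r ρ σ ev g rV W i)) := by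
  funext ⟨a, b⟩
  rw [ptd_loc₂_apply, ptd_cor₂_eq, Finset.sum_apply]
  have hf : ∀ (h : H) (x : H × H × H),
      (fun y : H × H × H => ((r y.1, r y.2.1, r y.2.2) : G × G × G)) (h • x)
        = r h • (fun y : H × H × H => ((r y.1, r y.2.1, r y.2.2) : G × G × G)) x := by
    rintro h ⟨x, y, z⟩
    simp only [Prod.smul_mk, smul_eq_mul, map_mul]
  have key := ptd_N_doubleCoset (σ := σ) hV hsurj hinj hev
    (fun y : H × H × H => ((r y.1, r y.2.1, r y.2.2) : G × G × G)) hf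
    (ptd_isEquivOn_E₂ U ρ W) ((1, a, a * b) : H × H × H)
  simp only [map_one, map_mul] at key
  rw [key]
  refine Finset.sum_congr rfl fun i _ => ?_
  rw [← ptd_mk_prism hev hrV hW i]
  rfl

end MackeyMain

section MackeyLev

variable {G H : Type*} [Group G] [Group H] {𝓛 : ptd_Levels G} {𝓛H : ptd_Levels H}
variable {r : H →* G} {U : Subgroup G} [U.FiniteIndex]
variable {k : Type*} [CommRing k] {A : Type*} [AddCommGroup A] [Module k A]
variable {ρ : Representation k G A}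
variable {k' : Type*} [CommRing k'] {B : Type*} [AddCommGroup B] [Module k' B]
variable {σ : Representation k' H B}
variable {ev : A →+ B}
variable {ι : Type*} {g : ι → G} {V : ι → Subgroup H} [∀ i, (V i).FiniteIndex]
variable {rV : ∀ i, V i →* U}
variable (hr : ptd_IsLevCont 𝓛H 𝓛 r) (hU : 𝓛.IsOpen U)
variable (hrV : ∀ i (h : V i), (rV i h : G) = (g i)⁻¹ * r h * g i)
variable (hV : ∀ i h, h ∈ V i ↔ (g i)⁻¹ * r h * g i ∈ U)

attribute [local instance] Subgroup.fintypeQuotientOfFiniteIndex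

include hr hrV hV in
/-- the Mackey `1`-cochains are level-constant -/
theorem ptd_isLev₁_mkCochain {W : U × U → A} (hW : ptd_IsLev₂ (𝓛.sub U hU) W) (i : ι) :
    ptd_IsLev₁ 𝓛H (ptd_mkCochain r ρ σ ev g rV W i) := by
  obtain ⟨N, hN, hNU, hWN⟩ := hW.exists_rInv U hU
  have hNn := 𝓛.normal N hN
  obtain ⟨NH, hNH, hle⟩ := hr N hN
  have hNHn := 𝓛H.normal NH hNH
  have hconj : ∀ n ∈ NH, (g i)⁻¹ * r n * g i ∈ N := fun n hn => by
    have := hNn.conj_mem _ (hle n hn) (g i)⁻¹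
    rwa [inv_inv] at this
  have hNHV : NH ≤ V i := fun n hn => (hV i n).mpr (hNU (hconj n hn))
  refine ⟨NH, hNH, fun h n hn => ?_⟩
  refine ptd_N_prismK_mul_right (V := V i) (σ := σ) (N.subgroupOf U) ?_ _ _ h n
    (fun b => ?_) (fun b => ?_)
  · intro a b c n hn n' hn'
    simp only [ptd_mkPsi]
    rw [ptd_hom₂_mul_right (σ := ptd_resRep ρ U) (N.subgroupOf U)
      (fun g h n hn n' hn' => hWN g h n n' (Subgroup.mem_subgroupOf.mp hn)
        (Subgroup.mem_subgroupOf.mp hn')) a b c n n' hn hn']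
  · obtain ⟨m, hm, e⟩ := ptd_retr_mul_right U N hNU ((g i)⁻¹ * r b) (r n) (hle n hn)
    refine ⟨m, Subgroup.mem_subgroupOf.mpr hm, ?_⟩
    simp only [ptd_mkK₁, map_mul]
    rw [← mul_assoc]
    exact e
  · obtain ⟨m, hm, e⟩ := ptd_retr_mul_right (V i) NH hNHV b n hn
    refine ⟨rV i m, ?_, ?_⟩
    · rw [Subgroup.mem_subgroupOf, hrV]
      exact hconj _ hm
    · simp only [ptd_mkK₂]
      rw [e, map_mul]

variable [Fintype ι]
variable (hev : ∀ h a, ev (ρ (r h) a) = σ h (ev a))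
variable (hsurj : ∀ t : G, ∃ i, ∃ h : H, ∃ u ∈ U, t = r h * g i * u)
variable (hinj : ∀ i j (h : H) (u : G), u ∈ U → g j = r h * g i * u → i = j)

include hr hrV hV hev hsurj hinj in
/-- **the cochain MACKEY formula on level classes**: `∑ i, cor^H_{V i} (loc_i W)` and
`loc (cor^G_U W)` differ by a level coboundary of `H`. -/
theorem ptd_mackey_sub_isB2 {W : U × U → A}
    (hW : ptd_IsLZ2 (𝓛.sub U hU) (ptd_resRep ρ U) W) :
    ptd_IsB2 𝓛H σ ((∑ i, ptd_cor₂ (V i) σ (ptd_loc₂ (rV i) (ptd_mkEv ρ ev g i) W))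
      - ptd_loc₂ r ev (ptd_cor₂ U ρ W)) := by
  rw [ptd_mackey hev hrV hV hsurj hinj hW.1, Finset.sum_sub_distrib, sub_sub_cancel]
  exact ptd_IsB2.sum _ fun i _ =>
    ⟨ptd_mkCochain r ρ σ ev g rV W i, ptd_isLev₁_mkCochain hr hU hrV hV hW.2 i, rfl⟩

end MackeyLev

end Fermat.Agent.Lib.PT
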