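/-
S55 (Poitou–Tate long-haul), (SL): MACKEY for coinduced presentations.  A coinduced presentation of
the `G`-module `J` with respect to local groups `r i : H i →* G` restricts to a coinduced
presentation of the `U`-module `J` (`U ≤ G` open) with respect to the local family over `U` of
`SemiLocFamily`: places `v = (i, d)`, `d ∈ r i (H i) \ G / U`, local groups `V_d ≤ H i`,
`r_d : V_d →* U`, evaluations `e i ∘ ρJ g_d`.
-/
import Mathlib
import Fermat.Agent.Lib.PT.SemiLocFamily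
import Fermat.Agent.Lib.PT.AdtFull

set_option autoImplicit false
set_option linter.unusedSectionVars false

namespace Fermat.Agent.Lib.PT

section Mackey

variable {G : Type*} [Group G] {𝓛 : ptd_Levels G}
variable {J : Type*} [AddCommGroup J] {ρJ : Representation ℤ G J}
variable {I : Type*} {Hh : I → Type*} [∀ i, Group (Hh i)] {𝓛i : ∀ i, ptd_Levels (Hh i)}
variable {Ai : I → Type*} [∀ i, AddCommGroup (Ai i)]
variable {ρi : ∀ i, Representation ℤ (Hh i) (Ai i)}
variable {r : ∀ i, Hh i →* G} {e : ∀ i, J →+ Ai i}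

/-- the places over `U`: pairs (local group, double coset) -/
abbrev pts_Places (r : ∀ i, Hh i →* G) (U : Subgroup G) : Type _ := Σ i, pts_DC (r i) U

/-- the local subgroups `V_d` are open -/
lemma pts_dcSub_isOpen {i : I} (hcont : ptd_IsLevCont (𝓛i i) 𝓛 (r i)) {U : Subgroup G}
    (hU : 𝓛.IsOpen U) (d : pts_DC (r i) U) : (𝓛i i).IsOpen (pts_dcSub (r i) U d) := by
  obtain ⟨N, hN, hNU⟩ := hU
  obtain ⟨N', hN', h⟩ := hcont N hN
  have := 𝓛.normal N hN
  refine ⟨N', hN', fun n hn => ?_⟩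
  rw [pts_mem_dcSub_iff]
  apply hNU
  have := Subgroup.Normal.conj_mem ‹N.Normal› _ (h n hn) (pts_dcRep (r i) U d)⁻¹
  simpa using this

/-- the evaluation at the place `(i, d)`: `x ↦ e i (g_d • x)` -/
noncomputable def pts_dcEv (ρJ : Representation ℤ G J) (e : ∀ i, J →+ Ai i) (U : Subgroup G)
    (v : pts_Places r U) : J →+ Ai v.1 :=
  (e v.1).comp (ρJ (pts_dcRep (r v.1) U v.2)).toAddMonoidHom

@[simp] lemma pts_dcEv_apply (U : Subgroup G) (v : pts_Places r U) (x : J) :
    pts_dcEv ρJ e U v x = e v.1 (ρJ (pts_dcRep (r v.1) U v.2) x) := rfl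

/-- **MACKEY**: restriction of a coinduced presentation to an open subgroup. -/
theorem pts_CoindPres.restrict (P : pts_CoindPres 𝓛 ρJ 𝓛i ρi r e) (U : Subgroup G)
    (hU : 𝓛.IsOpen U) :
    pts_CoindPres (𝓛.sub U hU) (ptd_resRep ρJ U)
      (fun v : pts_Places r U => (𝓛i v.1).sub (pts_dcSub (r v.1) U v.2)
        (pts_dcSub_isOpen (P.r_cont v.1) hU v.2))
      (fun v : pts_Places r U => ptd_resRep (ρi v.1) (pts_dcSub (r v.1) U v.2))
      (fun v : pts_Places r U => pts_dcHom (r v.1) U v.2)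
      (pts_dcEv ρJ e U) where
  disc := ptd_IsDiscrete.resRep U hU P.disc
  r_inj := fun v => pts_dcHom_injective (r v.1) U (P.r_inj v.1) v.2
  r_cont := by
    rintro ⟨i, d⟩ _ ⟨N, hN, hNU, rfl⟩
    obtain ⟨N', hN', h⟩ := P.r_cont i N hN
    have hNn := 𝓛.normal N hN
    have hle : N' ≤ pts_dcSub (r i) U d := fun n hn => by
      rw [pts_mem_dcSub_iff]
      apply hNU
      have := Subgroup.Normal.conj_mem hNn _ (h n hn) (pts_dcRep (r i) U d)⁻¹
      simpa using this
    refine ⟨_, ⟨N', hN', hle, rfl⟩, fun n hn => ?_⟩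
    rw [Subgroup.mem_subgroupOf, pts_dcHom_coe]
    have := Subgroup.Normal.conj_mem hNn _ (h n (Subgroup.mem_subgroupOf.mp hn))
      (pts_dcRep (r i) U d)⁻¹
    simpa using this
  ev_equiv := by
    rintro ⟨i, d⟩ t x
    rw [pts_dcEv_apply, pts_dcEv_apply, ptd_resRep_apply, ptd_resRep_apply,
      ← Module.End.mul_apply, ← map_mul, pts_dcRep_mul_dcHom, map_mul, Module.End.mul_apply,
      P.ev_equiv]
  inj := by
    intro x hx
    refine P.inj x fun i g => ?_
    obtain ⟨τ, u, hu, hg⟩ := pts_exists_eq_dcRep (r i) U g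
    have h1 := hx ⟨i, pts_dcMk (r i) U g⟩ ⟨u, hu⟩
    rw [pts_dcEv_apply, ptd_resRep_apply] at h1
    rw [hg, map_mul, map_mul, Module.End.mul_apply, Module.End.mul_apply, P.ev_equiv, h1,
      map_zero]
  surj := by
    intro f hsm heq
    obtain ⟨_, ⟨N, hN, hNU, rfl⟩, hfN⟩ := hsm
    -- the decomposition `g = r τ * g_d * u`
    have hdec : ∀ (i : I) (g : G), ∃ τ : Hh i, ∃ u : ↥U,
        g = r i τ * pts_dcRep (r i) U (pts_dcMk (r i) U g) * u := fun i g => by
      obtain ⟨τ, u, hu, hg⟩ := pts_exists_eq_dcRep (r i) U g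
      exact ⟨τ, ⟨u, hu⟩, hg⟩
    choose τg ug hg using hdec
    -- well-definedness
    have hWD : ∀ (i : I) (d : pts_DC (r i) U) (τ τ' : Hh i) (u u' : ↥U),
        r i τ * pts_dcRep (r i) U d * u = r i τ' * pts_dcRep (r i) U d * u' →
        ρi i τ (f ⟨i, d⟩ u) = ρi i τ' (f ⟨i, d⟩ u') := by
      intro i d τ τ' u u' h
      have hν : (pts_dcRep (r i) U d)⁻¹ * r i (τ'⁻¹ * τ) * pts_dcRep (r i) U d
          = (u' : G) * (u : G)⁻¹ := by
        have h2 : r i τ = r i τ' * pts_dcRep (r i) U d * u' * (u : G)⁻¹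
            * (pts_dcRep (r i) U d)⁻¹ := by
          rw [← h]; group
        rw [map_mul, map_inv, h2]; group
      have hνmem : τ'⁻¹ * τ ∈ pts_dcSub (r i) U d := by
        rw [pts_mem_dcSub_iff, hν]
        exact U.mul_mem u'.2 (U.inv_mem u.2)
      have hu' : u' = pts_dcHom (r i) U d ⟨τ'⁻¹ * τ, hνmem⟩ * u := by
        apply Subtype.ext
        rw [Subgroup.coe_mul, pts_dcHom_coe, hν]; group
      rw [hu', heq ⟨i, d⟩ ⟨τ'⁻¹ * τ, hνmem⟩ u, ptd_resRep_apply, ← Module.End.mul_apply,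
        ← map_mul]
      congr 2
      show τ = τ' * (τ'⁻¹ * τ)
      group
    -- the coordinate functions on `G`
    let F : ∀ i, G → Ai i := fun i g => ρi i (τg i g) (f ⟨i, pts_dcMk (r i) U g⟩ (ug i g))
    have hFchar : ∀ (i : I) (d : pts_DC (r i) U) (g : G) (τ : Hh i) (u : ↥U),
        pts_dcMk (r i) U g = d → g = r i τ * pts_dcRep (r i) U d * u →
        F i g = ρi i τ (f ⟨i, d⟩ u) := by
      intro i d g τ u hd hgd
      subst hd
      refine hWD i _ _ _ _ _ ?_
      rw [← hg i g, ← hgd]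
    have hFsm : ∀ (i : I) (g : G), ∀ n ∈ N, F i (g * n) = F i g := by
      intro i g n hn
      have hnU : n ∈ U := hNU hn
      rw [hFchar i (pts_dcMk (r i) U g) (g * n) (τg i g) (ug i g * ⟨n, hnU⟩)
        (pts_dcMk_eq (r i) U 1 hnU (by rw [map_one, one_mul])) ?_]
      · show _ = ρi i (τg i g) (f ⟨i, pts_dcMk (r i) U g⟩ (ug i g))
        rw [hfN ⟨i, pts_dcMk (r i) U g⟩ (ug i g) ⟨n, hnU⟩ (Subgroup.mem_subgroupOf.mpr hn)]
      · conv_lhs => rw [hg i g]
        rw [Subgroup.coe_mul]; group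
    have hFeq : ∀ (i : I) (t : Hh i) (g : G), F i (r i t * g) = ρi i t (F i g) := by
      intro i t g
      rw [hFchar i (pts_dcMk (r i) U g) (r i t * g) (t * τg i g) (ug i g)
        (pts_dcMk_eq (r i) U t U.one_mem (by rw [mul_one])) ?_]
      · show _ = ρi i t (ρi i (τg i g) (f ⟨i, pts_dcMk (r i) U g⟩ (ug i g)))
        rw [map_mul, Module.End.mul_apply]
      · conv_lhs => rw [hg i g]
        rw [map_mul]; group
    obtain ⟨x, hx⟩ := P.surj F ⟨N, hN, hFsm⟩ hFeq
    refine ⟨x, fun v u => ?_⟩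
    obtain ⟨i, d⟩ := v
    rw [pts_dcEv_apply, ptd_resRep_apply, ← Module.End.mul_apply, ← map_mul, hx,
      hFchar i d _ 1 u ?_ (by rw [map_one, one_mul]), map_one, Module.End.one_apply]
    rw [pts_dcMk_eq (r i) U 1 u.2 (by rw [map_one, one_mul]), pts_dcMk_dcRep]

end Mackey

end Fermat.Agent.Lib.PT
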