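/-
S55 (Poitou–Tate long haul), A-track, cochain package, part J: the cochain MACKEY formula (MK)
instantiated at the local family over an open subgroup of `SemiLocFamily` / `SemiLocMackey`
(double cosets `pts_DC`, representatives `pts_dcRep`, subgroups `pts_dcSub`, homomorphisms
`pts_dcHom`, evaluations `pts_dcEv`).
-/
import Fermat.Agent.Lib.PT.AdtCorI
import Fermat.Agent.Lib.PT.SemiLocMackey

set_option autoImplicit false
set_option linter.unusedSectionVars false

namespace Fermat.Agent.Lib.PT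

section MackeyDC

variable {G H : Type*} [Group G] [Group H] {𝓛 : ptd_Levels G} {𝓛H : ptd_Levels H}
variable (r : H →* G) (U : Subgroup G) [U.FiniteIndex]
variable {k : Type*} [CommRing k] {A : Type*} [AddCommGroup A] [Module k A]
variable (ρ : Representation k G A)
variable {k' : Type*} [CommRing k'] {B : Type*} [AddCommGroup B] [Module k' B]
variable (σ : Representation k' H B)
variable (ev : A →+ B)
variable [Fintype (pts_DC r U)] [∀ d, (pts_dcSub r U d).FiniteIndex]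

/-- **(MK) at the double-coset family of one local group**: for a level `2`-cocycle `W` of `U`,
`∑ d, cor^H_{V_d} (ev_d ∘ W ∘ (r_d × r_d))` and `ev ∘ cor^G_U W ∘ (r × r)` differ by a level
coboundary of `H`. -/
theorem ptd_mackey_dc (hr : ptd_IsLevCont 𝓛H 𝓛 r) (hU : 𝓛.IsOpen U)
    (hev : ∀ h a, ev (ρ (r h) a) = σ h (ev a)) {W : U × U → A}
    (hW : ptd_IsLZ2 (𝓛.sub U hU) (ptd_resRep ρ U) W) :
    ptd_IsB2 𝓛H σ ((∑ d : pts_DC r U, ptd_cor₂ (pts_dcSub r U d) σ
        (ptd_loc₂ (pts_dcHom r U d) (ptd_mkEv ρ ev (pts_dcRep r U) d) W))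
      - ptd_loc₂ r ev (ptd_cor₂ U ρ W)) := by
  refine ptd_mackey_sub_isB2 (g := pts_dcRep r U) (V := pts_dcSub r U) (rV := pts_dcHom r U)
    hr hU (fun _ _ => rfl) (fun _ _ => Iff.rfl) hev ?_ ?_ hW
  · intro t
    obtain ⟨τ, u, hu, h⟩ := pts_exists_eq_dcRep r U t
    exact ⟨_, τ, u, hu, h⟩
  · intro i j h u hu e
    have := pts_dcMk_eq r U h hu e
    rw [pts_dcMk_dcRep, pts_dcMk_dcRep] at this
    exact this.symm

end MackeyDC

section MackeyFamily

variable {G : Type*} [Group G] {𝓛 : ptd_Levels G}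
variable {J : Type*} [AddCommGroup J] (ρJ : Representation ℤ G J)
variable {I : Type*} {Hh : I → Type*} [∀ i, Group (Hh i)] {𝓛i : ∀ i, ptd_Levels (Hh i)}
variable {Ai : I → Type*} [∀ i, AddCommGroup (Ai i)]
variable (ρi : ∀ i, Representation ℤ (Hh i) (Ai i))
variable (r : ∀ i, Hh i →* G) (e : ∀ i, J →+ Ai i)
variable (U : Subgroup G) [U.FiniteIndex]

/-- **(MK) for a family of local groups**, in the notation of `SemiLocMackey`
(`pts_Places`, `pts_dcEv`): for each `i`, `∑ d, cor_{V_d} (loc_{(i,d)} W) ~ loc_i (cor_U W)`. -/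
theorem ptd_mackey_family (i : I) [Fintype (pts_DC (r i) U)]
    [∀ d, (pts_dcSub (r i) U d).FiniteIndex]
    (hr : ptd_IsLevCont (𝓛i i) 𝓛 (r i)) (hU : 𝓛.IsOpen U)
    (hev : ∀ h a, e i (ρJ (r i h) a) = ρi i h (e i a)) {W : U × U → J}
    (hW : ptd_IsLZ2 (𝓛.sub U hU) (ptd_resRep ρJ U) W) :
    ptd_IsB2 (𝓛i i) (ρi i) ((∑ d : pts_DC (r i) U, ptd_cor₂ (pts_dcSub (r i) U d) (ρi i)
        (ptd_loc₂ (pts_dcHom (r i) U d) (pts_dcEv ρJ e U (⟨i, d⟩ : pts_Places r U)) W))
      - ptd_loc₂ (r i) (e i) (ptd_cor₂ U ρJ W)) :=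
  ptd_mackey_dc (r i) U ρJ (ρi i) (e i) hr hU hev hW

end MackeyFamily

end Fermat.Agent.Lib.PT
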