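/-
S55 (Poitou–Tate long haul), A-track, F4-GLOBAL, part 5: the LOCAL–GLOBAL FORMULA OVER AN OPEN
SUBGROUP (lead's D5).

From the local–global formula `ptd_GLG` over `G` (for a family of local groups `r i : H i →* G`),
the compatibility of the global invariants with corestriction (`inv_G ∘ cor = inv_U`), the cochain
MACKEY formula (MK) and the compatibility of the local invariants with corestriction
(`inv_i ∘ cor = inv_(i,d)`), we get `ptd_GLG` over `U` for the local family over `U` of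
`SemiLocFamily` / `SemiLocMackey` (places `(i, d)`, `d ∈ r i (H i) \ G / U`).
-/
import Fermat.Agent.Lib.PT.AdtCorJ

set_option autoImplicit false
set_option linter.unusedSectionVars false

namespace Fermat.Agent.Lib.PT

section InvFun

variable {G : Type*} [Group G] {𝓛 : ptd_Levels G}
variable {A : Type*} [AddCommGroup A] {ρ : Representation ℤ G A}
variable {T : Type*} [AddCommGroup T]

/-- a function on `2`-cochains which is additive on ALL level cocycles and kills level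
coboundaries -/
structure ptd_IsInvFun (𝓛 : ptd_Levels G) (ρ : Representation ℤ G A) (f : (G × G → A) → T) :
    Prop where
  add : ∀ z z', ptd_IsLZ2 𝓛 ρ z → ptd_IsLZ2 𝓛 ρ z' → f (z + z') = f z + f z'
  b2 : ∀ z, ptd_IsB2 𝓛 ρ z → f z = 0

variable {f : (G × G → A) → T}

lemma ptd_IsInvFun.congr (hf : ptd_IsInvFun 𝓛 ρ f) (hd : ptd_IsDiscrete 𝓛 ρ) {z z' : G × G → A}
    (hz' : ptd_IsLZ2 𝓛 ρ z') (h : ptd_IsB2 𝓛 ρ (z - z')) : f z = f z' := by
  have : z = z' + (z - z') := by abel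
  rw [this, hf.add _ _ hz' (h.isLZ2 hd), hf.b2 _ h, add_zero]

lemma ptd_IsInvFun.sum (hf : ptd_IsInvFun 𝓛 ρ f) {ι : Type*} (s : Finset ι)
    {z : ι → G × G → A} (hz : ∀ i ∈ s, ptd_IsLZ2 𝓛 ρ (z i)) :
    f (∑ i ∈ s, z i) = ∑ i ∈ s, f (z i) ∧ ptd_IsLZ2 𝓛 ρ (∑ i ∈ s, z i) := by
  classical
  induction s using Finset.induction_on with
  | empty =>
    simp only [Finset.sum_empty]
    exact ⟨hf.b2 _ ptd_isB2_zero, ptd_isLZ2_zero⟩
  | insert a s ha ih =>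
    have ih' := ih fun i hi => hz i (Finset.mem_insert_of_mem hi)
    have hza := hz a (Finset.mem_insert_self a s)
    rw [Finset.sum_insert ha, Finset.sum_insert ha, hf.add _ _ hza ih'.2, ih'.1]
    exact ⟨rfl, hza.add ih'.2⟩

end InvFun

section D5

variable {G : Type*} [Group G] {𝓛 : ptd_Levels G} (p : ℕ) [Fact p.Prime]
variable {J : Type*} [AddCommGroup J] {ρJ : Representation ℤ G J}
variable {C : Type*} [AddCommGroup C] {ρC : Representation ℤ G C} {π : J →+ C}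
variable {T : Type*} [AddCommGroup T]
variable {I : Type*} [Fintype I] {Hh : I → Type*} [∀ i, Group (Hh i)]
variable {𝓛i : ∀ i, ptd_Levels (Hh i)}
variable {Ai : I → Type*} [∀ i, AddCommGroup (Ai i)] {ρi : ∀ i, Representation ℤ (Hh i) (Ai i)}
variable {r : ∀ i, Hh i →* G} {e : ∀ i, J →+ Ai i}
variable {U : Subgroup G} (hU : 𝓛.IsOpen U) [U.FiniteIndex]
variable [∀ i, Fintype (pts_DC (r i) U)] [∀ i d, (pts_dcSub (r i) U d).FiniteIndex]

/-- **(LG) over an open subgroup `U`** from (LG) over `G`, `inv_G ∘ cor = inv_U`, the cochain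
Mackey formula and `inv_i ∘ cor = inv_(i,d)`. -/
theorem ptd_GLG_of_open [inst : Fintype (pts_Places r U)]
    (hπ : ∀ g x, π (ρJ g x) = ρC g (π x))
    (hr : ∀ i, ptd_IsLevCont (𝓛i i) 𝓛 (r i))
    (he : ∀ i h a, e i (ρJ (r i h) a) = ρi i h (e i a))
    (hdi : ∀ i, ptd_IsDiscrete (𝓛i i) (ρi i))
    {invG : ptd_Inv 𝓛 ρC T p} {invi : ∀ i, ptd_Inv (𝓛i i) (ρi i) T p}
    (hfi : ∀ i, ptd_IsInvFun (𝓛i i) (ρi i) (invi i))
    (hLG : ptd_GLG 𝓛 p ρJ ρC π 𝓛i ρi r e invG invi)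
    {invU : ptd_Inv (𝓛.sub U hU) (ptd_resRep ρC U) T p}
    (hcor : ∀ y, ptd_IsLZ2p (𝓛.sub U hU) (ptd_resRep ρC U) p y →
      invG (ptd_cor₂ U ρC y) = invU y)
    (hopen : ∀ v : pts_Places r U, (𝓛i v.1).IsOpen (pts_dcSub (r v.1) U v.2))
    {invv : ∀ v : pts_Places r U, ptd_Inv ((𝓛i v.1).sub (pts_dcSub (r v.1) U v.2) (hopen v))
      (ptd_resRep (ρi v.1) (pts_dcSub (r v.1) U v.2)) T p}
    (hcorv : ∀ (v : pts_Places r U) y,
      ptd_IsLZ2 ((𝓛i v.1).sub (pts_dcSub (r v.1) U v.2) (hopen v))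
        (ptd_resRep (ρi v.1) (pts_dcSub (r v.1) U v.2)) y →
      invi v.1 (ptd_cor₂ (pts_dcSub (r v.1) U v.2) (ρi v.1) y) = invv v y) :
    ptd_GLG (𝓛.sub U hU) p (ptd_resRep ρJ U) (ptd_resRep ρC U) π
      (fun v : pts_Places r U => (𝓛i v.1).sub (pts_dcSub (r v.1) U v.2) (hopen v))
      (fun v : pts_Places r U => ptd_resRep (ρi v.1) (pts_dcSub (r v.1) U v.2))
      (fun v : pts_Places r U => pts_dcHom (r v.1) U v.2)
      (pts_dcEv ρJ e U) invU invv := by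
  obtain rfl : inst = Sigma.instFintype := Subsingleton.elim _ _
  intro W hW hπW
  -- step 1: `inv_U (π ∘ W) = inv_G (π ∘ cor W)`
  have h1 : invU (fun y => π (W y)) = invG (fun x => π (ptd_cor₂ U ρJ W x)) := by
    rw [← hcor _ hπW, ptd_cor₂_natural U ρJ ρC π hπ W]
  -- step 2: (LG) over `G`
  have hY : ptd_IsLZ2 𝓛 ρJ (ptd_cor₂ U ρJ W) := ptd_isLZ2_cor₂ U hU ρJ hW
  have hπY : ptd_IsLZ2p 𝓛 ρC p (fun x => π (ptd_cor₂ U ρJ W x)) := by
    rw [← ptd_cor₂_natural U ρJ ρC π hπ W]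
    exact ptd_isLZ2p_cor₂ U hU ρC hπW
  rw [h1, hLG _ hY hπY, Fintype.sum_sigma]
  refine Finset.sum_congr rfl fun i _ => ?_
  -- step 3: Mackey at `i`
  have hmk := ptd_mackey_family ρJ ρi r e U i (hr i) hU (he i) hW
  have hloc : ∀ d : pts_DC (r i) U,
      ptd_IsLZ2 ((𝓛i i).sub (pts_dcSub (r i) U d) (hopen ⟨i, d⟩))
        (ptd_resRep (ρi i) (pts_dcSub (r i) U d))
        (ptd_loc₂ (pts_dcHom (r i) U d) (pts_dcEv ρJ e U (⟨i, d⟩ : pts_Places r U)) W) := by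
    intro d
    have hcont : ptd_IsLevCont ((𝓛i i).sub (pts_dcSub (r i) U d) (hopen ⟨i, d⟩))
        (𝓛.sub U hU) (pts_dcHom (r i) U d) := by
      rintro _ ⟨N, hN, hNU, rfl⟩
      obtain ⟨N', hN', hle⟩ := hr i N hN
      obtain ⟨N₀, hN₀, hN₀V⟩ := hopen ⟨i, d⟩
      obtain ⟨N'', hN'', hle''⟩ := (𝓛i i).directed N' hN' N₀ hN₀
      have hNn := 𝓛.normal N hN
      refine ⟨_, ⟨N'', hN'', (hle''.trans inf_le_right).trans hN₀V, rfl⟩, fun n hn => ?_⟩
      rw [Subgroup.mem_subgroupOf, pts_dcHom_coe]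
      have h1 := hle _ (hle'' (Subgroup.mem_subgroupOf.mp hn)).1
      have := hNn.conj_mem _ h1 (pts_dcRep (r i) U d)⁻¹
      rwa [inv_inv] at this
    refine hW.loc hcont _ ?_
    intro t x
    simp only [pts_dcEv_apply, ptd_resRep_apply, pts_dcHom_coe]
    rw [← he, ← Module.End.mul_apply, ← Module.End.mul_apply, ← map_mul, ← map_mul]
    congr 2
    group
  have hcorLZ : ∀ d ∈ (Finset.univ : Finset (pts_DC (r i) U)),
      ptd_IsLZ2 (𝓛i i) (ρi i) (ptd_cor₂ (pts_dcSub (r i) U d) (ρi i)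
        (ptd_loc₂ (pts_dcHom (r i) U d) (pts_dcEv ρJ e U (⟨i, d⟩ : pts_Places r U)) W)) :=
    fun d _ => ptd_isLZ2_cor₂ _ (hopen ⟨i, d⟩) (ρi i) (hloc d)
  have hsum := (hfi i).sum Finset.univ hcorLZ
  have hlocY : ptd_IsLZ2 (𝓛i i) (ρi i) (ptd_loc₂ (r i) (e i) (ptd_cor₂ U ρJ W)) :=
    hY.loc (hr i) (e i) (he i)
  rw [← (hfi i).congr (hdi i) hlocY hmk, hsum.1]
  refine Finset.sum_congr rfl fun d _ => ?_
  exact hcorv ⟨i, d⟩ _ (hloc d)

end D5

end Fermat.Agent.Lib.PT
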