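/-
S55 (Poitou–Tate long haul), A-track, F4-GLOBAL, part 6: the LOCAL–GLOBAL FORMULA OVER `G`,
abstract half (lead's D4).

* `ptd_IsLZ2.exists_nsmul_isB2` : every level `2`-cocycle has finite order modulo level
  coboundaries (`cor ∘ res` to a level at which the cocycle lives);
* `ptd_GLG_of_good` : if the local–global formula holds for the cyclic cocycles `a · δχ_k + dψ`
  (`a ∈ J^G`) of a tower of characters `χ_k : G → ZMod (p ^ k)`, the Hasse principle holds for
  `H²(G, J)`, invariant ideles with one prescribed local component exist, and every `p`-primary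
  local class is cyclic `a_v · δ(χ_k ∘ r_v)` for all large `k`, then the local–global formula
  `ptd_GLG` holds for ALL `J`-valued level cocycles.
-/
import Fermat.Agent.Lib.PT.AdtBaseIII
import Fermat.Agent.Lib.PT.AdtBaseII
import Fermat.Agent.Lib.PT.AbsBock

set_option autoImplicit false
set_option linter.unusedSectionVars false

namespace Fermat.Agent.Lib.PT

section Torsion

variable {G : Type*} [Group G] {𝓛 : ptd_Levels G}
variable {k : Type*} [CommRing k] {A : Type*} [AddCommGroup A] [Module k A]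
variable {ρ : Representation k G A}

/-- every level `2`-cocycle has finite order modulo level coboundaries -/
theorem ptd_IsLZ2.exists_nsmul_isB2 {z : G × G → A} (hz : ptd_IsLZ2 𝓛 ρ z) :
    ∃ n : ℕ, 0 < n ∧ ptd_IsB2 𝓛 ρ (n • z) := by
  obtain ⟨N, hN, hzN⟩ := hz.2
  have hNo : 𝓛.IsOpen N := 𝓛.isOpen_of_mem hN
  have : N.FiniteIndex := 𝓛.finiteIndex N hN
  refine ⟨N.index, Nat.pos_of_ne_zero Subgroup.FiniteIndex.index_ne_zero, ?_⟩
  have h1 := ptd_cor₂_res_sub_isB2 N hNo ρ hz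
  -- the restriction to `N` is constant, hence a coboundary
  have hconst : ∀ a b : N, ptd_res₂ N z (a, b) = z (1, 1) := by
    intro a b
    have := hzN 1 1 a a.2 b b.2
    simpa using this
  have hfix : ∀ a : N, ρ (a : G) (z (1, 1)) = z (1, 1) := by
    intro a
    have h := hz.1 (a : G) 1 1
    have e1 : z ((a : G), (1 : G)) = z (1, 1) := by
      have := hzN 1 1 a a.2 1 N.one_mem
      simpa using this
    simp only [mul_one, e1] at h
    exact (add_right_cancel h).symm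
  have h2 : ptd_IsB2 (𝓛.sub N hNo) (ptd_resRep ρ N) (ptd_res₂ N z) := by
    refine ⟨fun _ => z (1, 1), ptd_isLev₁_const _, ?_⟩
    funext ⟨a, b⟩
    rw [hconst, ptd_d1_apply, ptd_resRep_apply, hfix]
    abel
  have h3 := ptd_isB2_cor₂ N hNo ρ h2
  have := h1.add h3
  simpa using this

end Torsion

section D4

variable {G : Type*} [Group G] {𝓛 : ptd_Levels G} (p : ℕ) [hp : Fact p.Prime]
variable {J : Type*} [AddCommGroup J] {ρJ : Representation ℤ G J}
variable {C : Type*} [AddCommGroup C] {ρC : Representation ℤ G C} {π : J →+ C}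
variable {T : Type*} [AddCommGroup T]
variable {I : Type*} [Fintype I] {Hh : I → Type*} [∀ i, Group (Hh i)]
variable {𝓛i : ∀ i, ptd_Levels (Hh i)}
variable {Ai : I → Type*} [∀ i, AddCommGroup (Ai i)] {ρi : ∀ i, Representation ℤ (Hh i) (Ai i)}
variable {r : ∀ i, Hh i →* G} {e : ∀ i, J →+ Ai i}

omit hp in
lemma ptd_loc₂_bockSmul' {n : ℕ} (i : I) (χ : G → ZMod n) (a : J) :
    ptd_loc₂ (r i) (e i) (ptd_bockSmul n χ a)
      = ptd_bockSmul n (fun t => χ (r i t)) (e i a) := by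
  funext ⟨x, y⟩
  simp only [ptd_loc₂_apply, ptd_bockSmul, ptd_bock, map_zsmul, map_mul]

/-- **(LG) over `G` for all level cocycles** from (LG) on the cyclic cocycles of a tower of
characters, the Hasse principle for `H²(G, J)`, independence of the local components of invariant
ideles, and cyclicity of the `p`-primary local classes. -/
theorem ptd_GLG_of_good
    (hr : ∀ i, ptd_IsLevCont (𝓛i i) 𝓛 (r i))
    (he : ∀ i h a, e i (ρJ (r i h) a) = ρi i h (e i a))
    (hT : ∀ m : ℕ, ¬ p ∣ m → ∀ t : T, m • t = 0 → t = 0)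
    (χ : ∀ k : ℕ, G → ZMod (p ^ k)) (hχ : ∀ k, ptd_IsChar (χ k))
    (hχlev : ∀ k, ptd_IsLev₁ 𝓛 (χ k))
    {invG : ptd_Inv 𝓛 ρC T p} {invi : ∀ i, ptd_Inv (𝓛i i) (ρi i) T p}
    (hfi : ∀ i, ptd_IsInvFun (𝓛i i) (ρi i) (invi i))
    (hEV : ∀ (k : ℕ) (a : J) (ψ : G → J), (∀ g, ρJ g a = a) → ptd_IsLev₁ 𝓛 ψ →
      invG (fun x => π ((ptd_bockSmul (p ^ k) (χ k) a + ptd_d1 ρJ ψ) x))
        = ∑ i, invi i (ptd_loc₂ (r i) (e i) (ptd_bockSmul (p ^ k) (χ k) a + ptd_d1 ρJ ψ)))
    (hH2J : ∀ W : G × G → J, ptd_IsLZ2 𝓛 ρJ W →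
      (∀ i, ptd_IsB2 (𝓛i i) (ρi i) (ptd_loc₂ (r i) (e i) W)) → ptd_IsB2 𝓛 ρJ W)
    (hindep : ∀ i (a : Ai i), (∀ t, ρi i t a = a) →
      ∃ j : J, (∀ g, ρJ g j = j) ∧ e i j = a ∧ ∀ i', i' ≠ i → e i' j = 0)
    (hgood : ∀ i (z : Hh i × Hh i → Ai i), ptd_IsLZ2 (𝓛i i) (ρi i) z →
      ∀ E : ℕ, ptd_IsB2 (𝓛i i) (ρi i) (p ^ E • z) →
      ∃ k₀ : ℕ, ∀ k, k₀ ≤ k → ∃ a : Ai i, (∀ t, ρi i t a = a) ∧
        ptd_IsB2 (𝓛i i) (ρi i) (z - ptd_bockSmul (p ^ k) (fun t => χ k (r i t)) a)) :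
    ptd_GLG 𝓛 p ρJ ρC π 𝓛i ρi r e invG invi := by
  classical
  intro W hW hπW
  have hlocLZ : ∀ i, ptd_IsLZ2 (𝓛i i) (ρi i) (ptd_loc₂ (r i) (e i) W) :=
    fun i => hW.loc (hr i) (e i) (he i)
  -- Step 1: orders of the local classes
  have htors := fun i => (hlocLZ i).exists_nsmul_isB2
  choose n hn0 hnB using htors
  have hdec : ∀ i, ∃ E m, ¬ p ∣ m ∧ n i = p ^ E * m := fun i =>
    Nat.exists_eq_pow_mul_and_not_dvd (hn0 i).ne' p hp.out.ne_one
  choose ee mm hmm hnm using hdec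
  set m : ℕ := ∏ i, mm i with hm_def
  have hm : ¬ p ∣ m := by
    rw [hm_def, (Nat.prime_iff.mp hp.out).dvd_finsetProd_iff]
    rintro ⟨i, -, hi⟩
    exact hmm i hi
  set E : ℕ := ∑ i, ee i with hE_def
  have hB : ∀ i, ptd_IsB2 (𝓛i i) (ρi i) (p ^ E • (m • ptd_loc₂ (r i) (e i) W)) := by
    intro i
    have h1 : ee i ≤ E := Finset.single_le_sum (f := ee) (fun _ _ => Nat.zero_le _)
      (Finset.mem_univ i)
    have h2 : mm i ∣ m := Finset.dvd_prod_of_mem mm (Finset.mem_univ i)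
    obtain ⟨c, hc⟩ := h2
    have h3 : p ^ E * m = (p ^ (E - ee i) * c) * n i := by
      rw [hnm i, hc]
      have : p ^ E = p ^ (E - ee i) * p ^ ee i := by
        rw [← pow_add, Nat.sub_add_cancel h1]
      rw [this]; ring
    rw [smul_smul, h3, mul_smul]
    exact (hnB i).nsmul _
  -- Step 2: the local classes of `m • W` are cyclic
  have hmLZ : ∀ i, ptd_IsLZ2 (𝓛i i) (ρi i) (m • ptd_loc₂ (r i) (e i) W) :=
    fun i => (hlocLZ i).nsmul m
  have hg := fun i => hgood i _ (hmLZ i) E (hB i)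
  choose k₀ hk₀ using hg
  set k : ℕ := Finset.univ.sup k₀ with hk_def
  have hk : ∀ i, k₀ i ≤ k := fun i => Finset.le_sup (f := k₀) (Finset.mem_univ i)
  have ha := fun i => hk₀ i k (hk i)
  choose av hav_inv hav using ha
  -- Step 3: the invariant idele with components `av i`
  have hj := fun i => hindep i (av i) (hav_inv i)
  choose jv hjv_inv hjv_self hjv_other using hj
  set a : J := ∑ i, jv i with ha_def
  have ha_inv : ∀ g, ρJ g a = a := by
    intro g
    rw [ha_def, map_sum]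
    exact Finset.sum_congr rfl fun i _ => hjv_inv i g
  have ha_ev : ∀ i, e i a = av i := by
    intro i
    rw [ha_def, map_sum, Finset.sum_eq_single i]
    · exact hjv_self i
    · intro i' _ hne
      exact hjv_other i' i (Ne.symm hne)
    · intro h; exact absurd (Finset.mem_univ i) h
  -- Step 4: `m • W - a · δχ_k` is a coboundary
  have hbLZ : ptd_IsLZ2 𝓛 ρJ (ptd_bockSmul (p ^ k) (χ k) a) :=
    ⟨ptn_isZ2_bockSmul (hχ k) ha_inv, ptn_isLev₂_bockSmul (hχlev k) a⟩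
  have hW'LZ : ptd_IsLZ2 𝓛 ρJ (m • W - ptd_bockSmul (p ^ k) (χ k) a) := (hW.nsmul m).sub hbLZ
  have hW'B : ptd_IsB2 𝓛 ρJ (m • W - ptd_bockSmul (p ^ k) (χ k) a) := by
    refine hH2J _ hW'LZ fun i => ?_
    have : ptd_loc₂ (r i) (e i) (m • W - ptd_bockSmul (p ^ k) (χ k) a)
        = m • ptd_loc₂ (r i) (e i) W - ptd_bockSmul (p ^ k) (fun t => χ k (r i t)) (av i) := by
      rw [← ha_ev i, ← ptd_loc₂_bockSmul' i (χ k) a]
      funext ⟨x, y⟩
      simp only [ptd_loc₂_apply, Pi.sub_apply, Pi.smul_apply, map_sub, map_nsmul]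
    rw [this]
    exact hav i
  obtain ⟨ψ, hψ, hWψ⟩ := hW'B
  have hmW : m • W = ptd_bockSmul (p ^ k) (χ k) a + ptd_d1 ρJ ψ := by
    rw [← hWψ]; abel
  -- Step 5: evaluate
  have h5 := hEV k a ψ ha_inv hψ
  rw [← hmW] at h5
  have h6 : (fun x => π ((m • W) x)) = m • (fun x => π (W x)) := by
    funext x
    simp only [Pi.smul_apply, map_nsmul]
  have h7 : ∀ i, invi i (ptd_loc₂ (r i) (e i) (m • W))
      = m • invi i (ptd_loc₂ (r i) (e i) W) := by
    intro i
    have h8 : ptd_loc₂ (r i) (e i) (m • W) = m • ptd_loc₂ (r i) (e i) W := by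
      funext ⟨x, y⟩
      simp only [ptd_loc₂_apply, Pi.smul_apply, map_nsmul]
    rw [h8]
    have hs := (hfi i).sum (Finset.range m) (z := fun _ => ptd_loc₂ (r i) (e i) W)
      (fun _ _ => hlocLZ i)
    simp only [Finset.sum_const, Finset.card_range] at hs
    exact hs.1
  rw [h6, (invG.map_nsmul hπW m).1, Finset.sum_congr rfl fun i _ => h7 i, ← Finset.smul_sum]
    at h5
  have h9 : m • (invG (fun y => π (W y)) - ∑ i, invi i (ptd_loc₂ (r i) (e i) W)) = 0 := by
    rw [smul_sub, h5, sub_self]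
  exact sub_eq_zero.mp (hT m hm _ h9)

end D4

end Fermat.Agent.Lib.PT
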