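/-
S55 (Poitou–Tate long haul), A-track, cochain package, part K: adapter of (TR) to the nested
restriction `ptn_resLe₂` of `AbsDefs`:
`cor^G_V (res^U_V y) - [U : V] • cor^G_U y ∈ B²_lev(G, A)`.
-/
import Fermat.Agent.Lib.PT.AdtCorH
import Fermat.Agent.Lib.PT.AbsDefs

set_option autoImplicit false
set_option linter.unusedSectionVars false

namespace Fermat.Agent.Lib.PT

section Adapter

variable {G : Type*} [Group G] {𝓛 : ptd_Levels G} {U V : Subgroup G} (hVU : V ≤ U)
variable (hU : 𝓛.IsOpen U) (hV : 𝓛.IsOpen V) [U.FiniteIndex] [V.FiniteIndex]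
variable {k : Type*} [CommRing k] {A : Type*} [AddCommGroup A] [Module k A]
variable (ρ : Representation k G A)

lemma ptd_resLE_eq_resLe₂ {X : Type*} (y : U × U → X) : ptd_resLE hVU y = ptn_resLe₂ hVU y := rfl

include hV in
/-- **(TR), consumer form**: for `V ≤ U ≤ G` open and a level `2`-cocycle `y` of `U`,
`cor^G_V (res^U_V y) - [U : V] • cor^G_U y` is a level coboundary of `G`. -/
theorem ptd_cor₂_resLe₂_sub_isB2 {y : U × U → A}
    (hy : ptd_IsLZ2 (𝓛.sub U hU) (ptd_resRep ρ U) y) :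
    ptd_IsB2 𝓛 ρ (ptd_cor₂ V ρ (ptn_resLe₂ hVU y) - V.relIndex U • ptd_cor₂ U ρ y) :=
  ptd_cor₂_resLE_sub_isB2 hVU hU hV ρ hy

end Adapter

end Fermat.Agent.Lib.PT
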