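/-
S55 (Poitou–Tate long haul), A-track, GLOBAL F3 abstract part (G8.A), part A: CYCLIC PERIODICITY in
the big-group model.

For a group `V`, a character `χ : V → ZMod n` taking the value `1` (so `V / ker χ` is cyclic of order
`n`), every `2`-cocycle `z` of `V` which is inflated from `V / ker χ` (right-invariant under
`ker χ` in both variables, with `ker χ`-fixed values) is of the form `c · δχ + d ψ` with
`c ∈ C^V` and `ψ` inflated from `V / ker χ`.
-/
import Fermat.Agent.Lib.PT.AbsBock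

set_option autoImplicit false
set_option linter.unusedSectionVars false

namespace Fermat.Agent.Lib.PT

section Periodicity

variable {V : Type*} [Group V] {k : Type*} [CommRing k] {C : Type*} [AddCommGroup C] [Module k C]
variable {ρ : Representation k V C} {n : ℕ} [NeZero n] {χ : V → ZMod n}

/-- the partial sums `H i = ∑_{j < i} z (σ ^ j, σ)` -/
def ptd_cycH (z : V × V → C) (σ : V) (i : ℕ) : C := ∑ j ∈ Finset.range i, z (σ ^ j, σ)

lemma ptd_cycH_zero (z : V × V → C) (σ : V) : ptd_cycH z σ 0 = 0 := by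
  simp [ptd_cycH]

lemma ptd_cycH_succ (z : V × V → C) (σ : V) (i : ℕ) :
    ptd_cycH z σ (i + 1) = ptd_cycH z σ i + z (σ ^ i, σ) := by
  simp [ptd_cycH, Finset.sum_range_succ]

lemma ptd_isZ2_one_left {z : V × V → C} (hz : ptd_IsZ2 ρ z) (g : V) : z (1, g) = z (1, 1) := by
  have h := hz 1 1 g
  simp only [mul_one, one_mul, map_one, Module.End.one_apply] at h
  exact (add_left_cancel h).symm

lemma ptd_isZ2_one_right {z : V × V → C} (hz : ptd_IsZ2 ρ z) (g : V) :
    z (g, 1) = ρ g (z (1, 1)) := by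
  have h := hz g 1 1
  simp only [mul_one] at h
  exact add_right_cancel h

/-- the key identity -/
lemma ptd_cycH_key {z : V × V → C} (hz : ptd_IsZ2 ρ z) (σ : V) (x y : ℕ) :
    z (σ ^ x, σ ^ y) + ptd_cycH z σ x + ρ (σ ^ x) (ptd_cycH z σ y)
      = ρ (σ ^ x) (z (1, 1)) + ptd_cycH z σ (x + y) := by
  induction y with
  | zero =>
    rw [pow_zero, ptd_isZ2_one_right hz, ptd_cycH_zero, map_zero, add_zero, add_zero]
  | succ y ih =>
    have h1 := hz (σ ^ x) (σ ^ y) σ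
    rw [← pow_add, ← pow_succ] at h1
    rw [ptd_cycH_succ, map_add, ← add_assoc x y 1, ptd_cycH_succ]
    have h2 : z (σ ^ x, σ ^ (y + 1))
        = z (σ ^ (x + y), σ) + z (σ ^ x, σ ^ y) - ρ (σ ^ x) (z (σ ^ y, σ)) := by
      rw [h1]; abel
    rw [h2]
    have : z (σ ^ (x + y), σ) + z (σ ^ x, σ ^ y) - ρ (σ ^ x) (z (σ ^ y, σ)) + ptd_cycH z σ x
        + (ρ (σ ^ x) (ptd_cycH z σ y) + ρ (σ ^ x) (z (σ ^ y, σ)))
        = (z (σ ^ x, σ ^ y) + ptd_cycH z σ x + ρ (σ ^ x) (ptd_cycH z σ y))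
          + z (σ ^ (x + y), σ) := by abel
    rw [this, ih]
    abel

variable (hχ : ptd_IsChar χ) {σ : V} (hσ : χ σ = 1) {z : V × V → C} (hz : ptd_IsZ2 ρ z)
variable (hr : ∀ g h w w', χ w = 0 → χ w' = 0 → z (g * w, h * w') = z (g, h))
variable (hfix : ∀ w, χ w = 0 → ∀ x, ρ w (z x) = z x)

include hχ hσ in
lemma ptd_char_pow_sigma (i : ℕ) : χ (σ ^ i) = (i : ZMod n) := by
  rw [ptn_char_pow hχ, hσ, nsmul_eq_mul, mul_one]

include hχ hσ in
/-- `g = σ ^ (χ g).val * w` with `w ∈ ker χ` -/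
lemma ptd_exists_ker_factor (g : V) : ∃ w, χ w = 0 ∧ g = σ ^ (χ g).val * w := by
  refine ⟨(σ ^ (χ g).val)⁻¹ * g, ?_, by group⟩
  rw [hχ, ptn_char_inv hχ, ptd_char_pow_sigma hχ hσ, ZMod.natCast_zmod_val, neg_add_cancel]

include hχ hσ hr in
lemma ptd_cyc_z_eq (g h : V) : z (g, h) = z (σ ^ (χ g).val, σ ^ (χ h).val) := by
  obtain ⟨w, hw, eg⟩ := ptd_exists_ker_factor hχ hσ g
  obtain ⟨w', hw', eh⟩ := ptd_exists_ker_factor hχ hσ h
  conv_lhs => rw [eg, eh]
  exact hr _ _ _ _ hw hw'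

include hfix in
lemma ptd_cycH_fix (i : ℕ) (w : V) (hw : χ w = 0) : ρ w (ptd_cycH z σ i) = ptd_cycH z σ i := by
  simp only [ptd_cycH, map_sum, hfix w hw]

include hχ hσ hr in
lemma ptd_cycH_add_n (i : ℕ) : ptd_cycH z σ (n + i) = ptd_cycH z σ n + ptd_cycH z σ i := by
  induction i with
  | zero => rw [add_zero, ptd_cycH_zero, add_zero]
  | succ i ih =>
    rw [← add_assoc, ptd_cycH_succ, ih, ptd_cycH_succ, add_assoc]
    congr 2
    have h0 : χ (σ ^ n) = 0 := by
      rw [ptd_char_pow_sigma hχ hσ, ZMod.natCast_self]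
    have := hr (σ ^ i) σ (σ ^ n) 1 h0 (ptn_char_one hχ)
    rw [mul_one, ← pow_add, add_comm] at this
    exact this

include hχ hσ hr in
lemma ptd_cycH_eq (i : ℕ) :
    ptd_cycH z σ i = ptd_cycH z σ (i % n) + (i / n) • ptd_cycH z σ n := by
  induction i using Nat.strong_induction_on with
  | _ i ih =>
    rcases lt_or_ge i n with h | h
    · rw [Nat.mod_eq_of_lt h, Nat.div_eq_of_lt h, zero_smul, add_zero]
    · obtain ⟨j, rfl⟩ : ∃ j, i = n + j := ⟨i - n, by omega⟩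
      have hn : 0 < n := Nat.pos_of_ne_zero (NeZero.ne n)
      rw [ptd_cycH_add_n hχ hσ hr, ih j (by omega), Nat.add_mod_left, Nat.add_div_left _ hn,
        succ_nsmul]
      abel

include hχ hσ hfix in
/-- on `ker χ`-fixed elements, `g` acts as `σ ^ (χ g).val` -/
lemma ptd_rho_eq_of_fix (g : V) {a : C} (ha : ∀ w, χ w = 0 → ρ w a = a) :
    ρ g a = ρ (σ ^ (χ g).val) a := by
  obtain ⟨w, hw, eg⟩ := ptd_exists_ker_factor hχ hσ g
  conv_lhs => rw [eg, map_mul, Module.End.mul_apply, ha w hw]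

include hχ hσ hz hr hfix in
/-- the class `c = ∑_{j < n} z (σ ^ j, σ)` is `V`-invariant -/
lemma ptd_cycH_n_fix (g : V) : ρ g (ptd_cycH z σ n) = ptd_cycH z σ n := by
  have hσfix : ρ σ (ptd_cycH z σ n) = ptd_cycH z σ n := by
    have h := ptd_cycH_key hz σ 1 n
    have h0 : χ (σ ^ n) = 0 := by
      rw [ptd_char_pow_sigma hχ hσ, ZMod.natCast_self]
    have e1 : z (σ ^ 1, σ ^ n) = ρ (σ ^ 1) (z (1, 1)) := by
      have := hr (σ ^ 1) 1 1 (σ ^ n) (ptn_char_one hχ) h0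
      rw [mul_one, one_mul] at this
      rw [this, ptd_isZ2_one_right hz]
    rw [e1, add_comm 1 n, ptd_cycH_add_n hχ hσ hr, pow_one] at h
    have h' : ρ σ (z (1, 1)) + ptd_cycH z σ 1 + ρ σ (ptd_cycH z σ n)
        = ρ σ (z (1, 1)) + ptd_cycH z σ 1 + ptd_cycH z σ n := by
      rw [h]; abel
    exact add_left_cancel h'
  have hpow : ∀ i : ℕ, ρ (σ ^ i) (ptd_cycH z σ n) = ptd_cycH z σ n := by
    intro i
    induction i with
    | zero => simp
    | succ i ih => rw [pow_succ, map_mul, Module.End.mul_apply, hσfix, ih]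
  rw [ptd_rho_eq_of_fix hχ hσ hfix g (fun w hw => ptd_cycH_fix hfix n w hw), hpow]

include hχ hσ hz hr hfix in
/-- **CYCLIC PERIODICITY**: a `2`-cocycle inflated from the cyclic quotient `V / ker χ` is
`c · δχ + d ψ` with `c ∈ C^V` and `ψ` inflated from `V / ker χ`. -/
theorem ptd_cyclic_periodicity :
    ∃ c : C, (∀ g, ρ g c = c) ∧ ∃ ψ : V → C, (∀ g w, χ w = 0 → ψ (g * w) = ψ g) ∧
      (∀ g w, χ w = 0 → ρ w (ψ g) = ψ g) ∧ z = ptd_bockSmul n χ c + ptd_d1 ρ ψ := by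
  have hn : 0 < n := Nat.pos_of_ne_zero (NeZero.ne n)
  have h11fix : ∀ w, χ w = 0 → ρ w (z (1, 1)) = z (1, 1) := fun w hw => hfix w hw _
  refine ⟨ptd_cycH z σ n, ptd_cycH_n_fix hχ hσ hz hr hfix,
    fun g => z (1, 1) - ptd_cycH z σ (χ g).val, ?_, ?_, ?_⟩
  · intro g w hw
    simp only
    rw [hχ, hw, add_zero]
  · intro g w hw
    simp only
    rw [map_sub, h11fix w hw, ptd_cycH_fix hfix _ w hw]
  · funext ⟨g, h⟩
    simp only [Pi.add_apply, ptn_bockSmul_apply, ptd_d1_apply, map_sub]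
    have key := ptd_cycH_key hz σ (χ g).val (χ h).val
    rw [← ptd_cyc_z_eq hχ hσ hr g h,
      ← ptd_rho_eq_of_fix hχ hσ hfix g (fun w hw => ptd_cycH_fix hfix _ w hw),
      ← ptd_rho_eq_of_fix hχ hσ hfix g h11fix,
      ptd_cycH_eq hχ hσ hr ((χ g).val + (χ h).val)] at key
    have hmod : ((χ g).val + (χ h).val) % n = (χ (g * h)).val := by
      rw [hχ, ZMod.val_add]
    have hbock : ptd_bock n χ (g, h) = ((((χ g).val + (χ h).val) / n : ℕ) : ℤ) := by
      have hn0 : (n : ℤ) ≠ 0 := by exact_mod_cast hn.ne'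
      apply mul_left_cancel₀ hn0
      rw [ptn_mul_bock hχ, ← hmod]
      have := Nat.div_add_mod ((χ g).val + (χ h).val) n
      push_cast
      have h2 : ((n : ℤ) * ((((χ g).val + (χ h).val) / n : ℕ) : ℤ))
          + ((((χ g).val + (χ h).val) % n : ℕ) : ℤ) = ((χ g).val : ℤ) + ((χ h).val : ℤ) := by
        exact_mod_cast this
      push_cast at h2
      linarith
    rw [hmod] at key
    rw [hbock, natCast_zsmul]
    have : z (g, h) = ρ g (z (1, 1)) + (ptd_cycH z σ (χ (g * h)).val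
        + (((χ g).val + (χ h).val) / n) • ptd_cycH z σ n)
        - ptd_cycH z σ (χ g).val - ρ g (ptd_cycH z σ (χ h).val) := by
      rw [← key]; abel
    rw [this]
    abel

end Periodicity

end Fermat.Agent.Lib.PT
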