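/-
S55 (Poitou–Tate long haul), A-track, GLOBAL F3 abstract part (G8.A), part B: the FIRST INEQUALITY
in the form `(inj)` on top of helper5's abstract class formation `ptn_AbsK`.

For an open subgroup `U ≤ K₀` and a nonzero level character `χ : U → ZMod p` there is `c ∈ C^U`
with `inv_U (c · δχ) ≠ 0` (`ptd_exists_inv_bock_ne_zero`); equivalently (`ptd_F3inj`), if
`inv_U (c · δχ) = 0` for all `c ∈ C^U` then `χ = 0`.

Proof: take a cyclic class `z₀ = π(a) · δχ_k` of the tower with `inv_U z₀ = t₁ ≠ 0`, `p • t₁ = 0`.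
Its restriction to `W = ker χ` has invariant `[U : W] • t₁ = 0`, hence splits at the cyclic layer
`W ⊓ ker χ_k` (`cyc_split`); by inflation–restriction (`ptn_infres_exact`, `H¹ = 0` from `G5_1`)
`z₀ - d ψ'` is inflated from `U / W`, and by cyclic periodicity (`ptd_cyclic_periodicity`) it is
`c · δχ + d ψ''`.  So `inv_U (c · δχ) = inv_U z₀ = t₁ ≠ 0`.
-/
import Fermat.Agent.Lib.PT.AbkNorm
import Fermat.Agent.Lib.PT.AdtF3A

set_option autoImplicit false
set_option linter.unusedSectionVars false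

namespace Fermat.Agent.Lib.PT

section TorsElt

variable (p : ℕ) [hp : Fact p.Prime]

/-- the class of `1 / p` in `ℚ / ℤ_(p)`: a nonzero element killed by `p` -/
noncomputable def ptd_tp : ptn_T p := ptn_frac p 1 p

lemma ptd_nsmul_tp : p • ptd_tp p = 0 := ptn_smul_frac 1 p hp.out.ne_zero

lemma ptd_tp_ne_zero : ptd_tp p ≠ 0 := by
  intro h
  have h1 := (ptn_frac_eq_zero_iff (p := p) 1 p hp.out.ne_zero).mp h
  rw [Nat.Prime.factorization_self hp.out, pow_one] at h1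
  have h2 : (p : ℤ) ∣ 1 := h1
  have h3 : p ∣ 1 := by exact_mod_cast h2
  exact hp.out.one_lt.ne' (Nat.dvd_one.mp h3)

end TorsElt

section CharOne

variable {V : Type*} [Group V] {p : ℕ} [hp : Fact p.Prime]

/-- a nonzero character mod `p` takes the value `1` -/
lemma ptd_exists_char_eq_one {χ : V → ZMod p} (hχ : ptd_IsChar χ) (hne : χ ≠ 0) :
    ∃ σ, χ σ = 1 := by
  have hex : ∃ g, χ g ≠ 0 := by
    by_contra h
    push Not at h
    exact hne (funext h)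
  obtain ⟨g, hg⟩ := hex
  refine ⟨g ^ ((χ g)⁻¹).val, ?_⟩
  rw [ptn_char_pow hχ, nsmul_eq_mul, ZMod.natCast_val, ZMod.cast_id', id_eq]
  exact inv_mul_cancel₀ hg

/-- a nonzero character mod `p` is surjective -/
lemma ptd_char_surjective {χ : V → ZMod p} (hχ : ptd_IsChar χ) (hne : χ ≠ 0) :
    Function.Surjective χ := by
  obtain ⟨σ, hσ⟩ := ptd_exists_char_eq_one hχ hne
  intro x
  refine ⟨σ ^ x.val, ?_⟩
  rw [ptn_char_pow hχ, hσ, nsmul_eq_mul, mul_one, ZMod.natCast_val, ZMod.cast_id', id_eq]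

end CharOne

section Inj

variable {G : Type*} [Group G] {J C : Type*} [AddCommGroup J] [AddCommGroup C]
variable {𝓛 : ptd_Levels G} {ρJ : Representation ℤ G J} {ρC : Representation ℤ G C}
variable {p : ℕ} [hp : Fact p.Prime] (A : ptn_AbsK 𝓛 ρJ ρC p)

/-- **First inequality, abstract form**: for an open subgroup `U ≤ K₀` and a nonzero level character
`χ : U → ZMod p`, some `c ∈ C^U` has `inv_U (c · δχ) ≠ 0`; more precisely every cyclic class of the
tower killed by `p` is of the form `c · δχ` up to a level coboundary. -/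
theorem ptd_exists_bock_of_tower (U : Subgroup G) (hU : 𝓛.IsOpen U) (hUK : U ≤ A.K₀)
    (χ : U → ZMod p) (hχ : ptd_IsChar χ) (hlev : ptd_IsLev₁ (𝓛.sub U hU) χ) (hne : χ ≠ 0)
    (k : ℕ) (a : J) (ha : ∀ u ∈ U, ρJ u a = a)
    (h0 : p • A.INV U (ptd_bockSmul (p ^ k) (fun u : U => A.χ k u) a) = 0) :
    ∃ c : C, (∀ g : U, ptd_resRep ρC U g c = c) ∧
      ptd_IsB2 (𝓛.sub U hU) (ptd_resRep ρC U)
        (ptd_bockSmul (p ^ k) (fun u : U => A.χ k u) (A.π a) - ptd_bockSmul p χ c) := by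
  -- the kernel of `χ` and its image in `G`
  set W' : Subgroup U := ptn_charKer hχ with hW'
  set W : Subgroup G := ptn_img U W' with hW
  have hWU : W ≤ U := ptn_img_le U W'
  have hW'o : (𝓛.sub U hU).IsOpen W' := ptn_charKer_isOpen hχ hlev
  have hWo : 𝓛.IsOpen W := ptn_img_isOpen U W' hU hW'o
  have hmemW : ∀ x : U, (x : G) ∈ W ↔ χ x = 0 := fun x =>
    ⟨fun hx => (ptn_mem_charKer hχ).mp (ptn_mem_of_coe_mem_img U W' hx),
      fun hx => Subgroup.mem_map_of_mem _ ((ptn_mem_charKer hχ).mpr hx)⟩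
  have hrel : W.relIndex U = p := by
    rw [hW, ptn_img_relIndex, hW', ptn_charKer_index hχ (ptd_char_surjective hχ hne)]
  have hWK : A.W k W ≤ A.K₀ := (A.W_le k W).trans (hWU.trans hUK)
  -- the invariant of the restriction to `W` vanishes
  have hresW : A.INV W (ptd_bockSmul (p ^ k) (fun v : W => A.χ k v) a) = 0 := by
    have h1 := A.INV_res U hU W hWo hWU _ (A.bock_isLZ2 ρJ k hU ha)
    have h2 : ptn_resLe₂ hWU (ptd_bockSmul (p ^ k) (fun u : U => A.χ k u) a) =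
        ptd_bockSmul (p ^ k) (fun v : W => A.χ k v) a := rfl
    rw [h2, hrel, h0] at h1
    exact h1
  have haW : ∀ v ∈ W, ρJ v a = a := fun v hv => ha v (hWU hv)
  obtain ⟨ψ₀, hψ₀, hψ₀d⟩ := A.cyc_split k hWo hWK haW hresW
  -- inflation-restriction
  have hNn : (W.subgroupOf U).Normal := by
    have : W.subgroupOf U = W' := by
      ext x
      rw [Subgroup.mem_subgroupOf, hmemW, hW', ptn_mem_charKer]
    rw [this, hW']
    infer_instance
  have hN₁n : ((A.W k W).subgroupOf U).Normal := by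
    have : (A.W k W).subgroupOf U =
        W.subgroupOf U ⊓ (ptn_charKer (A.χ_char k)).subgroupOf U := by
      ext x
      simp only [Subgroup.mem_subgroupOf, Subgroup.mem_inf, ptn_AbsK.W]
    rw [this]
    infer_instance
  have hle : (A.W k W).subgroupOf U ≤ W.subgroupOf U :=
    fun x hx => Subgroup.mem_subgroupOf.mpr (Subgroup.mem_subgroupOf.mp hx).1
  have hx'Z := A.bock_isZ2 ρC k U (A.π_fixed ha)
  have hx'At := A.bock_at k U (A.π_fixed ha)
  have hat : ptn_AtH₂ (ptd_resRep ρC U) ((A.W k W).subgroupOf U)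
      (ptd_bockSmul (p ^ k) (fun u : U => A.χ k u) (A.π a)) :=
    ⟨fun a b n hn n' hn' => hx'At.1 a b n n' (A.W_mono k hWU (Subgroup.mem_subgroupOf.mp hn))
        (A.W_mono k hWU (Subgroup.mem_subgroupOf.mp hn')),
      fun x n hn => hx'At.2 x n (A.W_mono k hWU (Subgroup.mem_subgroupOf.mp hn))⟩
  let toN : W → W.subgroupOf U := fun x => ⟨⟨x.1, hWU x.2⟩, Subgroup.mem_subgroupOf.mpr x.2⟩
  let ofN : W.subgroupOf U → W := fun n => ⟨((n : U) : G), Subgroup.mem_subgroupOf.mp n.2⟩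
  obtain ⟨ψ', hψ'At, hw⟩ := ptn_infres_exact (ρ := ptd_resRep ρC U) (W.subgroupOf U)
    ((A.W k W).subgroupOf U) hle hx'Z hat (fun n => ψ₀ (ofN n))
    (fun a n hn => hψ₀.1 (ofN a) (ofN n) (Subgroup.mem_subgroupOf.mp hn))
    (fun a n hn => hψ₀.2 (ofN a) n (Subgroup.mem_subgroupOf.mp hn))
    (fun n m => congrFun hψ₀d (ofN n, ofN m))
    (fun θ hθZ hθ1 hθ2 => by
      have hZ' : ptd_IsZ1 (ptd_resRep ρC W) (fun x => θ (toN x)) :=
        fun g h => hθZ (toN g) (toN h)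
      have hAt' : ptn_At₁ W (A.W k W) ρC (fun x => θ (toN x)) :=
        ⟨fun a n hn => hθ1 (toN a) (toN n) (Subgroup.mem_subgroupOf.mpr hn),
          fun x n hn => hθ2 (toN x) ⟨n, hWU hn.1⟩ (Subgroup.mem_subgroupOf.mpr hn)⟩
      obtain ⟨e, he⟩ := A.G5_1 W (A.W k W) (A.W_isOpen k hWo) hWK (A.W_le k W)
        (A.W_normal k W) (A.W_pgroup k W) _ hZ' hAt'
      exact ⟨e, funext fun n => congrFun he (ofN n)⟩)
  have hψ'lev : ptd_IsLev₁ (𝓛.sub U hU) ψ' := by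
    obtain ⟨N₂, hN₂, hN₂le⟩ := A.W_isOpen k hWo
    refine ⟨_, ⟨N₂, hN₂, (hN₂le.trans (A.W_le k W)).trans hWU, rfl⟩, fun g n hn => ?_⟩
    exact hψ'At.1 g n (Subgroup.mem_subgroupOf.mpr (hN₂le (Subgroup.mem_subgroupOf.mp hn)))
  -- cyclic periodicity
  obtain ⟨σ, hσ⟩ := ptd_exists_char_eq_one hχ hne
  have hzZ : ptd_IsZ2 (ptd_resRep ρC U)
      (ptd_bockSmul (p ^ k) (fun u : U => A.χ k u) (A.π a) - ptd_d1 (ptd_resRep ρC U) ψ') :=
    hx'Z.sub (ptd_isZ2_d1 ψ')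
  have hmemN : ∀ w : U, χ w = 0 → w ∈ W.subgroupOf U := fun w hw0 =>
    Subgroup.mem_subgroupOf.mpr ((hmemW w).mpr hw0)
  obtain ⟨c, hc, ψ'', hψ''1, -, hdec⟩ := ptd_cyclic_periodicity (ρ := ptd_resRep ρC U) hχ hσ hzZ
    (fun g h w w' hw0 hw0' => hw.1 g h w (hmemN w hw0) w' (hmemN w' hw0'))
    (fun w hw0 x => hw.2 x w (hmemN w hw0))
  have hψ''lev : ptd_IsLev₁ (𝓛.sub U hU) ψ'' := by
    obtain ⟨N, hN, h⟩ := hlev
    refine ⟨N, hN, fun g n hn => hψ''1 g n ?_⟩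
    have := h 1 n hn
    rwa [one_mul, ptn_char_one hχ] at this
  refine ⟨c, hc, ψ' + ψ'', hψ'lev.add hψ''lev, ?_⟩
  rw [ptd_d1_add, sub_eq_iff_eq_add.mp hdec]
  abel

/-- **First inequality, surjective form**: for an open subgroup `U ≤ K₀` and a nonzero level
character `χ : U → ZMod p`, every `t` killed by `p` is `inv_U (c · δχ)` for some `c ∈ C^U`. -/
theorem ptd_exists_inv_bock_eq (U : Subgroup G) (hU : 𝓛.IsOpen U) (hUK : U ≤ A.K₀)
    (χ : U → ZMod p) (hχ : ptd_IsChar χ) (hlev : ptd_IsLev₁ (𝓛.sub U hU) χ) (hne : χ ≠ 0)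
    (t : ptn_T p) (ht : p • t = 0) :
    ∃ c : C, (∀ g : U, ptd_resRep ρC U g c = c) ∧ A.inv U hU (ptd_bockSmul p χ c) = t := by
  obtain ⟨k, a, ha, hINV, hz₀⟩ := A.exists_inv_eq U hU t ht
  obtain ⟨c, hc, hB⟩ := ptd_exists_bock_of_tower A U hU hUK χ hχ hlev hne k a ha
    (by rw [hINV, ht])
  refine ⟨c, hc, ?_⟩
  rw [← A.inv_congr U hU hz₀.1 1 (by simpa using hz₀.2) hB, ← hINV,
    ← A.inv_π U hU (A.good_bock k hU ha), ptn_map_bockSmul]

/-- for an open subgroup `U ≤ K₀` and a nonzero level character `χ : U → ZMod p`, some `c ∈ C^U`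
has `inv_U (c · δχ) ≠ 0` -/
theorem ptd_exists_inv_bock_ne_zero (U : Subgroup G) (hU : 𝓛.IsOpen U) (hUK : U ≤ A.K₀)
    (χ : U → ZMod p) (hχ : ptd_IsChar χ) (hlev : ptd_IsLev₁ (𝓛.sub U hU) χ) (hne : χ ≠ 0) :
    ∃ c : C, (∀ g : U, ptd_resRep ρC U g c = c) ∧ A.inv U hU (ptd_bockSmul p χ c) ≠ 0 := by
  obtain ⟨c, hc, h⟩ := ptd_exists_inv_bock_eq A U hU hUK χ hχ hlev hne (ptd_tp p) (ptd_nsmul_tp p)
  exact ⟨c, hc, by rw [h]; exact ptd_tp_ne_zero p⟩

/-- **`(inj)` of (G8.A)** = `hF3LG` of helper4's `pts_S55_of_AbsK`: a level character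
`χ : U → ZMod p` of an open subgroup `U ≤ K₀` with `inv_U (c · δχ) = 0` for all `c ∈ C^U` is
zero. -/
theorem ptd_F3inj (U : Subgroup G) (hU : 𝓛.IsOpen U) (hUK : U ≤ A.K₀)
    (χ : U → ZMod p) (hχ : ptd_IsChar χ) (hlev : ptd_IsLev₁ (𝓛.sub U hU) χ)
    (h : ∀ c, (∀ g : U, ptd_resRep ρC U g c = c) → A.inv U hU (ptd_bockSmul p χ c) = 0) :
    χ = 0 := by
  by_contra hne
  obtain ⟨c, hc, hc0⟩ := ptd_exists_inv_bock_ne_zero A U hU hUK χ hχ hlev hne
  exact hc0 (h c hc)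

end Inj

end Fermat.Agent.Lib.PT
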