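/-
S55 (Poitou–Tate long haul), A-track, GLOBAL F3 abstract part (G8.A), part C: the COUNT.

* `ptd_F3_of_count_set` (formal, any invariant map): if every nonzero level character `χ` has a
  `c ∈ C^G` with `inv (c · δχ) ≠ 0` (first inequality), `C^G / p` is finite and `X₀` is a set of
  level characters with `[C^G : p C^G] ≤ #X₀`, then every functional `l` on `C^G / p` is
  `c ↦ inv (c · δχ)` for some `χ ∈ X₀` (helper6's `ptl_F3_of_count` with a prescribed set of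
  characters; `X₀` need not be a subgroup).
* `ptd_F3_global_set`, `ptd_F3_global` : the same on top of helper5's abstract class formation
  `ptn_AbsK`, for every open subgroup `U ≤ K₀`, the first inequality being `AdtF3B`.
-/
import Fermat.Agent.Lib.PT.AdtF3B
import Fermat.Agent.Lib.PT.ClsF3

set_option autoImplicit false
set_option linter.unusedSectionVars false

namespace Fermat.Agent.Lib.PT

section Count

variable {G : Type*} [Group G] {𝓛 : ptd_Levels G} {p : ℕ} [Fact p.Prime]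
variable {C : Type*} [AddCommGroup C] {ρC : Representation ℤ G C}
variable {T : Type*} [AddCommGroup T]

/-- the symbol is additive in the character: the difference form -/
lemma ptd_symb_sub (hdisc : ptd_IsDiscrete 𝓛 ρC) (inv : ptd_Inv 𝓛 ρC T p)
    {χ χ' : G → ZMod p} (hχ : ptd_IsChar χ) (hlev : ptd_IsLev₁ 𝓛 χ) (hχ' : ptd_IsChar χ')
    (hlev' : ptd_IsLev₁ 𝓛 χ') (c : ρC.invariants) :
    inv (ptd_bockSmul p (χ - χ') (c : C)) =
      inv (ptd_bockSmul p χ (c : C)) - inv (ptd_bockSmul p χ' (c : C)) := by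
  have hdχ := ptl_isChar_sub hχ hχ'
  have hdlev := hlev.sub hlev'
  have h1 := ptl_symb_add hdisc inv hχ' hlev' hdχ hdlev c
  simp only [ptl_symb_apply] at h1
  have h2 : χ' + (χ - χ') = χ := by abel
  rw [h2] at h1
  rw [h1]
  abel

/-- **F3 by counting, with a prescribed set of characters.** -/
theorem ptd_F3_of_count_set (hdisc : ptd_IsDiscrete 𝓛 ρC) (inv : ptd_Inv 𝓛 ρC T p)
    (hT : ∃ t₀ : T, p • t₀ = 0 ∧ ∀ t : T, p • t = 0 → ∃ k : ℕ, t = k • t₀)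
    (hnorm : ∀ χ : G → ZMod p, ptd_IsChar χ → ptd_IsLev₁ 𝓛 χ → χ ≠ 0 →
      ∃ c : ρC.invariants, inv (ptd_bockSmul p χ (c : C)) ≠ 0)
    (hfin : (ptl_pInv ρC p).index ≠ 0)
    (X₀ : Set (G → ZMod p)) (hX₀ : ∀ χ ∈ X₀, ptd_IsChar χ ∧ ptd_IsLev₁ 𝓛 χ)
    (hcard : (ptl_pInv ρC p).index ≤ Nat.card X₀)
    (l : ρC.invariants →+ T) (hl : ∀ c, l (p • c) = 0) :
    ∃ χ ∈ X₀, ∀ c : ρC.invariants, l c = inv (ptd_bockSmul p χ (c : C)) := by
  obtain ⟨t₀, ht₀, hcyc⟩ := hT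
  have hXne : Nonempty X₀ := by
    by_contra hemp
    rw [not_nonempty_iff] at hemp
    rw [Nat.card_of_isEmpty] at hcard
    exact hfin (Nat.le_zero.mp hcard)
  by_cases h0 : t₀ = 0
  · obtain ⟨⟨χ, hχX⟩⟩ := hXne
    refine ⟨χ, hχX, fun c => ?_⟩
    have hz : ∀ t : T, p • t = 0 → t = 0 := fun t ht => by
      obtain ⟨k, hk⟩ := hcyc t ht
      rw [hk, h0, smul_zero]
    rw [hz (l c) (by rw [← map_nsmul, hl])]
    exact (hz _ (ptl_nsmul_symb inv (hX₀ χ hχX).1 (hX₀ χ hχX).2 c)).symm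
  set ι := ptl_zetaHom t₀ ht₀ with hι
  have hιinj : Function.Injective ι := ptl_zetaHom_injective ht₀ h0
  have hιsurj : ∀ t : T, p • t = 0 → ∃ x, ι x = t := fun t ht => ptl_zetaHom_surjOn ht₀ hcyc ht
  -- factor a `T[p]`-valued additive map through `ι`
  have hfac : ∀ m : ρC.invariants →+ T, (∀ c, p • m c = 0) →
      ∃ L : ρC.invariants →+ ZMod p, ∀ c, ι (L c) = m c := by
    intro m hm
    choose L hL using fun c => hιsurj (m c) (hm c)
    exact ⟨AddMonoidHom.mk' L (fun c c' => hιinj (by rw [map_add, hL, hL, hL, map_add])), hL⟩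
  choose Φ hΦ using fun χ : X₀ =>
    hfac (ptl_symb inv (hX₀ χ.1 χ.2).1 (hX₀ χ.1 χ.2).2)
      (ptl_nsmul_symb inv (hX₀ χ.1 χ.2).1 (hX₀ χ.1 χ.2).2)
  have hΦinj : Function.Injective Φ := by
    intro χ χ' h
    by_contra hne
    have hd0 : χ.1 - χ'.1 ≠ 0 := fun h0 => hne (Subtype.ext (sub_eq_zero.mp h0))
    obtain ⟨c, hc⟩ := hnorm _ (ptl_isChar_sub (hX₀ χ.1 χ.2).1 (hX₀ χ'.1 χ'.2).1)
      ((hX₀ χ.1 χ.2).2.sub (hX₀ χ'.1 χ'.2).2) hd0
    apply hc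
    rw [ptd_symb_sub hdisc inv (hX₀ χ.1 χ.2).1 (hX₀ χ.1 χ.2).2 (hX₀ χ'.1 χ'.2).1
      (hX₀ χ'.1 χ'.2).2 c, ← ptl_symb_apply inv (hX₀ χ.1 χ.2).1 (hX₀ χ.1 χ.2).2,
      ← ptl_symb_apply inv (hX₀ χ'.1 χ'.2).1 (hX₀ χ'.1 χ'.2).2, ← hΦ, ← hΦ, h, sub_self]
  have hker : ∀ L : ρC.invariants →+ ZMod p, ptl_pInv ρC p ≤ L.ker := by
    rintro L _ ⟨d, rfl⟩
    rw [AddMonoidHom.mem_ker]
    show L (p • d) = 0
    rw [map_nsmul]; simp
  obtain ⟨hfinE, hcardE⟩ := ptl_card_addHom_le p (ptl_pInv ρC p)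
    (fun x => ⟨x, rfl⟩) hker hfin
  have hbij := hΦinj.bijective_of_nat_card_le (hcardE.trans hcard)
  obtain ⟨L, hL⟩ := hfac l (fun c => by rw [← map_nsmul, hl])
  obtain ⟨χ, hχ⟩ := hbij.2 L
  refine ⟨χ.1, χ.2, fun c => ?_⟩
  rw [← hL, ← hχ, hΦ, ptl_symb_apply]

end Count

section Global

variable {G : Type*} [Group G] {J C : Type*} [AddCommGroup J] [AddCommGroup C]
variable {𝓛 : ptd_Levels G} {ρJ : Representation ℤ G J} {ρC : Representation ℤ G C}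
variable {p : ℕ} [hp : Fact p.Prime] (A : ptn_AbsK 𝓛 ρJ ρC p)

/-- the `p`-torsion of `ptn_T p` is cyclic, in the form used by the counting arguments -/
lemma ptd_T_tors_cyclic :
    ∃ t₀ : ptn_T p, p • t₀ = 0 ∧ ∀ t : ptn_T p, p • t = 0 → ∃ k : ℕ, t = k • t₀ := by
  obtain ⟨t₀, h1, -, h2⟩ := ptn_T_tors_cyclic (p := p)
  exact ⟨t₀, h1, h2⟩

/-- **GLOBAL F3, abstract form with a prescribed set of characters** (`(count)` of (G8.A)): for an
open subgroup `U ≤ K₀` with `C^U / p` finite and a set `X₀` of level characters `U → ZMod p` with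
`[C^U : p C^U] ≤ #X₀`, every functional on `C^U / p` is `c ↦ inv_U (c · δχ)` with `χ ∈ X₀`. -/
theorem ptd_F3_global_set (U : Subgroup G) (hU : 𝓛.IsOpen U) (hUK : U ≤ A.K₀)
    (hfin : (ptl_pInv (ptd_resRep ρC U) p).index ≠ 0)
    (X₀ : Set (U → ZMod p)) (hX₀ : ∀ χ ∈ X₀, ptd_IsChar χ ∧ ptd_IsLev₁ (𝓛.sub U hU) χ)
    (hcard : (ptl_pInv (ptd_resRep ρC U) p).index ≤ Nat.card X₀)
    (l : (ptd_resRep ρC U).invariants →+ ptn_T p) (hl : ∀ c, l (p • c) = 0) :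
    ∃ χ ∈ X₀, ∀ c : (ptd_resRep ρC U).invariants,
      l c = A.inv U hU (ptd_bockSmul p χ (c : C)) := by
  refine ptd_F3_of_count_set (A.discC.resRep U hU) (A.inv U hU) ptd_T_tors_cyclic ?_ hfin X₀ hX₀
    hcard l hl
  intro χ hχ hlev hne
  obtain ⟨c, hc, hc0⟩ := ptd_exists_inv_bock_ne_zero A U hU hUK χ hχ hlev hne
  exact ⟨⟨c, hc⟩, hc0⟩

/-- **GLOBAL F3, abstract form**: `ptd_F3` for the open subgroup `U ≤ K₀` from the count. -/
theorem ptd_F3_global (U : Subgroup G) (hU : 𝓛.IsOpen U) (hUK : U ≤ A.K₀)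
    (hfin : (ptl_pInv (ptd_resRep ρC U) p).index ≠ 0)
    (X₀ : Set (U → ZMod p)) (hX₀ : ∀ χ ∈ X₀, ptd_IsChar χ ∧ ptd_IsLev₁ (𝓛.sub U hU) χ)
    (hcard : (ptl_pInv (ptd_resRep ρC U) p).index ≤ Nat.card X₀) :
    ptd_F3 (𝓛.sub U hU) (ptd_resRep ρC U) (A.inv U hU) := by
  intro l hl
  obtain ⟨χ, hχX, h⟩ := ptd_F3_global_set A U hU hUK hfin X₀ hX₀ hcard l hl
  exact ⟨χ, (hX₀ χ hχX).1, (hX₀ χ hχX).2, h⟩

end Global

end Fermat.Agent.Lib.PT
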