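/-
S55 (Poitou–Tate long haul), A-track, GLOBAL F3 abstract part (G8.A′), part D: the SPLIT
CHARACTERS are at most `#Q` many, `Q = C^G / (π(J^G) + p C^G)`.

* `ptd_card_addHom_ker_le` : additive maps `A → ZMod p` vanishing on `H ⊇ p A` are at most
  `[A : H]` many.
* `ptd_card_le_index_of_vanish` (formal, any invariant map): if `inv (c · δχ) = 0` for all
  `c ∈ C^G` forces `χ = 0` (first inequality) and `Xs` is a set of level characters whose symbols
  `c ↦ inv (c · δχ)` vanish on a subgroup `H ⊇ p C^G` of finite index of `C^G`, then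
  `#Xs ≤ [C^G : H]`.
* `ptd_piInv` : the image of `J^G` in `C^G`; `ptd_QSub = ptd_piInv ⊔ ptl_pInv` (so that
  `C^G / ptd_QSub = Q`).
* `ptd_inv_bock_split_eq_zero` : by the local–global formula `ptd_GLG`, the symbol of a character
  which is trivial on all the local groups vanishes on `π(J^G)`.
* `ptd_card_split_le` : `#X^split ≤ [C^G : π(J^G) + p C^G]`.
-/
import Fermat.Agent.Lib.PT.AdtF3C
import Fermat.Agent.Lib.PT.AdtBaseDefs

set_option autoImplicit false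
set_option linter.unusedSectionVars false
set_option linter.style.haveILetI false

namespace Fermat.Agent.Lib.PT

section CountKer

/-- additive maps `A → ZMod p` vanishing on a subgroup `H ⊇ p A` of finite index are at most
`[A : H]` many -/
theorem ptd_card_addHom_ker_le (p : ℕ) [Fact p.Prime] {A : Type*} [AddCommGroup A]
    (H : AddSubgroup A) (hH : ∀ x : A, p • x ∈ H) (hfin : H.index ≠ 0) :
    Finite {L : A →+ ZMod p // H ≤ L.ker} ∧
      Nat.card {L : A →+ ZMod p // H ≤ L.ker} ≤ H.index := by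
  haveI : H.FiniteIndex := ⟨hfin⟩
  haveI : Finite (A ⧸ H) := AddSubgroup.finite_quotient_of_finiteIndex
  letI inst : Module (ZMod p) (A ⧸ H) := QuotientAddGroup.zmodModule hH
  obtain ⟨hf, hc⟩ := @ptl_card_dual p _ (A ⧸ H) _ inst _
  let Θ : {L : A →+ ZMod p // H ≤ L.ker} → Module.Dual (ZMod p) (A ⧸ H) :=
    fun L => (QuotientAddGroup.lift H L.1 L.2).toZModLinearMap p
  have hΘ : Function.Injective Θ := by
    intro L L' h
    refine Subtype.ext (AddMonoidHom.ext fun c => ?_)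
    have := LinearMap.congr_fun h (QuotientAddGroup.mk c)
    simpa [Θ] using this
  refine ⟨Finite.of_injective Θ hΘ, ?_⟩
  calc Nat.card {L : A →+ ZMod p // H ≤ L.ker}
      ≤ Nat.card (Module.Dual (ZMod p) (A ⧸ H)) := Nat.card_le_card_of_injective Θ hΘ
    _ = Nat.card (A ⧸ H) := hc
    _ = H.index := (AddSubgroup.index_eq_card _).symm

end CountKer

section Formal

variable {G : Type*} [Group G] {𝓛 : ptd_Levels G} {p : ℕ} [Fact p.Prime]
variable {C : Type*} [AddCommGroup C] {ρC : Representation ℤ G C}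
variable {T : Type*} [AddCommGroup T]

/-- **Counting characters whose symbol vanishes on a subgroup**: if the first inequality holds
(`hinj`) and the symbols `c ↦ inv (c · δχ)` of the level characters `χ ∈ Xs` all vanish on a
subgroup `H ⊇ p C^G` of finite index of `C^G`, then `Xs` is finite with `#Xs ≤ [C^G : H]`. -/
theorem ptd_card_le_index_of_vanish (hdisc : ptd_IsDiscrete 𝓛 ρC) (inv : ptd_Inv 𝓛 ρC T p)
    (hT : ∃ t₀ : T, p • t₀ = 0 ∧ ∀ t : T, p • t = 0 → ∃ k : ℕ, t = k • t₀)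
    (hinj : ∀ χ : G → ZMod p, ptd_IsChar χ → ptd_IsLev₁ 𝓛 χ →
      (∀ c : ρC.invariants, inv (ptd_bockSmul p χ (c : C)) = 0) → χ = 0)
    (H : AddSubgroup ρC.invariants) (hpH : ∀ c : ρC.invariants, p • c ∈ H)
    (hfin : H.index ≠ 0)
    (Xs : Set (G → ZMod p))
    (hXs : ∀ χ ∈ Xs, ptd_IsChar χ ∧ ptd_IsLev₁ 𝓛 χ ∧
      ∀ c ∈ H, inv (ptd_bockSmul p χ ((c : ρC.invariants) : C)) = 0) :
    Xs.Finite ∧ Nat.card Xs ≤ H.index := by
  obtain ⟨t₀, ht₀, hcyc⟩ := hT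
  by_cases h0 : t₀ = 0
  · -- the `p`-torsion of `T` is trivial: every character in `Xs` is zero
    have hz : ∀ t : T, p • t = 0 → t = 0 := fun t ht => by
      obtain ⟨k, hk⟩ := hcyc t ht
      rw [hk, h0, smul_zero]
    have hsub : Xs ⊆ {0} := by
      intro χ hχX
      obtain ⟨hχ, hlev, -⟩ := hXs χ hχX
      exact hinj χ hχ hlev (fun c => hz _ (ptl_nsmul_symb inv hχ hlev c))
    have hfinX : Xs.Finite := (Set.finite_singleton _).subset hsub
    refine ⟨hfinX, ?_⟩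
    calc Nat.card Xs ≤ Nat.card ({0} : Set (G → ZMod p)) :=
          Nat.card_mono (Set.finite_singleton _) hsub
      _ = 1 := by simp
      _ ≤ H.index := Nat.one_le_iff_ne_zero.mpr hfin
  set ι := ptl_zetaHom t₀ ht₀ with hι
  have hιinj : Function.Injective ι := ptl_zetaHom_injective ht₀ h0
  have hιsurj : ∀ t : T, p • t = 0 → ∃ x, ι x = t := fun t ht => ptl_zetaHom_surjOn ht₀ hcyc ht
  have hfac : ∀ m : ρC.invariants →+ T, (∀ c, p • m c = 0) →
      ∃ L : ρC.invariants →+ ZMod p, ∀ c, ι (L c) = m c := by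
    intro m hm
    choose L hL using fun c => hιsurj (m c) (hm c)
    exact ⟨AddMonoidHom.mk' L (fun c c' => hιinj (by rw [map_add, hL, hL, hL, map_add])), hL⟩
  choose Φ hΦ using fun χ : Xs =>
    hfac (ptl_symb inv (hXs χ.1 χ.2).1 (hXs χ.1 χ.2).2.1)
      (ptl_nsmul_symb inv (hXs χ.1 χ.2).1 (hXs χ.1 χ.2).2.1)
  have hΦker : ∀ χ : Xs, H ≤ (Φ χ).ker := by
    intro χ c hc
    rw [AddMonoidHom.mem_ker]
    apply hιinj
    rw [hΦ, ptl_symb_apply, map_zero]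
    exact (hXs χ.1 χ.2).2.2 c hc
  let Ψ : Xs → {L : ρC.invariants →+ ZMod p // H ≤ L.ker} := fun χ => ⟨Φ χ, hΦker χ⟩
  have hΨinj : Function.Injective Ψ := by
    intro χ χ' h
    have h' : Φ χ = Φ χ' := congrArg Subtype.val h
    have hd := hinj _ (ptl_isChar_sub (hXs χ.1 χ.2).1 (hXs χ'.1 χ'.2).1)
      ((hXs χ.1 χ.2).2.1.sub (hXs χ'.1 χ'.2).2.1) (fun c => by
        rw [ptd_symb_sub hdisc inv (hXs χ.1 χ.2).1 (hXs χ.1 χ.2).2.1 (hXs χ'.1 χ'.2).1
          (hXs χ'.1 χ'.2).2.1 c, ← ptl_symb_apply inv (hXs χ.1 χ.2).1 (hXs χ.1 χ.2).2.1,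
          ← ptl_symb_apply inv (hXs χ'.1 χ'.2).1 (hXs χ'.1 χ'.2).2.1, ← hΦ, ← hΦ, h', sub_self])
    exact Subtype.ext (sub_eq_zero.mp hd)
  obtain ⟨hfinE, hcardE⟩ := ptd_card_addHom_ker_le p H hpH hfin
  have hfinX : Finite Xs := Finite.of_injective Ψ hΨinj
  exact ⟨Set.toFinite Xs, (Nat.card_le_card_of_injective Ψ hΨinj).trans hcardE⟩

end Formal

section Split

variable {G : Type*} [Group G] {𝓛 : ptd_Levels G} {p : ℕ} [Fact p.Prime]
variable {J : Type*} [AddCommGroup J] {ρJ : Representation ℤ G J}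
variable {C : Type*} [AddCommGroup C] {ρC : Representation ℤ G C}
variable {π : J →+ C}
variable {𝒱 : Type*} {Gv : 𝒱 → Type*} [∀ v, Group (Gv v)] {𝓛v : ∀ v, ptd_Levels (Gv v)}
variable {Av : 𝒱 → Type*} [∀ v, AddCommGroup (Av v)] {ρv : ∀ v, Representation ℤ (Gv v) (Av v)}
variable {r : ∀ v, Gv v →* G} {ev : ∀ v, J →+ Av v}
variable {T : Type*} [AddCommGroup T] [Fintype 𝒱]

/-- the image of `J^G` in `C^G` -/
def ptd_piInv (ρJ : Representation ℤ G J) (ρC : Representation ℤ G C) (π : J →+ C) :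
    AddSubgroup ρC.invariants where
  carrier := {c | ∃ j : J, (∀ g, ρJ g j = j) ∧ π j = (c : C)}
  zero_mem' := ⟨0, fun g => map_zero _, map_zero _⟩
  add_mem' := by
    rintro c c' ⟨j, hj, hjc⟩ ⟨j', hj', hjc'⟩
    exact ⟨j + j', fun g => by rw [map_add, hj, hj'], by
      rw [map_add, hjc, hjc']; rfl⟩
  neg_mem' := by
    rintro c ⟨j, hj, hjc⟩
    exact ⟨-j, fun g => by rw [map_neg, hj], by rw [map_neg, hjc]; rfl⟩

lemma ptd_mem_piInv {c : ρC.invariants} :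
    c ∈ ptd_piInv ρJ ρC π ↔ ∃ j : J, (∀ g, ρJ g j = j) ∧ π j = (c : C) := Iff.rfl

/-- the subgroup `π(J^G) + p C^G` of `C^G`; the quotient is `Q` -/
noncomputable def ptd_QSub (ρJ : Representation ℤ G J) (ρC : Representation ℤ G C) (π : J →+ C)
    (p : ℕ) : AddSubgroup ρC.invariants :=
  ptd_piInv ρJ ρC π ⊔ ptl_pInv ρC p

lemma ptd_nsmul_mem_QSub (c : ρC.invariants) : p • c ∈ ptd_QSub ρJ ρC π p :=
  AddSubgroup.mem_sup_right ⟨c, rfl⟩

/-- by the local–global formula, the symbol of a level character which is trivial on all the local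
groups vanishes on `π(J^G)` -/
theorem ptd_inv_bock_split_eq_zero {inv : ptd_Inv 𝓛 ρC T p}
    {invv : ∀ v, ptd_Inv (𝓛v v) (ρv v) T p}
    (hπ : ∀ g x, π (ρJ g x) = ρC g (π x))
    (hLG : ptd_GLG 𝓛 p ρJ ρC π 𝓛v ρv r ev inv invv)
    {χ : G → ZMod p} (hχ : ptd_IsChar χ) (hlev : ptd_IsLev₁ 𝓛 χ)
    (hsplit : ∀ v t, χ (r v t) = 0) {j : J} (hj : ∀ g, ρJ g j = j) :
    inv (ptd_bockSmul p χ (π j)) = 0 := by
  have hW : ptd_IsLZ2 𝓛 ρJ (ptd_bockSmul p χ j) :=
    ⟨ptn_isZ2_bockSmul hχ hj, ptn_isLev₂_bockSmul hlev j⟩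
  have hπW : (fun y => π (ptd_bockSmul p χ j y)) = ptd_bockSmul p χ (π j) :=
    ptn_map_bockSmul π χ j
  have hπj : ∀ g, ρC g (π j) = π j := fun g => by rw [← hπ, hj]
  have h := hLG _ hW (by rw [hπW]; exact ptl_bockSmul_isLZ2p hχ hlev hπj)
  rw [hπW] at h
  rw [h]
  refine Finset.sum_eq_zero fun v _ => ?_
  have hloc : ptd_loc₂ (r v) (ev v) (ptd_bockSmul p χ j) = 0 := by
    funext ⟨x, y⟩
    have h0 : ptd_bock p χ (r v x, r v y) = 0 := by
      have hm := ptn_mul_bock hχ (r v x) (r v y)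
      rw [← map_mul, hsplit, hsplit, hsplit] at hm
      simp only [ZMod.val_zero, Nat.cast_zero, sub_self, add_zero] at hm
      have hp0 : (p : ℤ) ≠ 0 := by exact_mod_cast (NeZero.ne p)
      exact (mul_eq_zero.mp hm).resolve_left hp0
    simp only [ptd_loc₂_apply, ptn_bockSmul_apply, h0, zero_smul, map_zero, Pi.zero_apply]
  rw [hloc]
  exact (invv v).map_b2' _ ptd_isB2_zero

/-- the symbol of a split level character vanishes on `π(J^G) + p C^G` -/
theorem ptd_inv_bock_split_eq_zero_of_mem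
    {inv : ptd_Inv 𝓛 ρC T p} {invv : ∀ v, ptd_Inv (𝓛v v) (ρv v) T p}
    (hπ : ∀ g x, π (ρJ g x) = ρC g (π x))
    (hLG : ptd_GLG 𝓛 p ρJ ρC π 𝓛v ρv r ev inv invv)
    {χ : G → ZMod p} (hχ : ptd_IsChar χ) (hlev : ptd_IsLev₁ 𝓛 χ)
    (hsplit : ∀ v t, χ (r v t) = 0) {c : ρC.invariants} (hc : c ∈ ptd_QSub ρJ ρC π p) :
    inv (ptd_bockSmul p χ (c : C)) = 0 := by
  obtain ⟨c₁, hc₁, c₂, hc₂, rfl⟩ := AddSubgroup.mem_sup.mp hc
  obtain ⟨j, hj, hjc⟩ := hc₁
  obtain ⟨d, rfl⟩ := hc₂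
  have h1 := (ptl_symb inv hχ hlev).map_add c₁ (nsmulAddMonoidHom (α := ρC.invariants) p d)
  simp only [ptl_symb_apply] at h1
  rw [h1, ← hjc, ptd_inv_bock_split_eq_zero hπ hLG hχ hlev hsplit hj, zero_add]
  have h2 := ptl_nsmul_symb inv hχ hlev d
  rw [← map_nsmul, ptl_symb_apply] at h2
  exact h2

/-- **The split characters are at most `#Q` many**, `Q = C^G / (π(J^G) + p C^G)`: if the
local–global formula `ptd_GLG` and the first inequality `hinj` hold, then every set `Xs` of level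
characters which are trivial on all the local groups `r v : Gv v → G` has
`#Xs ≤ [C^G : π(J^G) + p C^G]`. -/
theorem ptd_card_split_le (hdisc : ptd_IsDiscrete 𝓛 ρC)
    {inv : ptd_Inv 𝓛 ρC T p} {invv : ∀ v, ptd_Inv (𝓛v v) (ρv v) T p}
    (hT : ∃ t₀ : T, p • t₀ = 0 ∧ ∀ t : T, p • t = 0 → ∃ k : ℕ, t = k • t₀)
    (hπ : ∀ g x, π (ρJ g x) = ρC g (π x))
    (hLG : ptd_GLG 𝓛 p ρJ ρC π 𝓛v ρv r ev inv invv)
    (hinj : ∀ χ : G → ZMod p, ptd_IsChar χ → ptd_IsLev₁ 𝓛 χ →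
      (∀ c : ρC.invariants, inv (ptd_bockSmul p χ (c : C)) = 0) → χ = 0)
    (hfin : (ptd_QSub ρJ ρC π p).index ≠ 0)
    (Xs : Set (G → ZMod p))
    (hXs : ∀ χ ∈ Xs, ptd_IsChar χ ∧ ptd_IsLev₁ 𝓛 χ ∧ ∀ v t, χ (r v t) = 0) :
    Xs.Finite ∧ Nat.card Xs ≤ (ptd_QSub ρJ ρC π p).index :=
  ptd_card_le_index_of_vanish hdisc inv hT hinj (ptd_QSub ρJ ρC π p)
    ptd_nsmul_mem_QSub hfin Xs (fun χ hχX =>
      ⟨(hXs χ hχX).1, (hXs χ hχX).2.1, fun _ hc =>
        ptd_inv_bock_split_eq_zero_of_mem hπ hLG (hXs χ hχX).1 (hXs χ hχX).2.1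
          (hXs χ hχX).2.2 hc⟩)

end Split

section Global

variable {G : Type*} [Group G] {J C : Type*} [AddCommGroup J] [AddCommGroup C]
variable {𝓛 : ptd_Levels G} {ρJ : Representation ℤ G J} {ρC : Representation ℤ G C}
variable {p : ℕ} [hp : Fact p.Prime] (A : ptn_AbsK 𝓛 ρJ ρC p)
variable {J' : Type*} [AddCommGroup J'] {ρJ' : Representation ℤ G J'} {π' : J' →+ C}
variable {U : Subgroup G}
variable {𝒱 : Type*} {Gv : 𝒱 → Type*} [∀ v, Group (Gv v)] {𝓛v : ∀ v, ptd_Levels (Gv v)}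
variable {Av : 𝒱 → Type*} [∀ v, AddCommGroup (Av v)] {ρv : ∀ v, Representation ℤ (Gv v) (Av v)}
variable {r : ∀ v, Gv v →* U} {ev : ∀ v, J' →+ Av v} [Fintype 𝒱]

/-- **`#X^split ≤ #Q` over an open subgroup `U ≤ K₀`** of an abstract class formation `ptn_AbsK`:
`(LG-U)` for a semi-local module `J'` (possibly smaller than the idele module of `A`) and the first
inequality `ptd_F3inj` bound the number of level characters of `U` which are trivial on all the
local groups by `[C^U : π'(J'^U) + p C^U]`. -/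
theorem ptd_card_split_le_global (hU : 𝓛.IsOpen U) (hUK : U ≤ A.K₀)
    {invv : ∀ v, ptd_Inv (𝓛v v) (ρv v) (ptn_T p) p}
    (hπ' : ∀ g x, π' (ρJ' g x) = ρC g (π' x))
    (hLG : ptd_GLG (𝓛.sub U hU) p (ptd_resRep ρJ' U) (ptd_resRep ρC U) π' 𝓛v ρv r ev
      (A.inv U hU) invv)
    (hfin : (ptd_QSub (ptd_resRep ρJ' U) (ptd_resRep ρC U) π' p).index ≠ 0)
    (Xs : Set (U → ZMod p))
    (hXs : ∀ χ ∈ Xs, ptd_IsChar χ ∧ ptd_IsLev₁ (𝓛.sub U hU) χ ∧ ∀ v t, χ (r v t) = 0) :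
    Xs.Finite ∧ Nat.card Xs ≤ (ptd_QSub (ptd_resRep ρJ' U) (ptd_resRep ρC U) π' p).index :=
  ptd_card_split_le (A.discC.resRep U hU) ptd_T_tors_cyclic (fun g x => hπ' g x) hLG
    (fun χ hχ hlev h => ptd_F3inj A U hU hUK χ hχ hlev (fun c hc => h ⟨c, hc⟩)) hfin Xs hXs

end Global

end Fermat.Agent.Lib.PT
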