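/-
S55 (Poitou–Tate long haul), A-track: the corestriction package for FINITE groups in Mathlib's
`groupCohomology` low-degree language (a finite group is the big-group model with the single
level `⊥`).  Main statement: Sylow-type injectivity of restriction in degree 2.
-/
import Fermat.Agent.Lib.PT.AdtCorE

set_option autoImplicit false

universe u

namespace Fermat.Agent.Lib.PT

open groupCohomology

section Bot

variable (G : Type*) [Group G] [Finite G]

/-- the level structure `{⊥}` on a finite group: every cochain is level-constant -/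
def ptd_levelsBot : ptd_Levels G where
  lev := {⊥}
  nonempty := ⟨⊥, rfl⟩
  normal := by rintro _ rfl; infer_instance
  finiteIndex := by rintro _ rfl; infer_instance
  directed := by rintro _ rfl _ rfl; exact ⟨⊥, rfl, le_inf le_rfl le_rfl⟩

variable {G}

lemma ptd_isLev₁_bot {X : Type*} (f : G → X) : ptd_IsLev₁ (ptd_levelsBot G) f :=
  ⟨⊥, rfl, fun g n hn => by rw [Subgroup.mem_bot.mp hn, mul_one]⟩

lemma ptd_isLev₂_bot {X : Type*} (f : G × G → X) : ptd_IsLev₂ (ptd_levelsBot G) f :=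
  ⟨⊥, rfl, fun g h n hn n' hn' => by
    rw [Subgroup.mem_bot.mp hn, Subgroup.mem_bot.mp hn', mul_one, mul_one]⟩

lemma ptd_isOpen_bot (U : Subgroup G) : (ptd_levelsBot G).IsOpen U := ⟨⊥, rfl, bot_le⟩

lemma ptd_isLev₁_bot_sub (U : Subgroup G) {X : Type*} (f : U → X) :
    ptd_IsLev₁ ((ptd_levelsBot G).sub U (ptd_isOpen_bot U)) f :=
  ⟨_, ⟨⊥, rfl, bot_le, rfl⟩, fun g n hn => by
    have : n = 1 := Subtype.ext (Subgroup.mem_bot.mp (Subgroup.mem_subgroupOf.mp hn))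
    rw [this, mul_one]⟩

end Bot

section Mathlib

variable {k G : Type u} [CommRing k] [Group G] [Finite G] (A : Rep k G)

lemma ptd_isZ2_iff_mem (z : G × G → A) : ptd_IsZ2 A.ρ z ↔ z ∈ cocycles₂ A :=
  (mem_cocycles₂_iff z).symm

lemma ptd_d1_eq_d₁₂ (φ : G → A) : ptd_d1 A.ρ φ = (d₁₂ A).hom φ := by
  funext ⟨g, h⟩
  rw [ptd_d1_apply, d₁₂_hom_apply]

lemma ptd_isB2_bot_iff (z : G × G → A) :
    ptd_IsB2 (ptd_levelsBot G) A.ρ z ↔ z ∈ coboundaries₂ A := by
  constructor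
  · rintro ⟨φ, -, rfl⟩
    exact ⟨φ, (ptd_d1_eq_d₁₂ A φ).symm⟩
  · rintro ⟨φ, rfl⟩
    exact ⟨φ, ptd_isLev₁_bot φ, (ptd_d1_eq_d₁₂ A φ).symm⟩

/-- **Sylow-type injectivity of restriction in degree 2** (finite groups, Mathlib language):
if `[G : U]` is prime to `p`, a 2-cocycle `z` with `p • z` a coboundary and `res_U z` a coboundary
is a coboundary. -/
theorem ptd_mem_coboundaries₂_of_res (U : Subgroup G) {p : ℕ} (hp : Nat.Coprime U.index p)
    {z : G × G → A} (hz : z ∈ cocycles₂ A) (hpz : p • z ∈ coboundaries₂ A)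
    (hres : (fun x : U × U => z (x.1, x.2)) ∈ coboundaries₂ (Rep.res U.subtype A)) :
    z ∈ coboundaries₂ A := by
  rw [← ptd_isB2_bot_iff]
  refine ptd_isB2_of_res₂ U (ptd_isOpen_bot U) A.ρ hp
    ⟨⟨(ptd_isZ2_iff_mem A z).2 hz, ptd_isLev₂_bot z⟩, (ptd_isB2_bot_iff A _).2 hpz⟩ ?_
  obtain ⟨φ, hφ⟩ := hres
  refine ⟨φ, ptd_isLev₁_bot_sub U φ, ?_⟩
  have h1 : ptd_res₂ U z = fun x : U × U => z (x.1, x.2) := rfl
  rw [h1, ← hφ]
  funext ⟨a, b⟩
  rw [d₁₂_hom_apply]
  rfl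

/-- `[G : U] • z` is cohomologous to `cor (res z)`; in particular if `res_U z` is a coboundary
then `[G : U] • z` is a coboundary. -/
theorem ptd_index_smul_mem_coboundaries₂_of_res (U : Subgroup G)
    {z : G × G → A} (hz : z ∈ cocycles₂ A)
    (hres : (fun x : U × U => z (x.1, x.2)) ∈ coboundaries₂ (Rep.res U.subtype A)) :
    U.index • z ∈ coboundaries₂ A := by
  rw [← ptd_isB2_bot_iff]
  have hres' : ptd_IsB2 ((ptd_levelsBot G).sub U (ptd_isOpen_bot U)) (ptd_resRep A.ρ U)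
      (ptd_res₂ U z) := by
    obtain ⟨φ, hφ⟩ := hres
    refine ⟨φ, ptd_isLev₁_bot_sub U φ, ?_⟩
    have h1 : ptd_res₂ U z = fun x : U × U => z (x.1, x.2) := rfl
    rw [h1, ← hφ]
    funext ⟨a, b⟩
    rw [d₁₂_hom_apply]
    rfl
  have := (ptd_cor₂_res_sub_isB2 U (ptd_isOpen_bot U) A.ρ
    ⟨(ptd_isZ2_iff_mem A z).2 hz, ptd_isLev₂_bot z⟩).add
    (ptd_isB2_cor₂ U (ptd_isOpen_bot U) A.ρ hres')
  simpa using this

end Mathlib

end Fermat.Agent.Lib.PT
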