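/-
Poitou–Tate long haul (S55): the pure linear-algebra endgame (work package S3).

From the five classical inputs
  (E)  `δ : X → V` with `ker δ = range j` and `range δ = Sha1`,
  (A)  `a : X → Dual H2` surjective,
  (B)  `ker a ≤ ker δ`,
  (C)  `b : P0 → Dual P2` surjective,
  (D)  `a ∘ j = loc^∨ ∘ b`,
we produce a bilinear pairing `Sha1 × ker loc → k` which is non-degenerate on both sides,
in exactly the shape demanded by the frozen statement S55
(`X = Hom_G(M, C_S)`, `P0 = ⊕_v H⁰(ℚ_v, M')`, `H2 = H²(G_S, M)`, `P2 = ∏_v H²(ℚ_v, M)`,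
`V = H¹(G_ℚ, M')`, `Sha1 = Ш¹_S(M')`, `ker loc = Ш²_S(M)`).
No finiteness hypothesis is needed.
-/
import Mathlib

set_option autoImplicit false

namespace Fermat.Agent.Lib.PT

open Module

section Assembly

variable {k : Type*} [Field k]
variable {P0 X H2 P2 V : Type*}
variable [AddCommGroup P0] [Module k P0] [AddCommGroup X] [Module k X]
variable [AddCommGroup H2] [Module k H2] [AddCommGroup P2] [Module k P2]
variable [AddCommGroup V] [Module k V]

/-- The map `X → Dual (ker loc)`, `f ↦ (a f)|_{ker loc}`. -/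
noncomputable def pts_phi (a : X →ₗ[k] Dual k H2) (loc : H2 →ₗ[k] P2) :
    X →ₗ[k] Dual k (LinearMap.ker loc) :=
  (LinearMap.ker loc).subtype.dualMap ∘ₗ a

@[simp] lemma pts_phi_apply (a : X →ₗ[k] Dual k H2) (loc : H2 →ₗ[k] P2) (f : X)
    (x : LinearMap.ker loc) : pts_phi a loc f x = a f x := rfl

/-- `Φ` kills `ker δ` (uses (E) `ker δ ≤ range j` and (D)). -/
lemma pts_phi_ker (j : P0 →ₗ[k] X) (a : X →ₗ[k] Dual k H2) (loc : H2 →ₗ[k] P2)
    (b : P0 →ₗ[k] Dual k P2) (δ : X →ₗ[k] V)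
    (hcompat : ∀ x0, a (j x0) = (b x0).comp loc)
    (hδj : LinearMap.ker δ ≤ LinearMap.range j) :
    LinearMap.ker δ ≤ LinearMap.ker (pts_phi a loc) := by
  intro f hf
  obtain ⟨x0, rfl⟩ := hδj hf
  rw [LinearMap.mem_ker]
  ext x
  rw [pts_phi_apply, hcompat x0]
  simp [LinearMap.mem_ker.1 x.2]

/-- Injectivity of the induced map: `Φ f = 0 → δ f = 0`
(uses (B), (C), (D), `range j ≤ ker δ`). -/
lemma pts_phi_inj (j : P0 →ₗ[k] X) (a : X →ₗ[k] Dual k H2) (loc : H2 →ₗ[k] P2)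
    (b : P0 →ₗ[k] Dual k P2) (δ : X →ₗ[k] V)
    (hker : ∀ f, a f = 0 → δ f = 0)
    (hb : Function.Surjective b)
    (hcompat : ∀ x0, a (j x0) = (b x0).comp loc)
    (hjδ : ∀ x0, δ (j x0) = 0)
    (f : X) (hf : pts_phi a loc f = 0) : δ f = 0 := by
  -- `a f` vanishes on `ker loc`, hence lies in the range of `loc.dualMap`
  have h1 : a f ∈ (LinearMap.ker loc).dualAnnihilator := by
    rw [Submodule.mem_dualAnnihilator]
    intro x hx
    have := LinearMap.congr_fun hf ⟨x, hx⟩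
    simpa using this
  rw [← LinearMap.range_dualMap_eq_dualAnnihilator_ker] at h1
  obtain ⟨ψ, hψ⟩ := h1
  obtain ⟨x0, rfl⟩ := hb ψ
  have h2 : a (f - j x0) = 0 := by
    rw [map_sub, hcompat x0, ← hψ]
    ext x
    simp
  have h3 := hker _ h2
  rw [map_sub, hjδ x0, sub_zero] at h3
  exact h3

/-- **Assembly lemma** for the Poitou–Tate pairing. -/
theorem pts_exists_pairing
    (j : P0 →ₗ[k] X) (a : X →ₗ[k] Dual k H2) (loc : H2 →ₗ[k] P2)
    (b : P0 →ₗ[k] Dual k P2) (δ : X →ₗ[k] V) (Sha1 : Submodule k V)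
    (ha : Function.Surjective a)
    (hker : ∀ f, a f = 0 → δ f = 0)
    (hb : Function.Surjective b)
    (hcompat : ∀ x0, a (j x0) = (b x0).comp loc)
    (hδj : LinearMap.ker δ = LinearMap.range j)
    (hδr : LinearMap.range δ = Sha1) :
    ∃ B : Sha1 →ₗ[k] (LinearMap.ker loc) →ₗ[k] k,
      (∀ y, (∀ x, B y x = 0) → y = 0) ∧ (∀ x, (∀ y, B y x = 0) → x = 0) := by
  subst hδr
  have hjδ : ∀ x0, δ (j x0) = 0 := fun x0 => by
    have : j x0 ∈ LinearMap.ker δ := by rw [hδj]; exact ⟨x0, rfl⟩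
    exact this
  -- the induced map on the quotient
  let Ψ : (X ⧸ LinearMap.ker δ) →ₗ[k] Dual k (LinearMap.ker loc) :=
    (LinearMap.ker δ).liftQ (pts_phi a loc) (pts_phi_ker j a loc b δ hcompat hδj.le)
  let e : (X ⧸ LinearMap.ker δ) ≃ₗ[k] LinearMap.range δ := δ.quotKerEquivRange
  refine ⟨Ψ ∘ₗ e.symm.toLinearMap, ?_, ?_⟩
  · intro y hy
    obtain ⟨q, rfl⟩ := e.surjective y
    obtain ⟨f, rfl⟩ := Submodule.Quotient.mk_surjective _ q
    have h0 : pts_phi a loc f = 0 := by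
      ext x
      have := hy x
      simpa [Ψ] using this
    have h1 := pts_phi_inj j a loc b δ hker hb hcompat hjδ f h0
    have : (Submodule.Quotient.mk f : X ⧸ LinearMap.ker δ) = 0 := by
      rw [Submodule.Quotient.mk_eq_zero]; exact h1
    rw [this, map_zero]
  · intro x hx
    have h0 : ∀ φ : Dual k H2, φ (x : H2) = 0 := by
      intro φ
      obtain ⟨f, rfl⟩ := ha φ
      have := hx (e (Submodule.Quotient.mk f))
      simpa [Ψ] using this
    have h1 : (x : H2) = 0 := (Module.forall_dual_apply_eq_zero_iff k (x : H2)).1 h0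
    exact Subtype.ext h1

end Assembly

end Fermat.Agent.Lib.PT
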