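/-
Poitou–Tate long haul (S55): reduction of the frozen statement to the five classical inputs
(E), (A), (B), (C), (D), stated with the Prelude's objects.  Pure linear algebra on top of
`Assembly.lean`; also the two "nondegenerate ⇒ surjective onto the dual" lemmas that turn the
finite-level contracts (A-fin), (C-fin) into the surjectivity hypotheses.
-/
import Fermat.Statements.S55
import Fermat.Agent.Lib.PT.Assembly

set_option autoImplicit false

open CategoryTheory Module groupCohomology ExtCitation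

namespace Fermat.Agent.Lib.PT

section Nondeg

variable {k : Type*} [Field k] {X H : Type*}
variable [AddCommGroup X] [Module k X] [AddCommGroup H] [Module k H]

/-- If `X` is finite-dimensional and the pairing `X × H → k` given by `a` is right-nondegenerate
(`(∀ f, a f x = 0) → x = 0`), then `a : X → Dual H` is surjective (and `H` is finite-dimensional). -/
theorem pts_surjective_of_right_nondeg [FiniteDimensional k X] (a : X →ₗ[k] Dual k H)
    (h : ∀ x : H, (∀ f : X, a f x = 0) → x = 0) : Function.Surjective a := by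
  -- `a.flip : H → Dual X` is injective
  have hinj : Function.Injective a.flip := by
    rw [← LinearMap.ker_eq_bot, LinearMap.ker_eq_bot']
    intro x hx
    apply h x
    intro f
    have := LinearMap.congr_fun hx f
    simpa using this
  have : FiniteDimensional k H := FiniteDimensional.of_injective a.flip hinj
  -- the transpose of an injective map is surjective
  have hsurj : Function.Surjective a.flip.dualMap :=
    LinearMap.dualMap_surjective_of_injective hinj
  intro φ
  obtain ⟨ψ, hψ⟩ := hsurj φ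
  -- `ψ : Dual (Dual X)` is evaluation at some `f : X`
  obtain ⟨f, rfl⟩ := (Module.evalEquiv k X).surjective ψ
  refine ⟨f, ?_⟩
  rw [← hψ]
  ext x
  simp

/-- Finite-dimensionality of `H` from right-nondegeneracy against a finite-dimensional `X`. -/
theorem pts_finiteDimensional_of_right_nondeg [FiniteDimensional k X] (a : X →ₗ[k] Dual k H)
    (h : ∀ x : H, (∀ f : X, a f x = 0) → x = 0) : FiniteDimensional k H := by
  have hinj : Function.Injective a.flip := by
    rw [← LinearMap.ker_eq_bot, LinearMap.ker_eq_bot']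
    intro x hx
    apply h x
    intro f
    have := LinearMap.congr_fun hx f
    simpa using this
  exact FiniteDimensional.of_injective a.flip hinj

end Nondeg

section PiDual

variable {k : Type*} [Field k] {ι : Type*} [Fintype ι]
variable {P : ι → Type*} {Q : ι → Type*}
variable [∀ v, AddCommGroup (P v)] [∀ v, Module k (P v)]
variable [∀ v, AddCommGroup (Q v)] [∀ v, Module k (Q v)]

/-- The product of local maps `b_v : P_v → Dual Q_v` as a map `(∀ v, P_v) → Dual (∀ v, Q_v)`,
`(x_v) ↦ (y ↦ ∑_v b_v x_v (y v))`. -/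
noncomputable def pts_piDual (b : ∀ v, P v →ₗ[k] Dual k (Q v)) :
    (∀ v, P v) →ₗ[k] Dual k (∀ v, Q v) :=
  ∑ v, ((LinearMap.proj v : (∀ v, Q v) →ₗ[k] Q v).dualMap ∘ₗ b v) ∘ₗ LinearMap.proj v

lemma pts_piDual_apply (b : ∀ v, P v →ₗ[k] Dual k (Q v)) (x : ∀ v, P v) (y : ∀ v, Q v) :
    pts_piDual b x y = ∑ v, b v (x v) (y v) := by
  simp [pts_piDual, LinearMap.sum_apply]

/-- If every `b_v` is surjective then so is `pts_piDual b` (finite index set). -/
theorem pts_piDual_surjective [DecidableEq ι] (b : ∀ v, P v →ₗ[k] Dual k (Q v))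
    (hb : ∀ v, Function.Surjective (b v)) : Function.Surjective (pts_piDual b) := by
  intro φ
  choose x hx using fun v => hb v (φ ∘ₗ LinearMap.single k Q v)
  refine ⟨x, LinearMap.ext fun y => ?_⟩
  rw [pts_piDual_apply]
  have hy : y = ∑ v, LinearMap.single k Q v (y v) := by
    ext w
    simp [Finset.sum_apply]
  conv_rhs => rw [hy, map_sum]
  refine Finset.sum_congr rfl fun v _ => ?_
  rw [hx v]
  rfl

/-- Assembly lemma with the local terms given place by place. -/
theorem pts_exists_pairing_pi [DecidableEq ι]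
    {X H2 V : Type*} [AddCommGroup X] [Module k X] [AddCommGroup H2] [Module k H2]
    [AddCommGroup V] [Module k V]
    (j : (∀ v, P v) →ₗ[k] X) (a : X →ₗ[k] Dual k H2) (loc : H2 →ₗ[k] ∀ v, Q v)
    (b : ∀ v, P v →ₗ[k] Dual k (Q v)) (δ : X →ₗ[k] V) (Sha1 : Submodule k V)
    (hA : Function.Surjective a)
    (hB : ∀ f, a f = 0 → δ f = 0)
    (hC : ∀ v, Function.Surjective (b v))
    (hD : ∀ (x0 : ∀ v, P v) (x : H2), a (j x0) x = ∑ v, b v (x0 v) (loc x v))
    (hE1 : LinearMap.ker δ = LinearMap.range j)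
    (hE2 : LinearMap.range δ = Sha1) :
    ∃ B : Sha1 →ₗ[k] (LinearMap.ker loc) →ₗ[k] k,
      (∀ y, (∀ x, B y x = 0) → y = 0) ∧ (∀ x, (∀ y, B y x = 0) → x = 0) := by
  have hcompat : ∀ x0 : (∀ v, P v), a (j x0) = (pts_piDual b x0).comp loc := by
    intro x0
    refine LinearMap.ext fun x => ?_
    rw [hD x0 x, LinearMap.comp_apply, pts_piDual_apply]
  exact pts_exists_pairing j a loc (pts_piDual b) δ Sha1 hA hB (pts_piDual_surjective b hC)
    hcompat hE1 hE2

end PiDual

set_option maxHeartbeats 1600000 in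
/-- **Top-level reduction of S55.**  `X` plays the rôle of `Hom_{G_S}(M, C_S)`,
`P0 v` of `H⁰(ℚ_v, M')`, `M' = M.dualTwist (cycloChar p)`. -/
theorem pts_S55_of_data
    {p : ℕ} [Fact p.Prime] (S : Finset Nat.Primes)
    (M : Rep (ZMod p) (AlgebraicClosure ℚ ≃ₐ[ℚ] AlgebraicClosure ℚ))
    {X : Type*} [AddCommGroup X] [Module (ZMod p) X]
    {P0 : extArithIndex S → Type*} [∀ v, AddCommGroup (P0 v)] [∀ v, Module (ZMod p) (P0 v)]
    (j : (∀ v, P0 v) →ₗ[ZMod p] X)
    (a : X →ₗ[ZMod p] Dual (ZMod p) (continuousH2S S M))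
    (b : ∀ v, P0 v →ₗ[ZMod p]
      Dual (ZMod p) (continuousH2 (extArithLoc S v) (Rep.res (extArithLoc S v) M)))
    (δ : X →ₗ[ZMod p] H1 (M.dualTwist (cycloChar p)))
    -- (A)
    (hA : Function.Surjective a)
    -- (B)
    (hB : ∀ f, a f = 0 → δ f = 0)
    -- (C)
    (hC : ∀ v, Function.Surjective (b v))
    -- (D)
    (hD : ∀ (x0 : ∀ v, P0 v) (x : continuousH2S S M),
      a (j x0) x = ∑ v, b v (x0 v) (locTotal₂S S M x v))
    -- (E)
    (hE1 : LinearMap.ker δ = LinearMap.range j)
    (hE2 : LinearMap.range δ = sha₁ S (M.dualTwist (cycloChar p))) :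
    ∃ B : sha₁ S (M.dualTwist (cycloChar p)) →ₗ[ZMod p] sha₂ S M →ₗ[ZMod p] ZMod p,
      (∀ y, (∀ x, B y x = 0) → y = 0) ∧ (∀ x, (∀ y, B y x = 0) → x = 0) := by
  classical
  exact pts_exists_pairing_pi (k := ZMod p) (ι := extArithIndex S) (P := P0)
    (Q := fun v => continuousH2 (extArithLoc S v) (Rep.res (extArithLoc S v) M))
    (X := X) (H2 := continuousH2S S M) (V := H1 (M.dualTwist (cycloChar p)))
    j a (locTotal₂S S M) b δ
    (sha₁ S (M.dualTwist (cycloChar p))) hA hB hC hD hE1 hE2

end Fermat.Agent.Lib.PT
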