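/-
Poitou–Tate long haul (S55): the assembly lemmas of `Assembly.lean` / `AssemblyTop.lean` with
hypothesis (A) weakened from "`a` is surjective" to "`a` is right-nondegenerate"
(`(∀ f, a f x = 0) → x = 0`).  This is what the ADT-lite main theorem (`ptd_NondegH2`) provides
directly, and it removes every finiteness requirement on `X = Hom_G(M, C_S)`.
-/
import Fermat.Statements.S55
import Fermat.Agent.Lib.PT.AssemblyTop

set_option autoImplicit false

open CategoryTheory Module groupCohomology ExtCitation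

namespace Fermat.Agent.Lib.PT

section Assembly

variable {k : Type*} [Field k]
variable {P0 X H2 P2 V : Type*}
variable [AddCommGroup P0] [Module k P0] [AddCommGroup X] [Module k X]
variable [AddCommGroup H2] [Module k H2] [AddCommGroup P2] [Module k P2]
variable [AddCommGroup V] [Module k V]

/-- **Assembly lemma**, nondegenerate form of (A). -/
theorem pts_exists_pairing_nondeg
    (j : P0 →ₗ[k] X) (a : X →ₗ[k] Dual k H2) (loc : H2 →ₗ[k] P2)
    (b : P0 →ₗ[k] Dual k P2) (δ : X →ₗ[k] V) (Sha1 : Submodule k V)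
    (ha : ∀ x : H2, (∀ f, a f x = 0) → x = 0)
    (hker : ∀ f, a f = 0 → δ f = 0)
    (hb : Function.Surjective b)
    (hcompat : ∀ x0, a (j x0) = (b x0).comp loc)
    (hδj : LinearMap.ker δ = LinearMap.range j)
    (hδr : LinearMap.range δ = Sha1) :
    ∃ B : Sha1 →ₗ[k] (LinearMap.ker loc) →ₗ[k] k,
      (∀ y, (∀ x, B y x = 0) → y = 0) ∧ (∀ x, (∀ y, B y x = 0) → x = 0) := by
  subst hδr
  have hjδ : ∀ x0, δ (j x0) = 0 := fun x0 => by
    have : j x0 ∈ LinearMap.ker δ := by rw [hδj]; exact ⟨x0, rfl⟩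
    exact this
  let Ψ : (X ⧸ LinearMap.ker δ) →ₗ[k] Dual k (LinearMap.ker loc) :=
    (LinearMap.ker δ).liftQ (pts_phi a loc) (pts_phi_ker j a loc b δ hcompat hδj.le)
  let e : (X ⧸ LinearMap.ker δ) ≃ₗ[k] LinearMap.range δ := δ.quotKerEquivRange
  refine ⟨Ψ ∘ₗ e.symm.toLinearMap, ?_, ?_⟩
  · intro y hy
    obtain ⟨q, rfl⟩ := e.surjective y
    obtain ⟨f, rfl⟩ := Submodule.Quotient.mk_surjective _ q
    have h0 : pts_phi a loc f = 0 := by
      ext x
      have := hy x
      simpa [Ψ] using this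
    have h1 := pts_phi_inj j a loc b δ hker hb hcompat hjδ f h0
    have : (Submodule.Quotient.mk f : X ⧸ LinearMap.ker δ) = 0 := by
      rw [Submodule.Quotient.mk_eq_zero]; exact h1
    rw [this, map_zero]
  · intro x hx
    have h1 : (x : H2) = 0 := by
      apply ha
      intro f
      have := hx (e (Submodule.Quotient.mk f))
      simpa [Ψ] using this
    exact Subtype.ext h1

end Assembly

section PiDual

variable {k : Type*} [Field k] {ι : Type*} [Fintype ι]
variable {P : ι → Type*} {Q : ι → Type*}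
variable [∀ v, AddCommGroup (P v)] [∀ v, Module k (P v)]
variable [∀ v, AddCommGroup (Q v)] [∀ v, Module k (Q v)]

/-- Assembly lemma, nondegenerate form of (A), local terms given place by place. -/
theorem pts_exists_pairing_pi_nondeg [DecidableEq ι]
    {X H2 V : Type*} [AddCommGroup X] [Module k X] [AddCommGroup H2] [Module k H2]
    [AddCommGroup V] [Module k V]
    (j : (∀ v, P v) →ₗ[k] X) (a : X →ₗ[k] Dual k H2) (loc : H2 →ₗ[k] ∀ v, Q v)
    (b : ∀ v, P v →ₗ[k] Dual k (Q v)) (δ : X →ₗ[k] V) (Sha1 : Submodule k V)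
    (hA : ∀ x : H2, (∀ f, a f x = 0) → x = 0)
    (hB : ∀ f, a f = 0 → δ f = 0)
    (hC : ∀ v, Function.Surjective (b v))
    (hD : ∀ (x0 : ∀ v, P v) (x : H2), a (j x0) x = ∑ v, b v (x0 v) (loc x v))
    (hE1 : LinearMap.ker δ = LinearMap.range j)
    (hE2 : LinearMap.range δ = Sha1) :
    ∃ B : Sha1 →ₗ[k] (LinearMap.ker loc) →ₗ[k] k,
      (∀ y, (∀ x, B y x = 0) → y = 0) ∧ (∀ x, (∀ y, B y x = 0) → x = 0) := by
  have hcompat : ∀ x0 : (∀ v, P v), a (j x0) = (pts_piDual b x0).comp loc := by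
    intro x0
    refine LinearMap.ext fun x => ?_
    rw [hD x0 x, LinearMap.comp_apply, pts_piDual_apply]
  exact pts_exists_pairing_nondeg j a loc (pts_piDual b) δ Sha1 hA hB
    (pts_piDual_surjective b hC) hcompat hE1 hE2

end PiDual

set_option maxHeartbeats 1600000 in
/-- **Top-level reduction of S55**, nondegenerate form of (A): `X` plays the rôle of
`Hom_{G_S}(M, C_S)`, `P0 v` of `H⁰(ℚ_v, M')`, `M' = M.dualTwist (cycloChar p)`. -/
theorem pts_S55_of_data_nondeg
    {p : ℕ} [Fact p.Prime] (S : Finset Nat.Primes)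
    (M : Rep (ZMod p) (AlgebraicClosure ℚ ≃ₐ[ℚ] AlgebraicClosure ℚ))
    {X : Type*} [AddCommGroup X] [Module (ZMod p) X]
    {P0 : extArithIndex S → Type*} [∀ v, AddCommGroup (P0 v)] [∀ v, Module (ZMod p) (P0 v)]
    (j : (∀ v, P0 v) →ₗ[ZMod p] X)
    (a : X →ₗ[ZMod p] Dual (ZMod p) (continuousH2S S M))
    (b : ∀ v, P0 v →ₗ[ZMod p]
      Dual (ZMod p) (continuousH2 (extArithLoc S v) (Rep.res (extArithLoc S v) M)))
    (δ : X →ₗ[ZMod p] H1 (M.dualTwist (cycloChar p)))
    (hA : ∀ x : continuousH2S S M, (∀ f, a f x = 0) → x = 0)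
    (hB : ∀ f, a f = 0 → δ f = 0)
    (hC : ∀ v, Function.Surjective (b v))
    (hD : ∀ (x0 : ∀ v, P0 v) (x : continuousH2S S M),
      a (j x0) x = ∑ v, b v (x0 v) (locTotal₂S S M x v))
    (hE1 : LinearMap.ker δ = LinearMap.range j)
    (hE2 : LinearMap.range δ = sha₁ S (M.dualTwist (cycloChar p))) :
    ∃ B : sha₁ S (M.dualTwist (cycloChar p)) →ₗ[ZMod p] sha₂ S M →ₗ[ZMod p] ZMod p,
      (∀ y, (∀ x, B y x = 0) → y = 0) ∧ (∀ x, (∀ y, B y x = 0) → x = 0) := by
  classical
  exact pts_exists_pairing_pi_nondeg (k := ZMod p) (ι := extArithIndex S) (P := P0)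
    (Q := fun v => continuousH2 (extArithLoc S v) (Rep.res (extArithLoc S v) M))
    (X := X) (H2 := continuousH2S S M) (V := H1 (M.dualTwist (cycloChar p)))
    j a (locTotal₂S S M) b δ
    (sha₁ S (M.dualTwist (cycloChar p))) hA hB hC hD hE1 hE2

end Fermat.Agent.Lib.PT
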