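import Mathlib

/-
# Explicit `H²` of a finite cyclic group (multiplicative, Mathlib's `IsMulCocycle₂`)

`G = ⟨τ⟩` of order `n = orderOf τ > 0`, `A` a commutative group with `MulDistribMulAction G A`.
* `ptl_clog τ g` : the discrete logarithm `i < n`, `τ ^ i = g`.
* `ptl_cycPsi τ c = ∏_{i<n} c (τ^i, τ)`, `ptl_cycNorm τ y = ∏_{i<n} τ^i • y`,
  `ptl_cycCocycle τ a (g,h) = a ^ ((clog g + clog h) / n)`.
* `ptl_isMulCoboundary₂_iff` : a `2`-cocycle `c` is a coboundary iff `ψ c` is a norm.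
-/

set_option autoImplicit false
set_option linter.unusedSectionVars false
namespace Fermat.Agent.Lib.PT

open groupCohomology

section Log

variable {G : Type*} [Group G] (τ : G)

open Classical in
/-- The discrete logarithm with respect to a generator `τ` of finite order:
`ptl_clog τ g` is the `i < orderOf τ` with `τ ^ i = g` (junk `0` if there is none). -/
noncomputable def ptl_clog (g : G) : ℕ :=
  if h : ∃ i, i < orderOf τ ∧ τ ^ i = g then Nat.find h else 0

variable {τ}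

theorem ptl_clog_of_pow_eq {g : G} {i : ℕ} (hi : i < orderOf τ) (h : τ ^ i = g) :
    ptl_clog τ g = i := by
  classical
  have hex : ∃ i, i < orderOf τ ∧ τ ^ i = g := ⟨i, hi, h⟩
  rw [ptl_clog, dif_pos hex]
  have hspec := Nat.find_spec hex
  exact pow_injOn_Iio_orderOf hspec.1 hi (hspec.2.trans h.symm)

theorem ptl_clog_pow (hn : 0 < orderOf τ) (i : ℕ) : ptl_clog τ (τ ^ i) = i % orderOf τ :=
  ptl_clog_of_pow_eq (Nat.mod_lt i hn) (pow_mod_orderOf τ i)

variable (hτ : ∀ g : G, g ∈ Subgroup.zpowers τ) (hn : 0 < orderOf τ)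
include hτ hn

theorem ptl_exists_pow_eq (g : G) : ∃ i, i < orderOf τ ∧ τ ^ i = g := by
  obtain ⟨k, hk⟩ := hτ g
  refine ⟨(k % (orderOf τ : ℤ)).toNat, ?_, ?_⟩
  · have h1 : 0 ≤ k % (orderOf τ : ℤ) := Int.emod_nonneg _ (by exact_mod_cast hn.ne')
    have h2 : k % (orderOf τ : ℤ) < orderOf τ := Int.emod_lt_of_pos _ (by exact_mod_cast hn)
    omega
  · have h1 : 0 ≤ k % (orderOf τ : ℤ) := Int.emod_nonneg _ (by exact_mod_cast hn.ne')
    rw [← zpow_natCast, Int.toNat_of_nonneg h1, zpow_mod_orderOf]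
    exact hk

theorem ptl_clog_lt (g : G) : ptl_clog τ g < orderOf τ := by
  obtain ⟨i, hi, h⟩ := ptl_exists_pow_eq hτ hn g
  rw [ptl_clog_of_pow_eq hi h]; exact hi

theorem ptl_pow_clog (g : G) : τ ^ ptl_clog τ g = g := by
  obtain ⟨i, hi, h⟩ := ptl_exists_pow_eq hτ hn g
  rw [ptl_clog_of_pow_eq hi h]; exact h

theorem ptl_clog_mul (g h : G) :
    ptl_clog τ (g * h) = (ptl_clog τ g + ptl_clog τ h) % orderOf τ := by
  conv_lhs => rw [← ptl_pow_clog hτ hn g, ← ptl_pow_clog hτ hn h, ← pow_add]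
  exact ptl_clog_pow hn _

omit hτ in
theorem ptl_clog_one : ptl_clog τ (1 : G) = 0 :=
  ptl_clog_of_pow_eq hn (pow_zero τ)

end Log


section Closure

variable {G : Type*} [Group G] {A : Type*} [CommGroup A] [MulDistribMulAction G A]

theorem ptl_isMulCocycle₂_one : IsMulCocycle₂ (1 : G × G → A) := by
  intro g h j; simp

theorem ptl_isMulCocycle₂_mul {c c' : G × G → A} (hc : IsMulCocycle₂ c) (hc' : IsMulCocycle₂ c') :
    IsMulCocycle₂ (c * c') := by
  intro g h j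
  simp only [Pi.mul_apply, smul_mul']
  rw [mul_mul_mul_comm, hc g h j, hc' g h j, mul_mul_mul_comm]

theorem ptl_isMulCocycle₂_inv {c : G × G → A} (hc : IsMulCocycle₂ c) : IsMulCocycle₂ c⁻¹ := by
  intro g h j
  simp only [Pi.inv_apply, smul_inv']
  rw [← mul_inv, ← mul_inv, hc g h j]

theorem ptl_isMulCocycle₂_pow {c : G × G → A} (hc : IsMulCocycle₂ c) (m : ℕ) :
    IsMulCocycle₂ (c ^ m) := by
  intro g h j
  simp only [Pi.pow_apply, smul_pow']
  rw [← mul_pow, ← mul_pow, hc g h j]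

theorem ptl_isMulCocycle₂_zpow {c : G × G → A} (hc : IsMulCocycle₂ c) (m : ℤ) :
    IsMulCocycle₂ (c ^ m) := by
  cases m with
  | ofNat k => simpa using ptl_isMulCocycle₂_pow hc k
  | negSucc k =>
    rw [zpow_negSucc]
    exact ptl_isMulCocycle₂_inv (ptl_isMulCocycle₂_pow hc (k + 1))

theorem ptl_isMulCocycle₂_div {c c' : G × G → A} (hc : IsMulCocycle₂ c) (hc' : IsMulCocycle₂ c') :
    IsMulCocycle₂ (c / c') := by
  rw [div_eq_mul_inv]; exact ptl_isMulCocycle₂_mul hc (ptl_isMulCocycle₂_inv hc')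

theorem ptl_isMulCoboundary₂_one : IsMulCoboundary₂ (1 : G × G → A) :=
  ⟨1, fun g h => by simp⟩

theorem ptl_isMulCoboundary₂_mul {c c' : G × G → A} (hc : IsMulCoboundary₂ c)
    (hc' : IsMulCoboundary₂ c') : IsMulCoboundary₂ (c * c') := by
  obtain ⟨x, hx⟩ := hc
  obtain ⟨x', hx'⟩ := hc'
  refine ⟨x * x', fun g h => ?_⟩
  simp only [Pi.mul_apply, smul_mul', ← hx, ← hx']
  rw [mul_div_mul_comm, mul_mul_mul_comm]

theorem ptl_isMulCoboundary₂_inv {c : G × G → A} (hc : IsMulCoboundary₂ c) :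
    IsMulCoboundary₂ c⁻¹ := by
  obtain ⟨x, hx⟩ := hc
  refine ⟨x⁻¹, fun g h => ?_⟩
  simp only [Pi.inv_apply, smul_inv', ← hx]
  rw [inv_div_inv, mul_inv, inv_div]

theorem ptl_isMulCoboundary₂_pow {c : G × G → A} (hc : IsMulCoboundary₂ c) (m : ℕ) :
    IsMulCoboundary₂ (c ^ m) := by
  obtain ⟨x, hx⟩ := hc
  refine ⟨x ^ m, fun g h => ?_⟩
  simp only [Pi.pow_apply, smul_pow', ← hx]
  rw [← div_pow, ← mul_pow]

theorem ptl_isMulCoboundary₂_div {c c' : G × G → A} (hc : IsMulCoboundary₂ c)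
    (hc' : IsMulCoboundary₂ c') : IsMulCoboundary₂ (c / c') := by
  rw [div_eq_mul_inv]; exact ptl_isMulCoboundary₂_mul hc (ptl_isMulCoboundary₂_inv hc')

/-- Coboundaries are cocycles. -/
theorem ptl_isMulCocycle₂_of_isMulCoboundary₂ {c : G × G → A} (hc : IsMulCoboundary₂ c) :
    IsMulCocycle₂ c := by
  obtain ⟨x, hx⟩ := hc
  intro g h j
  simp only [← hx, smul_mul', smul_div', mul_smul, mul_assoc]
  apply Additive.ofMul.injective
  simp only [ofMul_mul, ofMul_div]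
  abel

/-- Transport of a cocycle along a group homomorphism `ρ : G' → G` and a `ρ`-equivariant
homomorphism `ι : A → A'`. -/
theorem ptl_isMulCocycle₂_comp {G' : Type*} [Group G'] {A' : Type*} [CommGroup A']
    [MulDistribMulAction G' A'] (ρ : G' →* G) (ι : A →* A')
    (hι : ∀ (g : G') (a : A), ι (ρ g • a) = g • ι a) {c : G × G → A} (hc : IsMulCocycle₂ c) :
    IsMulCocycle₂ (fun p : G' × G' => ι (c (ρ p.1, ρ p.2))) := by
  intro g h j
  simp only [map_mul ρ]
  rw [← map_mul, hc, map_mul, hι]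

theorem ptl_isMulCoboundary₂_comp {G' : Type*} [Group G'] {A' : Type*} [CommGroup A']
    [MulDistribMulAction G' A'] (ρ : G' →* G) (ι : A →* A')
    (hι : ∀ (g : G') (a : A), ι (ρ g • a) = g • ι a) {c : G × G → A} (hc : IsMulCoboundary₂ c) :
    IsMulCoboundary₂ (fun p : G' × G' => ι (c (ρ p.1, ρ p.2))) := by
  obtain ⟨x, hx⟩ := hc
  refine ⟨fun g => ι (x (ρ g)), fun g h => ?_⟩
  simp only [← hx, map_mul ρ, map_mul, map_div, hι]

end Closure

section Cyc

variable {G : Type*} [Group G] {A : Type*} [CommGroup A] [MulDistribMulAction G A]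

/-- The invariant `ψ c = ∏_{i < n} c (τ ^ i, τ)` of a `2`-cochain on a cyclic group `⟨τ⟩` of
order `n`. -/
noncomputable def ptl_cycPsi (τ : G) (c : G × G → A) : A :=
  ∏ i ∈ Finset.range (orderOf τ), c (τ ^ i, τ)

/-- The norm `∏_{i < n} τ ^ i • y` on a module over the cyclic group `⟨τ⟩` of order `n`. -/
noncomputable def ptl_cycNorm (τ : G) (y : A) : A :=
  ∏ i ∈ Finset.range (orderOf τ), τ ^ i • y

/-- The standard `2`-cocycle `c_a (g, h) = a ^ ⌊(log g + log h) / n⌋` attached to an invariant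
element `a`. -/
noncomputable def ptl_cycCocycle (τ : G) (a : A) : G × G → A :=
  fun p => a ^ ((ptl_clog τ p.1 + ptl_clog τ p.2) / orderOf τ)

/-- Partial products `H i = ∏_{k < i} c (τ ^ k, τ)`. -/
def ptl_cycH (τ : G) (c : G × G → A) (i : ℕ) : A :=
  ∏ k ∈ Finset.range i, c (τ ^ k, τ)

/-- Partial norms `Y i = ∏_{k < i} τ ^ k • y`. -/
def ptl_cycY (τ : G) (y : A) (i : ℕ) : A :=
  ∏ k ∈ Finset.range i, τ ^ k • y

variable {τ : G}

theorem ptl_cycPsi_mul (c c' : G × G → A) :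
    ptl_cycPsi τ (c * c') = ptl_cycPsi τ c * ptl_cycPsi τ c' := by
  simp only [ptl_cycPsi, Pi.mul_apply, Finset.prod_mul_distrib]

theorem ptl_cycPsi_one : ptl_cycPsi τ (1 : G × G → A) = 1 := by
  simp [ptl_cycPsi]

theorem ptl_cycPsi_inv (c : G × G → A) : ptl_cycPsi τ c⁻¹ = (ptl_cycPsi τ c)⁻¹ := by
  simp only [ptl_cycPsi, Pi.inv_apply, Finset.prod_inv_distrib]

theorem ptl_cycPsi_pow (c : G × G → A) (m : ℕ) : ptl_cycPsi τ (c ^ m) = ptl_cycPsi τ c ^ m := by
  simp only [ptl_cycPsi, Pi.pow_apply, Finset.prod_pow]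

theorem ptl_cycPsi_div (c c' : G × G → A) :
    ptl_cycPsi τ (c / c') = ptl_cycPsi τ c / ptl_cycPsi τ c' := by
  simp only [ptl_cycPsi, Pi.div_apply, Finset.prod_div_distrib]

theorem ptl_cycH_zero (c : G × G → A) : ptl_cycH τ c 0 = 1 := by
  simp [ptl_cycH]

theorem ptl_cycH_succ (c : G × G → A) (i : ℕ) :
    ptl_cycH τ c (i + 1) = ptl_cycH τ c i * c (τ ^ i, τ) := by
  simp [ptl_cycH, Finset.prod_range_succ]

theorem ptl_cycH_orderOf (c : G × G → A) : ptl_cycH τ c (orderOf τ) = ptl_cycPsi τ c := rfl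

theorem ptl_cycH_add_orderOf (c : G × G → A) (i : ℕ) :
    ptl_cycH τ c (i + orderOf τ) = ptl_cycH τ c i * ptl_cycPsi τ c := by
  induction i with
  | zero => simp [ptl_cycH_zero, ptl_cycH_orderOf]
  | succ i ih =>
    rw [add_right_comm, ptl_cycH_succ, ih, ptl_cycH_succ, pow_add, pow_orderOf_eq_one, mul_one]
    exact mul_right_comm _ _ _

theorem ptl_cycH_eq (hn : 0 < orderOf τ) (c : G × G → A) (i : ℕ) :
    ptl_cycH τ c i = ptl_cycH τ c (i % orderOf τ) * ptl_cycPsi τ c ^ (i / orderOf τ) := by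
  induction i using Nat.strong_induction_on with
  | _ i ih =>
    rcases lt_or_ge i (orderOf τ) with h | h
    · rw [Nat.mod_eq_of_lt h, Nat.div_eq_of_lt h, pow_zero, mul_one]
    · obtain ⟨j, rfl⟩ : ∃ j, i = j + orderOf τ := ⟨i - orderOf τ, by omega⟩
      rw [ptl_cycH_add_orderOf, ih j (by omega), Nat.add_mod_right, Nat.add_div_right _ hn,
        pow_succ, mul_assoc]

/-- The key identity relating a `2`-cocycle on a cyclic group to its partial products. -/
theorem ptl_cycH_key {c : G × G → A} (hc : IsMulCocycle₂ c) (x y : ℕ) :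
    c (τ ^ x, τ ^ y) * ptl_cycH τ c x * τ ^ x • ptl_cycH τ c y =
      τ ^ x • c (1, 1) * ptl_cycH τ c (x + y) := by
  induction y with
  | zero =>
    rw [pow_zero, map_one_snd_of_isMulCocycle₂ hc, ptl_cycH_zero, smul_one, mul_one, add_zero]
  | succ y ih =>
    have h1 := hc (τ ^ x) (τ ^ y) τ
    rw [← pow_add, ← pow_succ] at h1
    rw [← add_assoc, ptl_cycH_succ, ptl_cycH_succ, smul_mul', ← mul_assoc (τ ^ x • c (1, 1)), ← ih]
    have h2 : c (τ ^ x, τ ^ (y + 1)) = c (τ ^ (x + y), τ) * c (τ ^ x, τ ^ y) /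
        τ ^ x • c (τ ^ y, τ) := by
      rw [h1]; exact (mul_div_cancel_left _ _).symm
    rw [h2]
    apply Additive.ofMul.injective
    simp only [ofMul_mul, ofMul_div]
    abel


/-- `τ` fixes `ψ c` for a `2`-cocycle `c`. -/
theorem ptl_smul_cycPsi_gen {c : G × G → A} (hc : IsMulCocycle₂ c) :
    τ • ptl_cycPsi τ c = ptl_cycPsi τ c := by
  have h := ptl_cycH_key (τ := τ) hc 1 (orderOf τ)
  rw [pow_orderOf_eq_one, pow_one, map_one_snd_of_isMulCocycle₂ hc, ptl_cycH_orderOf,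
    ptl_cycH_add_orderOf, mul_assoc] at h
  exact mul_left_cancel (mul_left_cancel h)

/-- `ψ c` is fixed by `⟨τ⟩` for a `2`-cocycle `c`. -/
theorem ptl_smul_cycPsi (hτ : ∀ g : G, g ∈ Subgroup.zpowers τ) {c : G × G → A}
    (hc : IsMulCocycle₂ c) (g : G) : g • ptl_cycPsi τ c = ptl_cycPsi τ c := by
  have hfix : ptl_cycPsi τ c ∈ MulAction.fixedBy A τ := ptl_smul_cycPsi_gen hc
  obtain ⟨k, rfl⟩ := hτ g
  have hsub : Subgroup.zpowers τ ≤ MulAction.stabilizer G (ptl_cycPsi τ c) := by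
    rw [Subgroup.zpowers_le]; exact hfix
  exact hsub (Subgroup.zpow_mem_zpowers τ k)

/-- `ψ` of a coboundary is a norm. -/
theorem ptl_cycPsi_of_coboundary {c : G × G → A} {x : G → A}
    (hx : ∀ g h : G, g • x h / x (g * h) * x g = c (g, h)) :
    ptl_cycPsi τ c = ptl_cycNorm τ (x τ) := by
  have h1 : ∀ i : ℕ, c (τ ^ i, τ) = τ ^ i • x τ / (x (τ ^ (i + 1)) / x (τ ^ i)) := by
    intro i
    rw [← hx, ← pow_succ]
    apply Additive.ofMul.injective
    simp only [ofMul_mul, ofMul_div]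
    abel
  simp only [ptl_cycPsi, ptl_cycNorm, h1]
  rw [Finset.prod_div_distrib, Finset.prod_range_div (fun i => x (τ ^ i)), pow_orderOf_eq_one,
    pow_zero, div_self', div_one]

theorem ptl_cycPsi_mem_range_of_isMulCoboundary₂ {c : G × G → A} (hc : IsMulCoboundary₂ c) :
    ptl_cycPsi τ c ∈ Set.range (ptl_cycNorm (A := A) τ) := by
  obtain ⟨x, hx⟩ := hc
  exact ⟨x τ, (ptl_cycPsi_of_coboundary hx).symm⟩


theorem ptl_cycCocycle_apply (a : A) (g h : G) :
    ptl_cycCocycle τ a (g, h) = a ^ ((ptl_clog τ g + ptl_clog τ h) / orderOf τ) := rfl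

theorem ptl_cycCocycle_one : ptl_cycCocycle τ (1 : A) = 1 := by
  funext p; simp [ptl_cycCocycle]

theorem ptl_cycCocycle_mul (a b : A) :
    ptl_cycCocycle τ (a * b) = ptl_cycCocycle τ a * ptl_cycCocycle τ b := by
  funext p; simp [ptl_cycCocycle, mul_pow]

theorem ptl_cycCocycle_inv (a : A) : ptl_cycCocycle τ a⁻¹ = (ptl_cycCocycle τ a)⁻¹ := by
  funext p; simp [ptl_cycCocycle]

theorem ptl_cycCocycle_pow (a : A) (m : ℕ) :
    ptl_cycCocycle τ (a ^ m) = ptl_cycCocycle τ a ^ m := by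
  funext p; simp only [ptl_cycCocycle, Pi.pow_apply]; exact pow_right_comm a m _

theorem ptl_cycCocycle_zpow (a : A) (m : ℤ) :
    ptl_cycCocycle τ (a ^ m) = ptl_cycCocycle τ a ^ m := by
  funext p; simp only [ptl_cycCocycle, Pi.pow_apply]
  rw [← zpow_natCast, ← zpow_natCast, zpow_comm]

section Gen

variable (hτ : ∀ g : G, g ∈ Subgroup.zpowers τ) (hn : 0 < orderOf τ)
include hτ hn

/-- `c_a` is a `2`-cocycle when `a` is invariant. -/
theorem ptl_cycCocycle_isMulCocycle₂ {a : A} (ha : ∀ g : G, g • a = a) :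
    IsMulCocycle₂ (ptl_cycCocycle τ a) := by
  intro g h j
  simp only [ptl_cycCocycle_apply, smul_pow', ha, ← pow_add]
  congr 1
  rw [ptl_clog_mul hτ hn, ptl_clog_mul hτ hn]
  generalize ptl_clog τ g = u
  generalize ptl_clog τ h = v
  generalize ptl_clog τ j = w
  generalize orderOf τ = n at hn
  have h1 : ((u + v) % n + w) / n + (u + v) / n = (u + v + w) / n := by
    conv_rhs => rw [← Nat.mod_add_div (u + v) n]
    rw [add_right_comm, Nat.add_mul_div_left _ _ hn]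
  have h2 : (v + w) / n + (u + (v + w) % n) / n = (u + v + w) / n := by
    conv_rhs => rw [add_assoc, ← Nat.mod_add_div (v + w) n]
    rw [← add_assoc, Nat.add_mul_div_left _ _ hn, add_comm]
  rw [h1, h2]

omit hτ hn in
/-- `ψ c_a = a` when the group is non-trivial. -/
theorem ptl_cycPsi_cycCocycle (hn1 : 1 < orderOf τ) (a : A) :
    ptl_cycPsi τ (ptl_cycCocycle τ a) = a := by
  have hn : 0 < orderOf τ := by omega
  simp only [ptl_cycPsi, ptl_cycCocycle_apply]
  rw [Finset.prod_pow_eq_pow_sum]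
  conv_rhs => rw [← pow_one a]
  congr 1
  have hτ1 : ptl_clog τ τ = 1 := by
    have := ptl_clog_pow hn 1
    rwa [pow_one, Nat.mod_eq_of_lt hn1] at this
  obtain ⟨m, hm⟩ : ∃ m, orderOf τ = m + 1 := ⟨orderOf τ - 1, by omega⟩
  rw [hτ1, hm, Finset.sum_range_succ, ← hm, ptl_clog_pow hn, hm, Nat.mod_eq_of_lt (by omega),
    Nat.div_self (by omega)]
  rw [Finset.sum_eq_zero, zero_add]
  intro i hi
  rw [Finset.mem_range] at hi
  rw [← hm, ptl_clog_pow hn, hm, Nat.mod_eq_of_lt (by omega), Nat.div_eq_of_lt (by omega)]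

/-- A `2`-cocycle `c` on a cyclic group differs from the standard cocycle `c_{ψ c}` by an explicit
coboundary. -/
theorem ptl_cocycle_eq_coboundary_mul {c : G × G → A} (hc : IsMulCocycle₂ c) (g h : G) :
    g • (c (1, 1) / ptl_cycH τ c (ptl_clog τ h)) /
        (c (1, 1) / ptl_cycH τ c (ptl_clog τ (g * h))) *
        (c (1, 1) / ptl_cycH τ c (ptl_clog τ g)) *
      ptl_cycCocycle τ (ptl_cycPsi τ c) (g, h) = c (g, h) := by
  have key := ptl_cycH_key (τ := τ) hc (ptl_clog τ g) (ptl_clog τ h)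
  rw [ptl_pow_clog hτ hn, ptl_pow_clog hτ hn, ptl_cycH_eq hn c (ptl_clog τ g + ptl_clog τ h),
    ← ptl_clog_mul hτ hn, ← ptl_cycCocycle_apply] at key
  have key' : c (g, h) = g • c (1, 1) * (ptl_cycH τ c (ptl_clog τ (g * h)) *
      ptl_cycCocycle τ (ptl_cycPsi τ c) (g, h)) /
        (ptl_cycH τ c (ptl_clog τ g) * g • ptl_cycH τ c (ptl_clog τ h)) := by
    rw [← key]
    apply Additive.ofMul.injective
    simp only [ofMul_mul, ofMul_div]
    abel
  rw [key', smul_div']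
  apply Additive.ofMul.injective
  simp only [ofMul_mul, ofMul_div]
  abel

end Gen

theorem ptl_cycY_zero (y : A) : ptl_cycY τ y 0 = 1 := by
  simp [ptl_cycY]

theorem ptl_cycY_succ (y : A) (i : ℕ) : ptl_cycY τ y (i + 1) = ptl_cycY τ y i * τ ^ i • y := by
  simp [ptl_cycY, Finset.prod_range_succ]

theorem ptl_cycY_orderOf (y : A) : ptl_cycY τ y (orderOf τ) = ptl_cycNorm τ y := rfl

theorem ptl_cycY_add (y : A) (i j : ℕ) :
    ptl_cycY τ y (i + j) = ptl_cycY τ y i * τ ^ i • ptl_cycY τ y j := by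
  induction j with
  | zero => simp [ptl_cycY_zero]
  | succ j ih =>
    rw [← add_assoc, ptl_cycY_succ, ih, ptl_cycY_succ, smul_mul', pow_add, mul_smul, mul_assoc]

/-- The norm is fixed by `τ`. -/
theorem ptl_smul_cycNorm_gen (y : A) : τ • ptl_cycNorm τ y = ptl_cycNorm τ y := by
  have h1 := ptl_cycY_add (τ := τ) y 1 (orderOf τ)
  have h2 := ptl_cycY_add (τ := τ) y (orderOf τ) 1
  rw [add_comm, h2, pow_orderOf_eq_one, one_smul, pow_one, ptl_cycY_orderOf, mul_comm] at h1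
  exact (mul_left_cancel h1).symm

theorem ptl_smul_cycNorm (hτ : ∀ g : G, g ∈ Subgroup.zpowers τ) (y : A) (g : G) :
    g • ptl_cycNorm τ y = ptl_cycNorm τ y := by
  have hfix : ptl_cycNorm τ y ∈ MulAction.fixedBy A τ := ptl_smul_cycNorm_gen y
  obtain ⟨k, rfl⟩ := hτ g
  have hsub : Subgroup.zpowers τ ≤ MulAction.stabilizer G (ptl_cycNorm τ y) := by
    rw [Subgroup.zpowers_le]; exact hfix
  exact hsub (Subgroup.zpow_mem_zpowers τ k)

theorem ptl_cycY_add_orderOf (y : A) (i : ℕ) :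
    ptl_cycY τ y (i + orderOf τ) = ptl_cycY τ y i * ptl_cycNorm τ y := by
  rw [ptl_cycY_add, ptl_cycY_orderOf]
  congr 1
  induction i with
  | zero => simp
  | succ i ih => rw [pow_succ, mul_smul, ptl_smul_cycNorm_gen, ih]

theorem ptl_cycY_eq (hn : 0 < orderOf τ) (y : A) (i : ℕ) :
    ptl_cycY τ y i = ptl_cycY τ y (i % orderOf τ) * ptl_cycNorm τ y ^ (i / orderOf τ) := by
  induction i using Nat.strong_induction_on with
  | _ i ih =>
    rcases lt_or_ge i (orderOf τ) with h | h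
    · rw [Nat.mod_eq_of_lt h, Nat.div_eq_of_lt h, pow_zero, mul_one]
    · obtain ⟨j, rfl⟩ : ∃ j, i = j + orderOf τ := ⟨i - orderOf τ, by omega⟩
      rw [ptl_cycY_add_orderOf, ih j (by omega), Nat.add_mod_right, Nat.add_div_right _ hn,
        pow_succ, mul_assoc]

section Gen2

variable (hτ : ∀ g : G, g ∈ Subgroup.zpowers τ) (hn : 0 < orderOf τ)
include hτ hn

/-- The standard cocycle of a norm is an explicit coboundary. -/
theorem ptl_cycCocycle_norm_eq_coboundary (y : A) (g h : G) :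
    g • ptl_cycY τ y (ptl_clog τ h) / ptl_cycY τ y (ptl_clog τ (g * h)) *
        ptl_cycY τ y (ptl_clog τ g) = ptl_cycCocycle τ (ptl_cycNorm τ y) (g, h) := by
  have key := ptl_cycY_add (τ := τ) y (ptl_clog τ g) (ptl_clog τ h)
  rw [ptl_pow_clog hτ hn, ptl_cycY_eq hn y (ptl_clog τ g + ptl_clog τ h),
    ← ptl_clog_mul hτ hn, ← ptl_cycCocycle_apply] at key
  rw [eq_comm, ← mul_right_inj (ptl_cycY τ y (ptl_clog τ (g * h))), key]
  apply Additive.ofMul.injective
  simp only [ofMul_mul, ofMul_div]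
  abel

theorem ptl_cycCocycle_norm_isMulCoboundary₂ (y : A) :
    IsMulCoboundary₂ (ptl_cycCocycle τ (ptl_cycNorm τ y)) :=
  ⟨fun g => ptl_cycY τ y (ptl_clog τ g), ptl_cycCocycle_norm_eq_coboundary hτ hn y⟩

/-- Every `2`-cocycle `c` is cohomologous to the standard cocycle `c_{ψ c}`. -/
theorem ptl_cocycle_div_isMulCoboundary₂ {c : G × G → A} (hc : IsMulCocycle₂ c) :
    IsMulCoboundary₂ (c / ptl_cycCocycle τ (ptl_cycPsi τ c)) := by
  refine ⟨fun g => c (1, 1) / ptl_cycH τ c (ptl_clog τ g), fun g h => ?_⟩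
  rw [Pi.div_apply, eq_div_iff_mul_eq']
  exact ptl_cocycle_eq_coboundary_mul hτ hn hc g h

/-- **`H²` of a cyclic group, explicitly**: a `2`-cocycle `c` is a coboundary iff
`ψ c = ∏_{i<n} c (τ^i, τ)` is a norm. -/
theorem ptl_isMulCoboundary₂_iff {c : G × G → A} (hc : IsMulCocycle₂ c) :
    IsMulCoboundary₂ c ↔ ptl_cycPsi τ c ∈ Set.range (ptl_cycNorm (A := A) τ) := by
  refine ⟨ptl_cycPsi_mem_range_of_isMulCoboundary₂, ?_⟩
  rintro ⟨y, hy⟩
  have h1 := ptl_cocycle_div_isMulCoboundary₂ hτ hn hc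
  have h2 := ptl_cycCocycle_norm_isMulCoboundary₂ hτ hn y
  rw [hy] at h2
  have := ptl_isMulCoboundary₂_mul h1 h2
  rwa [div_mul_cancel] at this

/-- The standard cocycle `c_a` is a coboundary iff `a` is a norm. -/
theorem ptl_cycCocycle_isMulCoboundary₂_iff {a : A} (ha : ∀ g : G, g • a = a) :
    IsMulCoboundary₂ (ptl_cycCocycle τ a) ↔ a ∈ Set.range (ptl_cycNorm (A := A) τ) := by
  rcases Nat.lt_or_ge 1 (orderOf τ) with h1 | h1
  · rw [ptl_isMulCoboundary₂_iff hτ hn (ptl_cycCocycle_isMulCocycle₂ hτ hn ha),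
      ptl_cycPsi_cycCocycle h1]
  · have h1' : orderOf τ = 1 := by omega
    have hc : ptl_cycCocycle τ a = 1 := by
      funext p
      have hlt := ptl_clog_lt hτ hn
      simp only [ptl_cycCocycle, Pi.one_apply]
      have e1 : ptl_clog τ p.1 = 0 := by have := hlt p.1; omega
      have e2 : ptl_clog τ p.2 = 0 := by have := hlt p.2; omega
      rw [e1, e2, h1']; simp
    rw [hc]
    refine iff_of_true ptl_isMulCoboundary₂_one ⟨a, ?_⟩
    simp [ptl_cycNorm, h1']

/-- `c_a ^ m` is a coboundary iff `a ^ m` is a norm. -/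
theorem ptl_cycCocycle_pow_isMulCoboundary₂_iff {a : A} (ha : ∀ g : G, g • a = a) (m : ℕ) :
    IsMulCoboundary₂ (ptl_cycCocycle τ a ^ m) ↔ a ^ m ∈ Set.range (ptl_cycNorm (A := A) τ) := by
  rw [← ptl_cycCocycle_pow]
  exact ptl_cycCocycle_isMulCoboundary₂_iff hτ hn (fun g => by rw [smul_pow', ha])

/-- For finite `G = ⟨τ⟩` the cyclic norm is the product over the group. -/
theorem ptl_cycNorm_eq_prod [Fintype G] (y : A) : ptl_cycNorm τ y = ∏ g : G, g • y := by
  classical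
  rw [ptl_cycNorm]
  refine Finset.prod_bij' (fun i _ => τ ^ i) (fun g _ => ptl_clog τ g) ?_ ?_ ?_ ?_ ?_
  · intro i _; exact Finset.mem_univ _
  · intro g _; exact Finset.mem_range.mpr (ptl_clog_lt hτ hn g)
  · intro i hi
    rw [ptl_clog_pow hn, Nat.mod_eq_of_lt (Finset.mem_range.mp hi)]
  · intro g _; exact ptl_pow_clog hτ hn g
  · intro i _; rfl

end Gen2

end Cyc

end Fermat.Agent.Lib.PT
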