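/-
Bockstein cocycles at a finite level, multiplicatively: for a character `χ : Γ → ZMod n`
(`n ≠ 0`) and a `Γ`-invariant element `a` of a multiplicative `Γ`-module, the 2-cocycle
`pti_bockPow n χ a (g, h) = a ^ ptd_bock n χ (g, h)` (`= a · δχ`), its cyclic invariant `ψ`, and
the descent of a character of a big group to a quotient.
-/
import Fermat.Agent.Lib.PT.AdtDefs
import Fermat.Agent.Lib.PT.LocCycCoh

set_option autoImplicit false
set_option linter.unusedSectionVars false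
namespace Fermat.Agent.Lib.PT
open groupCohomology

section Bock

variable {G : Type*} [Group G] {n : ℕ} [NeZero n]

theorem pti_isChar_one {χ : G → ZMod n} (hχ : ptd_IsChar χ) : χ 1 = 0 := by
  have h := hχ 1 1
  rw [mul_one] at h
  exact left_eq_add.mp h

theorem pti_isChar_inv {χ : G → ZMod n} (hχ : ptd_IsChar χ) (g : G) : χ g⁻¹ = -χ g := by
  have h := hχ g g⁻¹
  rw [mul_inv_cancel, pti_isChar_one hχ] at h
  exact eq_neg_of_add_eq_zero_right h.symm

theorem pti_isChar_pow {χ : G → ZMod n} (hχ : ptd_IsChar χ) (g : G) (k : ℕ) :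
    χ (g ^ k) = k • χ g := by
  induction k with
  | zero => rw [pow_zero, zero_smul, pti_isChar_one hχ]
  | succ k ih => rw [pow_succ, hχ, ih, succ_nsmul]

/-- `n · bock χ (g, h) = χ̃ h - χ̃ (g h) + χ̃ g` for the lift `χ̃ = ZMod.val ∘ χ`. -/
theorem pti_mul_bock {χ : G → ZMod n} (hχ : ptd_IsChar χ) (g h : G) :
    (n : ℤ) * ptd_bock n χ (g, h) =
      ((χ h).val : ℤ) - ((χ (g * h)).val : ℤ) + ((χ g).val : ℤ) := by
  show (n : ℤ) * ((((χ h).val : ℤ) - ((χ (g * h)).val : ℤ) + ((χ g).val : ℤ)) / (n : ℤ)) = _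
  apply Int.mul_ediv_cancel'
  rw [← ZMod.intCast_zmod_eq_zero_iff_dvd]
  push_cast
  rw [ZMod.natCast_zmod_val, ZMod.natCast_zmod_val, ZMod.natCast_zmod_val, hχ g h]
  ring

/-- The Bockstein is an integral 2-cocycle (trivial action). -/
theorem pti_bock_cocycle {χ : G → ZMod n} (hχ : ptd_IsChar χ) (g h j : G) :
    ptd_bock n χ (g * h, j) + ptd_bock n χ (g, h) =
      ptd_bock n χ (h, j) + ptd_bock n χ (g, h * j) := by
  have hn : (n : ℤ) ≠ 0 := by exact_mod_cast (NeZero.ne n)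
  apply mul_left_cancel₀ hn
  rw [mul_add, mul_add, pti_mul_bock hχ, pti_mul_bock hχ, pti_mul_bock hχ, pti_mul_bock hχ,
    mul_assoc]
  ring

/-- Telescoping: `n · ∑_{i<d} bock χ (τ^i, τ) = d · χ̃ τ` when `τ ^ d = 1`. -/
theorem pti_sum_bock {χ : G → ZMod n} (hχ : ptd_IsChar χ) (τ : G) (d : ℕ) (hd : τ ^ d = 1) :
    (n : ℤ) * ∑ i ∈ Finset.range d, ptd_bock n χ (τ ^ i, τ) = d * ((χ τ).val : ℤ) := by
  rw [Finset.mul_sum]
  have h1 : ∀ i ∈ Finset.range d, (n : ℤ) * ptd_bock n χ (τ ^ i, τ) =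
      ((χ τ).val : ℤ) - (((χ (τ ^ (i + 1))).val : ℤ) - ((χ (τ ^ i)).val : ℤ)) := by
    intro i _
    rw [pti_mul_bock hχ, ← pow_succ]
    ring
  rw [Finset.sum_congr rfl h1, Finset.sum_sub_distrib, Finset.sum_const, Finset.card_range,
    Finset.sum_range_sub (fun i => ((χ (τ ^ i)).val : ℤ)), hd, pow_zero, sub_self, sub_zero,
    nsmul_eq_mul]

end Bock

section BockPow

variable {Γ : Type*} [Group Γ] {A : Type*} [CommGroup A] [MulDistribMulAction Γ A]
variable (n : ℕ) [NeZero n]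

/-- The multiplicative cocycle `a · δχ`: `(g, h) ↦ a ^ bock χ (g, h)`. -/
def pti_bockPow (χ : Γ → ZMod n) (a : A) : Γ × Γ → A := fun x => a ^ ptd_bock n χ x

variable {n}

theorem pti_bockPow_apply (χ : Γ → ZMod n) (a : A) (x : Γ × Γ) :
    pti_bockPow n χ a x = a ^ ptd_bock n χ x := rfl

theorem pti_bockPow_isMulCocycle₂ {χ : Γ → ZMod n} (hχ : ptd_IsChar χ) {a : A}
    (ha : ∀ g : Γ, g • a = a) : IsMulCocycle₂ (pti_bockPow n χ a) := by
  intro g h j
  simp only [pti_bockPow_apply, smul_zpow', ha, ← zpow_add]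
  rw [pti_bock_cocycle hχ]

theorem pti_bockPow_mul (χ : Γ → ZMod n) (a b : A) :
    pti_bockPow n χ (a * b) = pti_bockPow n χ a * pti_bockPow n χ b := by
  funext x
  simp only [pti_bockPow_apply, Pi.mul_apply, mul_zpow]

theorem pti_bockPow_one (χ : Γ → ZMod n) : pti_bockPow n χ (1 : A) = 1 := by
  funext x
  simp only [pti_bockPow_apply, one_zpow, Pi.one_apply]

theorem pti_bockPow_inv (χ : Γ → ZMod n) (a : A) :
    pti_bockPow n χ a⁻¹ = (pti_bockPow n χ a)⁻¹ := by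
  funext x
  simp only [pti_bockPow_apply, Pi.inv_apply, inv_zpow]

theorem pti_prod_zpow_eq_zpow_sum {ι : Type*} (s : Finset ι) (f : ι → ℤ) (a : A) :
    ∏ i ∈ s, a ^ f i = a ^ ∑ i ∈ s, f i := by
  classical
  induction s using Finset.induction_on with
  | empty => simp
  | insert i s hi ih => rw [Finset.prod_insert hi, Finset.sum_insert hi, ih, zpow_add]

/-- The cyclic invariant of `a · δχ`: `ψ_τ (a · δχ) = a ^ S` with `n · S = ord(τ) · χ̃(τ)`. -/
theorem pti_cycPsi_bockPow (χ : Γ → ZMod n) (a : A) (τ : Γ) :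
    ptl_cycPsi τ (pti_bockPow n χ a) =
      a ^ ∑ i ∈ Finset.range (orderOf τ), ptd_bock n χ (τ ^ i, τ) := by
  simp only [ptl_cycPsi, pti_bockPow_apply]
  exact pti_prod_zpow_eq_zpow_sum _ _ _

end BockPow

section Desc

variable {G Γ : Type*} [Group G] [Group Γ] {n : ℕ} [NeZero n]
  (π : G →* Γ) (hπ : Function.Surjective π)

/-- Descent of a character of `G`, trivial on `ker π`, to the quotient `Γ`. -/
noncomputable def pti_charDesc (χ : G → ZMod n) : Γ → ZMod n :=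
  fun σ => χ (Function.surjInv hπ σ)

variable {π}

theorem pti_charDesc_apply {χ : G → ZMod n} (hχ : ptd_IsChar χ)
    (hker : ∀ g, π g = 1 → χ g = 0) (g : G) : pti_charDesc π hπ χ (π g) = χ g := by
  have h1 : π ((Function.surjInv hπ (π g))⁻¹ * g) = 1 := by
    rw [map_mul, map_inv, Function.surjInv_eq hπ, inv_mul_cancel]
  have h2 := hker _ h1
  rw [hχ, pti_isChar_inv hχ] at h2
  show χ (Function.surjInv hπ (π g)) = χ g
  rw [← sub_eq_zero, ← neg_eq_zero, neg_sub, sub_eq_add_neg, add_comm]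
  exact h2

theorem pti_charDesc_isChar {χ : G → ZMod n} (hχ : ptd_IsChar χ)
    (hker : ∀ g, π g = 1 → χ g = 0) : ptd_IsChar (pti_charDesc π hπ χ) := by
  intro σ τ
  obtain ⟨g, rfl⟩ := hπ σ
  obtain ⟨h, rfl⟩ := hπ τ
  rw [← map_mul, pti_charDesc_apply hπ hχ hker, pti_charDesc_apply hπ hχ hker,
    pti_charDesc_apply hπ hχ hker, hχ]

theorem pti_bock_charDesc {χ : G → ZMod n} (hχ : ptd_IsChar χ)
    (hker : ∀ g, π g = 1 → χ g = 0) (g h : G) :
    ptd_bock n (pti_charDesc π hπ χ) (π g, π h) = ptd_bock n χ (g, h) := by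
  show ((((pti_charDesc π hπ χ (π h)).val : ℤ) - ((pti_charDesc π hπ χ (π g * π h)).val : ℤ) +
    ((pti_charDesc π hπ χ (π g)).val : ℤ)) / (n : ℤ)) = _
  rw [← map_mul, pti_charDesc_apply hπ hχ hker, pti_charDesc_apply hπ hχ hker,
    pti_charDesc_apply hπ hχ hker]
  rfl

end Desc

end Fermat.Agent.Lib.PT
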