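/-
Abstract norm index computation by the Herbrand quotient (multiplicative notation).

`A` a commutative group, `f g : A →* A` with `f ∘ g = g ∘ f = 1` (think `f x = σ x / x`,
`g = N`), `H¹ = 0` for `A` (Hilbert 90: `ker g ≤ range f`), a "valuation"
`w : A →* Multiplicative ℤ`, a fixed element `z` with `g z = z ^ n`, `w z ≠ 1`, and a stable
subgroup `V ≤ ker w` of finite index in `ker w` with trivial cohomology.  Then
`[ker f : range g] = n`.
-/
import Mathlib

namespace Fermat.Agent.Lib.PT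

section Index

variable {A A' : Type*} [CommGroup A] [Group A']

/-- index lemma: `[C : B] = [f C : f B] * [ker f ⊓ C : ker f ⊓ B]` -/
theorem pti_relIndex_eq_map_mul_ker (f : A →* A') {B C : Subgroup A} (hBC : B ≤ C) :
    B.relIndex C = (B.map f).relIndex (C.map f) * (f.ker ⊓ B).relIndex (f.ker ⊓ C) := by
  have h1 : (B.map f).relIndex (C.map f) = (B ⊔ (f.ker ⊓ C)).relIndex C := by
    rw [Subgroup.relIndex_map_map]
    have e1 : C ⊔ f.ker = (B ⊔ f.ker) ⊔ C := by
      rw [sup_comm B, sup_assoc, sup_eq_right.mpr hBC, sup_comm]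
    rw [e1, Subgroup.relIndex_sup_left, ← Subgroup.inf_relIndex_right,
      sup_inf_assoc_of_le _ hBC]
  have h2 : (f.ker ⊓ B).relIndex (f.ker ⊓ C) = B.relIndex (B ⊔ (f.ker ⊓ C)) := by
    have e2 : B ⊓ (f.ker ⊓ C) = f.ker ⊓ B := by
      rw [inf_comm f.ker C, ← inf_assoc, inf_eq_left.mpr hBC, inf_comm]
    rw [Subgroup.relIndex_sup_left]
    conv_rhs => rw [← Subgroup.inf_relIndex_right, e2]
  rw [h1, h2, mul_comm]
  exact (Subgroup.relIndex_mul_relIndex _ _ _ le_sup_left (sup_le hBC inf_le_right)).symm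

end Index

section Herbrand

variable {A : Type*} [CommGroup A]

/-- `pti_q f g B = [ker f ⊓ B : g B]` -/
noncomputable def pti_q (f g : A →* A) (B : Subgroup A) : ℕ :=
  (B.map g).relIndex (f.ker ⊓ B)

theorem pti_q_top (f g : A →* A) : pti_q f g ⊤ = g.range.relIndex f.ker := by
  rw [pti_q, inf_top_eq, MonoidHom.range_eq_map]

theorem pti_map_le_ker_inf (f g : A →* A) (hfg : ∀ x, f (g x) = 1) {B : Subgroup A}
    (hgB : B.map g ≤ B) : B.map g ≤ f.ker ⊓ B := by
  refine le_inf ?_ hgB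
  rintro _ ⟨x, -, rfl⟩
  exact hfg x

theorem pti_q_mul_aux (f g : A →* A) (hfg : ∀ x, f (g x) = 1) {B C : Subgroup A}
    (hBC : B ≤ C) (hgB : B.map g ≤ B) (hgC : C.map g ≤ C) :
    (B.map g).relIndex (C.map g) * pti_q f g C =
      pti_q f g B * (f.ker ⊓ B).relIndex (f.ker ⊓ C) := by
  unfold pti_q
  rw [Subgroup.relIndex_mul_relIndex _ _ _ (Subgroup.map_mono hBC)
      (pti_map_le_ker_inf f g hfg hgC),
    Subgroup.relIndex_mul_relIndex _ _ _ (pti_map_le_ker_inf f g hfg hgB)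
      (inf_le_inf_left _ hBC)]

/-- invariance of the Herbrand quotient under passage to a finite-index stable subgroup -/
theorem pti_q_invariance (f g : A →* A) (hfg : ∀ x, f (g x) = 1) (hgf : ∀ x, g (f x) = 1)
    {B C : Subgroup A} (hBC : B ≤ C) (hfB : B.map f ≤ B) (hgB : B.map g ≤ B)
    (hfC : C.map f ≤ C) (hgC : C.map g ≤ C) (hn : B.relIndex C ≠ 0) :
    pti_q f g C * pti_q g f B = pti_q f g B * pti_q g f C := by
  have e1 := pti_q_mul_aux f g hfg hBC hgB hgC
  have e2 := pti_q_mul_aux g f hgf hBC hfB hfC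
  have i1 := pti_relIndex_eq_map_mul_ker f hBC
  have i2 := pti_relIndex_eq_map_mul_ker g hBC
  set xg := (B.map g).relIndex (C.map g)
  set xf := (B.map f).relIndex (C.map f)
  set uf := (f.ker ⊓ B).relIndex (f.ker ⊓ C)
  set ug := (g.ker ⊓ B).relIndex (g.ker ⊓ C)
  set n := B.relIndex C
  have hn2 : n * n ≠ 0 := mul_ne_zero hn hn
  apply Nat.eq_of_mul_eq_mul_left (Nat.pos_of_ne_zero hn2)
  calc n * n * (pti_q f g C * pti_q g f B)
      = (xg * ug) * (xf * uf) * (pti_q f g C * pti_q g f B) := by rw [← i1, ← i2]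
    _ = (xg * pti_q f g C) * ug * (xf * uf) * pti_q g f B := by ring
    _ = (pti_q f g B * uf) * ug * (xf * uf) * pti_q g f B := by rw [e1]
    _ = pti_q f g B * (xf * (pti_q g f B * ug)) * uf * uf := by ring
    _ = pti_q f g B * (xf * (xf * pti_q g f C)) * uf * uf := by rw [← e2]
    _ = (xf * uf) * (xf * uf) * (pti_q f g B * pti_q g f C) := by ring
    _ = n * n * (pti_q f g B * pti_q g f C) := by rw [← i1]

end Herbrand

theorem pti_zpowers_ofAdd (a : ℤ) : Subgroup.zpowers (Multiplicative.ofAdd a) =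
    AddSubgroup.toSubgroup (AddSubgroup.zmultiples a) := by
  ext y
  rw [Subgroup.mem_zpowers_iff]
  show _ ↔ Multiplicative.toAdd y ∈ AddSubgroup.zmultiples a
  rw [AddSubgroup.mem_zmultiples_iff]
  constructor
  · rintro ⟨k, rfl⟩
    exact ⟨k, by simp⟩
  · rintro ⟨k, hk⟩
    exact ⟨k, by rw [← ofAdd_zsmul, hk]; rfl⟩

theorem pti_index_zpowers_int (x : Multiplicative ℤ) :
    (Subgroup.zpowers x).index = (Multiplicative.toAdd x).natAbs := by
  have hxa : x = Multiplicative.ofAdd (Multiplicative.toAdd x) := rfl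
  conv_lhs => rw [hxa]
  rw [pti_zpowers_ofAdd, AddSubgroup.index_toSubgroup, Int.index_zmultiples]

/-- In `Multiplicative ℤ`, `[⟨x⟩ : ⟨x^n⟩] = n` for `x ≠ 1`. -/
theorem pti_relIndex_zpowers_pow (x : Multiplicative ℤ) (hx : x ≠ 1) (n : ℕ) :
    (Subgroup.zpowers (x ^ n)).relIndex (Subgroup.zpowers x) = n := by
  have hle : Subgroup.zpowers (x ^ n) ≤ Subgroup.zpowers x := by
    rw [Subgroup.zpowers_le]
    exact Subgroup.pow_mem _ (Subgroup.mem_zpowers x) n
  have := Subgroup.relIndex_mul_index hle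
  rw [pti_index_zpowers_int, pti_index_zpowers_int, toAdd_pow, nsmul_eq_mul, Int.natAbs_mul,
    Int.natAbs_natCast] at this
  have ha : Multiplicative.toAdd x ≠ 0 := fun h => hx h
  exact Nat.eq_of_mul_eq_mul_right (Int.natAbs_pos.2 ha) this


theorem pti_zpow_eq_one_int {x : Multiplicative ℤ} (hx : x ≠ 1) {k : ℤ} (h : x ^ k = 1) :
    k = 0 := by
  have h1 : k * Multiplicative.toAdd x = 0 := by
    have := congrArg Multiplicative.toAdd h
    simpa using this
  rcases mul_eq_zero.1 h1 with h2 | h2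
  · exact h2
  · exact absurd (show x = 1 from h2) hx

section Main

variable {A : Type*} [CommGroup A] (f g : A →* A)
  (hfg : ∀ x, f (g x) = 1) (hgf : ∀ x, g (f x) = 1)
  (w : A →* Multiplicative ℤ) (z : A) (hfz : f z = 1) (n : ℕ) (hn : n ≠ 0)
  (hgz : g z = z ^ n) (hwz : w z ≠ 1)
  (V : Subgroup A) (hVw : V ≤ w.ker) (hfV : V.map f ≤ V) (hgV : V.map g ≤ V)

include hVw hwz in
theorem pti_ker_inf_sup : w.ker ⊓ (Subgroup.zpowers z ⊔ V) = V := by
  apply le_antisymm
  · rintro x ⟨hx1, hx2⟩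
    obtain ⟨y, hy, v, hv, rfl⟩ := Subgroup.mem_sup.1 hx2
    obtain ⟨k, rfl⟩ := Subgroup.mem_zpowers_iff.1 hy
    have h1 : w (z ^ k * v) = 1 := hx1
    rw [map_mul, map_zpow, (MonoidHom.mem_ker).1 (hVw hv), mul_one] at h1
    have hk := pti_zpow_eq_one_int hwz h1
    rw [hk, zpow_zero, one_mul]
    exact hv
  · exact le_inf hVw le_sup_right

include hfz in
theorem pti_map_f_sup : (Subgroup.zpowers z ⊔ V).map f = V.map f := by
  rw [Subgroup.map_sup, MonoidHom.map_zpowers, hfz, Subgroup.zpowers_one_eq_bot, bot_sup_eq]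

include hgz in
theorem pti_map_g_sup : (Subgroup.zpowers z ⊔ V).map g = Subgroup.zpowers (z ^ n) ⊔ V.map g := by
  rw [Subgroup.map_sup, MonoidHom.map_zpowers, hgz]

include hfz hfV in
theorem pti_sup_f_stable : (Subgroup.zpowers z ⊔ V).map f ≤ Subgroup.zpowers z ⊔ V := by
  rw [pti_map_f_sup f z hfz V]
  exact hfV.trans le_sup_right

include hgz hgV in
theorem pti_sup_g_stable : (Subgroup.zpowers z ⊔ V).map g ≤ Subgroup.zpowers z ⊔ V := by
  rw [pti_map_g_sup g z n hgz V]
  refine sup_le_sup ?_ hgV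
  rw [Subgroup.zpowers_le]
  exact Subgroup.pow_mem _ (Subgroup.mem_zpowers z) n

include hfg hfz hn hgz hwz hVw hgV in
/-- The Herbrand quotient of `⟨z⟩ × V` is `n` when `V` is cohomologically trivial. -/
theorem pti_q_sup (hV0 : f.ker ⊓ V ≤ V.map g) (hV1 : g.ker ⊓ V ≤ V.map f) :
    pti_q f g (Subgroup.zpowers z ⊔ V) = n ∧ pti_q g f (Subgroup.zpowers z ⊔ V) = 1 := by
  set B := Subgroup.zpowers z ⊔ V with hB
  have hkw : w.ker ⊓ B = V := pti_ker_inf_sup w z hwz V hVw
  constructor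
  · unfold pti_q
    have hle : B.map g ≤ f.ker ⊓ B :=
      pti_map_le_ker_inf f g hfg (pti_sup_g_stable g z n hgz V hgV)
    rw [pti_relIndex_eq_map_mul_ker w hle]
    have e1 : (f.ker ⊓ B).map w = Subgroup.zpowers (w z) := by
      apply le_antisymm
      · calc (f.ker ⊓ B).map w ≤ B.map w := Subgroup.map_mono inf_le_right
          _ = Subgroup.zpowers (w z) := by
            rw [hB, Subgroup.map_sup, MonoidHom.map_zpowers,
              (Subgroup.map_eq_bot_iff _).2 hVw, sup_bot_eq]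
      · rw [Subgroup.zpowers_le]
        exact ⟨z, ⟨hfz, Subgroup.mem_sup_left (Subgroup.mem_zpowers z)⟩, rfl⟩
    have e2 : (B.map g).map w = Subgroup.zpowers (w z ^ n) := by
      rw [pti_map_g_sup g z n hgz V, Subgroup.map_sup, MonoidHom.map_zpowers, map_pow,
        (Subgroup.map_eq_bot_iff _).2 (hgV.trans hVw), sup_bot_eq]
    have e3 : (w.ker ⊓ B.map g).relIndex (w.ker ⊓ (f.ker ⊓ B)) = 1 := by
      rw [Subgroup.relIndex_eq_one]
      have : w.ker ⊓ (f.ker ⊓ B) = f.ker ⊓ V := by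
        rw [← inf_assoc, inf_comm w.ker, inf_assoc, hkw]
      rw [this]
      refine le_inf ?_ (hV0.trans (Subgroup.map_mono le_sup_right))
      exact (inf_le_right.trans hVw)
    rw [e1, e2, e3, mul_one]
    exact pti_relIndex_zpowers_pow (w z) hwz n
  · unfold pti_q
    rw [Subgroup.relIndex_eq_one, pti_map_f_sup f z hfz V]
    refine le_trans ?_ hV1
    refine le_inf inf_le_left ?_
    rintro x ⟨hx1, hx2⟩
    obtain ⟨y, hy, v, hv, rfl⟩ := Subgroup.mem_sup.1 hx2
    obtain ⟨k, rfl⟩ := Subgroup.mem_zpowers_iff.1 hy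
    have h1 : g (z ^ k * v) = 1 := hx1
    have h2 := congrArg w h1
    rw [map_mul, map_zpow, hgz, map_mul, map_one,
      (MonoidHom.mem_ker).1 (hVw (hgV ⟨v, hv, rfl⟩)), mul_one, map_zpow, map_pow,
      ← zpow_natCast, ← zpow_mul] at h2
    have hk := pti_zpow_eq_one_int hwz h2
    have hk' : k = 0 := by
      rcases mul_eq_zero.1 hk with h | h
      · exact absurd (by exact_mod_cast h) hn
      · exact h
    rw [hk', zpow_zero, one_mul]
    exact hv


include hfg hgf hfz hn hgz hwz hVw hfV hgV in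
/-- **Abstract norm index theorem**: `[ker f : range g] = n`, i.e. `[A^G : N A] = n`. -/
theorem pti_norm_index (h90 : g.ker ≤ f.range)
    (hV0 : f.ker ⊓ V ≤ V.map g) (hV1 : g.ker ⊓ V ≤ V.map f)
    (hfin : V.relIndex w.ker ≠ 0) :
    g.range.relIndex f.ker = n := by
  set B := Subgroup.zpowers z ⊔ V with hB
  have hBtop : B.relIndex ⊤ ≠ 0 := by
    rw [pti_relIndex_eq_map_mul_ker w (le_top : B ≤ ⊤), inf_top_eq,
      pti_ker_inf_sup w z hwz V hVw]
    refine mul_ne_zero ?_ hfin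
    have e1 : B.map w = Subgroup.zpowers (w z) := by
      rw [hB, Subgroup.map_sup, MonoidHom.map_zpowers,
        (Subgroup.map_eq_bot_iff _).2 hVw, sup_bot_eq]
    rw [e1]
    have hle : Subgroup.zpowers (w z) ≤ (⊤ : Subgroup A).map w := by
      rw [Subgroup.zpowers_le]
      exact ⟨z, Subgroup.mem_top z, rfl⟩
    have h1 := Subgroup.relIndex_mul_index hle
    intro h0
    rw [h0, zero_mul, pti_index_zpowers_int] at h1
    exact hwz (Int.natAbs_eq_zero.1 h1.symm)
  obtain ⟨q1, q2⟩ := pti_q_sup f g hfg w z hfz n hn hgz hwz V hVw hgV hV0 hV1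
  have hinv := pti_q_invariance f g hfg hgf (le_top : B ≤ ⊤)
    (pti_sup_f_stable f z hfz V hfV) (pti_sup_g_stable g z n hgz V hgV) le_top le_top hBtop
  have q3 : pti_q g f ⊤ = 1 := by
    rw [pti_q_top, Subgroup.relIndex_eq_one]
    exact h90
  rw [q1, q2, q3, mul_one, mul_one, pti_q_top] at hinv
  exact hinv

end Main

end Fermat.Agent.Lib.PT
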