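/-
Cohomologically trivial unit groups, abstract filtration layer.

`Λ` a commutative ring with an action of a finite group `G` by ring automorphisms,
`M : ℕ → AddSubgroup Λ` a decreasing, `G`-stable, separated and complete filtration with
`M 0 * M n ⊆ M (n+1)`.  If the graded pieces have trivial Tate cohomology in degree `0`
(resp. degree `-1` for a distinguished element `σ`), then the multiplicative group `1 + M 0`
has `Ĥ⁰ = 0` (every fixed element is a norm) resp. `H¹ = 0` for the cyclic group generated by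
`σ` (every element of norm one is of the shape `σ v / v`).  All approximations are additive,
so no inverses and no exponential or logarithm are used.
-/
import Mathlib

namespace Fermat.Agent.Lib.PT

open Finset

section Abstract

variable {Λ : Type*} [CommRing Λ] (G : Type*) [Group G] [MulSemiringAction G Λ]

/-- A decreasing `G`-stable separated complete filtration with `M 0 * M n ⊆ M (n+1)`. -/
structure pti_Filt (M : ℕ → AddSubgroup Λ) : Prop where
  anti : ∀ n, M (n + 1) ≤ M n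
  mul : ∀ n x y, x ∈ M 0 → y ∈ M n → x * y ∈ M (n + 1)
  stable : ∀ n (g : G) x, x ∈ M n → g • x ∈ M n
  sep : ∀ x, (∀ n, x ∈ M n) → x = 0
  complete : ∀ y : ℕ → Λ, (∀ n, y n ∈ M n) →
    ∃ s, ∀ n, s - ∑ i ∈ Finset.range n, y i ∈ M n

variable {G} {M : ℕ → AddSubgroup Λ}

theorem pti_Filt.le (hM : pti_Filt G M) {m n : ℕ} (h : m ≤ n) : M n ≤ M m :=
  antitone_nat_of_succ_le hM.anti h

theorem pti_Filt.mem_zero (hM : pti_Filt G M) {n : ℕ} {x : Λ} (hx : x ∈ M n) : x ∈ M 0 :=
  hM.le (Nat.zero_le n) hx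

theorem pti_Filt.mem_of_succ (hM : pti_Filt G M) {n : ℕ} {x : Λ} (hx : x ∈ M (n + 1)) :
    x ∈ M n :=
  hM.anti n hx

theorem pti_Filt.mul_mem (hM : pti_Filt G M) {m n : ℕ} {x y : Λ} (hx : x ∈ M m)
    (hy : y ∈ M n) : x * y ∈ M (n + 1) :=
  hM.mul n x y (hM.mem_zero hx) hy

theorem pti_Filt.mul_mem' (hM : pti_Filt G M) {m n : ℕ} {x y : Λ} (hx : x ∈ M m)
    (hy : y ∈ M n) : x * y ∈ M n :=
  hM.mem_of_succ (hM.mul_mem hx hy)

/-- `(1 + M 0) * M n ⊆ M n`. -/
theorem pti_Filt.one_add_mul_mem (hM : pti_Filt G M) {n : ℕ} {u y : Λ} (hu : u - 1 ∈ M 0)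
    (hy : y ∈ M n) : u * y ∈ M n := by
  have : u * y = y + (u - 1) * y := by ring
  rw [this]
  exact (M n).add_mem hy (hM.mul_mem' hu hy)

/-- `(1 + M 0) * y ≡ y mod M (n+1)` for `y ∈ M n`. -/
theorem pti_Filt.one_add_mul_sub_mem (hM : pti_Filt G M) {n : ℕ} {u y : Λ} (hu : u - 1 ∈ M 0)
    (hy : y ∈ M n) : u * y - y ∈ M (n + 1) := by
  have : u * y - y = (u - 1) * y := by ring
  rw [this]
  exact hM.mul_mem hu hy

theorem pti_Filt.one_add_mul_one_add (hM : pti_Filt G M) {x y : Λ} (hx : x - 1 ∈ M 0)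
    (hy : y - 1 ∈ M 0) : x * y - 1 ∈ M 0 := by
  have : x * y - 1 = (x - 1) * (y - 1) + (x - 1) + (y - 1) := by ring
  rw [this]
  exact (M 0).add_mem ((M 0).add_mem (hM.mul_mem' hx hy) hx) hy

theorem pti_Filt.prod_one_add {ι : Type*} (hM : pti_Filt G M) (s : Finset ι) (a : ι → Λ)
    (ha : ∀ i ∈ s, a i - 1 ∈ M 0) : ∏ i ∈ s, a i - 1 ∈ M 0 := by
  classical
  induction s using Finset.induction_on with
  | empty => simp
  | insert j s hj ih =>
    rw [Finset.prod_insert hj]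
    exact hM.one_add_mul_one_add (ha j (Finset.mem_insert_self j s))
      (ih fun i hi => ha i (Finset.mem_insert_of_mem hi))

theorem pti_Filt.sum_mem {ι : Type*} (n : ℕ) (s : Finset ι) (m : ι → Λ)
    (hm : ∀ i ∈ s, m i ∈ M n) : ∑ i ∈ s, m i ∈ M n :=
  (M n).sum_mem hm

/-- The expansion `∏ (a i + m i) ≡ ∏ a i + ∑ m i mod M (n+1)` for `a i ∈ 1 + M 0`,
`m i ∈ M n`. -/
theorem pti_Filt.prod_add {ι : Type*} (hM : pti_Filt G M) (n : ℕ) (s : Finset ι)
    (a m : ι → Λ) (ha : ∀ i ∈ s, a i - 1 ∈ M 0) (hm : ∀ i ∈ s, m i ∈ M n) :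
    ∏ i ∈ s, (a i + m i) - ∏ i ∈ s, a i - ∑ i ∈ s, m i ∈ M (n + 1) := by
  classical
  induction s using Finset.induction_on with
  | empty => simp
  | insert j s hj ih =>
    have ha' : ∀ i ∈ s, a i - 1 ∈ M 0 := fun i hi => ha i (Finset.mem_insert_of_mem hi)
    have hm' : ∀ i ∈ s, m i ∈ M n := fun i hi => hm i (Finset.mem_insert_of_mem hi)
    have haj : a j - 1 ∈ M 0 := ha j (Finset.mem_insert_self j s)
    have hmj : m j ∈ M n := hm j (Finset.mem_insert_self j s)
    have hr := ih ha' hm'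
    have hP : ∏ i ∈ s, a i - 1 ∈ M 0 := hM.prod_one_add s a ha'
    have hS : ∑ i ∈ s, m i ∈ M n := (M n).sum_mem hm'
    rw [Finset.prod_insert hj, Finset.prod_insert hj, Finset.sum_insert hj]
    set P := ∏ i ∈ s, a i
    set S := ∑ i ∈ s, m i
    set Q := ∏ i ∈ s, (a i + m i)
    have key : (a j + m j) * Q - a j * P - (m j + S) =
        (a j * (Q - P - S) - (Q - P - S)) + (Q - P - S) + (a j * S - S) + m j * (P - 1)
          + m j * S + m j * (Q - P - S) := by ring
    rw [key]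
    have h1 : a j * (Q - P - S) - (Q - P - S) ∈ M (n + 1) :=
      hM.mem_of_succ (hM.one_add_mul_sub_mem haj hr)
    have h2 : a j * S - S ∈ M (n + 1) := hM.one_add_mul_sub_mem haj hS
    have h3 : m j * (P - 1) ∈ M (n + 1) := by
      rw [mul_comm]; exact hM.mul_mem hP hmj
    have h4 : m j * S ∈ M (n + 1) := hM.mul_mem hmj hS
    have h5 : m j * (Q - P - S) ∈ M (n + 1) := hM.mul_mem' hmj hr
    exact (M (n+1)).add_mem ((M (n+1)).add_mem ((M (n+1)).add_mem ((M (n+1)).add_mem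
      ((M (n+1)).add_mem h1 hr) h2) h3) h4) h5

/-- Successive approximation: if every approximant at level `n` can be improved to level
`n+1` by a correction in `M n`, there is a limit `s` approximated at every level. -/
theorem pti_Filt.limit (hM : pti_Filt G M) (P : ℕ → Λ → Prop) (v0 : Λ) (h0 : P 0 v0)
    (step : ∀ n v, P n v → ∃ v', v' - v ∈ M n ∧ P (n + 1) v') :
    ∃ s, ∀ n, ∃ v, P n v ∧ s - v ∈ M n := by
  classical
  choose f hf using step
  let seq : (n : ℕ) → {v : Λ // P n v} := fun n =>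
    Nat.rec (motive := fun n => {v : Λ // P n v}) ⟨v0, h0⟩
      (fun n v => ⟨f n v.1 v.2, (hf n v.1 v.2).2⟩) n
  have hseq : ∀ n, (seq (n + 1)).1 - (seq n).1 ∈ M n := fun n => (hf n (seq n).1 (seq n).2).1
  obtain ⟨s', hs'⟩ := hM.complete (fun n => (seq (n + 1)).1 - (seq n).1) hseq
  refine ⟨s' + (seq 0).1, fun n => ⟨(seq n).1, (seq n).2, ?_⟩⟩
  have h := hs' n
  rw [Finset.sum_range_sub (fun n => (seq n).1)] at h
  have : s' + (seq 0).1 - (seq n).1 = s' - ((seq n).1 - (seq 0).1) := by ring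
  rw [this]
  exact h

/-- `1 + M 0` consists of units (with inverse again in `1 + M 0`). -/
theorem pti_Filt.exists_inv (hM : pti_Filt G M) (v : Λ) (hv : v - 1 ∈ M 0) :
    ∃ w, w - 1 ∈ M 0 ∧ v * w = 1 := by
  obtain ⟨s, hs⟩ := hM.limit (fun n w => w - 1 ∈ M 0 ∧ 1 - v * w ∈ M n) 1
    ⟨by simp, by
      have : (1 : Λ) - v * 1 = -(v - 1) := by ring
      rw [this]; exact (M 0).neg_mem hv⟩
    (fun n w hw => by
      refine ⟨w + (1 - v * w), by simpa using hw.2, ?_, ?_⟩
      · have : w + (1 - v * w) - 1 = (w - 1) + (1 - v * w) := by ring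
        rw [this]
        exact (M 0).add_mem hw.1 (hM.mem_zero hw.2)
      · have : 1 - v * (w + (1 - v * w)) = -((v - 1) * (1 - v * w)) := by ring
        rw [this]
        exact (M (n+1)).neg_mem (hM.mul_mem hv hw.2))
  refine ⟨s, ?_, ?_⟩
  · obtain ⟨w, hw, hsw⟩ := hs 0
    have : s - 1 = (s - w) + (w - 1) := by ring
    rw [this]
    exact (M 0).add_mem hsw hw.1
  · have : 1 - v * s = 0 := by
      apply hM.sep
      intro n
      obtain ⟨w, hw, hsw⟩ := hs n
      have : 1 - v * s = (1 - v * w) - v * (s - w) := by ring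
      rw [this]
      exact (M n).sub_mem hw.2 (hM.one_add_mul_mem hv hsw)
    exact (sub_eq_zero.1 this).symm

section NormTrace

variable [Fintype G]

omit [CommRing Λ] [MulSemiringAction G Λ] in
theorem pti_smul_norm {N : Type*} [CommMonoid N] [MulDistribMulAction G N] (g : G) (v : N) :
    g • ∏ h : G, h • v = ∏ h : G, h • v :=
  Finset.smul_prod_perm v g

omit [CommRing Λ] [MulSemiringAction G Λ] in
theorem pti_norm_smul {N : Type*} [CommMonoid N] [MulDistribMulAction G N] (g : G) (v : N) :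
    ∏ h : G, h • (g • v) = ∏ h : G, h • v := by
  simp only [smul_smul]
  exact Fintype.prod_equiv (Equiv.mulRight g) _ _ (fun h => rfl)

omit [CommRing Λ] [MulSemiringAction G Λ] in
theorem pti_smul_trace {N : Type*} [AddCommMonoid N] [DistribMulAction G N] (g : G) (v : N) :
    g • ∑ h : G, h • v = ∑ h : G, h • v := by
  simp only [Finset.smul_sum, smul_smul]
  exact Fintype.sum_equiv (Equiv.mulLeft g) _ _ (fun h => rfl)

omit [CommRing Λ] [MulSemiringAction G Λ] in
theorem pti_trace_smul {N : Type*} [AddCommMonoid N] [DistribMulAction G N] (g : G) (v : N) :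
    ∑ h : G, h • (g • v) = ∑ h : G, h • v := by
  simp only [smul_smul]
  exact Fintype.sum_equiv (Equiv.mulRight g) _ _ (fun h => rfl)

theorem pti_Filt.trace_mem (hM : pti_Filt G M) {n : ℕ} {y : Λ} (hy : y ∈ M n) :
    ∑ h : G, h • y ∈ M n :=
  (M n).sum_mem fun h _ => hM.stable n h y hy

omit [Fintype G] in
theorem pti_Filt.smul_one_add (hM : pti_Filt G M) {v : Λ} (hv : v - 1 ∈ M 0) (g : G) :
    g • v - 1 ∈ M 0 := by
  have : g • v - 1 = g • (v - 1) := by rw [smul_sub, smul_one]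
  rw [this]
  exact hM.stable 0 g _ hv

/-- `N(v + y) ≡ N v + Tr y mod M (n+1)` for `v ∈ 1 + M 0`, `y ∈ M n`. -/
theorem pti_Filt.norm_add (hM : pti_Filt G M) {n : ℕ} {v y : Λ} (hv : v - 1 ∈ M 0)
    (hy : y ∈ M n) :
    ∏ h : G, h • (v + y) - ∏ h : G, h • v - ∑ h : G, h • y ∈ M (n + 1) := by
  have := hM.prod_add n (Finset.univ : Finset G) (fun h => h • v) (fun h => h • y)
    (fun h _ => hM.smul_one_add hv h) (fun h _ => hM.stable n h y hy)
  simpa only [smul_add] using this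

/-- `N(v + y) ≡ N v mod M n` for `v ∈ 1 + M 0`, `y ∈ M n`. -/
theorem pti_Filt.norm_add' (hM : pti_Filt G M) {n : ℕ} {v y : Λ} (hv : v - 1 ∈ M 0)
    (hy : y ∈ M n) :
    ∏ h : G, h • (v + y) - ∏ h : G, h • v ∈ M n := by
  have h1 := hM.mem_of_succ (hM.norm_add hv hy)
  have h2 := hM.trace_mem hy
  have := (M n).add_mem h1 h2
  simpa using this

/-- `Ĥ⁰(G, 1 + M 0) = 0`: every `G`-fixed element of `1 + M 0` is a norm from `1 + M 0`,
provided fixed elements of `M n` are traces from `M n` modulo `M (n+1)`. -/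
theorem pti_Filt.norm_surj (hM : pti_Filt G M)
    (T0 : ∀ n x, x ∈ M n → (∀ g : G, g • x = x) → ∃ y ∈ M n, x - ∑ h : G, h • y ∈ M (n + 1))
    (u : Λ) (hu : u - 1 ∈ M 0) (hfix : ∀ g : G, g • u = u) :
    ∃ v, v - 1 ∈ M 0 ∧ ∏ h : G, h • v = u := by
  obtain ⟨s, hs⟩ := hM.limit (fun n v => v - 1 ∈ M 0 ∧ u - ∏ h : G, h • v ∈ M n) 1
    ⟨by simp, by simpa using hu⟩
    (fun n v hv => by
      obtain ⟨y, hy, hxy⟩ := T0 n (u - ∏ h : G, h • v) hv.2
        (fun g => by rw [smul_sub, hfix g, pti_smul_norm])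
      refine ⟨v + y, by simpa using hy, ?_, ?_⟩
      · have : v + y - 1 = (v - 1) + y := by ring
        rw [this]
        exact (M 0).add_mem hv.1 (hM.mem_zero hy)
      · have h1 := hM.norm_add hv.1 hy
        have : u - ∏ h : G, h • (v + y) = (u - ∏ h : G, h • v - ∑ h : G, h • y)
            - (∏ h : G, h • (v + y) - ∏ h : G, h • v - ∑ h : G, h • y) := by ring
        rw [this]
        exact (M (n+1)).sub_mem hxy h1)
  refine ⟨s, ?_, ?_⟩
  · obtain ⟨w, hw, hsw⟩ := hs 0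
    have : s - 1 = (s - w) + (w - 1) := by ring
    rw [this]
    exact (M 0).add_mem hsw hw.1
  · have : u - ∏ h : G, h • s = 0 := by
      apply hM.sep
      intro n
      obtain ⟨w, hw, hsw⟩ := hs n
      have h1 := hM.norm_add' hw.1 hsw
      have e : w + (s - w) = s := by ring
      rw [e] at h1
      have : u - ∏ h : G, h • s = (u - ∏ h : G, h • w)
          - (∏ h : G, h • s - ∏ h : G, h • w) := by ring
      rw [this]
      exact (M n).sub_mem hw.2 h1
    exact (sub_eq_zero.1 this).symm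

/-- `H¹(⟨σ⟩, 1 + M 0) = 0`: every element of `1 + M 0` of norm one is `σ v / v` with
`v ∈ 1 + M 0`, provided the graded pieces have trivial `Ĥ⁻¹`. -/
theorem pti_Filt.hilbert90 (hM : pti_Filt G M) (σ : G)
    (T1 : ∀ n x, x ∈ M n → ∑ h : G, h • x ∈ M (n + 1) →
      ∃ y ∈ M n, x + σ • y - y ∈ M (n + 1))
    (u : Λ) (hu : u - 1 ∈ M 0) (hN : ∏ h : G, h • u = 1) :
    ∃ v, v - 1 ∈ M 0 ∧ σ • v = u * v := by
  obtain ⟨s, hs⟩ := hM.limit (fun n v => v - 1 ∈ M 0 ∧ σ • v - u * v ∈ M n) 1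
    ⟨by simp, by
      have : σ • (1 : Λ) - u * 1 = -(u - 1) := by rw [smul_one]; ring
      rw [this]; exact (M 0).neg_mem hu⟩
    (fun n v hv => by
      have huv : u * v - 1 ∈ M 0 := hM.one_add_mul_one_add hu hv.1
      have hTr : ∑ h : G, h • (σ • v - u * v) ∈ M (n + 1) := by
        have h1 := hM.norm_add huv hv.2
        have e : u * v + (σ • v - u * v) = σ • v := by ring
        have e2 : ∏ h : G, h • (u * v) = ∏ h : G, h • v := by
          simp only [smul_mul', Finset.prod_mul_distrib, hN, one_mul]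
        rw [e, pti_norm_smul, e2, sub_self, zero_sub] at h1
        simpa using (M (n+1)).neg_mem h1
      obtain ⟨y, hy, hxy⟩ := T1 n (σ • v - u * v) hv.2 hTr
      refine ⟨v + y, by simpa using hy, ?_, ?_⟩
      · have : v + y - 1 = (v - 1) + y := by ring
        rw [this]
        exact (M 0).add_mem hv.1 (hM.mem_zero hy)
      · have : σ • (v + y) - u * (v + y) = (σ • v - u * v + σ • y - y) - (u * y - y) := by
          rw [smul_add]; ring
        rw [this]
        exact (M (n+1)).sub_mem hxy (hM.one_add_mul_sub_mem hu hy))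
  refine ⟨s, ?_, ?_⟩
  · obtain ⟨w, hw, hsw⟩ := hs 0
    have : s - 1 = (s - w) + (w - 1) := by ring
    rw [this]
    exact (M 0).add_mem hsw hw.1
  · have : σ • s - u * s = 0 := by
      apply hM.sep
      intro n
      obtain ⟨w, hw, hsw⟩ := hs n
      have : σ • s - u * s = (σ • w - u * w) + σ • (s - w) - u * (s - w) := by
        rw [smul_sub]; ring
      rw [this]
      exact (M n).sub_mem ((M n).add_mem hw.2 (hM.stable n σ _ hsw))
        (hM.one_add_mul_mem hu hsw)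
    exact sub_eq_zero.1 this

end NormTrace

end Abstract

section Lattice

variable {R : Type*} [CommRing R] {Λ : Type*} [CommRing Λ] [Algebra R Λ]
  {G : Type*} [Group G] [Fintype G] [MulSemiringAction G Λ]

/-- The lattice `π^k • span R (range b)` as an additive subgroup of `Λ`. -/
def pti_lat (π : R) (b : G → Λ) (k : ℕ) : AddSubgroup Λ :=
  ((Submodule.span R (Set.range b)).map (LinearMap.lsmul R Λ (π ^ k))).toAddSubgroup

omit [Group G] [Fintype G] [MulSemiringAction G Λ] in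
theorem pti_mem_lat_iff_span {π : R} {b : G → Λ} {k : ℕ} {x : Λ} :
    x ∈ pti_lat π b k ↔ ∃ X ∈ Submodule.span R (Set.range b), π ^ k • X = x := by
  unfold pti_lat
  rw [Submodule.mem_toAddSubgroup, Submodule.mem_map]
  rfl

omit [Group G] [MulSemiringAction G Λ] in
theorem pti_mem_lat {π : R} {b : G → Λ} {k : ℕ} {x : Λ} :
    x ∈ pti_lat π b k ↔ ∃ a : G → R, π ^ k • ∑ g, a g • b g = x := by
  rw [pti_mem_lat_iff_span]
  constructor
  · rintro ⟨y, hy, rfl⟩
    obtain ⟨a, rfl⟩ := (Submodule.mem_span_range_iff_exists_fun R).1 hy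
    exact ⟨a, rfl⟩
  · rintro ⟨a, rfl⟩
    exact ⟨_, (Submodule.mem_span_range_iff_exists_fun R).2 ⟨a, rfl⟩, rfl⟩

omit [Group G] [MulSemiringAction G Λ] in
theorem pti_mem_lat' {π : R} {b : G → Λ} {k : ℕ} {x : Λ} :
    x ∈ pti_lat π b k ↔ ∃ a : G → R, ∑ g, (π ^ k * a g) • b g = x := by
  rw [pti_mem_lat]
  simp only [Finset.smul_sum, smul_smul]

omit [Group G] [MulSemiringAction G Λ] in
theorem pti_coeff_ext {b : G → Λ} (hb : LinearIndependent R b) {a a' : G → R}
    (h : ∑ g, a g • b g = ∑ g, a' g • b g) : ∀ g, a g = a' g := by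
  have h0 : ∑ g, (a g - a' g) • b g = 0 := by
    simp only [sub_smul, Finset.sum_sub_distrib, h, sub_self]
  intro g
  exact sub_eq_zero.1 (Fintype.linearIndependent_iff.1 hb (fun g => a g - a' g) h0 g)

theorem pti_smul_comb (hcomm : ∀ (g : G) (r : R) (x : Λ), g • (r • x) = r • (g • x))
    {b : G → Λ} (hgb : ∀ g h : G, g • b h = b (g * h)) (g : G) (a : G → R) :
    g • ∑ h, a h • b h = ∑ h, a h • b (g * h) := by
  rw [Finset.smul_sum]
  exact Finset.sum_congr rfl fun h _ => by rw [hcomm, hgb]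

theorem pti_smul_comb' (hcomm : ∀ (g : G) (r : R) (x : Λ), g • (r • x) = r • (g • x))
    {b : G → Λ} (hgb : ∀ g h : G, g • b h = b (g * h)) (g : G) (a : G → R) :
    g • ∑ h, a h • b h = ∑ h, a (g⁻¹ * h) • b h := by
  rw [pti_smul_comb hcomm hgb]
  exact Fintype.sum_equiv (Equiv.mulLeft g) _ _ (fun h => by simp)

omit [Fintype G] in
theorem pti_span_stable (hcomm : ∀ (g : G) (r : R) (x : Λ), g • (r • x) = r • (g • x))
    {b : G → Λ} (hgb : ∀ g h : G, g • b h = b (g * h)) (g : G) {X : Λ}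
    (hX : X ∈ Submodule.span R (Set.range b)) : g • X ∈ Submodule.span R (Set.range b) := by
  induction hX using Submodule.span_induction with
  | mem x hx =>
    obtain ⟨h, rfl⟩ := hx
    rw [hgb]
    exact Submodule.subset_span ⟨_, rfl⟩
  | zero => rw [smul_zero]; exact Submodule.zero_mem _
  | add x y _ _ hx hy => rw [smul_add]; exact Submodule.add_mem _ hx hy
  | smul r x _ hx => rw [hcomm]; exact Submodule.smul_mem _ _ hx

theorem pti_lat_filt (hcomm : ∀ (g : G) (r : R) (x : Λ), g • (r • x) = r • (g • x))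
    (π : R) (hsep : ∀ r : R, (∀ n, ∃ t, r = π ^ n * t) → r = 0)
    (hcomp : ∀ a : ℕ → R, ∃ s : R, ∀ n, ∃ t, s - ∑ i ∈ range n, π ^ i * a i = π ^ n * t)
    (b : G → Λ) (hb : LinearIndependent R b) (hgb : ∀ g h : G, g • b h = b (g * h))
    (c : ℕ) (hc : ∀ x ∈ Submodule.span R (Set.range b), ∀ y ∈ Submodule.span R (Set.range b),
      π ^ c • (x * y) ∈ Submodule.span R (Set.range b)) :
    pti_Filt G (fun n => pti_lat π b (c + 1 + n)) where
  anti := by
    intro n x hx
    obtain ⟨X, hX, rfl⟩ := pti_mem_lat_iff_span.1 hx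
    refine pti_mem_lat_iff_span.2 ⟨π • X, Submodule.smul_mem _ _ hX, ?_⟩
    rw [smul_smul]
    congr 1
    ring
  mul := by
    intro n x y hx hy
    obtain ⟨X, hX, rfl⟩ := pti_mem_lat_iff_span.1 hx
    obtain ⟨Y, hY, rfl⟩ := pti_mem_lat_iff_span.1 hy
    refine pti_mem_lat_iff_span.2 ⟨π ^ c • (X * Y), hc X hX Y hY, ?_⟩
    rw [smul_mul_smul_comm, smul_smul]
    congr 1
    ring
  stable := by
    intro n g x hx
    obtain ⟨X, hX, rfl⟩ := pti_mem_lat_iff_span.1 hx
    refine pti_mem_lat_iff_span.2 ⟨g • X, pti_span_stable hcomm hgb g hX, ?_⟩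
    rw [hcomm]
  sep := by
    intro x hx
    obtain ⟨a, rfl⟩ := pti_mem_lat'.1 (hx 0)
    have : ∀ g, π ^ (c + 1 + 0) * a g = 0 := by
      intro g
      apply hsep
      intro n
      obtain ⟨a', ha'⟩ := pti_mem_lat'.1 (hx n)
      have := pti_coeff_ext hb ha' g
      refine ⟨π ^ (c + 1) * a' g, ?_⟩
      rw [← this]
      ring
    exact Finset.sum_eq_zero fun g _ => by rw [this g, zero_smul]
  complete := by
    intro y hy
    have hy' : ∀ n, ∃ a : G → R, ∑ g, (π ^ (c + 1 + n) * a g) • b g = y n :=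
      fun n => pti_mem_lat'.1 (hy n)
    choose a ha using hy'
    have hs : ∀ g : G, ∃ s : R, ∀ n, ∃ t, s - ∑ i ∈ range n, π ^ i * a i g = π ^ n * t :=
      fun g => hcomp (fun i => a i g)
    choose s hs using hs
    choose t ht using hs
    refine ⟨∑ g, (π ^ (c + 1 + 0) * s g) • b g, fun n => ?_⟩
    refine pti_mem_lat'.2 ⟨fun g => t g n, ?_⟩
    have h1 : ∑ i ∈ range n, y i = ∑ g, (π ^ (c + 1 + 0) * ∑ i ∈ range n, π ^ i * a i g) • b g := by
      simp only [← ha]
      rw [Finset.sum_comm]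
      refine Finset.sum_congr rfl fun g _ => ?_
      rw [← Finset.sum_smul]
      congr 1
      rw [Finset.mul_sum]
      refine Finset.sum_congr rfl fun i _ => ?_
      ring
    rw [h1, ← Finset.sum_sub_distrib]
    refine Finset.sum_congr rfl fun g _ => ?_
    rw [← sub_smul, ← mul_sub, ht g n]
    congr 1
    ring

/-- Fixed elements of the lattice are traces from the lattice (any finite group). -/
theorem pti_lat_T0 (hcomm : ∀ (g : G) (r : R) (x : Λ), g • (r • x) = r • (g • x))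
    (π : R) (b : G → Λ) (hb : LinearIndependent R b) (hgb : ∀ g h : G, g • b h = b (g * h))
    (k : ℕ) (x : Λ) (hx : x ∈ pti_lat π b k) (hfix : ∀ g : G, g • x = x) :
    ∃ y ∈ pti_lat π b k, ∑ h : G, h • y = x := by
  obtain ⟨a, rfl⟩ := pti_mem_lat'.1 hx
  have hcoef : ∀ g : G, π ^ k * a g = π ^ k * a 1 := by
    intro g
    have h1 := hfix g
    rw [pti_smul_comb' hcomm hgb g (fun h => π ^ k * a h)] at h1
    have := pti_coeff_ext hb h1 g
    simpa using this.symm
  refine ⟨(π ^ k * a 1) • b 1, pti_mem_lat_iff_span.2 ⟨a 1 • b 1,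
    Submodule.smul_mem _ _ (Submodule.subset_span ⟨1, rfl⟩), by rw [smul_smul]⟩, ?_⟩
  refine Finset.sum_congr rfl fun h _ => ?_
  rw [hcomm, hgb, mul_one, hcoef h]

/-- The lattice has trivial `Ĥ⁻¹` modulo the next step, for a cyclic group. -/
theorem pti_lat_T1 (hcomm : ∀ (g : G) (r : R) (x : Λ), g • (r • x) = r • (g • x))
    (π : R) (b : G → Λ) (hb : LinearIndependent R b) (hgb : ∀ g h : G, g • b h = b (g * h))
    (σ : G) (hσ : ∀ g : G, g ∈ Subgroup.zpowers σ)
    (k : ℕ) (x : Λ) (hx : x ∈ pti_lat π b k) (hTr : ∑ h : G, h • x ∈ pti_lat π b (k + 1)) :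
    ∃ y ∈ pti_lat π b k, x + σ • y - y ∈ pti_lat π b (k + 1) := by
  have hz : ∀ h : G, ∃ z ∈ Submodule.span R (Set.range b), σ • z - z = b h - b 1 := by
    intro h
    obtain ⟨j, rfl⟩ := (Submonoid.mem_powers_iff _ _).1 ((mem_powers_iff_mem_zpowers).2 (hσ h))
    refine ⟨∑ i ∈ range j, b (σ ^ i), Submodule.sum_mem _ fun i _ =>
      Submodule.subset_span ⟨_, rfl⟩, ?_⟩
    rw [Finset.smul_sum, ← Finset.sum_sub_distrib]
    have : ∀ i ∈ range j, σ • b (σ ^ i) - b (σ ^ i) = b (σ ^ (i + 1)) - b (σ ^ i) := by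
      intro i _
      rw [hgb, pow_succ']
    rw [Finset.sum_congr rfl this, Finset.sum_range_sub (fun i => b (σ ^ i)), pow_zero]
  choose z hz hzσ using hz
  obtain ⟨a, rfl⟩ := pti_mem_lat.1 hx
  obtain ⟨r, hr⟩ := pti_mem_lat'.1 hTr
  -- the trace of `x`
  have hTrx : ∑ h : G, h • (π ^ k • ∑ g, a g • b g) = ∑ g, (π ^ k * ∑ h, a h) • b g := by
    have h1 : ∀ h : G, h • (π ^ k • ∑ g, a g • b g) = π ^ k • ∑ g, a g • b (h * g) := by
      intro h
      rw [hcomm, pti_smul_comb hcomm hgb]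
    simp only [h1]
    rw [← Finset.smul_sum, Finset.sum_comm]
    have h2 : ∀ g : G, ∑ h : G, a g • b (h * g) = a g • ∑ h : G, b h := by
      intro g
      rw [Finset.smul_sum]
      exact Fintype.sum_equiv (Equiv.mulRight g) _ _ (fun h => rfl)
    simp only [h2]
    rw [← Finset.sum_smul, smul_smul, Finset.smul_sum]
  have hA : π ^ k * ∑ h, a h = π ^ (k + 1) * r 1 := by
    rw [hTrx] at hr
    exact (pti_coeff_ext hb hr 1).symm
  refine ⟨-(π ^ k • ∑ h, a h • z h), (pti_lat π b k).neg_mem (pti_mem_lat_iff_span.2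
    ⟨_, Submodule.sum_mem _ fun h _ => Submodule.smul_mem _ _ (hz h), rfl⟩), ?_⟩
  refine pti_mem_lat_iff_span.2 ⟨r 1 • b 1,
    Submodule.smul_mem _ _ (Submodule.subset_span ⟨1, rfl⟩), ?_⟩
  have h3 : σ • (π ^ k • ∑ h, a h • z h) - π ^ k • ∑ h, a h • z h
      = π ^ k • ∑ h, a h • b h - (π ^ k * ∑ h, a h) • b 1 := by
    rw [hcomm, Finset.smul_sum, ← smul_sub, ← Finset.sum_sub_distrib]
    have : ∀ h ∈ (Finset.univ : Finset G), σ • a h • z h - a h • z h = a h • b h - a h • b 1 := by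
      intro h _
      rw [hcomm, ← smul_sub, hzσ, smul_sub]
    rw [Finset.sum_congr rfl this, Finset.sum_sub_distrib, ← Finset.sum_smul, smul_sub,
      smul_smul]
  rw [smul_neg, sub_neg_eq_add]
  have : π ^ k • ∑ g, a g • b g + -(σ • (π ^ k • ∑ h, a h • z h)) + π ^ k • ∑ h, a h • z h
      = π ^ k • ∑ g, a g • b g -
        (σ • (π ^ k • ∑ h, a h • z h) - π ^ k • ∑ h, a h • z h) := by ring
  rw [this, h3, hA, smul_smul]
  ring


variable (hcomm : ∀ (g : G) (r : R) (x : Λ), g • (r • x) = r • (g • x))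
  (π : R) (hsep : ∀ r : R, (∀ n, ∃ t, r = π ^ n * t) → r = 0)
  (hcomp : ∀ a : ℕ → R, ∃ s : R, ∀ n, ∃ t, s - ∑ i ∈ range n, π ^ i * a i = π ^ n * t)
  (b : G → Λ) (hb : LinearIndependent R b) (hgb : ∀ g h : G, g • b h = b (g * h))
  (c : ℕ) (hc : ∀ x ∈ Submodule.span R (Set.range b), ∀ y ∈ Submodule.span R (Set.range b),
    π ^ c • (x * y) ∈ Submodule.span R (Set.range b))

include hcomm hsep hcomp hb hgb hc

/-- `1 + π^(c+1) B` consists of units of `Λ`, with inverses in `1 + π^(c+1) B`. -/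
theorem pti_lat_exists_inv (v : Λ) (hv : v - 1 ∈ pti_lat π b (c + 1)) :
    ∃ w, w - 1 ∈ pti_lat π b (c + 1) ∧ v * w = 1 :=
  (pti_lat_filt hcomm π hsep hcomp b hb hgb c hc).exists_inv v hv

/-- `Ĥ⁰(G, 1 + π^(c+1) B) = 0` for a lattice `B` with a normal basis (any finite `G`). -/
theorem pti_lat_norm_surj (u : Λ) (hu : u - 1 ∈ pti_lat π b (c + 1))
    (hfix : ∀ g : G, g • u = u) :
    ∃ v, v - 1 ∈ pti_lat π b (c + 1) ∧ ∏ h : G, h • v = u :=
  (pti_lat_filt hcomm π hsep hcomp b hb hgb c hc).norm_surj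
    (fun n x hx hfx => by
      obtain ⟨y, hy, hxy⟩ := pti_lat_T0 hcomm π b hb hgb (c + 1 + n) x hx hfx
      exact ⟨y, hy, by rw [hxy, sub_self]; exact (pti_lat π b (c + 1 + (n + 1))).zero_mem⟩)
    u hu hfix

/-- `H¹(G, 1 + π^(c+1) B) = 0` for a lattice `B` with a normal basis, `G` cyclic generated
by `σ`: an element of norm one is `σ v / v`. -/
theorem pti_lat_hilbert90 (σ : G) (hσ : ∀ g : G, g ∈ Subgroup.zpowers σ)
    (u : Λ) (hu : u - 1 ∈ pti_lat π b (c + 1)) (hN : ∏ h : G, h • u = 1) :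
    ∃ v, v - 1 ∈ pti_lat π b (c + 1) ∧ σ • v = u * v :=
  (pti_lat_filt hcomm π hsep hcomp b hb hgb c hc).hilbert90 σ
    (fun n x hx hTr => pti_lat_T1 hcomm π b hb hgb σ hσ (c + 1 + n) x hx hTr)
    u hu hN

end Lattice

end Fermat.Agent.Lib.PT
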