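/-
  Local toolkit for S55 (Poitou–Tate), part L0a: the `q`-adic absolute value on an algebraic
  extension of `ℚ_[q]`, as an `AbsoluteValue`, with its basic properties
  (extends the `q`-adic norm, ultrametric, invariant under `ℚ_[q]`-algebra homomorphisms).
  Owner: helper6.  Prefix `ptl_`.
-/
import Mathlib

set_option autoImplicit false

namespace Fermat.Agent.Lib.PT

open Polynomial

variable (q : ℕ) [Fact q.Prime]

section Abs

variable (K : Type*) [Field K] [Algebra ℚ_[q] K] [Algebra.IsAlgebraic ℚ_[q] K]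

/-- The `q`-adic absolute value on an algebraic extension `K` of `ℚ_[q]`
(the spectral norm). -/
noncomputable def ptl_abs : AbsoluteValue K ℝ where
  toFun := spectralNorm ℚ_[q] K
  map_mul' := (spectralMulAlgNorm ℚ_[q] K).map_mul'
  nonneg' := spectralNorm_nonneg
  eq_zero' x := ⟨fun h => eq_zero_of_map_spectralNorm_eq_zero h
      (Algebra.IsAlgebraic.isAlgebraic x), fun h => h ▸ spectralNorm_zero⟩
  add_le' x y := IsNonarchimedean.add_le spectralNorm_nonneg isNonarchimedean_spectralNorm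

variable {K}

theorem ptl_abs_apply (x : K) : ptl_abs q K x = spectralNorm ℚ_[q] K x := rfl

/-- The ultrametric inequality. -/
theorem ptl_abs_add_le_max (x y : K) :
    ptl_abs q K (x + y) ≤ max (ptl_abs q K x) (ptl_abs q K y) :=
  isNonarchimedean_spectralNorm (K := ℚ_[q]) (L := K) x y

theorem ptl_abs_isNonarchimedean : IsNonarchimedean (ptl_abs q K) :=
  fun x y => ptl_abs_add_le_max q x y

theorem ptl_abs_algebraMap (x : ℚ_[q]) : ptl_abs q K (algebraMap ℚ_[q] K x) = ‖x‖ :=
  spectralNorm_extends x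

theorem ptl_abs_neg (x : K) : ptl_abs q K (-x) = ptl_abs q K x := (ptl_abs q K).map_neg x

theorem ptl_abs_sub_le_max (x y : K) :
    ptl_abs q K (x - y) ≤ max (ptl_abs q K x) (ptl_abs q K y) := by
  rw [sub_eq_add_neg, ← ptl_abs_neg q y]
  exact ptl_abs_add_le_max q x (-y)

/-- If `|y| < |x|` then `|x + y| = |x|`. -/
theorem ptl_abs_add_eq_of_lt {x y : K} (h : ptl_abs q K y < ptl_abs q K x) :
    ptl_abs q K (x + y) = ptl_abs q K x := by
  apply le_antisymm
  · exact (ptl_abs_add_le_max q x y).trans (max_le le_rfl h.le)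
  · have h1 : ptl_abs q K x ≤ max (ptl_abs q K (x + y)) (ptl_abs q K y) := by
      have := ptl_abs_sub_le_max q (x + y) y
      simpa using this
    rcases le_max_iff.mp h1 with h2 | h2
    · exact h2
    · exact absurd h2 (not_le.mpr h)

theorem ptl_abs_sub_eq_of_lt {x y : K} (h : ptl_abs q K y < ptl_abs q K x) :
    ptl_abs q K (x - y) = ptl_abs q K x := by
  rw [sub_eq_add_neg]
  exact ptl_abs_add_eq_of_lt q (by rwa [ptl_abs_neg])

/-- If `|x - y| < |x|` then `|y| = |x|`. -/
theorem ptl_abs_eq_of_sub_lt {x y : K} (h : ptl_abs q K (x - y) < ptl_abs q K x) :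
    ptl_abs q K y = ptl_abs q K x := by
  have : y = x - (x - y) := by ring
  rw [this]
  exact ptl_abs_sub_eq_of_lt q h

theorem ptl_abs_sum_le {ι : Type*} (s : Finset ι) (f : ι → K) {c : ℝ} (hc : 0 ≤ c)
    (h : ∀ i ∈ s, ptl_abs q K (f i) ≤ c) : ptl_abs q K (∑ i ∈ s, f i) ≤ c := by
  classical
  induction s using Finset.induction_on with
  | empty => simpa using hc
  | insert a s ha ih =>
    rw [Finset.sum_insert ha]
    exact (ptl_abs_add_le_max q _ _).trans
      (max_le (h a (Finset.mem_insert_self a s))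
        (ih fun i hi => h i (Finset.mem_insert_of_mem hi)))

theorem ptl_abs_sum_lt {ι : Type*} (s : Finset ι) (f : ι → K) {c : ℝ} (hc : 0 < c)
    (h : ∀ i ∈ s, ptl_abs q K (f i) < c) : ptl_abs q K (∑ i ∈ s, f i) < c := by
  classical
  induction s using Finset.induction_on with
  | empty => simpa using hc
  | insert a s ha ih =>
    rw [Finset.sum_insert ha]
    exact (ptl_abs_add_le_max q _ _).trans_lt
      (max_lt (h a (Finset.mem_insert_self a s))
        (ih fun i hi => h i (Finset.mem_insert_of_mem hi)))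

theorem ptl_abs_natCast_le_one (n : ℕ) : ptl_abs q K (n : K) ≤ 1 := by
  rw [← map_natCast (algebraMap ℚ_[q] K), ptl_abs_algebraMap]
  simpa using Padic.norm_int_le_one (p := q) (n : ℤ)

theorem ptl_abs_intCast_le_one (n : ℤ) : ptl_abs q K (n : K) ≤ 1 := by
  rw [← map_intCast (algebraMap ℚ_[q] K), ptl_abs_algebraMap]
  exact Padic.norm_int_le_one n

theorem ptl_abs_q : ptl_abs q K (q : K) = (q : ℝ)⁻¹ := by
  rw [← map_natCast (algebraMap ℚ_[q] K), ptl_abs_algebraMap]
  exact Padic.norm_p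

theorem ptl_abs_q_lt_one : ptl_abs q K (q : K) < 1 := by
  rw [ptl_abs_q]
  exact inv_lt_one_of_one_lt₀ (by exact_mod_cast (Fact.out : q.Prime).one_lt)

theorem ptl_abs_q_pos : 0 < ptl_abs q K (q : K) := by
  rw [ptl_abs_q]
  exact inv_pos.mpr (by exact_mod_cast (Fact.out : q.Prime).pos)

/-- A natural number prime to `q` has absolute value `1`. -/
theorem ptl_abs_natCast_of_coprime {m : ℕ} (hm : Nat.Coprime m q) : ptl_abs q K (m : K) = 1 := by
  rw [← map_natCast (algebraMap ℚ_[q] K), ptl_abs_algebraMap]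
  exact Padic.norm_natCast_eq_one_iff.mpr hm.symm

end Abs

section Maps

variable {K L : Type*} [Field K] [Algebra ℚ_[q] K] [Algebra.IsAlgebraic ℚ_[q] K]
  [Field L] [Algebra ℚ_[q] L] [Algebra.IsAlgebraic ℚ_[q] L]

/-- `ℚ_[q]`-algebra homomorphisms preserve the absolute value. -/
theorem ptl_abs_algHom (f : K →ₐ[ℚ_[q]] L) (x : K) : ptl_abs q L (f x) = ptl_abs q K x := by
  simp only [ptl_abs_apply, spectralNorm, minpoly.algHom_eq f f.injective x]

theorem ptl_abs_algEquiv (f : K ≃ₐ[ℚ_[q]] L) (x : K) : ptl_abs q L (f x) = ptl_abs q K x :=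
  ptl_abs_algHom q (f : K →ₐ[ℚ_[q]] L) x

/-- Compatibility of the absolute values in a tower. -/
theorem ptl_abs_tower [Algebra K L] [IsScalarTower ℚ_[q] K L] (x : K) :
    ptl_abs q L (algebraMap K L x) = ptl_abs q K x :=
  (spectralNorm.eq_of_tower (K := ℚ_[q]) (E := K) (L := L) x).symm

/-- Automorphisms of `L` over a subfield `K` (containing `ℚ_[q]`) are isometries. -/
theorem ptl_abs_galois [Algebra K L] [IsScalarTower ℚ_[q] K L] (σ : L ≃ₐ[K] L) (x : L) :
    ptl_abs q L (σ x) = ptl_abs q L x :=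
  ptl_abs_algEquiv q (σ.restrictScalars ℚ_[q]) x

theorem ptl_abs_galois_hom [Algebra K L] [IsScalarTower ℚ_[q] K L] (σ : L →ₐ[K] L) (x : L) :
    ptl_abs q L (σ x) = ptl_abs q L x :=
  ptl_abs_algHom q (σ.restrictScalars ℚ_[q]) x

end Maps

/-- On `PadicAlgCl q` the absolute value is the norm. -/
theorem ptl_abs_padicAlgCl (x : PadicAlgCl q) : ptl_abs q (PadicAlgCl q) x = ‖x‖ := rfl

/-- On an intermediate field of `PadicAlgCl q / ℚ_[q]` the absolute value is the induced norm. -/
theorem ptl_abs_intermediateField (K : IntermediateField ℚ_[q] (PadicAlgCl q)) (x : K) :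
    ptl_abs q K x = ‖(x : PadicAlgCl q)‖ := by
  rw [← ptl_abs_padicAlgCl, ← ptl_abs_tower q (K := K) (L := PadicAlgCl q) x]
  rfl

end Fermat.Agent.Lib.PT
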