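/-
  Local toolkit for S55 (Poitou–Tate), part L0a': ring of integers, maximal ideal and residue
  field of an algebraic extension of `ℚ_[q]`.
  Owner: helper6.  Prefix `ptl_`.
-/
import Fermat.Agent.Lib.PT.LocAbs

set_option autoImplicit false

namespace Fermat.Agent.Lib.PT

open Polynomial

variable (q : ℕ) [Fact q.Prime]

section Int

variable (K : Type*) [Field K] [Algebra ℚ_[q] K] [Algebra.IsAlgebraic ℚ_[q] K]

/-- The ring of integers `{x | |x| ≤ 1}` of an algebraic extension of `ℚ_[q]`. -/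
noncomputable def ptl_O : ValuationSubring K where
  carrier := {x | ptl_abs q K x ≤ 1}
  mul_mem' {a b} ha hb := by
    simp only [Set.mem_setOf_eq] at ha hb ⊢
    rw [map_mul]
    exact mul_le_one₀ ha ((ptl_abs q K).nonneg b) hb
  one_mem' := by simp
  add_mem' {a b} ha hb := (ptl_abs_add_le_max q a b).trans (max_le ha hb)
  zero_mem' := by simp
  neg_mem' {a} ha := by simpa [ptl_abs_neg] using ha
  mem_or_inv_mem' x := by
    simp only [Set.mem_setOf_eq]
    rcases le_total (ptl_abs q K x) 1 with h | h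
    · exact Or.inl h
    · refine Or.inr ?_
      rw [map_inv₀]
      exact inv_le_one_of_one_le₀ h

/-- The residue field. -/
abbrev ptl_k : Type _ := IsLocalRing.ResidueField (ptl_O q K)

variable {K}

theorem ptl_mem_O {x : K} : x ∈ ptl_O q K ↔ ptl_abs q K x ≤ 1 := Iff.rfl

theorem ptl_abs_le_one (x : ptl_O q K) : ptl_abs q K (x : K) ≤ 1 := x.2

/-- An integer is a unit iff its absolute value is `1`. -/
theorem ptl_isUnit_iff (x : ptl_O q K) : IsUnit x ↔ ptl_abs q K (x : K) = 1 := by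
  constructor
  · rintro ⟨u, rfl⟩
    have h1 : ptl_abs q K ((u : ptl_O q K) : K) ≤ 1 := ptl_abs_le_one q _
    have h2 : ptl_abs q K (((u⁻¹ : (ptl_O q K)ˣ) : ptl_O q K) : K) ≤ 1 := ptl_abs_le_one q _
    have h3 : ((u : ptl_O q K) : K) * (((u⁻¹ : (ptl_O q K)ˣ) : ptl_O q K) : K) = 1 := by
      rw [← MulMemClass.coe_mul, Units.mul_inv]; rfl
    have h4 := congrArg (ptl_abs q K) h3
    rw [map_mul, map_one] at h4
    have h5 := (ptl_abs q K).nonneg ((u : ptl_O q K) : K)
    have h6 := (ptl_abs q K).nonneg (((u⁻¹ : (ptl_O q K)ˣ) : ptl_O q K) : K)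
    nlinarith
  · intro h
    have hx0 : (x : K) ≠ 0 := by
      intro h0; rw [h0, map_zero] at h; exact zero_ne_one h
    have hinv : (x : K)⁻¹ ∈ ptl_O q K := by
      rw [ptl_mem_O, map_inv₀, h, inv_one]
    refine ⟨⟨x, ⟨(x : K)⁻¹, hinv⟩, ?_, ?_⟩, rfl⟩
    · ext; simp [mul_inv_cancel₀ hx0]
    · ext; simp [inv_mul_cancel₀ hx0]

/-- An integer lies in the maximal ideal iff its absolute value is `< 1`. -/
theorem ptl_mem_maximalIdeal (x : ptl_O q K) :
    x ∈ IsLocalRing.maximalIdeal (ptl_O q K) ↔ ptl_abs q K (x : K) < 1 := by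
  rw [IsLocalRing.mem_maximalIdeal, mem_nonunits_iff, ptl_isUnit_iff]
  exact ⟨fun h => lt_of_le_of_ne (ptl_abs_le_one q x) h, fun h => h.ne⟩

end Int

end Fermat.Agent.Lib.PT
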