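/-
  Local toolkit for S55 (Poitou–Tate), part L0a'': finite extensions `K` of `ℚ_[q]`:
  completeness (successive approximation form), finiteness of the residue field,
  discreteness of the value group (uniformizer `ptl_unif`), the normalized valuation
  `ptl_ordZ : K → ℤ` and `ptl_ord : Kˣ →* Multiplicative ℤ`.
  Owner: helper6.  Prefix `ptl_`.
-/
import Fermat.Agent.Lib.PT.LocInt
set_option autoImplicit false
namespace Fermat.Agent.Lib.PT
variable (q : ℕ) [Fact q.Prime]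
variable (K : Type*) [Field K] [Algebra ℚ_[q] K] [FiniteDimensional ℚ_[q] K]

/-- Completeness, in a form convenient for successive approximation: a sequence whose
successive differences are bounded by `C * c ^ n` (`c < 1`) has a limit `y`, and
`|y - x n| ≤ C * c ^ n`. -/
theorem ptl_exists_limit (x : ℕ → K) (C c : ℝ) (hC : 0 ≤ C) (hc0 : 0 ≤ c) (hc : c < 1)
    (h : ∀ n, ptl_abs q K (x (n + 1) - x n) ≤ C * c ^ n) :
    ∃ y : K, ∀ n, ptl_abs q K (y - x n) ≤ C * c ^ n := by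
  let _ : NormedField K := spectralNorm.normedField ℚ_[q] K
  let _ : NormedAlgebra ℚ_[q] K := spectralNorm.normedAlgebra ℚ_[q] K
  haveI : CompleteSpace K := FiniteDimensional.complete ℚ_[q] K
  have hn : ∀ z : K, ‖z‖ = ptl_abs q K z := fun z => rfl
  -- ultrametric bound on `x m - x n`
  have hmn : ∀ n k, ptl_abs q K (x (n + k) - x n) ≤ C * c ^ n := by
    intro n k
    induction k with
    | zero => simpa using mul_nonneg hC (pow_nonneg hc0 n)
    | succ k ih =>
      have e : x (n + (k + 1)) - x n = (x (n + k + 1) - x (n + k)) + (x (n + k) - x n) := by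
        rw [← add_assoc]; ring
      rw [e]
      refine (ptl_abs_add_le_max q _ _).trans (max_le ((h (n + k)).trans ?_) ih)
      exact mul_le_mul_of_nonneg_left
        (pow_le_pow_of_le_one hc0 hc.le (Nat.le_add_right n k)) hC
  have hcs : CauchySeq x := by
    apply cauchySeq_of_le_geometric c C hc
    intro n
    rw [dist_comm, dist_eq_norm, hn]
    exact h n
  obtain ⟨y, hy⟩ := cauchySeq_tendsto_of_complete hcs
  refine ⟨y, fun n => ?_⟩
  have h1 : Filter.Tendsto (fun m => ‖x m - x n‖) Filter.atTop (nhds ‖y - x n‖) :=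
    ((hy.sub_const (x n))).norm
  refine le_of_tendsto h1 ?_
  filter_upwards [Filter.eventually_ge_atTop n] with m hm
  obtain ⟨k, rfl⟩ := Nat.exists_eq_add_of_le hm
  exact hmn n k

/-- The residue field is finite. -/
instance ptl_finite_k : Finite (ptl_k q K) := by
  let _ : NormedField K := spectralNorm.normedField ℚ_[q] K
  let _ : NormedAlgebra ℚ_[q] K := spectralNorm.normedAlgebra ℚ_[q] K
  haveI : ProperSpace K := FiniteDimensional.proper ℚ_[q] K
  have hn : ∀ z : K, ‖z‖ = ptl_abs q K z := fun z => rfl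
  have hcomp : IsCompact (Metric.closedBall (0 : K) 1) := isCompact_closedBall 0 1
  obtain ⟨t, hts, htf, hcov⟩ := hcomp.finite_cover_balls (e := 1) one_pos
  -- the residues of the centres exhaust the residue field
  have htO : ∀ z ∈ t, z ∈ ptl_O q K := fun z hz => by
    have := hts hz
    rw [mem_closedBall_zero_iff, hn] at this
    exact this
  let f : t → ptl_k q K := fun z => IsLocalRing.residue (ptl_O q K) ⟨z.1, htO z.1 z.2⟩
  haveI : Finite t := htf
  refine Finite.of_surjective f ?_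
  intro a
  obtain ⟨x, rfl⟩ := IsLocalRing.residue_surjective a
  have hx : (x : K) ∈ Metric.closedBall (0 : K) 1 := by
    rw [mem_closedBall_zero_iff, hn]; exact x.2
  obtain ⟨z, hz, hxz⟩ := Set.mem_iUnion₂.mp (hcov hx)
  refine ⟨⟨z, hz⟩, ?_⟩
  rw [Metric.mem_ball, dist_eq_norm, hn] at hxz
  show IsLocalRing.residue (ptl_O q K) ⟨z, htO z hz⟩ = IsLocalRing.residue (ptl_O q K) x
  rw [← sub_eq_zero, ← map_sub, IsLocalRing.residue_eq_zero_iff, ptl_mem_maximalIdeal]
  show ptl_abs q K (z - (x : K)) < 1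
  rw [← ptl_abs_neg, neg_sub]
  exact hxz

/-- Discreteness of the value group: there is a uniformizer. -/
theorem ptl_exists_uniformizer :
    ∃ π : K, 0 < ptl_abs q K π ∧ ptl_abs q K π < 1 ∧
      ∀ x : K, ptl_abs q K x < 1 → ptl_abs q K x ≤ ptl_abs q K π := by
  let _ : NormedField K := spectralNorm.normedField ℚ_[q] K
  let _ : NormedAlgebra ℚ_[q] K := spectralNorm.normedAlgebra ℚ_[q] K
  haveI : ProperSpace K := FiniteDimensional.proper ℚ_[q] K
  have hn : ∀ z : K, ‖z‖ = ptl_abs q K z := fun z => rfl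
  set r : ℝ := ptl_abs q K (q : K) with hr
  have hr0 : 0 < r := ptl_abs_q_pos q
  have hr1 : r < 1 := ptl_abs_q_lt_one q
  have hcomp : IsCompact (Metric.closedBall (0 : K) 1) := isCompact_closedBall 0 1
  obtain ⟨t, hts, htf, hcov⟩ := hcomp.finite_cover_balls (e := r) hr0
  -- the finite set of values `< 1` attained at the centres, together with `r`
  let V : Set ℝ := insert r ((fun z : K => ptl_abs q K z) '' t ∩ Set.Iio 1)
  have hVf : V.Finite := (Set.Finite.inter_of_left (htf.image _) _).insert r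
  have hVne : V.Nonempty := ⟨r, Set.mem_insert _ _⟩
  obtain ⟨m, hmV, hmax'⟩ := Set.exists_max_image V id hVf hVne
  simp only [id] at hmax'
  have hrm : r ≤ m := hmax' r (Set.mem_insert _ _)
  have hm1 : m < 1 := by
    rcases hmV with h | h
    · rw [h]; exact hr1
    · exact h.2
  have hmval : ∃ π : K, ptl_abs q K π = m := by
    rcases hmV with h | h
    · exact ⟨(q : K), h.symm⟩
    · obtain ⟨z, -, hz⟩ := h.1
      exact ⟨z, hz⟩
  obtain ⟨π, hπ⟩ := hmval
  refine ⟨π, hπ ▸ (hr0.trans_le hrm), hπ ▸ hm1, fun x hx => ?_⟩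
  rw [hπ]
  by_cases hxr : ptl_abs q K x < r
  · exact hxr.le.trans hrm
  · rw [not_lt] at hxr
    have hxb : x ∈ Metric.closedBall (0 : K) 1 := by
      rw [mem_closedBall_zero_iff, hn]; exact hx.le
    obtain ⟨z, hz, hxz⟩ := Set.mem_iUnion₂.mp (hcov hxb)
    rw [Metric.mem_ball, dist_eq_norm, hn] at hxz
    have hzx : ptl_abs q K z = ptl_abs q K x :=
      ptl_abs_eq_of_sub_lt q (hxz.trans_le hxr)
    apply hmax'
    refine Set.mem_insert_of_mem _ ⟨⟨z, hz, hzx⟩, hx⟩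

/-- A chosen uniformizer of `K`. -/
noncomputable def ptl_unif : K := Classical.choose (ptl_exists_uniformizer q K)

theorem ptl_unif_pos : 0 < ptl_abs q K (ptl_unif q K) :=
  (Classical.choose_spec (ptl_exists_uniformizer q K)).1

theorem ptl_unif_lt_one : ptl_abs q K (ptl_unif q K) < 1 :=
  (Classical.choose_spec (ptl_exists_uniformizer q K)).2.1

theorem ptl_unif_ne_zero : ptl_unif q K ≠ 0 := by
  intro h
  have := ptl_unif_pos q K
  rw [h, map_zero] at this
  exact lt_irrefl _ this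

variable {K}

theorem ptl_abs_le_unif {x : K} (hx : ptl_abs q K x < 1) :
    ptl_abs q K x ≤ ptl_abs q K (ptl_unif q K) :=
  (Classical.choose_spec (ptl_exists_uniformizer q K)).2.2 x hx

theorem ptl_exists_zpow {x : K} (hx : x ≠ 0) :
    ∃ n : ℤ, ptl_abs q K x = ptl_abs q K (ptl_unif q K) ^ n := by
  set r := ptl_abs q K (ptl_unif q K) with hr
  have hr0 : 0 < r := ptl_unif_pos q K
  have hr1 : r < 1 := ptl_unif_lt_one q K
  have hx0 : 0 < ptl_abs q K x := (ptl_abs q K).pos hx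
  obtain ⟨n, hn1, hn2⟩ := exists_mem_Ioc_zpow (x := ptl_abs q K x) (y := r⁻¹) hx0
    ((one_lt_inv₀ hr0).mpr hr1)
  -- `r⁻¹ ^ n < |x| ≤ r⁻¹ ^ (n+1)`; put `y = x * π ^ (n+1)`, then `r < |y| ≤ 1`
  refine ⟨-(n + 1), ?_⟩
  have hy : ptl_abs q K (x * ptl_unif q K ^ (n + 1)) = ptl_abs q K x * r ^ (n + 1) := by
    rw [map_mul, map_zpow₀]
  have hrn : 0 < r ^ (n + 1) := zpow_pos hr0 _
  have h1 : ptl_abs q K (x * ptl_unif q K ^ (n + 1)) ≤ 1 := by
    rw [hy]
    have := mul_le_mul_of_nonneg_right hn2 hrn.le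
    rwa [inv_zpow, inv_mul_cancel₀ hrn.ne'] at this
  have h2 : r < ptl_abs q K (x * ptl_unif q K ^ (n + 1)) := by
    rw [hy]
    have := mul_lt_mul_of_pos_right hn1 hrn
    rw [inv_zpow, zpow_add_one₀ hr0.ne', ← mul_assoc, inv_mul_cancel₀ (zpow_pos hr0 n).ne',
      one_mul] at this
    rwa [zpow_add_one₀ hr0.ne']
  have h3 : ptl_abs q K (x * ptl_unif q K ^ (n + 1)) = 1 := by
    rcases h1.lt_or_eq with h | h
    · exact absurd (ptl_abs_le_unif q h) (not_le.mpr h2)
    · exact h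
  rw [hy] at h3
  rw [zpow_neg]
  exact eq_inv_of_mul_eq_one_left h3

theorem ptl_unif_zpow_injective {m n : ℤ}
    (h : ptl_abs q K (ptl_unif q K) ^ m = ptl_abs q K (ptl_unif q K) ^ n) : m = n :=
  zpow_right_injective₀ (ptl_unif_pos q K) (ptl_unif_lt_one q K).ne h

open Classical in
variable (K) in
/-- The normalized valuation `K → ℤ` (with the junk value `0` at `0`). -/
noncomputable def ptl_ordZ (x : K) : ℤ :=
  if h : x = 0 then 0 else Classical.choose (ptl_exists_zpow q h)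

theorem ptl_abs_eq_zpow {x : K} (hx : x ≠ 0) :
    ptl_abs q K x = ptl_abs q K (ptl_unif q K) ^ ptl_ordZ q K x := by
  rw [ptl_ordZ, dif_neg hx]
  exact Classical.choose_spec (ptl_exists_zpow q hx)

theorem ptl_ordZ_eq_of_abs {x : K} {n : ℤ}
    (h : ptl_abs q K x = ptl_abs q K (ptl_unif q K) ^ n) : ptl_ordZ q K x = n := by
  have hx : x ≠ 0 := by
    intro h0
    rw [h0, map_zero] at h
    exact (zpow_pos (ptl_unif_pos q K) n).ne h
  exact ptl_unif_zpow_injective q ((ptl_abs_eq_zpow q hx).symm.trans h)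

@[simp] theorem ptl_ordZ_zero : ptl_ordZ q K (0 : K) = 0 := by simp [ptl_ordZ]

@[simp] theorem ptl_ordZ_one : ptl_ordZ q K (1 : K) = 0 :=
  ptl_ordZ_eq_of_abs q (by simp)

@[simp] theorem ptl_ordZ_unif : ptl_ordZ q K (ptl_unif q K) = 1 :=
  ptl_ordZ_eq_of_abs q (by simp)

theorem ptl_ordZ_mul {x y : K} (hx : x ≠ 0) (hy : y ≠ 0) :
    ptl_ordZ q K (x * y) = ptl_ordZ q K x + ptl_ordZ q K y := by
  apply ptl_ordZ_eq_of_abs
  rw [map_mul, ptl_abs_eq_zpow q hx, ptl_abs_eq_zpow q hy, zpow_add₀ (ptl_unif_pos q K).ne']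

theorem ptl_ordZ_inv (x : K) : ptl_ordZ q K x⁻¹ = - ptl_ordZ q K x := by
  by_cases hx : x = 0
  · simp [hx]
  apply ptl_ordZ_eq_of_abs
  rw [map_inv₀, ptl_abs_eq_zpow q hx, zpow_neg]

theorem ptl_ordZ_pow (x : K) (n : ℕ) : ptl_ordZ q K (x ^ n) = n * ptl_ordZ q K x := by
  by_cases hx : x = 0
  · rcases Nat.eq_zero_or_pos n with rfl | hn
    · simp
    · simp [hx, zero_pow hn.ne']
  apply ptl_ordZ_eq_of_abs
  rw [map_pow, ptl_abs_eq_zpow q hx, ← zpow_natCast, ← zpow_mul, mul_comm]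

theorem ptl_ordZ_zpow (x : K) (n : ℤ) : ptl_ordZ q K (x ^ n) = n * ptl_ordZ q K x := by
  by_cases hx : x = 0
  · rcases eq_or_ne n 0 with rfl | hn
    · simp
    · simp [hx, zero_zpow n hn]
  apply ptl_ordZ_eq_of_abs
  rw [map_zpow₀, ptl_abs_eq_zpow q hx, ← zpow_mul, mul_comm]

theorem ptl_ordZ_neg (x : K) : ptl_ordZ q K (-x) = ptl_ordZ q K x := by
  by_cases hx : x = 0
  · simp [hx]
  apply ptl_ordZ_eq_of_abs
  rw [ptl_abs_neg, ptl_abs_eq_zpow q hx]

/-- Monotonicity: `ord x ≤ ord y ↔ |y| ≤ |x|`. -/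
theorem ptl_ordZ_le_iff {x y : K} (hx : x ≠ 0) (hy : y ≠ 0) :
    ptl_ordZ q K x ≤ ptl_ordZ q K y ↔ ptl_abs q K y ≤ ptl_abs q K x := by
  rw [ptl_abs_eq_zpow q hx, ptl_abs_eq_zpow q hy]
  exact (zpow_le_zpow_iff_right_of_lt_one₀ (ptl_unif_pos q K) (ptl_unif_lt_one q K)).symm

theorem ptl_ordZ_lt_iff {x y : K} (hx : x ≠ 0) (hy : y ≠ 0) :
    ptl_ordZ q K x < ptl_ordZ q K y ↔ ptl_abs q K y < ptl_abs q K x := by
  rw [ptl_abs_eq_zpow q hx, ptl_abs_eq_zpow q hy]
  exact (zpow_lt_zpow_iff_right_of_lt_one₀ (ptl_unif_pos q K) (ptl_unif_lt_one q K)).symm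

theorem ptl_ordZ_eq_iff {x y : K} (hx : x ≠ 0) (hy : y ≠ 0) :
    ptl_ordZ q K x = ptl_ordZ q K y ↔ ptl_abs q K x = ptl_abs q K y := by
  constructor
  · intro h; rw [ptl_abs_eq_zpow q hx, ptl_abs_eq_zpow q hy, h]
  · intro h
    exact ptl_ordZ_eq_of_abs q (h.trans (ptl_abs_eq_zpow q hy))

theorem ptl_ordZ_nonneg_iff {x : K} (hx : x ≠ 0) :
    0 ≤ ptl_ordZ q K x ↔ ptl_abs q K x ≤ 1 := by
  have := ptl_ordZ_le_iff q (one_ne_zero (α := K)) hx
  simpa using this

theorem ptl_ordZ_pos_iff {x : K} (hx : x ≠ 0) :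
    0 < ptl_ordZ q K x ↔ ptl_abs q K x < 1 := by
  have := ptl_ordZ_lt_iff q (one_ne_zero (α := K)) hx
  simpa using this

theorem ptl_ordZ_eq_zero_iff {x : K} (hx : x ≠ 0) :
    ptl_ordZ q K x = 0 ↔ ptl_abs q K x = 1 := by
  have := ptl_ordZ_eq_iff q hx (one_ne_zero (α := K))
  simpa using this

/-- `ord (x + y) ≥ min (ord x) (ord y)`. -/
theorem ptl_ordZ_add_ge {x y : K} (hx : x ≠ 0) (hy : y ≠ 0) (hxy : x + y ≠ 0) :
    min (ptl_ordZ q K x) (ptl_ordZ q K y) ≤ ptl_ordZ q K (x + y) := by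
  rcases le_max_iff.mp (ptl_abs_add_le_max q x y) with h | h
  · exact (min_le_left _ _).trans ((ptl_ordZ_le_iff q hx hxy).mpr h)
  · exact (min_le_right _ _).trans ((ptl_ordZ_le_iff q hy hxy).mpr h)

/-- Every nonzero element is a power of the uniformizer times a unit. -/
theorem ptl_exists_unit_mul {x : K} (hx : x ≠ 0) :
    ∃ u : K, ptl_abs q K u = 1 ∧ x = ptl_unif q K ^ ptl_ordZ q K x * u := by
  refine ⟨x * (ptl_unif q K ^ ptl_ordZ q K x)⁻¹, ?_, ?_⟩
  · rw [map_mul, map_inv₀, map_zpow₀, ← ptl_abs_eq_zpow q hx]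
    exact mul_inv_cancel₀ ((ptl_abs q K).pos hx).ne'
  · field_simp [zpow_ne_zero _ (ptl_unif_ne_zero q K)]

variable (K) in
/-- The normalized valuation as a group homomorphism `Kˣ →* Multiplicative ℤ`. -/
noncomputable def ptl_ord : Kˣ →* Multiplicative ℤ where
  toFun x := Multiplicative.ofAdd (ptl_ordZ q K (x : K))
  map_one' := by simp
  map_mul' x y := by
    rw [Units.val_mul, ptl_ordZ_mul q x.ne_zero y.ne_zero, ofAdd_add]

theorem ptl_ord_apply (x : Kˣ) : ptl_ord q K x = Multiplicative.ofAdd (ptl_ordZ q K (x : K)) := rfl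

theorem ptl_ord_surjective : Function.Surjective (ptl_ord q K) := by
  intro n
  refine ⟨(Units.mk0 (ptl_unif q K) (ptl_unif_ne_zero q K)) ^ (Multiplicative.toAdd n), ?_⟩
  rw [ptl_ord_apply, Units.val_zpow_eq_zpow_val, Units.val_mk0, ptl_ordZ_zpow, ptl_ordZ_unif,
    mul_one]
  rfl

theorem ptl_mem_ker_ord (x : Kˣ) : x ∈ (ptl_ord q K).ker ↔ ptl_abs q K (x : K) = 1 := by
  rw [MonoidHom.mem_ker, ptl_ord_apply, ← ptl_ordZ_eq_zero_iff q x.ne_zero]
  exact Iff.rfl

end Fermat.Agent.Lib.PT
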