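/-
  Local toolkit for S55 (Poitou–Tate), part L0b: an extension `L / K` of algebraic extensions of
  `ℚ_[q]`: the algebra `O_K → O_L` (a local homomorphism, hence `k_K → k_L`), and the action of
  `L ≃ₐ[K] L` on `O_L` and on the residue field `k_L` (over `k_K`).
  Owner: helper6.  Prefix `ptl_`.
-/
import Fermat.Agent.Lib.PT.LocInt

set_option autoImplicit false

namespace Fermat.Agent.Lib.PT

variable (q : ℕ) [Fact q.Prime]

section Ext

variable (K L : Type*) [Field K] [Algebra ℚ_[q] K] [Algebra.IsAlgebraic ℚ_[q] K]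
  [Field L] [Algebra ℚ_[q] L] [Algebra.IsAlgebraic ℚ_[q] L] [Algebra K L]
  [IsScalarTower ℚ_[q] K L]

variable {K} in
theorem ptl_algebraMap_mem_O {x : K} (hx : x ∈ ptl_O q K) : algebraMap K L x ∈ ptl_O q L := by
  rw [ptl_mem_O, ptl_abs_tower]
  exact hx

/-- The inclusion `O_K → O_L`. -/
noncomputable def ptl_OHom : ptl_O q K →+* ptl_O q L where
  toFun x := ⟨algebraMap K L x, ptl_algebraMap_mem_O q L x.2⟩
  map_one' := by ext; simp
  map_mul' x y := by ext; simp
  map_zero' := by ext; simp
  map_add' x y := by ext; simp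

noncomputable instance ptl_algebraO : Algebra (ptl_O q K) (ptl_O q L) :=
  (ptl_OHom q K L).toAlgebra

variable {K} in
@[simp] theorem ptl_coe_algebraMap_O (x : ptl_O q K) :
    ((algebraMap (ptl_O q K) (ptl_O q L) x : ptl_O q L) : L) = algebraMap K L (x : K) := rfl

instance ptl_isScalarTower_O : IsScalarTower (ptl_O q K) (ptl_O q L) L :=
  IsScalarTower.of_algebraMap_eq fun _ => rfl

instance ptl_isScalarTower_O' : IsScalarTower (ptl_O q K) K L :=
  IsScalarTower.of_algebraMap_eq fun _ => rfl

theorem ptl_algebraMap_O_injective :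
    Function.Injective (algebraMap (ptl_O q K) (ptl_O q L)) := by
  intro x y h
  have := congrArg (fun z : ptl_O q L => (z : L)) h
  simp only [ptl_coe_algebraMap_O] at this
  exact Subtype.ext ((algebraMap K L).injective this)

instance ptl_isLocalHom_O : IsLocalHom (algebraMap (ptl_O q K) (ptl_O q L)) := by
  constructor
  intro x hx
  rw [ptl_isUnit_iff] at hx ⊢
  rwa [ptl_coe_algebraMap_O, ptl_abs_tower] at hx

/-- The residue of `x : O_K` in `k_L`. -/
theorem ptl_algebraMap_k_residue (x : ptl_O q K) :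
    algebraMap (ptl_k q K) (ptl_k q L) (IsLocalRing.residue (ptl_O q K) x) =
      IsLocalRing.residue (ptl_O q L) (algebraMap (ptl_O q K) (ptl_O q L) x) := rfl

variable {K L} in
/-- An automorphism of `L / K` restricted to the ring of integers. -/
noncomputable def ptl_galO (σ : L ≃ₐ[K] L) : ptl_O q L ≃ₐ[ptl_O q K] ptl_O q L where
  toFun x := ⟨σ x, by rw [ptl_mem_O, ptl_abs_galois]; exact x.2⟩
  invFun x := ⟨σ.symm x, by rw [ptl_mem_O, ptl_abs_galois]; exact x.2⟩
  left_inv x := by ext; simp
  right_inv x := by ext; simp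
  map_mul' x y := by ext; simp
  map_add' x y := by ext; simp
  commutes' x := by ext; simp

variable {K L} in
@[simp] theorem ptl_coe_galO (σ : L ≃ₐ[K] L) (x : ptl_O q L) :
    ((ptl_galO q σ x : ptl_O q L) : L) = σ (x : L) := rfl

variable {K L} in
theorem ptl_galO_mul (σ τ : L ≃ₐ[K] L) :
    ptl_galO q (σ * τ) = (ptl_galO q τ).trans (ptl_galO q σ) := by
  ext x; simp [AlgEquiv.mul_apply]

/-- The action of the Galois group on the residue field. -/
noncomputable def ptl_galRes : (L ≃ₐ[K] L) →* (ptl_k q L ≃ₐ[ptl_k q K] ptl_k q L) where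
  toFun σ := IsLocalRing.ResidueField.mapAlgEquiv' (ptl_galO q σ)
  map_one' := by
    ext x
    obtain ⟨x, rfl⟩ := IsLocalRing.residue_surjective x
    rw [IsLocalRing.ResidueField.mapAlgEquiv'_residue]
    rfl
  map_mul' σ τ := by
    ext x
    obtain ⟨x, rfl⟩ := IsLocalRing.residue_surjective x
    rw [AlgEquiv.mul_apply]
    simp only [IsLocalRing.ResidueField.mapAlgEquiv'_residue]
    rfl

variable {K L} in
@[simp] theorem ptl_galRes_residue (σ : L ≃ₐ[K] L) (x : ptl_O q L) :
    ptl_galRes q K L σ (IsLocalRing.residue (ptl_O q L) x) =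
      IsLocalRing.residue (ptl_O q L) (ptl_galO q σ x) := rfl

end Ext

end Fermat.Agent.Lib.PT
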