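/-
  Local toolkit for S55 (Poitou–Tate), part L0c: for finite extensions of `ℚ_[q]`:
  `O_K` is a discrete valuation ring (maximal ideal generated by `ptl_unifO`), `O_L` is the
  integral closure of `O_K` in `L`, and is a finite free `O_K`-module of rank `[L : K]`.
  Owner: helper6.  Prefix `ptl_`.
-/
import Fermat.Agent.Lib.PT.LocDisc
import Fermat.Agent.Lib.PT.LocExt

set_option autoImplicit false

namespace Fermat.Agent.Lib.PT

open Polynomial

variable (q : ℕ) [Fact q.Prime]

theorem ptl_charZero (q : ℕ) [Fact q.Prime] (K : Type*) [Field K] [Algebra ℚ_[q] K] :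
    CharZero K :=
  charZero_of_injective_algebraMap (algebraMap ℚ_[q] K).injective

section Dvr

variable (K : Type*) [Field K] [Algebra ℚ_[q] K] [FiniteDimensional ℚ_[q] K]

/-- The uniformizer as an element of the ring of integers. -/
noncomputable def ptl_unifO : ptl_O q K :=
  ⟨ptl_unif q K, (ptl_unif_lt_one q K).le⟩

@[simp] theorem ptl_coe_unifO : ((ptl_unifO q K : ptl_O q K) : K) = ptl_unif q K := rfl

theorem ptl_unifO_ne_zero : ptl_unifO q K ≠ 0 := fun h =>
  ptl_unif_ne_zero q K (congrArg Subtype.val h)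

theorem ptl_unifO_mem_maximalIdeal : ptl_unifO q K ∈ IsLocalRing.maximalIdeal (ptl_O q K) :=
  (ptl_mem_maximalIdeal q _).mpr (ptl_unif_lt_one q K)

/-- Divisibility in the ring of integers is detected by the absolute value. -/
theorem ptl_dvd_iff {a b : ptl_O q K} (ha : a ≠ 0) :
    a ∣ b ↔ ptl_abs q K (b : K) ≤ ptl_abs q K (a : K) := by
  have ha' : (a : K) ≠ 0 := fun h => ha (Subtype.ext h)
  constructor
  · rintro ⟨c, rfl⟩
    rw [MulMemClass.coe_mul, map_mul]
    exact mul_le_of_le_one_right ((ptl_abs q K).nonneg _) (ptl_abs_le_one q c)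
  · intro h
    refine ⟨⟨(b : K) / (a : K), ?_⟩, ?_⟩
    · rw [ptl_mem_O, map_div₀]
      exact div_le_one_of_le₀ h ((ptl_abs q K).nonneg _)
    · ext
      simp [mul_div_cancel₀ _ ha']

instance ptl_isPrincipalIdealRing : IsPrincipalIdealRing (ptl_O q K) := by
  constructor
  intro I
  by_cases hI : I = ⊥
  · rw [hI]; exact bot_isPrincipal
  -- choose a nonzero element of `I` of minimal valuation
  obtain ⟨a, haI, ha0⟩ : ∃ a ∈ I, a ≠ 0 := by
    by_contra h
    push Not at h
    exact hI ((Submodule.eq_bot_iff I).mpr h)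
  let S : Set ℕ := {n | ∃ b ∈ I, b ≠ 0 ∧ (ptl_ordZ q K (b : K)).toNat = n}
  have hS : S.Nonempty := ⟨_, a, haI, ha0, rfl⟩
  classical
  obtain ⟨b, hbI, hb0, hbn⟩ := Nat.find_spec hS
  have hmin : ∀ c ∈ I, c ≠ 0 → Nat.find hS ≤ (ptl_ordZ q K (c : K)).toNat := fun c hc hc0 =>
    Nat.find_min' hS ⟨c, hc, hc0, rfl⟩
  refine ⟨b, le_antisymm ?_ ?_⟩
  · intro c hc
    rw [Ideal.submodule_span_eq, Ideal.mem_span_singleton]
    by_cases hc0 : c = 0
    · rw [hc0]; exact dvd_zero _
    rw [ptl_dvd_iff q K hb0]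
    have hb' : (b : K) ≠ 0 := fun h => hb0 (Subtype.ext h)
    have hc' : (c : K) ≠ 0 := fun h => hc0 (Subtype.ext h)
    rw [← ptl_ordZ_le_iff q hb' hc']
    have h1 := hmin c hc hc0
    rw [← hbn] at h1
    have h2 : 0 ≤ ptl_ordZ q K (b : K) := (ptl_ordZ_nonneg_iff q hb').mpr b.2
    have h3 : 0 ≤ ptl_ordZ q K (c : K) := (ptl_ordZ_nonneg_iff q hc').mpr c.2
    omega
  · rw [Ideal.submodule_span_eq, Ideal.span_singleton_le_iff_mem]
    exact hbI

instance ptl_isDiscreteValuationRing : IsDiscreteValuationRing (ptl_O q K) where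
  not_a_field' := by
    intro h
    have := ptl_unifO_mem_maximalIdeal q K
    rw [h, Ideal.mem_bot] at this
    exact ptl_unifO_ne_zero q K this

/-- The maximal ideal is generated by the uniformizer. -/
theorem ptl_maximalIdeal_eq : IsLocalRing.maximalIdeal (ptl_O q K) = Ideal.span {ptl_unifO q K} := by
  apply le_antisymm
  · intro x hx
    rw [Ideal.mem_span_singleton, ptl_dvd_iff q K (ptl_unifO_ne_zero q K)]
    exact ptl_abs_le_unif q ((ptl_mem_maximalIdeal q x).mp hx)
  · rw [Ideal.span_singleton_le_iff_mem]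
    exact ptl_unifO_mem_maximalIdeal q K

/-- Membership in powers of the maximal ideal. -/
theorem ptl_mem_maximalIdeal_pow (x : ptl_O q K) (n : ℕ) :
    x ∈ IsLocalRing.maximalIdeal (ptl_O q K) ^ n ↔
      ptl_abs q K (x : K) ≤ ptl_abs q K (ptl_unif q K) ^ n := by
  rw [ptl_maximalIdeal_eq, Ideal.span_singleton_pow, Ideal.mem_span_singleton,
    ptl_dvd_iff q K (pow_ne_zero n (ptl_unifO_ne_zero q K))]
  simp

end Dvr

section IntCl

variable (K L : Type*) [Field K] [Algebra ℚ_[q] K] [Algebra.IsAlgebraic ℚ_[q] K]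
  [Field L] [Algebra ℚ_[q] L] [Algebra.IsAlgebraic ℚ_[q] L] [Algebra K L]
  [IsScalarTower ℚ_[q] K L]

variable {L} in
/-- An element of `L` integral over `O_K` has absolute value `≤ 1`. -/
theorem ptl_abs_le_one_of_isIntegral {x : L} (hx : IsIntegral (ptl_O q K) x) :
    ptl_abs q L x ≤ 1 := by
  obtain ⟨p, hp, hpx⟩ := hx
  by_contra hlt
  rw [not_le] at hlt
  have hx0 : 0 < ptl_abs q L x := zero_lt_one.trans hlt
  set d := p.natDegree with hd
  have hsum : x ^ d = - ∑ i ∈ Finset.range d, algebraMap (ptl_O q K) L (p.coeff i) * x ^ i := by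
    have h1 := hpx
    rw [eval₂_eq_sum_range, Finset.sum_range_succ, hp.coeff_natDegree, map_one, one_mul] at h1
    rw [← hd] at h1
    exact eq_neg_of_add_eq_zero_right h1
  have hlt2 : ptl_abs q L (x ^ d) < ptl_abs q L x ^ d := by
    rw [hsum, ptl_abs_neg]
    apply ptl_abs_sum_lt q _ _ (pow_pos hx0 d)
    intro i hi
    rw [Finset.mem_range] at hi
    rw [map_mul, map_pow]
    have hc : ptl_abs q L (algebraMap (ptl_O q K) L (p.coeff i)) ≤ 1 := by
      have : algebraMap (ptl_O q K) L (p.coeff i) = algebraMap K L ((p.coeff i : ptl_O q K) : K) :=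
        rfl
      rw [this, ptl_abs_tower]
      exact ptl_abs_le_one q _
    calc ptl_abs q L (algebraMap (ptl_O q K) L (p.coeff i)) * ptl_abs q L x ^ i
        ≤ 1 * ptl_abs q L x ^ i := mul_le_mul_of_nonneg_right hc (pow_nonneg hx0.le i)
      _ = ptl_abs q L x ^ i := one_mul _
      _ < ptl_abs q L x ^ d := pow_lt_pow_right₀ hlt hi
  rw [map_pow] at hlt2
  exact lt_irrefl _ hlt2

variable {L} in
/-- An element of `L` of absolute value `≤ 1` is integral over `O_K`. -/
theorem ptl_isIntegral_of_abs_le_one {x : L} (hx : ptl_abs q L x ≤ 1) :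
    IsIntegral (ptl_O q K) x := by
  have hxint : IsIntegral ℚ_[q] x := (Algebra.IsAlgebraic.isAlgebraic x).isIntegral
  set P := minpoly ℚ_[q] x with hP
  have hmonic : P.Monic := minpoly.monic hxint
  have hcoeff : ∀ n, ‖P.coeff n‖ ≤ 1 := (spectralValue_le_one_iff hmonic).mp hx
  have hlift : P.map (algebraMap ℚ_[q] L) ∈ Polynomial.lifts (algebraMap (ptl_O q K) L) := by
    rw [Polynomial.lifts_iff_coeff_lifts]
    intro n
    rw [coeff_map]
    have hmem : algebraMap ℚ_[q] K (P.coeff n) ∈ ptl_O q K := by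
      rw [ptl_mem_O, ptl_abs_algebraMap]
      exact hcoeff n
    refine ⟨⟨_, hmem⟩, ?_⟩
    show algebraMap K L (algebraMap ℚ_[q] K (P.coeff n)) = _
    rw [← IsScalarTower.algebraMap_apply]
  obtain ⟨Q, hQmap, -, hQmonic⟩ :=
    Polynomial.lifts_and_degree_eq_and_monic hlift (hmonic.map _)
  refine ⟨Q, hQmonic, ?_⟩
  rw [← eval_map, hQmap, eval_map, ← aeval_def]
  exact minpoly.aeval ℚ_[q] x

instance ptl_isIntegralClosure : IsIntegralClosure (ptl_O q L) (ptl_O q K) L where
  algebraMap_injective := Subtype.val_injective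
  isIntegral_iff {x} := by
    constructor
    · intro hx
      exact ⟨⟨x, ptl_abs_le_one_of_isIntegral q K hx⟩, rfl⟩
    · rintro ⟨y, rfl⟩
      exact ptl_isIntegral_of_abs_le_one q K y.2

end IntCl

section Fin

variable (K L : Type*) [Field K] [Algebra ℚ_[q] K] [FiniteDimensional ℚ_[q] K]
  [Field L] [Algebra ℚ_[q] L] [FiniteDimensional ℚ_[q] L] [Algebra K L]
  [IsScalarTower ℚ_[q] K L]

include q in
theorem ptl_finiteDimensional : FiniteDimensional K L := FiniteDimensional.right ℚ_[q] K L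

include q in
theorem ptl_isSeparable : Algebra.IsSeparable K L := by
  haveI := ptl_charZero q K
  haveI := ptl_finiteDimensional q K L
  infer_instance

instance ptl_finite_O : Module.Finite (ptl_O q K) (ptl_O q L) := by
  haveI := ptl_finiteDimensional q K L
  haveI := ptl_isSeparable q K L
  exact IsIntegralClosure.finite (ptl_O q K) K L (ptl_O q L)

instance ptl_free_O : Module.Free (ptl_O q K) (ptl_O q L) := by
  haveI := ptl_finiteDimensional q K L
  haveI := ptl_isSeparable q K L
  exact IsIntegralClosure.module_free (ptl_O q K) K L (ptl_O q L)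

theorem ptl_finrank_O : Module.finrank (ptl_O q K) (ptl_O q L) = Module.finrank K L := by
  haveI := ptl_finiteDimensional q K L
  haveI := ptl_isSeparable q K L
  exact IsIntegralClosure.rank (ptl_O q K) K L (ptl_O q L)

end Fin

end Fermat.Agent.Lib.PT
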