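/-
  Local toolkit for S55 (Poitou–Tate), part L0d: ramification index `ptl_e`, residue degree
  `ptl_f` of a finite extension `L / K` of finite extensions of `ℚ_[q]`; `e · f = [L : K]`,
  `v_L = e · v_K` on `K`, `|N x|_K = |x|_L ^ [L:K]`, `v_K ∘ N = f · v_L`.
  Owner: helper6.  Prefix `ptl_`.
-/
import Fermat.Agent.Lib.PT.LocDvr

set_option autoImplicit false

namespace Fermat.Agent.Lib.PT

open Polynomial

variable (q : ℕ) [Fact q.Prime]

section EF

variable (K L : Type*) [Field K] [Algebra ℚ_[q] K] [FiniteDimensional ℚ_[q] K]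
  [Field L] [Algebra ℚ_[q] L] [FiniteDimensional ℚ_[q] L] [Algebra K L]
  [IsScalarTower ℚ_[q] K L]

/-- The ramification index of `L / K`. -/
noncomputable def ptl_e : ℕ := (ptl_ordZ q L (algebraMap K L (ptl_unif q K))).toNat

/-- The residue degree of `L / K`. -/
noncomputable def ptl_f : ℕ := Module.finrank (ptl_k q K) (ptl_k q L)

theorem ptl_e_spec : (ptl_e q K L : ℤ) = ptl_ordZ q L (algebraMap K L (ptl_unif q K)) := by
  have h0 : algebraMap K L (ptl_unif q K) ≠ 0 := by
    rw [Ne, map_eq_zero]; exact ptl_unif_ne_zero q K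
  have h1 : 0 < ptl_ordZ q L (algebraMap K L (ptl_unif q K)) := by
    rw [ptl_ordZ_pos_iff q h0, ptl_abs_tower]
    exact ptl_unif_lt_one q K
  rw [ptl_e, Int.toNat_of_nonneg h1.le]

theorem ptl_e_pos : 0 < ptl_e q K L := by
  have h0 : algebraMap K L (ptl_unif q K) ≠ 0 := by
    rw [Ne, map_eq_zero]; exact ptl_unif_ne_zero q K
  have h1 : 0 < ptl_ordZ q L (algebraMap K L (ptl_unif q K)) := by
    rw [ptl_ordZ_pos_iff q h0, ptl_abs_tower]
    exact ptl_unif_lt_one q K
  have := ptl_e_spec q K L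
  omega

/-- `|π_K| = |π_L| ^ e`. -/
theorem ptl_abs_unif_eq : ptl_abs q K (ptl_unif q K) = ptl_abs q L (ptl_unif q L) ^ ptl_e q K L := by
  have h0 : algebraMap K L (ptl_unif q K) ≠ 0 := by
    rw [Ne, map_eq_zero]; exact ptl_unif_ne_zero q K
  rw [← ptl_abs_tower q (L := L), ptl_abs_eq_zpow q h0, ← ptl_e_spec, zpow_natCast]

variable {K} in
/-- `v_L(x) = e · v_K(x)` for `x ∈ K`. -/
theorem ptl_ordZ_algebraMap (x : K) :
    ptl_ordZ q L (algebraMap K L x) = ptl_e q K L * ptl_ordZ q K x := by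
  by_cases hx : x = 0
  · simp [hx]
  apply ptl_ordZ_eq_of_abs
  rw [ptl_abs_tower, ptl_abs_eq_zpow q hx, ptl_abs_unif_eq q K L, ← zpow_natCast, ← zpow_mul]

theorem ptl_map_maximalIdeal :
    (IsLocalRing.maximalIdeal (ptl_O q K)).map (algebraMap (ptl_O q K) (ptl_O q L)) =
      IsLocalRing.maximalIdeal (ptl_O q L) ^ ptl_e q K L := by
  rw [ptl_maximalIdeal_eq q K, Ideal.map_span, Set.image_singleton]
  ext x
  rw [Ideal.mem_span_singleton, ptl_mem_maximalIdeal_pow, ptl_dvd_iff, ptl_coe_algebraMap_O,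
    ptl_abs_tower, ptl_coe_unifO, ptl_abs_unif_eq q K L]
  intro h
  have := congrArg (fun z : ptl_O q L => (z : L)) h
  simp only [ptl_coe_algebraMap_O, ptl_coe_unifO, ZeroMemClass.coe_zero, map_eq_zero] at this
  exact ptl_unif_ne_zero q K this

theorem ptl_e_mul_f : ptl_e q K L * ptl_f q K L = Module.finrank K L := by
  haveI := ptl_finiteDimensional q K L
  have hp0 : IsLocalRing.maximalIdeal (ptl_O q K) ≠ ⊥ := IsDiscreteValuationRing.not_a_field _
  have h := Ideal.ramificationIdx_mul_inertiaDeg_of_isLocalRing (R := ptl_O q K)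
    (S := ptl_O q L) K L hp0
  have he : Ideal.ramificationIdx' (IsLocalRing.maximalIdeal (ptl_O q K))
      (IsLocalRing.maximalIdeal (ptl_O q L)) = ptl_e q K L := by
    apply Ideal.ramificationIdx'_spec
    · rw [ptl_map_maximalIdeal]
    · rw [ptl_map_maximalIdeal]
      intro hle
      have hmem : ptl_unifO q L ^ ptl_e q K L ∈
          IsLocalRing.maximalIdeal (ptl_O q L) ^ (ptl_e q K L + 1) :=
        hle (Ideal.pow_mem_pow (ptl_unifO_mem_maximalIdeal q L) _)
      rw [ptl_mem_maximalIdeal_pow] at hmem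
      simp only [SubmonoidClass.coe_pow, ptl_coe_unifO, map_pow] at hmem
      have h1 := ptl_unif_pos q L
      have h2 := ptl_unif_lt_one q L
      have h3 : ptl_abs q L (ptl_unif q L) ^ (ptl_e q K L + 1) <
          ptl_abs q L (ptl_unif q L) ^ ptl_e q K L :=
        pow_lt_pow_right_of_lt_one₀ h1 h2 (Nat.lt_succ_self _)
      exact absurd hmem (not_le.mpr h3)
  rw [he, Ideal.inertiaDeg'_algebraMap] at h
  exact h

variable {L} in
/-- `|N_{L/K} x|_K = |x|_L ^ [L:K]`. -/
theorem ptl_abs_norm (x : L) :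
    ptl_abs q K (Algebra.norm K x) = ptl_abs q L x ^ Module.finrank K L := by
  haveI := ptl_finiteDimensional q K L
  haveI := ptl_isSeparable q K L
  let E := AlgebraicClosure L
  haveI : Algebra.IsAlgebraic ℚ_[q] E := Algebra.IsAlgebraic.trans ℚ_[q] L E
  have h1 := Algebra.norm_eq_prod_embeddings K E x
  have h2 : ptl_abs q E (algebraMap K E (Algebra.norm K x)) = ptl_abs q K (Algebra.norm K x) :=
    ptl_abs_tower q _
  rw [← h2, h1, map_prod]
  have h3 : ∀ σ : L →ₐ[K] E, ptl_abs q E (σ x) = ptl_abs q L x := fun σ =>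
    ptl_abs_algHom q (σ.restrictScalars ℚ_[q]) x
  simp only [h3, Finset.prod_const, Finset.card_univ, AlgHom.card]


variable {L} in
/-- `v_K(N_{L/K} x) = f · v_L(x)`. -/
theorem ptl_ordZ_norm (x : L) :
    ptl_ordZ q K (Algebra.norm K x) = ptl_f q K L * ptl_ordZ q L x := by
  haveI := ptl_finiteDimensional q K L
  by_cases hx : x = 0
  · simp [hx, Algebra.norm_zero]
  have hN : Algebra.norm K x ≠ 0 := by
    rw [Ne, Algebra.norm_eq_zero_iff]; exact hx
  have h1 := ptl_abs_norm q K x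
  rw [ptl_abs_eq_zpow q hN, ptl_abs_eq_zpow q hx, ptl_abs_unif_eq q K L, ← zpow_natCast,
    ← zpow_natCast, ← zpow_mul, ← zpow_mul] at h1
  have h2 := ptl_unif_zpow_injective q h1
  have h3 := ptl_e_mul_f q K L
  have h4 : (ptl_e q K L : ℤ) * ptl_ordZ q K (Algebra.norm K x) =
      (ptl_e q K L : ℤ) * (ptl_f q K L * ptl_ordZ q L x) := by
    rw [h2, ← h3]; push_cast; ring
  have he : (ptl_e q K L : ℤ) ≠ 0 := by
    have := ptl_e_pos q K L; omega
  exact mul_left_cancel₀ he h4

theorem ptl_f_pos : 0 < ptl_f q K L := by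
  have h1 := ptl_e_mul_f q K L
  haveI := ptl_finiteDimensional q K L
  have h2 : 0 < Module.finrank K L := Module.finrank_pos
  rcases Nat.eq_zero_or_pos (ptl_f q K L) with h | h
  · rw [h, mul_zero] at h1; omega
  · exact h

end EF

section Quot

variable (K : Type*) [Field K] [Algebra ℚ_[q] K] [FiniteDimensional ℚ_[q] K]

/-- The quotients `O_K / 𝔪^n` are finite. -/
instance ptl_finite_quot_pow (n : ℕ) :
    Finite (ptl_O q K ⧸ IsLocalRing.maximalIdeal (ptl_O q K) ^ n) := by
  haveI : Finite (ptl_O q K ⧸ IsLocalRing.maximalIdeal (ptl_O q K)) :=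
    inferInstanceAs (Finite (ptl_k q K))
  exact Ideal.finite_quotient_pow (IsNoetherian.noetherian _) n

end Quot

end Fermat.Agent.Lib.PT
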