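/-
Local input for the norm index theorem (S55, L3): for finite extensions `L / K` of `ℚ_[q]`
(helper6's carriers `ptl_O`, `ptl_unifO`, `ptl_abs`): `O_K` is `π`-adically separated and
complete, the trace does not increase absolute values, existence of an integral normal basis
generator, and a `K`-basis of `L` spans an `O_K`-lattice containing `π^c O_L`.
-/
import Fermat.Agent.Lib.PT.LocRam
import Fermat.Agent.Lib.PT.HerbTriv

set_option autoImplicit false
set_option linter.unusedSectionVars false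

namespace Fermat.Agent.Lib.PT

open Finset

variable (q : ℕ) [Fact q.Prime]

section Base

variable (K : Type*) [Field K] [Algebra ℚ_[q] K] [FiniteDimensional ℚ_[q] K]

/-- `O_K` is `π`-adically separated. -/
theorem pti_O_sep (r : ptl_O q K) (h : ∀ n : ℕ, ∃ t, r = ptl_unifO q K ^ n * t) : r = 0 := by
  by_contra hr
  have hr' : (r : K) ≠ 0 := fun h0 => hr (Subtype.ext h0)
  have hpos : 0 < ptl_abs q K (r : K) := (ptl_abs q K).pos hr'
  obtain ⟨n, hn⟩ := exists_pow_lt_of_lt_one hpos (ptl_unif_lt_one q K)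
  obtain ⟨t, ht⟩ := h n
  have : ptl_abs q K (r : K) ≤ ptl_abs q K (ptl_unif q K) ^ n := by
    rw [ht]
    simp only [MulMemClass.coe_mul, SubmonoidClass.coe_pow, ptl_coe_unifO, map_mul, map_pow]
    exact mul_le_of_le_one_right (pow_nonneg ((ptl_abs q K).nonneg _) n) (ptl_abs_le_one q t)
  exact absurd hn (not_lt.2 this)

/-- `O_K` is `π`-adically complete. -/
theorem pti_O_complete (a : ℕ → ptl_O q K) :
    ∃ s : ptl_O q K, ∀ n, ∃ t, s - ∑ i ∈ range n, ptl_unifO q K ^ i * a i
      = ptl_unifO q K ^ n * t := by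
  set x : ℕ → K := fun n => ∑ i ∈ range n, ptl_unif q K ^ i * (a i : K) with hx
  have hstep : ∀ n, ptl_abs q K (x (n + 1) - x n) ≤ 1 * ptl_abs q K (ptl_unif q K) ^ n := by
    intro n
    simp only [hx, Finset.sum_range_succ, add_sub_cancel_left, map_mul, map_pow, one_mul]
    exact mul_le_of_le_one_right (pow_nonneg ((ptl_abs q K).nonneg _) n) (ptl_abs_le_one q (a n))
  obtain ⟨y, hy⟩ := ptl_exists_limit q K x 1 (ptl_abs q K (ptl_unif q K)) zero_le_one
    ((ptl_abs q K).nonneg _) (ptl_unif_lt_one q K) hstep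
  have hyO : y ∈ ptl_O q K := by
    have := hy 0
    simpa [hx, ptl_mem_O] using this
  refine ⟨⟨y, hyO⟩, fun n => ?_⟩
  have hdvd : ptl_unifO q K ^ n ∣ (⟨y, hyO⟩ : ptl_O q K) - ∑ i ∈ range n, ptl_unifO q K ^ i * a i := by
    rw [ptl_dvd_iff q K (pow_ne_zero n (ptl_unifO_ne_zero q K))]
    have h1 := hy n
    rw [one_mul] at h1
    simpa [hx] using h1
  obtain ⟨t, ht⟩ := hdvd
  exact ⟨t, ht⟩

end Base

section Gal

variable (K L : Type*) [Field K] [Algebra ℚ_[q] K] [FiniteDimensional ℚ_[q] K]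
  [Field L] [Algebra ℚ_[q] L] [FiniteDimensional ℚ_[q] L] [Algebra K L]
  [IsScalarTower ℚ_[q] K L] [FiniteDimensional K L] [IsGalois K L]

variable {L} in
/-- The trace does not increase the absolute value. -/
theorem pti_abs_trace_le (x : L) : ptl_abs q K (Algebra.trace K L x) ≤ ptl_abs q L x := by
  rw [← ptl_abs_tower q (L := L), trace_eq_sum_automorphisms]
  exact ptl_abs_sum_le q _ _ ((ptl_abs q L).nonneg _) fun σ _ => (ptl_abs_galois q σ x).le

/-- Powers of the uniformizer become arbitrarily small. -/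
theorem pti_exists_pow_mul_le (C : ℝ) : ∃ m : ℕ, ptl_abs q K (ptl_unif q K) ^ m * C ≤ 1 := by
  obtain ⟨m, hm⟩ := exists_pow_lt_of_lt_one (x := (|C| + 1)⁻¹)
    (y := ptl_abs q K (ptl_unif q K)) (by positivity) (ptl_unif_lt_one q K)
  refine ⟨m, ?_⟩
  have h0 : 0 ≤ ptl_abs q K (ptl_unif q K) ^ m := pow_nonneg ((ptl_abs q K).nonneg _) m
  calc ptl_abs q K (ptl_unif q K) ^ m * C ≤ ptl_abs q K (ptl_unif q K) ^ m * (|C| + 1) :=
        mul_le_mul_of_nonneg_left ((le_abs_self C).trans (le_add_of_nonneg_right zero_le_one)) h0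
    _ ≤ (|C| + 1)⁻¹ * (|C| + 1) := mul_le_mul_of_nonneg_right hm.le (by positivity)
    _ = 1 := inv_mul_cancel₀ (by positivity)

/-- A normal basis generator which is integral. -/
theorem pti_exists_normal_int :
    ∃ θ : L, ptl_abs q L θ ≤ 1 ∧ LinearIndependent K (fun σ : L ≃ₐ[K] L => σ θ) := by
  obtain ⟨θ, hθ⟩ := exists_linearIndependent_algEquiv_apply K L
  obtain ⟨m, hm⟩ := pti_exists_pow_mul_le q K (ptl_abs q L θ)
  have hπ : ptl_unif q K ^ m ≠ 0 := pow_ne_zero m (ptl_unif_ne_zero q K)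
  refine ⟨algebraMap K L (ptl_unif q K ^ m) * θ, ?_, ?_⟩
  · rw [map_mul, ptl_abs_tower, map_pow]
    exact hm
  · have := hθ.units_smul (fun _ => Units.mk0 _ hπ)
    convert this using 1
    ext σ
    simp [Algebra.smul_def]

variable {K L} in
theorem pti_smul_def (r : ptl_O q K) (x : L) : r • x = algebraMap K L (r : K) * x := by
  rw [Algebra.smul_def]; rfl

variable {K L} in
theorem pti_abs_smul (r : ptl_O q K) (x : L) :
    ptl_abs q L (r • x) = ptl_abs q K (r : K) * ptl_abs q L x := by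
  rw [pti_smul_def, map_mul, ptl_abs_tower]

variable {K L} in
/-- The `O_K`-span of integral elements consists of integral elements. -/
theorem pti_abs_le_one_of_mem_span {ι : Type*} (b : ι → L) (hb : ∀ i, ptl_abs q L (b i) ≤ 1)
    {x : L} (hx : x ∈ Submodule.span (ptl_O q K) (Set.range b)) : ptl_abs q L x ≤ 1 := by
  induction hx using Submodule.span_induction with
  | mem x hx => obtain ⟨i, rfl⟩ := hx; exact hb i
  | zero => simp
  | add x y _ _ hx hy => exact (ptl_abs_add_le_max q x y).trans (max_le hx hy)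
  | smul r x _ hx =>
    rw [pti_abs_smul]
    exact mul_le_one₀ (ptl_abs_le_one q r) ((ptl_abs q L).nonneg _) hx

variable {K L} in
/-- A `K`-basis of `L` spans, over `O_K`, a lattice containing `π^c O_L` for some `c`. -/
theorem pti_exists_pow_smul_mem_span {ι : Type*} [Fintype ι] [DecidableEq ι]
    (b : Module.Basis ι K L) :
    ∃ c : ℕ, ∀ x : L, ptl_abs q L x ≤ 1 →
      (ptl_unifO q K ^ c) • x ∈ Submodule.span (ptl_O q K) (Set.range b) := by
  set d := (Algebra.traceForm K L).dualBasis (traceForm_nondegenerate K L) b with hd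
  -- coordinates via the dual basis
  have hcoord : ∀ (x : L) (i : ι), b.repr x i = Algebra.trace K L (d i * x) := by
    intro x i
    conv_rhs => rw [← b.sum_repr x]
    rw [Finset.mul_sum, map_sum]
    have : ∀ j ∈ (Finset.univ : Finset ι), Algebra.trace K L (d i * b.repr x j • b j)
        = if j = i then b.repr x j else 0 := by
      intro j _
      rw [mul_smul_comm, map_smul, smul_eq_mul]
      have := LinearMap.BilinForm.apply_dualBasis_left (traceForm_nondegenerate K L) b i j
      rw [Algebra.traceForm_apply] at this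
      rw [← hd] at this
      rw [this]
      split_ifs <;> simp
    rw [Finset.sum_congr rfl this]
    simp
  obtain ⟨c, hc⟩ : ∃ c : ℕ, ∀ i : ι, ptl_abs q K (ptl_unif q K) ^ c * ptl_abs q L (d i) ≤ 1 := by
    have : ∀ i : ι, ∃ c : ℕ, ptl_abs q K (ptl_unif q K) ^ c * ptl_abs q L (d i) ≤ 1 :=
      fun i => pti_exists_pow_mul_le q K _
    choose c hc using this
    refine ⟨∑ i, c i, fun i => le_trans ?_ (hc i)⟩
    refine mul_le_mul_of_nonneg_right ?_ ((ptl_abs q L).nonneg _)
    exact pow_le_pow_of_le_one ((ptl_abs q K).nonneg _) (ptl_unif_lt_one q K).le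
      (Finset.single_le_sum (fun _ _ => Nat.zero_le _) (Finset.mem_univ i))
  refine ⟨c, fun x hx => ?_⟩
  rw [Submodule.mem_span_range_iff_exists_fun]
  have hmem : ∀ i, ptl_unif q K ^ c * b.repr x i ∈ ptl_O q K := by
    intro i
    rw [ptl_mem_O, map_mul, map_pow, hcoord]
    calc ptl_abs q K (ptl_unif q K) ^ c * ptl_abs q K (Algebra.trace K L (d i * x))
        ≤ ptl_abs q K (ptl_unif q K) ^ c * (ptl_abs q L (d i) * ptl_abs q L x) := by
          refine mul_le_mul_of_nonneg_left ?_ (pow_nonneg ((ptl_abs q K).nonneg _) c)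
          rw [← map_mul]
          exact pti_abs_trace_le q K _
      _ = (ptl_abs q K (ptl_unif q K) ^ c * ptl_abs q L (d i)) * ptl_abs q L x := by ring
      _ ≤ 1 := mul_le_one₀ (hc i) ((ptl_abs q L).nonneg _) hx
  refine ⟨fun i => ⟨_, hmem i⟩, ?_⟩
  conv_rhs => rw [← b.sum_repr x]
  rw [Finset.smul_sum]
  refine Finset.sum_congr rfl fun i _ => ?_
  rw [pti_smul_def, pti_smul_def]
  simp only [SubmonoidClass.coe_pow, ptl_coe_unifO, map_mul, map_pow, Algebra.smul_def]
  ring

end Gal

end Fermat.Agent.Lib.PT
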