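/-
S55 / K2 (part A): pure algebra for the local `p`-power index.
* `cfh_index_range_eq`: for an endomorphism `φ` of a commutative group and a finite-index
  subgroup `H` stable under `φ`: `[G : φ G] = [H : φ H] * [ker φ : ker φ ⊓ H]`.
* `cfh_one_add_pow_prime`: `(1 + z)^p = 1 + z^p + p z (1 + z s)`.
-/
import Mathlib

set_option autoImplicit false

namespace Fermat.Agent.Lib.PT

section IndexLemma

variable {G G' : Type*} [CommGroup G] [CommGroup G']

/-- index lemma: `[C : B] = [fC : fB] * [ker f ⊓ C : ker f ⊓ B]` (multiplicative version) -/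
theorem cfh_relIndex_eq_map_mul_ker (f : G →* G') {B C : Subgroup G} (hBC : B ≤ C) :
    B.relIndex C = (B.map f).relIndex (C.map f) * (f.ker ⊓ B).relIndex (f.ker ⊓ C) := by
  have h1 : (B.map f).relIndex (C.map f) = (B ⊔ (f.ker ⊓ C)).relIndex C := by
    rw [Subgroup.relIndex_map_map]
    have e1 : C ⊔ f.ker = (B ⊔ f.ker) ⊔ C := by
      rw [sup_comm B, sup_assoc, sup_eq_right.mpr hBC, sup_comm]
    rw [e1, Subgroup.relIndex_sup_left, ← Subgroup.inf_relIndex_right,
      sup_inf_assoc_of_le _ hBC]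
  have h2 : (f.ker ⊓ B).relIndex (f.ker ⊓ C) = B.relIndex (B ⊔ (f.ker ⊓ C)) := by
    have e2 : B ⊓ (f.ker ⊓ C) = f.ker ⊓ B := by
      rw [inf_comm f.ker C, ← inf_assoc, inf_eq_left.mpr hBC, inf_comm]
    rw [Subgroup.relIndex_sup_left]
    conv_rhs => rw [← Subgroup.inf_relIndex_right, e2]
  rw [h1, h2, mul_comm]
  exact (Subgroup.relIndex_mul_relIndex _ _ _ le_sup_left (sup_le hBC inf_le_right)).symm

/-- `[G : φ G] = [H : φ H] * [ker φ : ker φ ⊓ H]` for a `φ`-stable subgroup `H` of finite index -/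
theorem cfh_index_range_eq (φ : G →* G) (H : Subgroup G) (hH : H.map φ ≤ H)
    (hfin : H.index ≠ 0) :
    φ.range.index = (H.map φ).relIndex H * (φ.ker ⊓ H).relIndex φ.ker := by
  have h0 := cfh_relIndex_eq_map_mul_ker φ (le_top : H ≤ ⊤)
  rw [Subgroup.relIndex_top_right, ← MonoidHom.range_eq_map, inf_top_eq] at h0
  -- `[G : φH] = [G : H] [H : φH] = [G : φG] [φG : φH]`
  have h1 : (H.map φ).relIndex H * H.index = (H.map φ).index :=
    Subgroup.relIndex_mul_index hH
  have h2 : (H.map φ).relIndex φ.range * φ.range.index = (H.map φ).index :=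
    Subgroup.relIndex_mul_index (by rw [MonoidHom.range_eq_map]; exact Subgroup.map_mono le_top)
  have hne : (H.map φ).relIndex φ.range ≠ 0 := by
    intro h
    rw [h, zero_mul] at h0
    exact hfin h0
  apply Nat.eq_of_mul_eq_mul_left (Nat.pos_of_ne_zero hne)
  rw [h2, ← h1, h0]
  ring

end IndexLemma

section Binomial

open Polynomial

/-- in `ℤ[X]`: `(1 + X)^p = 1 + X^p + p X (1 + X s)` -/
theorem cfh_one_add_X_pow_prime {p : ℕ} (hp : p.Prime) :
    ∃ s : ℤ[X], (1 + X : ℤ[X]) ^ p = 1 + X ^ p + (p : ℤ[X]) * X * (1 + X * s) := by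
  obtain ⟨r, hr⟩ := exists_add_pow_prime_eq hp (1 : ℤ[X]) X
  rw [one_pow, mul_one] at hr
  -- compare the coefficients of `X`
  have hp2 : 2 ≤ p := hp.two_le
  have hc : r.coeff 0 = 1 := by
    have h := congrArg (fun q : ℤ[X] => q.coeff 1) hr
    simp only [coeff_add, coeff_one_add_X_pow, coeff_one, coeff_X_pow] at h
    have h3 : ((p : ℤ[X]) * X * r).coeff 1 = (p : ℤ) * r.coeff 0 := by
      rw [mul_assoc, ← C_eq_natCast, coeff_C_mul, coeff_X_mul]
    rw [h3] at h
    have h4 : (1 : ℕ) ≠ p := by omega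
    simp only [Nat.choose_one_right, one_ne_zero, if_false, h4, zero_add] at h
    have hp0 : (p : ℤ) ≠ 0 := by exact_mod_cast hp.ne_zero
    have : (p : ℤ) * 1 = (p : ℤ) * r.coeff 0 := by simpa using h
    exact (mul_left_cancel₀ hp0 this).symm
  refine ⟨r.divX, ?_⟩
  have hr' : r = 1 + X * r.divX := by
    conv_lhs => rw [← X_mul_divX_add r, hc]
    simp [add_comm]
  rw [hr, ← hr']

/-- `(1 + z)^p = 1 + z^p + p z (1 + z s)` in any commutative ring -/
theorem cfh_one_add_pow_prime {R : Type*} [CommRing R] {p : ℕ} (hp : p.Prime) (z : R) :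
    ∃ s : R, (1 + z) ^ p = 1 + z ^ p + (p : R) * z * (1 + z * s) := by
  obtain ⟨s, hs⟩ := cfh_one_add_X_pow_prime hp
  refine ⟨aeval z s, ?_⟩
  have h := congrArg (aeval z) hs
  simpa using h

end Binomial

end Fermat.Agent.Lib.PT
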