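/-
S55 / K2 (part B): principal congruence subgroups `cfh_U I = ker (Rˣ → (R/I)ˣ)` and the
`p`-power map on the higher unit groups of a discrete valuation ring.
-/
import Mathlib
import Fermat.Agent.Lib.PT.LocalPowA

set_option autoImplicit false

namespace Fermat.Agent.Lib.PT

open IsLocalRing

section Congruence

variable {R : Type*} [CommRing R]

/-- the principal congruence subgroup `{u ∈ Rˣ | u ≡ 1 mod I}` -/
def cfh_U (I : Ideal R) : Subgroup Rˣ :=
  (Units.map (Ideal.Quotient.mk I : R →* R ⧸ I)).ker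

theorem cfh_mem_U {I : Ideal R} {u : Rˣ} : u ∈ cfh_U I ↔ (u : R) - 1 ∈ I := by
  rw [cfh_U, MonoidHom.mem_ker, Units.ext_iff, Units.coe_map, Units.val_one,
    MonoidHom.coe_coe, ← map_one (Ideal.Quotient.mk I), Ideal.Quotient.eq]

theorem cfh_U_anti {I J : Ideal R} (h : I ≤ J) : cfh_U I ≤ cfh_U J := fun _ hu =>
  cfh_mem_U.mpr (h (cfh_mem_U.mp hu))

theorem cfh_div_mem_U {I : Ideal R} {x y : Rˣ} : x / y ∈ cfh_U I ↔ (x : R) - y ∈ I := by
  rw [cfh_mem_U]
  have h : ((x / y : Rˣ) : R) - 1 = ((x : R) - y) * ((y⁻¹ : Rˣ) : R) := by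
    rw [div_eq_mul_inv, Units.val_mul, sub_mul, Units.mul_inv]
  rw [h]
  constructor
  · intro hm
    have := I.mul_mem_right (y : R) hm
    rwa [mul_assoc, Units.inv_mul, mul_one] at this
  · intro hm
    exact I.mul_mem_right _ hm

theorem cfh_U_index_ne_zero (I : Ideal R) [Finite (R ⧸ I)] : (cfh_U I).index ≠ 0 := by
  rw [cfh_U, Subgroup.index_ker]
  exact Nat.card_pos.ne'

end Congruence

section DVR

variable {R : Type*} [CommRing R] [IsDomain R] [IsDiscreteValuationRing R]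

theorem cfh_mem_maxPow {ϖ : R} (hϖ : Irreducible ϖ) {n : ℕ} {x : R} :
    x ∈ maximalIdeal R ^ n ↔ ϖ ^ n ∣ x := by
  rw [hϖ.maximalIdeal_eq, Ideal.span_singleton_pow, Ideal.mem_span_singleton]

theorem cfh_maxPow_le_max {n : ℕ} (hn : 1 ≤ n) : maximalIdeal R ^ n ≤ maximalIdeal R := by
  calc maximalIdeal R ^ n ≤ maximalIdeal R ^ 1 := Ideal.pow_le_pow_right hn
    _ = maximalIdeal R := pow_one _

theorem cfh_isUnit_one_add {x : R} (hx : x ∈ maximalIdeal R) : IsUnit (1 + x) := by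
  apply isUnit_of_mem_nonunits_one_sub_self
  have : 1 - (1 + x) = -x := by ring
  rw [this]
  exact (mem_maximalIdeal _).mp ((maximalIdeal R).neg_mem hx)

theorem cfh_isUnit_of_sub_one_mem {a : R} {n : ℕ} (hn : 1 ≤ n)
    (ha : a - 1 ∈ maximalIdeal R ^ n) : IsUnit a := by
  have := cfh_isUnit_one_add (cfh_maxPow_le_max hn ha)
  rwa [add_sub_cancel] at this

variable {p : ℕ} (hp : p.Prime) {ϖ : R} (hϖ : Irreducible ϖ) {η : Rˣ} {e : ℕ}
  (hpe : (p : R) = η * ϖ ^ e)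

include hpe in
theorem cfh_natCast_mem_maxPow (hϖ : Irreducible ϖ) : (p : R) ∈ maximalIdeal R ^ e := by
  rw [cfh_mem_maxPow hϖ, hpe]
  exact Dvd.intro_left _ rfl

include hp hpe in
/-- the `p`-power map sends `1 + 𝔪^n` into `1 + 𝔪^(n+e)` for `n ≥ e`. -/
theorem cfh_pow_sub_one_mem (hϖ : Irreducible ϖ) {n : ℕ} (hn : e ≤ n) {a : R}
    (ha : a - 1 ∈ maximalIdeal R ^ n) : a ^ p - 1 ∈ maximalIdeal R ^ (n + e) := by
  obtain ⟨s, hs⟩ := cfh_one_add_pow_prime hp (a - 1)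
  have h : a ^ p - 1 = (a - 1) ^ p + (p : R) * (a - 1) * (1 + (a - 1) * s) := by
    have : a = 1 + (a - 1) := by ring
    conv_lhs => rw [this, hs]
    ring
  rw [h]
  refine Ideal.add_mem _ ?_ ?_
  · have h1 : (a - 1) ^ p ∈ (maximalIdeal R ^ n) ^ p := Ideal.pow_mem_pow ha p
    rw [← pow_mul] at h1
    refine Ideal.pow_le_pow_right ?_ h1
    have := hp.two_le
    nlinarith
  · refine Ideal.mul_mem_right _ _ ?_
    rw [add_comm n e, pow_add]
    exact Ideal.mul_mem_mul (cfh_natCast_mem_maxPow hpe hϖ) ha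

include hp hpe in
/-- no `p`-torsion in `1 + 𝔪^n` for `n > e`. -/
theorem cfh_eq_one_of_pow_eq_one (hϖ : Irreducible ϖ) {n : ℕ} (hn : e < n) {a : R}
    (ha : a - 1 ∈ maximalIdeal R ^ n) (hap : a ^ p = 1) : a = 1 := by
  obtain ⟨s, hs⟩ := cfh_one_add_pow_prime hp (a - 1)
  obtain ⟨w, hw⟩ := (cfh_mem_maxPow hϖ).mp ha
  have hp2 := hp.two_le
  have hϖ0 : ϖ ≠ 0 := hϖ.ne_zero
  by_contra hne
  have hz : a - 1 ≠ 0 := sub_ne_zero.mpr hne
  -- `0 = a^p - 1 = (a-1) * ((a-1)^(p-1) + p (1 + (a-1) s))`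
  have h : (a - 1) * ((a - 1) ^ (p - 1) + (p : R) * (1 + (a - 1) * s)) = 0 := by
    have h1 : a ^ p - 1 = (a - 1) ^ p + (p : R) * (a - 1) * (1 + (a - 1) * s) := by
      have : a = 1 + (a - 1) := by ring
      conv_lhs => rw [this, hs]
      ring
    have h2 : (a - 1) ^ p = (a - 1) * (a - 1) ^ (p - 1) := by
      rw [← pow_succ', Nat.sub_add_cancel (by omega)]
    rw [hap, sub_self, h2] at h1
    rw [h1]; ring
  have h3 := (mul_eq_zero.mp h).resolve_left hz
  -- `(a-1)^(p-1) = ϖ^(e+1) * w'`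
  obtain ⟨k, hk⟩ : ∃ k, n * (p - 1) = e + 1 + k := by
    refine ⟨n * (p - 1) - (e + 1), ?_⟩
    have : e + 1 ≤ n * (p - 1) := by
      calc e + 1 ≤ n * 1 := by omega
        _ ≤ n * (p - 1) := Nat.mul_le_mul_left _ (by omega)
    omega
  have h4 : (a - 1) ^ (p - 1) = ϖ ^ e * (ϖ * (ϖ ^ k * w ^ (p - 1))) := by
    rw [hw, mul_pow, ← pow_mul, hk]
    ring
  rw [h4, hpe] at h3
  have h5 : ϖ ^ e * (ϖ * (ϖ ^ k * w ^ (p - 1)) + η * (1 + (a - 1) * s)) = 0 := by
    rw [← h3]; ring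
  have h6 := (mul_eq_zero.mp h5).resolve_left (pow_ne_zero _ hϖ0)
  -- a unit in the maximal ideal
  have hu : IsUnit ((η : R) * (1 + (a - 1) * s)) := by
    refine η.isUnit.mul (cfh_isUnit_one_add ?_)
    exact Ideal.mul_mem_right _ _ (cfh_maxPow_le_max (by omega) ha)
  have hm : (η : R) * (1 + (a - 1) * s) ∈ maximalIdeal R := by
    have : (η : R) * (1 + (a - 1) * s) = -(ϖ * (ϖ ^ k * w ^ (p - 1))) := by
      linear_combination h6
    rw [this, hϖ.maximalIdeal_eq]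
    exact neg_mem (Ideal.mul_mem_right _ _ (Ideal.mem_span_singleton_self ϖ))
  exact (mem_maximalIdeal _).mp hm hu

include hp hpe in
/-- one step of the successive approximation of a `p`-th root. -/
theorem cfh_approx_step (hϖ : Irreducible ϖ) {n : ℕ} (hn : e < n) {u a : R}
    (ha : a - 1 ∈ maximalIdeal R ^ n) {k : ℕ}
    (hk : u - a ^ p ∈ maximalIdeal R ^ (n + e + k)) :
    ∃ a' : R, a' - a ∈ maximalIdeal R ^ (n + k) ∧ a' - 1 ∈ maximalIdeal R ^ n ∧
      u - a' ^ p ∈ maximalIdeal R ^ (n + e + k + 1) := by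
  have hp2 := hp.two_le
  obtain ⟨c, hc⟩ := (cfh_mem_maxPow hϖ).mp hk
  obtain ⟨b, hb⟩ := ((cfh_isUnit_of_sub_one_mem (by omega) ha).pow p).exists_right_inv
  set z : R := ϖ ^ (n + k) * c * ((η⁻¹ : Rˣ) : R) * b with hz
  have hzm : z ∈ maximalIdeal R ^ (n + k) := by
    rw [cfh_mem_maxPow hϖ, hz, mul_assoc, mul_assoc]
    exact Dvd.intro _ rfl
  obtain ⟨s, hs⟩ := cfh_one_add_pow_prime hp z
  have hη : (η : R) * ((η⁻¹ : Rˣ) : R) = 1 := Units.mul_inv η
  refine ⟨a * (1 + z), ?_, ?_, ?_⟩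
  · have : a * (1 + z) - a = a * z := by ring
    rw [this]
    exact Ideal.mul_mem_left _ _ hzm
  · have : a * (1 + z) - 1 = (a - 1) + a * z := by ring
    rw [this]
    refine Ideal.add_mem _ ha (Ideal.mul_mem_left _ _ ?_)
    exact Ideal.pow_le_pow_right (Nat.le_add_right n k) hzm
  · have key : u - (a * (1 + z)) ^ p = -(a ^ p * z ^ p + a ^ p * ((p : R) * z ^ 2) * s) := by
      rw [mul_pow, hs, hpe]
      linear_combination hc - a ^ p * η * ϖ ^ e * hz - ϖ ^ (n + e + k) * c * hb -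
        ϖ ^ (n + e + k) * c * a ^ p * b * hη
    rw [key]
    refine neg_mem (Ideal.add_mem _ (Ideal.mul_mem_left _ _ ?_)
      (Ideal.mul_mem_right _ _ (Ideal.mul_mem_left _ _ ?_)))
    · have h1 : z ^ p ∈ (maximalIdeal R ^ (n + k)) ^ p := Ideal.pow_mem_pow hzm p
      rw [← pow_mul] at h1
      refine Ideal.pow_le_pow_right ?_ h1
      nlinarith
    · have h1 : z ^ 2 ∈ (maximalIdeal R ^ (n + k)) ^ 2 := Ideal.pow_mem_pow hzm 2
      rw [← pow_mul] at h1
      have h2 : (p : R) * z ^ 2 ∈ maximalIdeal R ^ e * maximalIdeal R ^ ((n + k) * 2) :=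
        Ideal.mul_mem_mul (cfh_natCast_mem_maxPow hpe hϖ) h1
      rw [← pow_add] at h2
      refine Ideal.pow_le_pow_right ?_ h2
      omega

include hp hpe in
/-- **surjectivity of the `p`-power map** `1 + 𝔪^n → 1 + 𝔪^(n+e)` for `n > e` in a complete
discrete valuation ring (successive approximation). -/
theorem cfh_exists_pow_eq [IsPrecomplete (maximalIdeal R) R] (hϖ : Irreducible ϖ) {n : ℕ}
    (hn : e < n) {u : R} (hu : u - 1 ∈ maximalIdeal R ^ (n + e)) :
    ∃ a : R, a - 1 ∈ maximalIdeal R ^ n ∧ a ^ p = u := by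
  classical
  -- the approximating sequence
  let P : ℕ → R → Prop := fun k a =>
    a - 1 ∈ maximalIdeal R ^ n ∧ u - a ^ p ∈ maximalIdeal R ^ (n + e + k)
  have hstep : ∀ k (a : {a : R // P k a}), ∃ a' : R, a' - a.1 ∈ maximalIdeal R ^ (n + k) ∧
      P (k + 1) a' := fun k a => by
    obtain ⟨a', h1, h2, h3⟩ := cfh_approx_step hp hpe hϖ hn a.2.1 a.2.2
    exact ⟨a', h1, h2, h3⟩
  let f : (k : ℕ) → {a : R // P k a} := fun k =>
    Nat.rec (motive := fun k => {a : R // P k a})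
      ⟨1, by simp, by simpa [P] using hu⟩
      (fun k a => ⟨(hstep k a).choose, (hstep k a).choose_spec.2⟩) k
  have hf : ∀ k, (f (k + 1)).1 - (f k).1 ∈ maximalIdeal R ^ (n + k) := fun k =>
    (hstep k (f k)).choose_spec.1
  set g : ℕ → R := fun k => (f k).1 with hg
  have hcauchy : ∀ m m', m ≤ m' → g m' - g m ∈ maximalIdeal R ^ m := by
    intro m m' hmm'
    induction m', hmm' using Nat.le_induction with
    | base => simp
    | succ m' hmm' ih =>
      have : g (m' + 1) - g m = (g (m' + 1) - g m') + (g m' - g m) := by ring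
      rw [this]
      refine Ideal.add_mem _ (Ideal.pow_le_pow_right ?_ (hf m')) ih
      omega
  obtain ⟨L, hL⟩ := IsPrecomplete.prec' (I := maximalIdeal R) g (fun {m m'} hmm' => by
    rw [SModEq.sub_mem, ← Ideal.one_eq_top, Ideal.smul_eq_mul, mul_one]
    have := hcauchy m m' hmm'
    rw [← neg_sub] at this
    exact (Ideal.neg_mem_iff _).mp this)
  have hL' : ∀ k, g k - L ∈ maximalIdeal R ^ k := fun k => by
    have := hL k
    rwa [SModEq.sub_mem, ← Ideal.one_eq_top, Ideal.smul_eq_mul, mul_one] at this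
  refine ⟨L, ?_, ?_⟩
  · have h1 : L - 1 = (g n - 1) - (g n - L) := by ring
    rw [h1]
    exact Ideal.sub_mem _ (f n).2.1 (hL' n)
  · -- `u - L^p ∈ 𝔪^k` for all `k`
    have hk : ∀ k, u - L ^ p ∈ maximalIdeal R ^ k := fun k => by
      have h1 : u - L ^ p = (u - g k ^ p) + (g k ^ p - L ^ p) := by ring
      rw [h1]
      refine Ideal.add_mem _ (Ideal.pow_le_pow_right (by omega) (f k).2.2) ?_
      exact Ideal.mem_of_dvd _ (sub_dvd_pow_sub_pow _ _ p) (hL' k)
    have hbot : (⨅ k : ℕ, maximalIdeal R ^ k) = ⊥ :=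
      Ideal.iInf_pow_eq_bot_of_isDomain _ Ideal.IsPrime.ne_top'
    have hmem : u - L ^ p ∈ (⨅ k : ℕ, maximalIdeal R ^ k) := by
      rw [Ideal.mem_iInf]; exact hk
    rw [hbot, Ideal.mem_bot, sub_eq_zero] at hmem
    exact hmem.symm

end DVR

end Fermat.Agent.Lib.PT
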