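/-
Local norm index theorem (S55, L3): for a cyclic extension `L / K` of finite extensions of
`ℚ_[q]`, `[Kˣ : N_{L/K} Lˣ] = [L : K]` (`pti_local_norm_index`), and the same statement inside
`Lˣ` (`pti_local_norm_index_units`).  Proof: Herbrand quotient (`pti_norm_index`) with the
cohomologically trivial unit group `1 + π_K^(c+1) O_K[G]θ` (`HerbTriv`), Hilbert 90 (Mathlib),
and helper6's local toolkit.
-/
import Fermat.Agent.Lib.PT.HerbLocalA
import Fermat.Agent.Lib.PT.HerbUnits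
import Fermat.Agent.Lib.PT.HerbIndex
import Fermat.Agent.Lib.PT.LocalPowB

set_option autoImplicit false
set_option linter.unusedSectionVars false

namespace Fermat.Agent.Lib.PT

open Finset

variable (q : ℕ) [Fact q.Prime]

section Gal

variable (K L : Type*) [Field K] [Algebra ℚ_[q] K] [FiniteDimensional ℚ_[q] K]
  [Field L] [Algebra ℚ_[q] L] [FiniteDimensional ℚ_[q] L] [Algebra K L]
  [IsScalarTower ℚ_[q] K L] [FiniteDimensional K L] [IsGalois K L]

/-- The Galois-stable filtration `π_K^(c+1+n) • O_K[G]θ` of `L` with trivial graded cohomology,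
contained in the maximal ideal and containing a power of it. -/
theorem pti_exists_local_filt :
    ∃ (M : ℕ → AddSubgroup L), pti_Filt (L ≃ₐ[K] L) M ∧
      (∀ n x, x ∈ M n → (∀ g : L ≃ₐ[K] L, g • x = x) →
        ∃ y ∈ M n, x - ∑ h : L ≃ₐ[K] L, h • y ∈ M (n + 1)) ∧
      (∀ σ : L ≃ₐ[K] L, (∀ g, g ∈ Subgroup.zpowers σ) → ∀ n x, x ∈ M n →
        ∑ h : L ≃ₐ[K] L, h • x ∈ M (n + 1) → ∃ y ∈ M n, x + σ • y - y ∈ M (n + 1)) ∧
      (∀ x ∈ M 0, ptl_abs q L x < 1) ∧
      (∃ N : ℕ, ∀ x : L, ptl_abs q L x ≤ ptl_abs q L (ptl_unif q L) ^ N → x ∈ M 0) := by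
  classical
  obtain ⟨θ, hθ1, hθ⟩ := pti_exists_normal_int q K L
  set b : (L ≃ₐ[K] L) → L := fun σ => σ θ with hb_def
  have hcard : Fintype.card (L ≃ₐ[K] L) = Module.finrank K L :=
    Fintype.card_eq_nat_card.trans (IsGalois.card_aut_eq_finrank K L)
  set Bs := basisOfLinearIndependentOfCardEqFinrank hθ hcard with hBs
  have hBsb : (Bs : (L ≃ₐ[K] L) → L) = b := coe_basisOfLinearIndependentOfCardEqFinrank hθ hcard
  obtain ⟨c, hc⟩ := pti_exists_pow_smul_mem_span q Bs
  rw [hBsb] at hc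
  have hb1 : ∀ σ, ptl_abs q L (b σ) ≤ 1 := fun σ => by
    rw [hb_def]; simp only; rw [ptl_abs_galois]; exact hθ1
  have hcomm : ∀ (g : L ≃ₐ[K] L) (r : ptl_O q K) (x : L), g • (r • x) = r • (g • x) := by
    intro g r x
    rw [pti_smul_def, pti_smul_def, AlgEquiv.smul_def, AlgEquiv.smul_def, map_mul,
      AlgEquiv.commutes]
  have hinj : Function.Injective fun r : ptl_O q K => r • (1 : K) := by
    intro r s h
    simp only [Algebra.smul_def, mul_one] at h
    exact Subtype.ext h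
  have hbR : LinearIndependent (ptl_O q K) b := hθ.restrict_scalars hinj
  have hgb : ∀ g h : L ≃ₐ[K] L, g • b h = b (g * h) := fun g h => rfl
  have hmul : ∀ x ∈ Submodule.span (ptl_O q K) (Set.range b),
      ∀ y ∈ Submodule.span (ptl_O q K) (Set.range b),
      ptl_unifO q K ^ c • (x * y) ∈ Submodule.span (ptl_O q K) (Set.range b) := by
    intro x hx y hy
    apply hc
    rw [map_mul]
    exact mul_le_one₀ (pti_abs_le_one_of_mem_span q b hb1 hx) ((ptl_abs q L).nonneg _)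
      (pti_abs_le_one_of_mem_span q b hb1 hy)
  have hF := pti_lat_filt hcomm (ptl_unifO q K) (pti_O_sep q K) (pti_O_complete q K) b hbR hgb c hmul
  refine ⟨fun n => pti_lat (ptl_unifO q K) b (c + 1 + n), hF, ?_, ?_, ?_, ?_⟩
  · intro n x hx hfx
    obtain ⟨y, hy, hxy⟩ := pti_lat_T0 hcomm (ptl_unifO q K) b hbR hgb (c + 1 + n) x hx hfx
    exact ⟨y, hy, by rw [hxy, sub_self]; exact AddSubgroup.zero_mem _⟩
  · intro σ hσ n x hx hTr
    exact pti_lat_T1 hcomm (ptl_unifO q K) b hbR hgb σ hσ (c + 1 + n) x hx hTr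
  · intro x hx
    obtain ⟨X, hX, rfl⟩ := pti_mem_lat_iff_span.1 hx
    rw [pti_abs_smul]
    have h1 := pti_abs_le_one_of_mem_span q b hb1 hX
    have h2 : ptl_abs q K ((ptl_unifO q K ^ (c + 1 + 0) : ptl_O q K) : K) < 1 := by
      simp only [SubmonoidClass.coe_pow, ptl_coe_unifO, map_pow, add_zero]
      exact pow_lt_one₀ ((ptl_abs q K).nonneg _) (ptl_unif_lt_one q K) (Nat.succ_ne_zero c)
    calc _ ≤ ptl_abs q K ((ptl_unifO q K ^ (c + 1 + 0) : ptl_O q K) : K) * 1 :=
          mul_le_mul_of_nonneg_left h1 ((ptl_abs q K).nonneg _)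
      _ < 1 := by rw [mul_one]; exact h2
  · refine ⟨ptl_e q K L * (c + 1 + c), fun x hx => ?_⟩
    rw [pow_mul, ← ptl_abs_unif_eq] at hx
    -- `x = π_K^(c+1+c) * y` with `|y| ≤ 1`
    have hπ : algebraMap K L (ptl_unif q K) ≠ 0 := by
      rw [Ne, map_eq_zero]; exact ptl_unif_ne_zero q K
    set y : L := x / algebraMap K L (ptl_unif q K) ^ (c + 1 + c) with hy
    have hy1 : ptl_abs q L y ≤ 1 := by
      rw [hy, map_div₀, map_pow, ptl_abs_tower]
      exact div_le_one_of_le₀ hx (pow_nonneg ((ptl_abs q K).nonneg _) _)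
    have hxy : x = (ptl_unifO q K ^ (c + 1 + 0)) • ((ptl_unifO q K ^ c) • y) := by
      rw [pti_smul_def, pti_smul_def, hy]
      simp only [SubmonoidClass.coe_pow, ptl_coe_unifO, map_pow, add_zero]
      field_simp
      ring
    rw [hxy]
    exact pti_mem_lat_iff_span.2 ⟨_, hc y hy1, rfl⟩

end Gal

section FinIdx

variable (L : Type*) [Field L] [Algebra ℚ_[q] L] [FiniteDimensional ℚ_[q] L]

/-- The inclusion `O_Lˣ → Lˣ`. -/
noncomputable def pti_unitsIncl : (ptl_O q L)ˣ →* Lˣ :=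
  Units.map ((ptl_O q L).subtype : ptl_O q L →* L)

theorem pti_unitsIncl_val (v : (ptl_O q L)ˣ) : ((pti_unitsIncl q L v : Lˣ) : L) = ((v : ptl_O q L) : L) :=
  rfl

theorem pti_unitsIncl_injective : Function.Injective (pti_unitsIncl q L) := by
  intro u v h
  have := congrArg (fun x : Lˣ => (x : L)) h
  simp only [pti_unitsIncl_val] at this
  exact Units.ext (Subtype.ext this)

theorem pti_range_unitsIncl : (pti_unitsIncl q L).range = (ptl_ord q L).ker := by
  ext u
  rw [ptl_mem_ker_ord]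
  constructor
  · rintro ⟨v, rfl⟩
    rw [pti_unitsIncl_val]
    exact (ptl_isUnit_iff q (v : ptl_O q L)).1 v.isUnit
  · intro hu
    have h1 : (u : L) ∈ ptl_O q L := by rw [ptl_mem_O, hu]
    have h2 : ((u⁻¹ : Lˣ) : L) ∈ ptl_O q L := by
      rw [ptl_mem_O, Units.val_inv_eq_inv_val, map_inv₀, hu, inv_one]
    refine ⟨⟨⟨u, h1⟩, ⟨(u⁻¹ : Lˣ), h2⟩, ?_, ?_⟩, ?_⟩
    · ext; simp
    · ext; simp
    · ext; rfl

/-- A subgroup of `Lˣ` containing all `u` with `|u - 1| ≤ |π_L|^N` has finite index in the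
unit group `ker ord`. -/
theorem pti_relIndex_ker_ord_ne_zero (V : Subgroup Lˣ) (N : ℕ)
    (hV : ∀ u : Lˣ, ptl_abs q L ((u : L) - 1) ≤ ptl_abs q L (ptl_unif q L) ^ N → u ∈ V) :
    V.relIndex (ptl_ord q L).ker ≠ 0 := by
  set I := IsLocalRing.maximalIdeal (ptl_O q L) ^ N with hI
  set W := (cfh_U I).map (pti_unitsIncl q L) with hW
  have hWV : W ≤ V := by
    rintro _ ⟨v, hv, rfl⟩
    apply hV
    rw [pti_unitsIncl_val]
    have := (ptl_mem_maximalIdeal_pow q L ((v : ptl_O q L) - 1) N).1 (cfh_mem_U.1 hv)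
    simpa using this
  have h1 : W.relIndex (ptl_ord q L).ker ≠ 0 := by
    rw [← pti_range_unitsIncl, MonoidHom.range_eq_map, hW,
      Subgroup.relIndex_map_map_of_injective _ _ (pti_unitsIncl_injective q L),
      Subgroup.relIndex_top_right]
    exact cfh_U_index_ne_zero I
  intro h0
  have := Subgroup.relIndex_dvd_of_le_left (ptl_ord q L).ker hWV
  rw [h0, zero_dvd_iff] at this
  exact h1 this

end FinIdx

section Main

variable (K L : Type) [Field K] [Algebra ℚ_[q] K] [FiniteDimensional ℚ_[q] K]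
  [Field L] [Algebra ℚ_[q] L] [FiniteDimensional ℚ_[q] L] [Algebra K L]
  [IsScalarTower ℚ_[q] K L] [FiniteDimensional K L] [IsGalois K L]

/-- The uniformizer of `K` as a unit of `L`. -/
noncomputable def pti_unifU : Lˣ :=
  Units.map (algebraMap K L : K →* L) (Units.mk0 (ptl_unif q K) (ptl_unif_ne_zero q K))

theorem pti_unifU_val : ((pti_unifU q K L : Lˣ) : L) = algebraMap K L (ptl_unif q K) := rfl

variable {K L} in
/-- Hilbert 90 for the cyclic extension `L / K` in subgroup form. -/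
theorem pti_hilbert90_units (σ : L ≃ₐ[K] L) (hσ : ∀ g, g ∈ Subgroup.zpowers σ) :
    (pti_gU (G := L ≃ₐ[K] L) (Λ := L)).ker ≤ (pti_fU (Λ := L) σ).range := by
  have : IsCyclic (L ≃ₐ[K] L) := ⟨⟨σ, hσ⟩⟩
  intro u hu
  have hN : ∏ τ : L ≃ₐ[K] L, τ • (u : L) = 1 := by
    rw [← pti_gU_val (L ≃ₐ[K] L) u, (MonoidHom.mem_ker).1 hu, Units.val_one]
  have hnorm : Algebra.norm K (u : L) = 1 := by
    apply (algebraMap K L).injective
    rw [Algebra.norm_eq_prod_automorphisms, map_one]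
    exact hN
  obtain ⟨y, hy⟩ := groupCohomology.exists_div_of_norm_eq_one hσ hnorm
  refine ⟨y⁻¹, ?_⟩
  rw [pti_fU_eq_iff, AlgEquiv.smul_def, ← hy]
  simp only [Units.val_inv_eq_inv_val, map_inv₀]
  have h1 : (y : L) ≠ 0 := y.ne_zero
  have h2 : σ (y : L) ≠ 0 := by
    rw [Ne, map_eq_zero]; exact h1
  field_simp

include q in
/-- **Local norm index theorem** (cyclic case), in `Lˣ`: `[(Lˣ)^G : N Lˣ] = [L : K]`. -/
theorem pti_local_norm_index_units (σ : L ≃ₐ[K] L) (hσ : ∀ g, g ∈ Subgroup.zpowers σ) :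
    (pti_gU (G := L ≃ₐ[K] L) (Λ := L)).range.relIndex (pti_fU (Λ := L) σ).ker
      = Module.finrank K L := by
  obtain ⟨M, hM, T0, T1, hsmall, N, hN⟩ := pti_exists_local_filt q K L
  have hcard : Fintype.card (L ≃ₐ[K] L) = Module.finrank K L :=
    Fintype.card_eq_nat_card.trans (IsGalois.card_aut_eq_finrank K L)
  have hfz : pti_fU (Λ := L) σ (pti_unifU q K L) = 1 := by
    rw [pti_fU_eq_one_iff, pti_unifU_val, AlgEquiv.smul_def, AlgEquiv.commutes]
  have hgz : pti_gU (G := L ≃ₐ[K] L) (pti_unifU q K L) = pti_unifU q K L ^ Module.finrank K L := by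
    rw [Units.ext_iff, pti_gU_val, Units.val_pow_eq_pow_val, pti_unifU_val]
    have : ∀ τ ∈ (Finset.univ : Finset (L ≃ₐ[K] L)), τ • algebraMap K L (ptl_unif q K)
        = algebraMap K L (ptl_unif q K) := fun τ _ => by
      rw [AlgEquiv.smul_def, AlgEquiv.commutes]
    rw [Finset.prod_congr rfl this, Finset.prod_const, Finset.card_univ, hcard]
  have hwz : ptl_ord q L (pti_unifU q K L) ≠ 1 := by
    rw [ptl_ord_apply, pti_unifU_val, ← ptl_e_spec]
    intro h
    have h1 : ((ptl_e q K L : ℕ) : ℤ) = 0 := h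
    have := ptl_e_pos q K L
    omega
  have hVw : hM.unitGroup ≤ (ptl_ord q L).ker := by
    intro u hu
    rw [ptl_mem_ker_ord]
    have h1 := hsmall _ ((hM.mem_unitGroup u).1 hu)
    have h2 : ptl_abs q L ((1 : L) - u) < ptl_abs q L 1 := by
      rw [map_one, ← ptl_abs_neg, neg_sub]; exact h1
    rw [ptl_abs_eq_of_sub_lt q h2, map_one]
  have hfin : hM.unitGroup.relIndex (ptl_ord q L).ker ≠ 0 :=
    pti_relIndex_ker_ord_ne_zero q L hM.unitGroup N fun u hu => hN _ hu
  have hn : Module.finrank K L ≠ 0 := Module.finrank_pos.ne'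
  have a1 := pti_fU_gU (Λ := L) σ
  have a2 := pti_gU_fU (Λ := L) σ
  have a3 := hM.map_fU_le σ
  have a4 := hM.map_gU_le
  have a5 := pti_hilbert90_units σ hσ
  have a6 := hM.ker_fU_inf_le hσ T0
  have a7 := hM.ker_gU_inf_le σ (T1 σ hσ)
  have key := pti_norm_index (A := Lˣ) (pti_fU σ) pti_gU a1 a2 (ptl_ord q L)
    (pti_unifU q K L) hfz (Module.finrank K L) hn hgz hwz hM.unitGroup hVw
    a3 a4 a5 a6 a7 hfin
  exact key

/-- The inclusion `Kˣ → Lˣ`. -/
noncomputable def pti_inclU : Kˣ →* Lˣ := Units.map (algebraMap K L : K →* L)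

/-- The norm `Lˣ → Kˣ`. -/
noncomputable def pti_normU : Lˣ →* Kˣ := Units.map (Algebra.norm K : L →* K)

theorem pti_inclU_val (x : Kˣ) : ((pti_inclU K L x : Lˣ) : L) = algebraMap K L (x : K) := rfl

theorem pti_normU_val (x : Lˣ) : ((pti_normU K L x : Kˣ) : K) = Algebra.norm K (x : L) := rfl

theorem pti_inclU_injective : Function.Injective (pti_inclU K L) := by
  intro x y h
  have := congrArg (fun u : Lˣ => (u : L)) h
  simp only [pti_inclU_val] at this
  exact Units.ext ((algebraMap K L).injective this)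

theorem pti_gU_eq_comp :
    pti_gU (G := L ≃ₐ[K] L) (Λ := L) = (pti_inclU K L).comp (pti_normU K L) := by
  ext u
  rw [pti_gU_val, MonoidHom.comp_apply, pti_inclU_val, pti_normU_val,
    Algebra.norm_eq_prod_automorphisms]
  rfl

variable {K L} in
theorem pti_ker_fU_eq_range (σ : L ≃ₐ[K] L) (hσ : ∀ g, g ∈ Subgroup.zpowers σ) :
    (pti_fU (Λ := L) σ).ker = (pti_inclU K L).range := by
  ext u
  constructor
  · intro hu
    have hfix : ∀ g : L ≃ₐ[K] L, g (u : L) = u := fun g => pti_fixed_of_fU_eq_one hσ hu g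
    obtain ⟨x, hx⟩ := (IsGalois.mem_range_algebraMap_iff_fixed (u : L)).2 hfix
    have hx0 : x ≠ 0 := by
      rintro rfl
      rw [map_zero] at hx
      exact u.ne_zero hx.symm
    exact ⟨Units.mk0 x hx0, Units.ext hx⟩
  · rintro ⟨x, rfl⟩
    rw [MonoidHom.mem_ker, pti_fU_eq_one_iff, pti_inclU_val, AlgEquiv.smul_def,
      AlgEquiv.commutes]

include q in
/-- **Local norm index theorem** (cyclic case): `[Kˣ : N Lˣ] = [L : K]` for a cyclic extension
`L / K` of finite extensions of `ℚ_[q]`. -/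
theorem pti_local_norm_index (σ : L ≃ₐ[K] L) (hσ : ∀ g, g ∈ Subgroup.zpowers σ) :
    (pti_normU K L).range.index = Module.finrank K L := by
  have h := pti_local_norm_index_units q K L σ hσ
  rw [pti_ker_fU_eq_range σ hσ, pti_gU_eq_comp K L, ← MonoidHom.map_range,
    MonoidHom.range_eq_map (pti_inclU K L),
    Subgroup.relIndex_map_map_of_injective _ _ (pti_inclU_injective K L),
    Subgroup.relIndex_top_right] at h
  exact h

end Main

end Fermat.Agent.Lib.PT
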