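/-
Second cohomology of a finite cyclic group acting on a commutative group `A` (multiplicative):
`#H²(G, A) = [A^G : N A]` (`pti_card_H2_cyclic`, from Mathlib's periodic resolution), and the
local case: for a cyclic extension `L / K` of finite extensions of `ℚ_[q]`,
`#H²(Gal(L/K), Lˣ) = [L : K]` (`pti_card_H2_local_cyclic`).
-/
import Fermat.Agent.Lib.PT.HerbLocalB

set_option autoImplicit false
set_option linter.unusedSectionVars false

namespace Fermat.Agent.Lib.PT

open groupCohomology Rep CategoryTheory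

section Cyc

variable {G : Type} [Group G] [Fintype G] {A : Type} [CommGroup A] [MulDistribMulAction G A]

/-- `a ↦ σ • a / a`. -/
def pti_fA (σ : G) : A →* A := MulDistribMulAction.toMonoidHom A σ / MonoidHom.id A

/-- The norm `a ↦ ∏ g • a`. -/
def pti_gA (G : Type) [Group G] [Fintype G] {A : Type} [CommGroup A] [MulDistribMulAction G A] :
    A →* A := ∏ g : G, MulDistribMulAction.toMonoidHom A g

theorem pti_fA_apply (σ : G) (a : A) : pti_fA σ a = σ • a / a := rfl

theorem pti_gA_apply (a : A) : pti_gA G a = ∏ g : G, g • a := by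
  unfold pti_gA
  rw [MonoidHom.finsetProd_apply]
  rfl

/-- The element of the representation attached to `a : A`. -/
def pti_toRep (G : Type) [Group G] {A : Type} [CommGroup A] [MulDistribMulAction G A] (a : A) :
    (Rep.ofMulDistribMulAction G A) := Rep.toAdditive.symm (Additive.ofMul a)

/-- The element of `A` attached to an element of the representation. -/
def pti_ofRep {G : Type} [Group G] {A : Type} [CommGroup A] [MulDistribMulAction G A]
    (x : Rep.ofMulDistribMulAction G A) : A := Additive.toMul (Rep.toAdditive x)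

@[simp] theorem pti_ofRep_toRep (a : A) : pti_ofRep (pti_toRep G a) = a := rfl
@[simp] theorem pti_toRep_ofRep (x : Rep.ofMulDistribMulAction G A) : pti_toRep G (pti_ofRep x) = x := rfl
theorem pti_toRep_mul (a b : A) : pti_toRep G (a * b) = pti_toRep G a + pti_toRep G b := rfl
theorem pti_toRep_one : pti_toRep G (1 : A) = 0 := rfl
theorem pti_toRep_injective : Function.Injective (pti_toRep G (A := A)) := fun _ _ h => h

attribute [local instance] IsCyclic.commGroup in
theorem pti_D_apply [IsCyclic G] (σ : G) (x : Rep.ofMulDistribMulAction G A) :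
    (applyAsHom (Rep.ofMulDistribMulAction G A) σ - 𝟙 (Rep.ofMulDistribMulAction G A)).hom.toLinearMap x
      = pti_toRep G (pti_fA σ (pti_ofRep x)) := by
  simp only [sub_hom, Rep.hom_id, Representation.IntertwiningMap.sub_toLinearMap]
  rfl

theorem pti_N_apply (x : Rep.ofMulDistribMulAction G A) :
    (Rep.ofMulDistribMulAction G A).norm.hom.toLinearMap x
      = pti_toRep G (pti_gA G (pti_ofRep x)) := by
  rw [pti_gA_apply]
  simp only [Rep.norm, Representation.norm]
  show _ = Additive.ofMul (∏ g : G, g • pti_ofRep x)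
  rw [ofMul_prod]
  exact LinearMap.sum_apply Finset.univ (fun g => (Rep.ofMulDistribMulAction G A).ρ g) x

attribute [local instance] IsCyclic.commGroup in
/-- For a finite cyclic group `G = ⟨σ⟩` acting on a commutative group `A`:
`#H²(G, A) = [A^G : N A]`. -/
theorem pti_card_H2_cyclic (σ : G) (hσ : ∀ g, g ∈ Subgroup.zpowers σ) :
    Nat.card (groupCohomology (Rep.ofMulDistribMulAction G A) 2)
      = (pti_gA G (A := A)).range.relIndex (pti_fA σ).ker := by
  have hc : IsCyclic G := ⟨⟨σ, hσ⟩⟩
  have hPsurj : Function.Surjective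
      (Rep.FiniteCyclicGroup.groupCohomologyπEven (Rep.ofMulDistribMulAction G A) σ hσ 2
        (by decide)).hom := by
    rw [← ModuleCat.epi_iff_surjective]
    unfold Rep.FiniteCyclicGroup.groupCohomologyπEven
    have e1 : Epi (Rep.FiniteCyclicGroup.normHomCompSub
        (Rep.ofMulDistribMulAction G A) σ).moduleCatCyclesIso.inv := IsIso.epi_of_iso _
    have e2 : Epi (Rep.FiniteCyclicGroup.groupCohomologyIsoEven
        (Rep.ofMulDistribMulAction G A) σ hσ 2 (by decide)).inv := IsIso.epi_of_iso _
    have e3 : Epi ((Rep.FiniteCyclicGroup.normHomCompSub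
        (Rep.ofMulDistribMulAction G A) σ).homologyπ ≫
        (Rep.FiniteCyclicGroup.groupCohomologyIsoEven
        (Rep.ofMulDistribMulAction G A) σ hσ 2 (by decide)).inv) := epi_comp _ _
    exact @epi_comp _ _ _ _ _ _ e1 _ e3
  have hmem : ∀ a : (pti_fA (A := A) σ).ker, pti_toRep G (a : A) ∈
      LinearMap.ker (applyAsHom (Rep.ofMulDistribMulAction G A) σ -
        𝟙 (Rep.ofMulDistribMulAction G A)).hom.toLinearMap := by
    intro a
    rw [LinearMap.mem_ker, pti_D_apply, pti_ofRep_toRep, (MonoidHom.mem_ker).1 a.2]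
    rfl
  let Φ : (pti_fA (A := A) σ).ker →* Multiplicative
      (groupCohomology (Rep.ofMulDistribMulAction G A) 2) :=
    { toFun := fun a => Multiplicative.ofAdd
        ((Rep.FiniteCyclicGroup.groupCohomologyπEven (Rep.ofMulDistribMulAction G A) σ hσ 2
          (by decide)).hom ⟨pti_toRep G (a : A), hmem a⟩)
      map_one' := by
        have : (⟨pti_toRep G ((1 : (pti_fA (A := A) σ).ker) : A), hmem 1⟩ :
          LinearMap.ker (applyAsHom (Rep.ofMulDistribMulAction G A) σ -
            𝟙 (Rep.ofMulDistribMulAction G A)).hom.toLinearMap) = 0 := rfl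
        rw [this, map_zero]; rfl
      map_mul' := by
        intro a b
        have : (⟨pti_toRep G ((a * b : (pti_fA (A := A) σ).ker) : A), hmem (a * b)⟩ :
          LinearMap.ker (applyAsHom (Rep.ofMulDistribMulAction G A) σ -
            𝟙 (Rep.ofMulDistribMulAction G A)).hom.toLinearMap) =
            ⟨pti_toRep G (a : A), hmem a⟩ + ⟨pti_toRep G (b : A), hmem b⟩ := rfl
        rw [this, map_add]; rfl }
  have hΦsurj : Function.Surjective Φ := by
    intro y
    obtain ⟨x, hx⟩ := hPsurj (Multiplicative.toAdd y)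
    have hx2 := x.2
    rw [LinearMap.mem_ker, pti_D_apply] at hx2
    refine ⟨⟨pti_ofRep (x : Rep.ofMulDistribMulAction G A), ?_⟩, ?_⟩
    · rw [MonoidHom.mem_ker]
      exact pti_toRep_injective hx2
    · show Multiplicative.ofAdd _ = y
      rw [← ofAdd_toAdd y, ← hx]
      rfl
  have hΦker : Φ.ker = (pti_gA G (A := A)).range.subgroupOf (pti_fA σ).ker := by
    ext a
    rw [MonoidHom.mem_ker, Subgroup.mem_subgroupOf]
    show Multiplicative.ofAdd _ = 1 ↔ _
    rw [← ofAdd_zero, Multiplicative.ofAdd.injective.eq_iff,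
      Rep.FiniteCyclicGroup.groupCohomologyπEven_eq_zero_iff]
    constructor
    · rintro ⟨y, hy⟩
      rw [pti_N_apply] at hy
      exact ⟨pti_ofRep y, pti_toRep_injective hy⟩
    · rintro ⟨y, hy⟩
      refine ⟨pti_toRep G y, ?_⟩
      rw [pti_N_apply, pti_ofRep_toRep, hy]
  rw [Subgroup.relIndex, ← hΦker, Subgroup.index_ker, MonoidHom.range_eq_top.2 hΦsurj]
  simp [Nat.card_congr Multiplicative.toAdd]

end Cyc
section Local

variable (q : ℕ) [Fact q.Prime]
variable (K L : Type) [Field K] [Algebra ℚ_[q] K] [FiniteDimensional ℚ_[q] K]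
  [Field L] [Algebra ℚ_[q] L] [FiniteDimensional ℚ_[q] L] [Algebra K L]
  [IsScalarTower ℚ_[q] K L] [FiniteDimensional K L] [IsGalois K L]

theorem pti_gA_eq_gU : pti_gA (L ≃ₐ[K] L) (A := Lˣ) = pti_gU (G := L ≃ₐ[K] L) (Λ := L) := by
  ext u
  rw [pti_gA_apply, pti_gU_val, Units.coe_prod]
  rfl

variable {K L} in
theorem pti_fA_eq_fU (σ : L ≃ₐ[K] L) : pti_fA (A := Lˣ) σ = pti_fU (Λ := L) σ := by
  ext u
  rfl

include q in
/-- For a cyclic extension `L / K` of finite extensions of `ℚ_[q]`:
`#H²(Gal(L/K), Lˣ) = [L : K]`. -/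
theorem pti_card_H2_local_cyclic (σ : L ≃ₐ[K] L) (hσ : ∀ g, g ∈ Subgroup.zpowers σ) :
    Nat.card (groupCohomology (Rep.ofAlgebraAutOnUnits K L) 2) = Module.finrank K L := by
  have h := pti_card_H2_cyclic (A := Lˣ) σ hσ
  rw [pti_gA_eq_gU, pti_fA_eq_fU, pti_local_norm_index_units q K L σ hσ] at h
  exact h

end Local

end Fermat.Agent.Lib.PT
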