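/-
Upper bound for the order of `H²(Gal(L/F), Lˣ)` for a Galois extension of finite extensions of
`ℚ_[q]` whose Galois group is a `p`-group: `#H² ∣ [L : F]` (`pti_card_H2_dvd`).
Inflation–restriction along an intermediate Galois extension (`pti_card_H2_tower`), then
induction through a normal subgroup of prime index, with the cyclic case from `BrauerCyc`.
Also Hilbert 90 for arbitrary subgroups of `Gal(L/K)` (`pti_hilbert90_subgroup`).
-/
import Fermat.Agent.Lib.PT.BrauerCyc
import Fermat.Agent.Lib.PT.BrauerInfRes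

set_option autoImplicit false
set_option linter.unusedSectionVars false

namespace Fermat.Agent.Lib.PT

open groupCohomology Rep CategoryTheory

section Count

/-- If `A → B → C` is exact at `B`, then `#B ∣ #A * #C`. -/
theorem pti_card_dvd_of_exact {A B C : Type*} [AddCommGroup A] [AddCommGroup B] [AddCommGroup C]
    (f : A →+ B) (g : B →+ C) (h : ∀ b, g b = 0 → ∃ a, f a = b) :
    Nat.card B ∣ Nat.card A * Nat.card C := by
  have h1 : Nat.card B = Nat.card g.ker * Nat.card g.range := by
    rw [← AddSubgroup.index_ker, AddSubgroup.card_mul_index]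
  have h2 : g.ker ≤ f.range := fun b hb => h b hb
  rw [h1]
  exact Nat.mul_dvd_mul ((AddSubgroup.card_dvd_of_le h2).trans (AddSubgroup.card_range_dvd f))
    (AddSubgroup.card_addSubgroup_dvd_card _)

end Count

section H90
variable {K L : Type*} [Field K] [Field L] [Algebra K L] [FiniteDimensional K L]

/-- Hilbert 90 (Noether's form) for an arbitrary subgroup of `Gal(L/K)`. -/
theorem pti_hilbert90_subgroup (U : Subgroup (L ≃ₐ[K] L)) (f : U → Lˣ) (hf : IsMulCocycle₁ f) :
    IsMulCoboundary₁ f := by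
  let e := IntermediateField.subgroupEquivAlgEquiv U
  have hcoc : IsMulCocycle₁ (fun τ => f (e.symm τ)) := by
    intro τ τ'
    show f (e.symm (τ * τ')) = τ • f (e.symm τ') * f (e.symm τ)
    rw [map_mul, hf]
    congr 1
  obtain ⟨β, hβ⟩ := isMulCoboundary₁_of_isMulCocycle₁_of_aut_to_units _ hcoc
  refine ⟨β, fun u => ?_⟩
  have := hβ (e u)
  simp only [MulEquiv.symm_apply_apply] at this
  rw [← this]
  congr 1

end H90

section Tower

variable (F L : Type) [Field F] [Field L] [Algebra F L] [FiniteDimensional F L] [IsGalois F L]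
  (E : IntermediateField F L) [IsGalois F E]

/-- The inclusion `Eˣ → Lˣ` as a morphism of representations (inflation datum). -/
noncomputable def pti_unitsHom :
    res (AlgEquiv.restrictNormalHom E) (Rep.ofAlgebraAutOnUnits F E) ⟶
      Rep.ofAlgebraAutOnUnits F L :=
  Rep.ofHom ⟨(Units.map (algebraMap E L : E →* L)).toAdditive.toIntLinearMap, fun g => by
    ext x
    exact AlgEquiv.restrictNormal_commutes g E (Additive.toMul x : Eˣ)⟩

theorem pti_unitsHom_injective : Function.Injective (pti_unitsHom F L E).hom := by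
  intro x y h
  have h2 : Units.map (algebraMap E L : E →* L) (Additive.toMul x) =
      Units.map (algebraMap E L : E →* L) (Additive.toMul y) := h
  exact Units.map_injective (f := (algebraMap E L : E →* L)) (algebraMap E L).injective h2

theorem pti_unitsHom_range (a : Rep.ofAlgebraAutOnUnits F L)
    (ha : ∀ s ∈ (AlgEquiv.restrictNormalHom (K₁ := L) (F := F) E).ker,
      (Rep.ofAlgebraAutOnUnits F L).ρ s a = a) :
    ∃ b : Rep.ofAlgebraAutOnUnits F E, (pti_unitsHom F L E).hom b = a := by
  have hmem : ((Additive.toMul a : Lˣ) : L) ∈ E := by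
    rw [← IsGalois.fixedField_fixingSubgroup E, IntermediateField.mem_fixedField_iff]
    intro s hs
    rw [← IntermediateField.restrictNormalHom_ker] at hs
    have := ha s hs
    exact congrArg (fun t : Additive Lˣ => ((Additive.toMul t : Lˣ) : L)) this
  have hne : (⟨_, hmem⟩ : E) ≠ 0 := by
    intro h
    have := congrArg (fun t : E => (t : L)) h
    exact (Additive.toMul a : Lˣ).ne_zero this
  refine ⟨Additive.ofMul (Units.mk0 _ hne), ?_⟩
  have h3 : Units.map (algebraMap E L : E →* L) (Units.mk0 _ hne) = (Additive.toMul a : Lˣ) :=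
    Units.ext rfl
  exact congrArg Additive.ofMul h3

theorem pti_H1_ker (z : cocycles₁ (res (AlgEquiv.restrictNormalHom (K₁ := L) (F := F) E).ker.subtype
      (Rep.ofAlgebraAutOnUnits F L))) :
    ∃ b : Rep.ofAlgebraAutOnUnits F L, ∀ s : (AlgEquiv.restrictNormalHom (K₁ := L) (F := F) E).ker,
      z s = (Rep.ofAlgebraAutOnUnits F L).ρ s b - b := by
  have h1 : IsMulCocycle₁ (G := (AlgEquiv.restrictNormalHom (K₁ := L) (F := F) E).ker) (M := Lˣ)
      (Additive.toMul ∘ (z : _ → Additive Lˣ)) :=
    isMulCocycle₁_of_mem_cocycles₁ (G := (AlgEquiv.restrictNormalHom (K₁ := L) (F := F) E).ker) (M := Lˣ) z z.2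
  obtain ⟨β, hβ⟩ := pti_hilbert90_subgroup _ _ h1
  refine ⟨Additive.ofMul β, fun s => ?_⟩
  have := hβ s
  apply Additive.toMul.injective
  exact this.symm

end Tower

section Tower2

variable (F L : Type) [Field F] [Field L] [Algebra F L] [FiniteDimensional F L] [IsGalois F L]
  (E : IntermediateField F L) [IsGalois F E]

/-- `ker (Gal(L/F) → Gal(E/F)) ≃ Gal(L/E)`. -/
noncomputable def pti_kerEquiv :
    (AlgEquiv.restrictNormalHom (K₁ := L) (F := F) E).ker ≃* (L ≃ₐ[E] L) :=
  (MulEquiv.subgroupCongr (IntermediateField.restrictNormalHom_ker E)).trans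
    (IntermediateField.fixingSubgroupEquiv E)

theorem pti_card_H2_ker :
    Nat.card (groupCohomology (res (AlgEquiv.restrictNormalHom (K₁ := L) (F := F) E).ker.subtype
      (Rep.ofAlgebraAutOnUnits F L)) 2) =
    Nat.card (groupCohomology (Rep.ofAlgebraAutOnUnits E L) 2) := by
  have I := mapIso (A := Rep.ofAlgebraAutOnUnits E L)
    (B := res (AlgEquiv.restrictNormalHom (K₁ := L) (F := F) E).ker.subtype
      (Rep.ofAlgebraAutOnUnits F L)) (pti_kerEquiv F L E) (LinearEquiv.refl ℤ _)
    (fun g => rfl) 2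
  exact Nat.card_congr I.toLinearEquiv.toEquiv

/-- **Tower bound**: `#H²(L/F) ∣ #H²(E/F) * #H²(L/E)`. -/
theorem pti_card_H2_tower :
    Nat.card (groupCohomology (Rep.ofAlgebraAutOnUnits F L) 2) ∣
      Nat.card (groupCohomology (Rep.ofAlgebraAutOnUnits F E) 2) *
        Nat.card (groupCohomology (Rep.ofAlgebraAutOnUnits E L) 2) := by
  rw [← pti_card_H2_ker]
  have hπ : Function.Surjective (AlgEquiv.restrictNormalHom (K₁ := L) (F := F) E) :=
    AlgEquiv.restrictNormalHom_surjective L
  refine pti_card_dvd_of_exact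
    (groupCohomology.map (AlgEquiv.restrictNormalHom (K₁ := L) (F := F) E)
      (pti_unitsHom F L E) 2).hom.toAddMonoidHom
    (groupCohomology.map (AlgEquiv.restrictNormalHom (K₁ := L) (F := F) E).ker.subtype
      (𝟙 (res (AlgEquiv.restrictNormalHom (K₁ := L) (F := F) E).ker.subtype
        (Rep.ofAlgebraAutOnUnits F L))) 2).hom.toAddMonoidHom ?_
  intro x hx
  exact pti_infres_exact (Rep.ofAlgebraAutOnUnits F L) (Rep.ofAlgebraAutOnUnits F E)
    (AlgEquiv.restrictNormalHom (K₁ := L) (F := F) E) hπ (pti_unitsHom F L E)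
    (pti_unitsHom_injective F L E) (pti_unitsHom_range F L E) (pti_H1_ker F L E) x hx

end Tower2

theorem pti_exists_normal_card_prime {G : Type*} [Group G] [Finite G] [Nontrivial G] {p : ℕ}
    [Fact p.Prime] (hG : IsPGroup p G) : ∃ Z : Subgroup G, Z.Normal ∧ Nat.card Z = p := by
  have hnt : Nontrivial (Subgroup.center G) := hG.center_nontrivial
  have hdvd : p ∣ Nat.card (Subgroup.center G) := by
    rcases (hG.to_subgroup (Subgroup.center G)).card_eq_or_dvd with h | h
    · exact absurd h (Finite.one_lt_card).ne'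
    · exact h
  obtain ⟨z, hz⟩ := exists_prime_orderOf_dvd_card' p hdvd
  refine ⟨Subgroup.zpowers (z : G), ⟨?_⟩, ?_⟩
  · intro n hn g
    have hc : n ∈ Subgroup.center G := (Subgroup.zpowers_le.2 z.2) hn
    rw [Subgroup.mem_center_iff] at hc
    rw [hc g, mul_inv_cancel_right]
    exact hn
  · rw [Nat.card_zpowers, Subgroup.orderOf_coe, hz]

section Ind

variable (q : ℕ) [Fact q.Prime] (p : ℕ) [Fact p.Prime]

include q in
theorem pti_card_H2_dvd_aux : ∀ (n : ℕ) (F L : Type) [Field F] [Algebra ℚ_[q] F]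
    [FiniteDimensional ℚ_[q] F] [Field L] [Algebra ℚ_[q] L] [FiniteDimensional ℚ_[q] L]
    [Algebra F L] [IsScalarTower ℚ_[q] F L] [FiniteDimensional F L] [IsGalois F L],
    IsPGroup p (L ≃ₐ[F] L) → Module.finrank F L = n →
    Nat.card (groupCohomology (Rep.ofAlgebraAutOnUnits F L) 2) ∣ n := by
  intro n
  induction n using Nat.strong_induction_on with
  | _ n ih =>
  intro F L _ _ _ _ _ _ _ _ _ _ hG hn
  by_cases htriv : Nontrivial (L ≃ₐ[F] L)
  · obtain ⟨Z, hZn, hZc⟩ := pti_exists_normal_card_prime hG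
    let E : IntermediateField F L := IntermediateField.fixedField Z
    have hstE : IsScalarTower ℚ_[q] E L := IsScalarTower.of_algebraMap_eq (fun x => rfl)
    have hfdE : FiniteDimensional ℚ_[q] E := FiniteDimensional.left ℚ_[q] E L
    have hEL : Module.finrank E L = p := by
      rw [IntermediateField.finrank_fixedField_eq_card, hZc]
    have hFE : Module.finrank F E * p = n := by
      rw [← hEL, Module.finrank_mul_finrank, hn]
    have hlt : Module.finrank F E < n := by
      have hpos : 0 < Module.finrank F E := Module.finrank_pos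
      have hp : 1 < p := (Fact.out : p.Prime).one_lt
      nlinarith
    have hGE : IsPGroup p (E ≃ₐ[F] E) :=
      hG.of_surjective (AlgEquiv.restrictNormalHom (K₁ := L) (F := F) E)
        (AlgEquiv.restrictNormalHom_surjective L)
    have hbot := ih _ hlt F E hGE rfl
    -- top: cyclic of order p
    have hcardE : Nat.card (L ≃ₐ[E] L) = p := by
      rw [IsGalois.card_aut_eq_finrank, hEL]
    have hcyc : IsCyclic (L ≃ₐ[E] L) := isCyclic_of_prime_card hcardE
    obtain ⟨σ, hσ⟩ := hcyc.exists_generator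
    have htop := pti_card_H2_local_cyclic q E L σ hσ
    rw [hEL] at htop
    have := pti_card_H2_tower F L E
    rw [htop] at this
    rw [← hFE]
    exact this.trans (Nat.mul_dvd_mul_right hbot p)
  · rw [not_nontrivial_iff_subsingleton] at htriv
    have h1 := pti_card_H2_local_cyclic q F L 1 (fun g => by
      rw [Subsingleton.elim g 1]; exact Subgroup.one_mem _)
    rw [h1, hn]

end Ind

section Final

variable (q : ℕ) [Fact q.Prime] (p : ℕ) [Fact p.Prime]
variable (F L : Type) [Field F] [Algebra ℚ_[q] F] [FiniteDimensional ℚ_[q] F]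
  [Field L] [Algebra ℚ_[q] L] [FiniteDimensional ℚ_[q] L] [Algebra F L]
  [IsScalarTower ℚ_[q] F L] [FiniteDimensional F L] [IsGalois F L]

include q in
/-- For a Galois extension `L / F` of finite extensions of `ℚ_[q]` with `Gal(L/F)` a `p`-group:
`#H²(Gal(L/F), Lˣ) ∣ [L : F]`. -/
theorem pti_card_H2_dvd (hG : IsPGroup p (L ≃ₐ[F] L)) :
    Nat.card (groupCohomology (Rep.ofAlgebraAutOnUnits F L) 2) ∣ Module.finrank F L :=
  pti_card_H2_dvd_aux q p _ F L hG rfl

omit [Algebra ℚ_[q] F] [FiniteDimensional ℚ_[q] F] [Algebra ℚ_[q] L] [FiniteDimensional ℚ_[q] L]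
  [IsScalarTower ℚ_[q] F L] in
/-- `H²(U, Lˣ) ≃ H²(Gal(L/L^U), Lˣ)` for a subgroup `U ≤ Gal(L/F)`, on cardinalities. -/
theorem pti_card_H2_subgroup (U : Subgroup (L ≃ₐ[F] L)) :
    Nat.card (groupCohomology (res U.subtype (Rep.ofAlgebraAutOnUnits F L)) 2) =
    Nat.card (groupCohomology (Rep.ofAlgebraAutOnUnits (IntermediateField.fixedField U) L) 2) := by
  have I := mapIso (A := Rep.ofAlgebraAutOnUnits (IntermediateField.fixedField U) L)
    (B := res U.subtype (Rep.ofAlgebraAutOnUnits F L))
    (IntermediateField.subgroupEquivAlgEquiv U) (LinearEquiv.refl ℤ _) (fun g => rfl) 2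
  exact Nat.card_congr I.toLinearEquiv.toEquiv

include q in
/-- For a `p`-subgroup `U ≤ Gal(L/F)`: `#H²(U, Lˣ) ∣ #U`. -/
theorem pti_card_H2_subgroup_dvd (U : Subgroup (L ≃ₐ[F] L)) (hU : IsPGroup p U) :
    Nat.card (groupCohomology (res U.subtype (Rep.ofAlgebraAutOnUnits F L)) 2) ∣ Nat.card U := by
  rw [pti_card_H2_subgroup]
  have hstE : IsScalarTower ℚ_[q] (IntermediateField.fixedField U) L :=
    IsScalarTower.of_algebraMap_eq (fun x => rfl)
  have hfdE : FiniteDimensional ℚ_[q] (IntermediateField.fixedField U) :=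
    FiniteDimensional.left ℚ_[q] (IntermediateField.fixedField U) L
  have hG : IsPGroup p (L ≃ₐ[IntermediateField.fixedField U] L) :=
    hU.of_equiv (IntermediateField.subgroupEquivAlgEquiv U)
  have := pti_card_H2_dvd q p (IntermediateField.fixedField U) L hG
  rwa [IntermediateField.finrank_fixedField_eq_card] at this

end Final

section Gen

/-- In a finite abelian group of order dividing `N`, an element of order exactly `N` generates. -/
theorem pti_gen_of_card_dvd {H : Type*} [AddCommGroup H] (x : H) (N : ℕ) (hN : N ≠ 0)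
    (hcard : Nat.card H ∣ N) (hord : ∀ n : ℤ, n • x = 0 → (N : ℤ) ∣ n) :
    ∀ y : H, ∃ n : ℤ, y = n • x := by
  have hfin : Finite H := Nat.finite_of_card_ne_zero (fun h => hN (by simpa [h] using hcard))
  have h1 : N ∣ addOrderOf x := by
    have := hord (addOrderOf x) (by rw [natCast_zsmul, addOrderOf_nsmul_eq_zero])
    exact_mod_cast this
  have h2 : addOrderOf x ∣ Nat.card H := addOrderOf_dvd_natCard x
  have h3 : Nat.card (AddSubgroup.zmultiples x) = Nat.card H := by
    rw [Nat.card_zmultiples]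
    exact Nat.dvd_antisymm h2 (hcard.trans h1)
  have h4 : AddSubgroup.zmultiples x = ⊤ := AddSubgroup.eq_top_of_card_eq _ h3
  intro y
  have : y ∈ AddSubgroup.zmultiples x := h4 ▸ AddSubgroup.mem_top y
  obtain ⟨n, hn⟩ := AddSubgroup.mem_zmultiples_iff.1 this
  exact ⟨n, hn.symm⟩

end Gen

end Fermat.Agent.Lib.PT
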