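/-
From "a 2-cocycle `u` of exact order `#Γ`" to helper4's class-module contract
`ptc_MulClassData 𝒰 u`, given `H¹(U, A) = 0` and `#H²(U, A) ∣ #U` for `U ∈ 𝒰`.
Restriction to a subgroup `U` has order exactly `#U` by `cor ∘ res = [Γ : U]` (helper3's
`ptd_index_smul_mem_coboundaries₂_of_res`); generation by counting (`pti_gen_of_card_dvd`).
-/
import Fermat.Agent.Lib.PT.BrauerBound
import Fermat.Agent.Lib.PT.IfaceClassModule
import Fermat.Agent.Lib.PT.AdtFinite

set_option autoImplicit false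
set_option linter.unusedSectionVars false

namespace Fermat.Agent.Lib.PT

open groupCohomology Rep CategoryTheory

section Class

variable {Γ : Type} [Group Γ] [Finite Γ] {A : Type} [CommGroup A] [MulDistribMulAction Γ A]

/-- Restriction to a subgroup multiplies the order of a 2-cocycle class by at most the index:
if `(u|_U) ^ n` splits on `U` then `u ^ ([Γ:U] * n)` splits on `Γ`. -/
theorem pti_zpow_index_of_res {u : Γ × Γ → A} (hu : IsMulCocycle₂ u) (U : Subgroup Γ) (n : ℤ)
    (hn : IsMulCoboundary₂ (fun x : U × U => (u ((x.1 : Γ), (x.2 : Γ))) ^ n)) :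
    IsMulCoboundary₂ (u ^ ((U.index : ℤ) * n)) := by
  have hz : (n • (Additive.ofMul ∘ u : Γ × Γ → Additive A)) ∈
      cocycles₂ (Rep.ofMulDistribMulAction Γ A) :=
    (cocycles₂ (Rep.ofMulDistribMulAction Γ A)).smul_mem n (cocyclesOfIsMulCocycle₂ hu).2
  have hres : (fun x : U × U => (n • (Additive.ofMul ∘ u : Γ × Γ → Additive A))
      ((x.1 : Γ), (x.2 : Γ))) ∈ coboundaries₂ (Rep.res U.subtype (Rep.ofMulDistribMulAction Γ A)) := by
    have h2 := (coboundariesOfIsMulCoboundary₂ (G := U) (M := A) hn).2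
    exact h2
  have h3 := ptd_index_smul_mem_coboundaries₂_of_res (Rep.ofMulDistribMulAction Γ A) U hz hres
  have h4 := isMulCoboundary₂_of_mem_coboundaries₂ (G := Γ) (M := A) _ h3
  have h5 : (u ^ ((U.index : ℤ) * n)) =
      Additive.toMul ∘ (U.index • (n • (Additive.ofMul ∘ u : Γ × Γ → Additive A))) := by
    funext x
    show u x ^ ((U.index : ℤ) * n) = Additive.toMul (U.index • (n • Additive.ofMul (u x)))
    rw [toMul_nsmul, toMul_zsmul, toMul_ofMul, mul_comm, zpow_mul, zpow_natCast]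
  rw [h5]
  exact h4

/-- **Class module from a cocycle of exact order `#Γ`.** -/
theorem pti_mulClassData_of_order (𝒰 : Set (Subgroup Γ)) (u : Γ × Γ → A) (hu : IsMulCocycle₂ u)
    (hord : ∀ m : ℤ, IsMulCoboundary₂ (u ^ m) → (Nat.card Γ : ℤ) ∣ m)
    (h1 : ∀ U ∈ 𝒰, ∀ f : U → A, IsMulCocycle₁ f → IsMulCoboundary₁ f)
    (hcard : ∀ U ∈ 𝒰, Nat.card (groupCohomology
      (Rep.res U.subtype (Rep.ofMulDistribMulAction Γ A)) 2) ∣ Nat.card U) :
    ptc_MulClassData 𝒰 u := by
  have h2ord : ∀ U : Subgroup Γ, ∀ n : ℤ,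
      IsMulCoboundary₂ (fun x : U × U => (u ((x.1 : Γ), (x.2 : Γ))) ^ n) →
        (Nat.card U : ℤ) ∣ n := by
    intro U n hn
    have h := hord _ (pti_zpow_index_of_res hu U n hn)
    rw [← U.card_mul_index, Nat.cast_mul, mul_comm] at h
    have hidx : (U.index : ℤ) ≠ 0 := by
      exact_mod_cast (Subgroup.index_ne_zero_of_finite (H := U))
    exact (mul_dvd_mul_iff_left hidx).1 h
  refine ⟨hu, h1, ?_, fun U _ => h2ord U⟩
  intro U hU f hf
  -- the class of `u|_U` generates `H²(U, A)`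
  have huU : IsMulCocycle₂ (G := U) (M := A) (fun x : U × U => u ((x.1 : Γ), (x.2 : Γ))) :=
    fun g h j => hu g h j
  obtain ⟨n, hn⟩ := pti_gen_of_card_dvd
    (H2π (Rep.ofMulDistribMulAction U A) (cocyclesOfIsMulCocycle₂ huU)) (Nat.card U)
    Nat.card_pos.ne' (hcard U hU)
    (fun n hn => by
      rw [← map_zsmul, H2π_eq_zero_iff] at hn
      refine h2ord U n ?_
      have := isMulCoboundary₂_of_mem_coboundaries₂ (G := U) (M := A) _ hn
      exact this)
    (H2π (Rep.ofMulDistribMulAction U A) (cocyclesOfIsMulCocycle₂ hf))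
  refine ⟨n, ?_⟩
  rw [← map_zsmul, H2π_eq_iff] at hn
  have := isMulCoboundary₂_of_mem_coboundaries₂ (G := U) (M := A) _ hn
  exact this

end Class

section Local

variable (q : ℕ) [Fact q.Prime] (p : ℕ) [Fact p.Prime]
variable (K L : Type) [Field K] [Algebra ℚ_[q] K] [FiniteDimensional ℚ_[q] K]
  [Field L] [Algebra ℚ_[q] L] [FiniteDimensional ℚ_[q] L] [Algebra K L]
  [IsScalarTower ℚ_[q] K L] [FiniteDimensional K L] [IsGalois K L]

include q in
/-- **Local class module at `p`**: for a finite Galois extension `L/K` of finite extensions of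
`ℚ_[q]`, any 2-cocycle `u` of `Gal(L/K)` in `Lˣ` of exact order `[L:K]` satisfies helper4's
class-module axioms for all `p`-subgroups. -/
theorem pti_local_mulClassData (u : (L ≃ₐ[K] L) × (L ≃ₐ[K] L) → Lˣ) (hu : IsMulCocycle₂ u)
    (hord : ∀ m : ℤ, IsMulCoboundary₂ (u ^ m) → (Module.finrank K L : ℤ) ∣ m) :
    ptc_MulClassData {U : Subgroup (L ≃ₐ[K] L) | IsPGroup p U} u := by
  refine pti_mulClassData_of_order _ u hu ?_ (fun U _ f hf => pti_hilbert90_subgroup U f hf)
    (fun U hU => pti_card_H2_subgroup_dvd q p K L U hU)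
  intro m hm
  rw [IsGalois.card_aut_eq_finrank]
  exact hord m hm

end Local

end Fermat.Agent.Lib.PT
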