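/-
`p`-part version of `pti_mulClassData_of_order`: if the 2-cocycle `u` of the finite group `Γ` has
order divisible by the `p`-part of `#Γ` (`u ^ m` splits ⇒ `p ^ v_p(#Γ) ∣ m`), then for every
family `𝒰` of `p`-subgroups with `H¹(U, A) = 0` and `#H²(U, A) ∣ #U` the class-module axioms
`ptc_MulClassData 𝒰 u` hold.  (Globally `Γ = Gal(F/ℚ)` is not a `p`-group.)
-/
import Fermat.Agent.Lib.PT.BrauerClass

set_option autoImplicit false
set_option linter.unusedSectionVars false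

namespace Fermat.Agent.Lib.PT

open groupCohomology Rep CategoryTheory

section Arith

/-- If `p ^ v_p(c) ∣ i * n` with `c = p ^ k * i`, then `p ^ k ∣ n`. -/
theorem pti_ppart_dvd {p : ℕ} (hp : p.Prime) {c i k : ℕ} (n : ℤ) (hc : c = p ^ k * i)
    (hc0 : c ≠ 0) (h : ((p ^ c.factorization p : ℕ) : ℤ) ∣ (i : ℤ) * n) : ((p ^ k : ℕ) : ℤ) ∣ n := by
  haveI := Fact.mk hp
  have hi0 : i ≠ 0 := by rintro rfl; exact hc0 (by rw [hc, mul_zero])
  rcases eq_or_ne n 0 with rfl | hn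
  · exact dvd_zero _
  have hm0 : n.natAbs ≠ 0 := Int.natAbs_ne_zero.2 hn
  have h1 : p ^ c.factorization p ∣ i * n.natAbs := by
    have := Int.natAbs_dvd_natAbs.2 h
    rwa [Int.natAbs_natCast, Int.natAbs_mul, Int.natAbs_natCast] at this
  have h2 : c.factorization p = k + padicValNat p i := by
    rw [Nat.factorization_def _ hp, hc, padicValNat.mul (pow_ne_zero _ hp.ne_zero) hi0,
      padicValNat.prime_pow]
  have h3 : c.factorization p ≤ padicValNat p (i * n.natAbs) :=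
    (padicValNat_dvd_iff_le (Nat.mul_ne_zero hi0 hm0)).1 h1
  rw [padicValNat.mul hi0 hm0, h2] at h3
  have h4 : k ≤ padicValNat p n.natAbs := by omega
  have h5 : p ^ k ∣ n.natAbs := (padicValNat_dvd_iff_le hm0).2 h4
  exact Int.natCast_dvd.2 h5

end Arith

section ClassP

variable {Γ : Type} [Group Γ] [Finite Γ] {A : Type} [CommGroup A] [MulDistribMulAction Γ A]

/-- **Class module from a cocycle whose order is divisible by the `p`-part of `#Γ`.** -/
theorem pti_mulClassData_of_order_ppart (p : ℕ) [Fact p.Prime] (𝒰 : Set (Subgroup Γ))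
    (h𝒰 : ∀ U ∈ 𝒰, IsPGroup p U) (u : Γ × Γ → A) (hu : IsMulCocycle₂ u)
    (hord : ∀ m : ℤ, IsMulCoboundary₂ (u ^ m) →
      ((p ^ (Nat.card Γ).factorization p : ℕ) : ℤ) ∣ m)
    (h1 : ∀ U ∈ 𝒰, ∀ f : U → A, IsMulCocycle₁ f → IsMulCoboundary₁ f)
    (hcard : ∀ U ∈ 𝒰, Nat.card (groupCohomology
      (Rep.res U.subtype (Rep.ofMulDistribMulAction Γ A)) 2) ∣ Nat.card U) :
    ptc_MulClassData 𝒰 u := by
  have h2ord : ∀ U ∈ 𝒰, ∀ n : ℤ,
      IsMulCoboundary₂ (fun x : U × U => (u ((x.1 : Γ), (x.2 : Γ))) ^ n) →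
        (Nat.card U : ℤ) ∣ n := by
    intro U hU n hn
    have h := hord _ (pti_zpow_index_of_res hu U n hn)
    obtain ⟨k, hk⟩ := (h𝒰 U hU).exists_card_eq
    rw [hk]
    refine pti_ppart_dvd (Fact.out : p.Prime) n (c := Nat.card Γ) (i := U.index) ?_
      Nat.card_pos.ne' h
    rw [← hk, U.card_mul_index]
  refine ⟨hu, h1, ?_, h2ord⟩
  intro U hU f hf
  have huU : IsMulCocycle₂ (G := U) (M := A) (fun x : U × U => u ((x.1 : Γ), (x.2 : Γ))) :=
    fun g h j => hu g h j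
  obtain ⟨n, hn⟩ := pti_gen_of_card_dvd
    (H2π (Rep.ofMulDistribMulAction U A) (cocyclesOfIsMulCocycle₂ huU)) (Nat.card U)
    Nat.card_pos.ne' (hcard U hU)
    (fun n hn => by
      rw [← map_zsmul, H2π_eq_zero_iff] at hn
      refine h2ord U hU n ?_
      have := isMulCoboundary₂_of_mem_coboundaries₂ (G := U) (M := A) _ hn
      exact this)
    (H2π (Rep.ofMulDistribMulAction U A) (cocyclesOfIsMulCocycle₂ hf))
  refine ⟨n, ?_⟩
  rw [← map_zsmul, H2π_eq_iff] at hn
  have := isMulCoboundary₂_of_mem_coboundaries₂ (G := U) (M := A) _ hn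
  exact this

end ClassP

end Fermat.Agent.Lib.PT
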