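/-
Inflation–restriction in degree 2 (S55, L4), explicit cocycles, surjection form.

`π : G → Q` surjective with kernel `S`, `B ≅ A^S` via `Φ : res π B ⟶ A`, `H¹(S, A) = 0`.  Then
`0 → H²(Q, B) → H²(G, A) → H²(S, A)` is exact:
* `pti_inf_injective`  : inflation is injective;
* `pti_infres_exact`   : a class whose restriction to `S` vanishes is an inflation.
The cochain-level cores (`pti_infres_core`, `pti_descent`, `pti_inf_injective_core`) are stated
for a `Representation` and plain functions.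
-/
import Mathlib

set_option autoImplicit false
set_option linter.unusedSectionVars false

namespace Fermat.Agent.Lib.PT

section Core

variable {k G V : Type*} [CommRing k] [Group G] [AddCommGroup V] [Module k V]
  (ρ : Representation k G V)

def pti_IsCoc₂ (f : G × G → V) : Prop :=
  ∀ g h j : G, f (g * h, j) + f (g, h) = ρ g (f (h, j)) + f (g, h * j)

def pti_dOne (x : G → V) : G × G → V := fun p => ρ p.1 (x p.2) - x (p.1 * p.2) + x p.1

theorem pti_dOne_apply (x : G → V) (g h : G) :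
    pti_dOne ρ x (g, h) = ρ g (x h) - x (g * h) + x g := rfl

theorem pti_dOne_isCoc₂ (x : G → V) : pti_IsCoc₂ ρ (pti_dOne ρ x) := by
  intro g h j
  simp only [pti_dOne_apply, map_add, map_sub, map_mul, Module.End.mul_apply, mul_assoc]
  abel

variable {ρ}

theorem pti_IsCoc₂.sub {f f' : G × G → V} (hf : pti_IsCoc₂ ρ f) (hf' : pti_IsCoc₂ ρ f') :
    pti_IsCoc₂ ρ (f - f') := by
  intro g h j
  have h1 := hf g h j
  have h2 := hf' g h j
  simp only [Pi.sub_apply, map_sub]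
  rw [sub_add_sub_comm, h1, h2, sub_add_sub_comm]

theorem pti_IsCoc₂.add {f f' : G × G → V} (hf : pti_IsCoc₂ ρ f) (hf' : pti_IsCoc₂ ρ f') :
    pti_IsCoc₂ ρ (f + f') := by
  intro g h j
  have h1 := hf g h j
  have h2 := hf' g h j
  simp only [Pi.add_apply, map_add]
  rw [add_add_add_comm, h1, h2, add_add_add_comm]

theorem pti_exists_transversal (S : Subgroup G) [S.Normal] :
    ∃ r : G → G, (∀ g, g * (r g)⁻¹ ∈ S) ∧ (∀ g, ∀ s ∈ S, r (s * g) = r g) ∧
      (∀ s ∈ S, r s = 1) := by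
  classical
  refine ⟨fun g => if g ∈ S then 1 else (QuotientGroup.mk g : G ⧸ S).out, ?_, ?_, ?_⟩
  · intro g
    by_cases hg : g ∈ S
    · simp [hg]
    · simp only [hg, if_false]
      rw [← QuotientGroup.eq_one_iff, QuotientGroup.mk_mul, QuotientGroup.mk_inv,
        QuotientGroup.out_eq', mul_inv_cancel]
  · intro g s hs
    have h1 : s * g ∈ S ↔ g ∈ S := Subgroup.mul_mem_cancel_left S hs
    have h2 : (QuotientGroup.mk (s * g) : G ⧸ S) = QuotientGroup.mk g := by
      rw [QuotientGroup.mk_mul, (QuotientGroup.eq_one_iff s).2 hs, one_mul]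
    simp only [h1, h2]
  · intro s hs
    simp [hs]


/-- Stage 0: a cocycle whose restriction to `S` is a coboundary can be modified to vanish on
`S × S`. -/
theorem pti_stage0 (S : Subgroup G) {f : G × G → V} (y₀ : S → V)
    (h : ∀ s t : S, f ((s : G), (t : G)) = ρ s (y₀ t) - y₀ (s * t) + y₀ s) :
    ∃ y : G → V, ∀ s ∈ S, ∀ t ∈ S, (f - pti_dOne ρ y) (s, t) = 0 := by
  classical
  refine ⟨fun g => if hg : g ∈ S then y₀ ⟨g, hg⟩ else 0, fun s hs t ht => ?_⟩
  have hst : s * t ∈ S := S.mul_mem hs ht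
  simp only [Pi.sub_apply, pti_dOne_apply, hs, ht, hst, dif_pos]
  rw [h ⟨s, hs⟩ ⟨t, ht⟩]
  exact sub_self _

/-- Stage 1: a cocycle vanishing on `S × S` can be modified to vanish on `S × G`. -/
theorem pti_stage1 (S : Subgroup G) [S.Normal] {f : G × G → V} (hf : pti_IsCoc₂ ρ f)
    (h0 : ∀ s ∈ S, ∀ t ∈ S, f (s, t) = 0) :
    ∃ x : G → V, ∀ s ∈ S, ∀ g, (f - pti_dOne ρ x) (s, g) = 0 := by
  obtain ⟨r, hr1, hr2, hr3⟩ := pti_exists_transversal S
  refine ⟨fun g => - f (g * (r g)⁻¹, r g), fun s hs g => ?_⟩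
  have hs1 : f (s, 1) = 0 := h0 s hs 1 S.one_mem
  have e1 : s * g * (r g)⁻¹ = s * (g * (r g)⁻¹) := mul_assoc _ _ _
  have hc := hf s (g * (r g)⁻¹) (r g)
  rw [h0 s hs _ (hr1 g), add_zero, inv_mul_cancel_right] at hc
  simp only [Pi.sub_apply, pti_dOne_apply, hr2 g s hs, hr3 s hs, e1, hc, inv_one, mul_one, hs1,
    map_neg, neg_zero]
  abel

/-- Stage 2: a cocycle vanishing on `S × G` can be modified to vanish on `S × G` and `G × S`,
provided `H¹(S, V) = 0`. -/
theorem pti_stage2 (S : Subgroup G) [S.Normal] {f : G × G → V} (hf : pti_IsCoc₂ ρ f)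
    (hS : ∀ z : S → V, (∀ s t : S, z (s * t) = ρ s (z t) + z s) →
      ∃ b : V, ∀ s : S, z s = ρ s b - b)
    (h1 : ∀ s ∈ S, ∀ g, f (s, g) = 0) :
    ∃ x : G → V, (∀ s ∈ S, ∀ g, (f + pti_dOne ρ x) (s, g) = 0) ∧
      (∀ g, ∀ t ∈ S, (f + pti_dOne ρ x) (g, t) = 0) := by
  classical
  obtain ⟨r, hr1, hr2, hr3⟩ := pti_exists_transversal S
  -- (★) `f (s g, h) = s • f (g, h)`
  have hstar : ∀ s ∈ S, ∀ g h, f (s * g, h) = ρ s (f (g, h)) := by
    intro s hs g h
    have := hf s g h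
    rwa [h1 s hs g, h1 s hs (g * h), add_zero, add_zero] at this
  -- the twisted cocycles
  have hcoc : ∀ g : G, ∃ a : V, ∀ t ∈ S, f (g, t) = ρ (g * t * g⁻¹) a - a := by
    intro g
    have hz : ∀ s t : S, (fun u : S => f (g, g⁻¹ * (u : G) * g)) (s * t) =
        ρ s ((fun u : S => f (g, g⁻¹ * (u : G) * g)) t) +
          (fun u : S => f (g, g⁻¹ * (u : G) * g)) s := by
      intro s t
      simp only [Subgroup.coe_mul]
      have hs' : g⁻¹ * (s : G) * g ∈ S := by
        have := Subgroup.Normal.conj_mem (inferInstance : S.Normal) (s : G) s.2 g⁻¹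
        simpa using this
      have ht' : g⁻¹ * (t : G) * g ∈ S := by
        have := Subgroup.Normal.conj_mem (inferInstance : S.Normal) (t : G) t.2 g⁻¹
        simpa using this
      have hc := hf g (g⁻¹ * (s : G) * g) (g⁻¹ * (t : G) * g)
      rw [h1 _ hs' _, map_zero, zero_add] at hc
      have e1 : g * (g⁻¹ * (s : G) * g) = (s : G) * g := by group
      have e2 : g⁻¹ * (s : G) * g * (g⁻¹ * (t : G) * g) = g⁻¹ * ((s : G) * (t : G)) * g := by group
      rw [e1, hstar s s.2, e2] at hc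
      rw [← hc]
    obtain ⟨b, hb⟩ := hS (fun u : S => f (g, g⁻¹ * (u : G) * g)) hz
    refine ⟨b, fun t ht => ?_⟩
    have ht' : g * t * g⁻¹ ∈ S := Subgroup.Normal.conj_mem (inferInstance : S.Normal) t ht g
    have := hb ⟨g * t * g⁻¹, ht'⟩
    simp only at this
    have e : g⁻¹ * (g * t * g⁻¹) * g = t := by group
    rw [e] at this
    exact this
  choose a ha using hcoc
  let a' : G → V := fun g => if g ∈ S then 0 else a g
  have ha' : ∀ g, ∀ t ∈ S, f (g, t) = ρ (g * t * g⁻¹) (a' g) - a' g := by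
    intro g t ht
    by_cases hg : g ∈ S
    · simp only [a', hg, if_true, map_zero, sub_zero]
      exact h1 g hg t
    · simp only [a', hg, if_false]
      exact ha g t ht
  have ha'S : ∀ s ∈ S, a' s = 0 := fun s hs => by simp only [a', hs, if_true]
  let x : G → V := fun g => ρ (g * (r g)⁻¹) (a' (r g))
  have hxS : ∀ s ∈ S, x s = 0 := by
    intro s hs
    simp only [x, hr3 s hs, ha'S 1 S.one_mem, map_zero]
  have hxs : ∀ s ∈ S, ∀ g, x (s * g) = ρ s (x g) := by
    intro s hs g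
    simp only [x, hr2 g s hs]
    rw [mul_assoc, map_mul, Module.End.mul_apply]
  -- key: `f (g, t) = (g t g⁻¹) • x g - x g`
  have hkey : ∀ g, ∀ t ∈ S, f (g, t) = ρ (g * t * g⁻¹) (x g) - x g := by
    intro g t ht
    set sg := g * (r g)⁻¹ with hsg
    have hsgS : sg ∈ S := hr1 g
    have hg : g = sg * r g := by rw [hsg, inv_mul_cancel_right]
    have h3 : f (g, t) = ρ sg (f (r g, t)) := by
      conv_lhs => rw [hg]
      exact hstar sg hsgS (r g) t
    rw [h3, ha' (r g) t ht, map_sub]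
    simp only [x]
    rw [← hsg, ← Module.End.mul_apply, ← map_mul, ← Module.End.mul_apply, ← map_mul]
    congr 3
    rw [hsg]
    group
  refine ⟨x, fun s hs g => ?_, fun g t ht => ?_⟩
  · simp only [Pi.add_apply, pti_dOne_apply, h1 s hs g, hxs s hs g, hxS s hs]
    abel
  · have htg : g * t = (g * t * g⁻¹) * g := by group
    have hconj : g * t * g⁻¹ ∈ S := Subgroup.Normal.conj_mem (inferInstance : S.Normal) t ht g
    have hx2 : x (g * t) = ρ (g * t * g⁻¹) (x g) := by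
      conv_lhs => rw [htg]
      exact hxs _ hconj g
    simp only [Pi.add_apply, pti_dOne_apply, hkey g t ht, hxS t ht, map_zero, hx2]
    abel

/-- Stage 3: a cocycle vanishing on `S × G` and `G × S` is `S`-bi-invariant in both variables
and takes `S`-invariant values. -/
theorem pti_stage3 (S : Subgroup G) [S.Normal] {f : G × G → V} (hf : pti_IsCoc₂ ρ f)
    (h1 : ∀ s ∈ S, ∀ g, f (s, g) = 0) (h2 : ∀ g, ∀ t ∈ S, f (g, t) = 0) :
    (∀ g h, ∀ s ∈ S, f (g * s, h) = f (g, h)) ∧ (∀ g h, ∀ s ∈ S, f (g, h * s) = f (g, h)) ∧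
    (∀ g h, ∀ s ∈ S, f (s * g, h) = f (g, h)) ∧ (∀ g h, ∀ s ∈ S, f (g, s * h) = f (g, h)) ∧
    (∀ g h, ∀ s ∈ S, ρ s (f (g, h)) = f (g, h)) := by
  have R2 : ∀ g h, ∀ s ∈ S, f (g, h * s) = f (g, h) := by
    intro g h s hs
    have := hf g h s
    rw [h2 (g * h) s hs, h2 h s hs, map_zero, zero_add, zero_add] at this
    exact this.symm
  have L2 : ∀ g h, ∀ s ∈ S, f (g, s * h) = f (g, h) := by
    intro g h s hs
    have e : s * h = h * (h⁻¹ * s * h) := by group
    have hc : h⁻¹ * s * h ∈ S := by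
      have := Subgroup.Normal.conj_mem (inferInstance : S.Normal) s hs h⁻¹
      simpa using this
    rw [e, R2 g h _ hc]
  have R1 : ∀ g h, ∀ s ∈ S, f (g * s, h) = f (g, h) := by
    intro g h s hs
    have := hf g s h
    rw [h2 g s hs, h1 s hs h, map_zero, zero_add, add_zero, L2 g h s hs] at this
    exact this
  have L1 : ∀ g h, ∀ s ∈ S, f (s * g, h) = f (g, h) := by
    intro g h s hs
    have e : s * g = g * (g⁻¹ * s * g) := by group
    have hc : g⁻¹ * s * g ∈ S := by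
      have := Subgroup.Normal.conj_mem (inferInstance : S.Normal) s hs g⁻¹
      simpa using this
    rw [e, R1 g h _ hc]
  refine ⟨R1, R2, L1, L2, ?_⟩
  intro g h s hs
  have := hf s g h
  rw [h1 s hs g, h1 s hs (g * h), add_zero, add_zero, L1 g h s hs] at this
  exact this.symm

theorem pti_dOne_add (x y : G → V) : pti_dOne ρ (x + y) = pti_dOne ρ x + pti_dOne ρ y := by
  funext ⟨g, h⟩
  simp only [pti_dOne_apply, Pi.add_apply, map_add]
  abel

theorem pti_dOne_sub (x y : G → V) : pti_dOne ρ (x - y) = pti_dOne ρ x - pti_dOne ρ y := by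
  funext ⟨g, h⟩
  simp only [pti_dOne_apply, Pi.sub_apply, map_sub]
  abel

/-- **Core of inflation–restriction exactness in degree 2** (cochain level): if `H¹(S, V) = 0`
and the 2-cocycle `f` restricts to a coboundary on the normal subgroup `S`, then `f` is
cohomologous to a cocycle `f'` which is `S`-bi-invariant in both variables with `S`-invariant
values. -/
theorem pti_infres_core (S : Subgroup G) [S.Normal] {f : G × G → V} (hf : pti_IsCoc₂ ρ f)
    (hS : ∀ z : S → V, (∀ s t : S, z (s * t) = ρ s (z t) + z s) →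
      ∃ b : V, ∀ s : S, z s = ρ s b - b)
    (y₀ : S → V)
    (h : ∀ s t : S, f ((s : G), (t : G)) = ρ s (y₀ t) - y₀ (s * t) + y₀ s) :
    ∃ (x : G → V) (f' : G × G → V), pti_IsCoc₂ ρ f' ∧ f = f' + pti_dOne ρ x ∧
      (∀ g h, ∀ s ∈ S, f' (g * s, h) = f' (g, h)) ∧ (∀ g h, ∀ s ∈ S, f' (g, h * s) = f' (g, h)) ∧
      (∀ g h, ∀ s ∈ S, f' (s * g, h) = f' (g, h)) ∧ (∀ g h, ∀ s ∈ S, f' (g, s * h) = f' (g, h)) ∧
      (∀ g h, ∀ s ∈ S, ρ s (f' (g, h)) = f' (g, h)) := by
  obtain ⟨y, hy⟩ := pti_stage0 S y₀ h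
  have hf1 : pti_IsCoc₂ ρ (f - pti_dOne ρ y) := hf.sub (pti_dOne_isCoc₂ ρ y)
  obtain ⟨x1, hx1⟩ := pti_stage1 S hf1 hy
  have hf2 : pti_IsCoc₂ ρ (f - pti_dOne ρ y - pti_dOne ρ x1) := hf1.sub (pti_dOne_isCoc₂ ρ x1)
  obtain ⟨x2, hx2a, hx2b⟩ := pti_stage2 S hf2 hS hx1
  have hf3 : pti_IsCoc₂ ρ (f - pti_dOne ρ y - pti_dOne ρ x1 + pti_dOne ρ x2) :=
    hf2.add (pti_dOne_isCoc₂ ρ x2)
  refine ⟨y + x1 - x2, _, hf3, ?_, pti_stage3 S hf3 hx2a hx2b⟩
  rw [pti_dOne_sub, pti_dOne_add]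
  abel

end Core

section Descent

variable {k G Q V W : Type*} [CommRing k] [Group G] [Group Q] [AddCommGroup V] [Module k V]
  [AddCommGroup W] [Module k W] {ρ : Representation k G V} {ρQ : Representation k Q W}

/-- Descent of a bi-invariant cocycle with invariant values along a surjection `π : G → Q`
(with `W ≅ V^{ker π}` via `ι`). -/
theorem pti_descent (π : G →* Q) (hπ : Function.Surjective π) (ι : W →ₗ[k] V)
    (hι : Function.Injective ι) (hcomm : ∀ g w, ι (ρQ (π g) w) = ρ g (ι w))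
    (hrange : ∀ v : V, (∀ s ∈ π.ker, ρ s v = v) → ∃ w, ι w = v)
    {f : G × G → V} (hf : pti_IsCoc₂ ρ f)
    (R1 : ∀ g h, ∀ s ∈ π.ker, f (g * s, h) = f (g, h))
    (R2 : ∀ g h, ∀ s ∈ π.ker, f (g, h * s) = f (g, h))
    (hinv : ∀ g h, ∀ s ∈ π.ker, ρ s (f (g, h)) = f (g, h)) :
    ∃ φ : Q × Q → W, pti_IsCoc₂ ρQ φ ∧ ∀ g h, ι (φ (π g, π h)) = f (g, h) := by
  have hdep : ∀ g g' h h' : G, π g = π g' → π h = π h' → f (g, h) = f (g', h') := by
    intro g g' h h' hg hh
    have h1 : g⁻¹ * g' ∈ π.ker := by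
      rw [MonoidHom.mem_ker, map_mul, map_inv, hg, inv_mul_cancel]
    have h2 : h⁻¹ * h' ∈ π.ker := by
      rw [MonoidHom.mem_ker, map_mul, map_inv, hh, inv_mul_cancel]
    have e1 : g' = g * (g⁻¹ * g') := by group
    have e2 : h' = h * (h⁻¹ * h') := by group
    rw [e1, e2, R1 _ _ _ h1, R2 _ _ _ h2]
  have hex : ∀ p : Q × Q, ∃ w : W, ι w = f (Function.surjInv hπ p.1, Function.surjInv hπ p.2) :=
    fun p => hrange _ (hinv _ _)
  choose φ hφ using hex
  have hφ' : ∀ g h, ι (φ (π g, π h)) = f (g, h) := by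
    intro g h
    rw [hφ]
    exact hdep _ _ _ _ (Function.surjInv_eq hπ _) (Function.surjInv_eq hπ _)
  refine ⟨φ, ?_, hφ'⟩
  intro q q' q''
  obtain ⟨g, rfl⟩ := hπ q
  obtain ⟨h, rfl⟩ := hπ q'
  obtain ⟨j, rfl⟩ := hπ q''
  apply hι
  rw [map_add, map_add, hcomm, ← map_mul, ← map_mul, hφ', hφ', hφ', hφ']
  exact hf g h j

/-- Injectivity of inflation in degree 2 (cochain level, surjection form), given `H¹(S, V) = 0`
for `S = ker π`. -/
theorem pti_inf_injective_core (π : G →* Q) (hπ : Function.Surjective π) (ι : W →ₗ[k] V)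
    (hι : Function.Injective ι) (hcomm : ∀ g w, ι (ρQ (π g) w) = ρ g (ι w))
    (hrange : ∀ v : V, (∀ s ∈ π.ker, ρ s v = v) → ∃ w, ι w = v)
    (hS : ∀ z : π.ker → V, (∀ s t : π.ker, z (s * t) = ρ s (z t) + z s) →
      ∃ b : V, ∀ s : π.ker, z s = ρ s b - b)
    {φ : Q × Q → W} (hφ : pti_IsCoc₂ ρQ φ) (y : G → V)
    (hy : ∀ g h, ι (φ (π g, π h)) = pti_dOne ρ y (g, h)) :
    ∃ w : Q → W, φ = pti_dOne ρQ w := by
  -- normalisations of `φ`
  have hφ1 : ∀ q, φ (1, q) = φ (1, 1) := by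
    intro q
    have := hφ 1 1 q
    simp only [one_mul, map_one, Module.End.one_apply] at this
    exact (add_left_cancel this).symm
  have hφ2 : ∀ q, φ (q, 1) = ρQ q (φ (1, 1)) := by
    intro q
    have := hφ q 1 1
    simp only [mul_one] at this
    exact add_right_cancel this
  set c : V := ι (φ (1, 1)) with hc
  have hker : ∀ s ∈ π.ker, π s = 1 := fun s hs => hs
  have hcinv : ∀ s ∈ π.ker, ρ s c = c := by
    intro s hs
    rw [hc, ← hcomm, hker s hs, map_one, Module.End.one_apply]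
  -- the cocycle `z s = y s - c` on `S`
  have hz : ∀ s t : π.ker, (fun u : π.ker => y (u : G) - c) (s * t) =
      ρ s ((fun u : π.ker => y (u : G) - c) t) + (fun u : π.ker => y (u : G) - c) s := by
    intro s t
    have h1 := hy s t
    rw [hker s s.2, hker t t.2, ← hc, pti_dOne_apply] at h1
    simp only [Subgroup.coe_mul, map_sub, hcinv s s.2]
    have : y ((s : G) * (t : G)) = ρ s (y t) + y s - c := by rw [h1]; abel
    rw [this]; abel
  obtain ⟨b, hb⟩ := hS (fun u : π.ker => y (u : G) - c) hz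
  obtain ⟨y', hy'def⟩ : ∃ y' : G → V, y' = fun g => y g - (ρ g b - b) := ⟨_, rfl⟩
  have hy' : ∀ g h, ι (φ (π g, π h)) = pti_dOne ρ y' (g, h) := by
    intro g h
    rw [hy g h]
    simp only [pti_dOne_apply, hy'def, map_sub, map_mul, Module.End.mul_apply]
    abel
  have hy's : ∀ s ∈ π.ker, y' s = c := by
    intro s hs
    have := hb ⟨s, hs⟩
    simp only at this
    simp only [hy'def]
    rw [← this]; abel
  have hright : ∀ g, ∀ s ∈ π.ker, y' (g * s) = y' g := by
    intro g s hs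
    have h1 := hy' g s
    rw [hker s hs, hφ2, hcomm, ← hc, pti_dOne_apply, hy's s hs] at h1
    have : y' (g * s) = y' g + (ρ g c - (ρ g c - y' (g * s) + y' g)) := by abel
    rw [this, ← h1]; abel
  have hinv : ∀ g, ∀ s ∈ π.ker, ρ s (y' g) = y' g := by
    intro g s hs
    have h1 := hy' s g
    rw [hker s hs, hφ1, ← hc, pti_dOne_apply, hy's s hs] at h1
    have h2 : y' (s * g) = y' g := by
      have e : s * g = g * (g⁻¹ * s * g) := by group
      have hc' : g⁻¹ * s * g ∈ π.ker := by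
        have := Subgroup.Normal.conj_mem (inferInstance : π.ker.Normal) s hs g⁻¹
        simpa using this
      rw [e, hright g _ hc']
    rw [h2] at h1
    have : ρ s (y' g) = (ρ s (y' g) - y' g + c) + (y' g - c) := by abel
    rw [this, ← h1]; abel
  have hdep : ∀ g g' : G, π g = π g' → y' g = y' g' := by
    intro g g' hg
    have h1 : g⁻¹ * g' ∈ π.ker := by
      rw [MonoidHom.mem_ker, map_mul, map_inv, hg, inv_mul_cancel]
    have e1 : g' = g * (g⁻¹ * g') := by group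
    rw [e1, hright _ _ h1]
  have hex : ∀ q : Q, ∃ w : W, ι w = y' (Function.surjInv hπ q) := fun q => hrange _ (hinv _)
  choose w hw using hex
  have hw' : ∀ g, ι (w (π g)) = y' g := by
    intro g
    rw [hw]
    exact hdep _ _ (Function.surjInv_eq hπ _)
  refine ⟨w, ?_⟩
  funext ⟨q, q'⟩
  obtain ⟨g, rfl⟩ := hπ q
  obtain ⟨h, rfl⟩ := hπ q'
  apply hι
  rw [hy' g h, pti_dOne_apply, pti_dOne_apply, map_add, map_sub, hcomm, ← map_mul, hw', hw', hw']

end Descent

section H2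

open groupCohomology Rep CategoryTheory

universe u

variable {k G Q : Type u} [CommRing k] [Group G] [Group Q]

theorem pti_isCoc₂_of_mem_cocycles₂ (A : Rep k G) (f : cocycles₂ A) :
    pti_IsCoc₂ A.ρ (f : G × G → A) := fun g h j => (mem_cocycles₂_iff (f : G × G → A)).1 f.2 g h j

theorem pti_dOne_eq_d₁₂ (A : Rep k G) (x : G → A) : pti_dOne A.ρ x = d₁₂ A x := by
  funext ⟨g, h⟩
  rw [d₁₂_hom_apply]
  rfl

/-- **Inflation–restriction in degree 2, exactness in the middle** (surjection form):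
`π : G → Q` surjective with kernel `S`, `B ≅ A^S` via `Φ`, `H¹(S, A) = 0`.  A class of
`H²(G, A)` whose restriction to `S` vanishes is inflated from `H²(Q, B)`. -/
theorem pti_infres_exact (A : Rep k G) (B : Rep k Q) (π : G →* Q) (hπ : Function.Surjective π)
    (Φ : res π B ⟶ A) (hΦ : Function.Injective Φ.hom)
    (hrange : ∀ a : A, (∀ s ∈ π.ker, A.ρ s a = a) → ∃ b : B, Φ.hom b = a)
    (hS : ∀ z : cocycles₁ (res π.ker.subtype A), ∃ b : A, ∀ s : π.ker, z s = A.ρ s b - b)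
    (x : groupCohomology A 2)
    (hx : map π.ker.subtype (𝟙 (res π.ker.subtype A)) 2 x = 0) :
    ∃ y : groupCohomology B 2, map π Φ 2 y = x := by
  induction x using H2_induction_on with | @h f =>
  rw [H2π_comp_map_apply, H2π_eq_zero_iff] at hx
  obtain ⟨(y₀ : π.ker → A), hy₀⟩ := hx
  have hy₀' : ∀ s t : π.ker, (f : G × G → A) ((s : G), (t : G))
      = A.ρ s (y₀ t) - y₀ (s * t) + y₀ s := by
    intro s t
    have := congr_fun hy₀ (s, t)
    rw [d₁₂_hom_apply] at this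
    rw [coe_mapCocycles₂ (x := f)] at this
    exact this.symm
  have hS' : ∀ z : π.ker → A, (∀ s t : π.ker, z (s * t) = A.ρ s (z t) + z s) →
      ∃ b : A, ∀ s : π.ker, z s = A.ρ s b - b := by
    intro z hz
    exact hS ⟨z, (mem_cocycles₁_iff (A := res π.ker.subtype A) z).2 hz⟩
  obtain ⟨x₁, f', hf', hff', R1, R2, -, -, hinv⟩ :=
    pti_infres_core (ρ := A.ρ) π.ker (pti_isCoc₂_of_mem_cocycles₂ A f) hS' y₀ hy₀'
  obtain ⟨φ, hφ, hφf⟩ := pti_descent (ρ := A.ρ) (ρQ := B.ρ) π hπ Φ.hom.toLinearMap hΦ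
    (fun g w => hom_comm_apply Φ g w) hrange hf' R1 R2 hinv
  have hφmem : φ ∈ cocycles₂ B := (mem_cocycles₂_iff φ).2 hφ
  refine ⟨H2π B ⟨φ, hφmem⟩, ?_⟩
  rw [H2π_comp_map_apply, H2π_eq_iff]
  refine ⟨-x₁, ?_⟩
  rw [map_neg, ← pti_dOne_eq_d₁₂]
  have h1 : ((mapCocycles₂ π Φ ⟨φ, hφmem⟩ : cocycles₂ A) : G × G → A) = f' := by
    rw [coe_mapCocycles₂]
    funext ⟨g, h⟩
    exact hφf g h
  rw [h1, hff']
  abel

/-- **Inflation is injective in degree 2** (surjection form) when `H¹(ker π, A) = 0`. -/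
theorem pti_inf_injective (A : Rep k G) (B : Rep k Q) (π : G →* Q) (hπ : Function.Surjective π)
    (Φ : res π B ⟶ A) (hΦ : Function.Injective Φ.hom)
    (hrange : ∀ a : A, (∀ s ∈ π.ker, A.ρ s a = a) → ∃ b : B, Φ.hom b = a)
    (hS : ∀ z : cocycles₁ (res π.ker.subtype A), ∃ b : A, ∀ s : π.ker, z s = A.ρ s b - b) :
    Function.Injective (map π Φ 2) := by
  rw [injective_iff_map_eq_zero]
  intro x hx
  induction x using H2_induction_on with | @h φ =>
  rw [H2π_comp_map_apply, H2π_eq_zero_iff] at hx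
  obtain ⟨(y : G → A), hy⟩ := hx
  have hS' : ∀ z : π.ker → A, (∀ s t : π.ker, z (s * t) = A.ρ s (z t) + z s) →
      ∃ b : A, ∀ s : π.ker, z s = A.ρ s b - b := by
    intro z hz
    exact hS ⟨z, (mem_cocycles₁_iff (A := res π.ker.subtype A) z).2 hz⟩
  have hy' : ∀ g h, Φ.hom.toLinearMap ((φ : Q × Q → B) (π g, π h)) = pti_dOne A.ρ y (g, h) := by
    intro g h
    have := congr_fun hy (g, h)
    rw [coe_mapCocycles₂ (x := φ)] at this
    rw [pti_dOne_eq_d₁₂]
    exact this.symm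
  obtain ⟨w, hw⟩ := pti_inf_injective_core (ρ := A.ρ) (ρQ := B.ρ) π hπ Φ.hom.toLinearMap hΦ
    (fun g w => hom_comm_apply Φ g w) hrange hS' (pti_isCoc₂_of_mem_cocycles₂ B φ) y hy'
  rw [H2π_eq_zero_iff]
  exact ⟨w, by rw [← pti_dOne_eq_d₁₂, ← hw]⟩

end H2

end Fermat.Agent.Lib.PT
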