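/-
Inflation–restriction in degree 2 in Mathlib's multiplicative cocycle language
(`IsMulCocycle₂`, `IsMulCoboundary₂`), for a surjection `π : G → Q`, an injective equivariant
`ι : B → A` with image the `ker π`-invariants, and `H¹(ker π, A) = 0`:
* `pti_mul_inf_injective` : if the inflation of a 2-cocycle `φ` of `Q` splits, then `φ` splits;
* `pti_mul_infres_exact`  : a 2-cocycle of `G` whose restriction to `ker π` splits is
  cohomologous to an inflation.
-/
import Fermat.Agent.Lib.PT.BrauerInfRes

set_option autoImplicit false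
set_option linter.unusedSectionVars false

namespace Fermat.Agent.Lib.PT

open groupCohomology

section Mul

variable {G Q : Type*} [Group G] [Group Q] {A B : Type*} [CommGroup A] [CommGroup B]
  [MulDistribMulAction G A] [MulDistribMulAction Q B]

/-- Multiplicative cocycles are additive cocycles for `Representation.ofMulDistribMulAction`. -/
theorem pti_isCoc₂_ofMul {f : G × G → A} (hf : IsMulCocycle₂ f) :
    pti_IsCoc₂ (Representation.ofMulDistribMulAction G A)
      (fun p => Additive.ofMul (f p)) := fun g h j => congrArg Additive.ofMul (hf g h j)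

theorem pti_isMulCocycle₂_toMul {f : G × G → Additive A}
    (hf : pti_IsCoc₂ (Representation.ofMulDistribMulAction G A) f) :
    IsMulCocycle₂ (fun p => Additive.toMul (f p)) :=
  fun g h j => congrArg Additive.toMul (hf g h j)

variable (π : G →* Q) (hπ : Function.Surjective π) (ι : B →* A) (hι : Function.Injective ι)
  (hcomm : ∀ g b, ι (π g • b) = g • ι b)
  (hrange : ∀ a : A, (∀ s ∈ π.ker, s • a = a) → ∃ b, ι b = a)
  (hS : ∀ z : π.ker → A, IsMulCocycle₁ z → IsMulCoboundary₁ z)

include hπ hι hcomm hrange hS

/-- **Inflation is injective in degree 2** (multiplicative cocycles). -/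
theorem pti_mul_inf_injective {φ : Q × Q → B} (hφ : IsMulCocycle₂ φ)
    (h : IsMulCoboundary₂ (fun p : G × G => ι (φ (π p.1, π p.2)))) : IsMulCoboundary₂ φ := by
  obtain ⟨x, hx⟩ := h
  have hS' : ∀ z : π.ker → Additive A,
      (∀ s t : π.ker, z (s * t) =
        Representation.ofMulDistribMulAction G A s (z t) + z s) →
      ∃ b : Additive A, ∀ s : π.ker, z s = Representation.ofMulDistribMulAction G A s b - b := by
    intro z hz
    have h1 : IsMulCocycle₁ (fun s : π.ker => Additive.toMul (z s)) :=
      fun s t => congrArg Additive.toMul (hz s t)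
    obtain ⟨b, hb⟩ := hS _ h1
    exact ⟨Additive.ofMul b, fun s => (congrArg Additive.ofMul (hb s)).symm⟩
  obtain ⟨w, hw⟩ := pti_inf_injective_core
    (ρ := Representation.ofMulDistribMulAction G A)
    (ρQ := Representation.ofMulDistribMulAction Q B) π hπ ι.toAdditive.toIntLinearMap
    (fun a b hab => hι hab) (fun g b => congrArg Additive.ofMul (hcomm g (Additive.toMul b)))
    (fun a ha => by
      obtain ⟨b, hb⟩ := hrange (Additive.toMul a)
        (fun s hs => congrArg Additive.toMul (ha s hs))
      exact ⟨Additive.ofMul b, congrArg Additive.ofMul hb⟩)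
    hS' (pti_isCoc₂_ofMul hφ) (fun g => Additive.ofMul (x g))
    (fun g h => (congrArg Additive.ofMul (hx g h)).symm)
  exact ⟨fun q => Additive.toMul (w q), fun q q' =>
    (congrArg Additive.toMul (congrFun hw (q, q'))).symm⟩

/-- **Inflation–restriction exactness in degree 2** (multiplicative cocycles): a 2-cocycle of
`G` which splits on `ker π` is cohomologous to the inflation of a 2-cocycle of `Q`. -/
theorem pti_mul_infres_exact {f : G × G → A} (hf : IsMulCocycle₂ f)
    (h : IsMulCoboundary₂ (fun p : π.ker × π.ker => f ((p.1 : G), (p.2 : G)))) :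
    ∃ φ : Q × Q → B, IsMulCocycle₂ φ ∧
      IsMulCoboundary₂ (fun p : G × G => f p / ι (φ (π p.1, π p.2))) := by
  obtain ⟨y₀, hy₀⟩ := h
  have hS' : ∀ z : π.ker → Additive A,
      (∀ s t : π.ker, z (s * t) =
        Representation.ofMulDistribMulAction G A s (z t) + z s) →
      ∃ b : Additive A, ∀ s : π.ker, z s = Representation.ofMulDistribMulAction G A s b - b := by
    intro z hz
    have h1 : IsMulCocycle₁ (fun s : π.ker => Additive.toMul (z s)) :=
      fun s t => congrArg Additive.toMul (hz s t)
    obtain ⟨b, hb⟩ := hS _ h1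
    exact ⟨Additive.ofMul b, fun s => (congrArg Additive.ofMul (hb s)).symm⟩
  obtain ⟨x, f', hf', hff', R1, R2, -, -, hinv⟩ :=
    pti_infres_core (ρ := Representation.ofMulDistribMulAction G A) π.ker
      (pti_isCoc₂_ofMul hf) hS' (fun s => Additive.ofMul (y₀ s))
      (fun s t => (congrArg Additive.ofMul (hy₀ s t)).symm)
  obtain ⟨φ, hφ, hφf⟩ := pti_descent
    (ρ := Representation.ofMulDistribMulAction G A)
    (ρQ := Representation.ofMulDistribMulAction Q B) π hπ ι.toAdditive.toIntLinearMap
    (fun a b hab => hι hab) (fun g b => congrArg Additive.ofMul (hcomm g (Additive.toMul b)))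
    (fun a ha => by
      obtain ⟨b, hb⟩ := hrange (Additive.toMul a)
        (fun s hs => congrArg Additive.toMul (ha s hs))
      exact ⟨Additive.ofMul b, congrArg Additive.ofMul hb⟩)
    hf' R1 R2 hinv
  refine ⟨fun p => Additive.toMul (φ p), pti_isMulCocycle₂_toMul hφ,
    fun g => Additive.toMul (x g), fun g g' => ?_⟩
  have h1 : f (g, g') = Additive.toMul (f' (g, g')) *
      Additive.toMul (pti_dOne (Representation.ofMulDistribMulAction G A) x (g, g')) :=
    congrArg Additive.toMul (congrFun hff' (g, g'))
  have h2 : ι (Additive.toMul (φ (π g, π g'))) = Additive.toMul (f' (g, g')) :=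
    congrArg Additive.toMul (hφf g g')
  show g • Additive.toMul (x g') / Additive.toMul (x (g * g')) * Additive.toMul (x g) =
    f (g, g') / ι (Additive.toMul (φ (π g, π g')))
  rw [h1, h2, mul_div_cancel_left]
  rfl

end Mul

end Fermat.Agent.Lib.PT
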