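/-
Inflation of multiplicative 2-cocycles along a tower of Galois extensions `K ⊆ L ⊆ E`
(abstract types with `Algebra` instances): `pti_infl K L E c (σ, σ') = c (σ|_L, σ'|_L)` in `Eˣ`.
* `pti_infl_injective`  : `infl c` splits ⇒ `c` splits;
* `pti_infl_exact`      : a cocycle of `Gal(E/K)` splitting on `Gal(E/L)` is cohomologous to an
  inflation from `Gal(L/K)`;
* `pti_infl_trans`      : transitivity of inflation.
-/
import Fermat.Agent.Lib.PT.BrauerMul
import Fermat.Agent.Lib.PT.BrauerBound
import Fermat.Agent.Lib.PT.LocCycCoh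

set_option autoImplicit false
set_option linter.unusedSectionVars false

namespace Fermat.Agent.Lib.PT

open groupCohomology

section Infl

variable (K L E : Type*) [Field K] [Field L] [Field E] [Algebra K L] [Algebra K E] [Algebra L E]
  [IsScalarTower K L E] [Normal K L]

/-- Inflation of a 2-cochain from `Gal(L/K)` to `Gal(E/K)`. -/
noncomputable def pti_infl (c : (L ≃ₐ[K] L) × (L ≃ₐ[K] L) → Lˣ) :
    (E ≃ₐ[K] E) × (E ≃ₐ[K] E) → Eˣ :=
  fun p => Units.map (algebraMap L E : L →* E)
    (c (AlgEquiv.restrictNormalHom L p.1, AlgEquiv.restrictNormalHom L p.2))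

theorem pti_infl_apply (c : (L ≃ₐ[K] L) × (L ≃ₐ[K] L) → Lˣ) (σ σ' : E ≃ₐ[K] E) :
    pti_infl K L E c (σ, σ') = Units.map (algebraMap L E : L →* E)
      (c (AlgEquiv.restrictNormalHom L σ, AlgEquiv.restrictNormalHom L σ')) := rfl

theorem pti_unitsMap_smul (σ : E ≃ₐ[K] E) (a : Lˣ) :
    Units.map (algebraMap L E : L →* E) (AlgEquiv.restrictNormalHom L σ • a) =
      σ • Units.map (algebraMap L E : L →* E) a :=
  Units.ext (AlgEquiv.restrictNormal_commutes σ L (a : L))

theorem pti_infl_isMulCocycle₂ {c : (L ≃ₐ[K] L) × (L ≃ₐ[K] L) → Lˣ} (hc : IsMulCocycle₂ c) :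
    IsMulCocycle₂ (pti_infl K L E c) :=
  ptl_isMulCocycle₂_comp (AlgEquiv.restrictNormalHom L) (Units.map (algebraMap L E : L →* E))
    (pti_unitsMap_smul K L E) hc

theorem pti_infl_isMulCoboundary₂ {c : (L ≃ₐ[K] L) × (L ≃ₐ[K] L) → Lˣ}
    (hc : IsMulCoboundary₂ c) : IsMulCoboundary₂ (pti_infl K L E c) :=
  ptl_isMulCoboundary₂_comp (AlgEquiv.restrictNormalHom L) (Units.map (algebraMap L E : L →* E))
    (pti_unitsMap_smul K L E) hc

theorem pti_infl_one : pti_infl K L E 1 = 1 := by
  funext p; simp [pti_infl]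

theorem pti_infl_mul (c c' : (L ≃ₐ[K] L) × (L ≃ₐ[K] L) → Lˣ) :
    pti_infl K L E (c * c') = pti_infl K L E c * pti_infl K L E c' := by
  funext p; simp [pti_infl]

theorem pti_infl_div (c c' : (L ≃ₐ[K] L) × (L ≃ₐ[K] L) → Lˣ) :
    pti_infl K L E (c / c') = pti_infl K L E c / pti_infl K L E c' := by
  funext p; simp [pti_infl]

theorem pti_infl_pow (c : (L ≃ₐ[K] L) × (L ≃ₐ[K] L) → Lˣ) (m : ℕ) :
    pti_infl K L E (c ^ m) = pti_infl K L E c ^ m := by
  funext p; simp [pti_infl]

theorem pti_infl_zpow (c : (L ≃ₐ[K] L) × (L ≃ₐ[K] L) → Lˣ) (m : ℤ) :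
    pti_infl K L E (c ^ m) = pti_infl K L E c ^ m := by
  funext p; simp [pti_infl]

end Infl

section InfRes

variable (K L E : Type*) [Field K] [Field L] [Field E] [Algebra K L] [Algebra K E] [Algebra L E]
  [IsScalarTower K L E] [FiniteDimensional K E] [IsGalois K L] [IsGalois K E]

theorem pti_restrictScalars_mem_ker (τ : E ≃ₐ[L] E) :
    τ.restrictScalars K ∈ (AlgEquiv.restrictNormalHom (F := K) (K₁ := E) L).ker := by
  rw [MonoidHom.mem_ker]
  ext x
  apply (algebraMap L E).injective
  exact (AlgEquiv.restrictNormal_commutes (τ.restrictScalars K) L x).trans (τ.commutes x)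

theorem pti_unitsMap_range (a : Eˣ)
    (ha : ∀ s ∈ (AlgEquiv.restrictNormalHom (F := K) (K₁ := E) L).ker, s • a = a) :
    ∃ b : Lˣ, Units.map (algebraMap L E : L →* E) b = a := by
  haveI : IsGalois L E := IsGalois.tower_top_of_isGalois K L E
  haveI : FiniteDimensional L E := FiniteDimensional.right K L E
  have hmem : (a : E) ∈ Set.range (algebraMap L E) := by
    rw [IsGalois.mem_range_algebraMap_iff_fixed]
    intro τ
    have := ha _ (pti_restrictScalars_mem_ker K L E τ)
    exact congrArg (fun u : Eˣ => (u : E)) this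
  obtain ⟨b, hb⟩ := hmem
  have hb0 : b ≠ 0 := by
    rintro rfl
    rw [map_zero] at hb
    exact a.ne_zero hb.symm
  exact ⟨Units.mk0 b hb0, Units.ext hb⟩

theorem pti_unitsMap_injective : Function.Injective (Units.map (algebraMap L E : L →* E)) :=
  Units.map_injective (f := (algebraMap L E : L →* E)) (algebraMap L E).injective

/-- **Inflation is injective** on classes of 2-cocycles, `Gal(L/K) → Gal(E/K)`. -/
theorem pti_infl_injective {c : (L ≃ₐ[K] L) × (L ≃ₐ[K] L) → Lˣ} (hc : IsMulCocycle₂ c)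
    (h : IsMulCoboundary₂ (pti_infl K L E c)) : IsMulCoboundary₂ c :=
  pti_mul_inf_injective (AlgEquiv.restrictNormalHom (F := K) (K₁ := E) L)
    (AlgEquiv.restrictNormalHom_surjective E) (Units.map (algebraMap L E : L →* E))
    (pti_unitsMap_injective L E) (pti_unitsMap_smul K L E) (pti_unitsMap_range K L E)
    (fun z hz => pti_hilbert90_subgroup _ z hz) hc h

/-- The element of `Gal(E/L)` attached to an element of the kernel of `Gal(E/K) → Gal(L/K)`. -/
noncomputable def pti_kerToGal (s : (AlgEquiv.restrictNormalHom (F := K) (K₁ := E) L).ker) :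
    E ≃ₐ[L] E :=
  { (s : E ≃ₐ[K] E).toRingEquiv with
    commutes' := fun x => by
      have h1 : AlgEquiv.restrictNormalHom L (s : E ≃ₐ[K] E) = 1 := s.2
      have h2 := AlgEquiv.restrictNormal_commutes (s : E ≃ₐ[K] E) L x
      have h3 : ((s : E ≃ₐ[K] E).restrictNormal L) x = x := congrArg (fun σ => σ x) h1
      rw [h3] at h2
      exact h2.symm }

theorem pti_kerToGal_apply (s : (AlgEquiv.restrictNormalHom (F := K) (K₁ := E) L).ker) (x : E) :
    pti_kerToGal K L E s x = (s : E ≃ₐ[K] E) x := rfl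

/-- **Inflation–restriction exactness**: a 2-cocycle of `Gal(E/K)` which splits on `Gal(E/L)`
is cohomologous to an inflation from `Gal(L/K)`. -/
theorem pti_infl_exact {f : (E ≃ₐ[K] E) × (E ≃ₐ[K] E) → Eˣ} (hf : IsMulCocycle₂ f)
    (h : IsMulCoboundary₂ (fun p : (E ≃ₐ[L] E) × (E ≃ₐ[L] E) =>
      f (p.1.restrictScalars K, p.2.restrictScalars K))) :
    ∃ c : (L ≃ₐ[K] L) × (L ≃ₐ[K] L) → Lˣ, IsMulCocycle₂ c ∧
      IsMulCoboundary₂ (f / pti_infl K L E c) := by
  have h' : IsMulCoboundary₂ (fun p : (AlgEquiv.restrictNormalHom (F := K) (K₁ := E) L).ker ×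
      (AlgEquiv.restrictNormalHom (F := K) (K₁ := E) L).ker =>
        f ((p.1 : E ≃ₐ[K] E), (p.2 : E ≃ₐ[K] E))) := by
    obtain ⟨x, hx⟩ := h
    refine ⟨fun s => x (pti_kerToGal K L E s), fun s t => ?_⟩
    have h1 := hx (pti_kerToGal K L E s) (pti_kerToGal K L E t)
    have h2 : pti_kerToGal K L E s * pti_kerToGal K L E t = pti_kerToGal K L E (s * t) := by
      ext y; rfl
    have h3 : (pti_kerToGal K L E s).restrictScalars K = (s : E ≃ₐ[K] E) := by ext y; rfl
    have h4 : (pti_kerToGal K L E t).restrictScalars K = (t : E ≃ₐ[K] E) := by ext y; rfl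
    simp only [h2, h3, h4] at h1
    exact h1
  obtain ⟨c, hc, hcob⟩ := pti_mul_infres_exact (AlgEquiv.restrictNormalHom (F := K) (K₁ := E) L)
    (AlgEquiv.restrictNormalHom_surjective E) (Units.map (algebraMap L E : L →* E))
    (pti_unitsMap_injective L E) (pti_unitsMap_smul K L E) (pti_unitsMap_range K L E)
    (fun z hz => pti_hilbert90_subgroup _ z hz) hf h'
  exact ⟨c, hc, hcob⟩

end InfRes

section Trans

variable (K L E E' : Type*) [Field K] [Field L] [Field E] [Field E']
  [Algebra K L] [Algebra K E] [Algebra K E'] [Algebra L E] [Algebra L E'] [Algebra E E']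
  [IsScalarTower K L E'] [IsScalarTower K L E] [IsScalarTower K E E'] [IsScalarTower L E E']
  [Normal K L] [Normal K E]

/-- Transitivity of inflation. -/
theorem pti_infl_trans (c : (L ≃ₐ[K] L) × (L ≃ₐ[K] L) → Lˣ) :
    pti_infl K E E' (pti_infl K L E c) = pti_infl K L E' c := by
  funext p
  apply Units.ext
  simp only [pti_infl, Units.coe_map, MonoidHom.coe_coe]
  rw [IsScalarTower.AlgEquiv.restrictNormalHom_comp_apply L E p.1,
    IsScalarTower.AlgEquiv.restrictNormalHom_comp_apply L E p.2,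
    ← IsScalarTower.algebraMap_apply]

end Trans

section Cyclo

open Polynomial

/-- A cyclotomic extension of a finite Galois extension is Galois over the base (char. 0). -/
theorem pti_isGalois_of_cyclotomic (K L E : Type*) [Field K] [Field L] [Field E] [Algebra K L]
    [Algebra L E] [Algebra K E] [IsScalarTower K L E] [CharZero K] [FiniteDimensional K L]
    [IsGalois K L] (m : ℕ) [NeZero m] [IsCyclotomicExtension {m} L E] : IsGalois K E := by
  obtain ⟨f, hfsep, hfsplit⟩ := IsGalois.is_separable_splitting_field K L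
  have := hfsplit
  have hf0 : f ≠ 0 := hfsep.ne_zero
  have hg0 : (X ^ m - 1 : K[X]) ≠ 0 := X_pow_sub_C_ne_zero (NeZero.pos m) (1 : K)
  have : IsSplittingField L E ((X ^ m - 1 : K[X]).map (algebraMap K L)) := by
    have := IsCyclotomicExtension.isSplittingField_X_pow_sub_one m L E
    simpa using this
  have : IsSplittingField K E (f * (X ^ m - 1)) := IsSplittingField.mul (K := L) E f _ hf0 hg0
  have : Normal K E := Normal.of_isSplittingField (f * (X ^ m - 1))
  have : FiniteDimensional L E := IsCyclotomicExtension.finiteDimensional {m} L E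
  have : FiniteDimensional K E := FiniteDimensional.trans K L E
  exact ⟨⟩

end Cyclo

end Fermat.Agent.Lib.PT
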