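/-
  Local toolkit for S55 (Poitou–Tate), part L1b: unramified Galois extensions `L / K` of finite
  extensions of `ℚ_[q]`, in the form "`L / K` Galois and `Gal(L/K)` acts faithfully on the
  residue field" (`hinj : Function.Injective (ptl_galRes q K L)`): then `e = 1`, `f = [L:K]`,
  `Gal(L/K) ≃ Gal(k_L/k_K)` is cyclic generated by the Frobenius `ptl_frob`, and norm and trace
  commute with reduction.
  Owner: helper6.  Prefix `ptl_`.
-/
import Fermat.Agent.Lib.PT.LocRam
import Fermat.Agent.Lib.PT.LocRoots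

set_option autoImplicit false

namespace Fermat.Agent.Lib.PT

variable (q : ℕ) [Fact q.Prime]

section Unr

variable (K L : Type*) [Field K] [Algebra ℚ_[q] K] [FiniteDimensional ℚ_[q] K]
  [Field L] [Algebra ℚ_[q] L] [FiniteDimensional ℚ_[q] L] [Algebra K L]
  [IsScalarTower ℚ_[q] K L]

/-- `[k_L : k_K] = #Gal(k_L / k_K)`. -/
theorem ptl_card_galRes_target :
    Nat.card (ptl_k q L ≃ₐ[ptl_k q K] ptl_k q L) = ptl_f q K L := by
  rw [IsGalois.card_aut_eq_finrank]
  rfl

/-- The Frobenius automorphism `x ↦ x ^ #k_K` of the residue field extension. -/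
noncomputable def ptl_frobRes : ptl_k q L ≃ₐ[ptl_k q K] ptl_k q L :=
  letI := Fintype.ofFinite (ptl_k q K)
  FiniteField.frobeniusAlgEquivOfAlgebraic (ptl_k q K) (ptl_k q L)

theorem ptl_frobRes_apply (x : ptl_k q L) :
    ptl_frobRes q K L x = x ^ Nat.card (ptl_k q K) := by
  letI := Fintype.ofFinite (ptl_k q K)
  rw [Nat.card_eq_fintype_card]
  rfl

theorem ptl_orderOf_frobRes : orderOf (ptl_frobRes q K L) = ptl_f q K L := by
  letI := Fintype.ofFinite (ptl_k q K)
  exact FiniteField.orderOf_frobeniusAlgEquivOfAlgebraic (ptl_k q K) (ptl_k q L)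

theorem ptl_frobRes_generates (τ : ptl_k q L ≃ₐ[ptl_k q K] ptl_k q L) :
    τ ∈ Subgroup.zpowers (ptl_frobRes q K L) := by
  letI := Fintype.ofFinite (ptl_k q K)
  obtain ⟨n, hn⟩ :=
    (FiniteField.bijective_frobeniusAlgEquivOfAlgebraic_pow (ptl_k q K) (ptl_k q L)).2 τ
  refine ⟨(n.1 : ℤ), ?_⟩
  simp only [zpow_natCast]
  exact hn

variable [IsGalois K L]

section

variable (hinj : Function.Injective (ptl_galRes q K L))
include hinj

/-- If the Galois group acts faithfully on the residue field, then `e = 1`. -/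
theorem ptl_e_eq_one_of_injective : ptl_e q K L = 1 := by
  haveI := ptl_finiteDimensional q K L
  have h1 : Nat.card (L ≃ₐ[K] L) ≤ ptl_f q K L := by
    rw [← ptl_card_galRes_target]
    exact Nat.card_le_card_of_injective _ hinj
  rw [IsGalois.card_aut_eq_finrank, ← ptl_e_mul_f q K L] at h1
  have hf := ptl_f_pos q K L
  have he := ptl_e_pos q K L
  nlinarith

theorem ptl_f_eq_finrank_of_injective : ptl_f q K L = Module.finrank K L := by
  rw [← ptl_e_mul_f q K L, ptl_e_eq_one_of_injective q K L hinj, one_mul]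

theorem ptl_galRes_bijective_of_injective : Function.Bijective (ptl_galRes q K L) := by
  haveI := ptl_finiteDimensional q K L
  apply hinj.bijective_of_nat_card_le
  rw [ptl_card_galRes_target, ptl_f_eq_finrank_of_injective q K L hinj,
    IsGalois.card_aut_eq_finrank]

end

section

variable (hinj : Function.Injective (ptl_galRes q K L))

/-- The Frobenius automorphism of an unramified Galois extension. -/
noncomputable def ptl_frob : L ≃ₐ[K] L :=
  Classical.choose ((ptl_galRes_bijective_of_injective q K L hinj).2 (ptl_frobRes q K L))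

theorem ptl_galRes_frob : ptl_galRes q K L (ptl_frob q K L hinj) = ptl_frobRes q K L :=
  Classical.choose_spec ((ptl_galRes_bijective_of_injective q K L hinj).2 (ptl_frobRes q K L))

/-- `φ x ≡ x ^ #k_K` modulo the maximal ideal, for integral `x`. -/
theorem ptl_frob_spec {x : L} (hx : ptl_abs q L x ≤ 1) :
    ptl_abs q L (ptl_frob q K L hinj x - x ^ Nat.card (ptl_k q K)) < 1 := by
  have h1 := congrArg (fun τ => τ (IsLocalRing.residue (ptl_O q L) ⟨x, hx⟩))
    (ptl_galRes_frob q K L hinj)
  simp only [ptl_galRes_residue, ptl_frobRes_apply] at h1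
  rw [← map_pow, ← sub_eq_zero, ← map_sub, IsLocalRing.residue_eq_zero_iff,
    ptl_mem_maximalIdeal] at h1
  exact h1

/-- Characterization of the Frobenius. -/
theorem ptl_eq_frob_of_spec {σ : L ≃ₐ[K] L}
    (hσ : ∀ x : L, ptl_abs q L x ≤ 1 → ptl_abs q L (σ x - x ^ Nat.card (ptl_k q K)) < 1) :
    σ = ptl_frob q K L hinj := by
  apply hinj
  rw [ptl_galRes_frob]
  ext a
  obtain ⟨x, rfl⟩ := IsLocalRing.residue_surjective a
  rw [ptl_galRes_residue, ptl_frobRes_apply, ← map_pow, ← sub_eq_zero, ← map_sub,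
    IsLocalRing.residue_eq_zero_iff, ptl_mem_maximalIdeal]
  exact hσ x x.2

theorem ptl_frob_generates (σ : L ≃ₐ[K] L) : σ ∈ Subgroup.zpowers (ptl_frob q K L hinj) := by
  obtain ⟨n, hn⟩ := ptl_frobRes_generates q K L (ptl_galRes q K L σ)
  refine ⟨n, hinj ?_⟩
  simp only at hn
  rw [map_zpow, ptl_galRes_frob]
  exact hn

theorem ptl_orderOf_frob : orderOf (ptl_frob q K L hinj) = Module.finrank K L := by
  rw [← ptl_f_eq_finrank_of_injective q K L hinj, ← ptl_orderOf_frobRes, ← ptl_galRes_frob q K L hinj]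
  exact (orderOf_injective _ hinj _).symm

include hinj in
theorem ptl_isCyclic_of_injective : IsCyclic (L ≃ₐ[K] L) :=
  ⟨⟨ptl_frob q K L hinj, fun σ => ptl_frob_generates q K L hinj σ⟩⟩

end

end Unr

section NormRes

variable (K L : Type*) [Field K] [Algebra ℚ_[q] K] [FiniteDimensional ℚ_[q] K]
  [Field L] [Algebra ℚ_[q] L] [FiniteDimensional ℚ_[q] L] [Algebra K L]
  [IsScalarTower ℚ_[q] K L]

variable {L} in
theorem ptl_abs_norm_le_one {x : L} (hx : ptl_abs q L x ≤ 1) :
    ptl_abs q K (Algebra.norm K x) ≤ 1 := by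
  rw [ptl_abs_norm]
  exact pow_le_one₀ ((ptl_abs q L).nonneg x) hx

variable {L} in
theorem ptl_abs_norm_eq_one {x : L} (hx : ptl_abs q L x = 1) :
    ptl_abs q K (Algebra.norm K x) = 1 := by
  rw [ptl_abs_norm, hx, one_pow]

variable [FiniteDimensional K L] [IsGalois K L]

variable {L} in
theorem ptl_abs_trace_le_one {x : L} (hx : ptl_abs q L x ≤ 1) :
    ptl_abs q K (Algebra.trace K L x) ≤ 1 := by
  rw [← ptl_abs_tower q (L := L), trace_eq_sum_automorphisms]
  exact ptl_abs_sum_le q _ _ zero_le_one fun σ _ => by rw [ptl_abs_galois]; exact hx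

/-- The norm of an integer, as an integer. -/
noncomputable def ptl_normO (x : ptl_O q L) : ptl_O q K :=
  ⟨Algebra.norm K (x : L), ptl_abs_norm_le_one q K x.2⟩

/-- The trace of an integer, as an integer. -/
noncomputable def ptl_traceO (x : ptl_O q L) : ptl_O q K :=
  ⟨Algebra.trace K L (x : L), ptl_abs_trace_le_one q K x.2⟩

theorem ptl_algebraMap_normO (x : ptl_O q L) :
    algebraMap (ptl_O q K) (ptl_O q L) (ptl_normO q K L x) = ∏ σ : L ≃ₐ[K] L, ptl_galO q σ x := by
  ext
  rw [ptl_coe_algebraMap_O]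
  simp only [ptl_normO]
  rw [Algebra.norm_eq_prod_automorphisms]
  rw [← ValuationSubring.coe_subtype, map_prod]
  rfl

theorem ptl_algebraMap_traceO (x : ptl_O q L) :
    algebraMap (ptl_O q K) (ptl_O q L) (ptl_traceO q K L x) = ∑ σ : L ≃ₐ[K] L, ptl_galO q σ x := by
  ext
  rw [ptl_coe_algebraMap_O]
  simp only [ptl_traceO]
  rw [trace_eq_sum_automorphisms]
  rw [← ValuationSubring.coe_subtype, map_sum]
  rfl

variable (hinj : Function.Injective (ptl_galRes q K L))
include hinj

/-- Reduction of the norm is the norm of the reduction (unramified Galois case). -/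
theorem ptl_residue_normO (x : ptl_O q L) :
    IsLocalRing.residue (ptl_O q K) (ptl_normO q K L x) =
      Algebra.norm (ptl_k q K) (IsLocalRing.residue (ptl_O q L) x) := by
  apply (algebraMap (ptl_k q K) (ptl_k q L)).injective
  rw [ptl_algebraMap_k_residue, ptl_algebraMap_normO, map_prod,
    Algebra.norm_eq_prod_automorphisms]
  rw [← (ptl_galRes_bijective_of_injective q K L hinj).prod_comp]
  rfl

/-- Reduction of the trace is the trace of the reduction (unramified Galois case). -/
theorem ptl_residue_traceO (x : ptl_O q L) :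
    IsLocalRing.residue (ptl_O q K) (ptl_traceO q K L x) =
      Algebra.trace (ptl_k q K) (ptl_k q L) (IsLocalRing.residue (ptl_O q L) x) := by
  apply (algebraMap (ptl_k q K) (ptl_k q L)).injective
  rw [ptl_algebraMap_k_residue, ptl_algebraMap_traceO, map_sum,
    trace_eq_sum_automorphisms]
  rw [← (ptl_galRes_bijective_of_injective q K L hinj).sum_comp]
  rfl

end NormRes

end Fermat.Agent.Lib.PT
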