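/-
  Local toolkit for S55 (Poitou–Tate), part L1c: the norm of an unramified Galois extension
  `L / K` of finite extensions of `ℚ_[q]` is surjective on units (successive approximation:
  norm/trace of the residue fields are onto, `N(1 + π^m x) ≡ 1 + π^m Tr x`, completeness);
  the norm group is `{x | [L:K] ∣ v_K x}`; Hilbert 90 for units.
  Owner: helper6.  Prefix `ptl_`.
-/
import Fermat.Agent.Lib.PT.LocUnr

set_option autoImplicit false

namespace Fermat.Agent.Lib.PT

variable (q : ℕ) [Fact q.Prime]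

section Prod

variable {L : Type*} [Field L] [Algebra ℚ_[q] L] [Algebra.IsAlgebraic ℚ_[q] L] {ι : Type*}

theorem ptl_abs_prod_le_one (s : Finset ι) (f : ι → L) (h : ∀ i ∈ s, ptl_abs q L (f i) ≤ 1) :
    ptl_abs q L (∏ i ∈ s, f i) ≤ 1 := by
  rw [map_prod]
  exact Finset.prod_le_one (fun i _ => (ptl_abs q L).nonneg _) h

/-- Congruent factors (of absolute value `≤ 1`) give congruent products. -/
theorem ptl_abs_prod_sub_prod_le (s : Finset ι) (f g : ι → L) {ε : ℝ} (hε : 0 ≤ ε)
    (hf : ∀ i ∈ s, ptl_abs q L (f i) ≤ 1) (hg : ∀ i ∈ s, ptl_abs q L (g i) ≤ 1)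
    (h : ∀ i ∈ s, ptl_abs q L (f i - g i) ≤ ε) :
    ptl_abs q L (∏ i ∈ s, f i - ∏ i ∈ s, g i) ≤ ε := by
  classical
  induction s using Finset.induction_on with
  | empty => simpa using hε
  | insert a s ha ih =>
    rw [Finset.prod_insert ha, Finset.prod_insert ha]
    have e : f a * ∏ i ∈ s, f i - g a * ∏ i ∈ s, g i =
        (f a - g a) * ∏ i ∈ s, f i + g a * (∏ i ∈ s, f i - ∏ i ∈ s, g i) := by ring
    rw [e]
    refine (ptl_abs_add_le_max q _ _).trans (max_le ?_ ?_)
    · rw [map_mul]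
      calc ptl_abs q L (f a - g a) * ptl_abs q L (∏ i ∈ s, f i)
          ≤ ε * 1 := mul_le_mul (h a (Finset.mem_insert_self a s))
            (ptl_abs_prod_le_one q s f fun i hi => hf i (Finset.mem_insert_of_mem hi))
            ((ptl_abs q L).nonneg _) hε
        _ = ε := mul_one ε
    · rw [map_mul]
      calc ptl_abs q L (g a) * ptl_abs q L (∏ i ∈ s, f i - ∏ i ∈ s, g i)
          ≤ 1 * ε := mul_le_mul (hg a (Finset.mem_insert_self a s))
            (ih (fun i hi => hf i (Finset.mem_insert_of_mem hi))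
              (fun i hi => hg i (Finset.mem_insert_of_mem hi))
              (fun i hi => h i (Finset.mem_insert_of_mem hi)))
            ((ptl_abs q L).nonneg _) zero_le_one
        _ = ε := one_mul ε

/-- `∏ (1 + f i) ≡ 1 + ∑ f i` modulo `ε ^ 2` when all `|f i| ≤ ε ≤ 1`. -/
theorem ptl_abs_prod_one_add_sub (s : Finset ι) (f : ι → L) {ε : ℝ} (hε : 0 ≤ ε) (hε1 : ε ≤ 1)
    (h : ∀ i ∈ s, ptl_abs q L (f i) ≤ ε) :
    ptl_abs q L (∏ i ∈ s, (1 + f i) - 1 - ∑ i ∈ s, f i) ≤ ε ^ 2 := by
  classical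
  induction s using Finset.induction_on with
  | empty => simpa using pow_nonneg hε 2
  | insert a s ha ih =>
    rw [Finset.prod_insert ha, Finset.sum_insert ha]
    have h1 := ih (fun i hi => h i (Finset.mem_insert_of_mem hi))
    have h2 : ptl_abs q L (f a) ≤ ε := h a (Finset.mem_insert_self a s)
    have h3 : ptl_abs q L (∑ i ∈ s, f i) ≤ ε :=
      ptl_abs_sum_le q _ _ hε fun i hi => h i (Finset.mem_insert_of_mem hi)
    have e : (1 + f a) * ∏ i ∈ s, (1 + f i) - 1 - (f a + ∑ i ∈ s, f i) =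
        (1 + f a) * (∏ i ∈ s, (1 + f i) - 1 - ∑ i ∈ s, f i) + f a * ∑ i ∈ s, f i := by ring
    rw [e]
    have h4 : ptl_abs q L (1 + f a) ≤ 1 :=
      (ptl_abs_add_le_max q _ _).trans (max_le (by simp) (h2.trans hε1))
    refine (ptl_abs_add_le_max q _ _).trans (max_le ?_ ?_)
    · rw [map_mul]
      calc ptl_abs q L (1 + f a) * ptl_abs q L (∏ i ∈ s, (1 + f i) - 1 - ∑ i ∈ s, f i)
          ≤ 1 * ε ^ 2 := mul_le_mul h4 h1 ((ptl_abs q L).nonneg _) zero_le_one
        _ = ε ^ 2 := one_mul _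
    · rw [map_mul, pow_two]
      exact mul_le_mul h2 h3 ((ptl_abs q L).nonneg _) hε

end Prod

section NormSurj

variable (K L : Type*) [Field K] [Algebra ℚ_[q] K] [FiniteDimensional ℚ_[q] K]
  [Field L] [Algebra ℚ_[q] L] [FiniteDimensional ℚ_[q] L] [Algebra K L]
  [IsScalarTower ℚ_[q] K L] [FiniteDimensional K L] [IsGalois K L]
  (hinj : Function.Injective (ptl_galRes q K L))

include hinj

/-- Residue level: every unit of `K` is a norm modulo the maximal ideal. -/
theorem ptl_norm_approx_zero {a : K} (ha : ptl_abs q K a = 1) :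
    ∃ y : L, ptl_abs q L y = 1 ∧ ptl_abs q K (a - Algebra.norm K y) < 1 := by
  obtain ⟨b, hb⟩ := FiniteField.norm_surjective (ptl_k q K) (ptl_k q L)
    (IsLocalRing.residue (ptl_O q K) ⟨a, ha.le⟩)
  obtain ⟨y, rfl⟩ := IsLocalRing.residue_surjective b
  rw [← ptl_residue_normO q K L hinj] at hb
  refine ⟨y, ?_, ?_⟩
  · -- `y` is a unit since its norm is one modulo the maximal ideal
    by_contra hy
    have hy' : ptl_abs q L (y : L) < 1 := lt_of_le_of_ne y.2 hy
    have h1 : ptl_abs q K (Algebra.norm K (y : L)) < 1 := by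
      rw [ptl_abs_norm]
      exact pow_lt_one₀ ((ptl_abs q L).nonneg _) hy' Module.finrank_pos.ne'
    have h2 : ptl_normO q K L y ∈ IsLocalRing.maximalIdeal (ptl_O q K) :=
      (ptl_mem_maximalIdeal q _).mpr h1
    rw [← IsLocalRing.residue_eq_zero_iff, hb, IsLocalRing.residue_eq_zero_iff,
      ptl_mem_maximalIdeal] at h2
    exact absurd ha h2.ne
  · have h3 := hb
    rw [← sub_eq_zero, ← map_sub, IsLocalRing.residue_eq_zero_iff, ptl_mem_maximalIdeal] at h3
    rw [← ptl_abs_neg, neg_sub]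
    exact h3

/-- Lifting step: `b ≡ 1 mod π^m` (`m ≥ 1`) is a norm modulo `π^(m+1)`. -/
theorem ptl_norm_approx_step {m : ℕ} (hm : 1 ≤ m) {b : K}
    (hb : ptl_abs q K (b - 1) ≤ ptl_abs q K (ptl_unif q K) ^ m) :
    ∃ y : L, ptl_abs q L (y - 1) ≤ ptl_abs q K (ptl_unif q K) ^ m ∧
      ptl_abs q K (b - Algebra.norm K y) ≤ ptl_abs q K (ptl_unif q K) ^ (m + 1) := by
  set π := ptl_unif q K with hπ
  set r := ptl_abs q K π with hr
  have hr0 : 0 < r := ptl_unif_pos q K
  have hr1 : r < 1 := ptl_unif_lt_one q K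
  have hπ0 : π ≠ 0 := ptl_unif_ne_zero q K
  -- `b = 1 + π^m c`
  set c : K := (b - 1) / π ^ m with hc
  have hcO : ptl_abs q K c ≤ 1 := by
    rw [hc, map_div₀, map_pow]
    exact div_le_one_of_le₀ hb (pow_nonneg hr0.le m)
  have hbc : b = 1 + π ^ m * c := by
    rw [hc]; field_simp; ring
  -- choose `x` with `Tr x ≡ c`
  haveI : Algebra.IsSeparable (ptl_k q K) (ptl_k q L) := inferInstance
  obtain ⟨xbar, hxbar⟩ := Algebra.trace_surjective (ptl_k q K) (ptl_k q L)
    (IsLocalRing.residue (ptl_O q K) ⟨c, hcO⟩)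
  obtain ⟨x, rfl⟩ := IsLocalRing.residue_surjective xbar
  rw [← ptl_residue_traceO q K L hinj] at hxbar
  have htr : ptl_abs q K (Algebra.trace K L (x : L) - c) < 1 := by
    have h3 := hxbar
    rw [← sub_eq_zero, ← map_sub, IsLocalRing.residue_eq_zero_iff, ptl_mem_maximalIdeal] at h3
    exact h3
  have htr' : ptl_abs q K (Algebra.trace K L (x : L) - c) ≤ r := ptl_abs_le_unif q htr
  -- the candidate
  set πL : L := algebraMap K L π with hπL
  have hπLabs : ptl_abs q L πL = r := ptl_abs_tower q π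
  refine ⟨1 + πL ^ m * (x : L), ?_, ?_⟩
  · rw [add_sub_cancel_left, map_mul, map_pow, hπLabs]
    exact mul_le_of_le_one_right (pow_nonneg hr0.le m) x.2
  · -- `N(1 + π^m x) ≡ 1 + π^m Tr x mod π^(2m)`
    have hN : algebraMap K L (Algebra.norm K (1 + πL ^ m * (x : L))) =
        ∏ σ : L ≃ₐ[K] L, (1 + πL ^ m * σ (x : L)) := by
      rw [Algebra.norm_eq_prod_automorphisms]
      refine Finset.prod_congr rfl fun σ _ => ?_
      rw [map_add, map_one, map_mul, map_pow, hπL, AlgEquiv.commutes]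
    have hT : algebraMap K L (π ^ m * Algebra.trace K L (x : L)) =
        ∑ σ : L ≃ₐ[K] L, πL ^ m * σ (x : L) := by
      rw [map_mul, map_pow, trace_eq_sum_automorphisms, Finset.mul_sum]
    have h1 := ptl_abs_prod_one_add_sub q (Finset.univ : Finset (L ≃ₐ[K] L))
      (fun σ => πL ^ m * σ (x : L)) (pow_nonneg hr0.le m) (pow_le_one₀ hr0.le hr1.le)
      (fun σ _ => by
        rw [map_mul, map_pow, hπLabs, ptl_abs_galois]
        exact mul_le_of_le_one_right (pow_nonneg hr0.le m) x.2)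
    have e2 : ∏ σ : L ≃ₐ[K] L, (1 + πL ^ m * σ (x : L)) - 1 - ∑ σ : L ≃ₐ[K] L, πL ^ m * σ (x : L) =
        algebraMap K L (Algebra.norm K (1 + πL ^ m * (x : L)) - 1 -
          π ^ m * Algebra.trace K L (x : L)) := by
      rw [map_sub, map_sub, map_one, hN, hT]
    rw [e2, ptl_abs_tower] at h1
    have h2 : (r ^ m) ^ 2 ≤ r ^ (m + 1) := by
      rw [← pow_mul]
      exact pow_le_pow_of_le_one hr0.le hr1.le (by omega)
    have h3 : ptl_abs q K (π ^ m * (Algebra.trace K L (x : L) - c)) ≤ r ^ (m + 1) := by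
      rw [map_mul, map_pow, pow_succ]
      exact mul_le_mul_of_nonneg_left htr' (pow_nonneg hr0.le m)
    have e : b - Algebra.norm K (1 + πL ^ m * (x : L)) =
        -(Algebra.norm K (1 + πL ^ m * (x : L)) - 1 - π ^ m * Algebra.trace K L (x : L)) -
          π ^ m * (Algebra.trace K L (x : L) - c) := by
      rw [hbc]; ring
    rw [e]
    refine (ptl_abs_sub_le_max q _ _).trans (max_le ?_ h3)
    rw [ptl_abs_neg]
    exact h1.trans h2

end NormSurj

section NormSurj2

variable (K L : Type*) [Field K] [Algebra ℚ_[q] K] [FiniteDimensional ℚ_[q] K]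
  [Field L] [Algebra ℚ_[q] L] [FiniteDimensional ℚ_[q] L] [Algebra K L]
  [IsScalarTower ℚ_[q] K L] [FiniteDimensional K L] [IsGalois K L]
  (hinj : Function.Injective (ptl_galRes q K L))

include hinj

/-- One step of the successive approximation, in multiplicative form. -/
theorem ptl_norm_improve {a : K} (M : ℕ) {u : L} (hu : ptl_abs q L u = 1)
    (hau : ptl_abs q K (a - Algebra.norm K u) ≤ ptl_abs q K (ptl_unif q K) ^ (M + 1)) :
    ∃ u' : L, ptl_abs q L u' = 1 ∧
      ptl_abs q K (a - Algebra.norm K u') ≤ ptl_abs q K (ptl_unif q K) ^ (M + 2) ∧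
      ptl_abs q L (u' - u) ≤ ptl_abs q K (ptl_unif q K) ^ (M + 1) := by
  set r := ptl_abs q K (ptl_unif q K) with hr
  have hr0 : 0 < r := ptl_unif_pos q K
  have hr1 : r < 1 := ptl_unif_lt_one q K
  have hNu : ptl_abs q K (Algebra.norm K u) = 1 := ptl_abs_norm_eq_one q K hu
  have hNu0 : Algebra.norm K u ≠ 0 := by
    intro h0; rw [h0, map_zero] at hNu; exact zero_ne_one hNu
  set b : K := a / Algebra.norm K u with hb
  have hb1 : ptl_abs q K (b - 1) ≤ r ^ (M + 1) := by
    have : b - 1 = (a - Algebra.norm K u) / Algebra.norm K u := by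
      rw [hb]; field_simp
    rw [this, map_div₀, hNu, div_one]
    exact hau
  obtain ⟨y, hy1, hy2⟩ := ptl_norm_approx_step q K L hinj (Nat.succ_le_succ (Nat.zero_le M)) hb1
  have hyabs : ptl_abs q L y = 1 := by
    have h1 : ptl_abs q L (y - 1) < 1 :=
      hy1.trans_lt (pow_lt_one₀ hr0.le hr1 (Nat.succ_ne_zero M))
    have : ptl_abs q L (1 - y) < ptl_abs q L (1 : L) := by
      rw [map_one, ← ptl_abs_neg, neg_sub]; exact h1
    rw [ptl_abs_eq_of_sub_lt q this, map_one]
  refine ⟨u * y, by rw [map_mul, hu, hyabs, mul_one], ?_, ?_⟩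
  · have e : a - Algebra.norm K (u * y) = Algebra.norm K u * (b - Algebra.norm K y) := by
      rw [map_mul, hb]; field_simp
    rw [e, map_mul, hNu, one_mul]
    exact hy2
  · have e : u * y - u = u * (y - 1) := by ring
    rw [e, map_mul, hu, one_mul]
    exact hy1

/-- **Surjectivity of the norm on units** for an unramified Galois extension. -/
theorem ptl_norm_surjective_units {a : K} (ha : ptl_abs q K a = 1) :
    ∃ u : L, ptl_abs q L u = 1 ∧ Algebra.norm K u = a := by
  classical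
  set r := ptl_abs q K (ptl_unif q K) with hr
  have hr0 : 0 < r := ptl_unif_pos q K
  have hr1 : r < 1 := ptl_unif_lt_one q K
  obtain ⟨u0, hu0, hau0⟩ := ptl_norm_approx_zero q K L hinj ha
  have hau0' : ptl_abs q K (a - Algebra.norm K u0) ≤ r ^ (0 + 1) := by
    rw [zero_add, pow_one]; exact ptl_abs_le_unif q hau0
  -- the step function
  let P : ℕ → L → Prop := fun M u =>
    ptl_abs q L u = 1 ∧ ptl_abs q K (a - Algebra.norm K u) ≤ r ^ (M + 1)
  let step : ℕ → L → L := fun M u =>
    if h : P M u then Classical.choose (ptl_norm_improve q K L hinj M h.1 h.2) else u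
  let seq : ℕ → L := fun M => Nat.rec u0 (fun M u => step M u) M
  have hseq_succ : ∀ M, seq (M + 1) = step M (seq M) := fun M => rfl
  have hP : ∀ M, P M (seq M) := by
    intro M
    induction M with
    | zero => exact ⟨hu0, hau0'⟩
    | succ M ih =>
      rw [hseq_succ]
      simp only [step, dif_pos ih]
      have := Classical.choose_spec (ptl_norm_improve q K L hinj M ih.1 ih.2)
      exact ⟨this.1, this.2.1⟩
  have hdiff : ∀ M, ptl_abs q L (seq (M + 1) - seq M) ≤ r * r ^ M := by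
    intro M
    rw [hseq_succ]
    simp only [step, dif_pos (hP M)]
    have := Classical.choose_spec (ptl_norm_improve q K L hinj M (hP M).1 (hP M).2)
    rw [← pow_succ']
    exact this.2.2
  obtain ⟨u, hu⟩ := ptl_exists_limit q L seq r r hr0.le hr0.le hr1 hdiff
  have hu1 : ptl_abs q L u = 1 := by
    have h0 := hu 0
    rw [pow_zero, mul_one] at h0
    have : ptl_abs q L (seq 0 - u) < ptl_abs q L (seq 0) := by
      rw [← ptl_abs_neg, neg_sub, (hP 0).1]
      exact h0.trans_lt hr1
    rw [ptl_abs_eq_of_sub_lt q this, (hP 0).1]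
  refine ⟨u, hu1, ?_⟩
  -- `|a - N u| ≤ r^(M+1)` for all `M`
  have hbound : ∀ M, ptl_abs q K (a - Algebra.norm K u) ≤ r ^ (M + 1) := by
    intro M
    have e : a - Algebra.norm K u =
        (a - Algebra.norm K (seq M)) + (Algebra.norm K (seq M) - Algebra.norm K u) := by ring
    rw [e]
    refine (ptl_abs_add_le_max q _ _).trans (max_le (hP M).2 ?_)
    rw [← ptl_abs_tower q (L := L), map_sub, Algebra.norm_eq_prod_automorphisms,
      Algebra.norm_eq_prod_automorphisms]
    apply ptl_abs_prod_sub_prod_le q _ _ _ (pow_nonneg hr0.le _)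
    · intro σ _; rw [ptl_abs_galois, (hP M).1]
    · intro σ _; rw [ptl_abs_galois, hu1]
    · intro σ _
      rw [← map_sub, ptl_abs_galois, ← ptl_abs_neg, neg_sub, pow_succ']
      exact hu M
  by_contra hne
  have hpos : 0 < ptl_abs q K (a - Algebra.norm K u) :=
    (ptl_abs q K).pos (sub_ne_zero.mpr (Ne.symm hne))
  obtain ⟨M, hM⟩ := exists_pow_lt_of_lt_one hpos hr1
  have := hbound M
  have h2 : r ^ (M + 1) ≤ r ^ M := pow_le_pow_of_le_one hr0.le hr1.le (Nat.le_succ M)
  linarith

end NormSurj2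

section NormGroup

variable (K L : Type*) [Field K] [Algebra ℚ_[q] K] [FiniteDimensional ℚ_[q] K]
  [Field L] [Algebra ℚ_[q] L] [FiniteDimensional ℚ_[q] L] [Algebra K L]
  [IsScalarTower ℚ_[q] K L] [FiniteDimensional K L] [IsGalois K L]
  (hinj : Function.Injective (ptl_galRes q K L))

include hinj

/-- **The norm group of an unramified extension**: a nonzero `x : K` is a norm from `L` iff
`[L : K]` divides its valuation. -/
theorem ptl_mem_norm_range_iff {x : K} (hx : x ≠ 0) :
    (∃ y : L, Algebra.norm K y = x) ↔ (Module.finrank K L : ℤ) ∣ ptl_ordZ q K x := by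
  constructor
  · rintro ⟨y, rfl⟩
    rw [ptl_ordZ_norm, ptl_f_eq_finrank_of_injective q K L hinj]
    exact dvd_mul_right _ _
  · rintro ⟨k, hk⟩
    obtain ⟨u, hu1, hxu⟩ := ptl_exists_unit_mul q hx
    obtain ⟨w, -, hw⟩ := ptl_norm_surjective_units q K L hinj hu1
    refine ⟨algebraMap K L (ptl_unif q K ^ k) * w, ?_⟩
    rw [map_mul, Algebra.norm_algebraMap, hw, ← zpow_natCast, ← zpow_mul, mul_comm k, ← hk]
    exact hxu.symm

end NormGroup

section H90

variable (K L : Type) [Field K] [Algebra ℚ_[q] K] [FiniteDimensional ℚ_[q] K]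
  [Field L] [Algebra ℚ_[q] L] [FiniteDimensional ℚ_[q] L] [Algebra K L]
  [IsScalarTower ℚ_[q] K L] [FiniteDimensional K L] [IsGalois K L]
  (hinj : Function.Injective (ptl_galRes q K L))

/-- Hilbert 90 for the units of an unramified extension: a unit of norm `1` is of the form
`w / φ w` with `w` a unit (`φ` the Frobenius).  (Universe `0` only, as Mathlib's cyclic
Hilbert 90.) -/
theorem ptl_hilbert90_units {u : L} (hu : Algebra.norm K u = 1) :
    ∃ w : L, ptl_abs q L w = 1 ∧ w / ptl_frob q K L hinj w = u := by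
  haveI := ptl_isCyclic_of_injective q K L hinj
  obtain ⟨y, hy⟩ := groupCohomology.exists_div_of_norm_eq_one
    (g := ptl_frob q K L hinj) (ptl_frob_generates q K L hinj) hu
  -- write `y = π^k * w`
  have hy0 : (y : L) ≠ 0 := y.ne_zero
  have he1 := ptl_e_eq_one_of_injective q K L hinj
  set πL : L := algebraMap K L (ptl_unif q K) with hπL
  have hπL0 : πL ≠ 0 := by
    rw [hπL, Ne, map_eq_zero]; exact ptl_unif_ne_zero q K
  have hπLabs : ptl_abs q L πL = ptl_abs q L (ptl_unif q L) := by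
    rw [hπL, ptl_abs_tower, ptl_abs_unif_eq q K L, he1, pow_one]
  set k := ptl_ordZ q L (y : L) with hk
  refine ⟨(y : L) / πL ^ k, ?_, ?_⟩
  · rw [map_div₀, map_zpow₀, hπLabs, ← ptl_abs_eq_zpow q hy0]
    exact div_self ((ptl_abs q L).pos hy0).ne'
  · rw [map_div₀, map_zpow₀, hπL, AlgEquiv.commutes, ← hπL]
    rw [div_div_div_cancel_right₀ (zpow_ne_zero k hπL0)]
    exact hy

end H90


end Fermat.Agent.Lib.PT
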