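/-
  Local toolkit for S55 (Poitou–Tate), part L1d: the unramified extensions generated by roots
  of unity of order prime to `q`: faithful action on the residue field, the Frobenius on roots of
  unity, and `[K(ζ) : K] = n` for `ζ` a primitive `(#k_K ^ n - 1)`-th root of unity.
  Owner: helper6.  Prefix `ptl_`.
-/
import Fermat.Agent.Lib.PT.LocUnrNorm

set_option autoImplicit false

namespace Fermat.Agent.Lib.PT

variable (q : ℕ) [Fact q.Prime]

section ResChar

variable (K : Type*) [Field K] [Algebra ℚ_[q] K] [FiniteDimensional ℚ_[q] K]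

instance ptl_charP_k : CharP (ptl_k q K) q := by
  have h0 : ((q : ℕ) : ptl_k q K) = 0 := by
    have h1 : ((q : ℕ) : ptl_k q K) = IsLocalRing.residue (ptl_O q K) ((q : ℕ) : ptl_O q K) := by
      rw [map_natCast]
    rw [h1, IsLocalRing.residue_eq_zero_iff, ptl_mem_maximalIdeal]
    have : (((q : ℕ) : ptl_O q K) : K) = (q : K) := by simp
    rw [this]
    exact ptl_abs_q_lt_one q
  exact (CharP.charP_iff_prime_eq_zero (Fact.out : q.Prime)).mpr h0

/-- The residue field has `q ^ j` elements for some `j ≥ 1`. -/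
theorem ptl_card_k : ∃ j : ℕ, 0 < j ∧ Nat.card (ptl_k q K) = q ^ j := by
  letI := Fintype.ofFinite (ptl_k q K)
  obtain ⟨j, hj⟩ := FiniteField.card (ptl_k q K) q
  exact ⟨j, j.pos, by rw [Nat.card_eq_fintype_card]; exact hj.2⟩

theorem ptl_one_lt_card_k : 1 < Nat.card (ptl_k q K) := Finite.one_lt_card

/-- `#k ^ n - 1` is prime to `q`. -/
theorem ptl_coprime_card_pow_sub_one {n : ℕ} (hn : 0 < n) :
    Nat.Coprime (Nat.card (ptl_k q K) ^ n - 1) q := by
  obtain ⟨j, hj, hN⟩ := ptl_card_k q K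
  rw [hN, ← pow_mul]
  have hq : q.Prime := Fact.out
  have hpos : 0 < q ^ (j * n) := pow_pos hq.pos _
  rw [Nat.coprime_comm, hq.coprime_iff_not_dvd]
  intro hdvd
  have h1 : q ∣ q ^ (j * n) := dvd_pow_self q (Nat.mul_pos hj hn).ne'
  have h2 : q ∣ q ^ (j * n) - (q ^ (j * n) - 1) := Nat.dvd_sub h1 hdvd
  rw [Nat.sub_sub_self hpos] at h2
  exact hq.one_lt.ne' (Nat.dvd_one.mp h2)

end ResChar

section Cyc

variable (K L : Type*) [Field K] [Algebra ℚ_[q] K] [FiniteDimensional ℚ_[q] K]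
  [Field L] [Algebra ℚ_[q] L] [FiniteDimensional ℚ_[q] L] [Algebra K L]
  [IsScalarTower ℚ_[q] K L]

/-- If `L` is generated over `K` by roots of unity of order prime to `q`, the Galois group acts
faithfully on the residue field. -/
theorem ptl_galRes_injective_of_roots {m : ℕ} (hm : Nat.Coprime m q) (S : Set L)
    (hS : ∀ ζ ∈ S, ζ ^ m = 1) (hgen : Algebra.adjoin K S = ⊤) :
    Function.Injective (ptl_galRes q K L) := by
  rw [injective_iff_map_eq_one]
  intro σ hσ
  have hm0 : m ≠ 0 := by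
    rintro rfl
    rw [Nat.coprime_zero_left] at hm
    exact (Fact.out : q.Prime).one_lt.ne' hm
  have key : ∀ ζ ∈ S, σ ζ = ζ := by
    intro ζ hζ
    have hζ1 : ptl_abs q L ζ = 1 := ptl_abs_of_pow_eq_one q hm0 (hS ζ hζ)
    have h1 := congrArg (fun τ => τ (IsLocalRing.residue (ptl_O q L) ⟨ζ, hζ1.le⟩)) hσ
    simp only [ptl_galRes_residue, AlgEquiv.one_apply] at h1
    rw [← sub_eq_zero, ← map_sub, IsLocalRing.residue_eq_zero_iff, ptl_mem_maximalIdeal] at h1
    have h2 : ptl_abs q L (σ ζ - ζ) < 1 := h1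
    exact ptl_eq_of_pow_eq_one_of_abs_sub_lt q hm (by rw [← map_pow, hS ζ hζ, map_one])
      (hS ζ hζ) h2
  have : (σ : L →ₐ[K] L) = AlgHom.id K L :=
    AlgHom.ext_of_adjoin_eq_top hgen fun ζ hζ => key ζ hζ
  ext x
  exact DFunLike.congr_fun this x

variable [FiniteDimensional K L] [IsGalois K L] (hinj : Function.Injective (ptl_galRes q K L))

/-- The Frobenius raises roots of unity of order prime to `q` to the power `#k_K`. -/
theorem ptl_frob_root {ζ : L} {m : ℕ} (hm : Nat.Coprime m q) (hζ : ζ ^ m = 1) :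
    ptl_frob q K L hinj ζ = ζ ^ Nat.card (ptl_k q K) := by
  have hm0 : m ≠ 0 := by
    rintro rfl
    rw [Nat.coprime_zero_left] at hm
    exact (Fact.out : q.Prime).one_lt.ne' hm
  have hζ1 : ptl_abs q L ζ = 1 := ptl_abs_of_pow_eq_one q hm0 hζ
  apply ptl_eq_of_pow_eq_one_of_abs_sub_lt q hm
  · rw [← map_pow, hζ, map_one]
  · rw [← pow_mul, mul_comm, pow_mul, hζ, one_pow]
  · exact ptl_frob_spec q K L hinj hζ1.le

theorem ptl_frob_pow_root {ζ : L} {m : ℕ} (hm : Nat.Coprime m q) (hζ : ζ ^ m = 1) (i : ℕ) :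
    (ptl_frob q K L hinj ^ i) ζ = ζ ^ (Nat.card (ptl_k q K) ^ i) := by
  induction i with
  | zero => simp
  | succ i ih =>
    rw [pow_succ', AlgEquiv.mul_apply, ih, map_pow, ptl_frob_root q K L hinj hm hζ, ← pow_mul,
      pow_succ']

/-- The degree of `K(ζ) / K` for `ζ` a primitive `(#k_K ^ n - 1)`-th root of unity is `n`. -/
theorem ptl_finrank_of_primitiveRoot {ζ : L} {n : ℕ} (hn : 0 < n)
    (hζ : IsPrimitiveRoot ζ (Nat.card (ptl_k q K) ^ n - 1)) (hgen : Algebra.adjoin K {ζ} = ⊤) :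
    Module.finrank K L = n := by
  set N := Nat.card (ptl_k q K) with hN
  have hN1 : 1 < N := ptl_one_lt_card_k q K
  have hcop := ptl_coprime_card_pow_sub_one q K hn
  have hpow : ζ ^ (N ^ n - 1) = 1 := hζ.pow_eq_one
  have hNn : 1 ≤ N ^ n := Nat.one_le_pow _ _ (by omega)
  have hNn2 : 2 ≤ N ^ n := by
    calc 2 ≤ N := hN1
      _ = N ^ 1 := (pow_one N).symm
      _ ≤ N ^ n := Nat.pow_le_pow_right (by omega) hn
  have hinj : Function.Injective (ptl_galRes q K L) :=
    ptl_galRes_injective_of_roots q K L hcop {ζ}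
      (fun x hx => by rw [Set.mem_singleton_iff] at hx; rw [hx]; exact hpow) hgen
  set φ := ptl_frob q K L hinj with hφ
  -- `φ ^ n = 1`
  have h1 : φ ^ n = 1 := by
    have hfix : (φ ^ n) ζ = ζ := by
      rw [ptl_frob_pow_root q K L hinj hcop hpow]
      have : N ^ n = (N ^ n - 1) + 1 := by omega
      rw [this, pow_succ, hpow, one_mul]
    have : ((φ ^ n : L ≃ₐ[K] L) : L →ₐ[K] L) = AlgHom.id K L :=
      AlgHom.ext_of_adjoin_eq_top hgen fun x hx => by
        rw [Set.mem_singleton_iff] at hx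
        subst hx
        exact hfix
    ext x
    exact DFunLike.congr_fun this x
  have h2 : Module.finrank K L ∣ n := by
    rw [← ptl_orderOf_frob q K L hinj]
    exact orderOf_dvd_of_pow_eq_one h1
  -- conversely `n ≤ d`
  set d := Module.finrank K L with hd
  have hd0 : 0 < d := Module.finrank_pos
  have h3 : φ ^ d = 1 := by
    rw [hd, ← ptl_orderOf_frob q K L hinj]
    exact pow_orderOf_eq_one φ
  have h4 : ζ ^ (N ^ d) = ζ := by
    rw [← ptl_frob_pow_root q K L hinj hcop hpow, h3, AlgEquiv.one_apply]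
  have hNd : 1 ≤ N ^ d := Nat.one_le_pow _ _ (by omega)
  have h5 : ζ ^ (N ^ d - 1) = 1 := by
    have hζ0 : ζ ≠ 0 := hζ.ne_zero (by omega)
    have : ζ ^ (N ^ d - 1) * ζ = 1 * ζ := by
      rw [← pow_succ, Nat.sub_add_cancel hNd, h4, one_mul]
    exact mul_right_cancel₀ hζ0 this
  have h6 : N ^ n - 1 ∣ N ^ d - 1 := hζ.dvd_of_pow_eq_one _ h5
  have hNd2 : 2 ≤ N ^ d := by
    calc 2 ≤ N := hN1
      _ = N ^ 1 := (pow_one N).symm
      _ ≤ N ^ d := Nat.pow_le_pow_right (by omega) hd0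
  have h7 : N ^ n - 1 ≤ N ^ d - 1 := by
    apply Nat.le_of_dvd _ h6
    omega
  have h8 : N ^ n ≤ N ^ d := by omega
  have h9 : n ≤ d := (Nat.pow_le_pow_iff_right hN1).mp h8
  exact Nat.le_antisymm (Nat.le_of_dvd hn h2) h9

end Cyc

end Fermat.Agent.Lib.PT
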