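/-
  Local toolkit for S55 (Poitou–Tate), part L1e: towers.  `#k_{K'} = #k_K ^ f(K'/K)`;
  characterization of the powers of the Frobenius; the Frobenius of an unramified Galois
  extension `L'/K'` restricts on `L` (`L/K` unramified Galois, `K ⊆ K'`, `L ⊆ L'`) to
  `Frob_{L/K} ^ f(K'/K)`.
  Owner: helper6.  Prefix `ptl_`.
-/
import Fermat.Agent.Lib.PT.LocCyc

set_option autoImplicit false

namespace Fermat.Agent.Lib.PT

variable (q : ℕ) [Fact q.Prime]

section Card

variable (K K' : Type*) [Field K] [Algebra ℚ_[q] K] [FiniteDimensional ℚ_[q] K]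
  [Field K'] [Algebra ℚ_[q] K'] [FiniteDimensional ℚ_[q] K'] [Algebra K K']
  [IsScalarTower ℚ_[q] K K']

/-- `#k_{K'} = #k_K ^ f(K'/K)`. -/
theorem ptl_card_k_tower :
    Nat.card (ptl_k q K') = Nat.card (ptl_k q K) ^ ptl_f q K K' :=
  Module.natCard_eq_pow_finrank (K := ptl_k q K) (V := ptl_k q K')

end Card

section FrobPow

variable (K L : Type*) [Field K] [Algebra ℚ_[q] K] [FiniteDimensional ℚ_[q] K]
  [Field L] [Algebra ℚ_[q] L] [FiniteDimensional ℚ_[q] L] [Algebra K L]
  [IsScalarTower ℚ_[q] K L] [IsGalois K L] (hinj : Function.Injective (ptl_galRes q K L))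

theorem ptl_frob_pow_spec (j : ℕ) {x : L} (hx : ptl_abs q L x ≤ 1) :
    ptl_abs q L ((ptl_frob q K L hinj ^ j) x - x ^ (Nat.card (ptl_k q K) ^ j)) < 1 := by
  have h1 := congrArg (fun τ => (τ ^ j) (IsLocalRing.residue (ptl_O q L) ⟨x, hx⟩))
    (ptl_galRes_frob q K L hinj)
  simp only [← map_pow, ptl_galRes_residue] at h1
  have h2 : ∀ (j : ℕ) (a : ptl_k q L),
      (ptl_frobRes q K L ^ j) a = a ^ (Nat.card (ptl_k q K) ^ j) := by
    intro j
    induction j with
    | zero => intro a; simp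
    | succ j ih =>
      intro a
      rw [pow_succ', AlgEquiv.mul_apply, ih, ptl_frobRes_apply, ← pow_mul, pow_succ]
  rw [h2, ← map_pow, ← sub_eq_zero, ← map_sub, IsLocalRing.residue_eq_zero_iff,
    ptl_mem_maximalIdeal] at h1
  exact h1

/-- Characterization of the powers of the Frobenius. -/
theorem ptl_eq_frob_pow_of_spec {σ : L ≃ₐ[K] L} (j : ℕ)
    (hσ : ∀ x : L, ptl_abs q L x ≤ 1 →
      ptl_abs q L (σ x - x ^ (Nat.card (ptl_k q K) ^ j)) < 1) :
    σ = ptl_frob q K L hinj ^ j := by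
  apply hinj
  ext a
  obtain ⟨x, rfl⟩ := IsLocalRing.residue_surjective a
  rw [ptl_galRes_residue, ptl_galRes_residue, ← sub_eq_zero, ← map_sub,
    IsLocalRing.residue_eq_zero_iff, ptl_mem_maximalIdeal]
  have h1 := hσ x x.2
  have h2 := ptl_frob_pow_spec q K L hinj j x.2
  have e : ((ptl_galO q σ x - ptl_galO q (ptl_frob q K L hinj ^ j) x : ptl_O q L) : L) =
      (σ x - (x : L) ^ (Nat.card (ptl_k q K) ^ j)) -
        ((ptl_frob q K L hinj ^ j) x - (x : L) ^ (Nat.card (ptl_k q K) ^ j)) := by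
    simp
  rw [e]
  exact (ptl_abs_sub_le_max q _ _).trans_lt (max_lt h1 h2)

end FrobPow
section Tower

variable (K K' L L' : Type*) [Field K] [Field K'] [Field L] [Field L']
  [Algebra ℚ_[q] K] [FiniteDimensional ℚ_[q] K] [Algebra ℚ_[q] K'] [FiniteDimensional ℚ_[q] K']
  [Algebra ℚ_[q] L] [FiniteDimensional ℚ_[q] L] [Algebra ℚ_[q] L'] [FiniteDimensional ℚ_[q] L']
  [Algebra K K'] [Algebra K L] [Algebra K' L'] [Algebra L L'] [Algebra K L']
  [IsScalarTower ℚ_[q] K K'] [IsScalarTower ℚ_[q] K L] [IsScalarTower ℚ_[q] K' L']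
  [IsScalarTower ℚ_[q] L L'] [IsScalarTower K K' L'] [IsScalarTower K L L']
  [IsGalois K L] [IsGalois K' L']
  (hinj : Function.Injective (ptl_galRes q K L))
  (hinj' : Function.Injective (ptl_galRes q K' L'))

/-- **Frobenius in towers**: if `L/K` and `L'/K'` are unramified Galois with `K ⊆ K'`, `L ⊆ L'`,
then the Frobenius of `L'/K'` restricts on `L` to the `f(K'/K)`-th power of the Frobenius of
`L/K`. -/
theorem ptl_frob_tower (x : L) :
    ptl_frob q K' L' hinj' (algebraMap L L' x) =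
      algebraMap L L' ((ptl_frob q K L hinj ^ ptl_f q K K') x) := by
  set ψ : L ≃ₐ[K] L := ((ptl_frob q K' L' hinj').restrictScalars K).restrictNormal L with hψ
  have hψx : ∀ y : L, algebraMap L L' (ψ y) = ptl_frob q K' L' hinj' (algebraMap L L' y) :=
    fun y => AlgEquiv.restrictNormal_commutes _ L y
  have key : ψ = ptl_frob q K L hinj ^ ptl_f q K K' := by
    apply ptl_eq_frob_pow_of_spec
    intro y hy
    rw [← ptl_abs_tower q (K := L) (L := L'), map_sub, map_pow, hψx, ← ptl_card_k_tower]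
    apply ptl_frob_spec
    rw [ptl_abs_tower]
    exact hy
  rw [← hψx, key]

end Tower
end Fermat.Agent.Lib.PT
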