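/-
  Local toolkit for S55 (Poitou–Tate), part L1g: compositum with an unramified extension.
  `[K'(ζ_{#k_K^n - 1}) : K'] = n / gcd n f(K'/K)`; multiplicativity of `e` and `f` in towers;
  the cyclotomic subfields `ptl_cycField K Ω m` of an algebraically closed `Ω` (Galois, finite,
  unramified when `q ∤ m`, base change inclusion).
  Owner: helper6.  Prefix `ptl_`.
-/
import Fermat.Agent.Lib.PT.LocTower

set_option autoImplicit false

namespace Fermat.Agent.Lib.PT

variable (q : ℕ) [Fact q.Prime]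

theorem ptl_pow_sub_one_dvd_iff {N n k : ℕ} (hN : 2 ≤ N) (hn : 0 < n) :
    N ^ n - 1 ∣ N ^ k - 1 ↔ n ∣ k := by
  constructor
  · intro h
    have h1 := Nat.mod_eq_zero_of_dvd h
    rw [Nat.pow_sub_one_mod_pow_sub_one] at h1
    have h2 : N ^ (k % n) ≤ 1 := by omega
    have h3 : k % n = 0 := by
      by_contra hne
      have : N ^ 1 ≤ N ^ (k % n) := Nat.pow_le_pow_right (by omega) (Nat.pos_of_ne_zero hne)
      rw [pow_one] at this
      omega
    exact Nat.dvd_of_mod_eq_zero h3
  · intro h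
    exact Nat.pow_sub_one_dvd_pow_sub_one _ h

theorem ptl_dvd_mul_iff_div_gcd_dvd {n f j : ℕ} (hn : 0 < n) :
    n ∣ f * j ↔ n / Nat.gcd n f ∣ j := by
  set g := Nat.gcd n f with hg
  have hg0 : 0 < g := Nat.gcd_pos_of_pos_left f hn
  obtain ⟨n', hn'⟩ := Nat.gcd_dvd_left n f
  obtain ⟨f', hf'⟩ := Nat.gcd_dvd_right n f
  rw [← hg] at hn' hf'
  have hcop : Nat.Coprime n' f' := by
    have := Nat.coprime_div_gcd_div_gcd (m := n) (n := f) hg0
    rw [← hg] at this
    have e1 : n / g = n' := by rw [hn']; exact Nat.mul_div_cancel_left _ hg0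
    have e2 : f / g = f' := by rw [hf']; exact Nat.mul_div_cancel_left _ hg0
    rwa [e1, e2] at this
  have e1 : n / g = n' := by rw [hn']; exact Nat.mul_div_cancel_left _ hg0
  rw [e1]
  constructor
  · intro h
    rw [hn', hf', mul_assoc] at h
    have h2 : n' ∣ f' * j := (Nat.mul_dvd_mul_iff_left hg0).mp h
    exact hcop.dvd_of_dvd_mul_left h2
  · intro h
    rw [hn', hf', mul_assoc]
    exact Nat.mul_dvd_mul_left g (h.trans (Nat.dvd_mul_left _ _))

section Comp

variable (K K' L' : Type*) [Field K] [Algebra ℚ_[q] K] [FiniteDimensional ℚ_[q] K]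
  [Field K'] [Algebra ℚ_[q] K'] [FiniteDimensional ℚ_[q] K'] [Algebra K K']
  [IsScalarTower ℚ_[q] K K']
  [Field L'] [Algebra ℚ_[q] L'] [FiniteDimensional ℚ_[q] L'] [Algebra K' L']
  [IsScalarTower ℚ_[q] K' L'] [FiniteDimensional K' L'] [IsGalois K' L']

/-- **Degree of the compositum with an unramified extension**: if `K ⊆ K'` and `L' = K'(ζ)` with
`ζ` a primitive `(#k_K ^ n - 1)`-th root of unity, then `[L' : K'] = n / gcd n f(K'/K)`. -/
theorem ptl_finrank_of_primitiveRoot_tower {ζ : L'} {n : ℕ} (hn : 0 < n)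
    (hζ : IsPrimitiveRoot ζ (Nat.card (ptl_k q K) ^ n - 1))
    (hgen : Algebra.adjoin K' {ζ} = ⊤) :
    Module.finrank K' L' = n / Nat.gcd n (ptl_f q K K') := by
  set N := Nat.card (ptl_k q K) with hN
  set f := ptl_f q K K' with hf
  have hN1 : 1 < N := ptl_one_lt_card_k q K
  have hcop := ptl_coprime_card_pow_sub_one q K hn
  have hpow : ζ ^ (N ^ n - 1) = 1 := hζ.pow_eq_one
  have hNn2 : 2 ≤ N ^ n := by
    calc 2 ≤ N := hN1
      _ = N ^ 1 := (pow_one N).symm
      _ ≤ N ^ n := Nat.pow_le_pow_right (by omega) hn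
  have hζ0 : ζ ≠ 0 := hζ.ne_zero (by omega)
  have hinj : Function.Injective (ptl_galRes q K' L') :=
    ptl_galRes_injective_of_roots q K' L' hcop {ζ}
      (fun x hx => by rw [Set.mem_singleton_iff] at hx; rw [hx]; exact hpow) hgen
  set φ := ptl_frob q K' L' hinj with hφ
  have hN' : Nat.card (ptl_k q K') = N ^ f := ptl_card_k_tower q K K'
  -- `φ ^ j = 1 ↔ n ∣ f * j`
  have key : ∀ j : ℕ, φ ^ j = 1 ↔ n ∣ f * j := by
    intro j
    have h1 : (φ ^ j) ζ = ζ ^ (N ^ (f * j)) := by
      rw [ptl_frob_pow_root q K' L' hinj hcop hpow, hN', ← pow_mul]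
    have hNfj : 1 ≤ N ^ (f * j) := Nat.one_le_pow _ _ (by omega)
    have h2 : ζ ^ (N ^ (f * j)) = ζ ↔ N ^ n - 1 ∣ N ^ (f * j) - 1 := by
      rw [← hζ.pow_eq_one_iff_dvd]
      constructor
      · intro h
        have : ζ ^ (N ^ (f * j) - 1) * ζ = 1 * ζ := by
          rw [← pow_succ, Nat.sub_add_cancel hNfj, h, one_mul]
        exact mul_right_cancel₀ hζ0 this
      · intro h
        have : N ^ (f * j) = (N ^ (f * j) - 1) + 1 := by omega
        rw [this, pow_succ, h, one_mul]
    rw [← ptl_pow_sub_one_dvd_iff (by omega : 2 ≤ N) hn, ← h2, ← h1]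
    constructor
    · intro h; rw [h, AlgEquiv.one_apply]
    · intro h
      have : ((φ ^ j : L' ≃ₐ[K'] L') : L' →ₐ[K'] L') = AlgHom.id K' L' :=
        AlgHom.ext_of_adjoin_eq_top hgen fun x hx => by
          rw [Set.mem_singleton_iff] at hx
          subst hx
          exact h
      ext x
      exact DFunLike.congr_fun this x
  rw [← ptl_orderOf_frob q K' L' hinj]
  apply Nat.dvd_antisymm
  · apply orderOf_dvd_of_pow_eq_one
    rw [key, ptl_dvd_mul_iff_div_gcd_dvd hn]
  · rw [← ptl_dvd_mul_iff_div_gcd_dvd hn, ← key]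
    exact pow_orderOf_eq_one φ

end Comp
section EFTower

variable (K L M : Type*) [Field K] [Algebra ℚ_[q] K] [FiniteDimensional ℚ_[q] K]
  [Field L] [Algebra ℚ_[q] L] [FiniteDimensional ℚ_[q] L] [Algebra K L]
  [IsScalarTower ℚ_[q] K L]
  [Field M] [Algebra ℚ_[q] M] [FiniteDimensional ℚ_[q] M] [Algebra L M]
  [IsScalarTower ℚ_[q] L M] [Algebra K M] [IsScalarTower ℚ_[q] K M] [IsScalarTower K L M]

/-- Multiplicativity of the ramification index in towers. -/
theorem ptl_e_tower : ptl_e q K M = ptl_e q K L * ptl_e q L M := by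
  have h1 := ptl_ordZ_algebraMap q M (ptl_unif q K)
  have h2 := ptl_ordZ_algebraMap q (K := L) M (algebraMap K L (ptl_unif q K))
  rw [← IsScalarTower.algebraMap_apply, ptl_ordZ_algebraMap q L (ptl_unif q K), ptl_ordZ_unif,
    mul_one] at h2
  rw [ptl_ordZ_unif, mul_one] at h1
  have : (ptl_e q K M : ℤ) = (ptl_e q K L : ℤ) * ptl_e q L M := by
    rw [← h1, h2, mul_comm]
  exact_mod_cast this

/-- Multiplicativity of the residue degree in towers. -/
theorem ptl_f_tower : ptl_f q K M = ptl_f q K L * ptl_f q L M := by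
  have h1 := ptl_card_k_tower q K M
  have h2 := ptl_card_k_tower q K L
  have h3 := ptl_card_k_tower q L M
  rw [h3, h2, ← pow_mul] at h1
  exact (Nat.pow_right_injective (ptl_one_lt_card_k q K) h1).symm

end EFTower
section CycField

variable (K Ω : Type*) [Field K] [Field Ω] [Algebra K Ω]

/-- The subfield of `Ω` generated over `K` by the `m`-th roots of unity. -/
noncomputable def ptl_cycField (m : ℕ) : IntermediateField K Ω :=
  IntermediateField.adjoin K {b : Ω | ∃ m' ∈ ({m} : Set ℕ), m' ≠ 0 ∧ b ^ m' = 1}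

theorem ptl_root_mem_cycField {m : ℕ} (hm : m ≠ 0) {ζ : Ω} (hζ : ζ ^ m = 1) :
    ζ ∈ ptl_cycField K Ω m :=
  IntermediateField.subset_adjoin K _ ⟨m, Set.mem_singleton m, hm, hζ⟩

variable [IsAlgClosed Ω] [CharZero Ω]

instance ptl_cycField_isCyclotomicExtension (m : ℕ) :
    IsCyclotomicExtension {m} K (ptl_cycField K Ω m) := by
  apply IntermediateField.isCyclotomicExtension_adjoin_of_exists_isPrimitiveRoot
  intro m' _ hm0
  haveI : NeZero ((m' : ℕ) : Ω) := ⟨by exact_mod_cast hm0⟩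
  exact HasEnoughRootsOfUnity.exists_primitiveRoot Ω m'

instance ptl_cycField_finiteDimensional (m : ℕ) : FiniteDimensional K (ptl_cycField K Ω m) :=
  IsCyclotomicExtension.finiteDimensional {m} K (ptl_cycField K Ω m)

instance ptl_cycField_isGalois (m : ℕ) : IsGalois K (ptl_cycField K Ω m) :=
  IsCyclotomicExtension.isGalois {m} K (ptl_cycField K Ω m)

/-- Base change: the cyclotomic field over `K` is contained in the cyclotomic field over a larger
base `L`. -/
theorem ptl_cycField_le (L : Type*) [Field L] [Algebra K L] [Algebra L Ω] [IsScalarTower K L Ω]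
    (m : ℕ) : ptl_cycField K Ω m ≤ (ptl_cycField L Ω m).restrictScalars K := by
  rw [ptl_cycField, IntermediateField.adjoin_le_iff]
  intro b hb
  exact IntermediateField.subset_adjoin L _ hb

end CycField

section CycFieldLocal

variable (K L Ω : Type*) [Field K] [Algebra ℚ_[q] K] [FiniteDimensional ℚ_[q] K]
  [Field L] [Algebra ℚ_[q] L] [FiniteDimensional ℚ_[q] L] [Algebra K L]
  [IsScalarTower ℚ_[q] K L]
  [Field Ω] [Algebra ℚ_[q] Ω] [Algebra L Ω] [IsScalarTower ℚ_[q] L Ω] [IsAlgClosed Ω] [CharZero Ω]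

instance ptl_cycField_finiteDimensional' (m : ℕ) :
    FiniteDimensional ℚ_[q] (ptl_cycField L Ω m) :=
  FiniteDimensional.trans ℚ_[q] L (ptl_cycField L Ω m)

/-- The cyclotomic field of level prime to `q` over `L` is unramified. -/
theorem ptl_cycField_injective {m : ℕ} (hm : Nat.Coprime m q) :
    Function.Injective (ptl_galRes q L (ptl_cycField L Ω m)) := by
  have h := ((IsCyclotomicExtension.iff_adjoin_eq_top {m} L (ptl_cycField L Ω m)).mp
    inferInstance).2
  refine ptl_galRes_injective_of_roots q L (ptl_cycField L Ω m) hm _ ?_ h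
  rintro ζ ⟨m', hm', -, hζ⟩
  rw [Set.mem_singleton_iff] at hm'
  rw [hm'] at hζ; exact hζ

/-- `[L(μ_{#k_K^n - 1}) : L] = n / gcd n f(L/K)`. -/
theorem ptl_cycField_finrank {n : ℕ} (hn : 0 < n) :
    Module.finrank L (ptl_cycField L Ω (Nat.card (ptl_k q K) ^ n - 1)) =
      n / Nat.gcd n (ptl_f q K L) := by
  have hN1 : 1 < Nat.card (ptl_k q K) := ptl_one_lt_card_k q K
  have hne : Nat.card (ptl_k q K) ^ n - 1 ≠ 0 := by
    have : 2 ≤ Nat.card (ptl_k q K) ^ n := by
      calc 2 ≤ Nat.card (ptl_k q K) := hN1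
        _ = Nat.card (ptl_k q K) ^ 1 := (pow_one _).symm
        _ ≤ Nat.card (ptl_k q K) ^ n := Nat.pow_le_pow_right (by omega) hn
    omega
  haveI : NeZero (Nat.card (ptl_k q K) ^ n - 1) := ⟨hne⟩
  obtain ⟨ζ, hζ⟩ := IsCyclotomicExtension.exists_isPrimitiveRoot L
    (ptl_cycField L Ω (Nat.card (ptl_k q K) ^ n - 1))
    (Set.mem_singleton (Nat.card (ptl_k q K) ^ n - 1)) hne
  exact ptl_finrank_of_primitiveRoot_tower q K L _ hn hζ
    (IsCyclotomicExtension.adjoin_primitive_root_eq_top hζ)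

end CycFieldLocal
end Fermat.Agent.Lib.PT
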