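import Fermat.Agent.Lib.PT.LocCycCoh
import Fermat.Agent.Lib.PT.LocUnrNorm
import Fermat.Agent.Lib.PT.LocTower
import Fermat.Agent.Lib.PT.LocComp

/-
# Explicit `2`-cocycles of unramified extensions of local fields (helper6, prefix `ptl_`)

Setting of `LocUnr`: `L/K` finite Galois extension of finite extensions of `ℚ_[q]`, unramified
in the form `hinj : Function.Injective (ptl_galRes q K L)`; `τ = ptl_frob q K L hinj`.
* (U1) `ptl_unrCocycle q K L hinj = c_{π_K}`; `ptl_unrCocycle_pow_isMulCoboundary₂_iff`: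
  `c_n ^ m` splits iff `[L:K] ∣ m`.  More generally `ptl_unr_isMulCoboundary₂_iff`: a cocycle `c`
  splits iff `[L:K] ∣ v_L (ψ c)`.
* (U2) `K ⊆ F`, `M/K` and `M'/F` unramified Galois, `M ⊆ M'`:
  `ptl_unrCocycleRes q K F M M' hinj (σ, σ') = c_n (σ|_M, σ'|_M)`;
  `ptl_unrCocycleRes_pow_isMulCoboundary₂_iff`: if `[F:K] ∣ n = [M:K]` and
  `[M':F] = n / gcd (n, f(F/K))` then `c' ^ m` splits iff `n / [F:K] ∣ m`.
-/

set_option autoImplicit false
set_option linter.unusedSectionVars false

namespace Fermat.Agent.Lib.PT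

open groupCohomology

/-- Counting the wrap-arounds: `n * ∑_{i<n'} ⌊((f i) % n + f % n) / n⌋ = n' * (f % n)` when
`n ∣ f n'`. -/
theorem ptl_wrap_sum {n n' f : ℕ} (h : n ∣ f * n') :
    n * ∑ i ∈ Finset.range n', ((f * i) % n + f % n) / n = n' * (f % n) := by
  have h1 : ∀ i, n * (((f * i) % n + f % n) / n) + (f * (i + 1)) % n = (f * i) % n + f % n := by
    intro i
    have := Nat.div_add_mod ((f * i) % n + f % n) n
    rw [← Nat.add_mod, ← Nat.mul_succ] at this
    exact this
  have h2 : ∑ i ∈ Finset.range n', (f * (i + 1)) % n = ∑ i ∈ Finset.range n', (f * i) % n := by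
    have e1 := Finset.sum_range_succ' (fun i => (f * i) % n) n'
    have e2 := Finset.sum_range_succ (fun i => (f * i) % n) n'
    simp only [mul_zero, Nat.zero_mod, add_zero] at e1
    rw [Nat.mod_eq_zero_of_dvd h, add_zero] at e2
    rw [← e1, e2]
  have h3 := Finset.sum_congr (s₁ := Finset.range n') rfl (fun i _ => h1 i)
  rw [Finset.sum_add_distrib, Finset.sum_add_distrib, ← Finset.mul_sum, h2, Finset.sum_const,
    Finset.card_range, smul_eq_mul] at h3
  omega

/-- The arithmetic behind (U2). -/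
theorem ptl_u2_arith {n n' e f E m : ℕ} (hn : 0 < n) (he : 0 < e) (hf : 0 < f)
    (hd : e * f ∣ n) (hn' : n' = n / Nat.gcd n f) (hE : n * E = n' * (f % n)) :
    n' ∣ E * m * e ↔ n / (e * f) ∣ m := by
  obtain ⟨k, rfl⟩ := hd
  have hk : 0 < k := by
    rcases Nat.eq_zero_or_pos k with h | h
    · subst h; simp at hn
    · exact h
  have hgcd : Nat.gcd (e * f * k) f = f :=
    Nat.gcd_eq_right ⟨e * k, by ring⟩
  have hn'2 : n' = e * k := by
    rw [hn', hgcd]
    exact Nat.div_eq_of_eq_mul_left hf (by ring)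
  have hdiv : e * f * k / (e * f) = k := Nat.mul_div_cancel_left k (Nat.mul_pos he hf)
  rw [hdiv, hn'2]
  by_cases hfn : f < e * f * k
  · rw [Nat.mod_eq_of_lt hfn, hn'2] at hE
    have hE1 : E = 1 := by
      have h1 : e * f * k * E = e * f * k * 1 := by rw [hE]; ring
      exact Nat.eq_of_mul_eq_mul_left hn h1
    rw [hE1, one_mul, mul_comm m e]
    exact Nat.mul_dvd_mul_iff_left he
  · have h1 : e * k ≤ 1 := by
      by_contra hcon
      rw [not_le] at hcon
      have : f * 2 ≤ f * (e * k) := Nat.mul_le_mul_left f hcon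
      have h2 : f * (e * k) = e * f * k := by ring
      omega
    have h2 : e * k = 1 := le_antisymm h1 (Nat.mul_pos he hk)
    have hk1 : k = 1 := Nat.eq_one_of_mul_eq_one_left h2
    rw [h2, hk1]
    simp

variable (q : ℕ) [Fact q.Prime]

section UnifUnit

variable (K : Type*) [Field K] [Algebra ℚ_[q] K] [FiniteDimensional ℚ_[q] K]

/-- The chosen uniformizer as a unit. -/
noncomputable def ptl_unifUnit : Kˣ := Units.mk0 (ptl_unif q K) (ptl_unif_ne_zero q K)

@[simp] theorem ptl_unifUnit_val : ((ptl_unifUnit q K : Kˣ) : K) = ptl_unif q K := rfl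

end UnifUnit

section U1

variable (K L : Type*) [Field K] [Algebra ℚ_[q] K] [FiniteDimensional ℚ_[q] K]
  [Field L] [Algebra ℚ_[q] L] [FiniteDimensional ℚ_[q] L] [Algebra K L]
  [IsScalarTower ℚ_[q] K L] [FiniteDimensional K L] [IsGalois K L]
  (hinj : Function.Injective (ptl_galRes q K L))

theorem ptl_orderOf_frob_pos : 0 < orderOf (ptl_frob q K L hinj) := by
  rw [ptl_orderOf_frob]; exact Module.finrank_pos

omit [FiniteDimensional ℚ_[q] K] [FiniteDimensional ℚ_[q] L] [IsGalois K L]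
  [FiniteDimensional K L] [IsScalarTower ℚ_[q] K L] [Algebra ℚ_[q] L] [Algebra ℚ_[q] K] in
/-- Elements of the base field are Galois-invariant (as units). -/
theorem ptl_smul_unitsMap (σ : L ≃ₐ[K] L) (a : Kˣ) :
    σ • Units.map (algebraMap K L : K →* L) a = Units.map (algebraMap K L : K →* L) a :=
  Units.ext (σ.commutes (a : K))

/-- The cyclic norm with respect to the Frobenius is the field norm. -/
theorem ptl_cycNorm_frob (y : Lˣ) :
    ((ptl_cycNorm (ptl_frob q K L hinj) y : Lˣ) : L) = algebraMap K L (Algebra.norm K (y : L)) := by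
  classical
  rw [ptl_cycNorm_eq_prod (ptl_frob_generates q K L hinj) (ptl_orderOf_frob_pos q K L hinj),
    Algebra.norm_eq_prod_automorphisms, Units.coe_prod]
  rfl

/-- An element of `Kˣ` is a cyclic norm from `Lˣ` iff `[L:K]` divides its valuation. -/
theorem ptl_mem_range_cycNorm_frob_iff (a : Kˣ) :
    Units.map (algebraMap K L : K →* L) a ∈ Set.range (ptl_cycNorm (ptl_frob q K L hinj)) ↔
      (Module.finrank K L : ℤ) ∣ ptl_ordZ q K (a : K) := by
  rw [← ptl_mem_norm_range_iff q K L hinj a.ne_zero]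
  constructor
  · rintro ⟨y, hy⟩
    refine ⟨(y : L), ?_⟩
    have h := congrArg (fun u : Lˣ => (u : L)) hy
    simp only [ptl_cycNorm_frob, Units.coe_map, MonoidHom.coe_coe] at h
    exact (algebraMap K L).injective h
  · rintro ⟨y, hy⟩
    have hy0 : y ≠ 0 := by
      rintro rfl
      rw [Algebra.norm_zero] at hy
      exact a.ne_zero hy.symm
    refine ⟨Units.mk0 y hy0, Units.ext ?_⟩
    rw [ptl_cycNorm_frob, Units.val_mk0, hy]
    rfl

/-- The standard cocycle `c_a`, `a ∈ Kˣ`, of an unramified extension splits iff `[L:K] ∣ v(a)`. -/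
theorem ptl_cycCocycle_frob_isMulCoboundary₂_iff (a : Kˣ) :
    IsMulCoboundary₂ (ptl_cycCocycle (ptl_frob q K L hinj)
      (Units.map (algebraMap K L : K →* L) a)) ↔
      (Module.finrank K L : ℤ) ∣ ptl_ordZ q K (a : K) := by
  rw [ptl_cycCocycle_isMulCoboundary₂_iff (ptl_frob_generates q K L hinj)
    (ptl_orderOf_frob_pos q K L hinj) (fun g => ptl_smul_unitsMap K L g a),
    ptl_mem_range_cycNorm_frob_iff]

/-- The fundamental `2`-cocycle `c_{π_K}` of the unramified extension `L/K`. -/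
noncomputable def ptl_unrCocycle : (L ≃ₐ[K] L) × (L ≃ₐ[K] L) → Lˣ :=
  ptl_cycCocycle (ptl_frob q K L hinj) (Units.map (algebraMap K L : K →* L) (ptl_unifUnit q K))

theorem ptl_unrCocycle_isMulCocycle₂ : IsMulCocycle₂ (ptl_unrCocycle q K L hinj) :=
  ptl_cycCocycle_isMulCocycle₂ (ptl_frob_generates q K L hinj) (ptl_orderOf_frob_pos q K L hinj)
    (fun g => ptl_smul_unitsMap K L g _)

/-- **(U1)** `c_n ^ m` is a coboundary iff `n = [L:K]` divides `m`. -/
theorem ptl_unrCocycle_pow_isMulCoboundary₂_iff (m : ℕ) :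
    IsMulCoboundary₂ (ptl_unrCocycle q K L hinj ^ m) ↔ Module.finrank K L ∣ m := by
  rw [ptl_unrCocycle, ← ptl_cycCocycle_pow, ← map_pow, ptl_cycCocycle_frob_isMulCoboundary₂_iff,
    Units.val_pow_eq_pow_val, ptl_ordZ_pow, ptl_unifUnit_val, ptl_ordZ_unif, mul_one,
    Int.natCast_dvd_natCast]

/-- The invariant of a `2`-cocycle of an unramified extension: `c` splits iff `[L:K]` divides
the valuation of `ψ c`. -/
theorem ptl_unr_isMulCoboundary₂_iff {c : (L ≃ₐ[K] L) × (L ≃ₐ[K] L) → Lˣ}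
    (hc : IsMulCocycle₂ c) :
    IsMulCoboundary₂ c ↔
      (Module.finrank K L : ℤ) ∣ ptl_ordZ q L ((ptl_cycPsi (ptl_frob q K L hinj) c : Lˣ) : L) := by
  have hτ := ptl_frob_generates q K L hinj
  have hn := ptl_orderOf_frob_pos q K L hinj
  have hfix := ptl_smul_cycPsi hτ hc
  obtain ⟨a, ha⟩ : ∃ a : K, algebraMap K L a = ((ptl_cycPsi (ptl_frob q K L hinj) c : Lˣ) : L) := by
    have := (IsGalois.mem_range_algebraMap_iff_fixed
      (((ptl_cycPsi (ptl_frob q K L hinj) c : Lˣ) : L))).mpr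
      (fun σ => congrArg (fun u : Lˣ => (u : L)) (hfix σ))
    exact this
  have ha0 : a ≠ 0 := by
    rintro rfl
    rw [map_zero] at ha
    exact (Units.ne_zero _) ha.symm
  have hau : Units.map (algebraMap K L : K →* L) (Units.mk0 a ha0) =
      ptl_cycPsi (ptl_frob q K L hinj) c := Units.ext ha
  rw [ptl_isMulCoboundary₂_iff hτ hn hc, ← hau, ptl_mem_range_cycNorm_frob_iff, Units.val_mk0,
    Units.coe_map, MonoidHom.coe_coe, Units.val_mk0, ptl_ordZ_algebraMap,
    ptl_e_eq_one_of_injective q K L hinj, Nat.cast_one, one_mul]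

end U1



section U2

variable (K F M M' : Type*) [Field K] [Field F] [Field M] [Field M']
  [Algebra ℚ_[q] K] [FiniteDimensional ℚ_[q] K] [Algebra ℚ_[q] F] [FiniteDimensional ℚ_[q] F]
  [Algebra ℚ_[q] M] [FiniteDimensional ℚ_[q] M] [Algebra ℚ_[q] M'] [FiniteDimensional ℚ_[q] M']
  [Algebra K F] [Algebra K M] [Algebra F M'] [Algebra M M'] [Algebra K M']
  [IsScalarTower ℚ_[q] K F] [IsScalarTower ℚ_[q] K M] [IsScalarTower ℚ_[q] F M']
  [IsScalarTower ℚ_[q] M M'] [IsScalarTower K F M'] [IsScalarTower K M M']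
  [FiniteDimensional K M] [IsGalois K M] [FiniteDimensional F M'] [IsGalois F M']

/-- Restriction of automorphisms `Gal(M'/F) → Gal(M/K)` for `K ⊆ F`, `M ⊆ M'`, `M/K` normal. -/
noncomputable def ptl_galResTower : (M' ≃ₐ[F] M') →* (M ≃ₐ[K] M) :=
  (AlgEquiv.restrictNormalHom M).comp (AlgEquiv.restrictScalarsHom K)

omit [FiniteDimensional F M'] [IsGalois F M'] [FiniteDimensional K M]
  [FiniteDimensional ℚ_[q] K] [FiniteDimensional ℚ_[q] F] [FiniteDimensional ℚ_[q] M]
  [FiniteDimensional ℚ_[q] M'] in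
theorem ptl_galResTower_commutes (σ : M' ≃ₐ[F] M') (x : M) :
    algebraMap M M' (ptl_galResTower K F M M' σ x) = σ (algebraMap M M' x) :=
  AlgEquiv.restrictNormal_commutes (σ.restrictScalars K) M x

variable (hinj : Function.Injective (ptl_galRes q K M))
  (hinj' : Function.Injective (ptl_galRes q F M'))

/-- The Frobenius of `M'/F` restricts to the `f(F/K)`-th power of the Frobenius of `M/K`. -/
theorem ptl_galResTower_frob :
    ptl_galResTower K F M M' (ptl_frob q F M' hinj') = ptl_frob q K M hinj ^ ptl_f q K F := by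
  ext x
  apply (algebraMap M M').injective
  rw [ptl_galResTower_commutes, ptl_frob_tower q K F M M' hinj hinj']

/-- The cocycle `c'(σ, σ') = c_n (σ|_M, σ'|_M)` on `Gal(M'/F)` with values in `M'ˣ`. -/
noncomputable def ptl_unrCocycleRes : (M' ≃ₐ[F] M') × (M' ≃ₐ[F] M') → M'ˣ :=
  fun p => Units.map (algebraMap M M' : M →* M')
    (ptl_unrCocycle q K M hinj (ptl_galResTower K F M M' p.1, ptl_galResTower K F M M' p.2))

theorem ptl_unrCocycleRes_isMulCocycle₂ :
    IsMulCocycle₂ (ptl_unrCocycleRes q K F M M' hinj) := by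
  refine ptl_isMulCocycle₂_comp (ptl_galResTower K F M M') (Units.map (algebraMap M M' : M →* M'))
    ?_ (ptl_unrCocycle_isMulCocycle₂ q K M hinj)
  intro g a
  apply Units.ext
  exact ptl_galResTower_commutes K F M M' g (a : M)

theorem ptl_unrCocycleRes_apply (σ σ' : M' ≃ₐ[F] M') :
    ptl_unrCocycleRes q K F M M' hinj (σ, σ') =
      Units.map (algebraMap F M' : F →* M') (Units.map (algebraMap K F : K →* F) (ptl_unifUnit q K)) ^
        ((ptl_clog (ptl_frob q K M hinj) (ptl_galResTower K F M M' σ) +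
          ptl_clog (ptl_frob q K M hinj) (ptl_galResTower K F M M' σ')) /
            orderOf (ptl_frob q K M hinj)) := by
  rw [ptl_unrCocycleRes, ptl_unrCocycle, ptl_cycCocycle_apply, map_pow]
  congr 1
  apply Units.ext
  simp only [Units.coe_map, MonoidHom.coe_coe]
  rw [← IsScalarTower.algebraMap_apply, ← IsScalarTower.algebraMap_apply]


/-- `ψ` of the restricted cocycle: `ψ(c') = π_K ^ E` with `n E = n' (f % n)`. -/
theorem ptl_cycPsi_unrCocycleRes :
    ptl_cycPsi (ptl_frob q F M' hinj') (ptl_unrCocycleRes q K F M M' hinj) =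
      Units.map (algebraMap F M' : F →* M')
        (Units.map (algebraMap K F : K →* F) (ptl_unifUnit q K)) ^
        (∑ i ∈ Finset.range (Module.finrank F M'),
          ((ptl_f q K F * i) % Module.finrank K M + ptl_f q K F % Module.finrank K M) /
            Module.finrank K M) := by
  have hn := ptl_orderOf_frob_pos q K M hinj
  rw [ptl_cycPsi, ptl_orderOf_frob, ← Finset.prod_pow_eq_pow_sum]
  refine Finset.prod_congr rfl (fun i _ => ?_)
  rw [ptl_unrCocycleRes_apply, map_pow, ptl_galResTower_frob q K F M M' hinj hinj', ← pow_mul,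
    ptl_clog_pow hn, ptl_clog_pow hn, ptl_orderOf_frob]

include hinj hinj' in
theorem ptl_finrank_dvd_f_mul_finrank :
    Module.finrank K M ∣ ptl_f q K F * Module.finrank F M' := by
  rw [← ptl_orderOf_frob q K M hinj, ← ptl_orderOf_frob q F M' hinj']
  apply orderOf_dvd_of_pow_eq_one
  rw [pow_mul, ← ptl_galResTower_frob q K F M M' hinj hinj', ← map_pow, pow_orderOf_eq_one,
    map_one]

include hinj' in
/-- **(U2)** If `[F:K] ∣ n = [M:K]` and `[M':F] = n / gcd(n, f(F/K))` (e.g. `M' = F·M`), then the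
`m`-th power of the restricted cocycle splits iff `n / [F:K]` divides `m`. -/
theorem ptl_unrCocycleRes_pow_isMulCoboundary₂_iff
    (hdvd : Module.finrank K F ∣ Module.finrank K M)
    (hdeg : Module.finrank F M' =
      Module.finrank K M / Nat.gcd (Module.finrank K M) (ptl_f q K F)) (m : ℕ) :
    IsMulCoboundary₂ (ptl_unrCocycleRes q K F M M' hinj ^ m) ↔
      Module.finrank K M / Module.finrank K F ∣ m := by
  have hτ' := ptl_frob_generates q F M' hinj'
  have hn' := ptl_orderOf_frob_pos q F M' hinj'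
  have hc := ptl_isMulCocycle₂_pow (ptl_unrCocycleRes_isMulCocycle₂ q K F M M' hinj) m
  rw [ptl_isMulCoboundary₂_iff hτ' hn' hc, ptl_cycPsi_pow,
    ptl_cycPsi_unrCocycleRes q K F M M' hinj hinj', ← pow_mul, ← map_pow, ← map_pow,
    ptl_mem_range_cycNorm_frob_iff, Units.coe_map, MonoidHom.coe_coe, ptl_ordZ_algebraMap,
    Units.val_pow_eq_pow_val, ptl_ordZ_pow, ptl_unifUnit_val, ptl_ordZ_unif, mul_one]
  have harith := ptl_u2_arith (m := m) (Module.finrank_pos (R := K) (M := M))
    (ptl_e_pos q K F) (ptl_f_pos q K F) (by rw [ptl_e_mul_f]; exact hdvd) hdeg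
    (ptl_wrap_sum (ptl_finrank_dvd_f_mul_finrank q K F M M' hinj hinj'))
  rw [ptl_e_mul_f] at harith
  rw [← harith, ← Int.natCast_dvd_natCast]
  push_cast
  rw [mul_comm (ptl_e q K F : ℤ)]

end U2

end Fermat.Agent.Lib.PT
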