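/-
The fundamental class of a finite Galois extension `L/K` of local fields, abstractly:
`M/K` unramified of degree `[L:K]`, `E ⊇ L, M` Galois over `K` with `E/L` unramified of degree
`n / gcd(n, f(L/K))` (i.e. `E = L·M`).  A 2-cocycle `u` of `Gal(L/K)` in `Lˣ` is *fundamental*
(`pti_IsFund`) if its inflation to `E` is cohomologous to the inflation of helper6's unramified
cocycle `c_n` of `M/K`.
* `pti_exists_isFund` : a fundamental cocycle exists;
* `pti_IsFund.dvd_of_pow` : `u ^ m` splits ⇒ `[L:K] ∣ m`;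
* `pti_IsFund.unique` : two fundamental cocycles are cohomologous.
-/
import Fermat.Agent.Lib.PT.BrauerTower
import Fermat.Agent.Lib.PT.LocUnrCoh

set_option autoImplicit false
set_option linter.unusedSectionVars false

namespace Fermat.Agent.Lib.PT

open groupCohomology

variable (q : ℕ) [Fact q.Prime]

section Fund

variable (K L M E : Type*) [Field K] [Field L] [Field M] [Field E]
  [Algebra ℚ_[q] K] [FiniteDimensional ℚ_[q] K] [Algebra ℚ_[q] L] [FiniteDimensional ℚ_[q] L]
  [Algebra ℚ_[q] M] [FiniteDimensional ℚ_[q] M] [Algebra ℚ_[q] E] [FiniteDimensional ℚ_[q] E]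
  [Algebra K L] [Algebra K M] [Algebra L E] [Algebra M E] [Algebra K E]
  [IsScalarTower ℚ_[q] K L] [IsScalarTower ℚ_[q] K M] [IsScalarTower ℚ_[q] L E]
  [IsScalarTower ℚ_[q] M E] [IsScalarTower K L E] [IsScalarTower K M E]
  [FiniteDimensional K M] [IsGalois K M] [FiniteDimensional L E] [IsGalois L E]
  [FiniteDimensional K L] [IsGalois K L] [FiniteDimensional K E] [IsGalois K E]
  (hinj : Function.Injective (ptl_galRes q K M))

/-- `u` is a fundamental 2-cocycle of `L/K` (relative to the auxiliary fields `M`, `E`). -/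
def pti_IsFund (u : (L ≃ₐ[K] L) × (L ≃ₐ[K] L) → Lˣ) : Prop :=
  IsMulCocycle₂ u ∧
    IsMulCoboundary₂ (pti_infl K L E u / pti_infl K M E (ptl_unrCocycle q K M hinj))

/-- Existence of a fundamental cocycle. -/
theorem pti_exists_isFund (hinj' : Function.Injective (ptl_galRes q L E))
    (hdeg1 : Module.finrank K M = Module.finrank K L)
    (hdeg : Module.finrank L E =
      Module.finrank K M / Nat.gcd (Module.finrank K M) (ptl_f q K L)) :
    ∃ u, pti_IsFund q K L M E hinj u := by
  have hΦ : IsMulCocycle₂ (pti_infl K M E (ptl_unrCocycle q K M hinj)) :=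
    pti_infl_isMulCocycle₂ K M E (ptl_unrCocycle_isMulCocycle₂ q K M hinj)
  have hres : IsMulCoboundary₂ (fun p : (E ≃ₐ[L] E) × (E ≃ₐ[L] E) =>
      pti_infl K M E (ptl_unrCocycle q K M hinj)
        (p.1.restrictScalars K, p.2.restrictScalars K)) := by
    have h1 := (ptl_unrCocycleRes_pow_isMulCoboundary₂_iff q K L M E hinj hinj'
      (by rw [hdeg1]) hdeg 1).2 (by rw [hdeg1, Nat.div_self Module.finrank_pos])
    rw [pow_one] at h1
    exact h1
  obtain ⟨c, hc, hcob⟩ := pti_infl_exact K L E hΦ hres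
  refine ⟨c, hc, ?_⟩
  have := ptl_isMulCoboundary₂_inv hcob
  rwa [inv_div] at this

variable {q K L M E hinj}

theorem pti_IsFund.isMulCocycle₂ {u : (L ≃ₐ[K] L) × (L ≃ₐ[K] L) → Lˣ}
    (hu : pti_IsFund q K L M E hinj u) : IsMulCocycle₂ u := hu.1

/-- A fundamental cocycle has order (a multiple of) `[L:K]`. -/
theorem pti_IsFund.dvd_of_pow {u : (L ≃ₐ[K] L) × (L ≃ₐ[K] L) → Lˣ}
    (hu : pti_IsFund q K L M E hinj u) (hdeg1 : Module.finrank K M = Module.finrank K L) (m : ℕ)
    (hm : IsMulCoboundary₂ (u ^ m)) : Module.finrank K L ∣ m := by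
  have h1 : IsMulCoboundary₂ (pti_infl K L E u ^ m) := by
    rw [← pti_infl_pow]; exact pti_infl_isMulCoboundary₂ K L E hm
  have h2 := ptl_isMulCoboundary₂_pow hu.2 m
  have h3 : IsMulCoboundary₂ (pti_infl K M E (ptl_unrCocycle q K M hinj ^ m)) := by
    have := ptl_isMulCoboundary₂_div h1 h2
    rw [div_pow, div_div_cancel, ← pti_infl_pow] at this
    exact this
  have h4 := pti_infl_injective K M E
    (ptl_isMulCocycle₂_pow (ptl_unrCocycle_isMulCocycle₂ q K M hinj) m) h3
  rw [← hdeg1]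
  exact (ptl_unrCocycle_pow_isMulCoboundary₂_iff q K M hinj m).1 h4

/-- Integer-exponent version. -/
theorem pti_IsFund.dvd_of_zpow {u : (L ≃ₐ[K] L) × (L ≃ₐ[K] L) → Lˣ}
    (hu : pti_IsFund q K L M E hinj u) (hdeg1 : Module.finrank K M = Module.finrank K L) (m : ℤ)
    (hm : IsMulCoboundary₂ (u ^ m)) : (Module.finrank K L : ℤ) ∣ m := by
  rcases Int.natAbs_eq m with h | h
  · rw [h, zpow_natCast] at hm
    rw [h, Int.natCast_dvd_natCast]
    exact hu.dvd_of_pow hdeg1 _ hm
  · rw [h, zpow_neg, zpow_natCast] at hm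
    have := ptl_isMulCoboundary₂_inv hm
    rw [inv_inv] at this
    rw [h, dvd_neg, Int.natCast_dvd_natCast]
    exact hu.dvd_of_pow hdeg1 _ this

/-- Two fundamental cocycles are cohomologous. -/
theorem pti_IsFund.unique {u u' : (L ≃ₐ[K] L) × (L ≃ₐ[K] L) → Lˣ}
    (hu : pti_IsFund q K L M E hinj u) (hu' : pti_IsFund q K L M E hinj u') :
    IsMulCoboundary₂ (u / u') := by
  apply pti_infl_injective K L E (ptl_isMulCocycle₂_div hu.1 hu'.1)
  have := ptl_isMulCoboundary₂_div hu.2 hu'.2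
  rw [div_div_div_cancel_right] at this
  rw [pti_infl_div]
  exact this

/-- A cocycle cohomologous to a fundamental cocycle is fundamental. -/
theorem pti_IsFund.of_cohomologous {u u' : (L ≃ₐ[K] L) × (L ≃ₐ[K] L) → Lˣ}
    (hu : pti_IsFund q K L M E hinj u) (hu' : IsMulCocycle₂ u')
    (h : IsMulCoboundary₂ (u' / u)) : pti_IsFund q K L M E hinj u' := by
  refine ⟨hu', ?_⟩
  have h1 := pti_infl_isMulCoboundary₂ K L E h
  rw [pti_infl_div] at h1
  have := ptl_isMulCoboundary₂_mul h1 hu.2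
  rw [div_mul_div_cancel] at this
  exact this

end Fund

end Fermat.Agent.Lib.PT
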