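/-
  Local toolkit for S55 (Poitou–Tate), part L1f: cyclotomic form of the unramified extensions.
  `[IsCyclotomicExtension {#k_K ^ n - 1} K L]` implies `L / K` Galois, unramified, of degree `n`;
  the canonical unramified extension `ptl_Kn q K Ω n` of degree `n` inside an algebraically
  closed `Ω ⊇ K`.
  Owner: helper6.  Prefix `ptl_`.
-/
import Fermat.Agent.Lib.PT.LocCyc

set_option autoImplicit false

namespace Fermat.Agent.Lib.PT

variable (q : ℕ) [Fact q.Prime]

section CycExt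

variable (K L : Type*) [Field K] [Algebra ℚ_[q] K] [FiniteDimensional ℚ_[q] K]
  [Field L] [Algebra ℚ_[q] L] [FiniteDimensional ℚ_[q] L] [Algebra K L]
  [IsScalarTower ℚ_[q] K L] (n : ℕ)
  [hcyc : IsCyclotomicExtension {Nat.card (ptl_k q K) ^ n - 1} K L]

include hcyc in
theorem ptl_cyc_isGalois : IsGalois K L :=
  IsCyclotomicExtension.isGalois {Nat.card (ptl_k q K) ^ n - 1} K L

include hcyc in
/-- A cyclotomic extension of level `#k_K ^ n - 1` is unramified. -/
theorem ptl_cyc_injective (hn : 0 < n) : Function.Injective (ptl_galRes q K L) := by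
  have h := ((IsCyclotomicExtension.iff_adjoin_eq_top {Nat.card (ptl_k q K) ^ n - 1} K L).mp
    hcyc).2
  refine ptl_galRes_injective_of_roots q K L (ptl_coprime_card_pow_sub_one q K hn) _ ?_ h
  rintro ζ ⟨m, hm, -, hζ⟩
  rw [Set.mem_singleton_iff] at hm
  rw [← hm]; exact hζ

include hcyc in
/-- A cyclotomic extension of level `#k_K ^ n - 1` has degree `n`. -/
theorem ptl_cyc_finrank (hn : 0 < n) : Module.finrank K L = n := by
  haveI := ptl_cyc_isGalois q K L n
  haveI := ptl_finiteDimensional q K L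
  have hN1 : 1 < Nat.card (ptl_k q K) := ptl_one_lt_card_k q K
  have hne : Nat.card (ptl_k q K) ^ n - 1 ≠ 0 := by
    have : 2 ≤ Nat.card (ptl_k q K) ^ n := by
      calc 2 ≤ Nat.card (ptl_k q K) := hN1
        _ = Nat.card (ptl_k q K) ^ 1 := (pow_one _).symm
        _ ≤ Nat.card (ptl_k q K) ^ n := Nat.pow_le_pow_right (by omega) hn
    omega
  haveI : NeZero (Nat.card (ptl_k q K) ^ n - 1) := ⟨hne⟩
  obtain ⟨ζ, hζ⟩ := IsCyclotomicExtension.exists_isPrimitiveRoot K L
    (Set.mem_singleton (Nat.card (ptl_k q K) ^ n - 1)) hne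
  exact ptl_finrank_of_primitiveRoot q K L hn hζ
    (IsCyclotomicExtension.adjoin_primitive_root_eq_top hζ)

end CycExt

section Kn

variable (K Ω : Type*) [Field K] [Algebra ℚ_[q] K] [FiniteDimensional ℚ_[q] K]
  [Field Ω] [Algebra K Ω] [IsAlgClosed Ω]

/-- The unramified extension of degree `n` of `K` inside an algebraically closed extension
`Ω` of `K`: generated by the `(#k_K ^ n - 1)`-th roots of unity. -/
noncomputable def ptl_Kn (n : ℕ) : IntermediateField K Ω :=
  IntermediateField.adjoin K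
    {b : Ω | ∃ m ∈ ({Nat.card (ptl_k q K) ^ n - 1} : Set ℕ), m ≠ 0 ∧ b ^ m = 1}

instance ptl_Kn_isCyclotomicExtension (n : ℕ) :
    IsCyclotomicExtension {Nat.card (ptl_k q K) ^ n - 1} K (ptl_Kn q K Ω n) := by
  haveI := ptl_charZero q K
  haveI : CharZero Ω := charZero_of_injective_algebraMap (algebraMap K Ω).injective
  apply IntermediateField.isCyclotomicExtension_adjoin_of_exists_isPrimitiveRoot
  intro m hm hm0
  haveI : NeZero ((m : ℕ) : Ω) := ⟨by exact_mod_cast hm0⟩
  exact HasEnoughRootsOfUnity.exists_primitiveRoot Ω m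

instance ptl_Kn_finiteDimensional (n : ℕ) : FiniteDimensional K (ptl_Kn q K Ω n) :=
  IsCyclotomicExtension.finiteDimensional {Nat.card (ptl_k q K) ^ n - 1} K (ptl_Kn q K Ω n)

theorem ptl_Kn_mono {m n : ℕ} (hn : 0 < n) (h : m ∣ n) : ptl_Kn q K Ω m ≤ ptl_Kn q K Ω n := by
  have hN1 : 1 < Nat.card (ptl_k q K) := ptl_one_lt_card_k q K
  have hne : Nat.card (ptl_k q K) ^ n - 1 ≠ 0 := by
    have : 2 ≤ Nat.card (ptl_k q K) ^ n := by
      calc 2 ≤ Nat.card (ptl_k q K) := hN1
        _ = Nat.card (ptl_k q K) ^ 1 := (pow_one _).symm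
        _ ≤ Nat.card (ptl_k q K) ^ n := Nat.pow_le_pow_right (by omega) hn
    omega
  haveI : NeZero (Nat.card (ptl_k q K) ^ n - 1) := ⟨hne⟩
  exact IntermediateField.isCyclotomicExtension_le_of_dvd K Ω
    (Nat.card (ptl_k q K) ^ m - 1) (Nat.card (ptl_k q K) ^ n - 1) _ _
    (Nat.pow_sub_one_dvd_pow_sub_one _ h)

instance ptl_Kn_isGalois (n : ℕ) : IsGalois K (ptl_Kn q K Ω n) :=
  IsCyclotomicExtension.isGalois {Nat.card (ptl_k q K) ^ n - 1} K (ptl_Kn q K Ω n)

variable [Algebra ℚ_[q] Ω] [IsScalarTower ℚ_[q] K Ω]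

instance ptl_Kn_finiteDimensional' (n : ℕ) : FiniteDimensional ℚ_[q] (ptl_Kn q K Ω n) :=
  FiniteDimensional.trans ℚ_[q] K (ptl_Kn q K Ω n)

/-- `K_n / K` has degree `n`. -/
theorem ptl_Kn_finrank {n : ℕ} (hn : 0 < n) : Module.finrank K (ptl_Kn q K Ω n) = n :=
  ptl_cyc_finrank q K (ptl_Kn q K Ω n) n hn

/-- `K_n / K` is unramified. -/
theorem ptl_Kn_injective {n : ℕ} (hn : 0 < n) :
    Function.Injective (ptl_galRes q K (ptl_Kn q K Ω n)) :=
  ptl_cyc_injective q K (ptl_Kn q K Ω n) n hn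

end Kn
end Fermat.Agent.Lib.PT
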