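/-
**L4, local class module**: for a finite Galois extension `L/K` inside an algebraically closed
`Ω` (`K` finite over `ℚ_[q]`), the fundamental 2-cocycle `pti_fundCocycle q K Ω L` of `Gal(L/K)`
with values in `Lˣ` and helper4's class-module axioms for all `p`-subgroups
(`pti_fundCocycle_mulClassData`).  Auxiliary fields: `pti_M = K_n` (unramified of degree
`n = [L:K]`), `pti_E = L·K_n` (as an extension of `L`); the cocycle is characterised by
`pti_IsFundL` (its inflation to `L·K_n` is cohomologous to the inflation of helper6's `c_n`).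
-/
import Fermat.Agent.Lib.PT.BrauerFund
import Fermat.Agent.Lib.PT.BrauerClass
import Fermat.Agent.Lib.PT.LocKn

set_option autoImplicit false
set_option linter.unusedSectionVars false
namespace Fermat.Agent.Lib.PT
open groupCohomology

section Incl

variable {k₁ k₂ Ω : Type*} [Field k₁] [Field k₂] [Field Ω] [Algebra k₁ Ω] [Algebra k₂ Ω]

/-- Inclusion of subfields of `Ω` (possibly over different bases) as a ring homomorphism. -/
def pti_inclHom (A : IntermediateField k₁ Ω) (B : IntermediateField k₂ Ω)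
    (h : ∀ x : Ω, x ∈ A → x ∈ B) : ↥A →+* ↥B where
  toFun x := ⟨(x : Ω), h _ x.2⟩
  map_one' := rfl
  map_mul' _ _ := rfl
  map_zero' := rfl
  map_add' _ _ := rfl

@[simp] theorem pti_inclHom_coe (A : IntermediateField k₁ Ω) (B : IntermediateField k₂ Ω)
    (h : ∀ x : Ω, x ∈ A → x ∈ B) (x : A) : ((pti_inclHom A B h x : B) : Ω) = (x : Ω) := rfl

end Incl

section Local

variable (q : ℕ) [Fact q.Prime]
variable (K Ω : Type) [Field K] [Algebra ℚ_[q] K] [FiniteDimensional ℚ_[q] K]
  [Field Ω] [Algebra K Ω] [Algebra ℚ_[q] Ω] [IsScalarTower ℚ_[q] K Ω] [IsAlgClosed Ω] [CharZero Ω]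
  (L : IntermediateField K Ω) [FiniteDimensional K L] [IsGalois K L]

/-- The level of roots of unity generating the unramified extension of degree `[L:K]`. -/
noncomputable abbrev pti_lvl : ℕ := Nat.card (ptl_k q K) ^ Module.finrank K L - 1

theorem pti_isScalarTower_top : IsScalarTower ℚ_[q] L Ω :=
  IsScalarTower.of_algebraMap_eq (fun _ => rfl)

attribute [local instance] pti_isScalarTower_top

theorem pti_finiteDimensional_L : FiniteDimensional ℚ_[q] L :=
  FiniteDimensional.trans ℚ_[q] K L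

attribute [local instance] pti_finiteDimensional_L

/-- `E = L·K_n` as an extension of `L`. -/
noncomputable abbrev pti_E : IntermediateField L Ω := ptl_cycField L Ω (pti_lvl q K Ω L)

/-- `M = K_n`, the unramified extension of `K` of degree `n = [L:K]`. -/
noncomputable abbrev pti_M : IntermediateField K Ω := ptl_Kn q K Ω (Module.finrank K L)

theorem pti_M_le_E (x : Ω) (hx : x ∈ pti_M q K Ω L) : x ∈ pti_E q K Ω L :=
  ptl_cycField_le K Ω L (pti_lvl q K Ω L) hx

/-- The inclusion `K_n ⊆ L·K_n` as an algebra structure. -/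
@[reducible] noncomputable def pti_algebraME : Algebra (pti_M q K Ω L) (pti_E q K Ω L) :=
  (pti_inclHom (pti_M q K Ω L) (pti_E q K Ω L) (pti_M_le_E q K Ω L)).toAlgebra

attribute [local instance] pti_algebraME

theorem pti_towerQME : IsScalarTower ℚ_[q] (pti_M q K Ω L) (pti_E q K Ω L) :=
  IsScalarTower.of_algebraMap_eq (fun _ => rfl)

theorem pti_towerKME : IsScalarTower K (pti_M q K Ω L) (pti_E q K Ω L) :=
  IsScalarTower.of_algebraMap_eq (fun _ => rfl)

attribute [local instance] pti_towerQME pti_towerKME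

theorem pti_finrank_pos : 0 < Module.finrank K L := Module.finrank_pos

theorem pti_lvl_ne_zero : pti_lvl q K Ω L ≠ 0 := by
  have hN1 : 1 < Nat.card (ptl_k q K) := ptl_one_lt_card_k q K
  have : 2 ≤ Nat.card (ptl_k q K) ^ Module.finrank K L := by
    calc 2 ≤ Nat.card (ptl_k q K) := hN1
      _ = Nat.card (ptl_k q K) ^ 1 := (pow_one _).symm
      _ ≤ Nat.card (ptl_k q K) ^ Module.finrank K L :=
        Nat.pow_le_pow_right (by omega) (pti_finrank_pos K Ω L)
  show Nat.card (ptl_k q K) ^ Module.finrank K L - 1 ≠ 0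
  omega

theorem pti_finiteDimensional_E : FiniteDimensional K (pti_E q K Ω L) :=
  FiniteDimensional.trans K L (pti_E q K Ω L)

theorem pti_isGalois_E : IsGalois K (pti_E q K Ω L) := by
  have := ptl_charZero q K
  have : NeZero (pti_lvl q K Ω L) := ⟨pti_lvl_ne_zero q K Ω L⟩
  exact pti_isGalois_of_cyclotomic K L (pti_E q K Ω L) (pti_lvl q K Ω L)

attribute [local instance] pti_finiteDimensional_E pti_isGalois_E

theorem pti_hinjM : Function.Injective (ptl_galRes q K (pti_M q K Ω L)) :=
  ptl_Kn_injective q K Ω (pti_finrank_pos K Ω L)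

theorem pti_hinjE : Function.Injective (ptl_galRes q L (pti_E q K Ω L)) :=
  ptl_cycField_injective q L Ω (ptl_coprime_card_pow_sub_one q K (pti_finrank_pos K Ω L))

theorem pti_finrank_M : Module.finrank K (pti_M q K Ω L) = Module.finrank K L :=
  ptl_Kn_finrank q K Ω (pti_finrank_pos K Ω L)

theorem pti_finrank_E : Module.finrank L (pti_E q K Ω L) =
    Module.finrank K (pti_M q K Ω L) /
      Nat.gcd (Module.finrank K (pti_M q K Ω L)) (ptl_f q K L) := by
  rw [pti_finrank_M]
  exact ptl_cycField_finrank q K L Ω (pti_finrank_pos K Ω L)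

/-- `u` is a fundamental cocycle of `L/K` (relative to `K_n ⊆ L·K_n ⊆ Ω`, `n = [L:K]`). -/
def pti_IsFundL (u : (L ≃ₐ[K] L) × (L ≃ₐ[K] L) → (↥L)ˣ) : Prop :=
  pti_IsFund q K L (pti_M q K Ω L) (pti_E q K Ω L) (pti_hinjM q K Ω L) u

theorem pti_exists_isFundL : ∃ u, pti_IsFundL q K Ω L u :=
  pti_exists_isFund q K L (pti_M q K Ω L) (pti_E q K Ω L) (pti_hinjM q K Ω L)
    (pti_hinjE q K Ω L) (pti_finrank_M q K Ω L) (pti_finrank_E q K Ω L)

/-- **The fundamental 2-cocycle** `u_{L/K}` of a finite Galois extension `L/K` inside `Ω`. -/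
noncomputable def pti_fundCocycle : (L ≃ₐ[K] L) × (L ≃ₐ[K] L) → (↥L)ˣ :=
  Classical.choose (pti_exists_isFundL q K Ω L)

theorem pti_fundCocycle_isFundL : pti_IsFundL q K Ω L (pti_fundCocycle q K Ω L) :=
  Classical.choose_spec (pti_exists_isFundL q K Ω L)

theorem pti_fundCocycle_isMulCocycle₂ : IsMulCocycle₂ (pti_fundCocycle q K Ω L) :=
  (pti_fundCocycle_isFundL q K Ω L).1

/-- `u_{L/K} ^ m` splits only if `[L:K] ∣ m`. -/
theorem pti_fundCocycle_dvd_of_zpow (m : ℤ)
    (hm : IsMulCoboundary₂ (pti_fundCocycle q K Ω L ^ m)) : (Module.finrank K L : ℤ) ∣ m :=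
  (pti_fundCocycle_isFundL q K Ω L).dvd_of_zpow (pti_finrank_M q K Ω L) m hm

/-- **L4**: the class-module axioms at `p` for `(Gal(L/K), Lˣ, u_{L/K})`. -/
theorem pti_fundCocycle_mulClassData (p : ℕ) [Fact p.Prime] :
    ptc_MulClassData {U : Subgroup (L ≃ₐ[K] L) | IsPGroup p U} (pti_fundCocycle q K Ω L) :=
  pti_local_mulClassData q p K L _ (pti_fundCocycle_isMulCocycle₂ q K Ω L)
    (pti_fundCocycle_dvd_of_zpow q K Ω L)

end Local

end Fermat.Agent.Lib.PT
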