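/-
**Compatibility of the local fundamental cocycles under inflation** (S55, L4): for finite Galois
`L ≤ L'` over `K` inside `Ω`, `pti_inflL h u_{L/K} ~ u_{L'/K} ^ ([L':K]/[L:K])`
(`pti_fundCocycle_compat`), where `pti_inflL h c (σ, τ) = c (σ|_L, τ|_L)` viewed in `L'ˣ` and
`pti_galRestrict h : Gal(L'/K) →* Gal(L/K)` is the restriction (`pti_galRestrict_apply`,
`pti_galRestrict_restrictNormalHom`).
-/
import Fermat.Agent.Lib.PT.BrauerLocal
import Fermat.Agent.Lib.PT.BrauerCompatA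

set_option autoImplicit false
set_option linter.unusedSectionVars false
namespace Fermat.Agent.Lib.PT
open groupCohomology

section Local

variable (q : ℕ) [Fact q.Prime]
variable (K Ω : Type) [Field K] [Algebra ℚ_[q] K] [FiniteDimensional ℚ_[q] K]
  [Field Ω] [Algebra K Ω] [Algebra ℚ_[q] Ω] [IsScalarTower ℚ_[q] K Ω] [IsAlgClosed Ω] [CharZero Ω]
  (L L' : IntermediateField K Ω) [FiniteDimensional K L] [IsGalois K L]
  [FiniteDimensional K L'] [IsGalois K L'] (h : L ≤ L')

attribute [local instance] pti_isScalarTower_top pti_finiteDimensional_L pti_algebraME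
  pti_towerQME pti_towerKME pti_finiteDimensional_E pti_isGalois_E

/-- The inclusion `L ⊆ L'` as an algebra structure. -/
@[reducible] noncomputable def pti_algebraLL : Algebra L L' :=
  (pti_inclHom L L' (fun _ hx => h hx)).toAlgebra

include h in
theorem pti_finrank_dvd : Module.finrank K L ∣ Module.finrank K L' := by
  letI := pti_algebraLL K Ω L L' h
  haveI : IsScalarTower K L L' := IsScalarTower.of_algebraMap_eq (fun _ => rfl)
  exact ⟨Module.finrank L L', (Module.finrank_mul_finrank K L L').symm⟩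

include h in
theorem pti_M_le_M (x : Ω) (hx : x ∈ pti_M q K Ω L) : x ∈ pti_M q K Ω L' :=
  ptl_Kn_mono q K Ω (pti_finrank_pos K Ω L') (pti_finrank_dvd K Ω L L' h) hx

include h in
theorem pti_lvl_dvd : pti_lvl q K Ω L ∣ pti_lvl q K Ω L' :=
  Nat.pow_sub_one_dvd_pow_sub_one _ (pti_finrank_dvd K Ω L L' h)

include h in
theorem pti_E_le_E (x : Ω) (hx : x ∈ pti_E q K Ω L) : x ∈ pti_E q K Ω L' := by
  letI := pti_algebraLL K Ω L L' h
  haveI : IsScalarTower L L' Ω := IsScalarTower.of_algebraMap_eq (fun _ => rfl)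
  have hle : pti_E q K Ω L ≤ (pti_E q K Ω L').restrictScalars L := by
    rw [pti_E, ptl_cycField, IntermediateField.adjoin_le_iff]
    rintro b ⟨m', hm', -, hb⟩
    rw [Set.mem_singleton_iff] at hm'
    subst hm'
    obtain ⟨c, hc⟩ := pti_lvl_dvd q K Ω L L' h
    refine ptl_root_mem_cycField L' Ω (pti_lvl_ne_zero q K Ω L') ?_
    rw [hc, pow_mul, hb, one_pow]
  exact hle hx

/-- Restriction of automorphisms `Gal(L'/K) → Gal(L/K)` for `L ≤ L'` inside `Ω`. -/
noncomputable def pti_galRestrict : (L' ≃ₐ[K] L') →* (L ≃ₐ[K] L) :=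
  letI := pti_algebraLL K Ω L L' h
  haveI : IsScalarTower K L L' := IsScalarTower.of_algebraMap_eq (fun _ => rfl)
  AlgEquiv.restrictNormalHom L

theorem pti_galRestrict_apply (σ : L' ≃ₐ[K] L') (x : L) :
    ((pti_galRestrict K Ω L L' h σ x : L) : Ω) = (σ (IntermediateField.inclusion h x) : Ω) := by
  letI := pti_algebraLL K Ω L L' h
  haveI : IsScalarTower K L L' := IsScalarTower.of_algebraMap_eq (fun _ => rfl)
  exact congrArg (fun y : L' => (y : Ω)) (AlgEquiv.restrictNormal_commutes σ L x)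

/-- Inflation of 2-cochains from `Gal(L/K)` to `Gal(L'/K)` for `L ≤ L'` inside `Ω`. -/
noncomputable def pti_inflL (c : (L ≃ₐ[K] L) × (L ≃ₐ[K] L) → (↥L)ˣ) :
    (L' ≃ₐ[K] L') × (L' ≃ₐ[K] L') → (↥L')ˣ :=
  fun p => Units.map ((IntermediateField.inclusion h : L →ₐ[K] L') : L →* L')
    (c (pti_galRestrict K Ω L L' h p.1, pti_galRestrict K Ω L L' h p.2))

/-- **Compatibility of the fundamental cocycles under inflation**: for `L ≤ L'` finite Galois over
`K` inside `Ω`, `inf u_{L/K} ~ u_{L'/K} ^ [L':L]` in `Z²(Gal(L'/K), L'ˣ)`. -/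
theorem pti_fundCocycle_compat :
    IsMulCoboundary₂ (pti_inflL K Ω L L' h (pti_fundCocycle q K Ω L) /
      pti_fundCocycle q K Ω L' ^ (Module.finrank K L' / Module.finrank K L)) := by
  letI := pti_algebraLL K Ω L L' h
  letI aMM : Algebra (pti_M q K Ω L) (pti_M q K Ω L') :=
    (pti_inclHom _ _ (pti_M_le_M q K Ω L L' h)).toAlgebra
  letI aEE : Algebra (pti_E q K Ω L) (pti_E q K Ω L') :=
    (pti_inclHom _ _ (pti_E_le_E q K Ω L L' h)).toAlgebra
  letI aLE : Algebra L (pti_E q K Ω L') :=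
    (pti_inclHom L (pti_E q K Ω L') (fun x hx => (pti_E q K Ω L').algebraMap_mem ⟨x, h hx⟩)).toAlgebra
  letI aME : Algebra (pti_M q K Ω L) (pti_E q K Ω L') :=
    (pti_inclHom _ _ (fun x hx => pti_M_le_E q K Ω L' x (pti_M_le_M q K Ω L L' h x hx))).toAlgebra
  haveI : IsScalarTower K L L' := IsScalarTower.of_algebraMap_eq (fun _ => rfl)
  haveI : IsScalarTower K (pti_M q K Ω L) (pti_M q K Ω L') :=
    IsScalarTower.of_algebraMap_eq (fun _ => rfl)
  haveI : IsScalarTower K (pti_E q K Ω L) (pti_E q K Ω L') :=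
    IsScalarTower.of_algebraMap_eq (fun _ => rfl)
  haveI : IsScalarTower K L (pti_E q K Ω L') := IsScalarTower.of_algebraMap_eq (fun _ => rfl)
  haveI : IsScalarTower K (pti_M q K Ω L) (pti_E q K Ω L') :=
    IsScalarTower.of_algebraMap_eq (fun _ => rfl)
  haveI : IsScalarTower L L' (pti_E q K Ω L') := IsScalarTower.of_algebraMap_eq (fun _ => rfl)
  haveI : IsScalarTower L (pti_E q K Ω L) (pti_E q K Ω L') :=
    IsScalarTower.of_algebraMap_eq (fun _ => rfl)
  haveI : IsScalarTower (pti_M q K Ω L) (pti_M q K Ω L') (pti_E q K Ω L') :=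
    IsScalarTower.of_algebraMap_eq (fun _ => rfl)
  haveI : IsScalarTower (pti_M q K Ω L) (pti_E q K Ω L) (pti_E q K Ω L') :=
    IsScalarTower.of_algebraMap_eq (fun _ => rfl)
  haveI : IsScalarTower ℚ_[q] (pti_M q K Ω L) (pti_M q K Ω L') :=
    IsScalarTower.of_algebraMap_eq (fun _ => rfl)
  have hunr := pti_unr_compat q K (pti_M q K Ω L) (pti_M q K Ω L') (pti_hinjM q K Ω L)
    (pti_hinjM q K Ω L')
  rw [pti_finrank_M, pti_finrank_M] at hunr
  exact pti_IsFund.compat q K L L' (pti_M q K Ω L) (pti_M q K Ω L') (pti_E q K Ω L)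
    (pti_E q K Ω L') (pti_hinjM q K Ω L) (pti_hinjM q K Ω L')
    (pti_fundCocycle_isFundL q K Ω L) (pti_fundCocycle_isFundL q K Ω L') _ hunr

/-- Restriction in two steps `Gal(Ω/K) → Gal(L'/K) → Gal(L/K)` is restriction to `L`. -/
theorem pti_galRestrict_restrictNormalHom (σ : Ω ≃ₐ[K] Ω) :
    pti_galRestrict K Ω L L' h (AlgEquiv.restrictNormalHom L' σ) =
      AlgEquiv.restrictNormalHom L σ := by
  ext x
  rw [pti_galRestrict_apply, AlgEquiv.restrictNormalHom_apply, AlgEquiv.restrictNormalHom_apply]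
  rfl

end Local

end Fermat.Agent.Lib.PT
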