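/-
Compatibility of fundamental cocycles under inflation, abstract part.
* `pti_unr_compat`     : for unramified `M ⊆ M'` over `K` of degrees `n ∣ n'`,
  `inf c_n ~ c_{n'} ^ (n'/n)` (helper6's unramified cocycles);
* `pti_IsFund.compat`  : hence `inf u_{L/K} ~ u_{L'/K} ^ d` for fundamental cocycles attached to
  compatible auxiliary data `(M, E) ⊆ (M', E')`.
-/
import Fermat.Agent.Lib.PT.BrauerFund

set_option autoImplicit false
set_option linter.unusedSectionVars false
namespace Fermat.Agent.Lib.PT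
open groupCohomology

variable (q : ℕ) [Fact q.Prime]

section Compat

variable (K L L' M M' E E' : Type*) [Field K] [Field L] [Field L'] [Field M] [Field M'] [Field E]
  [Field E']
  [Algebra ℚ_[q] K] [FiniteDimensional ℚ_[q] K]
  [Algebra ℚ_[q] L] [FiniteDimensional ℚ_[q] L] [Algebra ℚ_[q] L'] [FiniteDimensional ℚ_[q] L']
  [Algebra ℚ_[q] M] [FiniteDimensional ℚ_[q] M] [Algebra ℚ_[q] M'] [FiniteDimensional ℚ_[q] M']
  [Algebra ℚ_[q] E] [FiniteDimensional ℚ_[q] E] [Algebra ℚ_[q] E'] [FiniteDimensional ℚ_[q] E']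
  [Algebra K L] [Algebra K M] [Algebra L E] [Algebra M E] [Algebra K E]
  [Algebra K L'] [Algebra K M'] [Algebra L' E'] [Algebra M' E'] [Algebra K E']
  [IsScalarTower ℚ_[q] K L] [IsScalarTower ℚ_[q] K M] [IsScalarTower ℚ_[q] L E]
  [IsScalarTower ℚ_[q] M E] [IsScalarTower K L E] [IsScalarTower K M E]
  [IsScalarTower ℚ_[q] K L'] [IsScalarTower ℚ_[q] K M'] [IsScalarTower ℚ_[q] L' E']
  [IsScalarTower ℚ_[q] M' E'] [IsScalarTower K L' E'] [IsScalarTower K M' E']
  [FiniteDimensional K M] [IsGalois K M] [FiniteDimensional L E] [IsGalois L E]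
  [FiniteDimensional K L] [IsGalois K L] [FiniteDimensional K E] [IsGalois K E]
  [FiniteDimensional K M'] [IsGalois K M'] [FiniteDimensional L' E'] [IsGalois L' E']
  [FiniteDimensional K L'] [IsGalois K L'] [FiniteDimensional K E'] [IsGalois K E']
  -- the connecting inclusions
  [Algebra L L'] [Algebra M M'] [Algebra E E'] [Algebra L E'] [Algebra M E']
  [IsScalarTower K L L'] [IsScalarTower K M M'] [IsScalarTower K E E'] [IsScalarTower K L E']
  [IsScalarTower K M E'] [IsScalarTower L L' E'] [IsScalarTower L E E'] [IsScalarTower M M' E']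
  [IsScalarTower M E E']
  (hinj : Function.Injective (ptl_galRes q K M)) (hinj' : Function.Injective (ptl_galRes q K M'))

/-- **Compatibility of fundamental cocycles under inflation** (abstract form): if the unramified
cocycles are compatible (`inf c_n ~ c_{n'} ^ d`), then so are the fundamental cocycles. -/
theorem pti_IsFund.compat {u : (L ≃ₐ[K] L) × (L ≃ₐ[K] L) → Lˣ}
    {u' : (L' ≃ₐ[K] L') × (L' ≃ₐ[K] L') → L'ˣ}
    (hu : pti_IsFund q K L M E hinj u) (hu' : pti_IsFund q K L' M' E' hinj' u') (d : ℕ)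
    (hunr : IsMulCoboundary₂ (pti_infl K M M' (ptl_unrCocycle q K M hinj) /
      ptl_unrCocycle q K M' hinj' ^ d)) :
    IsMulCoboundary₂ (pti_infl K L L' u / u' ^ d) := by
  have hcoc : IsMulCocycle₂ (pti_infl K L L' u / u' ^ d) :=
    ptl_isMulCocycle₂_div (pti_infl_isMulCocycle₂ K L L' hu.1) (ptl_isMulCocycle₂_pow hu'.1 d)
  apply pti_infl_injective K L' E' hcoc
  rw [pti_infl_div, pti_infl_pow, pti_infl_trans K L L' E' u, ← pti_infl_trans K L E E' u]
  -- (3) inflate `hu.2` from `E` to `E'`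
  have h3 := pti_infl_isMulCoboundary₂ K E E' hu.2
  rw [pti_infl_div, pti_infl_trans K M E E', ← pti_infl_trans K M M' E'] at h3
  -- (5) inflate `hunr` from `M'` to `E'`
  have h5 := pti_infl_isMulCoboundary₂ K M' E' hunr
  rw [pti_infl_div, pti_infl_pow] at h5
  -- (6) `hu'.2 ^ d`
  have h6 := ptl_isMulCoboundary₂_pow hu'.2 d
  rw [div_pow] at h6
  have h7 := ptl_isMulCoboundary₂_div (ptl_isMulCoboundary₂_mul h3 h5) h6
  convert h7 using 1
  rw [div_mul_div_cancel, div_div_div_cancel_right]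

end Compat

section Unr

variable (K M M' : Type*) [Field K] [Field M] [Field M']
  [Algebra ℚ_[q] K] [FiniteDimensional ℚ_[q] K]
  [Algebra ℚ_[q] M] [FiniteDimensional ℚ_[q] M] [Algebra ℚ_[q] M'] [FiniteDimensional ℚ_[q] M']
  [Algebra K M] [Algebra K M'] [Algebra M M']
  [IsScalarTower ℚ_[q] K M] [IsScalarTower ℚ_[q] K M'] [IsScalarTower ℚ_[q] M M']
  [IsScalarTower K M M']
  [FiniteDimensional K M] [IsGalois K M] [FiniteDimensional K M'] [IsGalois K M']
  (hinj : Function.Injective (ptl_galRes q K M)) (hinj' : Function.Injective (ptl_galRes q K M'))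

theorem pti_unrCocycleRes_eq_infl :
    ptl_unrCocycleRes q K K M M' hinj = pti_infl K M M' (ptl_unrCocycle q K M hinj) := by
  funext p
  rfl

theorem pti_f_self : ptl_f q K K = 1 := by
  have h := ptl_e_mul_f q K K
  rw [Module.finrank_self] at h
  exact Nat.eq_one_of_mul_eq_one_left h

/-- **Compatibility of the unramified cocycles**: for unramified `M ⊆ M'` over `K` of degrees
`n ∣ n'`, the inflation of `c_n` is cohomologous to `c_{n'} ^ (n'/n)`. -/
theorem pti_unr_compat :
    IsMulCoboundary₂ (pti_infl K M M' (ptl_unrCocycle q K M hinj) /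
      ptl_unrCocycle q K M' hinj' ^ (Module.finrank K M' / Module.finrank K M)) := by
  have hdvd : Module.finrank K M ∣ Module.finrank K M' :=
    ⟨Module.finrank M M', (Module.finrank_mul_finrank K M M').symm⟩
  have hnpos : 0 < Module.finrank K M := Module.finrank_pos
  have hτ' := ptl_frob_generates q K M' hinj'
  have hn' := ptl_orderOf_frob_pos q K M' hinj'
  have hc : IsMulCocycle₂ (pti_infl K M M' (ptl_unrCocycle q K M hinj) /
      ptl_unrCocycle q K M' hinj' ^ (Module.finrank K M' / Module.finrank K M)) :=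
    ptl_isMulCocycle₂_div (pti_infl_isMulCocycle₂ K M M' (ptl_unrCocycle_isMulCocycle₂ q K M hinj))
      (ptl_isMulCocycle₂_pow (ptl_unrCocycle_isMulCocycle₂ q K M' hinj') _)
  by_cases h1 : Module.finrank K M' = 1
  · rw [ptl_unr_isMulCoboundary₂_iff q K M' hinj' hc, h1]
    exact one_dvd _
  have hlt : 1 < orderOf (ptl_frob q K M' hinj') := by
    rw [ptl_orderOf_frob]
    have : 0 < Module.finrank K M' := Module.finrank_pos
    omega
  have hsum := ptl_wrap_sum (n := Module.finrank K M) (n' := Module.finrank K M') (f := 1)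
    (by rw [one_mul]; exact hdvd)
  rw [ptl_isMulCoboundary₂_iff hτ' hn' hc, ptl_cycPsi_div, ptl_cycPsi_pow,
    ← pti_unrCocycleRes_eq_infl, ptl_cycPsi_unrCocycleRes q K K M M' hinj hinj', pti_f_self,
    ptl_unrCocycle, ptl_cycPsi_cycCocycle hlt]
  have hid : Units.map (algebraMap K K : K →* K) (ptl_unifUnit q K) = ptl_unifUnit q K :=
    Units.ext rfl
  rw [hid]
  obtain ⟨S0, hS0def⟩ : ∃ S0 : ℕ, S0 = ∑ i ∈ Finset.range (Module.finrank K M'),
      ((1 * i) % Module.finrank K M + 1 % Module.finrank K M) / Module.finrank K M := ⟨_, rfl⟩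
  rw [← hS0def] at hsum ⊢
  have hkey : Units.map (algebraMap K M' : K →* M') (ptl_unifUnit q K) ^ S0 /
      Units.map (algebraMap K M' : K →* M') (ptl_unifUnit q K) ^
        (Module.finrank K M' / Module.finrank K M) =
      Units.map (algebraMap K M' : K →* M')
        (ptl_unifUnit q K ^ ((S0 : ℤ) - ((Module.finrank K M' / Module.finrank K M : ℕ) : ℤ))) := by
    rw [map_zpow, zpow_sub, zpow_natCast, zpow_natCast]
    rfl
  rw [hkey, ptl_mem_range_cycNorm_frob_iff, Units.val_zpow_eq_zpow_val, ptl_ordZ_zpow,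
    ptl_unifUnit_val, ptl_ordZ_unif, mul_one]
  -- arithmetic: `n * S0 = n' * (1 % n)`, `d = n' / n`
  obtain ⟨d, hd⟩ := hdvd
  rw [hd] at hsum
  rw [hd, Nat.mul_div_cancel_left d hnpos]
  by_cases hn1 : Module.finrank K M = 1
  · rw [hn1] at hsum ⊢
    have hS00 : S0 = 0 := by simpa using hsum
    rw [hS00, one_mul]
    simp
  · have hmod : 1 % Module.finrank K M = 1 := Nat.mod_eq_of_lt (by omega)
    rw [hmod, mul_one] at hsum
    have hS0d : S0 = d := Nat.eq_of_mul_eq_mul_left hnpos hsum
    rw [hS0d, sub_self]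
    exact dvd_zero _

end Unr

end Fermat.Agent.Lib.PT
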