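/-
Cyclic groups presented by an injective character `χ : Γ → ZMod n` with `χ τ = 1`:
`τ` generates, `orderOf τ = n`, helper6's discrete logarithm is `ZMod.val ∘ χ`, and the Bockstein
cocycle `a · δχ` (`pti_bockPow`) IS helper6's standard cyclic cocycle `ptl_cycCocycle τ a`.
Also: in a module whose `H²` has order dividing `N`, a cocycle of exact order `N` generates
(`pti_exists_zpow_cohomologous`).
-/
import Fermat.Agent.Lib.PT.BrauerBock
import Fermat.Agent.Lib.PT.BrauerBound

set_option autoImplicit false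
set_option linter.unusedSectionVars false
namespace Fermat.Agent.Lib.PT
open groupCohomology

section CycChar

variable {Γ : Type*} [Group Γ] {n : ℕ} [NeZero n] {χ : Γ → ZMod n}
  (hχ : ptd_IsChar χ) (hinj : Function.Injective χ) {τ : Γ} (hτ : χ τ = 1)

include hχ hτ in
theorem pti_char_pow (k : ℕ) : χ (τ ^ k) = (k : ZMod n) := by
  rw [pti_isChar_pow hχ, hτ, nsmul_eq_mul, mul_one]

include hχ hinj hτ in
theorem pti_char_pow_val (g : Γ) : τ ^ (χ g).val = g := by
  apply hinj
  rw [pti_char_pow hχ hτ, ZMod.natCast_zmod_val]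

include hχ hinj hτ in
theorem pti_char_orderOf : orderOf τ = n := by
  rw [orderOf_eq_iff (Nat.pos_of_ne_zero (NeZero.ne n))]
  refine ⟨?_, fun m hm hm0 h1 => ?_⟩
  · apply hinj
    rw [pti_char_pow hχ hτ, pti_isChar_one hχ, ZMod.natCast_self]
  · have h2 := pti_char_pow hχ hτ m
    rw [h1, pti_isChar_one hχ] at h2
    have h3 := (ZMod.natCast_eq_zero_iff m n).mp h2.symm
    exact absurd (Nat.le_of_dvd hm0 h3) (not_le.mpr hm)

include hχ hinj hτ in
theorem pti_char_mem_zpowers (g : Γ) : g ∈ Subgroup.zpowers τ :=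
  ⟨((χ g).val : ℤ), by
    show τ ^ ((χ g).val : ℤ) = g
    rw [zpow_natCast]; exact pti_char_pow_val hχ hinj hτ g⟩

include hχ hinj hτ in
theorem pti_char_clog (g : Γ) : ptl_clog τ g = (χ g).val := by
  apply ptl_clog_of_pow_eq _ (pti_char_pow_val hχ hinj hτ g)
  rw [pti_char_orderOf hχ hinj hτ]
  exact ZMod.val_lt _

include hχ in
theorem pti_bock_eq_div (g h : Γ) :
    ptd_bock n χ (g, h) = ((((χ g).val + (χ h).val) / n : ℕ) : ℤ) := by
  have hn : (n : ℤ) ≠ 0 := by exact_mod_cast (NeZero.ne n)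
  apply mul_left_cancel₀ hn
  rw [pti_mul_bock hχ, hχ g h, ZMod.val_add]
  have := Nat.div_add_mod ((χ g).val + (χ h).val) n
  push_cast
  have h2 : ((n : ℤ) * ((((χ g).val + (χ h).val) / n : ℕ) : ℤ)) +
      (((((χ g).val + (χ h).val) % n : ℕ)) : ℤ) = ((χ g).val : ℤ) + ((χ h).val : ℤ) := by
    exact_mod_cast this
  push_cast at h2
  linarith

variable {A : Type*} [CommGroup A] [MulDistribMulAction Γ A]

include hχ hinj hτ in
/-- The Bockstein cocycle `a · δχ` is helper6's standard cyclic cocycle of the generator `τ`. -/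
theorem pti_bockPow_eq_cycCocycle (a : A) : pti_bockPow n χ a = ptl_cycCocycle τ a := by
  funext ⟨g, h⟩
  rw [pti_bockPow_apply, ptl_cycCocycle_apply, pti_char_clog hχ hinj hτ, pti_char_clog hχ hinj hτ,
    pti_char_orderOf hχ hinj hτ, pti_bock_eq_div hχ, zpow_natCast]

end CycChar

section Gen

variable {Γ : Type} [Group Γ] {A : Type} [CommGroup A] [MulDistribMulAction Γ A]

/-- If `#H²(Γ, A) ∣ N` and the cocycle `u` has exact order `N`, every 2-cocycle is cohomologous to
a power of `u`. -/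
theorem pti_exists_zpow_cohomologous (N : ℕ) (hN : N ≠ 0) {u f : Γ × Γ → A}
    (hu : IsMulCocycle₂ u) (hf : IsMulCocycle₂ f)
    (hord : ∀ m : ℤ, IsMulCoboundary₂ (u ^ m) → (N : ℤ) ∣ m)
    (hcard : Nat.card (groupCohomology (Rep.ofMulDistribMulAction Γ A) 2) ∣ N) :
    ∃ k : ℤ, IsMulCoboundary₂ (f / u ^ k) := by
  obtain ⟨k, hk⟩ := pti_gen_of_card_dvd
    (H2π (Rep.ofMulDistribMulAction Γ A) (cocyclesOfIsMulCocycle₂ hu)) N hN hcard
    (fun m hm => by
      rw [← map_zsmul, H2π_eq_zero_iff] at hm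
      refine hord m ?_
      have := isMulCoboundary₂_of_mem_coboundaries₂ (G := Γ) (M := A) _ hm
      exact this)
    (H2π (Rep.ofMulDistribMulAction Γ A) (cocyclesOfIsMulCocycle₂ hf))
  refine ⟨k, ?_⟩
  rw [← map_zsmul, H2π_eq_iff] at hk
  have := isMulCoboundary₂_of_mem_coboundaries₂ (G := Γ) (M := A) _ hk
  exact this

end Gen

end Fermat.Agent.Lib.PT
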