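/-
Local input for (H-cyc): for a CYCLIC extension `L/K` of local fields (inside `Ω`) with generator
`τ` there is `a ∈ Kˣ` whose cyclic cocycle `c_a = a·δχ` has exact order `[L:K]`, equivalently
`a ^ m ∈ N_{L/K} Lˣ ⇒ [L:K] ∣ m` (`Kˣ / N Lˣ` contains an element of order `[L:K]`).
Take `a = ψ(u_{L/K})`.
-/
import Fermat.Agent.Lib.PT.BrauerLocal

set_option autoImplicit false
set_option linter.unusedSectionVars false

namespace Fermat.Agent.Lib.PT

open groupCohomology

section CycOrder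

variable (q : ℕ) [Fact q.Prime]
variable (K Ω : Type) [Field K] [Algebra ℚ_[q] K] [FiniteDimensional ℚ_[q] K]
  [Field Ω] [Algebra K Ω] [Algebra ℚ_[q] Ω] [IsScalarTower ℚ_[q] K Ω] [IsAlgClosed Ω] [CharZero Ω]
  (L : IntermediateField K Ω) [FiniteDimensional K L] [IsGalois K L]

/-- For a generator `τ` of `Gal(L/K)`: some `a ∈ Kˣ` has cyclic cocycle `c_a` of exact order
`[L:K]`, and `c_a` is cohomologous to the fundamental cocycle. -/
theorem pti_exists_cycCocycle_order (τ : L ≃ₐ[K] L) (hτ : ∀ g, g ∈ Subgroup.zpowers τ) :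
    ∃ a : Kˣ, IsMulCoboundary₂ (pti_fundCocycle q K Ω L /
        ptl_cycCocycle τ (Units.map (algebraMap K L : K →* L) a)) ∧
      ∀ m : ℕ, IsMulCoboundary₂ (ptl_cycCocycle τ (Units.map (algebraMap K L : K →* L) a) ^ m) →
        Module.finrank K L ∣ m := by
  have hn : 0 < orderOf τ := orderOf_pos τ
  have hu := pti_fundCocycle_isMulCocycle₂ q K Ω L
  have hfix := ptl_smul_cycPsi hτ hu
  obtain ⟨a, ha⟩ : ∃ a : K, algebraMap K L a =
      ((ptl_cycPsi τ (pti_fundCocycle q K Ω L) : (↥L)ˣ) : L) :=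
    (IsGalois.mem_range_algebraMap_iff_fixed _).mpr
      (fun σ => congrArg (fun u : (↥L)ˣ => (u : L)) (hfix σ))
  have ha0 : a ≠ 0 := by
    rintro rfl
    rw [map_zero] at ha
    exact (Units.ne_zero _) ha.symm
  have hau : Units.map (algebraMap K L : K →* L) (Units.mk0 a ha0) =
      ptl_cycPsi τ (pti_fundCocycle q K Ω L) := Units.ext ha
  have hdiv := ptl_cocycle_div_isMulCoboundary₂ hτ hn hu
  refine ⟨Units.mk0 a ha0, by rw [hau]; exact hdiv, fun m hm => ?_⟩
  rw [hau] at hm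
  have h1 := ptl_isMulCoboundary₂_mul (ptl_isMulCoboundary₂_pow hdiv m) hm
  rw [← mul_pow, div_mul_cancel] at h1
  have h2 := pti_fundCocycle_dvd_of_zpow q K Ω L (m : ℤ) (by rw [zpow_natCast]; exact h1)
  exact_mod_cast h2

include q in
/-- **`Kˣ / N_{L/K} Lˣ` contains an element of order `[L:K]`** for `L/K` cyclic. -/
theorem pti_exists_norm_order [IsCyclic (L ≃ₐ[K] L)] :
    ∃ a : Kˣ, ∀ m : ℕ, (∃ y : L, Algebra.norm K y = (a : K) ^ m) → Module.finrank K L ∣ m := by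
  classical
  obtain ⟨τ, hτ⟩ := IsCyclic.exists_generator (α := L ≃ₐ[K] L)
  have hn : 0 < orderOf τ := orderOf_pos τ
  obtain ⟨a, -, ha⟩ := pti_exists_cycCocycle_order q K Ω L τ hτ
  refine ⟨a, fun m hm => ha m ?_⟩
  obtain ⟨y, hy⟩ := hm
  have hy0 : y ≠ 0 := by
    rintro rfl
    rw [Algebra.norm_zero] at hy
    exact (pow_ne_zero m a.ne_zero) hy.symm
  rw [ptl_cycCocycle_pow_isMulCoboundary₂_iff hτ hn
    (fun g => ptl_smul_unitsMap K L g a)]
  refine ⟨Units.mk0 y hy0, Units.ext ?_⟩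
  rw [ptl_cycNorm_eq_prod hτ hn, Units.coe_prod, Units.val_pow_eq_pow_val, Units.coe_map,
    MonoidHom.coe_coe, ← map_pow, ← hy, Algebra.norm_eq_prod_automorphisms]
  rfl

end CycOrder

end Fermat.Agent.Lib.PT
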