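/-
Unramified normalisation of the fundamental cocycle.
* `pti_galRes_injective_trans` : "unramified" (faithful residue action) is transitive in towers;
* `pti_fundCocycle_unr`        : if `L/K` is unramified then `u_{L/K} ~ c_n` (helper6's standard
  cocycle `ptl_unrCocycle`, `n = [L:K]`);
* `pti_unr_cohomologous_zpow`  : every 2-cocycle `c` of an unramified `L/K` is cohomologous to
  `u_{L/K} ^ v_L(ψ c)` (so `inv c = v_L(ψ c) / n`).
-/
import Fermat.Agent.Lib.PT.BrauerCompat
import Fermat.Agent.Lib.PT.LocUnrTower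

set_option autoImplicit false
set_option linter.unusedSectionVars false
namespace Fermat.Agent.Lib.PT
open groupCohomology

variable (q : ℕ) [Fact q.Prime]

section Trans

variable (K L E : Type*) [Field K] [Algebra ℚ_[q] K] [Algebra.IsAlgebraic ℚ_[q] K]
  [Field L] [Algebra ℚ_[q] L] [Algebra.IsAlgebraic ℚ_[q] L]
  [Field E] [Algebra ℚ_[q] E] [Algebra.IsAlgebraic ℚ_[q] E]
  [Algebra K L] [Algebra L E] [Algebra K E]
  [IsScalarTower ℚ_[q] K L] [IsScalarTower ℚ_[q] K E] [IsScalarTower ℚ_[q] L E]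
  [IsScalarTower K L E] [Normal K L]

/-- The residue action of `σ|_L` is the restriction of the residue action of `σ`. -/
theorem pti_galRes_restrictNormal (σ : E ≃ₐ[K] E) (x : ptl_O q L) :
    algebraMap (ptl_k q L) (ptl_k q E)
      (ptl_galRes q K L (AlgEquiv.restrictNormalHom L σ) (IsLocalRing.residue (ptl_O q L) x)) =
    ptl_galRes q K E σ (algebraMap (ptl_k q L) (ptl_k q E) (IsLocalRing.residue (ptl_O q L) x)) := by
  rw [ptl_galRes_residue, ptl_algebraMap_k_residue, ptl_algebraMap_k_residue, ptl_galRes_residue]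
  congr 1
  apply Subtype.ext
  exact AlgEquiv.restrictNormal_commutes σ L (x : L)

/-- **Unramified is transitive**: if `L/K` and `E/L` are unramified (faithful residue actions),
so is `E/K`. -/
theorem pti_galRes_injective_trans (h1 : Function.Injective (ptl_galRes q K L))
    (h2 : Function.Injective (ptl_galRes q L E)) : Function.Injective (ptl_galRes q K E) := by
  rw [injective_iff_map_eq_one]
  intro σ hσ
  -- `σ|_L = 1`
  have hρ : AlgEquiv.restrictNormalHom L σ = 1 := by
    apply h1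
    rw [map_one]
    ext x
    obtain ⟨x, rfl⟩ := IsLocalRing.residue_surjective x
    apply (algebraMap (ptl_k q L) (ptl_k q E)).injective
    rw [pti_galRes_restrictNormal, hσ]
    rfl
  -- `σ` comes from `Gal(E/L)`
  have hfix : ∀ x : L, σ (algebraMap L E x) = algebraMap L E x := by
    intro x
    have := AlgEquiv.restrictNormal_commutes σ L x
    have h3 : (σ.restrictNormal L) x = x := congrArg (fun τ => τ x) hρ
    rw [h3] at this
    exact this.symm
  let τ : E ≃ₐ[L] E := { σ.toRingEquiv with commutes' := hfix }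
  have hτ : τ.restrictScalars K = σ := by ext y; rfl
  have hτ1 : τ = 1 := by
    apply h2
    rw [map_one]
    ext x
    rw [← ptl_galRes_restrictScalars q K L E τ x, hτ, hσ]
    rfl
  rw [← hτ, hτ1]
  ext y
  rfl

end Trans

section UnrAbs

variable (K L : Type*) [Field K] [Algebra ℚ_[q] K] [FiniteDimensional ℚ_[q] K]
  [Field L] [Algebra ℚ_[q] L] [FiniteDimensional ℚ_[q] L] [Algebra K L]
  [IsScalarTower ℚ_[q] K L] [FiniteDimensional K L] [IsGalois K L]
  (hinj : Function.Injective (ptl_galRes q K L))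

theorem pti_cycPsi_zpow {G : Type*} [Group G] {A : Type*} [CommGroup A] (τ : G)
    (c : G × G → A) (m : ℤ) : ptl_cycPsi τ (c ^ m) = ptl_cycPsi τ c ^ m := by
  simp only [ptl_cycPsi, Pi.pow_apply, Finset.prod_zpow]

theorem pti_isMulCoboundary₂_zpow {G : Type*} [Group G] {A : Type*} [CommGroup A]
    [MulDistribMulAction G A] {c : G × G → A} (hc : IsMulCoboundary₂ c) (m : ℤ) :
    IsMulCoboundary₂ (c ^ m) := by
  obtain ⟨k, rfl | rfl⟩ := m.eq_nat_or_neg
  · rw [zpow_natCast]; exact ptl_isMulCoboundary₂_pow hc k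
  · rw [zpow_neg, zpow_natCast]
    exact ptl_isMulCoboundary₂_inv (ptl_isMulCoboundary₂_pow hc k)

/-- Every 2-cocycle `c` of an unramified extension `L/K` of degree `n` is cohomologous to
`c_n ^ v_L(ψ c)`. -/
theorem pti_unr_cohomologous_unrCocycle_zpow {c : (L ≃ₐ[K] L) × (L ≃ₐ[K] L) → Lˣ}
    (hc : IsMulCocycle₂ c) :
    IsMulCoboundary₂ (c / ptl_unrCocycle q K L hinj ^
      ptl_ordZ q L ((ptl_cycPsi (ptl_frob q K L hinj) c : Lˣ) : L)) := by
  have hcoc : IsMulCocycle₂ (c / ptl_unrCocycle q K L hinj ^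
      ptl_ordZ q L ((ptl_cycPsi (ptl_frob q K L hinj) c : Lˣ) : L)) :=
    ptl_isMulCocycle₂_div hc (ptl_isMulCocycle₂_zpow (ptl_unrCocycle_isMulCocycle₂ q K L hinj) _)
  rw [ptl_unr_isMulCoboundary₂_iff q K L hinj hcoc]
  by_cases h1 : Module.finrank K L = 1
  · rw [h1]; exact one_dvd _
  have hlt : 1 < orderOf (ptl_frob q K L hinj) := by
    rw [ptl_orderOf_frob]
    have : 0 < Module.finrank K L := Module.finrank_pos
    omega
  rw [ptl_cycPsi_div, pti_cycPsi_zpow, ptl_unrCocycle, ptl_cycPsi_cycCocycle hlt,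
    Units.val_div_eq_div_val, Units.val_zpow_eq_zpow_val, Units.coe_map, MonoidHom.coe_coe,
    ptl_unifUnit_val, div_eq_mul_inv,
    ptl_ordZ_mul q (Units.ne_zero _) (inv_ne_zero (zpow_ne_zero _
      ((map_ne_zero (algebraMap K L)).2 (ptl_unif_ne_zero q K)))),
    ptl_ordZ_inv, ptl_ordZ_zpow, ptl_ordZ_algebraMap, ptl_e_eq_one_of_injective q K L hinj,
    ptl_ordZ_unif, Nat.cast_one, mul_one, mul_one, add_neg_cancel]
  exact dvd_zero _

end UnrAbs

section Unr

variable (K Ω : Type) [Field K] [Algebra ℚ_[q] K] [FiniteDimensional ℚ_[q] K]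
  [Field Ω] [Algebra K Ω] [Algebra ℚ_[q] Ω] [IsScalarTower ℚ_[q] K Ω] [IsAlgClosed Ω] [CharZero Ω]
  (L : IntermediateField K Ω) [FiniteDimensional K L] [IsGalois K L]

attribute [local instance] pti_isScalarTower_top pti_finiteDimensional_L pti_algebraME
  pti_towerQME pti_towerKME pti_finiteDimensional_E pti_isGalois_E

theorem pti_towerQKE : IsScalarTower ℚ_[q] K (pti_E q K Ω L) :=
  IsScalarTower.of_algebraMap_eq
    (fun x => Subtype.ext (IsScalarTower.algebraMap_apply ℚ_[q] K Ω x))

attribute [local instance] pti_towerQKE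

/-- If `L/K` is unramified then so is `L·K_n / K`. -/
theorem pti_hinjEK (hinj : Function.Injective (ptl_galRes q K L)) :
    Function.Injective (ptl_galRes q K (pti_E q K Ω L)) :=
  pti_galRes_injective_trans q K L (pti_E q K Ω L) hinj (pti_hinjE q K Ω L)

/-- **Unramified normalisation**: if `L/K` is unramified, the fundamental cocycle `u_{L/K}` is
cohomologous to the standard cocycle `c_n` of the Frobenius and a uniformiser. -/
theorem pti_fundCocycle_unr (hinj : Function.Injective (ptl_galRes q K L)) :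
    IsMulCoboundary₂ (pti_fundCocycle q K Ω L / ptl_unrCocycle q K L hinj) := by
  have hinjEK := pti_hinjEK q K Ω L hinj
  have hA := pti_unr_compat q K L (pti_E q K Ω L) hinj hinjEK
  have hB := pti_unr_compat q K (pti_M q K Ω L) (pti_E q K Ω L) (pti_hinjM q K Ω L) hinjEK
  rw [pti_finrank_M] at hB
  have hF := (pti_fundCocycle_isFundL q K Ω L).2
  have hcoc : IsMulCocycle₂ (pti_fundCocycle q K Ω L / ptl_unrCocycle q K L hinj) :=
    ptl_isMulCocycle₂_div (pti_fundCocycle_isMulCocycle₂ q K Ω L)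
      (ptl_unrCocycle_isMulCocycle₂ q K L hinj)
  apply pti_infl_injective K L (pti_E q K Ω L) hcoc
  rw [pti_infl_div]
  have h := ptl_isMulCoboundary₂_div (ptl_isMulCoboundary₂_mul hF hB) hA
  convert h using 1
  rw [div_mul_div_cancel, div_div_div_cancel_right]

/-- Every 2-cocycle `c` of an unramified `L/K` is cohomologous to `u_{L/K} ^ v_L(ψ c)`: the
invariant of `c` is `v_L(ψ c) / [L:K]`. -/
theorem pti_unr_cohomologous_zpow (hinj : Function.Injective (ptl_galRes q K L))
    {c : (L ≃ₐ[K] L) × (L ≃ₐ[K] L) → (↥L)ˣ} (hc : IsMulCocycle₂ c) :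
    IsMulCoboundary₂ (c / pti_fundCocycle q K Ω L ^
      ptl_ordZ q L ((ptl_cycPsi (ptl_frob q K L hinj) c : (↥L)ˣ) : L)) := by
  have h1 := pti_unr_cohomologous_unrCocycle_zpow q K L hinj hc
  have h2 := pti_isMulCoboundary₂_zpow (pti_fundCocycle_unr q K Ω L hinj)
    (ptl_ordZ q L ((ptl_cycPsi (ptl_frob q K L hinj) c : (↥L)ˣ) : L))
  rw [div_zpow] at h2
  have h := ptl_isMulCoboundary₂_div h1 h2
  convert h using 1
  rw [div_div_div_cancel_right]

end Unr

end Fermat.Agent.Lib.PT
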