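/-
**Local reciprocity for cyclic extensions, finite level**: `L/K` cyclic of degree `n` (inside `Ω`),
presented by an injective character `χ : Gal(L/K) → ZMod n` with `χ τ = 1`.  There is a surjective
homomorphism `κ : Kˣ → ZMod n` with kernel the norm group `N_{L/K} Lˣ` such that
`a · δχ ~ u_{L/K} ^ κ(a)` (`pti_exists_kappa`).
-/
import Fermat.Agent.Lib.PT.BrauerCycChar
import Fermat.Agent.Lib.PT.BrauerCycOrder
import Fermat.Agent.Lib.PT.BrauerCyc
import Fermat.Agent.Lib.PT.IfaceClassModule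
import Fermat.Agent.Lib.PT.BrauerUnr

set_option autoImplicit false
set_option linter.unusedSectionVars false
namespace Fermat.Agent.Lib.PT
open groupCohomology

section Card

variable {Γ : Type} [Group Γ] [Fintype Γ] {A : Type} [CommGroup A] [MulDistribMulAction Γ A]

/-- `#Γ` kills `H²(Γ, A)`, multiplicatively on cocycles. -/
theorem pti_pow_card_isMulCoboundary₂ {u : Γ × Γ → A} (hu : IsMulCocycle₂ u) :
    IsMulCoboundary₂ (u ^ Fintype.card Γ) := by
  have h1 := ptc_card_smul_mem_coboundaries₂ (Rep.ofMulDistribMulAction Γ A)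
    (cocyclesOfIsMulCocycle₂ hu).1 (cocyclesOfIsMulCocycle₂ hu).2
  have h2 := isMulCoboundary₂_of_mem_coboundaries₂ (G := Γ) (M := A) _ h1
  have h3 : u ^ Fintype.card Γ =
      Additive.toMul ∘ (Fintype.card Γ • ((cocyclesOfIsMulCocycle₂ hu).1 : Γ × Γ → Additive A)) := by
    funext x
    show u x ^ Fintype.card Γ = Additive.toMul (Fintype.card Γ • Additive.ofMul (u x))
    rw [toMul_nsmul, toMul_ofMul]
  rw [h3]
  exact h2

end Card

section Kappa

variable (q : ℕ) [Fact q.Prime]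
variable (K Ω : Type) [Field K] [Algebra ℚ_[q] K] [FiniteDimensional ℚ_[q] K]
  [Field Ω] [Algebra K Ω] [Algebra ℚ_[q] Ω] [IsScalarTower ℚ_[q] K Ω] [IsAlgClosed Ω] [CharZero Ω]
  (L : IntermediateField K Ω) [FiniteDimensional K L] [IsGalois K L]
  {n : ℕ} [NeZero n] {χ : (L ≃ₐ[K] L) → ZMod n} (hχ : ptd_IsChar χ)
  (hinj : Function.Injective χ) {τ : L ≃ₐ[K] L} (hτ : χ τ = 1)

attribute [local instance] pti_isScalarTower_top pti_finiteDimensional_L

include hχ hinj hτ in
theorem pti_cyc_finrank : Module.finrank K L = n := by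
  rw [← IsGalois.card_aut_eq_finrank, ← pti_char_orderOf hχ hinj hτ]
  exact (orderOf_eq_card_of_forall_mem_zpowers (pti_char_mem_zpowers hχ hinj hτ)).symm

/-- Two exponents `k`, `k'` with `c ~ u^k`, `c ~ u^k'` are congruent mod `[L:K]`. -/
theorem pti_fund_zpow_unique {c : (L ≃ₐ[K] L) × (L ≃ₐ[K] L) → (↥L)ˣ} {k k' : ℤ}
    (h : IsMulCoboundary₂ (c / pti_fundCocycle q K Ω L ^ k))
    (h' : IsMulCoboundary₂ (c / pti_fundCocycle q K Ω L ^ k')) :
    (Module.finrank K L : ℤ) ∣ k - k' := by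
  have h1 := ptl_isMulCoboundary₂_div h' h
  rw [div_div_div_cancel_left, div_eq_mul_inv, ← zpow_sub] at h1
  exact pti_fundCocycle_dvd_of_zpow q K Ω L (k - k') h1

/-- `u_{L/K} ^ [L:K]` splits. -/
theorem pti_fund_pow_finrank : IsMulCoboundary₂ (pti_fundCocycle q K Ω L ^ Module.finrank K L) := by
  have := Fintype.ofFinite (L ≃ₐ[K] L)
  have h := pti_pow_card_isMulCoboundary₂ (pti_fundCocycle_isMulCocycle₂ q K Ω L)
  rwa [← Nat.card_eq_fintype_card, IsGalois.card_aut_eq_finrank] at h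

theorem pti_fund_zpow_of_dvd {k : ℤ} (hk : (Module.finrank K L : ℤ) ∣ k) :
    IsMulCoboundary₂ (pti_fundCocycle q K Ω L ^ k) := by
  obtain ⟨j, rfl⟩ := hk
  rw [zpow_mul, zpow_natCast]
  exact pti_isMulCoboundary₂_zpow (pti_fund_pow_finrank q K Ω L) j

include hχ hinj hτ in
/-- **Local reciprocity for a cyclic extension, finite level.** -/
theorem pti_exists_kappa : ∃ κ : Kˣ →* Multiplicative (ZMod n), Function.Surjective κ ∧
    (∀ a : Kˣ, κ a = 1 ↔ ∃ y : L, Algebra.norm K y = (a : K)) ∧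
    ∀ a : Kˣ, IsMulCoboundary₂ (pti_bockPow n χ (Units.map (algebraMap K L : K →* L) a) /
      pti_fundCocycle q K Ω L ^ (((Multiplicative.toAdd (κ a)).val : ℕ) : ℤ)) := by
  classical
  have hu := pti_fundCocycle_isMulCocycle₂ q K Ω L
  have hτgen := pti_char_mem_zpowers hχ hinj hτ
  have hn : 0 < orderOf τ := orderOf_pos τ
  have hfr : Module.finrank K L = n := pti_cyc_finrank K Ω L hχ hinj hτ
  have hn0 : (n : ℤ) ≠ 0 := by exact_mod_cast (NeZero.ne n)
  have hcoc : ∀ a : Kˣ, IsMulCocycle₂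
      (pti_bockPow n χ (Units.map (algebraMap K L : K →* L) a)) :=
    fun a => pti_bockPow_isMulCocycle₂ hχ (fun g => ptl_smul_unitsMap K L g a)
  have hgen : ∀ a : Kˣ, ∃ k : ℤ, IsMulCoboundary₂
      (pti_bockPow n χ (Units.map (algebraMap K L : K →* L) a) / pti_fundCocycle q K Ω L ^ k) := by
    intro a
    refine pti_exists_zpow_cohomologous (Module.finrank K L) Module.finrank_pos.ne' hu (hcoc a)
      (pti_fundCocycle_dvd_of_zpow q K Ω L) ?_
    have h := pti_card_H2_local_cyclic q K L τ hτgen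
    exact dvd_of_eq h
  choose k hk using hgen
  -- additivity mod `n`
  have hadd : ∀ a b : Kˣ, ((k (a * b) : ℤ) : ZMod n) = (k a : ZMod n) + (k b : ZMod n) := by
    intro a b
    have h1 := ptl_isMulCoboundary₂_mul (hk a) (hk b)
    rw [div_mul_div_comm, ← pti_bockPow_mul, ← map_mul, ← zpow_add] at h1
    have h2 := pti_fund_zpow_unique q K Ω L (hk (a * b)) h1
    rw [hfr] at h2
    rw [← Int.cast_add, ← sub_eq_zero, ← Int.cast_sub]
    exact (ZMod.intCast_zmod_eq_zero_iff_dvd _ n).mpr h2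
  let κ : Kˣ →* Multiplicative (ZMod n) :=
    MonoidHom.mk' (fun a => Multiplicative.ofAdd ((k a : ℤ) : ZMod n)) (fun a b => by
      show Multiplicative.ofAdd _ = Multiplicative.ofAdd _ * Multiplicative.ofAdd _
      rw [← ofAdd_add, hadd])
  have hκ : ∀ a, Multiplicative.toAdd (κ a) = ((k a : ℤ) : ZMod n) := fun a => rfl
  -- the formula with the canonical representative
  have hform : ∀ a : Kˣ, IsMulCoboundary₂
      (pti_bockPow n χ (Units.map (algebraMap K L : K →* L) a) /
        pti_fundCocycle q K Ω L ^ (((Multiplicative.toAdd (κ a)).val : ℕ) : ℤ)) := by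
    intro a
    rw [hκ, ZMod.val_intCast]
    have hdvd : (Module.finrank K L : ℤ) ∣ k a - k a % n := by
      rw [hfr]
      exact ⟨k a / n, by have := Int.mul_ediv_add_emod (k a) n; linarith⟩
    have h1 := ptl_isMulCoboundary₂_mul (hk a) (pti_fund_zpow_of_dvd q K Ω L hdvd)
    rw [zpow_sub, ← div_eq_mul_inv, div_mul_div_cancel] at h1
    exact h1
  -- criterion for `κ a = 1`
  have hone : ∀ a : Kˣ, κ a = 1 ↔
      IsMulCoboundary₂ (pti_bockPow n χ (Units.map (algebraMap K L : K →* L) a)) := by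
    intro a
    have h0 : κ a = 1 ↔ (Module.finrank K L : ℤ) ∣ k a := by
      rw [hfr, ← ZMod.intCast_zmod_eq_zero_iff_dvd, ← hκ]
      exact Iff.rfl
    rw [h0]
    constructor
    · intro hd
      have h1 := ptl_isMulCoboundary₂_mul (hk a) (pti_fund_zpow_of_dvd q K Ω L hd)
      rwa [div_mul_cancel] at h1
    · intro hc
      have h1 : IsMulCoboundary₂ (pti_bockPow n χ (Units.map (algebraMap K L : K →* L) a) /
          pti_fundCocycle q K Ω L ^ (0 : ℤ)) := by
        rw [zpow_zero, div_one]; exact hc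
      have h2 := pti_fund_zpow_unique q K Ω L (hk a) h1
      rwa [sub_zero] at h2
  refine ⟨κ, ?_, ?_, hform⟩
  · -- surjectivity
    obtain ⟨a₀, ha₀, -⟩ := pti_exists_cycCocycle_order q K Ω L τ hτgen
    rw [← pti_bockPow_eq_cycCocycle hχ hinj hτ] at ha₀
    have h1 := ptl_isMulCoboundary₂_inv ha₀
    rw [inv_div] at h1
    have h2 : IsMulCoboundary₂ (pti_bockPow n χ (Units.map (algebraMap K L : K →* L) a₀) /
        pti_fundCocycle q K Ω L ^ (1 : ℤ)) := by rwa [zpow_one]
    have h3 := pti_fund_zpow_unique q K Ω L (hk a₀) h2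
    rw [hfr] at h3
    have h4 : ((k a₀ : ℤ) : ZMod n) = 1 := by
      have := (ZMod.intCast_zmod_eq_zero_iff_dvd _ n).mpr h3
      rw [Int.cast_sub, Int.cast_one, sub_eq_zero] at this
      exact this
    intro z
    refine ⟨a₀ ^ (Multiplicative.toAdd z).val, ?_⟩
    rw [map_pow]
    apply Multiplicative.toAdd.injective
    rw [toAdd_pow, hκ, h4, nsmul_eq_mul, mul_one, ZMod.natCast_zmod_val]
  · -- kernel = norms
    intro a
    rw [hone a, pti_bockPow_eq_cycCocycle hχ hinj hτ,
      ptl_cycCocycle_isMulCoboundary₂_iff hτgen hn (fun g => ptl_smul_unitsMap K L g a)]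
    constructor
    · rintro ⟨y, hy⟩
      refine ⟨(y : L), ?_⟩
      have h1 := congrArg (fun u : (↥L)ˣ => (u : L)) hy
      simp only [ptl_cycNorm_eq_prod hτgen hn, Units.coe_prod, Units.coe_map,
        MonoidHom.coe_coe] at h1
      apply (algebraMap K L).injective
      rw [Algebra.norm_eq_prod_automorphisms, ← h1]
      rfl
    · rintro ⟨y, hy⟩
      have hy0 : y ≠ 0 := by
        rintro rfl
        rw [Algebra.norm_zero] at hy
        exact a.ne_zero hy.symm
      refine ⟨Units.mk0 y hy0, Units.ext ?_⟩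
      rw [ptl_cycNorm_eq_prod hτgen hn, Units.coe_prod, Units.coe_map, MonoidHom.coe_coe, ← hy,
        Algebra.norm_eq_prod_automorphisms]
      rfl

end Kappa

end Fermat.Agent.Lib.PT
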