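/-
S55 (Poitou–Tate long-haul), S-track: the Prelude's level-constant cochains as instances of the
BIG-GROUP MODEL (`ptd_Levels`, `AdtLevels.lean`).
* `pta_levelsS S : ptd_Levels Gal(Q̄/ℚ)`: the fixing subgroups of the finite Galois subfields
  unramified outside `S`; `ptd_IsLev₁/₂ (pta_levelsS S) = IsLevelConstantS₁/₂ S`; level cocycles,
  level coboundaries and `continuousH2S`, `continuousH1S` in the vocabulary of the big model.
* `pta_levelsR r : ptd_Levels G` for any `r : G → Gal(Q̄/ℚ)` (local Galois groups): the preimages of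
  the fixing subgroups of finite Galois subfields; `ptd_IsLev₁/₂ (pta_levelsR r) = IsLevelConstant₁/₂ r`.
-/
import Mathlib
import Fermat.Prelude.Def_GroupCohomology_ContinuousUnramified
import Fermat.Agent.Lib.PT.GLevelField
import Fermat.Agent.Lib.PT.AdtDefs

set_option autoImplicit false
set_option linter.unusedSectionVars false

universe u

namespace Fermat.Agent.Lib.PT

open groupCohomology IntermediateField

local notation "Qbar" => AlgebraicClosure ℚ
local notation "GQ" => (AlgebraicClosure ℚ ≃ₐ[ℚ] AlgebraicClosure ℚ)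

section globalS

variable (S : Finset Nat.Primes)

lemma pta_stable_bot : ∀ σ : GQ, ∀ x ∈ (⊥ : IntermediateField ℚ Qbar),
    σ x ∈ (⊥ : IntermediateField ℚ Qbar) := by
  intro σ x hx
  obtain ⟨r, rfl⟩ := IntermediateField.mem_bot.1 hx
  rw [σ.commutes r]
  exact IntermediateField.algebraMap_mem _ r

/-- The `S`-level structure on `Gal(Q̄/ℚ)`: fixing subgroups of finite Galois subfields unramified
outside `S`. -/
def pta_levelsS : ptd_Levels GQ where
  lev := {N | ∃ F : IntermediateField ℚ Qbar, F.IsUnramifiedOutside S ∧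
    (∀ σ : GQ, ∀ x ∈ F, σ x ∈ F) ∧ N = F.fixingSubgroup}
  nonempty := ⟨_, ⊥, IntermediateField.isUnramifiedOutside_bot S, pta_stable_bot, rfl⟩
  normal := by
    rintro _ ⟨F, -, hst, rfl⟩
    exact pta_normal_fixingSubgroup hst
  finiteIndex := by
    rintro _ ⟨F, hF, -, rfl⟩
    have := hF.1
    exact pta_finiteIndex_fixingSubgroup F
  directed := by
    rintro _ ⟨F, hF, hst, rfl⟩ _ ⟨F', hF', hst', rfl⟩
    refine ⟨_, ⟨F ⊔ F', hF.sup hF', pta_stable_sup hst hst', rfl⟩, ?_⟩
    rw [IntermediateField.fixingSubgroup_sup]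

variable {S}

lemma pta_mem_levelsS {F : IntermediateField ℚ Qbar} (hF : F.IsUnramifiedOutside S)
    (hst : ∀ σ : GQ, ∀ x ∈ F, σ x ∈ F) : F.fixingSubgroup ∈ (pta_levelsS S).lev :=
  ⟨F, hF, hst, rfl⟩

lemma pta_IsLevel.mem_levelsS {k : Type} [CommRing k] {M : Rep.{0} k GQ}
    {F : IntermediateField ℚ Qbar} (hF : pta_IsLevel S M F) :
    F.fixingSubgroup ∈ (pta_levelsS S).lev :=
  pta_mem_levelsS hF.unram hF.stable

/-- level-constancy in the big model = the Prelude's `IsLevelConstantS₁` -/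
theorem pta_isLev₁_iff {X : Type*} (f : GQ → X) :
    ptd_IsLev₁ (pta_levelsS S) f ↔ IsLevelConstantS₁ S f := by
  constructor
  · rintro ⟨_, ⟨F, hF, -, rfl⟩, h⟩
    exact ⟨F, hF, fun g s hs => h g s hs⟩
  · rintro ⟨F, hF, h⟩
    refine ⟨_, pta_mem_levelsS (pta_isUnramifiedOutside_galClosure hF) (pta_galClosure_stable F),
      fun g s hs => h g s ?_⟩
    exact IntermediateField.fixingSubgroup_antitone (pta_le_galClosure F) hs

/-- level-constancy in the big model = the Prelude's `IsLevelConstantS₂` -/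
theorem pta_isLev₂_iff {X : Type*} (f : GQ × GQ → X) :
    ptd_IsLev₂ (pta_levelsS S) f ↔ IsLevelConstantS₂ S f := by
  constructor
  · rintro ⟨_, ⟨F, hF, -, rfl⟩, h⟩
    exact ⟨F, hF, fun g g' s s' hs hs' => h g g' s hs s' hs'⟩
  · rintro ⟨F, hF, h⟩
    refine ⟨_, pta_mem_levelsS (pta_isUnramifiedOutside_galClosure hF) (pta_galClosure_stable F),
      fun g g' s hs s' hs' => h g g' s s' ?_ ?_⟩
    · exact IntermediateField.fixingSubgroup_antitone (pta_le_galClosure F) hs
    · exact IntermediateField.fixingSubgroup_antitone (pta_le_galClosure F) hs'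

variable {k : Type} [CommRing k] (M : Rep.{0} k GQ)

/-- a representation admitting a level is trivial on a level of the big model -/
theorem pta_isTrivOnLevel {F : IntermediateField ℚ Qbar} (hF : pta_IsLevel S M F) :
    ptd_IsTrivOnLevel (pta_levelsS S) M.ρ :=
  ⟨_, hF.mem_levelsS, fun _ hn => MonoidHom.mem_ker.mp (hF.triv hn)⟩

lemma pta_isZ1_iff (φ : GQ → M.V) : ptd_IsZ1 M.ρ φ ↔ φ ∈ cocycles₁ M :=
  (mem_cocycles₁_iff φ).symm

lemma pta_isZ2_iff (z : GQ × GQ → M.V) : ptd_IsZ2 M.ρ z ↔ z ∈ cocycles₂ M :=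
  (mem_cocycles₂_iff z).symm

lemma pta_d1_eq (φ : GQ → M.V) : ptd_d1 M.ρ φ = (d₁₂ M).hom φ := by
  funext ⟨g, h⟩
  rw [ptd_d1_apply, d₁₂_hom_apply]

lemma pta_d0_eq (m : M.V) : ptd_d0 M.ρ m = (d₀₁ M).hom m := by
  funext g
  rw [ptd_d0_apply, d₀₁_hom_apply]

/-- level 2-cocycles of the big model = the Prelude's `levelCocyclesS₂` -/
theorem pta_isLZ2_iff (z : GQ × GQ → M.V) :
    ptd_IsLZ2 (pta_levelsS S) M.ρ z ↔ z ∈ levelCocyclesS₂ S M := by
  rw [mem_levelCocyclesS₂_iff, ptd_IsLZ2, pta_isZ2_iff, pta_isLev₂_iff]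

/-- level 2-coboundaries of the big model = the Prelude's `levelCoboundariesS₂` -/
theorem pta_isB2_iff (z : GQ × GQ → M.V) :
    ptd_IsB2 (pta_levelsS S) M.ρ z ↔ z ∈ levelCoboundariesS₂ S M := by
  rw [mem_levelCoboundariesS₂_iff]
  constructor
  · rintro ⟨φ, hφ, rfl⟩
    exact ⟨φ, (pta_isLev₁_iff φ).1 hφ, (pta_d1_eq M φ).symm⟩
  · rintro ⟨φ, hφ, rfl⟩
    exact ⟨φ, (pta_isLev₁_iff φ).2 hφ, (pta_d1_eq M φ).symm⟩

/-- the class of a level cocycle vanishes in `continuousH2S` iff it is a level coboundary of the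
big model -/
theorem pta_continuousH2Sπ_eq_zero_iff (z : levelCocyclesS₂ S M) :
    continuousH2Sπ S M z = 0 ↔ ptd_IsB2 (pta_levelsS S) M.ρ (z : GQ × GQ → M.V) := by
  rw [continuousH2Sπ_eq_zero_iff, pta_isB2_iff]

/-- every class of `continuousH2S` is the class of a level cocycle of the big model -/
theorem pta_exists_isLZ2 (x : continuousH2S S M) :
    ∃ z : levelCocyclesS₂ S M, ptd_IsLZ2 (pta_levelsS S) M.ρ (z : GQ × GQ → M.V) ∧
      continuousH2Sπ S M z = x := by
  obtain ⟨z, rfl⟩ := Submodule.mkQ_surjective _ x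
  exact ⟨z, (pta_isLZ2_iff M _).2 z.2, rfl⟩

/-- level 1-cocycles of the big model and `continuousH1S` -/
theorem pta_mem_continuousH1S_iff (x : H1 M) :
    x ∈ continuousH1S S M ↔ ∃ c : cocycles₁ M,
      ptd_IsLZ1 (pta_levelsS S) M.ρ (c : GQ → M.V) ∧ (H1π M).hom c = x := by
  rw [mem_continuousH1S_iff]
  refine exists_congr fun c => and_congr_left fun _ => ?_
  rw [ptd_IsLZ1, pta_isLev₁_iff, pta_isZ1_iff]
  exact ⟨fun h => ⟨c.2, h⟩, fun h => h.2⟩

/-- **(A) in Prelude terms**: right-nondegeneracy in the big model kills classes of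
`continuousH2S S M`. -/
theorem pta_eq_zero_of_nondegH2 {C T : Type*} [AddCommGroup C] [AddCommGroup T]
    (ρC : Representation ℤ GQ C) {p : ℕ} (inv : ptd_Inv (pta_levelsS S) ρC T p)
    (hnd : ptd_NondegH2 (pta_levelsS S) ρC inv M.ρ) (z : levelCocyclesS₂ S M)
    (hz : ∀ f : M.V →+ C, ptd_IsEquivariant ρC M.ρ f →
      inv (fun x => f ((z : GQ × GQ → M.V) x)) = 0) :
    continuousH2Sπ S M z = 0 :=
  (pta_continuousH2Sπ_eq_zero_iff M z).2 (hnd _ ((pta_isLZ2_iff M _).2 z.2) hz)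

end globalS

section localR

variable {G : Type u} [Group G] (r : G →* GQ)

/-- The level structure on a group `G` over `Gal(Q̄/ℚ)` (e.g. a local Galois group): preimages of
the fixing subgroups of the finite Galois subfields of `Q̄`. -/
def pta_levelsR : ptd_Levels G where
  lev := {N | ∃ F : IntermediateField ℚ Qbar, FiniteDimensional ℚ F ∧
    (∀ σ : GQ, ∀ x ∈ F, σ x ∈ F) ∧ N = F.fixingSubgroup.comap r}
  nonempty := ⟨_, ⊥, inferInstance, pta_stable_bot, rfl⟩
  normal := by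
    rintro _ ⟨F, -, hst, rfl⟩
    have := pta_normal_fixingSubgroup hst
    infer_instance
  finiteIndex := by
    rintro _ ⟨F, hF, -, rfl⟩
    have := pta_finiteIndex_fixingSubgroup F
    refine ⟨?_⟩
    rw [Subgroup.index_comap]
    exact (Subgroup.instFiniteIndex_subgroupOf F.fixingSubgroup r.range).index_ne_zero
  directed := by
    rintro _ ⟨F, hF, hst, rfl⟩ _ ⟨F', hF', hst', rfl⟩
    refine ⟨_, ⟨F ⊔ F', IntermediateField.finiteDimensional_sup F F',
      pta_stable_sup hst hst', rfl⟩, ?_⟩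
    rw [IntermediateField.fixingSubgroup_sup, Subgroup.comap_inf]

variable {r}

lemma pta_mem_levelsR {F : IntermediateField ℚ Qbar} (hF : FiniteDimensional ℚ F)
    (hst : ∀ σ : GQ, ∀ x ∈ F, σ x ∈ F) : F.fixingSubgroup.comap r ∈ (pta_levelsR r).lev :=
  ⟨F, hF, hst, rfl⟩

/-- level-constancy in the big model = the Prelude's `IsLevelConstant₁ r` -/
theorem pta_isLevR₁_iff {X : Type*} (f : G → X) :
    ptd_IsLev₁ (pta_levelsR r) f ↔ IsLevelConstant₁ r f := by
  constructor
  · rintro ⟨_, ⟨F, hF, -, rfl⟩, h⟩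
    exact ⟨F, hF, fun g s hs => h g s hs⟩
  · rintro ⟨F, hF, h⟩
    have := hF
    refine ⟨_, pta_mem_levelsR (pta_galClosure_finiteDimensional F) (pta_galClosure_stable F),
      fun g s hs => h g s ?_⟩
    exact IntermediateField.fixingSubgroup_antitone (pta_le_galClosure F) hs

/-- level-constancy in the big model = the Prelude's `IsLevelConstant₂ r` -/
theorem pta_isLevR₂_iff {X : Type*} (f : G × G → X) :
    ptd_IsLev₂ (pta_levelsR r) f ↔ IsLevelConstant₂ r f := by
  constructor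
  · rintro ⟨_, ⟨F, hF, -, rfl⟩, h⟩
    exact ⟨F, hF, fun g g' s s' hs hs' => h g g' s hs s' hs'⟩
  · rintro ⟨F, hF, h⟩
    have := hF
    refine ⟨_, pta_mem_levelsR (pta_galClosure_finiteDimensional F) (pta_galClosure_stable F),
      fun g g' s hs s' hs' => h g g' s s' ?_ ?_⟩
    · exact IntermediateField.fixingSubgroup_antitone (pta_le_galClosure F) hs
    · exact IntermediateField.fixingSubgroup_antitone (pta_le_galClosure F) hs'

variable {k : Type u} [CommRing k] (A : Rep.{u} k G)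

lemma pta_isZ2R_iff (z : G × G → A.V) : ptd_IsZ2 A.ρ z ↔ z ∈ cocycles₂ A :=
  (mem_cocycles₂_iff z).symm

lemma pta_d1R_eq (φ : G → A.V) : ptd_d1 A.ρ φ = (d₁₂ A).hom φ := by
  funext ⟨g, h⟩
  rw [ptd_d1_apply, d₁₂_hom_apply]

/-- level 2-cocycles of the big model = the Prelude's `levelCocycles₂ r` -/
theorem pta_isLZ2R_iff (z : G × G → A.V) :
    ptd_IsLZ2 (pta_levelsR r) A.ρ z ↔ z ∈ levelCocycles₂ r A := by
  rw [mem_levelCocycles₂_iff, ptd_IsLZ2, pta_isZ2R_iff, pta_isLevR₂_iff]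

/-- level 2-coboundaries of the big model = the Prelude's `levelCoboundaries₂ r` -/
theorem pta_isB2R_iff (z : G × G → A.V) :
    ptd_IsB2 (pta_levelsR r) A.ρ z ↔ z ∈ levelCoboundaries₂ r A := by
  rw [mem_levelCoboundaries₂_iff]
  constructor
  · rintro ⟨φ, hφ, rfl⟩
    exact ⟨φ, (pta_isLevR₁_iff φ).1 hφ, (pta_d1R_eq A φ).symm⟩
  · rintro ⟨φ, hφ, rfl⟩
    exact ⟨φ, (pta_isLevR₁_iff φ).2 hφ, (pta_d1R_eq A φ).symm⟩

/-- the class of a level cocycle vanishes in `continuousH2 r A` iff it is a level coboundary of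
the big model -/
theorem pta_continuousH2π_eq_zero_iff (z : levelCocycles₂ r A) :
    continuousH2π r A z = 0 ↔ ptd_IsB2 (pta_levelsR r) A.ρ (z : G × G → A.V) := by
  rw [continuousH2π_eq_zero_iff, pta_isB2R_iff]

/-- the restriction of a representation of `Gal(Q̄/ℚ)` trivial on `Fix F`, `F` finite, is trivial on
a level of `pta_levelsR r` -/
theorem pta_isTrivOnLevelR {k' : Type} [CommRing k'] (M : Rep.{0} k' GQ)
    {F : IntermediateField ℚ Qbar} [FiniteDimensional ℚ F] (hF : F.fixingSubgroup ≤ M.ρ.ker)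
    {H : Type} [Group H] (f : H →* GQ) :
    ptd_IsTrivOnLevel (pta_levelsR f) (Rep.res f M).ρ := by
  refine ⟨_, pta_mem_levelsR (pta_galClosure_finiteDimensional F) (pta_galClosure_stable F),
    fun n hn => ?_⟩
  have h1 : f n ∈ F.fixingSubgroup :=
    IntermediateField.fixingSubgroup_antitone (pta_le_galClosure F) hn
  exact MonoidHom.mem_ker.mp (hF h1)

end localR

end Fermat.Agent.Lib.PT
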