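/-
S55 (Poitou–Tate), local ↔ global bridge, part L: the LOCAL BIG-GROUP MODEL `(G_q, levels, Ω_qˣ)`
in the vocabulary of `AdtLevels`/`AdtDefs`.

* generic Galois theory: the inclusion `ptg_unitsIncl K : Kˣ → Ωˣ` of an intermediate field of
  `Ω/k` (injective, range = the `Gal(Ω/K)`-invariants, equivariant along `Gal(Ω/k) → Gal(K/k)`);
  **Hilbert 90 for open subgroups** `ptg_hilbert90_open` (cochain form, Poincaré series);
* `ptg_levels q : ptd_Levels G_q` (= helper1's `pta_levelsR (localGaloisToGlobal q)`), its levels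
  are the `ptg_lev q F = Gal(Ω_q/K_F)`; open subgroups = Krull-open = containing `Gal(Ω_q/K)` for a
  finite `K/ℚ_q`; an open `U` is `Gal(Ω_q/Ω_q^U)` with `Ω_q^U/ℚ_q` finite;
* `Ω_qˣ` is a discrete `G_q`-module (`ptg_isDiscrete_units`);
* **local (F1)**: `ptg_isB1_of_isLZ1_units` — Hilbert 90 in the big model;
* presented levels: `ptg_resGal q F : G_q → Gal(K_F/ℚ_q)` surjective with kernel `ptg_lev q F`.
-/
import Mathlib
import Fermat.Agent.Lib.PT.BridgeK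
import Fermat.Agent.Lib.PT.GLevelAdt

set_option autoImplicit false
set_option linter.unusedSectionVars false

namespace Fermat.Agent.Lib.PT

open groupCohomology CategoryTheory


section GaloisGeneric

variable {k Ω : Type*} [Field k] [Field Ω] [Algebra k Ω]

/-- the inclusion `Kˣ → Ωˣ` for an intermediate field `K` of `Ω/k` -/
def ptg_unitsIncl (K : IntermediateField k Ω) : (↥K)ˣ →* Ωˣ :=
  Units.map ((algebraMap ↥K Ω : ↥K →+* Ω) : ↥K →* Ω)

lemma ptg_unitsIncl_coe (K : IntermediateField k Ω) (u : (↥K)ˣ) :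
    ((ptg_unitsIncl K u : Ωˣ) : Ω) = ((u : ↥K) : Ω) := rfl

lemma ptg_unitsIncl_injective (K : IntermediateField k Ω) :
    Function.Injective (ptg_unitsIncl K) := by
  intro u v h
  have h1 := congrArg (fun w : Ωˣ => (w : Ω)) h
  simp only [ptg_unitsIncl_coe] at h1
  exact Units.ext (Subtype.ext h1)

lemma ptg_mem_range_unitsIncl_iff (K : IntermediateField k Ω) (u : Ωˣ) :
    u ∈ (ptg_unitsIncl K).range ↔ (u : Ω) ∈ K := by
  constructor
  · rintro ⟨v, rfl⟩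
    rw [ptg_unitsIncl_coe]
    exact (v : ↥K).2
  · intro hu
    have hinv : ((u⁻¹ : Ωˣ) : Ω) ∈ K := by
      rw [Units.val_inv_eq_inv_val]
      exact K.inv_mem hu
    refine ⟨⟨⟨(u : Ω), hu⟩, ⟨((u⁻¹ : Ωˣ) : Ω), hinv⟩, ?_, ?_⟩, ?_⟩
    · exact Subtype.ext (by simp)
    · exact Subtype.ext (by simp)
    · exact Units.ext rfl

/-- `(Ωˣ)^{Gal(Ω/K)} = Kˣ` -/
lemma ptg_mem_range_unitsIncl_iff_fixed [IsGalois k Ω] (K : IntermediateField k Ω) (u : Ωˣ) :
    u ∈ (ptg_unitsIncl K).range ↔ ∀ τ ∈ K.fixingSubgroup, τ • u = u := by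
  rw [ptg_mem_range_unitsIncl_iff]
  have hK : IntermediateField.fixedField K.fixingSubgroup = K :=
    InfiniteGalois.fixedField_fixingSubgroup K
  constructor
  · intro hu τ hτ
    apply Units.ext
    rw [AlgEquiv.smul_units_def]
    exact (IntermediateField.mem_fixingSubgroup_iff K τ).mp hτ _ hu
  · intro h
    rw [← hK, IntermediateField.mem_fixedField_iff]
    intro τ hτ
    have := congrArg (fun w : Ωˣ => (w : Ω)) (h τ hτ)
    simpa using this

set_option synthInstance.maxHeartbeats 400000 in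
/-- the inclusion `Kˣ → Ωˣ` is equivariant along `Gal(Ω/k) → Gal(K/k)` -/
lemma ptg_unitsIncl_smul (K : IntermediateField k Ω) [Normal k K] (τ : Ω ≃ₐ[k] Ω) (u : (↥K)ˣ) :
    ptg_unitsIncl K (AlgEquiv.restrictNormalHom K τ • u) = τ • ptg_unitsIncl K u := by
  apply Units.ext
  rw [ptg_unitsIncl_coe, AlgEquiv.smul_units_def, AlgEquiv.smul_units_def]
  exact AlgEquiv.restrictNormal_commutes τ ↥K (u : ↥K)

end GaloisGeneric



section H90

variable {k Ω : Type*} [Field k] [Field Ω] [Algebra k Ω]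

/-- **Hilbert 90 for open subgroups of an infinite Galois group**, cochain form: a 1-cocycle
`φ : U → Ωˣ` of a subgroup `U ≤ Gal(Ω/k)` which is right-invariant under `Gal(Ω/L) ∩ U` for an
intermediate field `L` with `Gal(Ω/L)` of finite index is a coboundary (Poincaré series over
`U/(Gal(Ω/L) ∩ U)` and Dedekind's independence of characters). -/
theorem ptg_hilbert90_open (L : IntermediateField k Ω) [L.fixingSubgroup.FiniteIndex]
    (U : Subgroup (Ω ≃ₐ[k] Ω)) (φ : U → Ωˣ)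
    (hφ : ∀ g h : U, φ (g * h) = (g : Ω ≃ₐ[k] Ω) • φ h * φ g)
    (hlev : ∀ g n : U, (n : Ω ≃ₐ[k] Ω) ∈ L.fixingSubgroup → φ (g * n) = φ g) :
    ∃ b : Ωˣ, ∀ g : U, φ g = (g : Ω ≃ₐ[k] Ω) • b / b := by
  classical
  let N' : Subgroup U := L.fixingSubgroup.subgroupOf U
  have hN'fi : N'.FiniteIndex := inferInstance
  have hfinq : Finite (U ⧸ N') := Subgroup.finite_quotient_of_finiteIndex
  have := Fintype.ofFinite (U ⧸ N')
  let f : ↥L → U → Ω := fun c h => (φ h : Ω) * (h : Ω ≃ₐ[k] Ω) (c : Ω)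
  have hf : ∀ (c : ↥L) (h n : U), n ∈ N' → f c (h * n) = f c h := by
    intro c h n hn
    have hn' : (n : Ω ≃ₐ[k] Ω) ∈ L.fixingSubgroup := Subgroup.mem_subgroupOf.mp hn
    show (φ (h * n) : Ω) * ((h * n : U) : Ω ≃ₐ[k] Ω) (c : Ω) = (φ h : Ω) * (h : Ω ≃ₐ[k] Ω) (c : Ω)
    rw [hlev h n hn']
    congr 1
    show (h : Ω ≃ₐ[k] Ω) ((n : Ω ≃ₐ[k] Ω) (c : Ω)) = _
    rw [(IntermediateField.mem_fixingSubgroup_iff L _).mp hn' (c : Ω) c.2]
  have hfmk : ∀ (c : ↥L) (h : U), f c (QuotientGroup.mk h : U ⧸ N').out = f c h := by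
    intro c h
    obtain ⟨n, hn⟩ := QuotientGroup.mk_out_eq_mul N' h
    rw [hn]
    exact hf c h n n.2
  let S : ↥L → Ω := fun c => ∑ x : U ⧸ N', f c x.out
  -- the transformation rule
  have hgf : ∀ (c : ↥L) (g h : U), (g : Ω ≃ₐ[k] Ω) (f c h) = (φ g : Ω)⁻¹ * f c (g * h) := by
    intro c g h
    have h1 : ((φ (g * h) : Ωˣ) : Ω) = (g : Ω ≃ₐ[k] Ω) (φ h : Ω) * (φ g : Ω) := by
      rw [hφ g h, Units.val_mul, AlgEquiv.smul_units_def]
      rfl
    show (g : Ω ≃ₐ[k] Ω) ((φ h : Ω) * (h : Ω ≃ₐ[k] Ω) (c : Ω)) =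
      (φ g : Ω)⁻¹ * ((φ (g * h) : Ω) * ((g * h : U) : Ω ≃ₐ[k] Ω) (c : Ω))
    rw [map_mul, h1]
    have hne : (φ g : Ω) ≠ 0 := (φ g).ne_zero
    show _ = (φ g : Ω)⁻¹ * ((g : Ω ≃ₐ[k] Ω) (φ h : Ω) * (φ g : Ω) *
      (g : Ω ≃ₐ[k] Ω) ((h : Ω ≃ₐ[k] Ω) (c : Ω)))
    field_simp
  have hS : ∀ (c : ↥L) (g : U), (g : Ω ≃ₐ[k] Ω) (S c) = (φ g : Ω)⁻¹ * S c := by
    intro c g
    show (g : Ω ≃ₐ[k] Ω) (∑ x : U ⧸ N', f c x.out) = (φ g : Ω)⁻¹ * ∑ x : U ⧸ N', f c x.out
    rw [map_sum, Finset.mul_sum]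
    have h2 : ∀ x : U ⧸ N', (g : Ω ≃ₐ[k] Ω) (f c x.out) = (φ g : Ω)⁻¹ * f c (g • x).out := by
      intro x
      rw [hgf c g x.out, ← hfmk c (g * x.out)]
      congr 3
      conv_rhs => rw [← QuotientGroup.out_eq' x]
      rfl
    rw [Finset.sum_congr rfl fun x _ => h2 x]
    exact (MulAction.bijective g).sum_comp (fun x : U ⧸ N' => (φ g : Ω)⁻¹ * f c x.out)
  -- nonvanishing
  have hne : ∃ c : ↥L, S c ≠ 0 := by
    by_contra hall
    have hall' : ∀ c : ↥L, S c = 0 := by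
      intro c
      by_contra hc
      exact hall ⟨c, hc⟩
    let χ : U ⧸ N' → (↥L →* Ω) := fun x =>
      { toFun := fun c => ((x.out : U) : Ω ≃ₐ[k] Ω) (c : Ω)
        map_one' := by simp
        map_mul' := fun a b => by simp }
    have hχ : Function.Injective χ := by
      intro x y hxy
      have h1 : ∀ c : ↥L, ((x.out : U) : Ω ≃ₐ[k] Ω) (c : Ω) = ((y.out : U) : Ω ≃ₐ[k] Ω) (c : Ω) :=
        fun c => DFunLike.congr_fun hxy c
      have h2 : (x.out)⁻¹ * y.out ∈ N' := by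
        rw [Subgroup.mem_subgroupOf, IntermediateField.mem_fixingSubgroup_iff]
        intro c hc
        show ((x.out : U) : Ω ≃ₐ[k] Ω)⁻¹ (((y.out : U) : Ω ≃ₐ[k] Ω) c) = c
        rw [← h1 ⟨c, hc⟩]
        exact ((x.out : U) : Ω ≃ₐ[k] Ω).symm_apply_apply c
      have h3 : (QuotientGroup.mk x.out : U ⧸ N') = QuotientGroup.mk y.out :=
        QuotientGroup.eq.mpr h2
      rwa [QuotientGroup.out_eq', QuotientGroup.out_eq'] at h3
    have hli : LinearIndependent Ω (fun x : U ⧸ N' => ((χ x : ↥L →* Ω) : ↥L → Ω)) :=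
      (linearIndependent_monoidHom ↥L Ω).comp χ hχ
    have hsum : ∑ x : U ⧸ N', (φ x.out : Ω) • ((χ x : ↥L →* Ω) : ↥L → Ω) = 0 := by
      funext c
      rw [Finset.sum_apply]
      exact hall' c
    have h0 := Fintype.linearIndependent_iff.mp hli (fun x => (φ x.out : Ω)) hsum
      (QuotientGroup.mk 1 : U ⧸ N')
    exact (φ (QuotientGroup.mk 1 : U ⧸ N').out).ne_zero h0
  obtain ⟨c, hc⟩ := hne
  refine ⟨(Units.mk0 (S c) hc)⁻¹, fun g => ?_⟩
  apply Units.ext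
  rw [Units.val_div_eq_div_val, AlgEquiv.smul_units_def, Units.coe_map, Units.val_inv_eq_inv_val,
    Units.val_mk0]
  show (φ g : Ω) = (g : Ω ≃ₐ[k] Ω) (S c)⁻¹ / (S c)⁻¹
  rw [map_inv₀, hS c g]
  have hne : (φ g : Ω) ≠ 0 := (φ g).ne_zero
  field_simp

end H90


section Local

variable (q : ℕ) [Fact q.Prime]



/-- the level structure of `G_q = Gal(Ω_q/ℚ_q)`: the subgroups `Gal(Ω_q/K_F)`, `F ⊆ Q̄` finite
Galois (this is helper1's `pta_levelsR (localGaloisToGlobal q)`) -/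
noncomputable abbrev ptg_levels : ptd_Levels (PadicAlgCl q ≃ₐ[ℚ_[q]] PadicAlgCl q) :=
  pta_levelsR (localGaloisToGlobal q)

lemma ptg_levels_eq : ptg_levels q = ptg_levelsOf (localGaloisToGlobal q) := rfl

lemma ptg_mem_levels_iff (N : Subgroup (PadicAlgCl q ≃ₐ[ℚ_[q]] PadicAlgCl q)) :
    N ∈ (ptg_levels q).lev ↔ ∃ F : IntermediateField ℚ (AlgebraicClosure ℚ),
      FiniteDimensional ℚ F ∧ ptg_IsStable F ∧ N = ptg_lev q F := by
  constructor
  · rintro ⟨F, hF, hst, rfl⟩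
    exact ⟨F, hF, hst, (ptg_lev_eq_comap q F).symm⟩
  · rintro ⟨F, hF, hst, rfl⟩
    exact ⟨F, hF, hst, ptg_lev_eq_comap q F⟩

lemma ptg_lev_mem_levels {F : IntermediateField ℚ (AlgebraicClosure ℚ)} [FiniteDimensional ℚ F]
    (hst : ptg_IsStable F) : ptg_lev q F ∈ (ptg_levels q).lev :=
  (ptg_mem_levels_iff q _).mpr ⟨F, inferInstance, hst, rfl⟩

/-- **(L)** the open subgroups of `G_q` for the level structure are those containing
`Gal(Ω_q/K)` for a finite extension `K/ℚ_q` -/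
theorem ptg_isOpen_iff (U : Subgroup (PadicAlgCl q ≃ₐ[ℚ_[q]] PadicAlgCl q)) :
    (ptg_levels q).IsOpen U ↔ ∃ K : IntermediateField ℚ_[q] (PadicAlgCl q),
      FiniteDimensional ℚ_[q] K ∧ K.fixingSubgroup ≤ U := by
  constructor
  · rintro ⟨N, hN, hle⟩
    obtain ⟨F, hF, hst, rfl⟩ := (ptg_mem_levels_iff q N).mp hN
    have := hF
    exact ⟨ptg_loc q F, inferInstance, hle⟩
  · rintro ⟨K, hK, hle⟩
    have := hK
    obtain ⟨F, hF, hst, h⟩ := ptg_exists_fixingSubgroup_le q K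
    have := hF
    refine ⟨ptg_lev q F, ptg_lev_mem_levels q hst, fun τ hτ => hle (h τ ?_)⟩
    exact ptg_mem_lev_iff.mp hτ

theorem ptg_isOpen_fixingSubgroup (K : IntermediateField ℚ_[q] (PadicAlgCl q))
    [FiniteDimensional ℚ_[q] K] : (ptg_levels q).IsOpen K.fixingSubgroup :=
  (ptg_isOpen_iff q _).mpr ⟨K, inferInstance, le_rfl⟩

/-- **(L)** open for the level structure = open for the Krull topology -/
theorem ptg_isOpen_iff_isOpen (U : Subgroup (PadicAlgCl q ≃ₐ[ℚ_[q]] PadicAlgCl q)) :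
    (ptg_levels q).IsOpen U ↔ IsOpen (U : Set (PadicAlgCl q ≃ₐ[ℚ_[q]] PadicAlgCl q)) := by
  rw [ptg_isOpen_iff]
  constructor
  · rintro ⟨K, hK, hle⟩
    have := hK
    exact Subgroup.isOpen_mono hle K.fixingSubgroup_isOpen
  · intro hU
    have h1 : (U : Set (PadicAlgCl q ≃ₐ[ℚ_[q]] PadicAlgCl q)) ∈ nhds 1 :=
      hU.mem_nhds U.one_mem
    obtain ⟨K, hK, hle⟩ := (krullTopology_mem_nhds_one_iff ℚ_[q] (PadicAlgCl q) _).mp h1
    exact ⟨K, hK, hle⟩

/-- **(L)** an open subgroup `U` of `G_q` is the Galois group of `Ω_q` over its fixed field -/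
theorem ptg_fixingSubgroup_fixedField_of_isOpen
    {U : Subgroup (PadicAlgCl q ≃ₐ[ℚ_[q]] PadicAlgCl q)} (hU : (ptg_levels q).IsOpen U) :
    (IntermediateField.fixedField U).fixingSubgroup = U := by
  have hopen := (ptg_isOpen_iff_isOpen q U).mp hU
  have hclosed : IsClosed (U : Set (PadicAlgCl q ≃ₐ[ℚ_[q]] PadicAlgCl q)) :=
    Subgroup.isClosed_of_isOpen _ hopen
  exact InfiniteGalois.fixingSubgroup_fixedField
    (⟨U, hclosed⟩ : ClosedSubgroup (PadicAlgCl q ≃ₐ[ℚ_[q]] PadicAlgCl q))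

/-- **(L)** the fixed field of an open subgroup of `G_q` is a finite extension of `ℚ_q` -/
theorem ptg_fixedField_finiteDimensional_of_isOpen
    {U : Subgroup (PadicAlgCl q ≃ₐ[ℚ_[q]] PadicAlgCl q)} (hU : (ptg_levels q).IsOpen U) :
    FiniteDimensional ℚ_[q] (IntermediateField.fixedField U) := by
  obtain ⟨K, hK, hle⟩ := (ptg_isOpen_iff q U).mp hU
  have := hK
  have h1 : IntermediateField.fixedField U ≤ K := by
    have h2 : IntermediateField.fixedField U ≤ IntermediateField.fixedField K.fixingSubgroup := by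
      intro x hx
      rw [IntermediateField.mem_fixedField_iff] at hx ⊢
      exact fun g hg => hx g (hle hg)
    rwa [InfiniteGalois.fixedField_fixingSubgroup] at h2
  exact FiniteDimensional.of_injective (IntermediateField.inclusion h1).toLinearMap
    (IntermediateField.inclusion_injective h1)

/-- **(L)** `Ω_qˣ` is a discrete `G_q`-module -/
theorem ptg_isDiscrete_units :
    ptd_IsDiscrete (ptg_levels q)
      (Representation.ofMulDistribMulAction (PadicAlgCl q ≃ₐ[ℚ_[q]] PadicAlgCl q)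
        (PadicAlgCl q)ˣ) := by
  intro a
  have halg : IsAlgebraic ℚ_[q] ((Additive.toMul a : (PadicAlgCl q)ˣ) : PadicAlgCl q) :=
    Algebra.IsAlgebraic.isAlgebraic _
  have hfin : FiniteDimensional ℚ_[q]
      (IntermediateField.adjoin ℚ_[q] {((Additive.toMul a : (PadicAlgCl q)ˣ) : PadicAlgCl q)}) :=
    IntermediateField.adjoin.finiteDimensional halg.isIntegral
  obtain ⟨F, hF, hst, h⟩ := ptg_exists_fixingSubgroup_le q
    (IntermediateField.adjoin ℚ_[q] {((Additive.toMul a : (PadicAlgCl q)ˣ) : PadicAlgCl q)})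
  have := hF
  refine ⟨_, pta_mem_levelsR hF hst, fun n hn => ?_⟩
  have h1 := h n hn
  rw [Representation.ofMulDistribMulAction_apply_apply]
  apply congrArg Additive.ofMul
  apply Units.ext
  rw [AlgEquiv.smul_units_def]
  exact (IntermediateField.mem_fixingSubgroup_iff _ n).mp h1 _
    (IntermediateField.mem_adjoin_simple_self _ _)

/-- the `G_q`-module `Ω_qˣ` (additively written), as a representation over `ℤ` -/
noncomputable abbrev ptg_unitsRep :
    Representation ℤ (PadicAlgCl q ≃ₐ[ℚ_[q]] PadicAlgCl q) (Additive (PadicAlgCl q)ˣ) :=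
  Representation.ofMulDistribMulAction (PadicAlgCl q ≃ₐ[ℚ_[q]] PadicAlgCl q) (PadicAlgCl q)ˣ

/-- **(L) HILBERT 90 IN THE BIG MODEL = local (F1)**: for an open subgroup `U ≤ G_q`, every
level 1-cocycle `U → Ω_qˣ` is a coboundary. -/
theorem ptg_isB1_of_isLZ1_units {U : Subgroup (PadicAlgCl q ≃ₐ[ℚ_[q]] PadicAlgCl q)}
    (hU : (ptg_levels q).IsOpen U) (φ : U → Additive (PadicAlgCl q)ˣ)
    (hφ : ptd_IsLZ1 ((ptg_levels q).sub U hU) (ptd_resRep (ptg_unitsRep q) U) φ) :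
    ptd_IsB1 (ptd_resRep (ptg_unitsRep q) U) φ := by
  obtain ⟨hZ, N', ⟨N, hN, hNU, rfl⟩, hlev⟩ := hφ
  obtain ⟨F, hF, hst, rfl⟩ := (ptg_mem_levels_iff q N).mp hN
  have := hF
  have hfi : (ptg_loc q F).fixingSubgroup.FiniteIndex := ptg_lev_finiteIndex q F
  obtain ⟨b, hb⟩ := ptg_hilbert90_open (ptg_loc q F) U (fun g => Additive.toMul (φ g))
    (fun g h => by
      have h1 := hZ g h
      have h2 := congrArg Additive.toMul h1
      rw [h2]
      rfl)
    (fun g n hn => by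
      have h1 := hlev g n (Subgroup.mem_subgroupOf.mpr hn)
      exact congrArg Additive.toMul h1)
  refine ⟨Additive.ofMul b, ?_⟩
  funext g
  have h1 := hb g
  show φ g = Additive.ofMul (((g : U) : PadicAlgCl q ≃ₐ[ℚ_[q]] PadicAlgCl q) • b) - Additive.ofMul b
  rw [← ofMul_div, ← h1]
  rfl




/-- the restriction `G_q → Gal(K_F/ℚ_q)` (`F` stable, so `K_F/ℚ_q` is Galois) -/
noncomputable def ptg_resGal (F : IntermediateField ℚ (AlgebraicClosure ℚ))
    [Normal ℚ_[q] (ptg_loc q F)] :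
    (PadicAlgCl q ≃ₐ[ℚ_[q]] PadicAlgCl q) →* (↥(ptg_loc q F) ≃ₐ[ℚ_[q]] ↥(ptg_loc q F)) :=
  AlgEquiv.restrictNormalHom (F := ℚ_[q]) ↥(ptg_loc q F)

lemma ptg_resGal_coe (F : IntermediateField ℚ (AlgebraicClosure ℚ)) [Normal ℚ_[q] (ptg_loc q F)]
    (τ : PadicAlgCl q ≃ₐ[ℚ_[q]] PadicAlgCl q) (y : ↥(ptg_loc q F)) :
    ((ptg_resGal q F τ y : ↥(ptg_loc q F)) : PadicAlgCl q) = τ (y : PadicAlgCl q) :=
  AlgEquiv.restrictNormal_commutes τ ↥(ptg_loc q F) y

lemma ptg_resGal_surjective (F : IntermediateField ℚ (AlgebraicClosure ℚ))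
    [Normal ℚ_[q] (ptg_loc q F)] : Function.Surjective (ptg_resGal q F) :=
  AlgEquiv.restrictNormalHom_surjective (F := ℚ_[q]) (K₁ := ↥(ptg_loc q F)) (PadicAlgCl q)

lemma ptg_resGal_ker (F : IntermediateField ℚ (AlgebraicClosure ℚ))
    [Normal ℚ_[q] (ptg_loc q F)] : (ptg_resGal q F).ker = ptg_lev q F :=
  IntermediateField.restrictNormalHom_ker (ptg_loc q F)

lemma ptg_quotEquivGal_mk' (F : IntermediateField ℚ (AlgebraicClosure ℚ))
    [F.fixingSubgroup.Normal] [Normal ℚ_[q] (ptg_loc q F)]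
    (τ : PadicAlgCl q ≃ₐ[ℚ_[q]] PadicAlgCl q) :
    ptg_quotEquivGal q F (τ : (PadicAlgCl q ≃ₐ[ℚ_[q]] PadicAlgCl q) ⧸ ptg_lev q F) =
      ptg_resGal q F τ := rfl


/-- `(Ω_qˣ)^{Gal(Ω_q/K_F)} = K_Fˣ` -/
lemma ptg_mem_range_unitsIncl_loc_iff (F : IntermediateField ℚ (AlgebraicClosure ℚ))
    (u : (PadicAlgCl q)ˣ) :
    u ∈ (ptg_unitsIncl (ptg_loc q F)).range ↔ ∀ τ ∈ ptg_lev q F, τ • u = u :=
  ptg_mem_range_unitsIncl_iff_fixed (ptg_loc q F) u

set_option synthInstance.maxHeartbeats 400000 in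
/-- the inclusion `K_Fˣ → Ω_qˣ` is equivariant along `ptg_resGal q F` -/
lemma ptg_unitsIncl_resGal_smul (F : IntermediateField ℚ (AlgebraicClosure ℚ))
    [Normal ℚ_[q] (ptg_loc q F)] (τ : PadicAlgCl q ≃ₐ[ℚ_[q]] PadicAlgCl q)
    (u : (↥(ptg_loc q F))ˣ) :
    ptg_unitsIncl (ptg_loc q F) (ptg_resGal q F τ • u) = τ • ptg_unitsIncl (ptg_loc q F) u :=
  ptg_unitsIncl_smul (ptg_loc q F) τ u

/-- for an open subgroup `U ≤ G_q`: `(Ω_qˣ)^U = (Ω_q^U)ˣ` -/
lemma ptg_mem_range_unitsIncl_fixedField_iff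
    {U : Subgroup (PadicAlgCl q ≃ₐ[ℚ_[q]] PadicAlgCl q)} (u : (PadicAlgCl q)ˣ) :
    u ∈ (ptg_unitsIncl (IntermediateField.fixedField U)).range ↔ ∀ τ ∈ U, τ • u = u := by
  rw [ptg_mem_range_unitsIncl_iff, IntermediateField.mem_fixedField_iff]
  constructor
  · intro h τ hτ
    apply Units.ext
    rw [AlgEquiv.smul_units_def]
    exact h τ hτ
  · intro h τ hτ
    have := congrArg (fun w : (PadicAlgCl q)ˣ => (w : PadicAlgCl q)) (h τ hτ)
    simpa using this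

end Local

end Fermat.Agent.Lib.PT
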