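/-
**(N1) Local level data**: `pti_localLevelData q p : ptn_LevelData (ptg_levels q) (ptg_unitsRep q) p`,
helper5's bridge input for the local big model `(G_q, levels, Ω_qˣ)`, built from the fundamental
cocycles `pti_fundCocycle` of the finite Galois extensions `Ω_q^N / ℚ_q` (`N` a level).
* `pti_pLevel q p L N hN` : the presented level attached to a finite Galois `L/ℚ_q` inside `Ω_q`
  (`N = Gal(Ω_q/L)`), with class module `u_{L/ℚ_q}`;
* `pti_levField q N`      : the field `Ω_q^N` of a level;
* `pti_localLevelData_U`  : the fundamental cocycle of the level `N` in the big model.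
-/
import Fermat.Agent.Lib.PT.BrauerCompat
import Fermat.Agent.Lib.PT.BridgeL
import Fermat.Agent.Lib.PT.BrgMain

set_option autoImplicit false
set_option linter.unusedSectionVars false
namespace Fermat.Agent.Lib.PT
open groupCohomology

variable (q : ℕ) [Fact q.Prime] (p : ℕ) [Fact p.Prime]

section PLevel

variable (L : IntermediateField ℚ_[q] (PadicAlgCl q)) [FiniteDimensional ℚ_[q] L]
  [IsGalois ℚ_[q] L]

/-- The presented level of `(G_q, Ω_qˣ)` attached to a finite Galois extension `L/ℚ_q` inside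
`Ω_q`, with the class module given by the fundamental cocycle `u_{L/ℚ_q}`. -/
noncomputable def pti_pLevel (N : Subgroup (PadicAlgCl q ≃ₐ[ℚ_[q]] PadicAlgCl q))
    (hN : N = L.fixingSubgroup) : ptn_PLevel (ptg_unitsRep q) p N where
  Γ := ↥L ≃ₐ[ℚ_[q]] ↥L
  π := AlgEquiv.restrictNormalHom (F := ℚ_[q]) ↥L
  surj := AlgEquiv.restrictNormalHom_surjective (F := ℚ_[q]) (K₁ := ↥L) (PadicAlgCl q)
  ker_eq := by rw [hN]; exact IntermediateField.restrictNormalHom_ker L
  CN := Rep.ofMulDistribMulAction (↥L ≃ₐ[ℚ_[q]] ↥L) (↥L)ˣ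
  ι := (ptg_unitsIncl L).toAdditive
  inj := fun x y h => by
    have := ptg_unitsIncl_injective L (congrArg Additive.toMul h)
    exact congrArg Additive.ofMul this
  equiv := fun g x => congrArg Additive.ofMul (ptg_unitsIncl_smul L g (Additive.toMul x))
  range := fun c hc => by
    have h1 : Additive.toMul c ∈ (ptg_unitsIncl L).range := by
      rw [ptg_mem_range_unitsIncl_iff_fixed]
      intro τ hτ
      exact congrArg Additive.toMul (hc τ (hN ▸ hτ))
    obtain ⟨x, hx⟩ := h1
    exact ⟨Additive.ofMul x, congrArg Additive.ofMul hx⟩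
  cm := (pti_fundCocycle_mulClassData q ℚ_[q] (PadicAlgCl q) L p).toClassModuleOn

theorem pti_pLevel_bigU (N : Subgroup (PadicAlgCl q ≃ₐ[ℚ_[q]] PadicAlgCl q))
    (hN : N = L.fixingSubgroup) (g h : PadicAlgCl q ≃ₐ[ℚ_[q]] PadicAlgCl q) :
    (pti_pLevel q p L N hN).bigU (g, h) =
      Additive.ofMul (ptg_unitsIncl L (pti_fundCocycle q ℚ_[q] (PadicAlgCl q) L
        (AlgEquiv.restrictNormalHom (F := ℚ_[q]) ↥L g,
          AlgEquiv.restrictNormalHom (F := ℚ_[q]) ↥L h))) := rfl

end PLevel

section LevField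

variable {q}
variable {N : Subgroup (PadicAlgCl q ≃ₐ[ℚ_[q]] PadicAlgCl q)}

theorem pti_isOpen_of_mem_lev (hN : N ∈ (ptg_levels q).lev) : (ptg_levels q).IsOpen N :=
  ⟨N, hN, le_rfl⟩

/-- `Gal(Ω_q / Ω_q^N) = N` for a level `N`. -/
theorem pti_levField_fixing (hN : N ∈ (ptg_levels q).lev) :
    (IntermediateField.fixedField N).fixingSubgroup = N :=
  ptg_fixingSubgroup_fixedField_of_isOpen q (pti_isOpen_of_mem_lev hN)

theorem pti_levField_finiteDimensional (hN : N ∈ (ptg_levels q).lev) :
    FiniteDimensional ℚ_[q] (IntermediateField.fixedField N) :=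
  ptg_fixedField_finiteDimensional_of_isOpen q (pti_isOpen_of_mem_lev hN)

theorem pti_levField_isGalois (hN : N ∈ (ptg_levels q).lev) :
    IsGalois ℚ_[q] (IntermediateField.fixedField N) := by
  rw [← InfiniteGalois.normal_iff_isGalois, pti_levField_fixing hN]
  exact (ptg_levels q).normal N hN

end LevField

section Compat

variable (L L' : IntermediateField ℚ_[q] (PadicAlgCl q)) [FiniteDimensional ℚ_[q] L]
  [IsGalois ℚ_[q] L] [FiniteDimensional ℚ_[q] L'] [IsGalois ℚ_[q] L'] (h : L ≤ L')

include h in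
theorem pti_relIndex_fixingSubgroup :
    L'.fixingSubgroup.relIndex L.fixingSubgroup =
      Module.finrank ℚ_[q] L' / Module.finrank ℚ_[q] L := by
  have hle : L'.fixingSubgroup ≤ L.fixingSubgroup := IntermediateField.fixingSubgroup_antitone h
  have h1 := Subgroup.relIndex_mul_index hle
  rw [← IntermediateField.finrank_eq_fixingSubgroup_index,
    ← IntermediateField.finrank_eq_fixingSubgroup_index] at h1
  rw [← h1, Nat.mul_div_cancel _ Module.finrank_pos]

include h in
theorem pti_unitsIncl_inclusion (x : (↥L)ˣ) :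
    ptg_unitsIncl L' (Units.map ((IntermediateField.inclusion h : L →ₐ[ℚ_[q]] L') : L →* L') x) =
      ptg_unitsIncl L x := Units.ext rfl

include h in
/-- **Compatibility of the presented levels**: `u_L - [L':L] u_L'` is the coboundary of a
1-cochain living at the level of `L'`. -/
theorem pti_pLevel_compat (N N' : Subgroup (PadicAlgCl q ≃ₐ[ℚ_[q]] PadicAlgCl q))
    (hN : N = L.fixingSubgroup) (hN' : N' = L'.fixingSubgroup) :
    ∃ ψ : (PadicAlgCl q ≃ₐ[ℚ_[q]] PadicAlgCl q) → Additive (PadicAlgCl q)ˣ,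
      (∀ g, ∀ n ∈ N', ψ (g * n) = ψ g) ∧ (∀ g, ∀ n ∈ N', ptg_unitsRep q n (ψ g) = ψ g) ∧
      (pti_pLevel q p L N hN).bigU - (N'.relIndex N) • (pti_pLevel q p L' N' hN').bigU =
        ptd_d1 (ptg_unitsRep q) ψ := by
  obtain ⟨x, hx⟩ := pti_fundCocycle_compat q ℚ_[q] (PadicAlgCl q) L L' h
  refine ⟨fun g => Additive.ofMul (ptg_unitsIncl L' (x (AlgEquiv.restrictNormalHom ↥L' g))),
    fun g n hn => ?_, fun g n hn => ?_, ?_⟩
  · have hn1 : AlgEquiv.restrictNormalHom (F := ℚ_[q]) ↥L' n = 1 := by
      have : n ∈ (AlgEquiv.restrictNormalHom (F := ℚ_[q]) ↥L').ker := by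
        rw [IntermediateField.restrictNormalHom_ker L', ← hN']; exact hn
      exact MonoidHom.mem_ker.mp this
    show Additive.ofMul _ = Additive.ofMul _
    rw [map_mul, hn1, mul_one]
  · show Additive.ofMul (n • ptg_unitsIncl L' _) = Additive.ofMul _
    have h1 : ptg_unitsIncl L' (x (AlgEquiv.restrictNormalHom ↥L' g)) ∈ (ptg_unitsIncl L').range :=
      ⟨_, rfl⟩
    rw [ptg_mem_range_unitsIncl_iff_fixed] at h1
    rw [h1 n (hN' ▸ hn)]
  · funext ⟨g, k⟩
    have hrel : N'.relIndex N = Module.finrank ℚ_[q] L' / Module.finrank ℚ_[q] L := by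
      rw [hN, hN']; exact pti_relIndex_fixingSubgroup q L L' h
    have h2 := hx (AlgEquiv.restrictNormalHom ↥L' g) (AlgEquiv.restrictNormalHom ↥L' k)
    have h3 := congrArg (ptg_unitsIncl L') h2
    rw [Pi.div_apply, Pi.pow_apply, map_div, map_pow, map_mul, map_div, ptg_unitsIncl_smul,
      ← map_mul] at h3
    simp only [pti_inflL, pti_galRestrict_restrictNormalHom] at h3
    rw [pti_unitsIncl_inclusion q L L' h] at h3
    rw [hrel]
    rw [Pi.sub_apply, Pi.smul_apply, pti_pLevel_bigU, pti_pLevel_bigU, ← ofMul_pow, ← ofMul_div]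
    show _ = Additive.ofMul (g • ptg_unitsIncl L' (x (AlgEquiv.restrictNormalHom ↥L' k))) -
      Additive.ofMul (ptg_unitsIncl L' (x (AlgEquiv.restrictNormalHom ↥L' (g * k)))) +
      Additive.ofMul (ptg_unitsIncl L' (x (AlgEquiv.restrictNormalHom ↥L' g)))
    rw [← ofMul_div, ← ofMul_mul]
    exact congrArg Additive.ofMul h3.symm

end Compat

section LevelData

/-- The presented level of a level `N` of `G_q` (field `Ω_q^N`). -/
noncomputable def pti_lvlOf (N : Subgroup (PadicAlgCl q ≃ₐ[ℚ_[q]] PadicAlgCl q))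
    (hN : N ∈ (ptg_levels q).lev) : ptn_PLevel (ptg_unitsRep q) p N :=
  haveI := pti_levField_finiteDimensional hN
  haveI := pti_levField_isGalois hN
  pti_pLevel q p (IntermediateField.fixedField N) N (pti_levField_fixing hN).symm

/-- **(N1) The local level data**: presented levels of `(G_q, Ω_qˣ)` with the class modules of
the fundamental cocycles, compatible under inflation. -/
noncomputable def pti_localLevelData : ptn_LevelData (ptg_levels q) (ptg_unitsRep q) p where
  lvl := pti_lvlOf q p
  compat := fun N hN N' hN' hle => by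
    have := pti_levField_finiteDimensional hN
    have := pti_levField_isGalois hN
    have := pti_levField_finiteDimensional hN'
    have := pti_levField_isGalois hN'
    have hLL : IntermediateField.fixedField N ≤ IntermediateField.fixedField N' :=
      IntermediateField.fixedField_antitone hle
    obtain ⟨ψ, h1, h2, h3⟩ := pti_pLevel_compat q p (IntermediateField.fixedField N)
      (IntermediateField.fixedField N') hLL N N' (pti_levField_fixing hN).symm
      (pti_levField_fixing hN').symm
    refine ⟨1, by simpa using (Fact.out : p.Prime).one_lt.ne', ψ, h1, h2, ?_⟩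
    rw [one_smul]
    exact h3

/-- The fundamental cocycle of the level `N` in the big model: the inflation of
`u_{Ω_q^N/ℚ_q}`. -/
theorem pti_localLevelData_U (N : Subgroup (PadicAlgCl q ≃ₐ[ℚ_[q]] PadicAlgCl q))
    (hN : N ∈ (ptg_levels q).lev) :
    (pti_localLevelData q p).U N = (pti_lvlOf q p N hN).bigU :=
  (pti_localLevelData q p).U_eq hN

end LevelData

end Fermat.Agent.Lib.PT
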