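/-
**(EV) Master evaluation of the local invariant** `ptn_invG (pti_localLevelData q p)`:
for ANY finite Galois `L/ℚ_q` inside `Ω_q` (not necessarily a level) and a 2-cochain
`c : Gal(L/ℚ_q)² → Lˣ` with `c ~ u_{L/ℚ_q} ^ k`, the big-model inflation `pti_bigInfl q L c` has
invariant `k / [L : ℚ_q]` (`pti_invG_bigInfl`).
-/
import Fermat.Agent.Lib.PT.BrauerLevel

set_option autoImplicit false
set_option linter.unusedSectionVars false
namespace Fermat.Agent.Lib.PT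
open groupCohomology

variable (q : ℕ) [Fact q.Prime] (p : ℕ) [Fact p.Prime]

section Infl

variable (L : IntermediateField ℚ_[q] (PadicAlgCl q)) [FiniteDimensional ℚ_[q] L]
  [IsGalois ℚ_[q] L]

/-- Big-model inflation of a finite-level 2-cochain `Gal(L/ℚ_q)² → Lˣ` to `G_q² → Ω_qˣ`
(additively written). -/
noncomputable def pti_bigInfl (c : (L ≃ₐ[ℚ_[q]] L) × (L ≃ₐ[ℚ_[q]] L) → (↥L)ˣ) :
    (PadicAlgCl q ≃ₐ[ℚ_[q]] PadicAlgCl q) × (PadicAlgCl q ≃ₐ[ℚ_[q]] PadicAlgCl q) →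
      Additive (PadicAlgCl q)ˣ :=
  fun x => Additive.ofMul (ptg_unitsIncl L (c (AlgEquiv.restrictNormalHom (F := ℚ_[q]) ↥L x.1,
    AlgEquiv.restrictNormalHom (F := ℚ_[q]) ↥L x.2)))

/-- Big-model inflation of a finite-level 1-cochain. -/
noncomputable def pti_bigInfl₁ (x : (L ≃ₐ[ℚ_[q]] L) → (↥L)ˣ) :
    (PadicAlgCl q ≃ₐ[ℚ_[q]] PadicAlgCl q) → Additive (PadicAlgCl q)ˣ :=
  fun g => Additive.ofMul (ptg_unitsIncl L (x (AlgEquiv.restrictNormalHom (F := ℚ_[q]) ↥L g)))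

theorem pti_bigInfl_apply (c : (L ≃ₐ[ℚ_[q]] L) × (L ≃ₐ[ℚ_[q]] L) → (↥L)ˣ)
    (g h : PadicAlgCl q ≃ₐ[ℚ_[q]] PadicAlgCl q) :
    pti_bigInfl q L c (g, h) = Additive.ofMul (ptg_unitsIncl L
      (c (AlgEquiv.restrictNormalHom (F := ℚ_[q]) ↥L g,
        AlgEquiv.restrictNormalHom (F := ℚ_[q]) ↥L h))) := rfl

theorem pti_bigInfl_div (c c' : (L ≃ₐ[ℚ_[q]] L) × (L ≃ₐ[ℚ_[q]] L) → (↥L)ˣ) :
    pti_bigInfl q L (c / c') = pti_bigInfl q L c - pti_bigInfl q L c' := by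
  funext x
  simp only [pti_bigInfl, Pi.div_apply, Pi.sub_apply, map_div, ofMul_div]

theorem pti_bigInfl_mul (c c' : (L ≃ₐ[ℚ_[q]] L) × (L ≃ₐ[ℚ_[q]] L) → (↥L)ˣ) :
    pti_bigInfl q L (c * c') = pti_bigInfl q L c + pti_bigInfl q L c' := by
  funext x
  simp only [pti_bigInfl, Pi.mul_apply, Pi.add_apply, map_mul, ofMul_mul]

theorem pti_bigInfl_zpow (c : (L ≃ₐ[ℚ_[q]] L) × (L ≃ₐ[ℚ_[q]] L) → (↥L)ˣ) (k : ℤ) :
    pti_bigInfl q L (c ^ k) = k • pti_bigInfl q L c := by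
  funext x
  simp only [pti_bigInfl, Pi.pow_apply, Pi.smul_apply, map_zpow, ofMul_zpow]

theorem pti_bigInfl_pow (c : (L ≃ₐ[ℚ_[q]] L) × (L ≃ₐ[ℚ_[q]] L) → (↥L)ˣ) (k : ℕ) :
    pti_bigInfl q L (c ^ k) = k • pti_bigInfl q L c := by
  funext x
  simp only [pti_bigInfl, Pi.pow_apply, Pi.smul_apply, map_pow, ofMul_pow]

theorem pti_restrictNormalHom_eq_one {n : PadicAlgCl q ≃ₐ[ℚ_[q]] PadicAlgCl q}
    (hn : n ∈ L.fixingSubgroup) : AlgEquiv.restrictNormalHom (F := ℚ_[q]) ↥L n = 1 := by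
  have : n ∈ (AlgEquiv.restrictNormalHom (F := ℚ_[q]) ↥L).ker := by
    rw [IntermediateField.restrictNormalHom_ker L]; exact hn
  exact MonoidHom.mem_ker.mp this

/-- Inflated 1-cochains are right-invariant under `Gal(Ω_q/L)`. -/
theorem pti_bigInfl₁_mul_right (x : (L ≃ₐ[ℚ_[q]] L) → (↥L)ˣ)
    (g : PadicAlgCl q ≃ₐ[ℚ_[q]] PadicAlgCl q) {n : PadicAlgCl q ≃ₐ[ℚ_[q]] PadicAlgCl q}
    (hn : n ∈ L.fixingSubgroup) : pti_bigInfl₁ q L x (g * n) = pti_bigInfl₁ q L x g := by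
  simp only [pti_bigInfl₁, map_mul, pti_restrictNormalHom_eq_one q L hn, mul_one]

/-- Inflated 2-cochains are right-invariant under `Gal(Ω_q/L)`. -/
theorem pti_bigInfl_mul_right (c : (L ≃ₐ[ℚ_[q]] L) × (L ≃ₐ[ℚ_[q]] L) → (↥L)ˣ)
    (g h : PadicAlgCl q ≃ₐ[ℚ_[q]] PadicAlgCl q) {n n' : PadicAlgCl q ≃ₐ[ℚ_[q]] PadicAlgCl q}
    (hn : n ∈ L.fixingSubgroup) (hn' : n' ∈ L.fixingSubgroup) :
    pti_bigInfl q L c (g * n, h * n') = pti_bigInfl q L c (g, h) := by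
  simp only [pti_bigInfl, map_mul, pti_restrictNormalHom_eq_one q L hn,
    pti_restrictNormalHom_eq_one q L hn', mul_one]

/-- The inflation of a finite-level 2-cocycle is a level 2-cocycle of the big model. -/
theorem pti_bigInfl_isLZ2 {c : (L ≃ₐ[ℚ_[q]] L) × (L ≃ₐ[ℚ_[q]] L) → (↥L)ˣ}
    (hc : IsMulCocycle₂ c) : ptd_IsLZ2 (ptg_levels q) (ptg_unitsRep q) (pti_bigInfl q L c) := by
  refine ⟨fun g h j => ?_, ?_⟩
  · have h2 := hc (AlgEquiv.restrictNormalHom ↥L g) (AlgEquiv.restrictNormalHom ↥L h)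
      (AlgEquiv.restrictNormalHom ↥L j)
    have h3 := congrArg (ptg_unitsIncl L) h2
    rw [map_mul, map_mul, ptg_unitsIncl_smul] at h3
    rw [pti_bigInfl_apply, pti_bigInfl_apply, pti_bigInfl_apply, pti_bigInfl_apply, map_mul,
      map_mul]
    show Additive.ofMul _ + Additive.ofMul _ =
      Additive.ofMul (g • ptg_unitsIncl L (c (AlgEquiv.restrictNormalHom ↥L h,
        AlgEquiv.restrictNormalHom ↥L j))) + Additive.ofMul _
    rw [← ofMul_mul, ← ofMul_mul]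
    exact congrArg Additive.ofMul h3
  · obtain ⟨N, hN, hNL⟩ := ptg_isOpen_fixingSubgroup q L
    exact ⟨N, hN, fun g h n hn n' hn' => pti_bigInfl_mul_right q L c g h (hNL hn) (hNL hn')⟩

/-- A finite-level coboundary relation inflates to a big-model one. -/
theorem pti_bigInfl_of_isMulCoboundary₂ {c : (L ≃ₐ[ℚ_[q]] L) × (L ≃ₐ[ℚ_[q]] L) → (↥L)ˣ}
    (hc : IsMulCoboundary₂ c) :
    ∃ x : (L ≃ₐ[ℚ_[q]] L) → (↥L)ˣ,
      pti_bigInfl q L c = ptd_d1 (ptg_unitsRep q) (pti_bigInfl₁ q L x) := by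
  obtain ⟨x, hx⟩ := hc
  refine ⟨x, ?_⟩
  funext ⟨g, k⟩
  have h2 := hx (AlgEquiv.restrictNormalHom ↥L g) (AlgEquiv.restrictNormalHom ↥L k)
  have h3 := congrArg (ptg_unitsIncl L) h2
  rw [map_mul, map_div, ptg_unitsIncl_smul, ← map_mul] at h3
  show Additive.ofMul _ =
    Additive.ofMul (g • ptg_unitsIncl L (x (AlgEquiv.restrictNormalHom ↥L k))) -
      Additive.ofMul (ptg_unitsIncl L (x (AlgEquiv.restrictNormalHom ↥L (g * k)))) +
      Additive.ofMul (ptg_unitsIncl L (x (AlgEquiv.restrictNormalHom ↥L g)))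
  rw [← ofMul_div, ← ofMul_mul]
  exact congrArg Additive.ofMul h3.symm

/-- The big-model cochain of the presented level of `L` is the inflation of `u_{L/ℚ_q}`. -/
theorem pti_pLevel_bigU_eq (N : Subgroup (PadicAlgCl q ≃ₐ[ℚ_[q]] PadicAlgCl q))
    (hN : N = L.fixingSubgroup) :
    (pti_pLevel q p L N hN).bigU = pti_bigInfl q L (pti_fundCocycle q ℚ_[q] (PadicAlgCl q) L) :=
  rfl

/-- **(EV) Master evaluation**: if `c ~ u_{L/ℚ_q} ^ k` at the finite level `L` (any finite Galois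
`L/ℚ_q` inside `Ω_q`), then the invariant of the big-model inflation of `c` is `k / [L : ℚ_q]`. -/
theorem pti_invG_bigInfl (c : (L ≃ₐ[ℚ_[q]] L) × (L ≃ₐ[ℚ_[q]] L) → (↥L)ˣ) (k : ℤ)
    (hck : IsMulCoboundary₂ (c / pti_fundCocycle q ℚ_[q] (PadicAlgCl q) L ^ k)) :
    ptn_invG (pti_localLevelData q p) (ptg_isDiscrete_units q) (pti_bigInfl q L c) =
      ptn_frac p k (Module.finrank ℚ_[q] L) := by
  -- a level `N ≤ Gal(Ω_q/L)` with field `L' ⊇ L`
  obtain ⟨N, hN, hNL⟩ := ptg_isOpen_fixingSubgroup q L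
  have := pti_levField_finiteDimensional hN
  have := pti_levField_isGalois hN
  have hLL : L ≤ IntermediateField.fixedField N := by
    have h1 : IntermediateField.fixedField L.fixingSubgroup ≤ IntermediateField.fixedField N :=
      IntermediateField.fixedField_antitone hNL
    rwa [InfiniteGalois.fixedField_fixingSubgroup] at h1
  obtain ⟨ψ, hψ1, -, hψ3⟩ := pti_pLevel_compat q p L (IntermediateField.fixedField N) hLL
    L.fixingSubgroup N rfl (pti_levField_fixing hN).symm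
  obtain ⟨x, hx⟩ := pti_bigInfl_of_isMulCoboundary₂ q L hck
  rw [pti_bigInfl_div, pti_bigInfl_zpow] at hx
  rw [pti_pLevel_bigU_eq] at hψ3
  have hU : (pti_localLevelData q p).U N = (pti_lvlOf q p N hN).bigU :=
    pti_localLevelData_U q p N hN
  have hB : ptd_IsB2 (ptg_levels q) (ptg_unitsRep q)
      (1 • pti_bigInfl q L c -
        (k * (N.relIndex L.fixingSubgroup : ℕ) : ℤ) • (pti_localLevelData q p).U N) := by
    refine ⟨pti_bigInfl₁ q L x + k • ψ, ⟨N, hN, fun g n hn => ?_⟩, ?_⟩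
    · simp only [Pi.add_apply, Pi.smul_apply, pti_bigInfl₁_mul_right q L x g (hNL hn),
        hψ1 g n hn]
    · rw [ptd_d1_add, ← hx, hU]
      have h5 : ptd_d1 (ptg_unitsRep q) (k • ψ) = k • ptd_d1 (ptg_unitsRep q) ψ := by
        funext y
        simp only [ptd_d1, Pi.smul_apply, map_zsmul]
        rw [zsmul_add, zsmul_sub]
      rw [h5, ← hψ3]
      show _ = _ + k • (_ - _ • (pti_lvlOf q p N hN).bigU)
      funext y
      simp only [Pi.sub_apply, Pi.add_apply, Pi.smul_apply]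
      rw [one_smul, zsmul_sub, mul_zsmul, natCast_zsmul]
      abel
  have hp1 : ¬ p ∣ 1 := by simpa using (Fact.out : p.Prime).one_lt.ne'
  rw [ptn_invG_eq (pti_localLevelData q p) (ptg_isDiscrete_units q) hN hp1 hB, one_mul]
  have hidx : N.index = Module.finrank ℚ_[q] L * N.relIndex L.fixingSubgroup := by
    rw [IntermediateField.finrank_eq_fixingSubgroup_index, mul_comm]
    exact (Subgroup.relIndex_mul_index hNL).symm
  rw [hidx]
  refine ptn_frac_mul_right k _ _ ?_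
  intro h0
  have := (ptg_levels q).finiteIndex N hN
  have h1 : N.index ≠ 0 := Subgroup.FiniteIndex.index_ne_zero
  rw [hidx, h0, mul_zero] at h1
  exact h1 rfl

end Infl

end Fermat.Agent.Lib.PT
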