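/-
Unit-valued 2-cocycles of an unramified extension of local fields split:
`pti_unr_unit_isMulCoboundary₂` (`H²(Gal(L/K), 𝒪_Lˣ) → H²(Gal(L/K), Lˣ)` is zero for `L/K`
unramified), from helper6's invariant `ptl_unr_isMulCoboundary₂_iff`.
Also: the cyclic cocycle `c_a` of a unit `a ∈ 𝒪_Kˣ` splits (`pti_unr_cycCocycle_unit`).
-/
import Fermat.Agent.Lib.PT.LocUnrCoh

set_option autoImplicit false
set_option linter.unusedSectionVars false

namespace Fermat.Agent.Lib.PT

open groupCohomology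

variable (q : ℕ) [Fact q.Prime]

section UnrUnit

variable (K L : Type*) [Field K] [Algebra ℚ_[q] K] [FiniteDimensional ℚ_[q] K]
  [Field L] [Algebra ℚ_[q] L] [FiniteDimensional ℚ_[q] L] [Algebra K L]
  [IsScalarTower ℚ_[q] K L] [FiniteDimensional K L] [IsGalois K L]
  (hinj : Function.Injective (ptl_galRes q K L))

include hinj in
/-- **A unit-valued 2-cocycle of an unramified extension splits** (has invariant `0`). -/
theorem pti_unr_unit_isMulCoboundary₂ {c : (L ≃ₐ[K] L) × (L ≃ₐ[K] L) → Lˣ}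
    (hc : IsMulCocycle₂ c) (hunit : ∀ p, ptl_abs q L ((c p : Lˣ) : L) = 1) :
    IsMulCoboundary₂ c := by
  rw [ptl_unr_isMulCoboundary₂_iff q K L hinj hc]
  have h1 : ptl_abs q L ((ptl_cycPsi (ptl_frob q K L hinj) c : Lˣ) : L) = 1 := by
    rw [ptl_cycPsi, Units.coe_prod, map_prod]
    exact Finset.prod_eq_one (fun i _ => hunit _)
  rw [(ptl_ordZ_eq_zero_iff q (Units.ne_zero _)).2 h1]
  exact dvd_zero _

end UnrUnit

end Fermat.Agent.Lib.PT
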