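/-
Descent of big-model 2-cocycles of `(G_q, Ω_qˣ)` to a finite level, and **(L-unit)**:
* `pti_fixed_of_rInv`     : a 2-cocycle right-invariant (in both variables) under a normal
  subgroup has values fixed by it;
* `pti_exists_bigInfl_eq` : a 2-cocycle of `G_q` right-invariant under `Gal(Ω_q/L)` is the
  big-model inflation of a finite-level multiplicative 2-cocycle of `Gal(L/ℚ_q)`;
* `pti_unit_isB2`, `pti_unit_isB2_level` : **(L-unit)** a UNIT-valued level 2-cocycle living at an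
  UNRAMIFIED level is a level coboundary.
-/
import Fermat.Agent.Lib.PT.BrauerEval
import Fermat.Agent.Lib.PT.BrauerUnrUnit

set_option autoImplicit false
set_option linter.unusedSectionVars false
namespace Fermat.Agent.Lib.PT
open groupCohomology

section Fixed

variable {G : Type*} [Group G] {A : Type*} [AddCommGroup A] (ρ : Representation ℤ G A)

/-- A 2-cocycle which is right-invariant in both variables under a normal subgroup `W` takes
`W`-fixed values. -/
theorem pti_fixed_of_rInv (W : Subgroup G) [W.Normal] {z : G × G → A} (hz : ptd_IsZ2 ρ z)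
    (hinv : ∀ g h, ∀ n ∈ W, ∀ n' ∈ W, z (g * n, h * n') = z (g, h)) (x : G × G) :
    ∀ n ∈ W, ρ n (z x) = z x := by
  intro n hn
  obtain ⟨h, j⟩ := x
  have h11 : ∀ j : G, z (1, j) = z (1, 1) := by
    intro j
    have h := hz 1 1 j
    rw [mul_one, one_mul, map_one] at h
    have h' : z (1, j) + z (1, 1) = z (1, j) + z (1, j) := h
    exact (add_left_cancel h').symm
  have hn1 : ∀ j : G, z (n, j) = z (1, 1) := by
    intro j
    have := hinv 1 j n hn 1 W.one_mem
    rw [one_mul, mul_one] at this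
    rw [this, h11]
  have hnh : z (n * h, j) = z (h, j) := by
    have h1 : n * h = h * (h⁻¹ * n * h) := by group
    have h2 : h⁻¹ * n * h ∈ W := by
      have := Subgroup.Normal.conj_mem ‹W.Normal› n hn h⁻¹
      simpa using this
    have := hinv h j _ h2 1 W.one_mem
    rw [mul_one] at this
    rw [h1, this]
  have h := hz n h j
  rw [hnh, hn1, hn1] at h
  exact (add_right_cancel h).symm

end Fixed

variable (q : ℕ) [Fact q.Prime] (p : ℕ) [Fact p.Prime]

section Descend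

variable (L : IntermediateField ℚ_[q] (PadicAlgCl q)) [FiniteDimensional ℚ_[q] L]
  [IsGalois ℚ_[q] L]

theorem pti_fixingSubgroup_normal : L.fixingSubgroup.Normal :=
  (InfiniteGalois.normal_iff_isGalois L).mpr inferInstance

/-- Converse of `pti_bigInfl_isLZ2`: if the inflation is a cocycle, so is the finite-level
cochain. -/
theorem pti_isMulCocycle₂_of_bigInfl {c : (L ≃ₐ[ℚ_[q]] L) × (L ≃ₐ[ℚ_[q]] L) → (↥L)ˣ}
    (hz : ptd_IsZ2 (ptg_unitsRep q) (pti_bigInfl q L c)) : IsMulCocycle₂ c := by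
  intro σ τ υ
  obtain ⟨g, rfl⟩ := AlgEquiv.restrictNormalHom_surjective (F := ℚ_[q]) (K₁ := ↥L)
    (PadicAlgCl q) σ
  obtain ⟨h, rfl⟩ := AlgEquiv.restrictNormalHom_surjective (F := ℚ_[q]) (K₁ := ↥L)
    (PadicAlgCl q) τ
  obtain ⟨j, rfl⟩ := AlgEquiv.restrictNormalHom_surjective (F := ℚ_[q]) (K₁ := ↥L)
    (PadicAlgCl q) υ
  apply ptg_unitsIncl_injective L
  have h1 := hz g h j
  rw [pti_bigInfl_apply, pti_bigInfl_apply, pti_bigInfl_apply, pti_bigInfl_apply, map_mul,
    map_mul] at h1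
  have h2 : Additive.ofMul (ptg_unitsIncl L (c (AlgEquiv.restrictNormalHom ↥L g *
        AlgEquiv.restrictNormalHom ↥L h, AlgEquiv.restrictNormalHom ↥L j)) *
      ptg_unitsIncl L (c (AlgEquiv.restrictNormalHom ↥L g, AlgEquiv.restrictNormalHom ↥L h))) =
      Additive.ofMul (g • ptg_unitsIncl L (c (AlgEquiv.restrictNormalHom ↥L h,
        AlgEquiv.restrictNormalHom ↥L j)) *
      ptg_unitsIncl L (c (AlgEquiv.restrictNormalHom ↥L g,
        AlgEquiv.restrictNormalHom ↥L h * AlgEquiv.restrictNormalHom ↥L j))) := h1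
  rw [map_mul, map_mul, ptg_unitsIncl_smul]
  exact Additive.ofMul.injective h2

/-- **Descent**: a 2-cocycle of `G_q` with values in `Ω_qˣ`, right-invariant in both variables
under `Gal(Ω_q/L)`, is the big-model inflation of a finite-level 2-cocycle of `Gal(L/ℚ_q)`. -/
theorem pti_exists_bigInfl_eq {z : (PadicAlgCl q ≃ₐ[ℚ_[q]] PadicAlgCl q) ×
      (PadicAlgCl q ≃ₐ[ℚ_[q]] PadicAlgCl q) → Additive (PadicAlgCl q)ˣ}
    (hz : ptd_IsZ2 (ptg_unitsRep q) z)
    (hinv : ∀ g h, ∀ n ∈ L.fixingSubgroup, ∀ n' ∈ L.fixingSubgroup, z (g * n, h * n') = z (g, h)) :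
    ∃ c : (L ≃ₐ[ℚ_[q]] L) × (L ≃ₐ[ℚ_[q]] L) → (↥L)ˣ,
      IsMulCocycle₂ c ∧ pti_bigInfl q L c = z := by
  have := pti_fixingSubgroup_normal q L
  have hfix := pti_fixed_of_rInv (ptg_unitsRep q) L.fixingSubgroup hz hinv
  have hsurj := AlgEquiv.restrictNormalHom_surjective (F := ℚ_[q]) (K₁ := ↥L) (PadicAlgCl q)
  have hrange : ∀ x, Additive.toMul (z x) ∈ (ptg_unitsIncl L).range := by
    intro x
    rw [ptg_mem_range_unitsIncl_iff_fixed]
    intro τ hτ
    exact congrArg Additive.toMul (hfix x τ hτ)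
  choose d hd using hrange
  have hlift : ∀ g : PadicAlgCl q ≃ₐ[ℚ_[q]] PadicAlgCl q,
      g⁻¹ * Function.surjInv hsurj (AlgEquiv.restrictNormalHom ↥L g) ∈ L.fixingSubgroup := by
    intro g
    rw [← IntermediateField.restrictNormalHom_ker L, MonoidHom.mem_ker, map_mul, map_inv,
      Function.surjInv_eq hsurj, inv_mul_cancel]
  have hzl : ∀ g h : PadicAlgCl q ≃ₐ[ℚ_[q]] PadicAlgCl q,
      z (Function.surjInv hsurj (AlgEquiv.restrictNormalHom ↥L g),
        Function.surjInv hsurj (AlgEquiv.restrictNormalHom ↥L h)) = z (g, h) := by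
    intro g h
    have := hinv g h _ (hlift g) _ (hlift h)
    rwa [mul_inv_cancel_left, mul_inv_cancel_left] at this
  let c : (L ≃ₐ[ℚ_[q]] L) × (L ≃ₐ[ℚ_[q]] L) → (↥L)ˣ :=
    fun x => d (Function.surjInv hsurj x.1, Function.surjInv hsurj x.2)
  have hcz : pti_bigInfl q L c = z := by
    funext ⟨g, h⟩
    rw [pti_bigInfl_apply]
    show Additive.ofMul (ptg_unitsIncl L (d _)) = _
    rw [hd, ofMul_toMul, hzl]
  refine ⟨c, pti_isMulCocycle₂_of_bigInfl q L ?_, hcz⟩
  rw [hcz]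
  exact hz

end Descend

section Unit

variable (L : IntermediateField ℚ_[q] (PadicAlgCl q)) [FiniteDimensional ℚ_[q] L]
  [IsGalois ℚ_[q] L]

attribute [local instance] pti_isScalarTower_top pti_finiteDimensional_L

/-- **(L-unit)**: a unit-valued 2-cocycle of `G_q` living at an unramified finite Galois level
`L/ℚ_q` is a level coboundary. -/
theorem pti_unit_isB2 (hinj : Function.Injective (ptl_galRes q ℚ_[q] L))
    {z : (PadicAlgCl q ≃ₐ[ℚ_[q]] PadicAlgCl q) × (PadicAlgCl q ≃ₐ[ℚ_[q]] PadicAlgCl q) →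
      Additive (PadicAlgCl q)ˣ}
    (hz : ptd_IsZ2 (ptg_unitsRep q) z)
    (hinv : ∀ g h, ∀ n ∈ L.fixingSubgroup, ∀ n' ∈ L.fixingSubgroup, z (g * n, h * n') = z (g, h))
    (hunit : ∀ x, ‖((Additive.toMul (z x) : (PadicAlgCl q)ˣ) : PadicAlgCl q)‖ = 1) :
    ptd_IsB2 (ptg_levels q) (ptg_unitsRep q) z := by
  obtain ⟨c, hc, rfl⟩ := pti_exists_bigInfl_eq q L hz hinv
  have hsurj := AlgEquiv.restrictNormalHom_surjective (F := ℚ_[q]) (K₁ := ↥L) (PadicAlgCl q)
  have hcu : ∀ x, ptl_abs q L ((c x : (↥L)ˣ) : L) = 1 := by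
    rintro ⟨σ, τ⟩
    obtain ⟨g, rfl⟩ := hsurj σ
    obtain ⟨h, rfl⟩ := hsurj τ
    rw [ptl_abs_intermediateField]
    exact hunit (g, h)
  have hcob := pti_unr_unit_isMulCoboundary₂ q ℚ_[q] L hinj hc hcu
  obtain ⟨x, hx⟩ := pti_bigInfl_of_isMulCoboundary₂ q L hcob
  obtain ⟨N, hN, hNL⟩ := ptg_isOpen_fixingSubgroup q L
  exact ⟨pti_bigInfl₁ q L x, ⟨N, hN, fun g n hn => pti_bigInfl₁_mul_right q L x g (hNL hn)⟩, hx⟩

end Unit

section UnitLevel

/-- **(L-unit)**, level form: `N` a level of `G_q` with `Ω_q^N/ℚ_q` unramified, `z` a unit-valued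
2-cocycle right-`N`-invariant in both variables. -/
theorem pti_unit_isB2_level (N : Subgroup (PadicAlgCl q ≃ₐ[ℚ_[q]] PadicAlgCl q))
    (hN : N ∈ (ptg_levels q).lev)
    (hinj : Function.Injective (ptl_galRes q ℚ_[q] (IntermediateField.fixedField N)))
    {z : (PadicAlgCl q ≃ₐ[ℚ_[q]] PadicAlgCl q) × (PadicAlgCl q ≃ₐ[ℚ_[q]] PadicAlgCl q) →
      Additive (PadicAlgCl q)ˣ}
    (hz : ptd_IsZ2 (ptg_unitsRep q) z)
    (hinv : ∀ g h, ∀ n ∈ N, ∀ n' ∈ N, z (g * n, h * n') = z (g, h))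
    (hunit : ∀ x, ‖((Additive.toMul (z x) : (PadicAlgCl q)ˣ) : PadicAlgCl q)‖ = 1) :
    ptd_IsB2 (ptg_levels q) (ptg_unitsRep q) z := by
  have := pti_levField_finiteDimensional hN
  have := pti_levField_isGalois hN
  refine pti_unit_isB2 q (IntermediateField.fixedField N) hinj hz ?_ hunit
  rw [pti_levField_fixing hN]
  exact hinv

end UnitLevel

end Fermat.Agent.Lib.PT
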