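/-
**(L-unr) Unramified evaluation of the local invariant**: for a character `χ : G_q → ZMod n`
trivial on `Gal(Ω_q/L)`, `L/ℚ_q` finite unramified, `φ ∈ G_q` a lift of the Frobenius of `L` and
`a ∈ ℚ_qˣ`: `inv (a · δχ) = v(a) · χ(φ) / n` (`pti_invG_unr`).
-/
import Fermat.Agent.Lib.PT.BrauerEval
import Fermat.Agent.Lib.PT.BrauerBock
import Fermat.Agent.Lib.PT.BrauerUnr

set_option autoImplicit false
set_option linter.unusedSectionVars false
namespace Fermat.Agent.Lib.PT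
open groupCohomology

section Frac

variable {p : ℕ} [Fact p.Prime]

theorem pti_frac_eq_of_mul_eq (n₁ n₂ : ℤ) (d₁ d₂ : ℕ) (hd₁ : d₁ ≠ 0) (hd₂ : d₂ ≠ 0)
    (h : n₁ * d₂ = n₂ * d₁) : ptn_frac p n₁ d₁ = ptn_frac p n₂ d₂ := by
  unfold ptn_frac
  congr 1
  have h1 : (d₁ : ℚ) ≠ 0 := by exact_mod_cast hd₁
  have h2 : (d₂ : ℚ) ≠ 0 := by exact_mod_cast hd₂
  rw [div_eq_div_iff h1 h2]
  exact_mod_cast h

end Frac

variable (q : ℕ) [Fact q.Prime] (p : ℕ) [Fact p.Prime]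

section BigBock

variable (L : IntermediateField ℚ_[q] (PadicAlgCl q)) [FiniteDimensional ℚ_[q] L]
  [IsGalois ℚ_[q] L] {n : ℕ} [NeZero n]

/-- The descent to `Gal(L/ℚ_q)` of a character of `G_q` trivial on `Gal(Ω_q/L)`. -/
noncomputable def pti_charL (χ : (PadicAlgCl q ≃ₐ[ℚ_[q]] PadicAlgCl q) → ZMod n) :
    (L ≃ₐ[ℚ_[q]] L) → ZMod n :=
  pti_charDesc (AlgEquiv.restrictNormalHom (F := ℚ_[q]) ↥L)
    (AlgEquiv.restrictNormalHom_surjective (F := ℚ_[q]) (K₁ := ↥L) (PadicAlgCl q)) χ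

variable {χ : (PadicAlgCl q ≃ₐ[ℚ_[q]] PadicAlgCl q) → ZMod n} (hχ : ptd_IsChar χ)
  (hχL : ∀ g ∈ L.fixingSubgroup, χ g = 0)

include hχL in
theorem pti_charL_hker (g : PadicAlgCl q ≃ₐ[ℚ_[q]] PadicAlgCl q)
    (hg : AlgEquiv.restrictNormalHom (F := ℚ_[q]) ↥L g = 1) : χ g = 0 := by
  apply hχL
  rw [← IntermediateField.restrictNormalHom_ker L]
  exact MonoidHom.mem_ker.mpr hg

include hχ hχL in
theorem pti_charL_apply (g : PadicAlgCl q ≃ₐ[ℚ_[q]] PadicAlgCl q) :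
    pti_charL q L χ (AlgEquiv.restrictNormalHom (F := ℚ_[q]) ↥L g) = χ g :=
  pti_charDesc_apply _ hχ (pti_charL_hker q L hχL) g

include hχ hχL in
theorem pti_charL_isChar : ptd_IsChar (pti_charL q L χ) :=
  pti_charDesc_isChar _ hχ (pti_charL_hker q L hχL)

include hχ hχL in
/-- `a · δχ` in the big model is the inflation of the finite-level cocycle `a · δχ̄`. -/
theorem pti_bockSmul_eq_bigInfl (a : ℚ_[q]ˣ) :
    ptd_bockSmul n χ (Additive.ofMul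
      (Units.map (algebraMap ℚ_[q] (PadicAlgCl q) : ℚ_[q] →* PadicAlgCl q) a)) =
    pti_bigInfl q L (pti_bockPow n (pti_charL q L χ)
      (Units.map (algebraMap ℚ_[q] L : ℚ_[q] →* L) a)) := by
  funext ⟨g, h⟩
  rw [pti_bigInfl_apply, pti_bockPow_apply]
  show ptd_bock n χ (g, h) • _ = _
  rw [pti_charL, pti_bock_charDesc _ hχ (pti_charL_hker q L hχL), map_zpow, ofMul_zpow]
  rfl

end BigBock

section Unr

variable (L : IntermediateField ℚ_[q] (PadicAlgCl q)) [FiniteDimensional ℚ_[q] L]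
  [IsGalois ℚ_[q] L] (hinj : Function.Injective (ptl_galRes q ℚ_[q] L))
  {n : ℕ} [NeZero n]
  {χ : (PadicAlgCl q ≃ₐ[ℚ_[q]] PadicAlgCl q) → ZMod n} (hχ : ptd_IsChar χ)
  (hχL : ∀ g ∈ L.fixingSubgroup, χ g = 0)

attribute [local instance] pti_isScalarTower_top pti_finiteDimensional_L

include hχ hχL in
/-- **(L-unr)**: the invariant of `a · δχ` for an unramified character `χ` and `a ∈ ℚ_qˣ` is
`v(a) · χ(φ) / n`, `φ` any lift of the Frobenius. -/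
theorem pti_invG_unr (φ : PadicAlgCl q ≃ₐ[ℚ_[q]] PadicAlgCl q)
    (hφ : AlgEquiv.restrictNormalHom (F := ℚ_[q]) ↥L φ = ptl_frob q ℚ_[q] L hinj) (a : ℚ_[q]ˣ) :
    ptn_invG (pti_localLevelData q p) (ptg_isDiscrete_units q)
      (ptd_bockSmul n χ (Additive.ofMul
        (Units.map (algebraMap ℚ_[q] (PadicAlgCl q) : ℚ_[q] →* PadicAlgCl q) a))) =
    ptn_frac p (ptl_ordZ q ℚ_[q] (a : ℚ_[q]) * ((χ φ).val : ℤ)) n := by
  have hχ' := pti_charL_isChar q L hχ hχL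
  have hc : IsMulCocycle₂ (pti_bockPow n (pti_charL q L χ)
      (Units.map (algebraMap ℚ_[q] L : ℚ_[q] →* L) a)) :=
    pti_bockPow_isMulCocycle₂ hχ' (fun g => ptl_smul_unitsMap ℚ_[q] L g a)
  have h1 := pti_unr_cohomologous_zpow q ℚ_[q] (PadicAlgCl q) L hinj hc
  rw [pti_bockSmul_eq_bigInfl q L hχ hχL a, pti_invG_bigInfl q p L _ _ h1]
  -- the valuation of `ψ`
  have hS := pti_sum_bock hχ' (ptl_frob q ℚ_[q] L hinj) (orderOf (ptl_frob q ℚ_[q] L hinj))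
    (pow_orderOf_eq_one _)
  rw [ptl_orderOf_frob] at hS
  rw [pti_cycPsi_bockPow, ptl_orderOf_frob, Units.val_zpow_eq_zpow_val, ptl_ordZ_zpow,
    Units.coe_map, MonoidHom.coe_coe, ptl_ordZ_algebraMap, ptl_e_eq_one_of_injective q ℚ_[q] L hinj,
    Nat.cast_one, one_mul]
  rw [← hφ, pti_charL_apply q L hχ hχL φ] at hS
  refine pti_frac_eq_of_mul_eq _ _ _ _ Module.finrank_pos.ne' (NeZero.ne n) ?_
  rw [← hφ]
  calc _ = ptl_ordZ q ℚ_[q] (a : ℚ_[q]) * ((n : ℤ) * ∑ i ∈ Finset.range (Module.finrank ℚ_[q] L),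
        ptd_bock n (pti_charL q L χ) ((AlgEquiv.restrictNormalHom (F := ℚ_[q]) ↥L φ) ^ i,
          AlgEquiv.restrictNormalHom (F := ℚ_[q]) ↥L φ)) := by ring
    _ = _ := by rw [hS]; ring

end Unr

end Fermat.Agent.Lib.PT
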