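/-
**(L-cyc) Cyclic evaluation of the local invariant**: for a character `χ : G_q → ZMod n` with
`χ τ₀ = 1` and kernel `Gal(Ω_q/L)` (`L/ℚ_q` finite Galois, then cyclic of degree `n`) there is a
surjective homomorphism `κ : ℚ_qˣ → ZMod n` with kernel the norm group `N_{L/ℚ_q} Lˣ` such that
`inv (a · δχ) = κ(a) / n` for all `a ∈ ℚ_qˣ` (`pti_invG_cyc`).  The field of a level character:
`pti_charField`.
-/
import Fermat.Agent.Lib.PT.BrauerEvalUnr
import Fermat.Agent.Lib.PT.BrauerCycKappa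

set_option autoImplicit false
set_option linter.unusedSectionVars false
namespace Fermat.Agent.Lib.PT
open groupCohomology

variable (q : ℕ) [Fact q.Prime] (p : ℕ) [Fact p.Prime]

section Cyc

variable (L : IntermediateField ℚ_[q] (PadicAlgCl q)) [FiniteDimensional ℚ_[q] L]
  [IsGalois ℚ_[q] L] {n : ℕ} [NeZero n]
  {χ : (PadicAlgCl q ≃ₐ[ℚ_[q]] PadicAlgCl q) → ZMod n} (hχ : ptd_IsChar χ)
  (hL : ∀ g, g ∈ L.fixingSubgroup ↔ χ g = 0)

include hχ hL in
theorem pti_charL_injective : Function.Injective (pti_charL q L χ) := by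
  have hχL : ∀ g ∈ L.fixingSubgroup, χ g = 0 := fun g hg => (hL g).mp hg
  intro σ σ' h
  obtain ⟨g, rfl⟩ := AlgEquiv.restrictNormalHom_surjective (F := ℚ_[q]) (K₁ := ↥L)
    (PadicAlgCl q) σ
  obtain ⟨g', rfl⟩ := AlgEquiv.restrictNormalHom_surjective (F := ℚ_[q]) (K₁ := ↥L)
    (PadicAlgCl q) σ'
  rw [pti_charL_apply q L hχ hχL, pti_charL_apply q L hχ hχL] at h
  have h1 : χ (g⁻¹ * g') = 0 := by rw [hχ, pti_isChar_inv hχ, h, neg_add_cancel]
  have h2 := pti_restrictNormalHom_eq_one q L ((hL _).mpr h1)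
  rw [map_mul, map_inv, inv_mul_eq_one] at h2
  exact h2

include hχ hL in
/-- **(L-cyc)**: local reciprocity for the cyclic extension cut out by a character `χ` of `G_q`
with `χ τ₀ = 1`, in the big model. -/
theorem pti_invG_cyc (τ₀ : PadicAlgCl q ≃ₐ[ℚ_[q]] PadicAlgCl q) (hτ₀ : χ τ₀ = 1) :
    ∃ κ : ℚ_[q]ˣ →* Multiplicative (ZMod n), Function.Surjective κ ∧
      (∀ a : ℚ_[q]ˣ, κ a = 1 ↔ ∃ y : L, Algebra.norm ℚ_[q] y = (a : ℚ_[q])) ∧
      ∀ a : ℚ_[q]ˣ, ptn_invG (pti_localLevelData q p) (ptg_isDiscrete_units q)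
        (ptd_bockSmul n χ (Additive.ofMul
          (Units.map (algebraMap ℚ_[q] (PadicAlgCl q) : ℚ_[q] →* PadicAlgCl q) a))) =
        ptn_frac p (((Multiplicative.toAdd (κ a)).val : ℕ) : ℤ) n := by
  have hχL : ∀ g ∈ L.fixingSubgroup, χ g = 0 := fun g hg => (hL g).mp hg
  have hχ' := pti_charL_isChar q L hχ hχL
  have hinj := pti_charL_injective q L hχ hL
  have hτ : pti_charL q L χ (AlgEquiv.restrictNormalHom (F := ℚ_[q]) ↥L τ₀) = 1 := by
    rw [pti_charL_apply q L hχ hχL, hτ₀]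
  obtain ⟨κ, hsurj, hker, hform⟩ := pti_exists_kappa q ℚ_[q] (PadicAlgCl q) L hχ' hinj hτ
  refine ⟨κ, hsurj, hker, fun a => ?_⟩
  rw [pti_bockSmul_eq_bigInfl q L hχ hχL a, pti_invG_bigInfl q p L _ _ (hform a),
    pti_cyc_finrank ℚ_[q] (PadicAlgCl q) L hχ' hinj hτ]

end Cyc

section CharField

variable {q} {n : ℕ} [NeZero n]
  {χ : (PadicAlgCl q ≃ₐ[ℚ_[q]] PadicAlgCl q) → ZMod n}

/-- The kernel of a character, as a subgroup. -/
def pti_charKer (hχ : ptd_IsChar χ) : Subgroup (PadicAlgCl q ≃ₐ[ℚ_[q]] PadicAlgCl q) where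
  carrier := {g | χ g = 0}
  one_mem' := pti_isChar_one hχ
  mul_mem' := fun {a b} ha hb => by
    show χ (a * b) = 0
    rw [hχ, ha, hb, add_zero]
  inv_mem' := fun {a} ha => by
    show χ a⁻¹ = 0
    rw [pti_isChar_inv hχ, ha, neg_zero]

theorem pti_mem_charKer (hχ : ptd_IsChar χ) {g : PadicAlgCl q ≃ₐ[ℚ_[q]] PadicAlgCl q} :
    g ∈ pti_charKer hχ ↔ χ g = 0 := Iff.rfl

theorem pti_charKer_normal (hχ : ptd_IsChar χ) : (pti_charKer hχ).Normal := by
  refine ⟨fun g hg h => ?_⟩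
  show χ (h * g * h⁻¹) = 0
  rw [hχ, hχ, pti_isChar_inv hχ, (pti_mem_charKer hχ).mp hg, add_zero, add_neg_cancel]

theorem pti_charKer_isOpen (hχ : ptd_IsChar χ) (hlev : ptd_IsLev₁ (ptg_levels q) χ) :
    (ptg_levels q).IsOpen (pti_charKer hχ) := by
  obtain ⟨N, hN, h⟩ := hlev
  refine ⟨N, hN, fun g hg => ?_⟩
  show χ g = 0
  have := h 1 g hg
  rwa [one_mul, pti_isChar_one hχ] at this

/-- The field cut out by a character of `G_q`. -/
noncomputable def pti_charField (hχ : ptd_IsChar χ) : IntermediateField ℚ_[q] (PadicAlgCl q) :=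
  IntermediateField.fixedField (pti_charKer hχ)

theorem pti_charField_fixing (hχ : ptd_IsChar χ) (hlev : ptd_IsLev₁ (ptg_levels q) χ) :
    (pti_charField hχ).fixingSubgroup = pti_charKer hχ :=
  ptg_fixingSubgroup_fixedField_of_isOpen q (pti_charKer_isOpen hχ hlev)

theorem pti_charField_finiteDimensional (hχ : ptd_IsChar χ)
    (hlev : ptd_IsLev₁ (ptg_levels q) χ) : FiniteDimensional ℚ_[q] (pti_charField hχ) :=
  ptg_fixedField_finiteDimensional_of_isOpen q (pti_charKer_isOpen hχ hlev)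

theorem pti_charField_isGalois (hχ : ptd_IsChar χ) (hlev : ptd_IsLev₁ (ptg_levels q) χ) :
    IsGalois ℚ_[q] (pti_charField hχ) := by
  rw [← InfiniteGalois.normal_iff_isGalois, pti_charField_fixing hχ hlev]
  exact pti_charKer_normal hχ

theorem pti_charField_spec (hχ : ptd_IsChar χ) (hlev : ptd_IsLev₁ (ptg_levels q) χ)
    (g : PadicAlgCl q ≃ₐ[ℚ_[q]] PadicAlgCl q) :
    g ∈ (pti_charField hχ).fixingSubgroup ↔ χ g = 0 := by
  rw [pti_charField_fixing hχ hlev]; rfl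

end CharField

section Final

variable {n : ℕ} [NeZero n] {χ : (PadicAlgCl q ≃ₐ[ℚ_[q]] PadicAlgCl q) → ZMod n}

/-- **(L-cyc)** for a surjective level character, with the field `pti_charField`. -/
theorem pti_invG_cyc_level (hχ : ptd_IsChar χ) (hlev : ptd_IsLev₁ (ptg_levels q) χ)
    (hsurj : Function.Surjective χ) :
    ∃ κ : ℚ_[q]ˣ →* Multiplicative (ZMod n), Function.Surjective κ ∧
      (∀ a : ℚ_[q]ˣ, κ a = 1 ↔ ∃ y : pti_charField hχ, Algebra.norm ℚ_[q] y = (a : ℚ_[q])) ∧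
      ∀ a : ℚ_[q]ˣ, ptn_invG (pti_localLevelData q p) (ptg_isDiscrete_units q)
        (ptd_bockSmul n χ (Additive.ofMul
          (Units.map (algebraMap ℚ_[q] (PadicAlgCl q) : ℚ_[q] →* PadicAlgCl q) a))) =
        ptn_frac p (((Multiplicative.toAdd (κ a)).val : ℕ) : ℤ) n := by
  have := pti_charField_finiteDimensional hχ hlev
  have := pti_charField_isGalois hχ hlev
  obtain ⟨τ₀, hτ₀⟩ := hsurj 1
  exact pti_invG_cyc q p (pti_charField hχ) hχ (pti_charField_spec hχ hlev) τ₀ hτ₀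

/-- Corollary (what (CR) consumes): some `a ∈ ℚ_qˣ` has `inv (a · δχ) = 1 / n`. -/
theorem pti_exists_invG_cyc_eq (hχ : ptd_IsChar χ) (hlev : ptd_IsLev₁ (ptg_levels q) χ)
    (hsurj : Function.Surjective χ) :
    ∃ a : ℚ_[q]ˣ, ptn_invG (pti_localLevelData q p) (ptg_isDiscrete_units q)
        (ptd_bockSmul n χ (Additive.ofMul
          (Units.map (algebraMap ℚ_[q] (PadicAlgCl q) : ℚ_[q] →* PadicAlgCl q) a))) =
        ptn_frac p ((1 : ZMod n).val : ℤ) n := by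
  obtain ⟨κ, hκ, -, hform⟩ := pti_invG_cyc_level q p hχ hlev hsurj
  obtain ⟨a, ha⟩ := hκ (Multiplicative.ofAdd 1)
  refine ⟨a, ?_⟩
  rw [hform a, ha]
  rfl

/-- Same with `1 / n` spelled out (`1 < n`). -/
theorem pti_exists_invG_cyc_eq_one (hn : 1 < n) (hχ : ptd_IsChar χ)
    (hlev : ptd_IsLev₁ (ptg_levels q) χ) (hsurj : Function.Surjective χ) :
    ∃ a : ℚ_[q]ˣ, ptn_invG (pti_localLevelData q p) (ptg_isDiscrete_units q)
        (ptd_bockSmul n χ (Additive.ofMul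
          (Units.map (algebraMap ℚ_[q] (PadicAlgCl q) : ℚ_[q] →* PadicAlgCl q) a))) =
        ptn_frac p 1 n := by
  obtain ⟨a, ha⟩ := pti_exists_invG_cyc_eq q p hχ hlev hsurj
  refine ⟨a, ?_⟩
  have : Fact (1 < n) := ⟨hn⟩
  rw [ha, ZMod.val_one, Nat.cast_one]

end Final

end Fermat.Agent.Lib.PT
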