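import Mathlib

/-!
# S55 long-haul, package K4/K5: model-independent index lemmas

* `ptk_index_formula`: `[J : A E] * [A ∩ U : A ∩ E] = [U : E]` when `A U = J`, `E ≤ U`
  (Tate's index computation `[J_K : Kˣ E] = [J_S : E] / [K_S : Kˣ ∩ E]`);
* `ptk_index_pi`: the index of a product subgroup in a finite (dependent) product;
* `ptk_descent_card_le`: the descent lemma for the second inequality along `K(μ_p)/K`.
-/

set_option autoImplicit false

namespace Fermat.Agent.Lib.PT

section IndexFormula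

variable {J : Type*} [CommGroup J]

/-- `[J : A E] * [A ∩ U : A ∩ E] = [U : E]` if `A U = J` and `E ≤ U`. -/
theorem ptk_index_formula (A U E : Subgroup J) (hAU : A ⊔ U = ⊤) (hEU : E ≤ U) :
    (A ⊔ E).index * (A ⊓ E).relIndex (A ⊓ U) = E.relIndex U := by
  have hmod : (E ⊔ A) ⊓ U = E ⊔ A ⊓ U := sup_inf_assoc_of_le A hEU
  have h1 : (A ⊔ E).index = (E ⊔ A ⊓ U).relIndex U := by
    rw [← Subgroup.relIndex_top_right, ← hmod, Subgroup.inf_relIndex_right, sup_comm E A]
    have : (⊤ : Subgroup J) = U ⊔ (A ⊔ E) := by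
      rw [← sup_assoc, sup_comm U A, hAU, top_sup_eq]
    rw [this, Subgroup.relIndex_sup_right]
  have h2 : (A ⊓ E).relIndex (A ⊓ U) = E.relIndex (E ⊔ A ⊓ U) := by
    rw [Subgroup.relIndex_sup_left, ← Subgroup.inf_relIndex_right (H := E)]
    congr 1
    rw [← inf_assoc, inf_comm E A, inf_assoc, inf_eq_left.mpr hEU]
  rw [h1, h2, mul_comm]
  exact Subgroup.relIndex_mul_relIndex _ _ _ le_sup_left (sup_le hEU inf_le_right)

end IndexFormula

section Pi

/-- the index of a product subgroup in a finite dependent product -/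
theorem ptk_index_pi {ι : Type*} [Fintype ι] {G : ι → Type*} [∀ i, Group (G i)]
    (H : ∀ i, Subgroup (G i)) :
    (Subgroup.pi Set.univ H).index = ∏ i, (H i).index := by
  simp_rw [Subgroup.index, ← Nat.card_pi]
  refine Nat.card_congr
    ((Quotient.congrRight (fun x y ↦ ?_)).trans (Setoid.piQuotientEquiv _).symm)
  rw [QuotientGroup.leftRel_pi]

end Pi

section Descent

variable {C C' : Type*} [CommGroup C] [CommGroup C']

/-- **Descent for the norm index.** `N ≤ C`, `N' ≤ C'` subgroups ("norm groups"), `i : C → C'`,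
`ν : C' → C` ("inclusion" and "norm of `K'/K`") with `i N ≤ N'`, `ν N' ≤ N`, `ν (i x) = x ^ d`,
`x ^ p ∈ N` for all `x`, and `d` prime to `p`. Then `[C : N] ≤ [C' : N']`. -/
theorem ptk_descent_index_le {p d : ℕ} (hpd : Nat.Coprime d p) (N : Subgroup C) (N' : Subgroup C')
    (i : C →* C') (ν : C' →* C) (hi : N ≤ N'.comap i) (hν : N' ≤ N.comap ν)
    (hνi : ∀ x, ν (i x) = x ^ d) (hp : ∀ x : C, x ^ p ∈ N) (hfin : N'.index ≠ 0) :
    N.index ≤ N'.index := by
  -- the induced map `C ⧸ N → C' ⧸ N'` is injective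
  have hinj : N'.comap i ≤ N := by
    intro x hx
    have h1 : x ^ d ∈ N := by
      rw [← hνi]
      exact hν hx
    obtain ⟨u, v, huv⟩ : ∃ u v : ℤ, u * d + v * p = 1 := by
      have := Nat.Coprime.isCoprime hpd
      obtain ⟨u, v, h⟩ := this
      exact ⟨u, v, by simpa using h⟩
    have h2 : x = (x ^ d) ^ u * (x ^ p) ^ v := by
      rw [← zpow_natCast x d, ← zpow_natCast x p, ← zpow_mul, ← zpow_mul, ← zpow_add,
        mul_comm (d : ℤ), mul_comm (p : ℤ), huv, zpow_one]
    rw [h2]
    exact N.mul_mem (N.zpow_mem h1 u) (N.zpow_mem (hp x) v)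
  have heq : N'.comap i = N := le_antisymm hinj hi
  rw [← heq, Subgroup.index_comap]
  exact Nat.le_of_dvd (Nat.pos_of_ne_zero hfin) (Subgroup.relIndex_dvd_index_of_normal _ _)

end Descent

end Fermat.Agent.Lib.PT
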