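import Mathlib
import Fermat.Agent.Lib.CFT.ZetaSplit

/-!
# S55 long-haul, package K4: non-split primes in a (possibly ramified) extension of prime degree

Generalisation of `Lib/CFT/ZetaSplit.cfi_infinite_nonsplit` (which assumes `L/F` unramified):
the finitely many ramified primes are put into the exceptional set.

* `ptk_ramified_finite`: only finitely many primes of `F` have a ramified prime of `L` above them;
* `ptk_infinite_nonsplit`: for `[L : F] = p` prime, infinitely many degree-one primes of `F`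
  (outside any finite set) have a prime above them of residue degree `> 1`.
-/

set_option autoImplicit false
set_option linter.unusedSectionVars false

namespace Fermat.Agent.Lib.PT

open NumberField Ideal IsDedekindDomain Filter Topology nonZeroDivisors
open Fermat.Agent.Lib.CFT

variable (F : Type*) [Field F] [NumberField F]
variable (L : Type*) [Field L] [NumberField L] [Algebra F L]

/-- If every prime above `𝔮` is unramified of residue degree one, there are exactly `[L : F]`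
primes above `𝔮`. -/
theorem ptk_above_card (𝔮 : HeightOneSpectrum (𝓞 F))
    (hur : ∀ (𝔔 : Ideal (𝓞 L)) [𝔔.IsPrime], 𝔔.LiesOver 𝔮.asIdeal →
      Algebra.IsUnramifiedAt (𝓞 F) 𝔔)
    (hsplit : ∀ 𝔔 ∈ cfi_above F L 𝔮, absNorm 𝔔.asIdeal = absNorm 𝔮.asIdeal) :
    (cfi_above_finite F L 𝔮).toFinset.card = Module.finrank F L := by
  classical
  have hmax : 𝔮.asIdeal.IsMaximal := 𝔮.isMaximal
  have hprime : 𝔮.asIdeal.IsPrime := 𝔮.isPrime
  have hne : ∀ q ∈ 𝔮.asIdeal.primesOver (𝓞 L), q ≠ ⊥ := by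
    rintro q ⟨_, hq⟩ rfl
    have : 𝔮.asIdeal = under (𝓞 F) (⊥ : Ideal (𝓞 L)) := hq.over
    rw [Ideal.under_bot] at this
    exact 𝔮.ne_bot this
  have himage : (cfi_above_finite F L 𝔮).toFinset.image (fun 𝔔 => 𝔔.asIdeal) =
      (𝔮.asIdeal.primesOver (𝓞 L)).toFinset := by
    ext q
    simp only [Finset.mem_image, Set.Finite.mem_toFinset, Set.mem_toFinset]
    constructor
    · rintro ⟨𝔔, h𝔔, rfl⟩
      exact ⟨𝔔.isPrime, h𝔔⟩
    · intro hq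
      exact ⟨⟨q, hq.1, hne q hq⟩, hq.2, rfl⟩
  have h1 : (cfi_above_finite F L 𝔮).toFinset.card =
      ((cfi_above_finite F L 𝔮).toFinset.image (fun 𝔔 => 𝔔.asIdeal)).card :=
    (Finset.card_image_of_injective _ cfi_asIdeal_injective).symm
  rw [h1, himage, Set.toFinset_card, IsFractionRing.finrank_eq (𝓞 F) F (𝓞 L) L]
  refine cfi_card_eq_finrank 𝔮.asIdeal fun q hq => ?_
  have hqp : q.IsPrime := hq.1
  have hql : q.LiesOver 𝔮.asIdeal := hq.2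
  have hq0 : q ≠ ⊥ := hne q hq
  constructor
  · have := hur q hql
    exact Ideal.ramificationIdx_eq_one q (𝓞 F)
  · have hN : absNorm q = absNorm 𝔮.asIdeal :=
      hsplit ⟨q, hqp, hq0⟩ hql
    have hpow := Ideal.absNorm_pow_inertiaDeg 𝔮.asIdeal q
    rw [hN] at hpow
    have h2 := cfi_two_le_absNorm F 𝔮
    have : absNorm 𝔮.asIdeal ^ q.inertiaDeg (𝓞 F) = absNorm 𝔮.asIdeal ^ 1 := by
      rw [hpow, pow_one]
    exact Nat.pow_right_injective h2 this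

/-- Inequality (I) with unramifiedness only over the primes of `G`. -/
theorem ptk_mul_tsum_le_primeSum (G : Set (HeightOneSpectrum (𝓞 F)))
    (hur : ∀ 𝔮 ∈ G, ∀ (𝔔 : Ideal (𝓞 L)) [𝔔.IsPrime], 𝔔.LiesOver 𝔮.asIdeal →
      Algebra.IsUnramifiedAt (𝓞 F) 𝔔)
    (hG : ∀ 𝔮 ∈ G, ∀ 𝔔 ∈ cfi_above F L 𝔮, absNorm 𝔔.asIdeal = absNorm 𝔮.asIdeal)
    {s : ℝ} (hs : 1 < s) :
    (Module.finrank F L : ℝ) * ∑' 𝔮 : G, (absNorm 𝔮.1.asIdeal : ℝ) ^ (-s) ≤ cfi_primeSum L s := by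
  classical
  rw [← tsum_mul_left]
  refine Real.tsum_le_of_sum_le (fun _ => by positivity) fun u => ?_
  set U : Finset (HeightOneSpectrum (𝓞 L)) :=
    u.biUnion fun 𝔮 => (cfi_above_finite F L 𝔮.1).toFinset with hU
  have hdisj : (u : Set G).PairwiseDisjoint fun 𝔮 => (cfi_above_finite F L 𝔮.1).toFinset := by
    intro 𝔮 _ 𝔮' _ hne
    rw [Function.onFun, Finset.disjoint_left]
    intro 𝔔 h1 h2
    rw [Set.Finite.mem_toFinset] at h1 h2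
    have hne' : 𝔮.1 ≠ 𝔮'.1 := fun h => hne (Subtype.ext h)
    exact Set.disjoint_left.mp (cfi_above_disjoint F L hne') h1 h2
  have hsumU : ∑ 𝔔 ∈ U, (absNorm 𝔔.asIdeal : ℝ) ^ (-s) =
      ∑ 𝔮 ∈ u, (Module.finrank F L : ℝ) * (absNorm 𝔮.1.asIdeal : ℝ) ^ (-s) := by
    rw [hU, Finset.sum_biUnion hdisj]
    refine Finset.sum_congr rfl fun 𝔮 _ => ?_
    have hconst : ∀ 𝔔 ∈ (cfi_above_finite F L 𝔮.1).toFinset,
        (absNorm 𝔔.asIdeal : ℝ) ^ (-s) = (absNorm 𝔮.1.asIdeal : ℝ) ^ (-s) := by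
      intro 𝔔 h𝔔
      rw [Set.Finite.mem_toFinset] at h𝔔
      rw [hG 𝔮.1 𝔮.2 𝔔 h𝔔]
    rw [Finset.sum_congr rfl hconst, Finset.sum_const, nsmul_eq_mul,
      ptk_above_card F L 𝔮.1 (hur 𝔮.1 𝔮.2) (hG 𝔮.1 𝔮.2)]
  rw [← hsumU]
  exact (cfi_primeSum_summable L hs).sum_le_tsum U fun _ _ => by positivity

attribute [local instance] FractionRing.liftAlgebra in
/-- Only finitely many primes of `F` have a ramified prime of `L` above them. -/
theorem ptk_ramified_finite :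
    {𝔮 : HeightOneSpectrum (𝓞 F) | ∃ (𝔔 : Ideal (𝓞 L)) (_ : 𝔔.IsPrime), 𝔔.LiesOver 𝔮.asIdeal ∧
      ¬ Algebra.IsUnramifiedAt (𝓞 F) 𝔔}.Finite := by
  classical
  have hsep : Algebra.IsSeparable (FractionRing (𝓞 F)) (FractionRing (𝓞 L)) := inferInstance
  have hD : differentIdeal (𝓞 F) (𝓞 L) ≠ ⊥ := differentIdeal_ne_bot
  -- the prime divisors of the different
  have hfin : {𝔔 : HeightOneSpectrum (𝓞 L) | 𝔔.asIdeal ∣ differentIdeal (𝓞 F) (𝓞 L)}.Finite :=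
    Ideal.finite_factors hD
  -- map them down
  have hfin2 : {𝔮 : HeightOneSpectrum (𝓞 F) | ∃ 𝔔 : HeightOneSpectrum (𝓞 L),
      𝔔.asIdeal ∣ differentIdeal (𝓞 F) (𝓞 L) ∧ 𝔔.asIdeal.LiesOver 𝔮.asIdeal}.Finite := by
    have : ∀ 𝔔 : HeightOneSpectrum (𝓞 L),
        {𝔮 : HeightOneSpectrum (𝓞 F) | 𝔔.asIdeal.LiesOver 𝔮.asIdeal}.Subsingleton := by
      intro 𝔔 𝔮 h𝔮 𝔮' h𝔮'
      apply HeightOneSpectrum.ext
      have e1 : 𝔮.asIdeal = under (𝓞 F) 𝔔.asIdeal := (h𝔮 : 𝔔.asIdeal.LiesOver 𝔮.asIdeal).over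
      have e2 : 𝔮'.asIdeal = under (𝓞 F) 𝔔.asIdeal := (h𝔮' : 𝔔.asIdeal.LiesOver 𝔮'.asIdeal).over
      rw [e1, e2]
    have hU : {𝔮 : HeightOneSpectrum (𝓞 F) | ∃ 𝔔 : HeightOneSpectrum (𝓞 L),
        𝔔.asIdeal ∣ differentIdeal (𝓞 F) (𝓞 L) ∧ 𝔔.asIdeal.LiesOver 𝔮.asIdeal} =
        ⋃ 𝔔 ∈ {𝔔 : HeightOneSpectrum (𝓞 L) | 𝔔.asIdeal ∣ differentIdeal (𝓞 F) (𝓞 L)},
          {𝔮 : HeightOneSpectrum (𝓞 F) | 𝔔.asIdeal.LiesOver 𝔮.asIdeal} := by
      ext 𝔮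
      simp
    rw [hU]
    exact hfin.biUnion fun 𝔔 _ => (this 𝔔).finite
  refine hfin2.subset ?_
  rintro 𝔮 ⟨𝔔, h𝔔p, hlo, hram⟩
  have h𝔔0 : 𝔔 ≠ ⊥ := by
    rintro rfl
    have : 𝔮.asIdeal = under (𝓞 F) (⊥ : Ideal (𝓞 L)) := hlo.over
    rw [Ideal.under_bot] at this
    exact 𝔮.ne_bot this
  exact ⟨⟨𝔔, h𝔔p, h𝔔0⟩, (dvd_differentIdeal_iff (A := 𝓞 F)).mpr hram, hlo⟩

/-- In an extension `L/F` of prime degree `p` (ramification allowed), infinitely many primes of `F`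
of degree one over `ℚ` (outside any finite set) have a prime above them of residue degree `> 1`,
i.e. do not split completely. -/
theorem ptk_infinite_nonsplit {p : ℕ} (hp : p.Prime)
    (hdeg : Module.finrank F L = p) (T : Finset (HeightOneSpectrum (𝓞 F))) :
    {𝔮 : HeightOneSpectrum (𝓞 F) | 𝔮 ∉ T ∧ (absNorm 𝔮.asIdeal).Prime ∧
      ∃ 𝔔 : Ideal (𝓞 L), 𝔔.IsPrime ∧ 𝔔.LiesOver 𝔮.asIdeal ∧
        absNorm 𝔔 ≠ absNorm 𝔮.asIdeal}.Infinite := by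
  classical
  intro hfin
  set T' : Finset (HeightOneSpectrum (𝓞 F)) :=
    T ∪ hfin.toFinset ∪ (ptk_ramified_finite F L).toFinset with hT'
  set G : Set (HeightOneSpectrum (𝓞 F)) := {𝔮 | 𝔮 ∉ T' ∧ (absNorm 𝔮.asIdeal).Prime} with hG
  have hGur : ∀ 𝔮 ∈ G, ∀ (𝔔 : Ideal (𝓞 L)) [𝔔.IsPrime], 𝔔.LiesOver 𝔮.asIdeal →
      Algebra.IsUnramifiedAt (𝓞 F) 𝔔 := by
    intro 𝔮 h𝔮 𝔔 h𝔔p hlo
    by_contra hram
    apply h𝔮.1
    rw [hT', Finset.mem_union]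
    right
    rw [Set.Finite.mem_toFinset]
    exact ⟨𝔔, h𝔔p, hlo, hram⟩
  have hGsplit : ∀ 𝔮 ∈ G, ∀ 𝔔 ∈ cfi_above F L 𝔮,
      absNorm 𝔔.asIdeal = absNorm 𝔮.asIdeal := by
    intro 𝔮 h𝔮 𝔔 h𝔔
    by_contra hne
    apply h𝔮.1
    rw [hT', Finset.mem_union, Finset.mem_union]
    left
    by_cases hT : 𝔮 ∈ T
    · exact Or.inl hT
    · right
      rw [Set.Finite.mem_toFinset]
      exact ⟨hT, h𝔮.2, 𝔔.asIdeal, 𝔔.isPrime, h𝔔, hne⟩
  obtain ⟨C₂, hC₂⟩ := cfi_primeSum_le_split F T'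
  obtain ⟨CF, hCF⟩ := cfi_primeSum_sub_log_bounded F
  obtain ⟨CL, hCL⟩ := cfi_primeSum_sub_log_bounded L
  have hp0 : (0 : ℝ) ≤ p := Nat.cast_nonneg p
  have hp1 : (0 : ℝ) < (p : ℝ) - 1 := by
    have : (1 : ℝ) < p := by exact_mod_cast hp.one_lt
    linarith
  have hbound : ∀ᶠ s in 𝓝[>] (1 : ℝ),
      ((p : ℝ) - 1) * Real.log (1 / (s - 1)) ≤ p * (CF + C₂) + CL := by
    filter_upwards [hCF, hCL, self_mem_nhdsWithin] with s h1 h2 hs
    have hs1 : (1 : ℝ) < s := hs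
    have hI := ptk_mul_tsum_le_primeSum F L G hGur hGsplit hs1
    have hII := hC₂ s hs1
    rw [hdeg] at hI
    have h1' := abs_le.mp h1
    have h2' := abs_le.mp h2
    have hmul : (p : ℝ) * (Real.log (1 / (s - 1)) - CF - C₂) ≤
        p * ∑' 𝔮 : G, (absNorm 𝔮.1.asIdeal : ℝ) ^ (-s) := by
      refine mul_le_mul_of_nonneg_left ?_ hp0
      linarith [h1'.1]
    linarith [h2'.2]
  have htend' : Tendsto (fun s : ℝ => ((p : ℝ) - 1) * Real.log (1 / (s - 1))) (𝓝[>] 1) atTop :=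
    cfi_tendsto_log_inv_sub_one.const_mul_atTop hp1
  have hgt := htend'.eventually (eventually_gt_atTop (p * (CF + C₂) + CL))
  obtain ⟨s, hs1, hs2⟩ := (hgt.and hbound).exists
  linarith

end Fermat.Agent.Lib.PT
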