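/-
S55 long-haul, K4 (second inequality, Kummer case): Frobenius elements outside a subgroup.
* `ptk_exists_frob_not_mem`: `M/L` Galois, `N ≤ Gal(M/L)` of prime index, `T` a finite set of
  primes of `L`: there is a prime `Q` of `M` over a degree-one prime of `L` outside `T` with a
  Frobenius element not in `N` (elementary: zeta-function argument of `ptk_infinite_nonsplit`).
* `ptk_isFrobAt_restrictScalars`: a Frobenius over `L` at a prime over a degree-one prime of `L`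
  is a Frobenius over `K ⊆ L`.
-/
import Fermat.Agent.Lib.PT.NonSplit
import Fermat.Agent.Lib.CFT.FrobUtil

set_option autoImplicit false

namespace Fermat.Agent.Lib.PT

open NumberField IntermediateField IsDedekindDomain
open Fermat.Agent.Lib.CFT

section A

variable {L M : Type*} [Field L] [NumberField L] [Field M] [NumberField M] [Algebra L M]
  [IsGalois L M]

theorem ptk_finrank_fixedField_of_index (N : Subgroup Gal(M/L)) :
    Module.finrank L ↥(fixedField N) = N.index := by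
  rw [finrank_eq_fixingSubgroup_index, fixingSubgroup_fixedField]

/-- Frobenius elements at primes over degree-one primes outside a finite set escape every
subgroup of prime index. -/
theorem ptk_exists_frob_not_mem {p : ℕ} (hp : p.Prime) (N : Subgroup Gal(M/L)) (hN : N.index = p)
    (T : Finset (HeightOneSpectrum (𝓞 L))) :
    ∃ (Q : Ideal (𝓞 M)) (_ : Q.IsPrime), Q ≠ ⊥ ∧ (∀ 𝔮 ∈ T, 𝔮.asIdeal ≠ Q.under (𝓞 L)) ∧
      (Ideal.absNorm (Q.under (𝓞 L))).Prime ∧ ∃ σ : Gal(M/L), cft_IsFrobAt σ Q ∧ σ ∉ N := by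
  have hdeg : Module.finrank L ↥(fixedField N) = p := by
    rw [ptk_finrank_fixedField_of_index, hN]
  obtain ⟨𝔮, h𝔮T, h𝔮p, 𝔔, h𝔔p, h𝔔lo, h𝔔ne⟩ :=
    (ptk_infinite_nonsplit L ↥(fixedField N) hp hdeg T).nonempty
  obtain ⟨Q, hQ, hlo⟩ := (Ideal.nonempty_primesOver (S := 𝓞 M) 𝔔).some
  have h𝔔0 : 𝔔 ≠ ⊥ := Ideal.ne_bot_of_liesOver_of_ne_bot 𝔮.ne_bot 𝔔
  have hQ0 : Q ≠ ⊥ := Ideal.ne_bot_of_liesOver_of_ne_bot h𝔔0 Q
  have hQ𝔔 : Q.under (𝓞 ↥(fixedField N)) = 𝔔 := hlo.over.symm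
  have hQ𝔮 : Q.under (𝓞 L) = 𝔮.asIdeal := by
    rw [← Ideal.under_under (B := 𝓞 ↥(fixedField N)), hQ𝔔]
    exact h𝔔lo.over.symm
  obtain ⟨σ, hσ⟩ := cft_exists_isFrobAt (K := L) Q hQ0
  refine ⟨Q, hQ, hQ0, ?_, ?_, σ, hσ, ?_⟩
  · intro 𝔮' h𝔮' heq
    rw [hQ𝔮] at heq
    have : 𝔮' = 𝔮 := HeightOneSpectrum.ext heq
    exact h𝔮T (this ▸ h𝔮')
  · rw [hQ𝔮]; exact h𝔮p
  · intro hσN
    apply h𝔔ne
    have hfix : ∀ x : ↥(fixedField N), σ (algebraMap ↥(fixedField N) M x) =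
        algebraMap ↥(fixedField N) M x := by
      intro x
      exact (IntermediateField.mem_fixedField_iff N (x : M)).mp x.2 σ hσN
    have h1 := cft_relNorm_under_of_isFrobAt (K := L) (E := ↥(fixedField N)) hQ0 hσ hfix
    rw [hQ𝔔, hQ𝔮] at h1
    rw [← h1, Ideal.absNorm_relNorm]

end A

section B

variable {K L M : Type*} [Field K] [NumberField K] [Field L] [NumberField L] [Field M]
  [NumberField M] [Algebra K L] [Algebra L M] [Algebra K M] [IsScalarTower K L M]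
  [IsGalois K M] [IsGalois L M]

/-- A Frobenius over `L` at a prime lying over a degree-one prime of `L` is a Frobenius over the
smaller base `K`. -/
theorem ptk_isFrobAt_restrictScalars {σ : Gal(M/L)} {Q : Ideal (𝓞 M)} [Q.IsPrime] (hQ : Q ≠ ⊥)
    (hσ : cft_IsFrobAt σ Q) (hdeg : (Ideal.absNorm (Q.under (𝓞 L))).Prime) :
    cft_IsFrobAt (AlgEquiv.restrictScalarsHom K σ) Q := by
  set 𝔮 := Q.under (𝓞 L) with h𝔮
  set v := Q.under (𝓞 K) with hv
  have : Q.LiesOver 𝔮 := ⟨rfl⟩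
  have h𝔮0 : 𝔮 ≠ ⊥ := by
    intro h0
    exact hQ (Ideal.eq_bot_of_liesOver_bot (𝓞 L) Q (h := h0 ▸ this))
  have huu : 𝔮.under (𝓞 K) = v := Ideal.under_under _
  have : 𝔮.LiesOver v := ⟨huu.symm⟩
  have hv0 : v ≠ ⊥ := by
    intro h0
    exact h𝔮0 (Ideal.eq_bot_of_liesOver_bot (𝓞 K) 𝔮 (h := h0 ▸ this))
  have : v.IsMaximal := Ring.DimensionLEOne.maximalOfPrime hv0 inferInstance
  have : 𝔮.IsMaximal := Ring.DimensionLEOne.maximalOfPrime h𝔮0 inferInstance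
  have hN : Ideal.relNorm (𝓞 K) 𝔮 = v ^ 𝔮.inertiaDeg (𝓞 K) :=
    Ideal.relNorm_eq_pow_of_isMaximal 𝔮 v
  have habs : Ideal.absNorm v ^ 𝔮.inertiaDeg (𝓞 K) = Ideal.absNorm 𝔮 := by
    have := Ideal.absNorm_relNorm (R := 𝓞 K) (S := 𝓞 L) 𝔮
    rw [hN, map_pow] at this
    exact this
  have hcard : Nat.card (𝓞 K ⧸ v) = Nat.card (𝓞 L ⧸ 𝔮) := by
    have h1 := (hdeg.pow_eq_iff.mp habs).1
    rw [Ideal.absNorm_apply, Ideal.absNorm_apply, Submodule.cardQuot_apply,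
      Submodule.cardQuot_apply] at h1
    exact h1
  rw [cft_isFrobAt_iff'] at hσ ⊢
  intro x
  rw [← hv, hcard]
  have h2 : (AlgEquiv.restrictScalarsHom K σ) • x = σ • x := by
    apply RingOfIntegers.ext
    rfl
  rw [h2]
  exact hσ x

end B

end Fermat.Agent.Lib.PT
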