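/-
S55 long-haul, K4: Frobenius elements generate subgroups of elementary abelian Galois groups.
* `ptk_exists_frob_mem_not_mem`: `M/K` Galois with `Gal(M/K)` a `p`-group, `H' < H` subgroups,
  `S'` a finite set of primes of `K`: there is a Frobenius element (at a prime of `M` not above
  `S'`) lying in `H` but not in `H'`.
-/
import Fermat.Agent.Lib.PT.FrobGen

set_option autoImplicit false
set_option linter.unusedSectionVars false

namespace Fermat.Agent.Lib.PT

open NumberField IntermediateField IsDedekindDomain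
open Fermat.Agent.Lib.CFT

section Gen

variable {K M : Type*} [Field K] [NumberField K] [Field M] [NumberField M] [Algebra K M]
  [IsGalois K M]

theorem ptk_restrictScalarsHom_mem_fixingSubgroup (L : IntermediateField K M) (g : Gal(M/↥L)) :
    AlgEquiv.restrictScalarsHom K g ∈ L.fixingSubgroup := by
  rw [IntermediateField.mem_fixingSubgroup_iff]
  intro x hx
  exact g.commutes ⟨x, hx⟩

theorem ptk_exists_restrictScalarsHom_eq (L : IntermediateField K M) {h : Gal(M/K)}
    (hh : h ∈ L.fixingSubgroup) : ∃ g : Gal(M/↥L), AlgEquiv.restrictScalarsHom K g = h :=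
  ⟨IntermediateField.fixingSubgroupEquiv L ⟨h, hh⟩, by ext x; rfl⟩

/-- the primes of `L` above a finite set of primes of `K` -/
theorem ptk_finite_above (L : Type*) [Field L] [NumberField L] [Algebra K L]
    (S' : Finset (HeightOneSpectrum (𝓞 K))) :
    {𝔮 : HeightOneSpectrum (𝓞 L) | ∃ v ∈ S', 𝔮.asIdeal.LiesOver v.asIdeal}.Finite := by
  have h := Set.Finite.biUnion S'.finite_toSet (fun v _ => cfi_above_finite K L v)
  refine h.subset ?_
  rintro 𝔮 ⟨v, hv, hlo⟩
  exact Set.mem_biUnion (Finset.mem_coe.mpr hv) hlo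

/-- **Frobenius elements separate subgroups** of an abelian `p`-group Galois group. -/
theorem ptk_exists_frob_mem_not_mem {p : ℕ} [hp : Fact p.Prime] (hG : IsPGroup p Gal(M/K))
    {H' H : Subgroup Gal(M/K)} (hlt : H' < H) (S' : Finset (HeightOneSpectrum (𝓞 K))) :
    ∃ (Q : Ideal (𝓞 M)) (_ : Q.IsPrime), Q ≠ ⊥ ∧ (∀ v ∈ S', v.asIdeal ≠ Q.under (𝓞 K)) ∧
      ∃ σ : Gal(M/K), cft_IsFrobAt σ Q ∧ σ ∈ H ∧ σ ∉ H' := by
  classical
  set L : IntermediateField K M := fixedField H with hL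
  have hfixL : L.fixingSubgroup = H := fixingSubgroup_fixedField H
  let f : Gal(M/↥L) →* Gal(M/K) := AlgEquiv.restrictScalarsHom K
  have hf : Function.Injective f := AlgEquiv.restrictScalarsHom_injective K
  have hGL : IsPGroup p Gal(M/↥L) := hG.of_injective f hf
  set N' : Subgroup Gal(M/↥L) := H'.comap f with hN'
  -- `N'` is a proper subgroup
  obtain ⟨h, hhH, hhH'⟩ := SetLike.exists_of_lt hlt
  obtain ⟨g, hg⟩ := ptk_exists_restrictScalarsHom_eq L (hfixL ▸ hhH)
  have hgN' : g ∉ N' := by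
    intro hmem
    rw [hN', Subgroup.mem_comap] at hmem
    exact hhH' (hg ▸ hmem)
  obtain ⟨m, hm⟩ := IsPGroup.iff_card.mp hGL
  obtain ⟨n, hn⟩ := IsPGroup.iff_card.mp (hGL.to_subgroup N')
  have hnm : n < m := by
    have hlt' : Nat.card ↥N' < Nat.card Gal(M/↥L) := by
      apply lt_of_le_of_ne (Subgroup.card_le_card_group N')
      intro heq
      have := Subgroup.eq_top_of_card_eq N' heq
      exact hgN' (this ▸ Subgroup.mem_top g)
    rw [hm, hn] at hlt'
    exact (Nat.pow_lt_pow_iff_right hp.out.one_lt).mp hlt'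
  obtain ⟨N, hNcard, hN'N⟩ := Sylow.exists_subgroup_card_pow_prime_le p
    (n := n) (m := m - 1) (by rw [hm]; exact pow_dvd_pow p (Nat.sub_le m 1)) N' hn (by omega)
  have hNidx : N.index = p := by
    have h1 := Subgroup.card_mul_index N
    rw [hNcard, hm] at h1
    have h2 : p ^ m = p ^ (m - 1) * p := by
      rw [← pow_succ]; congr 1; omega
    rw [h2] at h1
    exact Nat.eq_of_mul_eq_mul_left (pow_pos hp.out.pos _) h1
  obtain ⟨Q, hQ, hQ0, hQT, hQdeg, σ, hσ, hσN⟩ :=
    ptk_exists_frob_not_mem hp.out N hNidx (ptk_finite_above (↥L) S').toFinset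
  refine ⟨Q, hQ, hQ0, ?_, f σ, ptk_isFrobAt_restrictScalars hQ0 hσ hQdeg, ?_, ?_⟩
  · intro v hv heq
    have : Q.LiesOver (Q.under (𝓞 ↥L)) := ⟨rfl⟩
    have h𝔮0 : Q.under (𝓞 ↥L) ≠ ⊥ := by
      intro h0
      exact hQ0 (Ideal.eq_bot_of_liesOver_bot (𝓞 ↥L) Q (h := h0 ▸ this))
    refine hQT ⟨Q.under (𝓞 ↥L), inferInstance, h𝔮0⟩ ?_ rfl
    rw [Set.Finite.mem_toFinset]
    refine ⟨v, hv, ⟨?_⟩⟩
    rw [heq]
    exact (Ideal.under_under (A := 𝓞 K) (B := 𝓞 ↥L) Q).symm
  · rw [← hfixL]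
    exact ptk_restrictScalarsHom_mem_fixingSubgroup L σ
  · intro hmem
    exact hσN (hN'N (Subgroup.mem_comap.mpr hmem))

end Gen

end Fermat.Agent.Lib.PT
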