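/-
S55 long-haul, K4: abstract greedy choice of a "Frobenius basis".
`G` a commutative group of exponent `p`, `H ≤ G` of order `p ^ k`, `Frob : V → G → Prop` a relation
such that for every `H' < H` and every finite `S' ⊆ V` some `v ∉ S'` has a `Frob`-partner in
`H \ H'`.  Then there are `k` distinct points `v ∉ R` with partners generating `H`.
-/
import Mathlib

set_option autoImplicit false

namespace Fermat.Agent.Lib.PT

open Subgroup

section Greedy

variable {G : Type*} [Group G] [IsMulCommutative G]

theorem ptk_card_sup_zpowers (A : Subgroup G) [Finite A] {σ : G} {p : ℕ} (hp : p.Prime)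
    (hσp : σ ^ p = 1) (hσ : σ ∉ A) : Nat.card ↥(zpowers σ ⊔ A) = p * Nat.card A := by
  have hσ1 : σ ≠ 1 := fun h => hσ (h ▸ A.one_mem)
  have hZ : Nat.card ↥(zpowers σ) = p := by
    have : Fact p.Prime := ⟨hp⟩
    rw [Nat.card_zpowers]; exact orderOf_eq_prime hσp hσ1
  have h1 : A.relIndex (zpowers σ ⊔ A) = A.relIndex (zpowers σ) := relIndex_sup_right _ _
  have h2 : A.relIndex (zpowers σ) = p := by
    have hdvd : A.relIndex (zpowers σ) ∣ p := hZ ▸ relIndex_dvd_card A (zpowers σ)
    rcases (Nat.dvd_prime hp).mp hdvd with h | h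
    · exact absurd (relIndex_eq_one.mp h (mem_zpowers σ)) hσ
    · exact h
  have h3 := (A.subgroupOf (zpowers σ ⊔ A)).index_mul_card
  have h4 : Nat.card ↥(A.subgroupOf (zpowers σ ⊔ A)) = Nat.card A :=
    Nat.card_congr (subgroupOfEquivOfLe le_sup_right).toEquiv
  rw [h4] at h3
  rw [← h3]
  change A.relIndex (zpowers σ ⊔ A) * _ = _
  rw [h1, h2]

variable {V : Type*} [DecidableEq V]

/-- greedy construction of `k` points whose partners generate `H` -/
theorem ptk_greedy_basis {p : ℕ} (hp : p.Prime) (hexp : ∀ σ : G, σ ^ p = 1)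
    (Frob : V → G → Prop) (H : Subgroup G) {k : ℕ} (hH : Nat.card H = p ^ k)
    (hstep : ∀ H' : Subgroup G, H' < H → ∀ S' : Finset V,
      ∃ v, v ∉ S' ∧ ∃ σ, Frob v σ ∧ σ ∈ H ∧ σ ∉ H')
    (R : Finset V) :
    ∃ (T : Finset V) (φ : V → G), Disjoint T R ∧ T.card = k ∧ (∀ v ∈ T, Frob v (φ v)) ∧
      closure (φ '' (T : Set V)) = H := by
  have hHfin : Finite H := Nat.finite_of_card_ne_zero (by rw [hH]; exact pow_ne_zero _ hp.ne_zero)
  have key : ∀ j : ℕ, j ≤ k → ∃ (T : Finset V) (φ : V → G), Disjoint T R ∧ T.card = j ∧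
      (∀ v ∈ T, Frob v (φ v)) ∧ closure (φ '' (T : Set V)) ≤ H ∧
      Nat.card ↥(closure (φ '' (T : Set V))) = p ^ j := by
    intro j
    induction j with
    | zero =>
      intro _
      refine ⟨∅, fun _ => 1, Finset.disjoint_empty_left R, rfl, by simp, by simp, by simp⟩
    | succ j ih =>
      intro hj
      obtain ⟨T, φ, hTR, hTj, hFrob, hle, hcard⟩ := ih (by omega)
      have hlt : closure (φ '' (T : Set V)) < H := by
        refine lt_of_le_of_ne hle ?_
        intro heq
        rw [heq, hH] at hcard
        have := Nat.pow_right_injective hp.two_le hcard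
        omega
      obtain ⟨v, hv, σ, hvσ, hσH, hσH'⟩ := hstep _ hlt (R ∪ T)
      have hvR : v ∉ R := fun h => hv (Finset.mem_union_left _ h)
      have hvT : v ∉ T := fun h => hv (Finset.mem_union_right _ h)
      have himage : Function.update φ v σ '' ((insert v T : Finset V) : Set V) =
          insert σ (φ '' (T : Set V)) := by
        rw [Finset.coe_insert, Set.image_insert_eq, Function.update_self]
        congr 1
        apply Set.image_congr
        intro w hw
        have : w ≠ v := fun h => hvT (h ▸ Finset.mem_coe.mp hw)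
        exact Function.update_of_ne this _ _
      have hclos : closure (Function.update φ v σ '' ((insert v T : Finset V) : Set V)) =
          zpowers σ ⊔ closure (φ '' (T : Set V)) := by
        rw [himage, Set.insert_eq, Subgroup.closure_union, zpowers_eq_closure]
      have : Finite ↥(closure (φ '' (T : Set V))) :=
        Finite.of_injective _ (inclusion_injective hle)
      refine ⟨insert v T, Function.update φ v σ, ?_, ?_, ?_, ?_, ?_⟩
      · exact Finset.disjoint_insert_left.mpr ⟨hvR, hTR⟩
      · rw [Finset.card_insert_of_notMem hvT, hTj]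
      · intro w hw
        rcases Finset.mem_insert.mp hw with rfl | hw
        · rw [Function.update_self]; exact hvσ
        · have : w ≠ v := fun h => hvT (h ▸ hw)
          rw [Function.update_of_ne this]
          exact hFrob w hw
      · rw [hclos]
        exact sup_le ((zpowers_le).mpr hσH) hle
      · rw [hclos, ptk_card_sup_zpowers _ hp (hexp σ) hσH', hcard, pow_succ, mul_comm]
  obtain ⟨T, φ, hTR, hTk, hFrob, hle, hcard⟩ := key k le_rfl
  refine ⟨T, φ, hTR, hTk, hFrob, ?_⟩
  have : Nat.card ↥((closure (φ '' (T : Set V))).subgroupOf H) = Nat.card H := by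
    rw [Nat.card_congr (subgroupOfEquivOfLe hle).toEquiv, hcard, hH]
  have htop := Subgroup.eq_top_of_card_eq _ this
  exact le_antisymm hle (subgroupOf_eq_top.mp htop)

end Greedy

end Fermat.Agent.Lib.PT
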