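import Fermat.Agent.Lib.PT.KummerUnram
import Fermat.Agent.Lib.CFT.FrobUtil

/-!
# S55 long-haul, package K4: Frobenius elements and `p`-th power residues in Kummer extensions

`K ⊆ M` number fields, `ζ_p ∈ K`, `Q` a prime of `M` not above `p`, `v = Q ∩ K`, `σ` a Frobenius
at `Q`, `b ∈ K` a `v`-unit with a `p`-th root `η ∈ M`.  Then
`σ η = η ↔ b` is a `p`-th power modulo `v` (`ptk_frob_fix_iff_powMod`).
-/

set_option autoImplicit false
set_option linter.unusedSectionVars false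

namespace Fermat.Agent.Lib.PT

open NumberField IsDedekindDomain IntermediateField Polynomial
open Fermat.Agent.Lib.CFT

/-- an element of a field extension of a finite field `k` fixed by `x ↦ x ^ #k` lies in `k` -/
theorem ptk_mem_range_of_pow_card {k l : Type*} [Field k] [Fintype k] [Field l] [Algebra k l]
    (x : l) (hx : x ^ Fintype.card k = x) : x ∈ Set.range (algebraMap k l) := by
  classical
  set q := Fintype.card k with hq
  have hq1 : 1 < q := Fintype.one_lt_card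
  set f : l[X] := X ^ q - X with hf
  have hf0 : f ≠ 0 := FiniteField.X_pow_card_sub_X_ne_zero l hq1
  have hdeg : f.natDegree = q := FiniteField.X_pow_card_sub_X_natDegree_eq l hq1
  have himg : (Finset.univ.image (algebraMap k l)) ⊆ f.roots.toFinset := by
    intro y hy
    obtain ⟨a, -, rfl⟩ := Finset.mem_image.mp hy
    rw [Multiset.mem_toFinset, mem_roots hf0, IsRoot.def, hf, eval_sub, eval_pow, eval_X,
      ← map_pow, FiniteField.pow_card, sub_self]
  have hcard1 : (Finset.univ.image (algebraMap k l)).card = q := by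
    rw [Finset.card_image_of_injective _ (algebraMap k l).injective, Finset.card_univ]
  have hcard2 : f.roots.toFinset.card ≤ q := by
    calc f.roots.toFinset.card ≤ Multiset.card f.roots := Multiset.toFinset_card_le _
      _ ≤ f.natDegree := card_roots' f
      _ = q := hdeg
  have heq : Finset.univ.image (algebraMap k l) = f.roots.toFinset :=
    Finset.eq_of_subset_of_card_le himg (by rw [hcard1]; exact hcard2)
  have hxroot : x ∈ f.roots.toFinset := by
    rw [Multiset.mem_toFinset, mem_roots hf0, IsRoot.def, hf, eval_sub, eval_pow, eval_X, hx,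
      sub_self]
  rw [← heq] at hxroot
  obtain ⟨a, -, rfl⟩ := Finset.mem_image.mp hxroot
  exact ⟨a, rfl⟩

variable {K M : Type*} [Field K] [NumberField K] [Field M] [NumberField M] [Algebra K M]

/-- Fermat's little theorem modulo a nonzero prime of `𝓞 K` -/
theorem ptk_pow_card_sub_mem (v : Ideal (𝓞 K)) [v.IsPrime] (hv : v ≠ ⊥) (c : 𝓞 K) :
    c ^ Nat.card (𝓞 K ⧸ v) - c ∈ v := by
  have hmax : v.IsMaximal := Ring.DimensionLEOne.maximalOfPrime hv inferInstance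
  let _ : Field (𝓞 K ⧸ v) := Ideal.Quotient.field v
  have : Finite (𝓞 K ⧸ v) := v.finiteQuotientOfFreeOfNeBot hv
  let _ : Fintype (𝓞 K ⧸ v) := Fintype.ofFinite _
  rw [← Ideal.Quotient.eq_zero_iff_mem, map_sub, map_pow, Nat.card_eq_fintype_card,
    FiniteField.pow_card, sub_self]

/-- an element of `𝓞 M` congruent to its `N v`-th power modulo `Q` is congruent to an element of
`𝓞 K` -/
theorem ptk_exists_sub_mem_of_pow_card (Q : Ideal (𝓞 M)) [Q.IsPrime] (hQ : Q ≠ ⊥) (y : 𝓞 M)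
    (hy : y ^ Nat.card (𝓞 K ⧸ Q.under (𝓞 K)) - y ∈ Q) :
    ∃ t : 𝓞 K, y - algebraMap (𝓞 K) (𝓞 M) t ∈ Q := by
  set v := Q.under (𝓞 K) with hv
  have hlo : Q.LiesOver v := ⟨rfl⟩
  have hv0 : v ≠ ⊥ := by
    intro h
    exact hQ (Ideal.eq_bot_of_liesOver_bot (𝓞 K) Q (h := h ▸ hlo))
  have hvmax : v.IsMaximal := Ring.DimensionLEOne.maximalOfPrime hv0 inferInstance
  have hQmax : Q.IsMaximal := Ring.DimensionLEOne.maximalOfPrime hQ inferInstance
  let _ : Field (𝓞 K ⧸ v) := Ideal.Quotient.field v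
  let _ : Field (𝓞 M ⧸ Q) := Ideal.Quotient.field Q
  have : Finite (𝓞 K ⧸ v) := v.finiteQuotientOfFreeOfNeBot hv0
  let _ : Fintype (𝓞 K ⧸ v) := Fintype.ofFinite _
  have h1 : (Ideal.Quotient.mk Q y) ^ Fintype.card (𝓞 K ⧸ v) = Ideal.Quotient.mk Q y := by
    rw [← Nat.card_eq_fintype_card, ← map_pow, ← sub_eq_zero, ← map_sub,
      Ideal.Quotient.eq_zero_iff_mem]
    exact hy
  obtain ⟨a, ha⟩ := ptk_mem_range_of_pow_card (k := 𝓞 K ⧸ v) (l := 𝓞 M ⧸ Q) _ h1
  obtain ⟨t, rfl⟩ := Ideal.Quotient.mk_surjective a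
  refine ⟨t, ?_⟩
  rw [← Ideal.Quotient.eq_zero_iff_mem, map_sub, ← ha, Ideal.Quotient.algebraMap_mk_of_liesOver,
    sub_self]

/-- `b` is a `p`-th power modulo `v` -/
def ptk_PowMod (p : ℕ) (v : HeightOneSpectrum (𝓞 K)) (b : K) : Prop :=
  ∃ z : K, v.valuation K (b - z ^ p) < 1


section FrobPow

variable {p : ℕ} (hp : p.Prime) (Q : Ideal (𝓞 M)) [Q.IsPrime] (hQ : Q ≠ ⊥)
  (v : HeightOneSpectrum (𝓞 K)) (hv : v.asIdeal = Q.under (𝓞 K))
  (σ : M ≃ₐ[K] M) (hσ : cft_IsFrobAt σ Q)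
  {b : K} (hb : v.valuation K b = 1) {η : M} (hη : η ^ p = algebraMap K M b)

include hp hQ hv hσ hb hη

/-- if the Frobenius fixes `η = b^(1/p)` then `b` is a `p`-th power modulo `v` -/
theorem ptk_powMod_of_frob_fix [IsGalois K M] (hfix : σ η = η) : ptk_PowMod p v b := by
  obtain ⟨n, ⟨d, hd⟩, hnd⟩ := v.exists_primeCompl_mul_eq_of_integer b hb.le
  have hd' : d ∉ v.asIdeal := hd
  have hη' : η ^ p * algebraMap (𝓞 K) M d = algebraMap (𝓞 K) M n := by
    rw [hη, IsScalarTower.algebraMap_apply (𝓞 K) K M d, IsScalarTower.algebraMap_apply (𝓞 K) K M n,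
      ← map_mul, hnd]
  obtain ⟨y, hyc, hyp⟩ := ptk_exists_integral_gen (K := K) hp hη'
  have hσy : σ • y = y := by
    apply RingOfIntegers.ext
    have h1 : ((σ • y : 𝓞 M) : M) = σ (y : M) := rfl
    rw [h1, hyc, map_mul, hfix, IsScalarTower.algebraMap_apply (𝓞 K) K M, σ.commutes]
  have hfrob := (cft_isFrobAt_iff' σ Q).mp hσ y
  rw [hσy] at hfrob
  have h2 : y ^ Nat.card (𝓞 K ⧸ Q.under (𝓞 K)) - y ∈ Q := by
    have := Q.neg_mem hfrob
    rwa [neg_sub] at this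
  obtain ⟨t, ht⟩ := ptk_exists_sub_mem_of_pow_card (K := K) Q hQ y h2
  have h3 : y ^ p - (algebraMap (𝓞 K) (𝓞 M) t) ^ p ∈ Q :=
    Ideal.mem_of_dvd _ (sub_dvd_pow_sub_pow _ _ p) ht
  rw [hyp, ← map_pow, ← map_sub] at h3
  have h4 : n * d ^ (p - 1) - t ^ p ∈ v.asIdeal := by
    rw [hv]; exact h3
  refine ⟨algebraMap (𝓞 K) K t / algebraMap (𝓞 K) K d, ?_⟩
  have hdK : algebraMap (𝓞 K) K d ≠ 0 := by
    intro h
    apply hd'
    have : d = 0 := (FaithfulSMul.algebraMap_injective (𝓞 K) K) (by rw [h, map_zero])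
    rw [this]; exact zero_mem _
  have hvd : v.valuation K (algebraMap (𝓞 K) K d) = 1 :=
    (v.valuation_eq_one_iff_notMem (K := K)).mpr hd'
  have e1 : b - (algebraMap (𝓞 K) K t / algebraMap (𝓞 K) K d) ^ p =
      algebraMap (𝓞 K) K (n * d ^ (p - 1) - t ^ p) / algebraMap (𝓞 K) K d ^ p := by
    have hb' : b = algebraMap (𝓞 K) K n / algebraMap (𝓞 K) K d := by
      rw [eq_div_iff hdK, hnd]
    have h1 : algebraMap (𝓞 K) K d ^ p =
        algebraMap (𝓞 K) K d ^ (p - 1) * algebraMap (𝓞 K) K d := by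
      rw [← pow_succ, Nat.sub_add_cancel hp.pos]
    rw [hb', map_sub, map_mul, map_pow, map_pow, div_pow, sub_div, h1]
    field_simp
  rw [e1, map_div₀, map_pow, hvd, one_pow, div_one]
  exact (HeightOneSpectrum.valuation_lt_one_iff_mem v _).mpr h4

/-- if `b` is a `p`-th power modulo `v` then the Frobenius fixes `η = b^(1/p)` -/
theorem ptk_frob_fix_of_powMod [IsGalois K M] (hpQ : (p : 𝓞 M) ∉ Q) {ζ : K}
    (hζ : IsPrimitiveRoot ζ p) (hpow : ptk_PowMod p v b) : σ η = η := by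
  have : NeZero p := ⟨hp.ne_zero⟩
  obtain ⟨z, hz⟩ := hpow
  -- `z` is a `v`-unit
  have hvz : v.valuation K z = 1 := by
    have h1 : v.valuation K (z ^ p) = 1 := by
      have : z ^ p = b - (b - z ^ p) := by ring
      rw [this, Valuation.map_sub_eq_of_lt_left _ (by rw [hb]; exact hz), hb]
    rw [map_pow] at h1
    exact (pow_eq_one_iff.mp h1).resolve_right hp.ne_zero
  obtain ⟨n, ⟨d, hd⟩, hnd⟩ := v.exists_primeCompl_mul_eq_of_integer b hb.le
  obtain ⟨t, ⟨e, he⟩, hte⟩ := v.exists_primeCompl_mul_eq_of_integer z hvz.le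
  have hd' : d ∉ v.asIdeal := hd
  have he' : e ∉ v.asIdeal := he
  have hvd : v.valuation K (algebraMap (𝓞 K) K d) = 1 :=
    (v.valuation_eq_one_iff_notMem (K := K)).mpr hd'
  have hve : v.valuation K (algebraMap (𝓞 K) K e) = 1 :=
    (v.valuation_eq_one_iff_notMem (K := K)).mpr he'
  have hn' : n ∉ v.asIdeal := by
    rw [← v.valuation_eq_one_iff_notMem (K := K), ← hnd, map_mul, hb, hvd, one_mul]
  -- `n e^p - t^p d ∈ v`
  have h1 : n * e ^ p - t ^ p * d ∈ v.asIdeal := by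
    rw [← HeightOneSpectrum.valuation_lt_one_iff_mem (K := K)]
    have e1 : algebraMap (𝓞 K) K (n * e ^ p - t ^ p * d) =
        (b - z ^ p) * (algebraMap (𝓞 K) K d * algebraMap (𝓞 K) K e ^ p) := by
      rw [map_sub, map_mul, map_mul, map_pow, map_pow, ← hnd, ← hte]
      ring
    change v.valuation K (algebraMap (𝓞 K) K (n * e ^ p - t ^ p * d)) < 1
    rw [e1, map_mul, map_mul, map_pow, hvd, hve, one_pow, mul_one, mul_one]
    exact hz
  -- pass to `𝓞 M`
  have hη' : η ^ p * algebraMap (𝓞 K) M d = algebraMap (𝓞 K) M n := by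
    rw [hη, IsScalarTower.algebraMap_apply (𝓞 K) K M d, IsScalarTower.algebraMap_apply (𝓞 K) K M n,
      ← map_mul, hnd]
  obtain ⟨y, hyc, hyp⟩ := ptk_exists_integral_gen (K := K) hp hη'
  set Y : 𝓞 M := y * algebraMap (𝓞 K) (𝓞 M) e with hY
  set T : 𝓞 M := algebraMap (𝓞 K) (𝓞 M) (t * d) with hT
  have hYp : Y ^ p = algebraMap (𝓞 K) (𝓞 M) (n * d ^ (p - 1) * e ^ p) := by
    rw [hY, mul_pow, hyp, ← map_pow, ← map_mul]
  have hYT : Y ^ p - T ^ p ∈ Q := by
    have h2 : (n * e ^ p - t ^ p * d) * d ^ (p - 1) ∈ Q.under (𝓞 K) := by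
      rw [← hv]; exact Ideal.mul_mem_right _ _ h1
    have e2 : Y ^ p - T ^ p = algebraMap (𝓞 K) (𝓞 M) ((n * e ^ p - t ^ p * d) * d ^ (p - 1)) := by
      have h3 : d ^ p = d ^ (p - 1) * d := by rw [← pow_succ, Nat.sub_add_cancel hp.pos]
      rw [hYp, hT, ← map_pow, ← map_sub, mul_pow, h3]
      congr 1
      ring
    rw [e2]
    exact h2
  -- factor `Y^p - T^p`
  have hζint : IsPrimitiveRoot (algebraMap (𝓞 K) (𝓞 M) hζ.toInteger) p :=
    hζ.toInteger_isPrimitiveRoot.map_of_injective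
      (FaithfulSMul.algebraMap_injective (𝓞 K) (𝓞 M))
  rw [hζint.pow_sub_pow_eq_prod_sub_mul Y T hp.pos] at hYT
  obtain ⟨μ, hμ, hμQ⟩ := (Ideal.IsPrime.prod_mem_iff (hp := inferInstance)).mp hYT
  have hμp : μ ^ p = 1 := (Polynomial.mem_nthRootsFinset hp.pos 1).mp hμ
  obtain ⟨j, -, hj⟩ := hζint.eq_pow_of_pow_eq_one hμp
  set c : 𝓞 K := hζ.toInteger ^ j * (t * d) with hc
  have hμT : μ * T = algebraMap (𝓞 K) (𝓞 M) c := by
    rw [← hj, hT, hc]
    simp only [map_mul, map_pow]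
  rw [hμT] at hμQ
  -- `σ Y ≡ Y`
  have hfrob := (cft_isFrobAt_iff' σ Q).mp hσ Y
  set q := Nat.card (𝓞 K ⧸ Q.under (𝓞 K)) with hq
  have hvprime : (Q.under (𝓞 K)).IsPrime := inferInstance
  have hv0 : Q.under (𝓞 K) ≠ ⊥ := by rw [← hv]; exact v.ne_bot
  have hcq : algebraMap (𝓞 K) (𝓞 M) c ^ q - algebraMap (𝓞 K) (𝓞 M) c ∈ Q := by
    rw [← map_pow, ← map_sub]
    exact ptk_pow_card_sub_mem (Q.under (𝓞 K)) hv0 c
  have hYq : Y ^ q - algebraMap (𝓞 K) (𝓞 M) c ^ q ∈ Q :=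
    Ideal.mem_of_dvd _ (sub_dvd_pow_sub_pow _ _ q) hμQ
  have hσY : σ • Y - Y ∈ Q := by
    have : σ • Y - Y = (σ • Y - Y ^ q) + (Y ^ q - algebraMap (𝓞 K) (𝓞 M) c ^ q)
        + (algebraMap (𝓞 K) (𝓞 M) c ^ q - algebraMap (𝓞 K) (𝓞 M) c)
        - (Y - algebraMap (𝓞 K) (𝓞 M) c) := by ring
    rw [this]
    exact Q.sub_mem (Q.add_mem (Q.add_mem hfrob hYq) hcq) hμQ
  -- `Y ∉ Q`
  have hYQ : Y ∉ Q := by
    intro hY'
    have h3 : Y ^ p ∈ Q := Q.pow_mem_of_mem hY' p hp.pos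
    rw [hYp] at h3
    have h4 : n * d ^ (p - 1) * e ^ p ∈ v.asIdeal := by rw [hv]; exact h3
    have hvp : v.asIdeal.IsPrime := v.isPrime
    rcases hvp.mem_or_mem h4 with h | h
    · rcases hvp.mem_or_mem h with h | h
      · exact hn' h
      · exact hd' (hvp.mem_of_pow_mem _ h)
    · exact he' (hvp.mem_of_pow_mem _ h)
  -- conclude
  have hη0 : η ≠ 0 := by
    rintro rfl
    rw [zero_pow hp.ne_zero] at hη
    have : b = 0 := (algebraMap K M).injective (by rw [← hη, map_zero])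
    rw [this, map_zero] at hb
    exact zero_ne_one hb
  have hηp : σ (η ^ p) = η ^ p := by rw [hη, σ.commutes]
  refine ptk_fix_of_sub_mem hp Q hpQ σ hη0 hηp
    (c := algebraMap (𝓞 K) K d * algebraMap (𝓞 K) K e) ?_ hYQ hσY
  rw [hY, RingOfIntegers.coe_eq_algebraMap, map_mul, ← RingOfIntegers.coe_eq_algebraMap, hyc,
    ← IsScalarTower.algebraMap_apply (𝓞 K) (𝓞 M) M, map_mul,
    ← IsScalarTower.algebraMap_apply (𝓞 K) K M, ← IsScalarTower.algebraMap_apply (𝓞 K) K M, mul_assoc]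

end FrobPow

end Fermat.Agent.Lib.PT
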