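/-
S55 long-haul, K4: Kummer theory, "roots fixed by the stabiliser of a root".
* `ptk_root_of_fix`: `α ^ p = a`, `β ^ p = b` in a Galois extension `M/K ∋ ζ_p`; if every
  `σ ∈ Gal(M/K)` fixing `α` fixes `β`, then `β = α ^ j * c`, `b = a ^ j * c ^ p` with `c ∈ K`.
* `ptk_stab hζ α`: the stabiliser of the root `α`, as the kernel of the Kummer character;
  `ptk_stab_index`: it has index `p` when `a` is not a `p`-th power in `K`.
-/
import Fermat.Agent.Lib.PT.KummerField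

set_option autoImplicit false

namespace Fermat.Agent.Lib.PT

open IntermediateField Polynomial

section RootFix

variable {K M : Type*} [Field K] [Field M] [Algebra K M]

/-- **Kummer theory**: a `p`-th root `β` fixed by the stabiliser of the `p`-th root `α` is
`α ^ j * c` with `c ∈ K`. -/
theorem ptk_root_of_fix [IsGalois K M] {p : ℕ} [hp : Fact p.Prime] {ζ : K}
    (hζ : IsPrimitiveRoot ζ p) {α : Mˣ} {a : Kˣ} (hα : α ^ p = ptk_incl K M a)
    {β : Mˣ} {b : Kˣ} (hβ : β ^ p = ptk_incl K M b)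
    (hfix : ∀ σ : M ≃ₐ[K] M, σ (α : M) = α → σ (β : M) = β) :
    ∃ (j : ℕ) (c : Kˣ), b = a ^ j * c ^ p ∧ β = α ^ j * ptk_incl K M c := by
  have : NeZero p := ⟨hp.out.ne_zero⟩
  have hαR := ptk_mem_rootGroup_top hα
  have hβR := ptk_mem_rootGroup_top hβ
  have fin : ∀ (j : ℕ) (c : Kˣ), β = α ^ j * ptk_incl K M c →
      ∃ (j : ℕ) (c : Kˣ), b = a ^ j * c ^ p ∧ β = α ^ j * ptk_incl K M c := by
    intro j c h
    refine ⟨j, c, ?_, h⟩
    apply ptk_incl_injective (K := K) (M := M)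
    rw [← hβ, h, mul_pow, ← pow_mul, mul_comm j p, pow_mul, hα, map_mul, map_pow, map_pow]
  by_cases htriv : ∀ σ : M ≃ₐ[K] M, ptk_delta σ α = 1
  · obtain ⟨c, hc⟩ := ptk_exists_incl_of_fixed (K := K) (x := β)
      (fun σ => hfix σ ((ptk_delta_eq_one_iff σ α).mp (htriv σ)))
    exact fin 0 c (by rw [pow_zero, one_mul, hc])
  · push Not at htriv
    obtain ⟨σ₀, hσ₀⟩ := htriv
    set y : Mˣ := ptk_delta σ₀ α with hy
    have hyp : y ^ p = 1 := ptk_delta_pow σ₀ hαR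
    obtain ⟨j, hj⟩ := ptk_exists_pow_eq hyp hσ₀ (ptk_delta_pow σ₀ hβR)
    set x : Mˣ := β / α ^ j with hx
    have hxR : x ∈ ptk_rootGroup (M := M) p (⊤ : Subgroup Kˣ) :=
      Subgroup.div_mem _ hβR (Subgroup.pow_mem _ hαR j)
    have hx0 : ptk_delta σ₀ x = 1 := by
      rw [hx, _root_.map_div, map_pow, ← hy, hj, div_self']
    have hpowδ : ∀ (z : Mˣ), z ∈ ptk_rootGroup (M := M) p (⊤ : Subgroup Kˣ) → ∀ k : ℕ,
        ptk_delta (σ₀ ^ k) z = ptk_delta σ₀ z ^ k := by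
      intro z hz k
      exact map_pow (ptk_pairRG (M := M) hζ ⊤ ⟨z, hz⟩) σ₀ k
    obtain ⟨c, hc⟩ := ptk_exists_incl_of_fixed (K := K) (x := x) (fun σ => by
      obtain ⟨k, hk⟩ := ptk_exists_pow_eq hyp hσ₀ (ptk_delta_pow σ hαR)
      -- `τ = (σ₀ ^ k)⁻¹ * σ` fixes `α`, hence `β`, hence `x`
      set τ : M ≃ₐ[K] M := (σ₀ ^ k)⁻¹ * σ with hτ
      have hinv : ∀ (z : Mˣ), z ∈ ptk_rootGroup (M := M) p (⊤ : Subgroup Kˣ) →
          ptk_delta τ z = (ptk_delta σ₀ z ^ k)⁻¹ * ptk_delta σ z := by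
        intro z hz
        rw [hτ, ptk_delta_mul hζ _ _ hz]
        congr 1
        have h4 := ptk_delta_mul hζ ((σ₀ ^ k)⁻¹) (σ₀ ^ k) hz
        rw [inv_mul_cancel, ptk_delta_one, hpowδ z hz] at h4
        exact eq_inv_of_mul_eq_one_left h4.symm
      have hτα : ptk_delta τ α = 1 := by
        rw [hinv α hαR, ← hy, hk, inv_mul_cancel]
      have hτβ : ptk_delta τ β = 1 :=
        (ptk_delta_eq_one_iff τ β).mpr (hfix τ ((ptk_delta_eq_one_iff τ α).mp hτα))
      have hτx : ptk_delta τ x = 1 := by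
        rw [hx, _root_.map_div, map_pow, hτα, hτβ, one_pow, div_one]
      have hσeq : σ = σ₀ ^ k * τ := by rw [hτ, mul_inv_cancel_left]
      apply (ptk_delta_eq_one_iff σ x).mp
      rw [hσeq, ptk_delta_mul hζ _ _ hxR, hpowδ x hxR, hx0, one_pow, one_mul, hτx])
    exact fin j c (by rw [hc, hx, mul_div_cancel])

/-- the stabiliser of a `p`-th root `α` of an element of `K`, as the kernel of its character -/
noncomputable def ptk_stab {p : ℕ} [NeZero p] {ζ : K} (hζ : IsPrimitiveRoot ζ p) {α : Mˣ} {a : Kˣ}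
    (hα : α ^ p = ptk_incl K M a) : Subgroup (M ≃ₐ[K] M) :=
  (ptk_pairRG (M := M) hζ ⊤ ⟨α, ptk_mem_rootGroup_top hα⟩).ker

theorem ptk_mem_stab {p : ℕ} [NeZero p] {ζ : K} (hζ : IsPrimitiveRoot ζ p) {α : Mˣ} {a : Kˣ}
    (hα : α ^ p = ptk_incl K M a) (σ : M ≃ₐ[K] M) : σ ∈ ptk_stab hζ hα ↔ σ (α : M) = α := by
  rw [ptk_stab, MonoidHom.mem_ker, ← ptk_delta_eq_one_iff]
  rfl

/-- the stabiliser of `a ^ (1/p)` has index `p` if `a` is not a `p`-th power -/
theorem ptk_stab_index [IsGalois K M] {p : ℕ} [hp : Fact p.Prime] {ζ : K}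
    (hζ : IsPrimitiveRoot ζ p) {α : Mˣ} {a : Kˣ} (hα : α ^ p = ptk_incl K M a)
    (ha : a ∉ ptk_pows K p) : (ptk_stab hζ hα).index = p := by
  have : NeZero p := ⟨hp.out.ne_zero⟩
  have hαR := ptk_mem_rootGroup_top hα
  set χ : (M ≃ₐ[K] M) →* Mˣ := ptk_pairRG (M := M) hζ ⊤ ⟨α, hαR⟩ with hχ
  have hζ' : IsPrimitiveRoot (algebraMap K M ζ) p :=
    hζ.map_of_injective (algebraMap K M).injective
  have hle : χ.range ≤ rootsOfUnity p M := by
    rintro _ ⟨σ, rfl⟩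
    rw [mem_rootsOfUnity]
    exact ptk_delta_pow σ hαR
  have hcardR : Nat.card ↥(rootsOfUnity p M) = p := hζ'.card_rootsOfUnity
  have hdvd : Nat.card ↥χ.range ∣ p := hcardR ▸ Subgroup.card_dvd_of_le hle
  rw [ptk_stab, Subgroup.index_ker]
  rcases (Nat.dvd_prime hp.out).mp hdvd with h | h
  · exfalso
    have hbot : χ.range = ⊥ := Subgroup.eq_bot_of_card_eq _ h
    obtain ⟨c, hc⟩ := ptk_exists_incl_of_fixed (K := K) (x := α) (fun σ => by
      apply (ptk_delta_eq_one_iff σ α).mp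
      have : χ σ ∈ χ.range := ⟨σ, rfl⟩
      rw [hbot, Subgroup.mem_bot] at this
      exact this)
    apply ha
    refine ⟨c, ?_⟩
    apply ptk_incl_injective (K := K) (M := M)
    rw [powMonoidHom_apply, map_pow, hc, hα]
  · exact h

end RootFix

end Fermat.Agent.Lib.PT
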