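/-
S55 long-haul, K4 (second inequality, Kummer case): **Tate's auxiliary primes**
(Cassels–Fröhlich VII.9, Artin–Tate).  `K ∋ ζ_p` a number field, `B ≤ Kˣ` with
`[B : B ∩ Kˣᵖ] = p ^ s` (in the application `B` = the `S`-units), `R` a finite set of primes
containing the primes over `p` and such that `B` consists of units outside `R`, `a ∈ B` not a
`p`-th power.  Then there is a set `T` of `s - 1` primes outside `R` such that
* `a` is a `p`-th power modulo every `v ∈ T`;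
* an element `ε ∈ B` which is a `p`-th power modulo every `v ∈ T` lies in `⟨a⟩ · Kˣᵖ`.
-/
import Fermat.Agent.Lib.PT.KummerFrob
import Fermat.Agent.Lib.PT.FrobGenB
import Fermat.Agent.Lib.PT.GreedyBasis
import Fermat.Agent.Lib.PT.KummerRootFix

set_option autoImplicit false
set_option linter.unusedSectionVars false

namespace Fermat.Agent.Lib.PT

open NumberField IntermediateField IsDedekindDomain
open Fermat.Agent.Lib.CFT

section Aux

variable {K : Type*} [Field K] [NumberField K]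

theorem ptk_aux_primes_of_field {M : Type*} [Field M] [NumberField M] [Algebra K M]
    {p : ℕ} [hp : Fact p.Prime] {ζ : K} (hζ : IsPrimitiveRoot ζ p) (B : Subgroup Kˣ)
    (hgen : adjoin K (ptk_rootSet (M := M) p B) = ⊤) (hroots : ptk_HasRoots M p B)
    {s : ℕ} (hB : (ptk_pows K p).relIndex B = p ^ s)
    (R : Finset (HeightOneSpectrum (𝓞 K)))
    (hRp : ∀ v : HeightOneSpectrum (𝓞 K), (p : 𝓞 K) ∈ v.asIdeal → v ∈ R)
    (hRB : ∀ v : HeightOneSpectrum (𝓞 K), v ∉ R → ∀ b ∈ B, v.valuation K (b : K) = 1)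
    {a : Kˣ} (haB : a ∈ B) (ha : a ∉ ptk_pows K p) :
    ∃ T : Finset (HeightOneSpectrum (𝓞 K)), Disjoint T R ∧ T.card + 1 = s ∧
      (∀ v ∈ T, ptk_PowMod p v (a : K)) ∧
      ∀ ε ∈ B, (∀ v ∈ T, ptk_PowMod p v (ε : K)) → ∃ (j : ℕ) (c : Kˣ), ε = a ^ j * c ^ p := by
  classical
  have : NeZero p := ⟨hp.out.ne_zero⟩
  have hfin : (ptk_pows K p).relIndex B ≠ 0 := by
    rw [hB]; exact pow_ne_zero _ hp.out.ne_zero
  have hGal : IsGalois K M := ptk_isGalois hζ hgen
  have hrk : Module.finrank K M = p ^ s := by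
    rw [ptk_finrank_eq_relIndex hζ hgen hroots hfin, hB]
  obtain ⟨α, hα⟩ := hroots a haB
  have hcomm : IsMulCommutative (M ≃ₐ[K] M) := ⟨⟨ptk_gal_comm hζ hgen⟩⟩
  have hexp := ptk_gal_pow hζ hgen
  have hPG : IsPGroup p (M ≃ₐ[K] M) := fun σ => ⟨1, by rw [pow_one]; exact hexp σ⟩
  set H := ptk_stab hζ hα with hH
  have hHidx : H.index = p := ptk_stab_index hζ hα ha
  have hGcard : Nat.card (M ≃ₐ[K] M) = p ^ s := by rw [IsGalois.card_aut_eq_finrank, hrk]
  have hHcard : Nat.card H * p = p ^ s := by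
    rw [← hGcard, ← Subgroup.card_mul_index H, hHidx]
  obtain ⟨k, rfl⟩ : ∃ k, s = k + 1 := by
    cases s with
    | zero =>
      exfalso
      rw [pow_zero] at hHcard
      exact hp.out.one_lt.ne' (Nat.eq_one_of_mul_eq_one_left hHcard)
    | succ k => exact ⟨k, rfl⟩
  have hHk : Nat.card H = p ^ k := by
    rw [pow_succ] at hHcard
    exact Nat.eq_of_mul_eq_mul_right hp.out.pos hHcard
  let Frob : HeightOneSpectrum (𝓞 K) → (M ≃ₐ[K] M) → Prop := fun v σ =>
    ∃ (Q : Ideal (𝓞 M)) (_ : Q.IsPrime), Q ≠ ⊥ ∧ v.asIdeal = Q.under (𝓞 K) ∧ cft_IsFrobAt σ Q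
  obtain ⟨T, φ, hTR, hTk, hFrob, hclos⟩ := ptk_greedy_basis hp.out hexp Frob H hHk (by
    intro H' hlt S'
    obtain ⟨Q, hQ, hQ0, hQS, σ, hσ, hσH, hσH'⟩ := ptk_exists_frob_mem_not_mem hPG hlt S'
    have : Q.LiesOver (Q.under (𝓞 K)) := ⟨rfl⟩
    have hv0 : Q.under (𝓞 K) ≠ ⊥ := by
      intro h0
      exact hQ0 (Ideal.eq_bot_of_liesOver_bot (𝓞 K) Q (h := h0 ▸ this))
    refine ⟨⟨Q.under (𝓞 K), inferInstance, hv0⟩, ?_, σ, ⟨Q, hQ, hQ0, rfl, hσ⟩, hσH, hσH'⟩
    intro hmem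
    exact hQS _ hmem rfl) R
  refine ⟨T, hTR, by rw [hTk], ?_, ?_⟩
  · intro v hv
    obtain ⟨Q, hQ, hQ0, hvQ, hσ⟩ := hFrob v hv
    have hvR : v ∉ R := Finset.disjoint_left.mp hTR hv
    have hφH : φ v ∈ H := by
      rw [← hclos]
      exact Subgroup.subset_closure ⟨v, Finset.mem_coe.mpr hv, rfl⟩
    have hfix : φ v (α : M) = α := (ptk_mem_stab hζ hα _).mp hφH
    have hη : (α : M) ^ p = algebraMap K M (a : K) := by
      have := congrArg (fun u : Mˣ => (u : M)) hα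
      simpa using this
    exact ptk_powMod_of_frob_fix hp.out Q hQ0 v hvQ (φ v) hσ (hRB v hvR a haB) hη hfix
  · intro ε hεB hεT
    obtain ⟨η, hη⟩ := hroots ε hεB
    have hη' : (η : M) ^ p = algebraMap K M (ε : K) := by
      have := congrArg (fun u : Mˣ => (u : M)) hη
      simpa using this
    have hfixall : ∀ σ ∈ H, σ (η : M) = η := by
      rw [← hclos]
      intro σ hσ
      induction hσ using Subgroup.closure_induction with
      | mem σ hσ =>
        obtain ⟨v, hv, rfl⟩ := hσ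
        have hv' : v ∈ T := Finset.mem_coe.mp hv
        obtain ⟨Q, hQ, hQ0, hvQ, hσF⟩ := hFrob v hv'
        have hvR : v ∉ R := Finset.disjoint_left.mp hTR hv'
        have hpQ : (p : 𝓞 M) ∉ Q := by
          intro hmem
          apply hvR
          apply hRp
          rw [hvQ, Ideal.under_def, Ideal.mem_comap, map_natCast]
          exact hmem
        exact ptk_frob_fix_of_powMod hp.out Q hQ0 v hvQ (φ v) hσF (hRB v hvR ε hεB) hη' hpQ hζ
          (hεT v hv')
      | one => rfl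
      | mul σ τ _ _ hσ hτ => rw [AlgEquiv.mul_apply, hτ, hσ]
      | inv σ _ hσ =>
        have : σ⁻¹ (σ (η : M)) = η := by
          rw [← AlgEquiv.mul_apply, inv_mul_cancel, AlgEquiv.one_apply]
        rwa [hσ] at this
    obtain ⟨j, c, hbc, -⟩ := ptk_root_of_fix hζ hα hη
      (fun σ hσα => hfixall σ ((ptk_mem_stab hζ hα σ).mpr hσα))
    exact ⟨j, c, hbc⟩

/-- **Tate's auxiliary primes.** -/
theorem ptk_aux_primes {p : ℕ} [hp : Fact p.Prime] {ζ : K} (hζ : IsPrimitiveRoot ζ p)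
    (B : Subgroup Kˣ) {s : ℕ} (hB : (ptk_pows K p).relIndex B = p ^ s)
    (R : Finset (HeightOneSpectrum (𝓞 K)))
    (hRp : ∀ v : HeightOneSpectrum (𝓞 K), (p : 𝓞 K) ∈ v.asIdeal → v ∈ R)
    (hRB : ∀ v : HeightOneSpectrum (𝓞 K), v ∉ R → ∀ b ∈ B, v.valuation K (b : K) = 1)
    {a : Kˣ} (haB : a ∈ B) (ha : a ∉ ptk_pows K p) :
    ∃ T : Finset (HeightOneSpectrum (𝓞 K)), Disjoint T R ∧ T.card + 1 = s ∧
      (∀ v ∈ T, ptk_PowMod p v (a : K)) ∧
      ∀ ε ∈ B, (∀ v ∈ T, ptk_PowMod p v (ε : K)) → ∃ (j : ℕ) (c : Kˣ), ε = a ^ j * c ^ p := by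
  have : NeZero p := ⟨hp.out.ne_zero⟩
  have hroots : ptk_HasRoots (AlgebraicClosure K) p B := ptk_hasRoots_of_isAlgClosed B
  have hfin : (ptk_pows K p).relIndex B ≠ 0 := by
    rw [hB]; exact pow_ne_zero _ hp.out.ne_zero
  have hFD : FiniteDimensional K ↥(ptk_field (AlgebraicClosure K) p B) :=
    ptk_field_finiteDimensional hζ hroots hfin
  have hNF : NumberField ↥(ptk_field (AlgebraicClosure K) p B) :=
    NumberField.of_module_finite K _
  exact ptk_aux_primes_of_field (M := ↥(ptk_field (AlgebraicClosure K) p B)) hζ B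
    (ptk_field_gen p B) (ptk_field_hasRoots hroots) hB R hRp hRB haB ha

end Aux

end Fermat.Agent.Lib.PT
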