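import Fermat.Agent.Lib.PT.KummerCount

set_option autoImplicit false

namespace Fermat.Agent.Lib.PT

open IntermediateField Polynomial

section Card

variable {K M : Type*} [Field K] [Field M] [Algebra K M]

theorem ptk_hasEnough {p : ℕ} [NeZero p] {ζ : K} (hζ : IsPrimitiveRoot ζ p) :
    HasEnoughRootsOfUnity M p :=
  ⟨⟨algebraMap K M ζ, hζ.map_of_injective (algebraMap K M).injective⟩, rootsOfUnity.isCyclic M p⟩

theorem ptk_abOf_surjective (G : Type*) [Group G] :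
    Function.Surjective (Abelianization.of : G →* Abelianization G) :=
  fun g => QuotientGroup.induction_on g fun σ => ⟨σ, rfl⟩

theorem ptk_gal_pow {p : ℕ} [NeZero p] {ζ : K} (hζ : IsPrimitiveRoot ζ p)
    {B : Subgroup Kˣ} (hgen : adjoin K (ptk_rootSet (M := M) p B) = ⊤) (σ : M ≃ₐ[K] M) :
    σ ^ p = 1 := by
  apply ptk_pairG_injective hζ hgen
  rw [map_pow, map_one]
  refine MonoidHom.ext fun a => ?_
  rw [MonoidHom.pow_apply, ← map_pow, ptk_A_pow, map_one, MonoidHom.one_apply]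

theorem ptk_gal_comm {p : ℕ} [NeZero p] {ζ : K} (hζ : IsPrimitiveRoot ζ p)
    {B : Subgroup Kˣ} (hgen : adjoin K (ptk_rootSet (M := M) p B) = ⊤) (σ τ : M ≃ₐ[K] M) :
    σ * τ = τ * σ := by
  apply ptk_pairG_injective hζ hgen
  rw [map_mul, map_mul]
  refine MonoidHom.ext fun a => ?_
  rw [MonoidHom.mul_apply, MonoidHom.mul_apply, mul_comm]

/-- `#Gal(M/K) = #A` -/
theorem ptk_card_gal {p : ℕ} [NeZero p] {ζ : K} (hζ : IsPrimitiveRoot ζ p)
    {B : Subgroup Kˣ} (hgen : adjoin K (ptk_rootSet (M := M) p B) = ⊤)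
    [Finite (ptk_A (M := M) p B)] :
    Nat.card (M ≃ₐ[K] M) = Nat.card (ptk_A (M := M) p B) := by
  have hGal : IsGalois K M := ptk_isGalois hζ hgen
  have hM : HasEnoughRootsOfUnity M p := ptk_hasEnough hζ
  have hexpA : Monoid.exponent (ptk_A (M := M) p B) ∣ p :=
    Monoid.exponent_dvd_of_forall_pow_eq_one ptk_A_pow
  have hMA : HasEnoughRootsOfUnity M (Monoid.exponent (ptk_A (M := M) p B)) :=
    HasEnoughRootsOfUnity.of_dvd M hexpA
  have hfinG : Finite (M ≃ₐ[K] M) := Finite.of_injective _ (ptk_pairG_injective hζ hgen)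
  have h1 : Nat.card (M ≃ₐ[K] M) ≤ Nat.card (ptk_A (M := M) p B) := by
    calc Nat.card (M ≃ₐ[K] M) ≤ Nat.card (ptk_A (M := M) p B →* Mˣ) :=
          Nat.card_le_card_of_injective _ (ptk_pairG_injective hζ hgen)
      _ = Nat.card (ptk_A (M := M) p B) :=
          CommGroup.card_monoidHom_of_hasEnoughRootsOfUnity (ptk_A (M := M) p B) M
  have hexpAb : Monoid.exponent (Abelianization (M ≃ₐ[K] M)) ∣ p := by
    apply Monoid.exponent_dvd_of_forall_pow_eq_one
    intro g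
    obtain ⟨σ, rfl⟩ := ptk_abOf_surjective _ g
    rw [← map_pow, ptk_gal_pow hζ hgen, map_one]
  have hMAb : HasEnoughRootsOfUnity M (Monoid.exponent (Abelianization (M ≃ₐ[K] M))) :=
    HasEnoughRootsOfUnity.of_dvd M hexpAb
  have h2 : Nat.card (ptk_A (M := M) p B) ≤ Nat.card (M ≃ₐ[K] M) := by
    calc Nat.card (ptk_A (M := M) p B) ≤ Nat.card ((M ≃ₐ[K] M) →* Mˣ) :=
          Nat.card_le_card_of_injective _ (ptk_pairA_injective hζ)
      _ = Nat.card (Abelianization (M ≃ₐ[K] M) →* Mˣ) := Nat.card_congr Abelianization.lift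
      _ = Nat.card (Abelianization (M ≃ₐ[K] M)) :=
          CommGroup.card_monoidHom_of_hasEnoughRootsOfUnity (Abelianization (M ≃ₐ[K] M)) M
      _ ≤ Nat.card (M ≃ₐ[K] M) :=
          Nat.card_le_card_of_surjective _ (ptk_abOf_surjective _)
  exact le_antisymm h1 h2

/-- `[M : K] = #A` -/
theorem ptk_finrank_eq_card {p : ℕ} [NeZero p] {ζ : K} (hζ : IsPrimitiveRoot ζ p)
    {B : Subgroup Kˣ} (hgen : adjoin K (ptk_rootSet (M := M) p B) = ⊤)
    [Finite (ptk_A (M := M) p B)] :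
    Module.finrank K M = Nat.card (ptk_A (M := M) p B) := by
  have hGal : IsGalois K M := ptk_isGalois hζ hgen
  rw [← ptk_card_gal hζ hgen, IsGaloisGroup.card_eq_finrank (M ≃ₐ[K] M) K M]

/-- every element of `B` has a `p`-th root in `M` -/
def ptk_HasRoots (M : Type*) [Field M] [Algebra K M] (p : ℕ) (B : Subgroup Kˣ) : Prop :=
  ∀ b ∈ B, ∃ y : Mˣ, y ^ p = ptk_incl K M b

/-- the subgroup of `p`-th powers -/
noncomputable abbrev ptk_pows (K : Type*) [Field K] (p : ℕ) : Subgroup Kˣ :=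
  (powMonoidHom p : Kˣ →* Kˣ).range

theorem ptk_ratSub_eq_comap {p : ℕ} [NeZero p] {ζ : K} (hζ : IsPrimitiveRoot ζ p)
    (B : Subgroup Kˣ) :
    ptk_ratSub (M := M) p B = ((ptk_pows K p).map (ptk_incl K M)).comap
      ((powMonoidHom p : Mˣ →* Mˣ).comp (Subgroup.subtype (ptk_rootGroup (M := M) p B))) := by
  ext x
  rw [ptk_mem_ratSub, Subgroup.mem_comap, Subgroup.mem_map]
  constructor
  · rintro ⟨c, hc⟩
    refine ⟨c ^ p, ⟨c, rfl⟩, ?_⟩
    rw [map_pow, hc]
    rfl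
  · rintro ⟨_, ⟨c, rfl⟩, hc⟩
    have h1 : ((x : Mˣ) / ptk_incl K M c) ^ p = 1 := by
      have : (x : Mˣ) ^ p = ptk_incl K M c ^ p := by
        rw [← map_pow]; exact hc.symm
      rw [div_pow, this, div_self']
    obtain ⟨d, -, hd⟩ := ptk_mem_range_of_pow_eq_one hζ h1
    exact ⟨d * c, by rw [map_mul, hd, div_mul_cancel]⟩

theorem ptk_range_pow {p : ℕ} {B : Subgroup Kˣ} (hroots : ptk_HasRoots M p B) :
    ((powMonoidHom p : Mˣ →* Mˣ).comp (Subgroup.subtype (ptk_rootGroup (M := M) p B))).range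
      = B.map (ptk_incl K M) := by
  ext y
  rw [MonoidHom.mem_range, Subgroup.mem_map]
  constructor
  · rintro ⟨x, rfl⟩
    obtain ⟨b, hb, hbx⟩ := ptk_mem_rootGroup.mp x.2
    exact ⟨b, hb, hbx⟩
  · rintro ⟨b, hb, rfl⟩
    obtain ⟨y, hy⟩ := hroots b hb
    exact ⟨⟨y, ptk_mem_rootGroup.mpr ⟨b, hb, hy.symm⟩⟩, hy⟩

/-- `#A = [B : B ∩ Kˣᵖ]` -/
theorem ptk_card_A {p : ℕ} [NeZero p] {ζ : K} (hζ : IsPrimitiveRoot ζ p)
    {B : Subgroup Kˣ} (hroots : ptk_HasRoots M p B) :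
    Nat.card (ptk_A (M := M) p B) = (ptk_pows K p).relIndex B := by
  rw [← Subgroup.index_eq_card, ptk_ratSub_eq_comap hζ, Subgroup.index_comap,
    ptk_range_pow hroots, Subgroup.relIndex_map_map_of_injective _ _ ptk_incl_injective]

/-- **Kummer degree formula**: `[M : K] = [B : B ∩ Kˣᵖ]` -/
theorem ptk_finrank_eq_relIndex {p : ℕ} [NeZero p] {ζ : K} (hζ : IsPrimitiveRoot ζ p)
    {B : Subgroup Kˣ} (hgen : adjoin K (ptk_rootSet (M := M) p B) = ⊤)
    (hroots : ptk_HasRoots M p B) (hfin : (ptk_pows K p).relIndex B ≠ 0) :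
    Module.finrank K M = (ptk_pows K p).relIndex B := by
  have hA : Finite (ptk_A (M := M) p B) := by
    apply Nat.finite_of_card_ne_zero
    rwa [ptk_card_A hζ hroots]
  rw [ptk_finrank_eq_card hζ hgen, ptk_card_A hζ hroots]

end Card

end Fermat.Agent.Lib.PT
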