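/-
S55 / G2 (part A): Dirichlet's `S`-unit theorem for number fields.
For a finite set `S` of primes of a number field `K`, the group of `S`-units is finitely generated
of rank `(#infinite places - 1) + #S`.
-/
import Mathlib
import Fermat.Agent.Lib.CFT.HerbrandRank

set_option autoImplicit false

namespace Fermat.Agent.Lib.PT

open IsDedekindDomain NumberField Fermat.Agent.Lib.CFT

section Ord

variable (K : Type*) [Field K] [NumberField K]
variable (S : Finset (HeightOneSpectrum (𝓞 K)))

/-- the group of `S`-units of `K` -/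
noncomputable abbrev cfh_SUnit : Subgroup Kˣ := (S : Set (HeightOneSpectrum (𝓞 K))).unit K

/-- the order of an `S`-unit at the primes of `S`, as an additive map to `ℤ^S` -/
noncomputable def cfh_ord : Additive (cfh_SUnit K S) →+ (S → ℤ) :=
  AddMonoidHom.pi fun v =>
    MonoidHom.toAdditiveLeft ((v.1.valuationOfNeZero).comp (cfh_SUnit K S).subtype)

theorem cfh_ord_apply (x : cfh_SUnit K S) (v : S) :
    cfh_ord K S (Additive.ofMul x) v =
      Multiplicative.toAdd (v.1.valuationOfNeZero (x : Kˣ)) := rfl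

/-- the inclusion of the units of `𝓞 K` into the `S`-units -/
noncomputable def cfh_unitsToSUnit : (𝓞 K)ˣ →* cfh_SUnit K S where
  toFun u := ⟨Units.map (algebraMap (𝓞 K) K : 𝓞 K →* K) u, fun v _ => by
    have := v.valuation_of_unit_eq (K := K) u
    rw [← v.valuationOfNeZero_eq, this]; rfl⟩
  map_one' := by apply Subtype.ext; simp
  map_mul' a b := by apply Subtype.ext; simp

theorem cfh_unitsToSUnit_injective : Function.Injective (cfh_unitsToSUnit K S) := by
  intro a b h
  have h1 : Units.map (algebraMap (𝓞 K) K : 𝓞 K →* K) a =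
      Units.map (algebraMap (𝓞 K) K : 𝓞 K →* K) b := congrArg Subtype.val h
  exact Units.map_injective (f := (algebraMap (𝓞 K) K : 𝓞 K →* K))
    (FaithfulSMul.algebraMap_injective (𝓞 K) K) h1

theorem cfh_exists_unit_of_ord_eq_zero (x : cfh_SUnit K S)
    (hx : cfh_ord K S (Additive.ofMul x) = 0) : ∃ u : (𝓞 K)ˣ, cfh_unitsToSUnit K S u = x := by
  have hval : ∀ v : HeightOneSpectrum (𝓞 K), v.valuation K ((x : Kˣ) : K) = 1 := by
    intro v
    by_cases hv : v ∈ S
    · have h1 := congrFun hx ⟨v, hv⟩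
      rw [cfh_ord_apply] at h1
      have h2 : v.valuationOfNeZero (x : Kˣ) = 1 := h1
      rw [← v.valuationOfNeZero_eq, h2]; rfl
    · exact x.2 v (by simpa using hv)
  have hval' : ∀ v : HeightOneSpectrum (𝓞 K), v.valuation K (((x : Kˣ)⁻¹ : Kˣ) : K) = 1 := by
    intro v
    rw [Units.val_inv_eq_inv_val, map_inv₀, hval v, inv_one]
  obtain ⟨a, ha⟩ := HeightOneSpectrum.mem_integers_of_valuation_le_one K ((x : Kˣ) : K)
    (fun v => (hval v).le)
  obtain ⟨b, hb⟩ := HeightOneSpectrum.mem_integers_of_valuation_le_one K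
    (((x : Kˣ)⁻¹ : Kˣ) : K) (fun v => (hval' v).le)
  have hinj := FaithfulSMul.algebraMap_injective (𝓞 K) K
  have hab : a * b = 1 := by
    apply hinj
    rw [map_mul, map_one]
    erw [ha, hb]
    exact Units.mul_inv _
  refine ⟨⟨a, b, hab, by rw [mul_comm]; exact hab⟩, ?_⟩
  apply Subtype.ext
  apply Units.ext
  exact ha

theorem cfh_ord_unitsToSUnit (u : (𝓞 K)ˣ) :
    cfh_ord K S (Additive.ofMul (cfh_unitsToSUnit K S u)) = 0 := by
  funext v
  rw [cfh_ord_apply]
  have := v.1.valuation_of_unit_eq (K := K) u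
  change Multiplicative.toAdd (v.1.valuationOfNeZero
    (Units.map (algebraMap (𝓞 K) K : 𝓞 K →* K) u)) = 0
  rw [this]; rfl

omit S in
/-- a generator of a power of the prime `v`: an element of `Kˣ` which is a unit at all primes
`w ≠ v` and not a unit at `v`. -/
theorem cfh_exists_gen (v : HeightOneSpectrum (𝓞 K)) :
    ∃ a : Kˣ, (∀ w : HeightOneSpectrum (𝓞 K), w ≠ v → w.valuationOfNeZero a = 1) ∧
      v.valuationOfNeZero a ≠ 1 := by
  classical
  set h := Fintype.card (ClassGroup (𝓞 K)) with hh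
  have hpos : 0 < h := Fintype.card_pos
  have hv0 : v.asIdeal ∈ nonZeroDivisors (Ideal (𝓞 K)) :=
    mem_nonZeroDivisors_of_ne_zero v.ne_bot
  have hvh : v.asIdeal ^ h ∈ nonZeroDivisors (Ideal (𝓞 K)) := pow_mem hv0 h
  have hprinc : (v.asIdeal ^ h).IsPrincipal := by
    rw [← ClassGroup.mk0_eq_one_iff hvh]
    have : (⟨v.asIdeal ^ h, hvh⟩ : nonZeroDivisors (Ideal (𝓞 K))) = ⟨v.asIdeal, hv0⟩ ^ h := rfl
    rw [this, map_pow, hh]
    exact pow_card_eq_one
  obtain ⟨α, hα⟩ := hprinc.principal
  have hα' : v.asIdeal ^ h = Ideal.span {α} := hα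
  have hα0 : α ≠ 0 := by
    rintro rfl
    rw [Ideal.span_singleton_eq_bot.mpr rfl] at hα'
    exact (pow_ne_zero h v.ne_bot) hα'
  have hαK : algebraMap (𝓞 K) K α ≠ 0 :=
    (map_ne_zero_iff _ (FaithfulSMul.algebraMap_injective (𝓞 K) K)).mpr hα0
  have hαmem : α ∈ v.asIdeal ^ h := by rw [hα']; exact Ideal.mem_span_singleton_self α
  refine ⟨Units.mk0 _ hαK, ?_, ?_⟩
  · intro w hw
    rw [← WithZero.coe_inj, w.valuationOfNeZero_eq, Units.val_mk0,
      HeightOneSpectrum.valuation_of_algebraMap, WithZero.coe_one]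
    refine le_antisymm (w.intValuation_le_one α) (not_lt.mp ?_)
    rw [HeightOneSpectrum.intValuation_lt_one_iff_mem]
    intro hαw
    apply hw
    have hle : v.asIdeal ^ h ≤ w.asIdeal := by
      rw [hα', Ideal.span_singleton_le_iff_mem]; exact hαw
    have hle' : v.asIdeal ≤ w.asIdeal := w.isPrime.le_of_pow_le hle
    exact HeightOneSpectrum.ext (v.isMaximal.eq_of_le w.isPrime.ne_top hle').symm
  · intro h1
    have h2 : v.valuation K (algebraMap (𝓞 K) K α) = 1 := by
      have := v.valuationOfNeZero_eq (K := K) (Units.mk0 _ hαK)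
      rw [h1, Units.val_mk0, WithZero.coe_one] at this
      exact this.symm
    rw [HeightOneSpectrum.valuation_of_algebraMap] at h2
    have h3 : v.intValuation α < 1 := by
      rw [HeightOneSpectrum.intValuation_lt_one_iff_mem]
      exact Ideal.pow_le_self hpos.ne' hαmem
    exact h3.ne h2

open scoped Classical in
/-- for every `v ∈ S` some nonzero multiple of the basis vector `e_v` is in the range of `ord` -/
theorem cfh_exists_smul_single_mem_range (v : S) :
    ∃ c : ℤ, c ≠ 0 ∧ c • (Pi.single v (1 : ℤ) : S → ℤ) ∈ (cfh_ord K S).range := by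
  classical
  obtain ⟨a, ha1, ha2⟩ := cfh_exists_gen K v.1
  have haS : a ∈ cfh_SUnit K S := by
    intro w hw
    have hwv : w ≠ v.1 := by
      rintro rfl
      exact hw v.2
    rw [← w.valuationOfNeZero_eq, ha1 w hwv]; rfl
  refine ⟨Multiplicative.toAdd (v.1.valuationOfNeZero a), fun h0 => ha2 h0, ?_⟩
  refine ⟨Additive.ofMul ⟨a, haS⟩, ?_⟩
  funext w
  rw [cfh_ord_apply, Pi.smul_apply, smul_eq_mul]
  by_cases hwv : w = v
  · subst hwv
    rw [Pi.single_eq_same, mul_one]
  · rw [Pi.single_eq_of_ne hwv, mul_zero]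
    have : w.1 ≠ v.1 := fun h => hwv (Subtype.ext h)
    rw [ha1 w.1 this]; rfl

/-- some nonzero multiple of `ℤ^S` is contained in the range of `ord` -/
theorem cfh_exists_smul_mem_range :
    ∃ n : ℕ, n ≠ 0 ∧ ∀ x : S → ℤ, n • x ∈ (cfh_ord K S).range := by
  classical
  choose c hc0 hc using cfh_exists_smul_single_mem_range K S
  set N : ℤ := ∏ v, c v with hN
  have hN0 : N ≠ 0 := Finset.prod_ne_zero_iff.mpr fun v _ => hc0 v
  have hsingle : ∀ v : S, N • (Pi.single v (1 : ℤ) : S → ℤ) ∈ (cfh_ord K S).range := by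
    intro v
    have : N = (∏ w ∈ Finset.univ.erase v, c w) * c v := by
      rw [hN, Finset.prod_erase_mul _ _ (Finset.mem_univ v)]
    rw [this, mul_smul]
    exact AddSubgroup.zsmul_mem _ (hc v) _
  refine ⟨N.natAbs, Int.natAbs_ne_zero.mpr hN0, fun x => ?_⟩
  have hx : x = ∑ v, x v • (Pi.single v (1 : ℤ) : S → ℤ) := by
    funext w
    simp [Finset.sum_apply, Pi.single_apply]
  have hNx : N • x ∈ (cfh_ord K S).range := by
    rw [hx, Finset.smul_sum]
    refine AddSubgroup.sum_mem _ fun v _ => ?_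
    rw [smul_comm]
    exact AddSubgroup.zsmul_mem _ (hsingle v) _
  rw [← natCast_zsmul]
  rcases Int.natAbs_eq N with h | h
  · rw [← h]; exact hNx
  · have : ((N.natAbs : ℤ)) = -N := by omega
    rw [this, neg_smul]
    exact AddSubgroup.neg_mem _ hNx

/-- the kernel of `ord` is the image of the units of `𝓞 K` -/
theorem cfh_ker_ord :
    (cfh_ord K S).ker = (MonoidHom.toAdditive (cfh_unitsToSUnit K S)).range := by
  ext x
  rw [AddMonoidHom.mem_ker, AddMonoidHom.mem_range]
  constructor
  · intro hx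
    obtain ⟨u, hu⟩ := cfh_exists_unit_of_ord_eq_zero K S (Additive.toMul x) hx
    exact ⟨Additive.ofMul u, congrArg Additive.ofMul hu⟩
  · rintro ⟨u, rfl⟩
    exact cfh_ord_unitsToSUnit K S (Additive.toMul u)

/-- **Dirichlet's `S`-unit theorem**, finite generation. -/
instance cfh_sUnit_finite : Module.Finite ℤ (Additive (cfh_SUnit K S)) := by
  set g : Additive (cfh_SUnit K S) →ₗ[ℤ] (S → ℤ) := (cfh_ord K S).toIntLinearMap with hg
  -- the kernel is a quotient of the units of `𝓞 K`
  have hker : Module.Finite ℤ (LinearMap.ker g) := by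
    let ι : Additive (𝓞 K)ˣ →ₗ[ℤ] Additive (cfh_SUnit K S) :=
      (MonoidHom.toAdditive (cfh_unitsToSUnit K S)).toIntLinearMap
    have hι : LinearMap.range ι = LinearMap.ker g := by
      ext x
      have h1 : x ∈ LinearMap.ker g ↔ x ∈ (cfh_ord K S).ker := Iff.rfl
      rw [h1, cfh_ker_ord]
      rfl
    rw [← hι]
    exact Module.Finite.range ι
  have hquot : Module.Finite ℤ (Additive (cfh_SUnit K S) ⧸ LinearMap.ker g) :=
    Module.Finite.equiv g.quotKerEquivRange.symm
  exact Module.Finite.of_submodule_quotient (LinearMap.ker g)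

/-- **Dirichlet's `S`-unit theorem**: the rank of the group of `S`-units is
`(#infinite places - 1) + #S`. -/
theorem cfh_sUnit_finrank :
    Module.finrank ℤ (Additive (cfh_SUnit K S)) = NumberField.Units.rank K + S.card := by
  classical
  set g : Additive (cfh_SUnit K S) →ₗ[ℤ] (S → ℤ) := (cfh_ord K S).toIntLinearMap with hg
  have hrn := cfa_finrank_range_add_ker g
  -- the kernel
  have hker : Module.finrank ℤ (LinearMap.ker g) = NumberField.Units.rank K := by
    let ι : Additive (𝓞 K)ˣ →ₗ[ℤ] Additive (cfh_SUnit K S) :=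
      (MonoidHom.toAdditive (cfh_unitsToSUnit K S)).toIntLinearMap
    have hιinj : Function.Injective ι := cfh_unitsToSUnit_injective K S
    have hι : LinearMap.range ι = LinearMap.ker g := by
      ext x
      have h1 : x ∈ LinearMap.ker g ↔ x ∈ (cfh_ord K S).ker := Iff.rfl
      rw [h1, cfh_ker_ord]
      rfl
    rw [← hι, ← (LinearEquiv.ofInjective ι hιinj).finrank_eq, NumberField.Units.finrank_eq]
  -- the range
  have hrange : Module.finrank ℤ (LinearMap.range g) = S.card := by
    obtain ⟨n, hn0, hn⟩ := cfh_exists_smul_mem_range K S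
    have h1 := cfa_finrank_eq_of_nsmul_mem (A := S → ℤ) (S := (cfh_ord K S).range) (T := ⊤)
      le_top hn0 (fun x _ => hn x)
    have h2 : Module.finrank ℤ (LinearMap.range g) = Module.finrank ℤ (cfh_ord K S).range := rfl
    have h3 : Module.finrank ℤ (⊤ : AddSubgroup (S → ℤ)) = Module.finrank ℤ (S → ℤ) :=
      (LinearEquiv.ofTop (⊤ : Submodule ℤ (S → ℤ)) rfl).finrank_eq
    rw [h2, h1, h3, Module.finrank_fintype_fun_eq_card, Fintype.card_coe]
  rw [← hrn, hker, hrange, add_comm]

end Ord

end Fermat.Agent.Lib.PT
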