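/-
S55 long-haul, K1: the index of the `p`-th powers in the group of `S`-units.
* `ptk_index_range_nsmul`: for a finitely generated abelian group `A`,
  `[A : pA] = p ^ rank A * #A[p]`;
* `ptk_sUnit_relIndex_pows`: if `ζ_p ∈ K`, then `[K_S : K_S ∩ Kˣᵖ] = p ^ (rank 𝓞_Kˣ + #S + 1)`.
-/
import Fermat.Agent.Lib.PT.SUnitA
import Fermat.Agent.Lib.PT.KummerCard

set_option autoImplicit false

namespace Fermat.Agent.Lib.PT

open IsDedekindDomain NumberField Fermat.Agent.Lib.CFT Module

section Additive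

variable (A : Type*) [AddCommGroup A] [Module.Finite ℤ A]

/-- `[A : pA] = p ^ rank A * #A[p]` for a finitely generated abelian group -/
theorem ptk_index_range_nsmul {p : ℕ} (hp : p ≠ 0) :
    (nsmulAddMonoidHom (α := A) p).range.index =
      p ^ finrank ℤ A * Nat.card (nsmulAddMonoidHom (α := A) p).ker := by
  obtain ⟨k, hk0, hk⟩ := cfa_exists_kill_torsion A
  set φ : A →+ A := nsmulAddMonoidHom (α := A) p with hφ
  set H : AddSubgroup A := (nsmulAddMonoidHom (α := A) k).range with hH
  have hHφ : H.map φ ≤ H := by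
    rintro _ ⟨_, ⟨y, rfl⟩, rfl⟩
    refine ⟨p • y, ?_⟩
    show k • (p • y) = p • (k • y)
    exact smul_comm _ _ _
  have hfin : H.index ≠ 0 := cfa_index_nsmul_ne_zero A hk0.ne'
  have htf : ∀ x ∈ H, ∀ n : ℕ, n ≠ 0 → n • x = 0 → x = 0 := by
    rintro _ ⟨y, rfl⟩ n hn h
    show k • y = 0
    have h' : (n * k) • y = 0 := by rw [mul_nsmul']; exact h
    exact hk y (n * k) (Nat.mul_ne_zero hn hk0.ne') h'
  have : Module.IsTorsionFree ℤ ↥H.toIntSubmodule := cfa_isTorsionFree H htf
  have r1 : (H.map φ).relIndex H = p ^ finrank ℤ H := AddSubgroup.relIndex_map_nsmul p H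
  have r2 : finrank ℤ H = finrank ℤ A := by
    have h1 := cfa_finrank_eq_of_nsmul_mem (A := A) (S := H) (T := ⊤) le_top hk0.ne'
      (fun x _ => ⟨x, rfl⟩)
    have h3 : finrank ℤ (⊤ : AddSubgroup A) = finrank ℤ A :=
      (LinearEquiv.ofTop (⊤ : Submodule ℤ A) rfl).finrank_eq
    rw [h1, h3]
  have hbot : φ.ker ⊓ H = ⊥ := by
    rw [eq_bot_iff]
    rintro x ⟨hx1, hx2⟩
    have hx1' : p • x = 0 := hx1
    exact htf x hx2 p hp hx1'
  -- the index identity
  have h0 := cfa_relIndex_eq_map_mul_ker φ (le_top : H ≤ ⊤)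
  rw [AddSubgroup.relIndex_top_right, ← AddMonoidHom.range_eq_map, inf_top_eq, hbot,
    AddSubgroup.relIndex_bot_left] at h0
  have h1 : (H.map φ).relIndex H * H.index = (H.map φ).index :=
    AddSubgroup.relIndex_mul_index hHφ
  have h2 : (H.map φ).relIndex φ.range * φ.range.index = (H.map φ).index :=
    AddSubgroup.relIndex_mul_index (by
      rw [AddMonoidHom.range_eq_map]; exact AddSubgroup.map_mono le_top)
  have hne : (H.map φ).relIndex φ.range ≠ 0 := by
    intro h
    rw [h, zero_mul] at h0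
    exact hfin h0
  apply Nat.eq_of_mul_eq_mul_left (Nat.pos_of_ne_zero hne)
  rw [h2, ← h1, h0, r1, r2]
  ring

end Additive

section SUnit

variable (K : Type*) [Field K] [NumberField K]
variable (S : Finset (HeightOneSpectrum (𝓞 K)))

/-- an element whose `p`-th power is an `S`-unit is an `S`-unit -/
theorem ptk_mem_sUnit_of_pow_mem {p : ℕ} (hp : p ≠ 0) {x : Kˣ} (hx : x ^ p ∈ cfh_SUnit K S) :
    x ∈ cfh_SUnit K S := by
  intro v hv
  have h1 := hx v hv
  have h2 : (v.valuation K ((x : Kˣ) : K)) ^ p = 1 := by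
    have : v.valuation K (((x ^ p : Kˣ) : Kˣ) : K) = 1 := h1
    rwa [Units.val_pow_eq_pow_val, map_pow] at this
  exact (pow_eq_one_iff_left hp).mp h2

/-- **the `p`-rank of the `S`-units**: `[K_S : K_S ∩ Kˣᵖ] = p ^ (rank + #S + 1)` if `ζ_p ∈ K` -/
theorem ptk_sUnit_relIndex_pows {p : ℕ} [hp : Fact p.Prime] {ζ : K} (hζ : IsPrimitiveRoot ζ p) :
    (ptk_pows K p).relIndex (cfh_SUnit K S) = p ^ (NumberField.Units.rank K + S.card + 1) := by
  have hp0 : p ≠ 0 := hp.out.ne_zero
  set B := cfh_SUnit K S with hB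
  -- step 1: the relative index is the index of the `p`-th powers of `B`
  have e1 : (ptk_pows K p).subgroupOf B = (powMonoidHom p : B →* B).range := by
    ext x
    rw [Subgroup.mem_subgroupOf, MonoidHom.mem_range, MonoidHom.mem_range]
    constructor
    · rintro ⟨y, hy⟩
      have hyB : y ∈ B := ptk_mem_sUnit_of_pow_mem K S hp0 (by
        rw [powMonoidHom_apply] at hy; rw [hy]; exact x.2)
      exact ⟨⟨y, hyB⟩, Subtype.ext hy⟩
    · rintro ⟨y, hy⟩
      exact ⟨(y : Kˣ), congrArg Subtype.val hy⟩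
  have e2 : (powMonoidHom p : B →* B).range.index =
      (nsmulAddMonoidHom (α := Additive B) p).range.index := by
    rw [← Subgroup.index_toAddSubgroup]
    congr 1
  -- step 2: the `p`-torsion
  have e3 : Nat.card (nsmulAddMonoidHom (α := Additive B) p).ker = p := by
    have hcard : Nat.card ↥(rootsOfUnity p K) = p := hζ.card_rootsOfUnity
    refine Eq.trans (Nat.card_congr ?_) hcard
    refine
      { toFun := fun x => ⟨((Additive.toMul (x : Additive B) : B) : Kˣ), ?_⟩
        invFun := fun y => ⟨Additive.ofMul ⟨(y : Kˣ), ?_⟩, ?_⟩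
        left_inv := fun x => rfl
        right_inv := fun y => rfl }
    · rw [mem_rootsOfUnity]
      have hx : p • (x : Additive B) = 0 := x.2
      have h1 := congrArg Additive.toMul hx
      rw [toMul_nsmul, toMul_zero] at h1
      have h2 := congrArg (Subtype.val : B → Kˣ) h1
      rwa [Subgroup.coe_pow, Subgroup.coe_one] at h2
    · apply ptk_mem_sUnit_of_pow_mem K S hp0
      have := (mem_rootsOfUnity p (y : Kˣ)).mp y.2
      rw [this]
      exact B.one_mem
    · show p • (Additive.ofMul (_ : B)) = 0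
      apply Additive.toMul.injective
      apply Subtype.ext
      have := (mem_rootsOfUnity p (y : Kˣ)).mp y.2
      simpa using this
  rw [Subgroup.relIndex, e1, e2, ptk_index_range_nsmul (Additive B) hp0, e3,
    cfh_sUnit_finrank, pow_succ]

end SUnit

end Fermat.Agent.Lib.PT
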