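/-
S55 long-haul, K4: Tate's auxiliary primes for the group of `S`-units.
-/
import Fermat.Agent.Lib.PT.KummerAux
import Fermat.Agent.Lib.PT.SUnitPow

set_option autoImplicit false

namespace Fermat.Agent.Lib.PT

open IsDedekindDomain NumberField

variable {K : Type*} [Field K] [NumberField K]

/-- **Tate's auxiliary primes** for `B = K_S` (the `S`-units), `S ⊇ {v ∣ p}`, `ζ_p ∈ K`:
`#T = rank 𝓞_Kˣ + #S` primes outside `S` at which `a` is a `p`-th power and such that an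
`S`-unit which is a `p`-th power modulo all `v ∈ T` lies in `⟨a⟩ · Kˣᵖ`. -/
theorem ptk_aux_primes_sUnit {p : ℕ} [hp : Fact p.Prime] {ζ : K} (hζ : IsPrimitiveRoot ζ p)
    (S : Finset (HeightOneSpectrum (𝓞 K)))
    (hSp : ∀ v : HeightOneSpectrum (𝓞 K), (p : 𝓞 K) ∈ v.asIdeal → v ∈ S)
    {a : Kˣ} (haS : a ∈ cfh_SUnit K S) (ha : a ∉ ptk_pows K p) :
    ∃ T : Finset (HeightOneSpectrum (𝓞 K)), Disjoint T S ∧
      T.card = NumberField.Units.rank K + S.card ∧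
      (∀ v ∈ T, ptk_PowMod p v (a : K)) ∧
      ∀ ε ∈ cfh_SUnit K S, (∀ v ∈ T, ptk_PowMod p v (ε : K)) →
        ∃ (j : ℕ) (c : Kˣ), ε = a ^ j * c ^ p := by
  obtain ⟨T, hTS, hcard, h1, h2⟩ := ptk_aux_primes hζ (cfh_SUnit K S)
    (ptk_sUnit_relIndex_pows K S hζ) S hSp
    (fun v hv b hb => hb v (by simpa using hv)) haS ha
  exact ⟨T, hTS, by omega, h1, h2⟩

end Fermat.Agent.Lib.PT
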