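/-
S55 long-haul, K4: index of a subgroup cut out by finitely many local conditions.
`U ≤ J`, local evaluations `ev i : J →* G i` with sections `loc i`, local subgroups
`P i ≤ Q i ≤ G i` such that `ev i` maps `U` into `Q i` and `loc i` maps `Q i` into `U`.  Then
`[U : U ⊓ ⨅ i ∈ s, ev i ⁻¹ (P i)] = ∏ i ∈ s, [Q i : P i]`.
-/
import Fermat.Agent.Lib.PT.LocalPowA

set_option autoImplicit false

namespace Fermat.Agent.Lib.PT

section LocalIndex

variable {J : Type*} [CommGroup J] {ι : Type*} {G : ι → Type*}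
  [∀ i, CommGroup (G i)]

/-- the subgroup of `U` cut out by the local conditions `P i`, `i ∈ s` -/
def ptk_cut (U : Subgroup J) (ev : ∀ i, J →* G i) (P : ∀ i, Subgroup (G i)) (s : Finset ι) :
    Subgroup J where
  carrier := {f | f ∈ U ∧ ∀ i ∈ s, ev i f ∈ P i}
  one_mem' := ⟨U.one_mem, fun i _ => by rw [map_one]; exact (P i).one_mem⟩
  mul_mem' := fun {f g} hf hg => ⟨U.mul_mem hf.1 hg.1, fun i hi => by
    rw [map_mul]; exact (P i).mul_mem (hf.2 i hi) (hg.2 i hi)⟩
  inv_mem' := fun {f} hf => ⟨U.inv_mem hf.1, fun i hi => by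
    rw [map_inv]; exact (P i).inv_mem (hf.2 i hi)⟩

theorem ptk_mem_cut {U : Subgroup J} {ev : ∀ i, J →* G i} {P : ∀ i, Subgroup (G i)}
    {s : Finset ι} {f : J} : f ∈ ptk_cut U ev P s ↔ f ∈ U ∧ ∀ i ∈ s, ev i f ∈ P i := Iff.rfl

theorem ptk_cut_le (U : Subgroup J) (ev : ∀ i, J →* G i) (P : ∀ i, Subgroup (G i))
    (s : Finset ι) : ptk_cut U ev P s ≤ U := fun _ hf => hf.1

theorem ptk_cut_insert_le [DecidableEq ι] (U : Subgroup J) (ev : ∀ i, J →* G i) (P : ∀ i, Subgroup (G i))
    (s : Finset ι) (i : ι) : ptk_cut U ev P (insert i s) ≤ ptk_cut U ev P s :=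
  fun _ hf => ⟨hf.1, fun j hj => hf.2 j (Finset.mem_insert_of_mem hj)⟩

/-- **local index formula** -/
theorem ptk_relIndex_cut [DecidableEq ι] (U : Subgroup J) (ev : ∀ i, J →* G i) (loc : ∀ i, G i →* J)
    (P Q : ∀ i, Subgroup (G i)) (s : Finset ι)
    (hPQ : ∀ i ∈ s, P i ≤ Q i)
    (hQ : ∀ i ∈ s, ∀ f ∈ U, ev i f ∈ Q i)
    (hloc : ∀ i ∈ s, ∀ x ∈ Q i, loc i x ∈ U)
    (h1 : ∀ i ∈ s, ∀ x, ev i (loc i x) = x)
    (h2 : ∀ i ∈ s, ∀ j ∈ s, j ≠ i → ∀ x, ev j (loc i x) = 1) :
    (ptk_cut U ev P s).relIndex U = ∏ i ∈ s, (P i).relIndex (Q i) := by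
  induction s using Finset.induction_on with
  | empty =>
    have : ptk_cut U ev P ∅ = U := by
      ext f
      simp [ptk_mem_cut]
    rw [this, Subgroup.relIndex_self, Finset.prod_empty]
  | insert i s hi ih =>
    have ih' := ih (fun j hj => hPQ j (Finset.mem_insert_of_mem hj))
      (fun j hj => hQ j (Finset.mem_insert_of_mem hj))
      (fun j hj => hloc j (Finset.mem_insert_of_mem hj))
      (fun j hj => h1 j (Finset.mem_insert_of_mem hj))
      (fun j hj k hk => h2 j (Finset.mem_insert_of_mem hj) k (Finset.mem_insert_of_mem hk))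
    have hii : i ∈ insert i s := Finset.mem_insert_self i s
    set C := ptk_cut U ev P s with hC
    set B := ptk_cut U ev P (insert i s) with hB
    have hBC : B ≤ C := ptk_cut_insert_le U ev P s i
    -- the section lands in `C`
    have hlocC : ∀ x ∈ Q i, loc i x ∈ C := by
      intro x hx
      refine ⟨hloc i hii x hx, fun j hj => ?_⟩
      have hji : j ≠ i := fun h => hi (h ▸ hj)
      rw [h2 i hii j (Finset.mem_insert_of_mem hj) hji]
      exact (P j).one_mem
    have hmapC : C.map (ev i) = Q i := by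
      ext x
      rw [Subgroup.mem_map]
      constructor
      · rintro ⟨f, hf, rfl⟩
        exact hQ i hii f hf.1
      · intro hx
        exact ⟨loc i x, hlocC x hx, h1 i hii x⟩
    have hmapB : B.map (ev i) = P i := by
      ext x
      rw [Subgroup.mem_map]
      constructor
      · rintro ⟨f, hf, rfl⟩
        exact hf.2 i hii
      · intro hx
        have hxQ := hPQ i hii hx
        refine ⟨loc i x, ⟨(hlocC x hxQ).1, fun j hj => ?_⟩, h1 i hii x⟩
        rcases Finset.mem_insert.mp hj with rfl | hj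
        · rw [h1 j hii]; exact hx
        · exact (hlocC x hxQ).2 j hj
    have hker : (ev i).ker ⊓ B = (ev i).ker ⊓ C := by
      apply le_antisymm (inf_le_inf_left _ hBC)
      rintro f ⟨hf1, hf2⟩
      refine ⟨hf1, hf2.1, fun j hj => ?_⟩
      rcases Finset.mem_insert.mp hj with rfl | hj
      · rw [MonoidHom.mem_ker.mp hf1]; exact (P j).one_mem
      · exact hf2.2 j hj
    have hstep : B.relIndex C = (P i).relIndex (Q i) := by
      rw [cfh_relIndex_eq_map_mul_ker (ev i) hBC, hmapB, hmapC, hker, Subgroup.relIndex_self,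
        mul_one]
    rw [Finset.prod_insert hi, ← ih', ← hstep]
    exact (Subgroup.relIndex_mul_relIndex B C U hBC (ptk_cut_le U ev P s)).symm

end LocalIndex

end Fermat.Agent.Lib.PT
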