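/-
S55 long-haul, K4: ABSTRACT second inequality (Kummer case), definitions.

Abstract "idele data" over a number field `K`: a commutative group `J` (ideles), the diagonal
`diag : Kˣ →* J`, for every prime `v` of `K` a local group `G v` (`= K_vˣ`) with unit subgroup `O v`,
evaluations `ev v : J →* G v` and local inclusions `loc v : G v →* J`.
-/
import Fermat.Agent.Lib.PT.LocalIndex
import Fermat.Agent.Lib.PT.IndexLemmas
import Fermat.Agent.Lib.PT.KummerAuxS

set_option autoImplicit false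
set_option linter.unusedSectionVars false

namespace Fermat.Agent.Lib.PT

open IsDedekindDomain NumberField

section Defs

variable {K : Type*} [Field K] [NumberField K]
variable {J : Type*} [CommGroup J] (diag : Kˣ →* J)
variable (G : HeightOneSpectrum (𝓞 K) → Type*) [∀ v, CommGroup (G v)]

/-- local `p`-th powers -/
abbrev ptk_lpows (p : ℕ) (v : HeightOneSpectrum (𝓞 K)) : Subgroup (G v) :=
  (powMonoidHom p : G v →* G v).range

variable {G}
variable (O : ∀ v, Subgroup (G v)) (ev : ∀ v, J →* G v)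

/-- the `Sg`-ideles: units outside `Sg` -/
def ptk_JS (Sg : Finset (HeightOneSpectrum (𝓞 K))) : Subgroup J where
  carrier := {f | ∀ v, v ∉ Sg → ev v f ∈ O v}
  one_mem' := fun v _ => by rw [map_one]; exact (O v).one_mem
  mul_mem' := fun {f g} hf hg v hv => by
    rw [map_mul]; exact (O v).mul_mem (hf v hv) (hg v hv)
  inv_mem' := fun {f} hf v hv => by
    rw [map_inv]; exact (O v).inv_mem (hf v hv)

theorem ptk_mem_JS {Sg : Finset (HeightOneSpectrum (𝓞 K))} {f : J} :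
    f ∈ ptk_JS O ev Sg ↔ ∀ v, v ∉ Sg → ev v f ∈ O v := Iff.rfl

theorem ptk_JS_mono {Sg Sg' : Finset (HeightOneSpectrum (𝓞 K))} (h : Sg ⊆ Sg') :
    ptk_JS O ev Sg ≤ ptk_JS O ev Sg' := fun _ hf v hv => hf v (fun hv' => hv (h hv'))

/-- an idele which at every place is a `p`-th power, or sits at a place where `b` is a local
`p`-th power, or is a unit at a place prime to `p` where `b` is a unit: such ideles are norms
from `K(b^{1/p})`. -/
def ptk_LocNormLike (p : ℕ) (b : Kˣ) (f : J) : Prop :=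
  ∀ v : HeightOneSpectrum (𝓞 K), ev v f ∈ ptk_lpows G p v ∨ ev v (diag b) ∈ ptk_lpows G p v ∨
    ((p : 𝓞 K) ∉ v.asIdeal ∧ v.valuation K (b : K) = 1 ∧ ev v f ∈ O v)

/-- the local axioms of the abstract idele data -/
structure ptk_PlaceAxioms (p : ℕ) (loc : ∀ v, G v →* J) : Prop where
  ev_loc : ∀ v x, ev v (loc v x) = x
  ev_loc_ne : ∀ v w, w ≠ v → ∀ x, ev w (loc v x) = 1
  diag_inj : Function.Injective diag
  unit_iff : ∀ v (x : Kˣ), ev v (diag x) ∈ O v ↔ v.valuation K (x : K) = 1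
  hensel : ∀ v, (p : 𝓞 K) ∉ v.asIdeal → ∀ x : Kˣ, v.valuation K (x : K) = 1 →
    (ptk_PowMod p v (x : K) ↔ ev v (diag x) ∈ ptk_lpows G p v)
  unit_index : ∀ v, (p : 𝓞 K) ∉ v.asIdeal → (ptk_lpows G p v ⊓ O v).relIndex (O v) ∣ p

variable {diag O ev}

theorem ptk_diag_mem_JS_iff {p : ℕ} {loc : ∀ v, G v →* J} (hax : ptk_PlaceAxioms diag O ev p loc)
    (Sg : Finset (HeightOneSpectrum (𝓞 K))) (x : Kˣ) :
    diag x ∈ ptk_JS O ev Sg ↔ x ∈ cfh_SUnit K Sg := by
  constructor
  · intro h v hv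
    exact (hax.unit_iff v x).mp (h v (by simpa using hv))
  · intro h v hv
    exact (hax.unit_iff v x).mpr (h v (by simpa using hv))

theorem ptk_range_inf_JS {p : ℕ} {loc : ∀ v, G v →* J} (hax : ptk_PlaceAxioms diag O ev p loc)
    (Sg : Finset (HeightOneSpectrum (𝓞 K))) :
    diag.range ⊓ ptk_JS O ev Sg = (cfh_SUnit K Sg).map diag := by
  ext f
  rw [Subgroup.mem_inf, Subgroup.mem_map]
  constructor
  · rintro ⟨⟨x, rfl⟩, hx⟩
    exact ⟨x, (ptk_diag_mem_JS_iff hax Sg x).mp hx, rfl⟩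
  · rintro ⟨x, hx, rfl⟩
    exact ⟨⟨x, rfl⟩, (ptk_diag_mem_JS_iff hax Sg x).mpr hx⟩

theorem ptk_loc_mem_JS_of_mem {p : ℕ} {loc : ∀ v, G v →* J}
    (hax : ptk_PlaceAxioms diag O ev p loc) (Sg : Finset (HeightOneSpectrum (𝓞 K)))
    {v : HeightOneSpectrum (𝓞 K)} (hv : v ∈ Sg) (x : G v) : loc v x ∈ ptk_JS O ev Sg := by
  intro w hw
  have hwv : w ≠ v := fun h => hw (h ▸ hv)
  rw [hax.ev_loc_ne v w hwv]
  exact (O w).one_mem

theorem ptk_loc_mem_JS_of_unit {p : ℕ} {loc : ∀ v, G v →* J}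
    (hax : ptk_PlaceAxioms diag O ev p loc) (Sg : Finset (HeightOneSpectrum (𝓞 K)))
    {v : HeightOneSpectrum (𝓞 K)} {x : G v} (hx : x ∈ O v) : loc v x ∈ ptk_JS O ev Sg := by
  intro w _
  by_cases hwv : w = v
  · subst hwv
    rw [hax.ev_loc]
    exact hx
  · rw [hax.ev_loc_ne v w hwv]
    exact (O w).one_mem

end Defs

section Zpowers

variable {G : Type*} [CommGroup G]

/-- `[⟨a⟩ : ⟨a⟩ ∩ P] = p` if `a ∉ P`, `a ^ p ∈ P` -/
theorem ptk_relIndex_zpowers (P : Subgroup G) {a : G} {p : ℕ} [hp : Fact p.Prime]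
    (ha : a ∉ P) (hap : a ^ p ∈ P) : P.relIndex (Subgroup.zpowers a) = p := by
  set f : ↥(Subgroup.zpowers a) →* G ⧸ P :=
    (QuotientGroup.mk' P).comp (Subgroup.zpowers a).subtype with hf
  have hker : f.ker = P.subgroupOf (Subgroup.zpowers a) := by
    ext x
    rw [MonoidHom.mem_ker, Subgroup.mem_subgroupOf, hf, MonoidHom.comp_apply,
      QuotientGroup.mk'_apply, QuotientGroup.eq_one_iff]
    rfl
  rw [Subgroup.relIndex, ← hker, Subgroup.index_ker]
  have hrange : f.range = Subgroup.zpowers ((QuotientGroup.mk' P) a) := by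
    rw [hf, MonoidHom.range_comp, Subgroup.range_subtype, MonoidHom.map_zpowers]
  rw [hrange, Nat.card_zpowers]
  apply orderOf_eq_prime
  · rw [← map_pow, QuotientGroup.mk'_apply, QuotientGroup.eq_one_iff]
    exact hap
  · rw [QuotientGroup.mk'_apply, Ne, QuotientGroup.eq_one_iff]
    exact ha

end Zpowers

end Fermat.Agent.Lib.PT
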