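/-
S55 long-haul, K4: ABSTRACT SECOND INEQUALITY (Kummer case), Artin–Tate / Cassels–Fröhlich VII.9.

For abstract idele data `(J, diag, G, O, ev, loc)` over a number field `K ∋ ζ_p` satisfying the
local axioms `ptk_PlaceAxioms`, a finite set `S` of primes containing the primes over `p`, with
`J = Kˣ · J_S` and `∏_{v ∈ S} [K_vˣ : K_vˣᵖ] = p ^ (2 (rank + #S + 1))`, and assuming the FIRST
inequality (in the weak form `Kˣ · N_b ≠ J`) for all Kummer extensions `K(b^{1/p})`:
the norm group `N` of `K(a^{1/p})`, `a ∈ K_S`, satisfies `[J : Kˣ · N] ∣ p`.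
-/
import Fermat.Agent.Lib.PT.SecondAbsDefs

set_option autoImplicit false
set_option linter.unusedSectionVars false

namespace Fermat.Agent.Lib.PT

open IsDedekindDomain NumberField

section Main

variable {K : Type*} [Field K] [NumberField K]
variable {J : Type*} [CommGroup J] {diag : Kˣ →* J}
variable {G : HeightOneSpectrum (𝓞 K) → Type*} [∀ v, CommGroup (G v)]
variable {O : ∀ v, Subgroup (G v)} {ev : ∀ v, J →* G v}

/-- **abstract second inequality** -/
theorem ptk_second_ineq_abs {p : ℕ} [hp : Fact p.Prime] {ζ : K} (hζ : IsPrimitiveRoot ζ p)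
    {loc : ∀ v, G v →* J} (hax : ptk_PlaceAxioms diag O ev p loc)
    (S : Finset (HeightOneSpectrum (𝓞 K)))
    (hSp : ∀ v : HeightOneSpectrum (𝓞 K), (p : 𝓞 K) ∈ v.asIdeal → v ∈ S)
    (hclass : diag.range ⊔ ptk_JS O ev S = ⊤)
    (hlocidx : ∏ v ∈ S, (ptk_lpows G p v).index =
      p ^ (2 * (NumberField.Units.rank K + S.card + 1)))
    (hfirst : ∀ b : Kˣ, b ∉ ptk_pows K p → ∃ Nb : Subgroup J, diag.range ⊔ Nb ≠ ⊤ ∧
      ∀ f, ptk_LocNormLike diag O ev p b f → f ∈ Nb)
    {a : Kˣ} (haS : a ∈ cfh_SUnit K S) (ha : a ∉ ptk_pows K p)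
    (N : Subgroup J) (hN : ∀ f, ptk_LocNormLike diag O ev p a f → f ∈ N) :
    (diag.range ⊔ N).index ∣ p := by
  classical
  have hp0 : p ≠ 0 := hp.out.ne_zero
  obtain ⟨T, hTS, hTcard, hTa, hTker⟩ := ptk_aux_primes_sUnit hζ S hSp haS ha
  set A : Subgroup J := diag.range with hA
  set s : ℕ := NumberField.Units.rank K + S.card + 1 with hs
  have hTs : T.card + 1 = s := by rw [hTcard]
  have hTnS : ∀ v ∈ T, v ∉ S := fun v hv => Finset.disjoint_left.mp hTS hv
  have hTp : ∀ v ∈ T, (p : 𝓞 K) ∉ v.asIdeal := fun v hv h => hTnS v hv (hSp v h)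
  set B : Subgroup Kˣ := cfh_SUnit K S with hB
  set P : Subgroup Kˣ := ptk_pows K p with hP
  set U : Subgroup J := ptk_JS O ev (S ∪ T) with hU
  set E : Subgroup J := ptk_cut U ev (fun v => ptk_lpows G p v) S with hE
  set JS : Subgroup J := ptk_JS O ev S with hJS
  set D : Subgroup J := ptk_cut JS ev (fun v => ptk_lpows G p v ⊓ O v) T with hD
  have hJSU : JS ≤ U := ptk_JS_mono O ev Finset.subset_union_left
  have hAU : A ⊔ U = ⊤ := eq_top_iff.mpr (hclass ▸ sup_le_sup_left hJSU A)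
  have hEU : E ≤ U := ptk_cut_le _ _ _ _
  have hDJS : D ≤ JS := ptk_cut_le _ _ _ _
  -- Step I: `[U : E] = p ^ (2 s)`
  have hUE : E.relIndex U = p ^ (2 * s) := by
    rw [hE, ptk_relIndex_cut U ev loc (fun v => ptk_lpows G p v) (fun _ => ⊤) S
      (fun _ _ => le_top) (fun _ _ _ _ => Subgroup.mem_top _)
      (fun v hv x _ => ptk_loc_mem_JS_of_mem hax (S ∪ T) (Finset.mem_union_left T hv) x)
      (fun v _ x => hax.ev_loc v x)
      (fun v _ w _ hwv x => hax.ev_loc_ne v w hwv x)]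
    simp only [Subgroup.relIndex_top_right]
    exact hlocidx
  -- `[JS : D] ∣ p ^ #T`
  have hd : D.relIndex JS ∣ p ^ T.card := by
    rw [hD, ptk_relIndex_cut JS ev loc (fun v => ptk_lpows G p v ⊓ O v) (fun v => O v) T
      (fun _ _ => inf_le_right) (fun v hv f hf => hf v (hTnS v hv))
      (fun v _ x hx => ptk_loc_mem_JS_of_unit hax S hx)
      (fun v _ x => hax.ev_loc v x)
      (fun v _ w _ hwv x => hax.ev_loc_ne v w hwv x)]
    calc ∏ v ∈ T, (ptk_lpows G p v ⊓ O v).relIndex (O v) ∣ ∏ _v ∈ T, p :=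
          Finset.prod_dvd_prod_of_dvd _ _ (fun v hv => hax.unit_index v (hTp v hv))
      _ = p ^ T.card := Finset.prod_const p
  -- the subgroup `W = ⟨a⟩ · (P ⊓ B)`
  set W : Subgroup Kˣ := Subgroup.zpowers a ⊔ (P ⊓ B) with hW
  have hZB : Subgroup.zpowers a ≤ B := Subgroup.zpowers_le.mpr haS
  have hWB : W ≤ B := sup_le hZB inf_le_right
  have hPBW : P ⊓ B ≤ W := le_sup_right
  have hapP : a ^ p ∈ P := ⟨a, rfl⟩
  have hWidx : W.relIndex B = p ^ T.card := by
    have h1 : (P ⊓ B).relIndex W = p := by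
      rw [hW, sup_comm, Subgroup.relIndex_sup_left]
      have h2 : (P ⊓ B).relIndex (Subgroup.zpowers a) = P.relIndex (Subgroup.zpowers a) := by
        rw [← Subgroup.inf_relIndex_right, inf_assoc, inf_eq_right.mpr hZB,
          Subgroup.inf_relIndex_right]
      rw [h2]
      exact ptk_relIndex_zpowers P ha hapP
    have h3 : (P ⊓ B).relIndex B = p ^ s := by
      rw [Subgroup.inf_relIndex_right]
      exact ptk_sUnit_relIndex_pows K S hζ
    have h4 := Subgroup.relIndex_mul_relIndex (P ⊓ B) W B hPBW hWB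
    rw [h1, h3, ← hTs, pow_succ, mul_comm] at h4
    exact Nat.eq_of_mul_eq_mul_right hp.out.pos h4
  -- `A ⊓ D ≤ diag W`
  have hADW : A ⊓ D ≤ W.map diag := by
    rintro f ⟨⟨ε, rfl⟩, hεD⟩
    have hεB : ε ∈ B := (ptk_diag_mem_JS_iff hax S ε).mp hεD.1
    have hpm : ∀ v ∈ T, ptk_PowMod p v (ε : K) := by
      intro v hv
      have hval : v.valuation K (ε : K) = 1 := hεB v (by simpa using hTnS v hv)
      exact (hax.hensel v (hTp v hv) ε hval).mpr (hεD.2 v hv).1
    obtain ⟨j, c, hjc⟩ := hTker ε hεB hpm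
    refine ⟨ε, ?_, rfl⟩
    rw [hjc]
    refine Subgroup.mul_mem_sup (Subgroup.pow_mem _ (Subgroup.mem_zpowers a) j) ⟨⟨c, rfl⟩, ?_⟩
    have : c ^ p = ε / a ^ j := by rw [hjc, mul_div_cancel_left]
    rw [this]
    exact B.div_mem hεB (B.pow_mem haS j)
  -- Step III': `A ⊔ D = ⊤`
  have hADtop : A ⊔ D = ⊤ := by
    have hform := ptk_index_formula A JS D hclass hDJS
    have hd0 : D.relIndex JS ≠ 0 := fun h0 => by
      rw [h0] at hd
      exact pow_ne_zero _ hp0 (Nat.eq_zero_of_zero_dvd hd)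
    have hr1 : p ^ T.card ∣ (A ⊓ D).relIndex (A ⊓ JS) := by
      rw [hJS, ptk_range_inf_JS hax S, ← hWidx,
        ← Subgroup.relIndex_map_map_of_injective W B hax.diag_inj]
      apply Subgroup.relIndex_dvd_of_le_left
      exact hADW
    have hr2 : (A ⊓ D).relIndex (A ⊓ JS) ∣ D.relIndex JS := ⟨_, by rw [← hform, mul_comm]⟩
    have heq1 : D.relIndex JS = p ^ T.card := Nat.dvd_antisymm hd (hr1.trans hr2)
    have heq2 : (A ⊓ D).relIndex (A ⊓ JS) = p ^ T.card :=
      Nat.dvd_antisymm (heq1 ▸ hr2) hr1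
    rw [heq1, heq2] at hform
    have hone : (A ⊔ D).index = 1 := by
      have hpos : 0 < p ^ T.card := pow_pos hp.out.pos _
      exact Nat.eq_of_mul_eq_mul_right hpos (by rw [hform, one_mul])
    exact Subgroup.index_eq_one.mp hone
  -- Step III (O4): `Kˣ ∩ E` consists of `p`-th powers
  have hO4 : ∀ x : Kˣ, diag x ∈ E → x ∈ P := by
    intro x hxE
    by_contra hxP
    obtain ⟨Nb, hNb, hNb'⟩ := hfirst x hxP
    apply hNb
    have hxU : x ∈ cfh_SUnit K (S ∪ T) := (ptk_diag_mem_JS_iff hax (S ∪ T) x).mp hxE.1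
    have hDN : D ≤ Nb := by
      intro f hf
      apply hNb'
      intro v
      by_cases hvS : v ∈ S
      · exact Or.inr (Or.inl (hxE.2 v hvS))
      · by_cases hvT : v ∈ T
        · exact Or.inl (hf.2 v hvT).1
        · refine Or.inr (Or.inr ⟨fun h => hvS (hSp v h), ?_, hf.1 v hvS⟩)
          exact hxU v (by simpa using (fun h : v ∈ S ∪ T =>
            (Finset.mem_union.mp h).elim hvS hvT))
    exact eq_top_iff.mpr (hADtop ▸ sup_le_sup_left hDN A)
  -- Step II: `[A ⊓ U : A ⊓ E] = p ^ (s + #T)`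
  have hAE : (A ⊓ E).relIndex (A ⊓ U) = p ^ (s + T.card) := by
    have h1 : A ⊓ U = (cfh_SUnit K (S ∪ T)).map diag := ptk_range_inf_JS hax (S ∪ T)
    have h2 : A ⊓ E = (P ⊓ cfh_SUnit K (S ∪ T)).map diag := by
      ext f
      rw [Subgroup.mem_inf, Subgroup.mem_map]
      constructor
      · rintro ⟨⟨x, rfl⟩, hxE⟩
        exact ⟨x, ⟨hO4 x hxE, (ptk_diag_mem_JS_iff hax (S ∪ T) x).mp hxE.1⟩, rfl⟩
      · rintro ⟨x, ⟨⟨y, rfl⟩, hxU⟩, rfl⟩
        refine ⟨⟨_, rfl⟩, (ptk_diag_mem_JS_iff hax (S ∪ T) _).mpr hxU, fun v _ => ?_⟩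
        exact ⟨ev v (diag y), by simp⟩
    rw [h1, h2, Subgroup.relIndex_map_map_of_injective _ _ hax.diag_inj,
      Subgroup.inf_relIndex_right, ptk_sUnit_relIndex_pows K (S ∪ T) hζ,
      Finset.card_union_of_disjoint hTS.symm]
    congr 1
    omega
  -- Step IV: `E ≤ N`
  have hEN : E ≤ N := by
    intro f hf
    apply hN
    intro v
    by_cases hvS : v ∈ S
    · exact Or.inl (hf.2 v hvS)
    · have hval : v.valuation K (a : K) = 1 := haS v (by simpa using hvS)
      by_cases hvT : v ∈ T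
      · exact Or.inr (Or.inl ((hax.hensel v (hTp v hvT) a hval).mp (hTa v hvT)))
      · refine Or.inr (Or.inr ⟨fun h => hvS (hSp v h), hval, hf.1 v ?_⟩)
        exact fun h => (Finset.mem_union.mp h).elim hvS hvT
  -- Step V: the index formula
  have hform := ptk_index_formula A U E hAU hEU
  rw [hAE, hUE] at hform
  have hidx : (A ⊔ E).index = p := by
    have h2 : 2 * s = (s + T.card) + 1 := by omega
    rw [h2, pow_succ, mul_comm] at hform
    exact Nat.eq_of_mul_eq_mul_left (pow_pos hp.out.pos _) hform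
  rw [← hidx]
  exact Subgroup.index_dvd_of_le (sup_le_sup_left hEN A)

end Main

end Fermat.Agent.Lib.PT
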