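/-
S55 (Poitou–Tate), (G8) global F3, number-theoretic counts (helper9, prefix `pti_`), part A:
ABSTRACT index computations in helper2's idele-data framework (`ptk_PlaceAxioms`).

For abstract idele data `(J, diag, G, O, ev, loc)` over a number field `K ∋ ζ_p`, finite sets of
primes `S ⊆ S'` with `J = Kˣ · J_{S'}`, `∏_{v ∈ S} [K_vˣ : K_vˣᵖ] = p ^ (2 (r + #S))`
(`r = rank + 1`) and `[K_vˣ : K_vˣᵖ O_v] = p` for `v ∈ S' \ S`:

* `pti_NT1_abs`: `[J : Kˣ · E] = p ^ (r + #S) · [Δ : Δ ∩ Kˣᵖ]`, where `E ≤ J_{S'}` is cut out by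
  "`p`-th power at `S`, `p`-th power times unit at `S' \ S`" and `Δ = Kˣ ∩ E`;
* `pti_NT3_abs`: `p ^ (r + #S) · [J : Kˣ · E₀] = [Δ₀ : Δ₀ ∩ Kˣᵖ]`, where `E₀ ≤ J_{S'}` is cut out
  by "`p`-th power times unit at `S' \ S`" and `Δ₀ = Kˣ ∩ E₀`;
* `pti_sup_E_eq`: `Kˣ · E = Kˣ · Jᵖ · U_S`;  `pti_sup_E₀_eq`: `Kˣ · E₀ = Kˣ · J_S · Jᵖ`.
-/
import Fermat.Agent.Lib.PT.SecondAbs

set_option autoImplicit false
set_option linter.unusedSectionVars false

namespace Fermat.Agent.Lib.PT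

open IsDedekindDomain NumberField

section Abs

variable {K : Type*} [Field K] [NumberField K]
variable {J : Type*} [CommGroup J] {diag : Kˣ →* J}
variable {G : HeightOneSpectrum (𝓞 K) → Type*} [∀ v, CommGroup (G v)]
variable {O : ∀ v, Subgroup (G v)} {ev : ∀ v, J →* G v}

/-- the `p`-th powers of ideles -/
abbrev pti_Jp (J : Type*) [CommGroup J] (p : ℕ) : Subgroup J := (powMonoidHom p : J →* J).range

variable (O ev) in
/-- unit ideles supported outside `S`: trivial at `S`, units outside `S` -/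
def pti_US (S : Finset (HeightOneSpectrum (𝓞 K))) : Subgroup J where
  carrier := {f | (∀ v ∈ S, ev v f = 1) ∧ ∀ v, v ∉ S → ev v f ∈ O v}
  one_mem' := ⟨fun v _ => map_one _, fun v _ => by rw [map_one]; exact (O v).one_mem⟩
  mul_mem' := fun {f g} hf hg => ⟨fun v hv => by rw [map_mul, hf.1 v hv, hg.1 v hv, one_mul],
    fun v hv => by rw [map_mul]; exact (O v).mul_mem (hf.2 v hv) (hg.2 v hv)⟩
  inv_mem' := fun {f} hf => ⟨fun v hv => by rw [map_inv, hf.1 v hv, inv_one],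
    fun v hv => by rw [map_inv]; exact (O v).inv_mem (hf.2 v hv)⟩

theorem pti_mem_US {S : Finset (HeightOneSpectrum (𝓞 K))} {f : J} :
    f ∈ pti_US O ev S ↔ (∀ v ∈ S, ev v f = 1) ∧ ∀ v, v ∉ S → ev v f ∈ O v := Iff.rfl

variable (O ev) in
/-- the subgroup `E₀ ≤ J_{S'}`: `p`-th power times unit at the places of `T` -/
def pti_Ecut₀ (p : ℕ) (S' T : Finset (HeightOneSpectrum (𝓞 K))) : Subgroup J :=
  ptk_cut (ptk_JS O ev S') ev (fun v => ptk_lpows G p v ⊔ O v) T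

variable (O ev) in
/-- the subgroup `E ≤ E₀`: moreover `p`-th power at the places of `S` -/
def pti_Ecut (p : ℕ) (S' S T : Finset (HeightOneSpectrum (𝓞 K))) : Subgroup J :=
  ptk_cut (pti_Ecut₀ O ev p S' T) ev (fun v => ptk_lpows G p v) S

theorem pti_E_le_E₀ (p : ℕ) (S' S T : Finset (HeightOneSpectrum (𝓞 K))) :
    pti_Ecut O ev p S' S T ≤ pti_Ecut₀ O ev p S' T := ptk_cut_le _ _ _ _

theorem pti_Ecut₀_le_JS (p : ℕ) (S' T : Finset (HeightOneSpectrum (𝓞 K))) :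
    pti_Ecut₀ O ev p S' T ≤ ptk_JS O ev S' := ptk_cut_le _ _ _ _

theorem pti_mem_E₀ {p : ℕ} {S' T : Finset (HeightOneSpectrum (𝓞 K))} {f : J} :
    f ∈ pti_Ecut₀ O ev p S' T ↔ f ∈ ptk_JS O ev S' ∧ ∀ v ∈ T, ev v f ∈ ptk_lpows G p v ⊔ O v :=
  Iff.rfl

theorem pti_mem_E {p : ℕ} {S' S T : Finset (HeightOneSpectrum (𝓞 K))} {f : J} :
    f ∈ pti_Ecut O ev p S' S T ↔ (f ∈ ptk_JS O ev S' ∧ ∀ v ∈ T, ev v f ∈ ptk_lpows G p v ⊔ O v) ∧
      ∀ v ∈ S, ev v f ∈ ptk_lpows G p v := Iff.rfl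

/-- evaluation of a finite product of local ideles, at a place of the index set -/
theorem pti_ev_prod_loc_mem {p : ℕ} {loc : ∀ v, G v →* J} (hax : ptk_PlaceAxioms diag O ev p loc)
    (s : Finset (HeightOneSpectrum (𝓞 K))) (x : ∀ v, G v) {w : HeightOneSpectrum (𝓞 K)}
    (hw : w ∈ s) : ev w (∏ v ∈ s, loc v (x v)) = x w := by
  rw [map_prod, Finset.prod_eq_single_of_mem w hw, hax.ev_loc]
  intro v _ hvw
  exact hax.ev_loc_ne v w (Ne.symm hvw) _

/-- evaluation of a finite product of local ideles, at a place outside the index set -/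
theorem pti_ev_prod_loc_not_mem {p : ℕ} {loc : ∀ v, G v →* J}
    (hax : ptk_PlaceAxioms diag O ev p loc)
    (s : Finset (HeightOneSpectrum (𝓞 K))) (x : ∀ v, G v) {w : HeightOneSpectrum (𝓞 K)}
    (hw : w ∉ s) : ev w (∏ v ∈ s, loc v (x v)) = 1 := by
  rw [map_prod]
  refine Finset.prod_eq_one (fun v hv => ?_)
  exact hax.ev_loc_ne v w (fun h => hw (h ▸ hv)) _

/-- `p`-th powers of ideles lie in `Kˣ · E` when `J = Kˣ · J_{S'}` -/
theorem pti_Jp_le {p : ℕ} {S' S T : Finset (HeightOneSpectrum (𝓞 K))}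
    (hclass : diag.range ⊔ ptk_JS O ev S' = ⊤) :
    pti_Jp J p ≤ diag.range ⊔ pti_Ecut O ev p S' S T := by
  rintro _ ⟨f, rfl⟩
  have hf : f ∈ diag.range ⊔ ptk_JS O ev S' := by rw [hclass]; exact Subgroup.mem_top f
  obtain ⟨a, ha, u, hu, rfl⟩ := Subgroup.mem_sup.mp hf
  show (a * u) ^ p ∈ _
  rw [mul_pow]
  refine Subgroup.mul_mem_sup (Subgroup.pow_mem _ ha p) ?_
  refine ⟨⟨Subgroup.pow_mem _ hu p, fun v _ => ?_⟩, fun v _ => ?_⟩
  · rw [map_pow]
    exact Subgroup.mem_sup_left ⟨ev v u, rfl⟩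
  · rw [map_pow]
    exact ⟨ev v u, rfl⟩

/-- dividing an idele by a `p`-th power to make it lie in prescribed local subgroups at finitely
many places -/
theorem pti_exists_div_pow {p : ℕ} {loc : ∀ v, G v →* J} (hax : ptk_PlaceAxioms diag O ev p loc)
    (s : Finset (HeightOneSpectrum (𝓞 K))) (H : ∀ v, Subgroup (G v)) (f : J)
    (hf : ∀ v ∈ s, ev v f ∈ ptk_lpows G p v ⊔ H v) :
    ∃ g : J, (∀ v ∈ s, ev v (f / g ^ p) ∈ H v) ∧ ∀ v, v ∉ s → ev v g = 1 := by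
  classical
  have hdec : ∀ v ∈ s, ∃ y : G v, ∃ z ∈ H v, y ^ p * z = ev v f := by
    intro v hv
    obtain ⟨y', ⟨y, rfl⟩, z, hz, hyz⟩ := Subgroup.mem_sup.mp (hf v hv)
    exact ⟨y, z, hz, hyz⟩
  set Y : ∀ v, G v := fun v => if h : v ∈ s then Classical.choose (hdec v h) else 1 with hY
  refine ⟨∏ v ∈ s, loc v (Y v), fun v hv => ?_, fun v hv => ?_⟩
  · rw [map_div, map_pow, pti_ev_prod_loc_mem hax s Y hv]
    obtain ⟨z, hz, hyz⟩ := Classical.choose_spec (hdec v hv)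
    have hYv : Y v = Classical.choose (hdec v hv) := by simp only [hY, dif_pos hv]
    have h3 : ev v f / (Classical.choose (hdec v hv)) ^ p = z := by
      rw [div_eq_iff_eq_mul, mul_comm]; exact hyz.symm
    rw [hYv, h3]
    exact hz
  · exact pti_ev_prod_loc_not_mem hax s Y hv

/-- `Kˣ · E₀ = Kˣ · J_S · Jᵖ` -/
theorem pti_sup_E₀_eq {p : ℕ} {loc : ∀ v, G v →* J} (hax : ptk_PlaceAxioms diag O ev p loc)
    {S' S T : Finset (HeightOneSpectrum (𝓞 K))} (hS' : ∀ v, v ∈ S' ↔ v ∈ S ∨ v ∈ T) (hdisj : ∀ v ∈ T, v ∉ S)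
    (hclass : diag.range ⊔ ptk_JS O ev S' = ⊤) :
    diag.range ⊔ pti_Ecut₀ O ev p S' T = diag.range ⊔ ptk_JS O ev S ⊔ pti_Jp J p := by
  have hSS' : S ⊆ S' := fun v hv => (hS' v).mpr (Or.inl hv)
  apply le_antisymm
  · refine sup_le (le_sup_of_le_left le_sup_left) ?_
    intro f hf
    obtain ⟨g, hg1, hg2⟩ := pti_exists_div_pow hax T (fun v => O v) f hf.2
    have h1 : f / g ^ p ∈ ptk_JS O ev S := by
      intro v hv
      by_cases hvT : v ∈ T
      · exact hg1 v hvT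
      · rw [map_div, map_pow, hg2 v hvT, one_pow, div_one]
        exact hf.1 v (fun h => ((hS' v).mp h).elim hv hvT)
    have h2 : f = (f / g ^ p) * g ^ p := by rw [div_mul_cancel]
    rw [h2]
    exact Subgroup.mul_mem_sup (Subgroup.mem_sup_right h1) ⟨g, rfl⟩
  · refine sup_le (sup_le le_sup_left ?_) ?_
    · refine le_sup_of_le_right (fun f hf => ⟨ptk_JS_mono O ev hSS' hf, fun v hv => ?_⟩)
      exact Subgroup.mem_sup_right (hf v (hdisj v hv))
    · exact (pti_Jp_le (S := S) (T := T) hclass).trans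
        (sup_le_sup_left (pti_E_le_E₀ p S' S T) _)

/-- `Kˣ · E = Kˣ · Jᵖ · U_S` -/
theorem pti_sup_E_eq {p : ℕ} {loc : ∀ v, G v →* J} (hax : ptk_PlaceAxioms diag O ev p loc)
    {S' S T : Finset (HeightOneSpectrum (𝓞 K))} (hS' : ∀ v, v ∈ S' ↔ v ∈ S ∨ v ∈ T) (hdisj : ∀ v ∈ T, v ∉ S)
    (hclass : diag.range ⊔ ptk_JS O ev S' = ⊤) :
    diag.range ⊔ pti_Ecut O ev p S' S T = diag.range ⊔ pti_Jp J p ⊔ pti_US O ev S := by
  have hSS' : S ⊆ S' := fun v hv => (hS' v).mpr (Or.inl hv)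
  apply le_antisymm
  · refine sup_le (le_sup_of_le_left le_sup_left) ?_
    intro f hf
    -- first the places of `S`
    obtain ⟨g₁, hg1, hg1'⟩ := pti_exists_div_pow hax S (fun _ => ⊥) f
      (fun v hv => Subgroup.mem_sup_left (hf.2 v hv))
    -- then the places of `T`
    obtain ⟨g₂, hg2, hg2'⟩ := pti_exists_div_pow hax T (fun v => O v) (f / g₁ ^ p)
      (fun v hv => by
        rw [map_div, map_pow, hg1' v (hdisj v hv), one_pow, div_one]
        exact hf.1.2 v hv)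
    have h1 : f / g₁ ^ p / g₂ ^ p ∈ pti_US O ev S := by
      refine ⟨fun v hv => ?_, fun v hv => ?_⟩
      · have := hg1 v hv
        rw [Subgroup.mem_bot] at this
        rw [map_div, this, map_pow, hg2' v (fun h => hdisj v h hv), one_pow, div_one]
      · by_cases hvT : v ∈ T
        · exact hg2 v hvT
        · rw [map_div, map_div, map_pow, map_pow, hg1' v hv, hg2' v hvT, one_pow, div_one,
            div_one]
          exact hf.1.1 v (fun h => ((hS' v).mp h).elim hv hvT)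
    have h2 : f = (g₁ * g₂) ^ p * (f / g₁ ^ p / g₂ ^ p) := by
      rw [mul_pow, div_div, mul_div_cancel]
    rw [h2]
    exact Subgroup.mul_mem_sup (Subgroup.mem_sup_right ⟨g₁ * g₂, rfl⟩) h1
  · refine sup_le (sup_le le_sup_left (pti_Jp_le hclass)) ?_
    refine le_sup_of_le_right (fun f hf => ⟨⟨fun v hv => ?_, fun v hv => ?_⟩, fun v hv => ?_⟩)
    · exact hf.2 v (fun h => hv (hSS' h))
    · exact Subgroup.mem_sup_right (hf.2 v (hdisj v hv))
    · rw [hf.1 v hv]; exact Subgroup.one_mem _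

/-- the core of the index computations: for `E' ≤ J_{S'}` containing the `p`-th powers of
`S'`-units, `[J : Kˣ E'] · p ^ (rank + #S' + 1) = [J_{S'} : E'] · [Δ' : Δ' ∩ Kˣᵖ]`,
`Δ' = Kˣ ∩ E'`. -/
theorem pti_index_core {p : ℕ} [hp : Fact p.Prime] {ζ : K} (hζ : IsPrimitiveRoot ζ p)
    {loc : ∀ v, G v →* J} (hax : ptk_PlaceAxioms diag O ev p loc)
    (S' : Finset (HeightOneSpectrum (𝓞 K)))
    (hclass : diag.range ⊔ ptk_JS O ev S' = ⊤)
    (E' : Subgroup J) (hE'U : E' ≤ ptk_JS O ev S')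
    (hpow : ∀ c : Kˣ, c ^ p ∈ cfh_SUnit K S' → diag (c ^ p) ∈ E') :
    (diag.range ⊔ E').index * p ^ (NumberField.Units.rank K + S'.card + 1) =
      E'.relIndex (ptk_JS O ev S') * (ptk_pows K p).relIndex (E'.comap diag) := by
  set A : Subgroup J := diag.range with hA
  set U : Subgroup J := ptk_JS O ev S' with hU
  set Sg' : Subgroup Kˣ := cfh_SUnit K S' with hSg
  set P : Subgroup Kˣ := ptk_pows K p with hP
  set Δ : Subgroup Kˣ := E'.comap diag with hΔ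
  have hform := ptk_index_formula A U E' hclass hE'U
  have hAU : A ⊓ U = Sg'.map diag := ptk_range_inf_JS hax S'
  have hAE : A ⊓ E' = Δ.map diag := by
    rw [hΔ, Subgroup.map_comap_eq]
  have hΔle : Δ ≤ Sg' := by
    intro x hx
    exact (ptk_diag_mem_JS_iff hax S' x).mp (hE'U hx)
  have hPΔ : P ⊓ Sg' ≤ Δ := by
    rintro x ⟨⟨c, rfl⟩, hx⟩
    exact hpow c hx
  rw [hAU, hAE, Subgroup.relIndex_map_map_of_injective _ _ hax.diag_inj] at hform
  have h1 : (P ⊓ Sg').relIndex Δ * Δ.relIndex Sg' = (P ⊓ Sg').relIndex Sg' :=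
    Subgroup.relIndex_mul_relIndex _ _ _ hPΔ hΔle
  have h2 : (P ⊓ Sg').relIndex Sg' = p ^ (NumberField.Units.rank K + S'.card + 1) := by
    rw [Subgroup.inf_relIndex_right]
    exact ptk_sUnit_relIndex_pows K S' hζ
  have h3 : (P ⊓ Sg').relIndex Δ = P.relIndex Δ := by
    rw [← Subgroup.inf_relIndex_right (P ⊓ Sg') Δ, inf_assoc, inf_eq_right.mpr hΔle,
      Subgroup.inf_relIndex_right]
  rw [← h2, ← h1, h3, ← hform]
  ring

/-- **(NT3), abstract**: `p ^ (rank + #S + 1) · [J : Kˣ · E₀] = [Δ₀ : Δ₀ ∩ Kˣᵖ]`,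
`Δ₀ = Kˣ ∩ E₀`. -/
theorem pti_NT3_abs {p : ℕ} [hp : Fact p.Prime] {ζ : K} (hζ : IsPrimitiveRoot ζ p)
    {loc : ∀ v, G v →* J} (hax : ptk_PlaceAxioms diag O ev p loc)
    {S' S T : Finset (HeightOneSpectrum (𝓞 K))} (hS' : ∀ v, v ∈ S' ↔ v ∈ S ∨ v ∈ T)
    (hcard : S'.card = S.card + T.card)
    (hclass : diag.range ⊔ ptk_JS O ev S' = ⊤)
    (hvalidx : ∀ v ∈ T, (ptk_lpows G p v ⊔ O v).index = p) :
    p ^ (NumberField.Units.rank K + S.card + 1) * (diag.range ⊔ pti_Ecut₀ O ev p S' T).index =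
      (ptk_pows K p).relIndex ((pti_Ecut₀ O ev p S' T).comap diag) := by
  classical
  have hp0 : 0 < p := hp.out.pos
  have hidx : (pti_Ecut₀ O ev p S' T).relIndex (ptk_JS O ev S') = p ^ T.card := by
    rw [pti_Ecut₀, ptk_relIndex_cut (ptk_JS O ev S') ev loc (fun v => ptk_lpows G p v ⊔ O v)
      (fun _ => ⊤) T (fun _ _ => le_top) (fun _ _ _ _ => Subgroup.mem_top _)
      (fun v hv x _ => ptk_loc_mem_JS_of_mem hax S' ((hS' v).mpr (Or.inr hv)) x)
      (fun v _ x => hax.ev_loc v x)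
      (fun v _ w _ hwv x => hax.ev_loc_ne v w hwv x)]
    simp only [Subgroup.relIndex_top_right]
    rw [Finset.prod_congr rfl hvalidx, Finset.prod_const]
  have hcore := pti_index_core hζ hax S' hclass (pti_Ecut₀ O ev p S' T) (pti_Ecut₀_le_JS p S' T)
    (fun c hc => ⟨(ptk_diag_mem_JS_iff hax S' _).mpr hc, fun v _ => by
      rw [map_pow, map_pow]
      exact Subgroup.mem_sup_left ⟨ev v (diag c), rfl⟩⟩)
  rw [hidx, hcard] at hcore
  have h4 : p ^ (NumberField.Units.rank K + (S.card + T.card) + 1) =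
      p ^ T.card * p ^ (NumberField.Units.rank K + S.card + 1) := by
    rw [← pow_add]; congr 1; omega
  rw [h4] at hcore
  have h5 : p ^ T.card * (p ^ (NumberField.Units.rank K + S.card + 1) *
      (diag.range ⊔ pti_Ecut₀ O ev p S' T).index) =
      p ^ T.card * (ptk_pows K p).relIndex ((pti_Ecut₀ O ev p S' T).comap diag) := by
    rw [← hcore]; ring
  exact Nat.eq_of_mul_eq_mul_left (pow_pos hp0 _) h5

/-- **(NT1), abstract**: `[J : Kˣ · E] = p ^ (rank + #S + 1) · [Δ : Δ ∩ Kˣᵖ]`, `Δ = Kˣ ∩ E`. -/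
theorem pti_NT1_abs {p : ℕ} [hp : Fact p.Prime] {ζ : K} (hζ : IsPrimitiveRoot ζ p)
    {loc : ∀ v, G v →* J} (hax : ptk_PlaceAxioms diag O ev p loc)
    {S' S T : Finset (HeightOneSpectrum (𝓞 K))} (hS' : ∀ v, v ∈ S' ↔ v ∈ S ∨ v ∈ T)
    (hdisj : ∀ v ∈ T, v ∉ S) (hcard : S'.card = S.card + T.card)
    (hclass : diag.range ⊔ ptk_JS O ev S' = ⊤)
    (hlocidx : ∏ v ∈ S, (ptk_lpows G p v).index =
      p ^ (2 * (NumberField.Units.rank K + S.card + 1)))
    (hvalidx : ∀ v ∈ T, (ptk_lpows G p v ⊔ O v).index = p) :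
    (diag.range ⊔ pti_Ecut O ev p S' S T).index =
      p ^ (NumberField.Units.rank K + S.card + 1) *
        (ptk_pows K p).relIndex ((pti_Ecut O ev p S' S T).comap diag) := by
  classical
  have hp0 : 0 < p := hp.out.pos
  have hidx₀ : (pti_Ecut₀ O ev p S' T).relIndex (ptk_JS O ev S') = p ^ T.card := by
    rw [pti_Ecut₀, ptk_relIndex_cut (ptk_JS O ev S') ev loc (fun v => ptk_lpows G p v ⊔ O v)
      (fun _ => ⊤) T (fun _ _ => le_top) (fun _ _ _ _ => Subgroup.mem_top _)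
      (fun v hv x _ => ptk_loc_mem_JS_of_mem hax S' ((hS' v).mpr (Or.inr hv)) x)
      (fun v _ x => hax.ev_loc v x)
      (fun v _ w _ hwv x => hax.ev_loc_ne v w hwv x)]
    simp only [Subgroup.relIndex_top_right]
    rw [Finset.prod_congr rfl hvalidx, Finset.prod_const]
  have hidx₁ : (pti_Ecut O ev p S' S T).relIndex (pti_Ecut₀ O ev p S' T) =
      p ^ (2 * (NumberField.Units.rank K + S.card + 1)) := by
    rw [pti_Ecut, ptk_relIndex_cut (pti_Ecut₀ O ev p S' T) ev loc (fun v => ptk_lpows G p v)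
      (fun _ => ⊤) S (fun _ _ => le_top) (fun _ _ _ _ => Subgroup.mem_top _)
      (fun v hv x _ => ⟨ptk_loc_mem_JS_of_mem hax S' ((hS' v).mpr (Or.inl hv)) x, fun w hw => by
        rw [hax.ev_loc_ne v w (fun h => hdisj w hw (h ▸ hv))]
        exact Subgroup.one_mem _⟩)
      (fun v _ x => hax.ev_loc v x)
      (fun v _ w _ hwv x => hax.ev_loc_ne v w hwv x)]
    simp only [Subgroup.relIndex_top_right]
    exact hlocidx
  have hidx : (pti_Ecut O ev p S' S T).relIndex (ptk_JS O ev S') =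
      p ^ (2 * (NumberField.Units.rank K + S.card + 1)) * p ^ T.card := by
    rw [← hidx₀, ← hidx₁]
    exact (Subgroup.relIndex_mul_relIndex _ _ _ (pti_E_le_E₀ p S' S T)
      (pti_Ecut₀_le_JS p S' T)).symm
  have hcore := pti_index_core hζ hax S' hclass (pti_Ecut O ev p S' S T)
    ((pti_E_le_E₀ p S' S T).trans (pti_Ecut₀_le_JS p S' T))
    (fun c hc => ⟨⟨(ptk_diag_mem_JS_iff hax S' _).mpr hc, fun v _ => by
      rw [map_pow, map_pow]
      exact Subgroup.mem_sup_left ⟨ev v (diag c), rfl⟩⟩, fun v _ => by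
      rw [map_pow, map_pow]
      exact ⟨ev v (diag c), rfl⟩⟩)
  rw [hidx, hcard] at hcore
  set r := NumberField.Units.rank K + S.card + 1 with hr
  have h4 : p ^ (NumberField.Units.rank K + (S.card + T.card) + 1) = p ^ r * p ^ T.card := by
    rw [← pow_add]; congr 1; omega
  have h6 : p ^ (2 * r) = p ^ r * p ^ r := by rw [← pow_add]; congr 1; omega
  rw [h4, h6] at hcore
  have h5 : (p ^ r * p ^ T.card) * (diag.range ⊔ pti_Ecut O ev p S' S T).index =
      (p ^ r * p ^ T.card) *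
        (p ^ r * (ptk_pows K p).relIndex ((pti_Ecut O ev p S' S T).comap diag)) := by
    rw [mul_comm, hcore]; ring
  exact Nat.eq_of_mul_eq_mul_left (Nat.mul_pos (pow_pos hp0 _) (pow_pos hp0 _)) h5

/-- finiteness: `[J : Kˣ · E'] ≠ 0` as soon as `[J_{S'} : E'] ≠ 0` -/
theorem pti_index_sup_ne_zero (A U E' : Subgroup J) (hAU : A ⊔ U = ⊤) (hEU : E' ≤ U)
    (h : E'.relIndex U ≠ 0) : (A ⊔ E').index ≠ 0 := by
  have hform := ptk_index_formula A U E' hAU hEU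
  intro h0
  rw [h0, zero_mul] at hform
  exact h hform.symm

/-- `[J_{S'} : E₀] = p ^ #T` -/
theorem pti_relIndex_E₀ {p : ℕ} {loc : ∀ v, G v →* J} (hax : ptk_PlaceAxioms diag O ev p loc)
    {S' S T : Finset (HeightOneSpectrum (𝓞 K))} (hS' : ∀ v, v ∈ S' ↔ v ∈ S ∨ v ∈ T)
    (hvalidx : ∀ v ∈ T, (ptk_lpows G p v ⊔ O v).index = p) :
    (pti_Ecut₀ O ev p S' T).relIndex (ptk_JS O ev S') = p ^ T.card := by
  classical
  rw [pti_Ecut₀, ptk_relIndex_cut (ptk_JS O ev S') ev loc (fun v => ptk_lpows G p v ⊔ O v)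
    (fun _ => ⊤) T (fun _ _ => le_top) (fun _ _ _ _ => Subgroup.mem_top _)
    (fun v hv x _ => ptk_loc_mem_JS_of_mem hax S' ((hS' v).mpr (Or.inr hv)) x)
    (fun v _ x => hax.ev_loc v x)
    (fun v _ w _ hwv x => hax.ev_loc_ne v w hwv x)]
  simp only [Subgroup.relIndex_top_right]
  rw [Finset.prod_congr rfl hvalidx, Finset.prod_const]

/-- `[J_{S'} : E] = p ^ (2 (rank + #S + 1)) · p ^ #T` -/
theorem pti_relIndex_E {p : ℕ} {loc : ∀ v, G v →* J} (hax : ptk_PlaceAxioms diag O ev p loc)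
    {S' S T : Finset (HeightOneSpectrum (𝓞 K))} (hS' : ∀ v, v ∈ S' ↔ v ∈ S ∨ v ∈ T)
    (hdisj : ∀ v ∈ T, v ∉ S)
    (hlocidx : ∏ v ∈ S, (ptk_lpows G p v).index =
      p ^ (2 * (NumberField.Units.rank K + S.card + 1)))
    (hvalidx : ∀ v ∈ T, (ptk_lpows G p v ⊔ O v).index = p) :
    (pti_Ecut O ev p S' S T).relIndex (ptk_JS O ev S') =
      p ^ (2 * (NumberField.Units.rank K + S.card + 1)) * p ^ T.card := by
  classical
  have hidx₁ : (pti_Ecut O ev p S' S T).relIndex (pti_Ecut₀ O ev p S' T) =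
      p ^ (2 * (NumberField.Units.rank K + S.card + 1)) := by
    rw [pti_Ecut, ptk_relIndex_cut (pti_Ecut₀ O ev p S' T) ev loc (fun v => ptk_lpows G p v)
      (fun _ => ⊤) S (fun _ _ => le_top) (fun _ _ _ _ => Subgroup.mem_top _)
      (fun v hv x _ => ⟨ptk_loc_mem_JS_of_mem hax S' ((hS' v).mpr (Or.inl hv)) x, fun w hw => by
        rw [hax.ev_loc_ne v w (fun h => hdisj w hw (h ▸ hv))]
        exact Subgroup.one_mem _⟩)
      (fun v _ x => hax.ev_loc v x)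
      (fun v _ w _ hwv x => hax.ev_loc_ne v w hwv x)]
    simp only [Subgroup.relIndex_top_right]
    exact hlocidx
  rw [← pti_relIndex_E₀ hax hS' hvalidx, ← hidx₁]
  exact (Subgroup.relIndex_mul_relIndex _ _ _ (pti_E_le_E₀ p S' S T)
    (pti_Ecut₀_le_JS p S' T)).symm

end Abs

end Fermat.Agent.Lib.PT
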