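/-
G1 (global modules for the S55 long-haul), part 1: CARRIERS.

Model ("embedding model", no completions, no restricted-product topology):
for a field `K` (a number field in practice) and a prime `q`, the `q`-component of the
(finite) idele group of `K` is the group of `G_q`-equivariant functions
  `f : (K →+* Ω_q) → Ω_qˣ`,  `f (τ ∘ σ) = τ (f σ)`  for all `τ ∈ G_q = Gal(Ω_q/ℚ_q)`,
where `Ω_q = PadicAlgCl q`.  (By Galois theory `f σ` lies in the local field `ℚ_q(σ K)`, and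
`f` is determined by its values on a set of representatives of the `G_q`-orbits = places of `K`
above `q`, so this is `∏_{w ∣ q} K_wˣ`.)  The idele group is the subgroup of the full product
over all primes `q` cut out by "unit at almost all `q`".

Any group `Γ` acting on `K` by ring automorphisms acts on everything by precomposition.
-/
import Mathlib
import Fermat.Prelude.Def_GaloisRep_CompletionBridge

set_option autoImplicit false
set_option linter.unusedVariables false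

noncomputable section

namespace Fermat.Agent.Lib.PT

/-- Every `q : Nat.Primes` gives the `Fact` needed by `ℚ_[q]`, `PadicAlgCl q`. -/
instance ptj_factPrime (q : Nat.Primes) : Fact (q : ℕ).Prime := ⟨q.2⟩

/-- `Ω_q`, the algebraic closure of `ℚ_q`. -/
abbrev ptj_Om (q : Nat.Primes) : Type := PadicAlgCl (q : ℕ)

/-- `G_q = Gal(Ω_q/ℚ_q)`; definitionally the prelude's `primeLocalGaloisGroup q`. -/
abbrev ptj_Gq (q : Nat.Primes) : Type := ptj_Om q ≃ₐ[ℚ_[(q : ℕ)]] ptj_Om q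

variable (K : Type*) [Field K]

/-- The `q`-adic embeddings of `K`. -/
abbrev ptj_Emb (q : Nat.Primes) : Type _ := K →+* ptj_Om q

variable {K}

/-- `G_q` acts on the `q`-adic embeddings by postcomposition. -/
def ptj_post {q : Nat.Primes} (τ : ptj_Gq q) (σ : ptj_Emb K q) : ptj_Emb K q :=
  (τ : ptj_Om q →+* ptj_Om q).comp σ

@[simp] lemma ptj_post_apply {q : Nat.Primes} (τ : ptj_Gq q) (σ : ptj_Emb K q) (x : K) :
    ptj_post τ σ x = τ (σ x) := rfl

@[simp] lemma ptj_post_one {q : Nat.Primes} (σ : ptj_Emb K q) :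
    ptj_post (1 : ptj_Gq q) σ = σ := rfl

lemma ptj_post_mul {q : Nat.Primes} (τ τ' : ptj_Gq q) (σ : ptj_Emb K q) :
    ptj_post (τ * τ') σ = ptj_post τ (ptj_post τ' σ) := rfl

/-- The unit-group map induced by `τ ∈ G_q`. -/
def ptj_tauU {q : Nat.Primes} (τ : ptj_Gq q) : (ptj_Om q)ˣ →* (ptj_Om q)ˣ :=
  Units.map (τ : ptj_Om q →* ptj_Om q)

@[simp] lemma ptj_tauU_coe {q : Nat.Primes} (τ : ptj_Gq q) (u : (ptj_Om q)ˣ) :
    ((ptj_tauU τ u : (ptj_Om q)ˣ) : ptj_Om q) = τ (u : ptj_Om q) := rfl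

variable (K)

/-- The `q`-component of the idele group of `K`: `G_q`-equivariant unit-valued functions on the
`q`-adic embeddings. -/
def ptj_Jq (q : Nat.Primes) : Subgroup (ptj_Emb K q → (ptj_Om q)ˣ) where
  carrier := {f | ∀ (τ : ptj_Gq q) (σ : ptj_Emb K q), f (ptj_post τ σ) = ptj_tauU τ (f σ)}
  one_mem' := fun τ σ => by simp
  mul_mem' := fun {f g} hf hg τ σ => by
    simp only [Pi.mul_apply, map_mul]
    rw [hf τ σ, hg τ σ]
  inv_mem' := fun {f} hf τ σ => by
    simp only [Pi.inv_apply, map_inv]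
    rw [hf τ σ]

variable {K}

lemma ptj_mem_Jq_iff {q : Nat.Primes} (f : ptj_Emb K q → (ptj_Om q)ˣ) :
    f ∈ ptj_Jq K q ↔
      ∀ (τ : ptj_Gq q) (σ : ptj_Emb K q), f (ptj_post τ σ) = ptj_tauU τ (f σ) := Iff.rfl

variable (K)

/-- The ambient product `∏_q (Emb_q K → Ω_qˣ)`. -/
abbrev ptj_Amb : Type _ := ∀ q : Nat.Primes, ptj_Emb K q → (ptj_Om q)ˣ

variable {K}

/-- `f` is a unit at `q`: all its `q`-components have norm one. -/
def ptj_IsUnitAt (f : ptj_Amb K) (q : Nat.Primes) : Prop :=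
  ∀ σ : ptj_Emb K q, ‖((f q σ : (ptj_Om q)ˣ) : ptj_Om q)‖ = 1

lemma ptj_isUnitAt_one (q : Nat.Primes) : ptj_IsUnitAt (1 : ptj_Amb K) q := fun σ => by
  simp

lemma ptj_IsUnitAt.mul {f g : ptj_Amb K} {q : Nat.Primes} (hf : ptj_IsUnitAt f q)
    (hg : ptj_IsUnitAt g q) : ptj_IsUnitAt (f * g) q := fun σ => by
  simp only [Pi.mul_apply, Units.val_mul, norm_mul, hf σ, hg σ, mul_one]

lemma ptj_IsUnitAt.inv {f : ptj_Amb K} {q : Nat.Primes} (hf : ptj_IsUnitAt f q) :
    ptj_IsUnitAt f⁻¹ q := fun σ => by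
  simp only [Pi.inv_apply, Units.val_inv_eq_inv_val, norm_inv, hf σ, inv_one]

variable (K)

/-- The (finite) idele group of `K` in the embedding model. -/
def ptj_J : Subgroup (ptj_Amb K) where
  carrier := {f | (∀ q, f q ∈ ptj_Jq K q) ∧ ∀ᶠ q in Filter.cofinite, ptj_IsUnitAt f q}
  one_mem' := ⟨fun q => (ptj_Jq K q).one_mem, Filter.Eventually.of_forall ptj_isUnitAt_one⟩
  mul_mem' := fun {f g} hf hg =>
    ⟨fun q => (ptj_Jq K q).mul_mem (hf.1 q) (hg.1 q),
      (hf.2.and hg.2).mono fun _ h => h.1.mul h.2⟩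
  inv_mem' := fun {f} hf =>
    ⟨fun q => (ptj_Jq K q).inv_mem (hf.1 q), hf.2.mono fun _ h => h.inv⟩

variable {K}

lemma ptj_mem_J_iff (f : ptj_Amb K) :
    f ∈ ptj_J K ↔ (∀ q, f q ∈ ptj_Jq K q) ∧ ∀ᶠ q in Filter.cofinite, ptj_IsUnitAt f q :=
  Iff.rfl

variable (K)

/-- Ideles that are units outside the finite set `T` ("`T`-ideles" `J_{K,T}`). -/
def ptj_JT (T : Finset Nat.Primes) : Subgroup (ptj_J K) where
  carrier := {f | ∀ q, q ∉ T → ptj_IsUnitAt (f : ptj_Amb K) q}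
  one_mem' := fun q _ => ptj_isUnitAt_one q
  mul_mem' := fun {f g} hf hg q hq => (hf q hq).mul (hg q hq)
  inv_mem' := fun {f} hf q hq => (hf q hq).inv

/-- Unit ideles supported outside `T`: trivial components at `q ∈ T`, units at `q ∉ T`
(`U_{K,T} = ∏_{w ∤ T} U_w`). -/
def ptj_UT (T : Finset Nat.Primes) : Subgroup (ptj_J K) where
  carrier := {f | (∀ q, q ∈ T → (f : ptj_Amb K) q = 1) ∧
    ∀ q, q ∉ T → ptj_IsUnitAt (f : ptj_Amb K) q}
  one_mem' := ⟨fun _ _ => rfl, fun q _ => ptj_isUnitAt_one q⟩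
  mul_mem' := fun {f g} hf hg =>
    ⟨fun q hq => by
        show (f : ptj_Amb K) q * (g : ptj_Amb K) q = 1
        rw [hf.1 q hq, hg.1 q hq, one_mul],
      fun q hq => (hf.2 q hq).mul (hg.2 q hq)⟩
  inv_mem' := fun {f} hf =>
    ⟨fun q hq => by
        show ((f : ptj_Amb K) q)⁻¹ = 1
        rw [hf.1 q hq, inv_one],
      fun q hq => (hf.2 q hq).inv⟩

variable {K}

lemma ptj_mem_JT_iff {T : Finset Nat.Primes} (f : ptj_J K) :
    f ∈ ptj_JT K T ↔ ∀ q, q ∉ T → ptj_IsUnitAt (f : ptj_Amb K) q := Iff.rfl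

lemma ptj_mem_UT_iff {T : Finset Nat.Primes} (f : ptj_J K) :
    f ∈ ptj_UT K T ↔ (∀ q, q ∈ T → (f : ptj_Amb K) q = 1) ∧
      ∀ q, q ∉ T → ptj_IsUnitAt (f : ptj_Amb K) q := Iff.rfl

lemma ptj_UT_le_JT (T : Finset Nat.Primes) : ptj_UT K T ≤ ptj_JT K T := fun _ hf => hf.2

lemma ptj_JT_mono {T T' : Finset Nat.Primes} (h : T ⊆ T') : ptj_JT K T ≤ ptj_JT K T' :=
  fun _ hf q hq => hf q fun hqT => hq (h hqT)

lemma ptj_UT_anti {T T' : Finset Nat.Primes} (h : T ⊆ T') : ptj_UT K T' ≤ ptj_UT K T :=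
  fun f hf => ⟨fun q hq => hf.1 q (h hq), fun q hq => by
    by_cases hq' : q ∈ T'
    · intro σ
      rw [hf.1 q hq']
      simp
    · exact hf.2 q hq'⟩

/-- Every idele is a `T`-idele for some finite `T`. -/
lemma ptj_exists_mem_JT (f : ptj_J K) : ∃ T : Finset Nat.Primes, f ∈ ptj_JT K T := by
  have h := f.2.2
  rw [Filter.eventually_cofinite] at h
  exact ⟨h.toFinset, fun q hq => by
    by_contra hcon
    exact hq (h.mem_toFinset.2 hcon)⟩

end Fermat.Agent.Lib.PT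

end
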