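/-
G1 (global modules for the S55 long-haul), part 2: the action of a group of automorphisms,
the diagonal embedding `Kˣ → J_K`, the idele class group `C_K` and its `T`-quotients `C_T(K)`.
-/
import Fermat.Agent.Lib.PT.GModDefs

set_option autoImplicit false
set_option linter.unusedVariables false

noncomputable section

namespace Fermat.Agent.Lib.PT

variable {K : Type*} [Field K]
variable {Γ : Type*} [Group Γ] [MulSemiringAction Γ K]

/-! ### Precomposition with automorphisms -/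

/-- `γ ∈ Γ` acts on the embeddings by precomposition: `σ ↦ σ ∘ γ`.  (A RIGHT action.) -/
def ptj_pre {q : Nat.Primes} (γ : Γ) (σ : ptj_Emb K q) : ptj_Emb K q :=
  σ.comp (MulSemiringAction.toRingHom Γ K γ)

@[simp] lemma ptj_pre_apply {q : Nat.Primes} (γ : Γ) (σ : ptj_Emb K q) (x : K) :
    ptj_pre γ σ x = σ (γ • x) := rfl

@[simp] lemma ptj_pre_one {q : Nat.Primes} (σ : ptj_Emb K q) : ptj_pre (1 : Γ) σ = σ := by
  ext x; simp

lemma ptj_pre_mul {q : Nat.Primes} (γ γ' : Γ) (σ : ptj_Emb K q) :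
    ptj_pre (γ * γ') σ = ptj_pre γ' (ptj_pre γ σ) := by
  ext x; simp [mul_smul]

lemma ptj_pre_post {q : Nat.Primes} (γ : Γ) (τ : ptj_Gq q) (σ : ptj_Emb K q) :
    ptj_pre γ (ptj_post τ σ) = ptj_post τ (ptj_pre γ σ) := rfl

/-- The action of `Γ` on the ambient product: `(γ • f) q σ = f q (σ ∘ γ)`. -/
instance ptj_ambAction : MulDistribMulAction Γ (ptj_Amb K) where
  smul γ f := fun q σ => f q (ptj_pre γ σ)
  one_smul f := by
    funext q σ
    show f q (ptj_pre (1 : Γ) σ) = f q σ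
    rw [ptj_pre_one]
  mul_smul γ γ' f := by
    funext q σ
    show f q (ptj_pre (γ * γ') σ) = f q (ptj_pre γ' (ptj_pre γ σ))
    rw [ptj_pre_mul]
  smul_mul γ f g := rfl
  smul_one γ := rfl

@[simp] lemma ptj_amb_smul_apply (γ : Γ) (f : ptj_Amb K) (q : Nat.Primes) (σ : ptj_Emb K q) :
    (γ • f) q σ = f q (ptj_pre γ σ) := rfl

lemma ptj_smul_mem_Jq (γ : Γ) {q : Nat.Primes} {f : ptj_Emb K q → (ptj_Om q)ˣ}
    (hf : f ∈ ptj_Jq K q) : (fun σ => f (ptj_pre γ σ)) ∈ ptj_Jq K q := fun τ σ => by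
  show f (ptj_pre γ (ptj_post τ σ)) = ptj_tauU τ (f (ptj_pre γ σ))
  rw [ptj_pre_post, hf τ]

lemma ptj_IsUnitAt.smul (γ : Γ) {f : ptj_Amb K} {q : Nat.Primes} (hf : ptj_IsUnitAt f q) :
    ptj_IsUnitAt (γ • f) q := fun σ => hf (ptj_pre γ σ)

lemma ptj_smul_mem_J (γ : Γ) {f : ptj_Amb K} (hf : f ∈ ptj_J K) : γ • f ∈ ptj_J K :=
  ⟨fun q => ptj_smul_mem_Jq γ (hf.1 q), hf.2.mono fun _ h => h.smul γ⟩

/-- The action of `Γ` on the idele group. -/
instance ptj_JAction : MulDistribMulAction Γ (ptj_J K) where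
  smul γ f := ⟨γ • (f : ptj_Amb K), ptj_smul_mem_J γ f.2⟩
  one_smul f := Subtype.ext (one_smul Γ (f : ptj_Amb K))
  mul_smul γ γ' f := Subtype.ext (mul_smul γ γ' (f : ptj_Amb K))
  smul_mul γ f g := Subtype.ext (smul_mul' γ (f : ptj_Amb K) (g : ptj_Amb K))
  smul_one γ := Subtype.ext (smul_one γ)

@[simp] lemma ptj_J_smul_coe (γ : Γ) (f : ptj_J K) :
    ((γ • f : ptj_J K) : ptj_Amb K) = γ • (f : ptj_Amb K) := rfl

lemma ptj_smul_mem_JT (γ : Γ) {T : Finset Nat.Primes} {f : ptj_J K} (hf : f ∈ ptj_JT K T) :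
    γ • f ∈ ptj_JT K T := fun q hq => (hf q hq).smul γ

lemma ptj_smul_mem_UT (γ : Γ) {T : Finset Nat.Primes} {f : ptj_J K} (hf : f ∈ ptj_UT K T) :
    γ • f ∈ ptj_UT K T :=
  ⟨fun q hq => by
      funext σ
      show (f : ptj_Amb K) q (ptj_pre γ σ) = 1
      rw [hf.1 q hq]; rfl,
    fun q hq => (hf.2 q hq).smul γ⟩

/-! ### Integral elements of `Ω_q` have norm `≤ 1` -/

lemma ptj_norm_le_one_of_isIntegral (q : Nat.Primes) {y : ptj_Om q} (hy : IsIntegral ℤ y) :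
    ‖y‖ ≤ 1 := by
  -- the unit ball is a valuation subring, hence integrally closed
  let A : ValuationSubring (ptj_Om q) := padicIntegers (q : ℕ)
  have hyA : IsIntegral A y := hy.tower_top
  obtain ⟨a, ha⟩ := (IsIntegrallyClosed.isIntegral_iff (R := A) (K := ptj_Om q)).1 hyA
  have hmem : y ∈ A := by rw [← ha]; exact a.2
  have h1 : ‖y‖₊ ≤ 1 := (mem_padicIntegers_iff (q : ℕ)).1 hmem
  exact_mod_cast h1

lemma ptj_norm_intCast_le_one (q : Nat.Primes) (b : ℤ) : ‖(b : ptj_Om q)‖ ≤ 1 := by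
  have h : (b : ptj_Om q) = algebraMap ℚ_[(q : ℕ)] (ptj_Om q) (b : ℚ_[(q : ℕ)]) := by
    rw [map_intCast]
  rw [h, PadicAlgCl.norm_extends]
  exact Padic.norm_int_le_one b

lemma ptj_norm_intCast_eq_one (q : Nat.Primes) {b : ℤ} (hb : ¬ ((q : ℕ) : ℤ) ∣ b) :
    ‖(b : ptj_Om q)‖ = 1 := by
  have h : (b : ptj_Om q) = algebraMap ℚ_[(q : ℕ)] (ptj_Om q) (b : ℚ_[(q : ℕ)]) := by
    rw [map_intCast]
  rw [h, PadicAlgCl.norm_extends]
  refine le_antisymm (Padic.norm_int_le_one b) (not_lt.1 fun hlt => hb ?_)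
  exact Padic.norm_intCast_lt_one_iff.1 hlt

/-- If `b • x` is integral over `ℤ` and `q ∤ b` then every `q`-adic embedding sends `x` into the
unit ball. -/
lemma ptj_norm_emb_le_one (q : Nat.Primes) {x : K} {b : ℤ} (hb : ¬ ((q : ℕ) : ℤ) ∣ b)
    (hx : IsIntegral ℤ ((b : K) * x)) (σ : ptj_Emb K q) : ‖σ x‖ ≤ 1 := by
  have h1 : IsIntegral ℤ (σ ((b : K) * x)) := hx.map (σ : K →+* ptj_Om q).toIntAlgHom
  have h2 := ptj_norm_le_one_of_isIntegral q h1
  rw [map_mul, map_intCast, norm_mul, ptj_norm_intCast_eq_one q hb, one_mul] at h2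
  exact h2

lemma ptj_finite_primes_dvd {n : ℤ} (hn : n ≠ 0) :
    {q : Nat.Primes | ((q : ℕ) : ℤ) ∣ n}.Finite := by
  have hfin : {m : ℕ | m ≤ n.natAbs}.Finite := Set.finite_le_nat _
  refine (hfin.preimage (Nat.Primes.coe_nat_injective.injOn)).subset ?_
  intro q hq
  simp only [Set.mem_preimage, Set.mem_ofPred_eq] at hq ⊢
  have h1 : (q : ℕ) ∣ n.natAbs := Int.natCast_dvd.1 hq
  exact Nat.le_of_dvd (Int.natAbs_pos.2 hn) h1

/-- An algebraic number is a unit at almost all primes, in every embedding. -/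
lemma ptj_eventually_norm_emb_eq_one [CharZero K] [Algebra.IsAlgebraic ℚ K] {x : K}
    (hx : x ≠ 0) :
    ∀ᶠ q : Nat.Primes in Filter.cofinite, ∀ σ : ptj_Emb K q, ‖σ x‖ = 1 := by
  have key : ∀ y : K, ∃ b : ℤ, b ≠ 0 ∧ IsIntegral ℤ ((b : K) * y) := by
    intro y
    have halg : IsAlgebraic ℚ y := Algebra.IsAlgebraic.isAlgebraic y
    have halgZ : IsAlgebraic ℤ y := by
      exact (IsFractionRing.isAlgebraic_iff ℤ ℚ K).2 halg
    obtain ⟨b, hb, hz⟩ := halgZ.exists_integral_multiple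
    refine ⟨b, hb, ?_⟩
    have : (b : K) * y = b • y := by
      rw [zsmul_eq_mul]
    rw [this]
    exact hz
  obtain ⟨b, hb, hbx⟩ := key x
  obtain ⟨b', hb', hbx'⟩ := key x⁻¹
  have hfin := ptj_finite_primes_dvd (mul_ne_zero hb hb')
  rw [Filter.eventually_cofinite]
  refine hfin.subset ?_
  intro q hq
  simp only [Set.mem_ofPred_eq] at hq ⊢
  by_contra hdvd
  apply hq
  intro σ
  have hq1 : ¬ ((q : ℕ) : ℤ) ∣ b := fun h => hdvd (Dvd.dvd.mul_right h b')
  have hq2 : ¬ ((q : ℕ) : ℤ) ∣ b' := fun h => hdvd (Dvd.dvd.mul_left h b)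
  have h1 := ptj_norm_emb_le_one q hq1 hbx σ
  have h2 := ptj_norm_emb_le_one q hq2 hbx' σ
  rw [map_inv₀, norm_inv] at h2
  have hpos : 0 < ‖σ x‖ := norm_pos_iff.2 ((map_ne_zero σ).2 hx)
  have h3 : 1 ≤ ‖σ x‖ := by
    have := (inv_le_one₀ hpos).1 h2
    exact this
  exact le_antisymm h1 h3

/-! ### The diagonal embedding -/

/-- The ambient diagonal map `x ↦ (σ ↦ σ x)`. -/
def ptj_diagAmb : Kˣ →* ptj_Amb K where
  toFun x := fun q σ => Units.map (σ : K →* ptj_Om q) x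
  map_one' := by funext q σ; simp
  map_mul' x y := by funext q σ; simp

@[simp] lemma ptj_diagAmb_apply (x : Kˣ) (q : Nat.Primes) (σ : ptj_Emb K q) :
    ((ptj_diagAmb x q σ : (ptj_Om q)ˣ) : ptj_Om q) = σ (x : K) := rfl

lemma ptj_diagAmb_mem_Jq (x : Kˣ) (q : Nat.Primes) : ptj_diagAmb x q ∈ ptj_Jq K q :=
  fun τ σ => by
    ext
    simp

variable [CharZero K] [Algebra.IsAlgebraic ℚ K]

lemma ptj_diagAmb_mem_J (x : Kˣ) : ptj_diagAmb x ∈ ptj_J K :=
  ⟨ptj_diagAmb_mem_Jq x, (ptj_eventually_norm_emb_eq_one x.ne_zero).mono fun q h σ => h σ⟩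

variable (K) in
/-- The diagonal embedding `Kˣ → J_K`. -/
def ptj_diag : Kˣ →* ptj_J K :=
  (ptj_diagAmb (K := K)).codRestrict (ptj_J K) ptj_diagAmb_mem_J

@[simp] lemma ptj_diag_coe (x : Kˣ) : ((ptj_diag K x : ptj_J K) : ptj_Amb K) = ptj_diagAmb x :=
  rfl

/-- The action of `γ ∈ Γ` on `Kˣ`, as a monoid hom (no `SMul Γ Kˣ` instance is used, to avoid
instance diamonds; for `Γ = K ≃ₐ[F] K` this is `x ↦ γ • x`). -/
def ptj_unitAct (γ : Γ) : Kˣ →* Kˣ :=
  Units.map (MulSemiringAction.toRingHom Γ K γ : K →* K)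

@[simp] lemma ptj_unitAct_coe (γ : Γ) (x : Kˣ) : ((ptj_unitAct γ x : Kˣ) : K) = γ • (x : K) := rfl

lemma ptj_diag_smul (γ : Γ) (x : Kˣ) : ptj_diag K (ptj_unitAct γ x) = γ • ptj_diag K x := by
  apply Subtype.ext
  funext q σ
  ext
  simp

variable (K) in
/-- The principal ideles. -/
def ptj_principal : Subgroup (ptj_J K) := (ptj_diag K).range

lemma ptj_smul_mem_principal (γ : Γ) {f : ptj_J K} (hf : f ∈ ptj_principal K) :
    γ • f ∈ ptj_principal K := by
  obtain ⟨x, rfl⟩ := hf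
  exact ⟨ptj_unitAct γ x, ptj_diag_smul γ x⟩

variable (K) in
/-- The (finite) idele class group `C_K = J_K / Kˣ`. -/
abbrev ptj_C : Type _ := ptj_J K ⧸ ptj_principal K

variable (K) in
/-- The subgroup `Kˣ · U_{K,T}` of `J_K`. -/
def ptj_princUT (T : Finset Nat.Primes) : Subgroup (ptj_J K) := ptj_principal K ⊔ ptj_UT K T

variable (K) in
/-- `C_T(K) = J_K / (Kˣ · U_{K,T}) = C_K / U_{K,T}`. -/
abbrev ptj_CT (T : Finset Nat.Primes) : Type _ := ptj_J K ⧸ ptj_princUT K T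

lemma ptj_smul_mem_princUT (γ : Γ) {T : Finset Nat.Primes} {f : ptj_J K}
    (hf : f ∈ ptj_princUT K T) : γ • f ∈ ptj_princUT K T := by
  obtain ⟨a, ha, b, hb, rfl⟩ := Subgroup.mem_sup.1 hf
  rw [smul_mul']
  exact Subgroup.mem_sup.2 ⟨γ • a, ptj_smul_mem_principal γ ha, γ • b, ptj_smul_mem_UT γ hb, rfl⟩

/-- The action of `Γ` on a quotient of `J_K` by a `Γ`-stable subgroup. -/
@[reducible] def ptj_quotAction (N : Subgroup (ptj_J K)) (hN : ∀ (γ : Γ) (f : ptj_J K), f ∈ N → γ • f ∈ N) :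
    MulDistribMulAction Γ (ptj_J K ⧸ N) where
  smul γ := Quotient.map' (fun f => γ • f) (fun a b hab => by
    rw [QuotientGroup.leftRel_apply] at hab ⊢
    have := hN γ _ hab
    rwa [smul_mul', smul_inv'] at this)
  one_smul c := by
    induction c using QuotientGroup.induction_on with
    | H f => exact congrArg _ (one_smul Γ f)
  mul_smul γ γ' c := by
    induction c using QuotientGroup.induction_on with
    | H f => exact congrArg _ (mul_smul γ γ' f)
  smul_mul γ c d := by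
    induction c using QuotientGroup.induction_on with
    | H f =>
      induction d using QuotientGroup.induction_on with
      | H g => exact congrArg _ (smul_mul' γ f g)
  smul_one γ := congrArg _ (smul_one γ)

instance ptj_CAction : MulDistribMulAction Γ (ptj_C K) :=
  ptj_quotAction (ptj_principal K) fun γ _ hf => ptj_smul_mem_principal γ hf

instance ptj_CTAction (T : Finset Nat.Primes) : MulDistribMulAction Γ (ptj_CT K T) :=
  ptj_quotAction (ptj_princUT K T) fun γ _ hf => ptj_smul_mem_princUT γ hf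

@[simp] lemma ptj_C_smul_mk (γ : Γ) (f : ptj_J K) :
    γ • (QuotientGroup.mk f : ptj_C K) = QuotientGroup.mk (γ • f) := rfl

@[simp] lemma ptj_CT_smul_mk (γ : Γ) (T : Finset Nat.Primes) (f : ptj_J K) :
    γ • (QuotientGroup.mk f : ptj_CT K T) = QuotientGroup.mk (γ • f) := rfl

end Fermat.Agent.Lib.PT

end
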