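/-
G1 (global modules for the S55 long-haul), part 3: the LOCAL FIELD at an embedding,
the local inclusion `K_σˣ → J_K` and the local evaluation `J_K → K_σˣ`.
-/
import Fermat.Agent.Lib.PT.GModAction

set_option autoImplicit false
set_option linter.unusedVariables false
set_option linter.unusedSectionVars false

noncomputable section

namespace Fermat.Agent.Lib.PT

open IntermediateField

variable {K : Type*} [Field K] {q : Nat.Primes}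

/-- The local field `ℚ_q(σ K) ⊆ Ω_q` of `K` at the embedding `σ` ("completion of `K` at the place
of `σ`"). -/
def ptj_Kσ (σ : ptj_Emb K q) : IntermediateField ℚ_[(q : ℕ)] (ptj_Om q) :=
  IntermediateField.adjoin ℚ_[(q : ℕ)] (Set.range σ)

lemma ptj_apply_mem_Kσ (σ : ptj_Emb K q) (x : K) : σ x ∈ ptj_Kσ σ :=
  IntermediateField.subset_adjoin _ _ ⟨x, rfl⟩

/-- `τ ∈ G_q` fixes the embedding `σ` iff it fixes the local field `K_σ` pointwise. -/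
lemma ptj_post_eq_iff (τ : ptj_Gq q) (σ : ptj_Emb K q) :
    ptj_post τ σ = σ ↔ τ ∈ (ptj_Kσ σ).fixingSubgroup := by
  constructor
  · intro h
    rw [IntermediateField.mem_fixingSubgroup_iff]
    have hgen : ∀ y ∈ Set.range σ, τ y = y := by
      rintro _ ⟨x, rfl⟩
      exact congrArg (fun ρ : ptj_Emb K q => ρ x) h
    have hle : ptj_Kσ σ ≤ IntermediateField.fixedField (Subgroup.zpowers τ) := by
      rw [ptj_Kσ, IntermediateField.adjoin_le_iff]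
      intro z hz
      rw [SetLike.mem_coe, IntermediateField.mem_fixedField_iff]
      intro g hg
      have hst : Subgroup.zpowers τ ≤ MulAction.stabilizer (ptj_Gq q) z := by
        rw [Subgroup.zpowers_le, MulAction.mem_stabilizer_iff]
        exact hgen z hz
      exact MulAction.mem_stabilizer_iff.mp (hst hg)
    intro y hy
    have := hle hy
    rw [IntermediateField.mem_fixedField_iff] at this
    exact this τ (Subgroup.mem_zpowers τ)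
  · intro h
    ext x
    exact (IntermediateField.mem_fixingSubgroup_iff _ _).1 h _ (ptj_apply_mem_Kσ σ x)

lemma ptj_post_eq_post_iff (τ τ' : ptj_Gq q) (σ : ptj_Emb K q) :
    ptj_post τ σ = ptj_post τ' σ ↔ τ'⁻¹ * τ ∈ (ptj_Kσ σ).fixingSubgroup := by
  rw [← ptj_post_eq_iff, ptj_post_mul]
  constructor
  · intro h
    rw [h, ← ptj_post_mul, inv_mul_cancel, ptj_post_one]
  · intro h
    have := congrArg (ptj_post τ') h
    rw [← ptj_post_mul, ← ptj_post_mul] at this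
    rwa [mul_inv_cancel, one_mul] at this

/-- The values of an equivariant function lie in the local fields. -/
lemma ptj_mem_Kσ_of_mem_Jq {f : ptj_Emb K q → (ptj_Om q)ˣ} (hf : f ∈ ptj_Jq K q)
    (σ : ptj_Emb K q) : ((f σ : (ptj_Om q)ˣ) : ptj_Om q) ∈ ptj_Kσ σ := by
  rw [← InfiniteGalois.fixedField_fixingSubgroup (ptj_Kσ σ), IntermediateField.mem_fixedField_iff]
  intro τ hτ
  have h1 := hf τ σ
  rw [(ptj_post_eq_iff τ σ).2 hτ] at h1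
  have h2 := congrArg (fun u : (ptj_Om q)ˣ => (u : ptj_Om q)) h1
  simp only [ptj_tauU_coe] at h2
  exact h2.symm

/-- The norm of the value of an equivariant function is constant on `G_q`-orbits. -/
lemma ptj_norm_post {f : ptj_Emb K q → (ptj_Om q)ˣ} (hf : f ∈ ptj_Jq K q)
    (τ : ptj_Gq q) (σ : ptj_Emb K q) :
    ‖((f (ptj_post τ σ) : (ptj_Om q)ˣ) : ptj_Om q)‖ = ‖((f σ : (ptj_Om q)ˣ) : ptj_Om q)‖ := by
  rw [hf τ σ, ptj_tauU_coe]
  have := nnnorm_padicAlgCl_algEquiv (q : ℕ) τ ((f σ : (ptj_Om q)ˣ) : ptj_Om q)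
  exact congrArg NNReal.toReal this

/-! ### The orbit function attached to a local unit -/

/-- `σ` lies in the `G_q`-orbit of `σ₀`. -/
def ptj_SameOrbit (σ₀ σ : ptj_Emb K q) : Prop := ∃ τ : ptj_Gq q, σ = ptj_post τ σ₀

lemma ptj_sameOrbit_refl (σ : ptj_Emb K q) : ptj_SameOrbit σ σ := ⟨1, (ptj_post_one σ).symm⟩

lemma ptj_SameOrbit.post {σ₀ σ : ptj_Emb K q} (h : ptj_SameOrbit σ₀ σ) (τ : ptj_Gq q) :
    ptj_SameOrbit σ₀ (ptj_post τ σ) := by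
  obtain ⟨τ', rfl⟩ := h
  exact ⟨τ * τ', (ptj_post_mul τ τ' σ₀).symm⟩

lemma ptj_sameOrbit_post_iff {σ₀ σ : ptj_Emb K q} (τ : ptj_Gq q) :
    ptj_SameOrbit σ₀ (ptj_post τ σ) ↔ ptj_SameOrbit σ₀ σ := by
  refine ⟨fun h => ?_, fun h => h.post τ⟩
  have := h.post τ⁻¹
  rwa [← ptj_post_mul, inv_mul_cancel, ptj_post_one] at this

lemma ptj_SameOrbit.symm {σ₀ σ : ptj_Emb K q} (h : ptj_SameOrbit σ₀ σ) : ptj_SameOrbit σ σ₀ := by
  obtain ⟨τ, rfl⟩ := h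
  exact ⟨τ⁻¹, by rw [← ptj_post_mul, inv_mul_cancel, ptj_post_one]⟩

lemma ptj_SameOrbit.trans {σ₀ σ₁ σ₂ : ptj_Emb K q} (h : ptj_SameOrbit σ₀ σ₁)
    (h' : ptj_SameOrbit σ₁ σ₂) : ptj_SameOrbit σ₀ σ₂ := by
  obtain ⟨τ, rfl⟩ := h
  obtain ⟨τ', rfl⟩ := h'
  exact ⟨τ' * τ, (ptj_post_mul τ' τ σ₀).symm⟩

open Classical in
/-- The function on embeddings supported on the orbit of `σ₀` with value `τ a` at `τ ∘ σ₀`. -/
def ptj_locFun (σ₀ : ptj_Emb K q) (a : (ptj_Om q)ˣ) : ptj_Emb K q → (ptj_Om q)ˣ :=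
  fun σ => if h : ptj_SameOrbit σ₀ σ then ptj_tauU h.choose a else 1

lemma ptj_locFun_of_not {σ₀ σ : ptj_Emb K q} (a : (ptj_Om q)ˣ) (h : ¬ ptj_SameOrbit σ₀ σ) :
    ptj_locFun σ₀ a σ = 1 := by
  unfold ptj_locFun
  rw [dif_neg h]

lemma ptj_tauU_eq_of_post_eq {σ₀ : ptj_Emb K q} {a : (ptj_Om q)ˣ}
    (ha : (a : ptj_Om q) ∈ ptj_Kσ σ₀) {τ τ' : ptj_Gq q}
    (h : ptj_post τ σ₀ = ptj_post τ' σ₀) : ptj_tauU τ a = ptj_tauU τ' a := by
  have h1 := (ptj_post_eq_post_iff τ τ' σ₀).1 h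
  have h2 : (τ'⁻¹ * τ) (a : ptj_Om q) = a :=
    (IntermediateField.mem_fixingSubgroup_iff _ _).1 h1 _ ha
  ext
  simp only [ptj_tauU_coe]
  have h3 : τ' ((τ'⁻¹ * τ) (a : ptj_Om q)) = τ (a : ptj_Om q) := by
    rw [AlgEquiv.mul_apply]
    exact AlgEquiv.apply_symm_apply τ' _
  rw [← h3, h2]

lemma ptj_locFun_post {σ₀ : ptj_Emb K q} {a : (ptj_Om q)ˣ} (ha : (a : ptj_Om q) ∈ ptj_Kσ σ₀)
    (τ : ptj_Gq q) : ptj_locFun σ₀ a (ptj_post τ σ₀) = ptj_tauU τ a := by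
  have h : ptj_SameOrbit σ₀ (ptj_post τ σ₀) := ⟨τ, rfl⟩
  unfold ptj_locFun
  rw [dif_pos h]
  exact ptj_tauU_eq_of_post_eq ha h.choose_spec.symm

lemma ptj_locFun_self {σ₀ : ptj_Emb K q} {a : (ptj_Om q)ˣ} (ha : (a : ptj_Om q) ∈ ptj_Kσ σ₀) :
    ptj_locFun σ₀ a σ₀ = a := by
  have := ptj_locFun_post ha 1
  rw [ptj_post_one] at this
  rw [this]
  ext; simp

lemma ptj_locFun_mem_Jq {σ₀ : ptj_Emb K q} {a : (ptj_Om q)ˣ} (ha : (a : ptj_Om q) ∈ ptj_Kσ σ₀) :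
    ptj_locFun σ₀ a ∈ ptj_Jq K q := by
  intro τ σ
  by_cases h : ptj_SameOrbit σ₀ σ
  · obtain ⟨τ', rfl⟩ := h
    rw [← ptj_post_mul, ptj_locFun_post ha, ptj_locFun_post ha]
    ext; simp
  · rw [ptj_locFun_of_not a h, ptj_locFun_of_not a (fun h' => h ((ptj_sameOrbit_post_iff τ).1 h'))]
    simp

lemma ptj_locFun_mul {σ₀ : ptj_Emb K q} {a b : (ptj_Om q)ˣ} (ha : (a : ptj_Om q) ∈ ptj_Kσ σ₀)
    (hb : (b : ptj_Om q) ∈ ptj_Kσ σ₀) :
    ptj_locFun σ₀ (a * b) = ptj_locFun σ₀ a * ptj_locFun σ₀ b := by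
  have hab : ((a * b : (ptj_Om q)ˣ) : ptj_Om q) ∈ ptj_Kσ σ₀ := by
    rw [Units.val_mul]; exact mul_mem ha hb
  funext σ
  by_cases h : ptj_SameOrbit σ₀ σ
  · obtain ⟨τ, rfl⟩ := h
    rw [Pi.mul_apply, ptj_locFun_post hab, ptj_locFun_post ha, ptj_locFun_post hb, map_mul]
  · rw [Pi.mul_apply, ptj_locFun_of_not _ h, ptj_locFun_of_not _ h, ptj_locFun_of_not _ h, mul_one]

lemma ptj_locFun_one (σ₀ : ptj_Emb K q) : ptj_locFun σ₀ (1 : (ptj_Om q)ˣ) = 1 := by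
  funext σ
  by_cases h : ptj_SameOrbit σ₀ σ
  · obtain ⟨τ, rfl⟩ := h
    rw [ptj_locFun_post (by simpa using (ptj_Kσ σ₀).one_mem)]
    simp
  · rw [ptj_locFun_of_not _ h]; rfl

/-- The units of `Ω_q` lying in the local field `K_σ`. -/
def ptj_KσU (σ : ptj_Emb K q) : Subgroup (ptj_Om q)ˣ where
  carrier := {a | (a : ptj_Om q) ∈ ptj_Kσ σ}
  one_mem' := by simpa using (ptj_Kσ σ).one_mem
  mul_mem' := fun {a b} ha hb => by
    show ((a * b : (ptj_Om q)ˣ) : ptj_Om q) ∈ ptj_Kσ σ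
    rw [Units.val_mul]; exact mul_mem ha hb
  inv_mem' := fun {a} ha => by
    show ((a⁻¹ : (ptj_Om q)ˣ) : ptj_Om q) ∈ ptj_Kσ σ
    rw [Units.val_inv_eq_inv_val]; exact inv_mem ha

lemma ptj_mem_KσU_iff (σ : ptj_Emb K q) (a : (ptj_Om q)ˣ) :
    a ∈ ptj_KσU σ ↔ (a : ptj_Om q) ∈ ptj_Kσ σ := Iff.rfl

/-- `K_σˣ ≃ {a ∈ Ω_qˣ | a ∈ K_σ}`. -/
def ptj_KσUEquiv (σ : ptj_Emb K q) : (ptj_Kσ σ)ˣ ≃* ptj_KσU σ where
  toFun a := ⟨Units.map ((ptj_Kσ σ).val : ptj_Kσ σ →* ptj_Om q) a, (a : ptj_Kσ σ).2⟩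
  invFun a := ⟨⟨(a : (ptj_Om q)ˣ), a.2⟩, ⟨((a⁻¹ : ptj_KσU σ) : (ptj_Om q)ˣ), (a⁻¹).2⟩,
    Subtype.ext (by simp), Subtype.ext (by simp)⟩
  left_inv a := by ext; rfl
  right_inv a := by ext; rfl
  map_mul' a b := by ext; simp

@[simp] lemma ptj_KσUEquiv_coe (σ : ptj_Emb K q) (a : (ptj_Kσ σ)ˣ) :
    (((ptj_KσUEquiv σ a : ptj_KσU σ) : (ptj_Om q)ˣ) : ptj_Om q) = ((a : ptj_Kσ σ) : ptj_Om q) := rfl

/-- The local inclusion at the level of the `q`-component. -/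
def ptj_locInclQ (σ₀ : ptj_Emb K q) : ptj_KσU σ₀ →* ptj_Jq K q where
  toFun a := ⟨ptj_locFun σ₀ a, ptj_locFun_mem_Jq a.2⟩
  map_one' := Subtype.ext (ptj_locFun_one σ₀)
  map_mul' a b := Subtype.ext (ptj_locFun_mul a.2 b.2)

/-- The local evaluation at the level of the `q`-component. -/
def ptj_evalQ (σ₀ : ptj_Emb K q) : ptj_Jq K q →* ptj_KσU σ₀ where
  toFun f := ⟨(f : ptj_Emb K q → (ptj_Om q)ˣ) σ₀, ptj_mem_Kσ_of_mem_Jq f.2 σ₀⟩
  map_one' := rfl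
  map_mul' f g := rfl

@[simp] lemma ptj_evalQ_locInclQ (σ₀ : ptj_Emb K q) (a : ptj_KσU σ₀) :
    ptj_evalQ σ₀ (ptj_locInclQ σ₀ a) = a :=
  Subtype.ext (ptj_locFun_self a.2)

/-- Two equivariant functions which agree at `σ₀` agree on the whole orbit of `σ₀`. -/
lemma ptj_eq_on_orbit {f g : ptj_Emb K q → (ptj_Om q)ˣ} (hf : f ∈ ptj_Jq K q)
    (hg : g ∈ ptj_Jq K q) {σ₀ σ : ptj_Emb K q} (h : ptj_SameOrbit σ₀ σ) (h0 : f σ₀ = g σ₀) :
    f σ = g σ := by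
  obtain ⟨τ, rfl⟩ := h
  rw [hf τ σ₀, hg τ σ₀, h0]

/-! ### Ideles supported at one place -/

open Classical in
/-- The idele with `q`-component `ptj_locFun σ₀ a` and trivial components elsewhere. -/
def ptj_ideleFun (σ₀ : ptj_Emb K q) (a : (ptj_Om q)ˣ) : ptj_Amb K :=
  fun q' => if h : q' = q then h ▸ ptj_locFun σ₀ a else 1

lemma ptj_ideleFun_self (σ₀ : ptj_Emb K q) (a : (ptj_Om q)ˣ) :
    ptj_ideleFun σ₀ a q = ptj_locFun σ₀ a := by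
  unfold ptj_ideleFun
  rw [dif_pos rfl]

lemma ptj_ideleFun_of_ne (σ₀ : ptj_Emb K q) (a : (ptj_Om q)ˣ) {q' : Nat.Primes} (h : q' ≠ q) :
    ptj_ideleFun σ₀ a q' = 1 := by
  unfold ptj_ideleFun
  rw [dif_neg h]

lemma ptj_ideleFun_mem_J {σ₀ : ptj_Emb K q} {a : (ptj_Om q)ˣ} (ha : (a : ptj_Om q) ∈ ptj_Kσ σ₀) :
    ptj_ideleFun σ₀ a ∈ ptj_J K := by
  refine ⟨fun q' => ?_, ?_⟩
  · by_cases h : q' = q
    · subst h
      rw [ptj_ideleFun_self]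
      exact ptj_locFun_mem_Jq ha
    · rw [ptj_ideleFun_of_ne σ₀ a h]
      exact (ptj_Jq K q').one_mem
  · rw [Filter.eventually_cofinite]
    refine (Set.finite_singleton q).subset ?_
    intro q' hq'
    simp only [Set.mem_ofPred_eq] at hq'
    by_contra hne
    apply hq'
    intro σ
    rw [ptj_ideleFun_of_ne σ₀ a hne]
    simp

/-- The local inclusion `K_σ₀ˣ → J_K` (ideles supported at the place of `σ₀`). -/
def ptj_locIncl (σ₀ : ptj_Emb K q) : ptj_KσU σ₀ →* ptj_J K where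
  toFun a := ⟨ptj_ideleFun σ₀ a, ptj_ideleFun_mem_J a.2⟩
  map_one' := by
    apply Subtype.ext
    funext q'
    by_cases h : q' = q
    · subst h
      show ptj_ideleFun σ₀ ((1 : ptj_KσU σ₀) : (ptj_Om q')ˣ) q' = 1
      rw [ptj_ideleFun_self]
      exact ptj_locFun_one σ₀
    · exact ptj_ideleFun_of_ne σ₀ _ h
  map_mul' a b := by
    apply Subtype.ext
    funext q'
    by_cases h : q' = q
    · subst h
      show ptj_ideleFun σ₀ ((a * b : ptj_KσU σ₀) : (ptj_Om q')ˣ) q' =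
        ptj_ideleFun σ₀ (a : (ptj_Om q')ˣ) q' * ptj_ideleFun σ₀ (b : (ptj_Om q')ˣ) q'
      rw [ptj_ideleFun_self, ptj_ideleFun_self, ptj_ideleFun_self]
      exact ptj_locFun_mul a.2 b.2
    · show ptj_ideleFun σ₀ _ q' = ptj_ideleFun σ₀ _ q' * ptj_ideleFun σ₀ _ q'
      rw [ptj_ideleFun_of_ne σ₀ _ h, ptj_ideleFun_of_ne σ₀ _ h, ptj_ideleFun_of_ne σ₀ _ h, mul_one]

@[simp] lemma ptj_locIncl_apply_self (σ₀ : ptj_Emb K q) (a : ptj_KσU σ₀) :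
    ((ptj_locIncl σ₀ a : ptj_J K) : ptj_Amb K) q = ptj_locFun σ₀ a :=
  ptj_ideleFun_self σ₀ a

lemma ptj_locIncl_apply_of_ne (σ₀ : ptj_Emb K q) (a : ptj_KσU σ₀) {q' : Nat.Primes}
    (h : q' ≠ q) : ((ptj_locIncl σ₀ a : ptj_J K) : ptj_Amb K) q' = 1 :=
  ptj_ideleFun_of_ne σ₀ a h

/-- The local evaluation `J_K → K_σ₀ˣ`. -/
def ptj_evalAt (σ₀ : ptj_Emb K q) : ptj_J K →* ptj_KσU σ₀ where
  toFun f := ⟨(f : ptj_Amb K) q σ₀, ptj_mem_Kσ_of_mem_Jq (f.2.1 q) σ₀⟩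
  map_one' := rfl
  map_mul' f g := rfl

@[simp] lemma ptj_evalAt_coe (σ₀ : ptj_Emb K q) (f : ptj_J K) :
    ((ptj_evalAt σ₀ f : ptj_KσU σ₀) : (ptj_Om q)ˣ) = (f : ptj_Amb K) q σ₀ := rfl

@[simp] lemma ptj_evalAt_locIncl (σ₀ : ptj_Emb K q) (a : ptj_KσU σ₀) :
    ptj_evalAt σ₀ (ptj_locIncl σ₀ a) = a := by
  apply Subtype.ext
  rw [ptj_evalAt_coe, ptj_locIncl_apply_self]
  exact ptj_locFun_self a.2

/-- An idele is determined by its local evaluations (at all primes and all embeddings). -/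
lemma ptj_J_ext {f g : ptj_J K}
    (h : ∀ (q : Nat.Primes) (σ : ptj_Emb K q), ptj_evalAt σ f = ptj_evalAt σ g) : f = g := by
  apply Subtype.ext
  funext q σ
  exact congrArg (fun a : ptj_KσU σ => (a : (ptj_Om q)ˣ)) (h q σ)

end Fermat.Agent.Lib.PT

end
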