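/-
G1 (global modules for the S55 long-haul), part 4: RELATIVE maps for an extension `K/F`:
restriction of embeddings, `ptj_up : J_F → J_K`, Galois descent `J_K^Γ = J_F`,
and the idele norm `ptj_norm : J_K → J_F`.
-/
import Fermat.Agent.Lib.PT.GModLocal

set_option autoImplicit false
set_option linter.unusedVariables false
set_option linter.unusedSectionVars false
set_option linter.style.haveILetI false

noncomputable section

namespace Fermat.Agent.Lib.PT

variable {F K : Type*} [Field F] [Field K] [Algebra F K] {q : Nat.Primes}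

/-! ### Restriction of embeddings -/

/-- Restriction of a `q`-adic embedding of `K` to `F`. -/
def ptj_resEmb (σ : ptj_Emb K q) : ptj_Emb F q := σ.comp (algebraMap F K)

@[simp] lemma ptj_resEmb_apply (σ : ptj_Emb K q) (x : F) :
    ptj_resEmb σ x = σ (algebraMap F K x) := rfl

lemma ptj_resEmb_post (τ : ptj_Gq q) (σ : ptj_Emb K q) :
    ptj_resEmb (F := F) (ptj_post τ σ) = ptj_post τ (ptj_resEmb σ) := rfl

/-- Every embedding of `F` extends to `K` (algebraic extension, `Ω_q` algebraically closed). -/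
lemma ptj_resEmb_surjective [Algebra.IsAlgebraic F K] :
    Function.Surjective (ptj_resEmb (F := F) (K := K) (q := q)) := by
  intro φ
  letI : Algebra F (ptj_Om q) := φ.toAlgebra
  let σ : K →ₐ[F] ptj_Om q := IsAlgClosed.lift
  refine ⟨(σ : K →+* ptj_Om q), ?_⟩
  ext x
  exact σ.commutes x

lemma ptj_Kσ_resEmb_le (σ : ptj_Emb K q) : ptj_Kσ (ptj_resEmb (F := F) σ) ≤ ptj_Kσ σ := by
  rw [ptj_Kσ, IntermediateField.adjoin_le_iff]
  rintro _ ⟨x, rfl⟩
  exact ptj_apply_mem_Kσ σ _

/-! ### The map `J_F → J_K` -/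

/-- Pull back along restriction of embeddings (ambient version). -/
def ptj_upAmb : ptj_Amb F →* ptj_Amb K where
  toFun f := fun q σ => f q (ptj_resEmb σ)
  map_one' := rfl
  map_mul' f g := rfl

@[simp] lemma ptj_upAmb_apply (f : ptj_Amb F) (q : Nat.Primes) (σ : ptj_Emb K q) :
    ptj_upAmb (K := K) f q σ = f q (ptj_resEmb σ) := rfl

lemma ptj_upAmb_mem_J {f : ptj_Amb F} (hf : f ∈ ptj_J F) : ptj_upAmb (K := K) f ∈ ptj_J K :=
  ⟨fun q τ σ => by
      show f q (ptj_resEmb (ptj_post τ σ)) = ptj_tauU τ (f q (ptj_resEmb σ))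
      rw [ptj_resEmb_post]
      exact hf.1 q τ _,
    hf.2.mono fun q h σ => h (ptj_resEmb σ)⟩

variable (F K) in
/-- The natural map `J_F → J_K`. -/
def ptj_up : ptj_J F →* ptj_J K :=
  ((ptj_upAmb (F := F) (K := K)).comp (ptj_J F).subtype).codRestrict (ptj_J K)
    fun f => ptj_upAmb_mem_J (F := F) (K := K) f.2

@[simp] lemma ptj_up_coe (f : ptj_J F) :
    ((ptj_up F K f : ptj_J K) : ptj_Amb K) = ptj_upAmb (f : ptj_Amb F) := rfl

lemma ptj_up_apply (f : ptj_J F) (q : Nat.Primes) (σ : ptj_Emb K q) :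
    ((ptj_up F K f : ptj_J K) : ptj_Amb K) q σ = (f : ptj_Amb F) q (ptj_resEmb σ) := rfl

lemma ptj_up_injective [Algebra.IsAlgebraic F K] : Function.Injective (ptj_up F K) := by
  intro f g h
  apply Subtype.ext
  funext q φ
  obtain ⟨σ, rfl⟩ := ptj_resEmb_surjective (K := K) φ
  have := congrArg (fun x : ptj_J K => (x : ptj_Amb K) q σ) h
  exact this

lemma ptj_up_mem_JT {T : Finset Nat.Primes} {f : ptj_J F} (hf : f ∈ ptj_JT F T) :
    ptj_up F K f ∈ ptj_JT K T := fun q hq σ => hf q hq (ptj_resEmb σ)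

lemma ptj_up_mem_UT {T : Finset Nat.Primes} {f : ptj_J F} (hf : f ∈ ptj_UT F T) :
    ptj_up F K f ∈ ptj_UT K T :=
  ⟨fun q hq => by
      funext σ
      show (f : ptj_Amb F) q (ptj_resEmb σ) = 1
      rw [hf.1 q hq]; rfl,
    fun q hq σ => hf.2 q hq (ptj_resEmb σ)⟩

lemma ptj_up_mem_JT_iff [Algebra.IsAlgebraic F K] {T : Finset Nat.Primes} {f : ptj_J F} :
    ptj_up F K f ∈ ptj_JT K T ↔ f ∈ ptj_JT F T := by
  refine ⟨fun h q hq φ => ?_, ptj_up_mem_JT⟩
  obtain ⟨σ, rfl⟩ := ptj_resEmb_surjective (K := K) φ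
  exact h q hq σ

section Diag

variable [CharZero F] [Algebra.IsAlgebraic ℚ F] [CharZero K] [Algebra.IsAlgebraic ℚ K]

lemma ptj_up_diag (x : Fˣ) :
    ptj_up F K (ptj_diag F x) = ptj_diag K (Units.map (algebraMap F K : F →* K) x) := by
  apply Subtype.ext
  funext q σ
  ext
  rfl

lemma ptj_up_mem_principal {f : ptj_J F} (hf : f ∈ ptj_principal F) :
    ptj_up F K f ∈ ptj_principal K := by
  obtain ⟨x, rfl⟩ := hf
  exact ⟨_, (ptj_up_diag x).symm⟩

end Diag

/-! ### Galois descent -/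

variable {Γ : Type*} [Group Γ] [MulSemiringAction Γ K]

lemma ptj_resEmb_pre [SMulCommClass Γ F K] (γ : Γ) (σ : ptj_Emb K q) :
    ptj_resEmb (F := F) (ptj_pre γ σ) = ptj_resEmb σ := by
  ext x
  show σ (γ • algebraMap F K x) = σ (algebraMap F K x)
  rw [smul_algebraMap]

lemma ptj_smul_up [SMulCommClass Γ F K] (γ : Γ) (f : ptj_J F) :
    γ • ptj_up F K f = ptj_up F K f := by
  apply Subtype.ext
  funext q σ
  show (f : ptj_Amb F) q (ptj_resEmb (ptj_pre γ σ)) = (f : ptj_Amb F) q (ptj_resEmb σ)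
  rw [ptj_resEmb_pre]

/-- `Γ` acts freely on the embeddings. -/
lemma ptj_pre_eq_iff [FaithfulSMul Γ K] (γ γ' : Γ) (σ : ptj_Emb K q) :
    ptj_pre γ σ = ptj_pre γ' σ ↔ γ = γ' := by
  refine ⟨fun h => ?_, fun h => by rw [h]⟩
  apply eq_of_smul_eq_smul (α := K)
  intro x
  have := congrArg (fun ρ : ptj_Emb K q => ρ x) h
  exact σ.injective this

variable [Finite Γ] [IsGaloisGroup Γ F K]

/-- Two embeddings of `K` with the same restriction to `F` differ by a unique element of the
Galois group. -/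
lemma ptj_exists_pre_eq {σ σ' : ptj_Emb K q}
    (h : ptj_resEmb (F := F) σ = ptj_resEmb σ') : ∃ γ : Γ, σ' = ptj_pre γ σ := by
  haveI : IsGalois F K := IsGaloisGroup.isGalois Γ F K
  letI : Algebra F (ptj_Om q) := (ptj_resEmb (F := F) σ).toAlgebra
  letI : Algebra K (ptj_Om q) := σ.toAlgebra
  haveI : IsScalarTower F K (ptj_Om q) := IsScalarTower.of_algebraMap_eq fun x => rfl
  let σ'a : K →ₐ[F] ptj_Om q :=
    { (σ' : K →+* ptj_Om q) with
      commutes' := fun x => by
        have := congrArg (fun ρ : ptj_Emb F q => ρ x) h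
        exact this.symm }
  let e : K ≃ₐ[F] K := σ'a.restrictNormal' K
  let γ : Γ := (IsGaloisGroup.mulEquivAlgEquiv Γ F K).symm e
  refine ⟨γ, ?_⟩
  ext x
  have h1 : algebraMap K (ptj_Om q) (σ'a.restrictNormal K x) = σ'a (algebraMap K K x) :=
    σ'a.restrictNormal_commutes K x
  have h2 : γ • x = e x := by
    have := IsGaloisGroup.mulEquivAlgEquiv_apply_apply Γ F K γ x
    rw [← this]
    show (IsGaloisGroup.mulEquivAlgEquiv Γ F K ((IsGaloisGroup.mulEquivAlgEquiv Γ F K).symm e)) x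
      = e x
    rw [MulEquiv.apply_symm_apply]
  show σ' x = σ (γ • x)
  rw [h2]
  exact h1.symm

/-- Galois descent for ideles: the image of `J_F` in `J_K` is the group of `Γ`-invariants. -/
lemma ptj_mem_range_up_iff (f : ptj_J K) :
    f ∈ (ptj_up F K).range ↔ ∀ γ : Γ, γ • f = f := by
  haveI : FiniteDimensional F K := IsGaloisGroup.finiteDimensional Γ F K
  constructor
  · rintro ⟨g, rfl⟩ γ
    exact ptj_smul_up γ g
  · intro hinv
    -- `f q σ` only depends on the restriction of `σ`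
    have hdep : ∀ (q : Nat.Primes) (σ σ' : ptj_Emb K q),
        ptj_resEmb (F := F) σ = ptj_resEmb σ' →
        (f : ptj_Amb K) q σ' = (f : ptj_Amb K) q σ := by
      intro q σ σ' h
      obtain ⟨γ, rfl⟩ := ptj_exists_pre_eq (Γ := Γ) h
      have := congrArg (fun x : ptj_J K => (x : ptj_Amb K) q σ) (hinv γ)
      exact this
    choose ext hext using fun (q : Nat.Primes) (φ : ptj_Emb F q) =>
      ptj_resEmb_surjective (K := K) φ
    let g : ptj_Amb F := fun q φ => (f : ptj_Amb K) q (ext q φ)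
    have hg : g ∈ ptj_J F := by
      refine ⟨fun q τ φ => ?_, f.2.2.mono fun q h φ => h (ext q φ)⟩
      show (f : ptj_Amb K) q (ext q (ptj_post τ φ)) = ptj_tauU τ ((f : ptj_Amb K) q (ext q φ))
      rw [← f.2.1 q τ (ext q φ)]
      apply hdep
      rw [ptj_resEmb_post, hext, hext]
    refine ⟨⟨g, hg⟩, ?_⟩
    apply Subtype.ext
    funext q σ
    show (f : ptj_Amb K) q (ext q (ptj_resEmb σ)) = (f : ptj_Amb K) q σ
    apply hdep
    rw [hext]

/-! ### The idele norm -/

variable (Γ) in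
/-- `f ↦ ∏_γ γ • f` on `J_K`. -/
def ptj_normJ : ptj_J K →* ptj_J K where
  toFun f := ∏ᶠ γ : Γ, γ • f
  map_one' := by simp
  map_mul' f g := by
    simp only [smul_mul']
    exact finprod_mul_distrib (Set.toFinite _) (Set.toFinite _)

lemma ptj_normJ_apply (f : ptj_J K) : ptj_normJ Γ f = ∏ᶠ γ : Γ, γ • f := rfl

lemma ptj_smul_normJ (γ : Γ) (f : ptj_J K) : γ • ptj_normJ Γ f = ptj_normJ Γ f := by
  haveI : Fintype Γ := Fintype.ofFinite Γ
  rw [ptj_normJ_apply, finprod_eq_prod_of_fintype, Finset.smul_prod']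
  simp only [← mul_smul]
  exact Fintype.prod_bijective (fun γ' => γ * γ') (Group.mulLeft_bijective γ) _ _ fun _ => rfl

lemma ptj_normJ_mem_range (f : ptj_J K) : ptj_normJ Γ f ∈ (ptj_up F K).range :=
  (ptj_mem_range_up_iff (Γ := Γ) _).2 fun γ => ptj_smul_normJ γ f

variable (Γ F) in
/-- The idele norm `N_{K/F} : J_K → J_F`, characterised by `up (N f) = ∏_γ γ • f`. -/
def ptj_norm : ptj_J K →* ptj_J F :=
  haveI : FiniteDimensional F K := IsGaloisGroup.finiteDimensional Γ F K
  (MonoidHom.ofInjective (ptj_up_injective (F := F) (K := K))).symm.toMonoidHom.comp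
    ((ptj_normJ Γ).codRestrict (ptj_up F K).range ptj_normJ_mem_range)

lemma ptj_up_norm (f : ptj_J K) : ptj_up F K (ptj_norm F Γ f) = ptj_normJ Γ f := by
  haveI : FiniteDimensional F K := IsGaloisGroup.finiteDimensional Γ F K
  have := (MonoidHom.ofInjective (ptj_up_injective (F := F) (K := K))).apply_symm_apply
    ⟨ptj_normJ Γ f, ptj_normJ_mem_range f⟩
  exact congrArg Subtype.val this

/-- Explicit formula for the norm: the product over the fibre of the restriction map. -/
lemma ptj_norm_apply (f : ptj_J K) (q : Nat.Primes) (σ : ptj_Emb K q) :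
    (ptj_norm F Γ f : ptj_Amb F) q (ptj_resEmb σ) = ∏ᶠ γ : Γ, (f : ptj_Amb K) q (ptj_pre γ σ) := by
  haveI : Fintype Γ := Fintype.ofFinite Γ
  have h := congrArg (fun x : ptj_J K => (x : ptj_Amb K) q σ) (ptj_up_norm (F := F) (Γ := Γ) f)
  simp only [ptj_up_apply] at h
  rw [h, ptj_normJ_apply, finprod_eq_prod_of_fintype, finprod_eq_prod_of_fintype]
  have h2 : ∀ s : Finset Γ, ((∏ γ ∈ s, γ • f : ptj_J K) : ptj_Amb K) q σ =
      ∏ γ ∈ s, (f : ptj_Amb K) q (ptj_pre γ σ) := by
    intro s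
    classical
    induction s using Finset.induction_on with
    | empty => simp
    | insert a s ha ih =>
      rw [Finset.prod_insert ha, Finset.prod_insert ha, ← ih]
      rfl
  exact h2 Finset.univ

lemma ptj_norm_up (g : ptj_J F) : ptj_norm F Γ (ptj_up F K g) = g ^ Nat.card Γ := by
  haveI : FiniteDimensional F K := IsGaloisGroup.finiteDimensional Γ F K
  haveI : Fintype Γ := Fintype.ofFinite Γ
  apply ptj_up_injective (F := F) (K := K)
  rw [ptj_up_norm, map_pow, ptj_normJ_apply, finprod_eq_prod_of_fintype]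
  simp only [ptj_smul_up]
  rw [Finset.prod_const, Finset.card_univ, Nat.card_eq_fintype_card]

lemma ptj_norm_smul (γ : Γ) (f : ptj_J K) : ptj_norm F Γ (γ • f) = ptj_norm F Γ f := by
  haveI : FiniteDimensional F K := IsGaloisGroup.finiteDimensional Γ F K
  haveI : Fintype Γ := Fintype.ofFinite Γ
  apply ptj_up_injective (F := F) (K := K)
  rw [ptj_up_norm, ptj_up_norm, ptj_normJ_apply, ptj_normJ_apply, finprod_eq_prod_of_fintype,
    finprod_eq_prod_of_fintype]
  simp only [← mul_smul]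
  exact Fintype.prod_bijective (fun γ' => γ' * γ) (Group.mulRight_bijective γ) _ _ fun _ => rfl

lemma ptj_norm_mem_JT {T : Finset Nat.Primes} {f : ptj_J K} (hf : f ∈ ptj_JT K T) :
    ptj_norm F Γ f ∈ ptj_JT F T := by
  haveI : FiniteDimensional F K := IsGaloisGroup.finiteDimensional Γ F K
  haveI : Fintype Γ := Fintype.ofFinite Γ
  rw [← ptj_up_mem_JT_iff (K := K), ptj_up_norm, ptj_normJ_apply, finprod_eq_prod_of_fintype]
  exact Subgroup.prod_mem _ fun γ _ => ptj_smul_mem_JT γ hf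

end Fermat.Agent.Lib.PT

end
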