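/-
G1 (global modules for the S55 long-haul), part 5: DECOMPOSITION GROUPS in the embedding model
and the local description of the idele norm.

For `σ : K →+* Ω_q` the decomposition group is `Γ_σ = {γ | σ ∘ γ ∈ G_q σ}`; for `γ ∈ Γ_σ` there is
`τ_γ ∈ G_q` with `σ ∘ γ = τ_γ ∘ σ`, unique on the local field `K_σ`; `γ ↦ τ_γ|K_σ` identifies
`Γ_σ` with `Gal(K_σ/F_φ)`, `φ = σ|F`.
-/
import Fermat.Agent.Lib.PT.GModRel

set_option autoImplicit false
set_option linter.unusedVariables false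
set_option linter.unusedSectionVars false
set_option linter.style.haveILetI false

noncomputable section

namespace Fermat.Agent.Lib.PT

variable {F K : Type*} [Field F] [Field K] [Algebra F K] {q : Nat.Primes}
variable {Γ : Type*} [Group Γ] [MulSemiringAction Γ K]

open Classical in
lemma ptj_finprod_dite {Γ' M : Type*} [Finite Γ'] [CommMonoid M] (p : Γ' → Prop)
    (g : {x // p x} → M) :
    ∏ᶠ γ : Γ', (if h : p γ then g ⟨γ, h⟩ else 1) = ∏ᶠ x : {x // p x}, g x := by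
  haveI : Fintype Γ' := Fintype.ofFinite Γ'
  rw [finprod_eq_prod_of_fintype, finprod_eq_prod_of_fintype, Fintype.prod_dite]
  simp

lemma ptj_prod_complement {Γ' M : Type*} [Group Γ'] [Fintype Γ'] [CommMonoid M] (H : Subgroup Γ')
    [Fintype H] {T : Set Γ'} [Fintype T] (hT : Subgroup.IsComplement (H : Set Γ') T)
    (Φ : Γ' → M) : ∏ γ : Γ', Φ γ = ∏ c : T, ∏ h : H, Φ ((h : Γ') * (c : Γ')) := by
  classical
  have he : ∀ γ, ((hT.equiv γ).1 : Γ') * ((hT.equiv γ).2 : Γ') = γ :=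
    hT.equiv_fst_mul_equiv_snd
  rw [Finset.prod_comm]
  rw [← Fintype.prod_prod_type (f := fun x : H × T => Φ ((x.1 : Γ') * (x.2 : Γ')))]
  exact Fintype.prod_equiv hT.equiv _ _ (fun γ => by rw [he])

/-! ### Local fields and the two actions -/

lemma ptj_Kσ_pre (γ : Γ) (σ : ptj_Emb K q) : ptj_Kσ (ptj_pre γ σ) = ptj_Kσ σ := by
  have : Set.range (ptj_pre γ σ) = Set.range σ := by
    ext y
    constructor
    · rintro ⟨x, rfl⟩
      exact ⟨γ • x, rfl⟩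
    · rintro ⟨x, rfl⟩
      exact ⟨γ⁻¹ • x, by simp⟩
  rw [ptj_Kσ, ptj_Kσ, this]

lemma ptj_apply_mem_Kσ_post (τ : ptj_Gq q) (σ : ptj_Emb K q) {y : ptj_Om q}
    (hy : y ∈ ptj_Kσ σ) : τ y ∈ ptj_Kσ (ptj_post τ σ) := by
  have hle : ptj_Kσ σ ≤ (ptj_Kσ (ptj_post τ σ)).comap (τ : ptj_Om q →ₐ[ℚ_[(q : ℕ)]] ptj_Om q) := by
    rw [ptj_Kσ, IntermediateField.adjoin_le_iff]
    rintro _ ⟨x, rfl⟩
    show τ (σ x) ∈ ptj_Kσ (ptj_post τ σ)
    exact ptj_apply_mem_Kσ (ptj_post τ σ) x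
  exact hle hy

lemma ptj_tauU_mem_KσU_post (τ : ptj_Gq q) (σ : ptj_Emb K q) {a : (ptj_Om q)ˣ}
    (ha : a ∈ ptj_KσU σ) : ptj_tauU τ a ∈ ptj_KσU (ptj_post τ σ) :=
  ptj_apply_mem_Kσ_post τ σ ha

/-! ### The decomposition group -/

variable (Γ) in
/-- The decomposition group of the embedding `σ`. -/
def ptj_decomp (σ : ptj_Emb K q) : Subgroup Γ where
  carrier := {γ | ptj_SameOrbit σ (ptj_pre γ σ)}
  one_mem' := by
    show ptj_SameOrbit σ (ptj_pre (1 : Γ) σ)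
    rw [ptj_pre_one]; exact ptj_sameOrbit_refl σ
  mul_mem' := fun {γ γ'} h h' => by
    obtain ⟨τ, hτ⟩ := h
    obtain ⟨τ', hτ'⟩ := h'
    refine ⟨τ * τ', ?_⟩
    rw [ptj_pre_mul, hτ, ptj_pre_post, hτ', ptj_post_mul]
  inv_mem' := fun {γ} h => by
    obtain ⟨τ, hτ⟩ := h
    refine ⟨τ⁻¹, ?_⟩
    have h1 : ptj_pre γ⁻¹ (ptj_pre γ σ) = σ := by
      rw [← ptj_pre_mul, mul_inv_cancel, ptj_pre_one]
    rw [hτ, ptj_pre_post] at h1
    have h2 := congrArg (ptj_post τ⁻¹) h1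
    rwa [← ptj_post_mul, inv_mul_cancel, ptj_post_one] at h2

lemma ptj_mem_decomp_iff (σ : ptj_Emb K q) (γ : Γ) :
    γ ∈ ptj_decomp Γ σ ↔ ∃ τ : ptj_Gq q, ptj_pre γ σ = ptj_post τ σ := Iff.rfl

/-- A choice of `τ_γ ∈ G_q` with `σ ∘ γ = τ_γ ∘ σ`. -/
def ptj_tauOf {σ : ptj_Emb K q} (γ : ptj_decomp Γ σ) : ptj_Gq q := Classical.choose γ.2

lemma ptj_tauOf_spec {σ : ptj_Emb K q} (γ : ptj_decomp Γ σ) :
    ptj_pre (γ : Γ) σ = ptj_post (ptj_tauOf γ) σ := Classical.choose_spec γ.2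

/-- `τ_γ` is unique on the local field. -/
lemma ptj_tauU_eq_tauOf {σ : ptj_Emb K q} (γ : ptj_decomp Γ σ) {τ : ptj_Gq q}
    (h : ptj_pre (γ : Γ) σ = ptj_post τ σ) {a : (ptj_Om q)ˣ} (ha : a ∈ ptj_KσU σ) :
    ptj_tauU τ a = ptj_tauU (ptj_tauOf γ) a :=
  ptj_tauU_eq_of_post_eq ha (h.symm.trans (ptj_tauOf_spec γ))

lemma ptj_tauOf_mem {σ : ptj_Emb K q} (γ : ptj_decomp Γ σ) {a : (ptj_Om q)ˣ}
    (ha : a ∈ ptj_KσU σ) : ptj_tauU (ptj_tauOf γ) a ∈ ptj_KσU σ := by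
  have := ptj_tauU_mem_KσU_post (ptj_tauOf γ) σ ha
  rw [← ptj_tauOf_spec γ] at this
  rw [ptj_mem_KσU_iff] at this ⊢
  rwa [ptj_Kσ_pre] at this

lemma ptj_tauOf_one {σ : ptj_Emb K q} {a : (ptj_Om q)ˣ} (ha : a ∈ ptj_KσU σ) :
    ptj_tauU (ptj_tauOf (1 : ptj_decomp Γ σ)) a = a := by
  have h : ptj_pre ((1 : ptj_decomp Γ σ) : Γ) σ = ptj_post (1 : ptj_Gq q) σ := by
    rw [Subgroup.coe_one, ptj_pre_one, ptj_post_one]
  rw [← ptj_tauU_eq_tauOf (1 : ptj_decomp Γ σ) h ha]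
  ext; simp

lemma ptj_tauOf_mul {σ : ptj_Emb K q} (γ γ' : ptj_decomp Γ σ) {a : (ptj_Om q)ˣ}
    (ha : a ∈ ptj_KσU σ) :
    ptj_tauU (ptj_tauOf (γ * γ')) a = ptj_tauU (ptj_tauOf γ) (ptj_tauU (ptj_tauOf γ') a) := by
  have h : ptj_pre ((γ * γ' : ptj_decomp Γ σ) : Γ) σ =
      ptj_post (ptj_tauOf γ * ptj_tauOf γ') σ := by
    rw [Subgroup.coe_mul, ptj_pre_mul, ptj_tauOf_spec γ, ptj_pre_post, ptj_tauOf_spec γ',
      ptj_post_mul]
  rw [← ptj_tauU_eq_tauOf (γ * γ') h ha]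
  ext; simp

/-- The value of an equivariant function at `σ ∘ γ`, `γ` in the decomposition group. -/
lemma ptj_apply_pre_decomp {f : ptj_Emb K q → (ptj_Om q)ˣ} (hf : f ∈ ptj_Jq K q)
    {σ : ptj_Emb K q} (γ : ptj_decomp Γ σ) :
    f (ptj_pre (γ : Γ) σ) = ptj_tauU (ptj_tauOf γ) (f σ) := by
  rw [ptj_tauOf_spec γ, hf]

open Classical in
/-- The value of the orbit function of `σ` at `σ ∘ γ`. -/
lemma ptj_locFun_pre {σ : ptj_Emb K q} {a : (ptj_Om q)ˣ} (ha : a ∈ ptj_KσU σ) (γ : Γ) :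
    ptj_locFun σ a (ptj_pre γ σ) =
      if h : γ ∈ ptj_decomp Γ σ then ptj_tauU (ptj_tauOf ⟨γ, h⟩) a else 1 := by
  split_ifs with h
  · have := ptj_apply_pre_decomp (ptj_locFun_mem_Jq ha) (⟨γ, h⟩ : ptj_decomp Γ σ)
    rw [ptj_locFun_self ha] at this
    exact this
  · exact ptj_locFun_of_not a h

/-! ### The local norm and the idele norm -/

variable [Finite Γ] [IsGaloisGroup Γ F K]

/-- Two embeddings of `K` whose restrictions to `F` are in the same `G_q`-orbit differ by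
elements of `G_q` and `Γ`. -/
lemma ptj_exists_of_sameOrbit_resEmb {σ σ' : ptj_Emb K q}
    (h : ptj_SameOrbit (ptj_resEmb (F := F) σ) (ptj_resEmb σ')) :
    ∃ (τ : ptj_Gq q) (γ : Γ), σ' = ptj_post τ (ptj_pre γ σ) := by
  obtain ⟨τ, hτ⟩ := h
  have h1 : ptj_resEmb (F := F) (ptj_post τ σ) = ptj_resEmb σ' := by
    rw [ptj_resEmb_post, hτ]
  obtain ⟨γ, hγ⟩ := ptj_exists_pre_eq (Γ := Γ) h1
  exact ⟨τ, γ, by rw [hγ, ptj_pre_post]⟩

variable (F Γ) in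
/-- The local norm `K_σˣ → F_φˣ`, `φ = σ|F`, defined through the idele norm. -/
def ptj_locNorm (σ : ptj_Emb K q) : ptj_KσU σ →* ptj_KσU (ptj_resEmb (F := F) σ) :=
  (ptj_evalAt (ptj_resEmb (F := F) σ)).comp ((ptj_norm F Γ).comp (ptj_locIncl σ))

/-- The local norm is the product over the decomposition group. -/
lemma ptj_locNorm_coe (σ : ptj_Emb K q) (a : ptj_KσU σ) :
    ((ptj_locNorm F Γ σ a : ptj_KσU (ptj_resEmb (F := F) σ)) : (ptj_Om q)ˣ) =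
      ∏ᶠ γ : ptj_decomp Γ σ, ptj_tauU (ptj_tauOf γ) (a : (ptj_Om q)ˣ) := by
  classical
  show ((ptj_norm F Γ (ptj_locIncl σ a) : ptj_J F) : ptj_Amb F) q (ptj_resEmb σ) = _
  rw [ptj_norm_apply]
  simp only [ptj_locIncl_apply_self]
  have h1 : ∀ γ : Γ, ptj_locFun σ (a : (ptj_Om q)ˣ) (ptj_pre γ σ) =
      if h : γ ∈ ptj_decomp Γ σ then ptj_tauU (ptj_tauOf ⟨γ, h⟩) (a : (ptj_Om q)ˣ) else 1 :=
    fun γ => ptj_locFun_pre a.2 γ
  simp only [h1]
  exact ptj_finprod_dite (fun γ : Γ => γ ∈ ptj_decomp Γ σ)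
    (fun γ => ptj_tauU (ptj_tauOf γ) (a : (ptj_Om q)ˣ))


lemma ptj_locNorm_coe' (σ : ptj_Emb K q) (a : ptj_KσU σ) [Fintype (ptj_decomp Γ σ)] :
    ((ptj_locNorm F Γ σ a : ptj_KσU (ptj_resEmb (F := F) σ)) : (ptj_Om q)ˣ) =
      ∏ γ : ptj_decomp Γ σ, ptj_tauU (ptj_tauOf γ) (a : (ptj_Om q)ˣ) := by
  rw [ptj_locNorm_coe, finprod_eq_prod_of_fintype]

/-- (5b) The idele norm of an idele supported at the place of `σ` is the idele supported at the
place of `σ|F` given by the local norm. -/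
lemma ptj_norm_locIncl (σ : ptj_Emb K q) (a : ptj_KσU σ) :
    ptj_norm F Γ (ptj_locIncl σ a) = ptj_locIncl (ptj_resEmb (F := F) σ) (ptj_locNorm F Γ σ a) := by
  haveI : FiniteDimensional F K := IsGaloisGroup.finiteDimensional Γ F K
  apply Subtype.ext
  funext q' φ'
  obtain ⟨σ', rfl⟩ := ptj_resEmb_surjective (K := K) φ'
  by_cases hq : q' = q
  · subst hq
    by_cases horb : ptj_SameOrbit (ptj_resEmb (F := F) σ) (ptj_resEmb σ')
    · -- both sides are equivariant and agree at `σ|F`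
      refine ptj_eq_on_orbit ((ptj_norm F Γ (ptj_locIncl σ a)).2.1 q')
        ((ptj_locIncl (ptj_resEmb (F := F) σ) (ptj_locNorm F Γ σ a)).2.1 q') horb ?_
      rw [ptj_locIncl_apply_self, ptj_locFun_self (ptj_locNorm F Γ σ a).2]
      rfl
    · rw [ptj_locIncl_apply_self, ptj_locFun_of_not _ horb, ptj_norm_apply]
      apply finprod_eq_one_of_forall_eq_one
      intro γ
      rw [ptj_locIncl_apply_self]
      apply ptj_locFun_of_not
      rintro ⟨τ, hτ⟩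
      apply horb
      refine ⟨τ, ?_⟩
      have := congrArg (ptj_resEmb (F := F)) hτ
      rwa [ptj_resEmb_pre, ptj_resEmb_post] at this
  · rw [ptj_locIncl_apply_of_ne _ _ hq, ptj_norm_apply]
    show _ = (1 : (ptj_Om q')ˣ)
    apply finprod_eq_one_of_forall_eq_one
    intro γ
    rw [ptj_locIncl_apply_of_ne _ _ hq]
    rfl

/-- (5a) The idele norm is locally a norm: its component at `σ|F` is a local norm from `K_σ`. -/
lemma ptj_evalAt_norm_mem_range (f : ptj_J K) (σ : ptj_Emb K q) :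
    ptj_evalAt (ptj_resEmb (F := F) σ) (ptj_norm F Γ f) ∈ (ptj_locNorm F Γ σ).range := by
  classical
  haveI : Fintype Γ := Fintype.ofFinite Γ
  obtain ⟨T, hT, -⟩ := Subgroup.exists_isComplement_right (ptj_decomp Γ σ) 1
  haveI : Fintype T := Fintype.ofFinite T
  -- the values at the coset representatives
  have hmem : ∀ c : Γ, (f : ptj_Amb K) q (ptj_pre c σ) ∈ ptj_KσU σ := by
    intro c
    have := ptj_mem_Kσ_of_mem_Jq (f.2.1 q) (ptj_pre c σ)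
    rw [ptj_Kσ_pre] at this
    exact this
  let a : ptj_KσU σ := ∏ c : T, ⟨(f : ptj_Amb K) q (ptj_pre (c : Γ) σ), hmem c⟩
  refine ⟨a, ?_⟩
  apply Subtype.ext
  haveI : Fintype (ptj_decomp Γ σ) := Fintype.ofFinite _
  rw [ptj_locNorm_coe', ptj_evalAt_coe, ptj_norm_apply, finprod_eq_prod_of_fintype]
  -- split the product over `Γ` along `Γ = Γ_σ · T`
  rw [ptj_prod_complement (ptj_decomp Γ σ) hT]
  have hstep : ∀ (h : ptj_decomp Γ σ) (c : T),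
      (f : ptj_Amb K) q (ptj_pre ((h : Γ) * (c : Γ)) σ) =
        ptj_tauU (ptj_tauOf h) ((f : ptj_Amb K) q (ptj_pre (c : Γ) σ)) := by
    intro h c
    rw [ptj_pre_mul, ptj_tauOf_spec h, ptj_pre_post, f.2.1 q]
  have hcoe : ((a : ptj_KσU σ) : (ptj_Om q)ˣ) = ∏ c : T, (f : ptj_Amb K) q (ptj_pre (c : Γ) σ) := by
    simp only [a]
    rw [← Subgroup.coe_subtype, map_prod]
    rfl
  rw [hcoe]
  simp only [hstep, map_prod]
  exact Finset.prod_comm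

end Fermat.Agent.Lib.PT

end
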