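/-
G1 (global modules for the S55 long-haul), part 6: the LOCAL GALOIS GROUP.
For `K/F` with Galois group `Γ`, `σ : K →+* Ω_q`, `φ = σ|F`: the decomposition group `Γ_σ` acts on
the local field `K_σ` (through `γ ↦ τ_γ`), and `Γ_σ` is a Galois group for `K_σ/F_φ`
(`IsGaloisGroup`).  Hence `K_σ/F_φ` is Galois of degree `#Γ_σ`, and the local norm of
`GModDecomp` is `Algebra.norm`.
-/
import Fermat.Agent.Lib.PT.GModDecomp

set_option autoImplicit false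
set_option linter.unusedVariables false
set_option linter.unusedSectionVars false
set_option linter.style.haveILetI false

noncomputable section

namespace Fermat.Agent.Lib.PT

variable {F K : Type*} [Field F] [Field K] [Algebra F K] {q : Nat.Primes}
variable {Γ : Type*} [Group Γ] [MulSemiringAction Γ K]

/-! ### `τ_γ` on field elements -/

lemma ptj_apply_eq_of_post_eq {σ : ptj_Emb K q} {y : ptj_Om q} (hy : y ∈ ptj_Kσ σ)
    {τ τ' : ptj_Gq q} (h : ptj_post τ σ = ptj_post τ' σ) : τ y = τ' y := by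
  have h1 := (ptj_post_eq_post_iff τ τ' σ).1 h
  have h2 : (τ'⁻¹ * τ) y = y := (IntermediateField.mem_fixingSubgroup_iff _ _).1 h1 _ hy
  have h3 : τ' ((τ'⁻¹ * τ) y) = τ y := by
    rw [AlgEquiv.mul_apply]
    exact AlgEquiv.apply_symm_apply τ' _
  rw [← h3, h2]

lemma ptj_tauOf_apply_eq {σ : ptj_Emb K q} (γ : ptj_decomp Γ σ) {τ : ptj_Gq q}
    (h : ptj_pre (γ : Γ) σ = ptj_post τ σ) {y : ptj_Om q} (hy : y ∈ ptj_Kσ σ) :
    τ y = ptj_tauOf γ y :=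
  ptj_apply_eq_of_post_eq hy (h.symm.trans (ptj_tauOf_spec γ))

lemma ptj_tauOf_apply_mem {σ : ptj_Emb K q} (γ : ptj_decomp Γ σ) {y : ptj_Om q}
    (hy : y ∈ ptj_Kσ σ) : ptj_tauOf γ y ∈ ptj_Kσ σ := by
  have := ptj_apply_mem_Kσ_post (ptj_tauOf γ) σ hy
  rwa [← ptj_tauOf_spec γ, ptj_Kσ_pre] at this

lemma ptj_tauOf_apply_emb {σ : ptj_Emb K q} (γ : ptj_decomp Γ σ) (x : K) :
    ptj_tauOf γ (σ x) = σ ((γ : Γ) • x) := by
  have := congrArg (fun ρ : ptj_Emb K q => ρ x) (ptj_tauOf_spec γ)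
  exact this.symm

lemma ptj_tauOf_one_apply {σ : ptj_Emb K q} {y : ptj_Om q} (hy : y ∈ ptj_Kσ σ) :
    ptj_tauOf (1 : ptj_decomp Γ σ) y = y := by
  have h : ptj_pre ((1 : ptj_decomp Γ σ) : Γ) σ = ptj_post (1 : ptj_Gq q) σ := by
    rw [Subgroup.coe_one, ptj_pre_one, ptj_post_one]
  rw [← ptj_tauOf_apply_eq (1 : ptj_decomp Γ σ) h hy]
  rfl

lemma ptj_tauOf_mul_apply {σ : ptj_Emb K q} (γ γ' : ptj_decomp Γ σ) {y : ptj_Om q}
    (hy : y ∈ ptj_Kσ σ) : ptj_tauOf (γ * γ') y = ptj_tauOf γ (ptj_tauOf γ' y) := by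
  have h : ptj_pre ((γ * γ' : ptj_decomp Γ σ) : Γ) σ =
      ptj_post (ptj_tauOf γ * ptj_tauOf γ') σ := by
    rw [Subgroup.coe_mul, ptj_pre_mul, ptj_tauOf_spec γ, ptj_pre_post, ptj_tauOf_spec γ',
      ptj_post_mul]
  rw [← ptj_tauOf_apply_eq (γ * γ') h hy]
  rfl

/-! ### The relative local field -/

variable (F) in
/-- The local field `K_σ` as an intermediate field of `Ω_q / F_φ`, `φ = σ|F`. -/
def ptj_Krel (σ : ptj_Emb K q) :
    IntermediateField (ptj_Kσ (ptj_resEmb (F := F) σ)) (ptj_Om q) :=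
  IntermediateField.extendScalars (ptj_Kσ_resEmb_le (F := F) σ)

lemma ptj_mem_Krel_iff (σ : ptj_Emb K q) (y : ptj_Om q) :
    y ∈ ptj_Krel F σ ↔ y ∈ ptj_Kσ σ := Iff.rfl

/-- The action of the decomposition group on the local field. -/
instance ptj_decompAction (σ : ptj_Emb K q) :
    MulSemiringAction (ptj_decomp Γ σ) (ptj_Krel F σ) where
  smul γ y := ⟨ptj_tauOf γ (y : ptj_Om q), ptj_tauOf_apply_mem γ y.2⟩
  one_smul y := Subtype.ext (ptj_tauOf_one_apply y.2)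
  mul_smul γ γ' y := Subtype.ext (ptj_tauOf_mul_apply γ γ' y.2)
  smul_zero γ := Subtype.ext (map_zero _)
  smul_add γ y z := Subtype.ext (map_add _ _ _)
  smul_one γ := Subtype.ext (map_one _)
  smul_mul γ y z := Subtype.ext (map_mul _ _ _)

@[simp] lemma ptj_decomp_smul_coe (σ : ptj_Emb K q) (γ : ptj_decomp Γ σ) (y : ptj_Krel F σ) :
    ((γ • y : ptj_Krel F σ) : ptj_Om q) = ptj_tauOf γ (y : ptj_Om q) := rfl

variable [Finite Γ] [IsGaloisGroup Γ F K]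

/-- `τ_γ` fixes the local base field `F_φ`. -/
lemma ptj_tauOf_mem_fixingSubgroup (σ : ptj_Emb K q) (γ : ptj_decomp Γ σ) :
    ptj_tauOf γ ∈ (ptj_Kσ (ptj_resEmb (F := F) σ)).fixingSubgroup := by
  rw [← ptj_post_eq_iff, ← ptj_resEmb_post, ← ptj_tauOf_spec γ, ptj_resEmb_pre]

/-- Every element of `G_q` fixing `F_φ` acts on `K_σ` as some `τ_γ`. -/
lemma ptj_exists_decomp_of_mem_fixingSubgroup (σ : ptj_Emb K q) {τ : ptj_Gq q}
    (hτ : τ ∈ (ptj_Kσ (ptj_resEmb (F := F) σ)).fixingSubgroup) :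
    ∃ γ : ptj_decomp Γ σ, ptj_pre (γ : Γ) σ = ptj_post τ σ := by
  have h1 : ptj_resEmb (F := F) σ = ptj_resEmb (ptj_post τ σ) := by
    rw [ptj_resEmb_post, (ptj_post_eq_iff τ _).2 hτ]
  obtain ⟨γ, hγ⟩ := ptj_exists_pre_eq (Γ := Γ) h1
  exact ⟨⟨γ, τ, hγ.symm⟩, hγ.symm⟩

/-- The decomposition group is a Galois group for `K_σ / F_φ`. -/
instance ptj_isGaloisGroup_decomp (σ : ptj_Emb K q) :
    IsGaloisGroup (ptj_decomp Γ σ) (ptj_Kσ (ptj_resEmb (F := F) σ)) (ptj_Krel F σ) where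
  faithful := ⟨fun {γ γ'} h => by
    haveI : FaithfulSMul Γ K := IsGaloisGroup.faithful F
    apply Subtype.ext
    apply eq_of_smul_eq_smul (α := K)
    intro x
    have hx := h ⟨σ x, ptj_apply_mem_Kσ σ x⟩
    have hx' := congrArg (fun y : ptj_Krel F σ => (y : ptj_Om q)) hx
    simp only [ptj_decomp_smul_coe, ptj_tauOf_apply_emb] at hx'
    exact σ.injective hx'⟩
  commutes := ⟨fun γ e y => by
    apply Subtype.ext
    show ptj_tauOf γ ((e : ptj_Om q) * (y : ptj_Om q)) = (e : ptj_Om q) * ptj_tauOf γ (y : ptj_Om q)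
    rw [map_mul]
    congr 1
    exact (IntermediateField.mem_fixingSubgroup_iff _ _).1 (ptj_tauOf_mem_fixingSubgroup σ γ) _ e.2⟩
  isInvariant := ⟨fun y hy => by
    have hE := InfiniteGalois.fixedField_fixingSubgroup (ptj_Kσ (ptj_resEmb (F := F) σ))
    have h2 : (y : ptj_Om q) ∈
        IntermediateField.fixedField (ptj_Kσ (ptj_resEmb (F := F) σ)).fixingSubgroup := by
      rw [IntermediateField.mem_fixedField_iff]
      intro τ hτ
      obtain ⟨γ, hγ⟩ := ptj_exists_decomp_of_mem_fixingSubgroup (Γ := Γ) σ hτ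
      rw [ptj_tauOf_apply_eq γ hγ y.2]
      exact congrArg (fun z : ptj_Krel F σ => (z : ptj_Om q)) (hy γ)
    have hmem : (y : ptj_Om q) ∈ ptj_Kσ (ptj_resEmb (F := F) σ) :=
      (SetLike.ext_iff.1 hE _).1 h2
    exact ⟨⟨(y : ptj_Om q), hmem⟩, Subtype.ext rfl⟩⟩

lemma ptj_isGalois_Krel (Γ' : Type*) [Group Γ'] [MulSemiringAction Γ' K] [Finite Γ']
    [IsGaloisGroup Γ' F K] (σ : ptj_Emb K q) :
    IsGalois (ptj_Kσ (ptj_resEmb (F := F) σ)) (ptj_Krel F σ) :=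
  IsGaloisGroup.isGalois (ptj_decomp Γ' σ) _ _

lemma ptj_card_decomp (σ : ptj_Emb K q) :
    Nat.card (ptj_decomp Γ σ) =
      Module.finrank (ptj_Kσ (ptj_resEmb (F := F) σ)) (ptj_Krel F σ) :=
  IsGaloisGroup.card_eq_finrank (ptj_decomp Γ σ) _ _

/-- The local Galois group is the decomposition group. -/
def ptj_decompEquiv (σ : ptj_Emb K q) :
    ptj_decomp Γ σ ≃* (ptj_Krel F σ ≃ₐ[ptj_Kσ (ptj_resEmb (F := F) σ)] ptj_Krel F σ) :=
  IsGaloisGroup.mulEquivAlgEquiv (ptj_decomp Γ σ) _ _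

@[simp] lemma ptj_decompEquiv_apply_coe (σ : ptj_Emb K q) (γ : ptj_decomp Γ σ)
    (y : ptj_Krel F σ) :
    ((ptj_decompEquiv (F := F) σ γ y : ptj_Krel F σ) : ptj_Om q) = ptj_tauOf γ (y : ptj_Om q) := rfl

/-- The local norm of `GModDecomp` is the field norm `N_{K_σ/F_φ}`. -/
lemma ptj_locNorm_eq_algebraNorm (σ : ptj_Emb K q) (a : ptj_KσU σ) :
    (((ptj_locNorm F Γ σ a : ptj_KσU (ptj_resEmb (F := F) σ)) : (ptj_Om q)ˣ) : ptj_Om q) =
      ((Algebra.norm (ptj_Kσ (ptj_resEmb (F := F) σ))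
        (⟨((a : (ptj_Om q)ˣ) : ptj_Om q), a.2⟩ : ptj_Krel F σ) :
          ptj_Kσ (ptj_resEmb (F := F) σ)) : ptj_Om q) := by
  classical
  haveI := ptj_isGalois_Krel (F := F) Γ σ
  haveI : FiniteDimensional (ptj_Kσ (ptj_resEmb (F := F) σ)) (ptj_Krel F σ) :=
    IsGaloisGroup.finiteDimensional (ptj_decomp Γ σ) _ _
  haveI : Fintype (ptj_decomp Γ σ) := Fintype.ofFinite _
  set y : ptj_Krel F σ := ⟨((a : (ptj_Om q)ˣ) : ptj_Om q), a.2⟩ with hy
  have h1 := Algebra.norm_eq_prod_automorphisms (ptj_Kσ (ptj_resEmb (F := F) σ)) y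
  have h2 : ((algebraMap (ptj_Kσ (ptj_resEmb (F := F) σ)) (ptj_Krel F σ)
      (Algebra.norm (ptj_Kσ (ptj_resEmb (F := F) σ)) y) : ptj_Krel F σ) : ptj_Om q) =
      ((Algebra.norm (ptj_Kσ (ptj_resEmb (F := F) σ)) y :
        ptj_Kσ (ptj_resEmb (F := F) σ)) : ptj_Om q) := rfl
  rw [← h2, h1, ptj_locNorm_coe']
  rw [← Fintype.prod_equiv (ptj_decompEquiv (F := F) (Γ := Γ) σ).toEquiv
    (fun γ => (ptj_decompEquiv (F := F) (Γ := Γ) σ γ) y) (fun e => e y) (fun γ => rfl)]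
  rw [Units.coe_prod]
  have h3 : ((∏ γ : ptj_decomp Γ σ, (ptj_decompEquiv (F := F) σ γ) y : ptj_Krel F σ) : ptj_Om q) =
      ∏ γ : ptj_decomp Γ σ, (((ptj_decompEquiv (F := F) σ γ) y : ptj_Krel F σ) : ptj_Om q) := by
    rw [← IntermediateField.coe_val, map_prod]
  rw [h3]
  rfl

end Fermat.Agent.Lib.PT

end
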