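/-
G1 (global modules for the S55 long-haul), part 7: the NORM THEOREM FOR IDELES.
An idele of `F` is a norm from `K` iff it is a local norm at every place (given that units are
norms of units at the places outside a finite set `T`, e.g. `K/F` unramified outside `T`).
-/
import Fermat.Agent.Lib.PT.GModGal

set_option autoImplicit false
set_option linter.unusedVariables false
set_option linter.unusedSectionVars false
set_option linter.style.haveILetI false

noncomputable section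

namespace Fermat.Agent.Lib.PT

/-! ### Orbit representatives -/

section Reps

variable {K : Type*} [Field K] {q : Nat.Primes}

variable (K q) in
/-- The setoid of `G_q`-orbits on the `q`-adic embeddings. -/
def ptj_orbitSetoid : Setoid (ptj_Emb K q) where
  r := ptj_SameOrbit
  iseqv := ⟨ptj_sameOrbit_refl, fun h => h.symm, fun h h' => h.trans h'⟩

/-- The chosen representative of the orbit of `σ`. -/
def ptj_rep (σ : ptj_Emb K q) : ptj_Emb K q :=
  @Quotient.out _ (ptj_orbitSetoid K q) (@Quotient.mk _ (ptj_orbitSetoid K q) σ)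

lemma ptj_rep_sameOrbit (σ : ptj_Emb K q) : ptj_SameOrbit (ptj_rep σ) σ :=
  @Quotient.mk_out _ (ptj_orbitSetoid K q) σ

lemma ptj_rep_eq_of_sameOrbit {σ σ' : ptj_Emb K q} (h : ptj_SameOrbit σ σ') :
    ptj_rep σ = ptj_rep σ' := by
  unfold ptj_rep
  rw [@Quotient.sound _ (ptj_orbitSetoid K q) σ σ' h]

lemma ptj_rep_rep (σ : ptj_Emb K q) : ptj_rep (ptj_rep σ) = ptj_rep σ :=
  ptj_rep_eq_of_sameOrbit (ptj_rep_sameOrbit σ)

lemma ptj_sameOrbit_iff_rep_eq {σ σ' : ptj_Emb K q} :
    ptj_SameOrbit σ σ' ↔ ptj_rep σ = ptj_rep σ' := by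
  refine ⟨ptj_rep_eq_of_sameOrbit, fun h => ?_⟩
  have h1 := (ptj_rep_sameOrbit σ).symm
  have h2 := ptj_rep_sameOrbit σ'
  rw [← h] at h2
  exact h1.trans h2

variable (K q) in
/-- The set of chosen orbit representatives (= places of `K` above `q`). -/
def ptj_reps : Set (ptj_Emb K q) := {σ | ptj_rep σ = σ}

lemma ptj_rep_mem_reps (σ : ptj_Emb K q) : ptj_rep σ ∈ ptj_reps K q := ptj_rep_rep σ

/-- An equivariant function is the product of its orbit parts. -/
lemma ptj_Jq_eq_prod [Finite (ptj_Emb K q)] {h : ptj_Emb K q → (ptj_Om q)ˣ}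
    (hh : h ∈ ptj_Jq K q) (σ : ptj_Emb K q) :
    h σ = ∏ᶠ ρ : ptj_reps K q, ptj_locFun (ρ : ptj_Emb K q) (h ρ) σ := by
  classical
  haveI : Fintype (ptj_reps K q) := Fintype.ofFinite _
  rw [finprod_eq_prod_of_fintype]
  rw [Finset.prod_eq_single (⟨ptj_rep σ, ptj_rep_mem_reps σ⟩ : ptj_reps K q)]
  · have hmem : h (ptj_rep σ) ∈ ptj_KσU (ptj_rep σ) := ptj_mem_Kσ_of_mem_Jq hh _
    refine (ptj_eq_on_orbit (ptj_locFun_mem_Jq hmem) hh (ptj_rep_sameOrbit σ) ?_).symm
    exact ptj_locFun_self hmem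
  · intro ρ _ hρ
    apply ptj_locFun_of_not
    intro hsame
    apply hρ
    apply Subtype.ext
    have := ptj_rep_eq_of_sameOrbit hsame
    rw [ρ.2] at this
    exact this
  · intro h'
    exact absurd (Finset.mem_univ _) h'

end Reps

variable {F K : Type*} [Field F] [Field K] [Algebra F K]
variable {Γ : Type*} [Group Γ] [MulSemiringAction Γ K] [Finite Γ] [IsGaloisGroup Γ F K]

/-- The `q`-component of the norm only depends on the `q`-component. -/
lemma ptj_norm_congr {f f' : ptj_J K} {q : Nat.Primes}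
    (h : (f : ptj_Amb K) q = (f' : ptj_Amb K) q) :
    (ptj_norm F Γ f : ptj_Amb F) q = (ptj_norm F Γ f' : ptj_Amb F) q := by
  haveI : FiniteDimensional F K := IsGaloisGroup.finiteDimensional Γ F K
  funext φ
  obtain ⟨σ, rfl⟩ := ptj_resEmb_surjective (K := K) φ
  rw [ptj_norm_apply, ptj_norm_apply, h]

/-- The `q`-part of an idele: the idele with the same `q`-component and trivial components
elsewhere, as a product of local ideles. -/
def ptj_qPart [∀ q, Finite (ptj_Emb F q)] (g : ptj_J F) (q : Nat.Primes) : ptj_J F :=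
  ∏ᶠ ρ : ptj_reps F q, ptj_locIncl (ρ : ptj_Emb F q) (ptj_evalAt (ρ : ptj_Emb F q) g)

lemma ptj_coe_finprod_J {ι : Type*} [Finite ι] (a : ι → ptj_J F) (q : Nat.Primes)
    (φ : ptj_Emb F q) :
    ((∏ᶠ i, a i : ptj_J F) : ptj_Amb F) q φ = ∏ᶠ i, (a i : ptj_Amb F) q φ := by
  classical
  haveI : Fintype ι := Fintype.ofFinite ι
  rw [finprod_eq_prod_of_fintype, finprod_eq_prod_of_fintype]
  have : ∀ s : Finset ι, ((∏ i ∈ s, a i : ptj_J F) : ptj_Amb F) q φ =
      ∏ i ∈ s, (a i : ptj_Amb F) q φ := by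
    intro s
    induction s using Finset.induction_on with
    | empty => simp
    | insert i s hi ih =>
      rw [Finset.prod_insert hi, Finset.prod_insert hi, ← ih]
      rfl
  exact this Finset.univ

lemma ptj_qPart_self [∀ q, Finite (ptj_Emb F q)] (g : ptj_J F) (q : Nat.Primes) :
    (ptj_qPart g q : ptj_Amb F) q = (g : ptj_Amb F) q := by
  funext φ
  rw [ptj_qPart, ptj_coe_finprod_J, ptj_Jq_eq_prod (g.2.1 q) φ]
  apply finprod_congr
  intro ρ
  rw [ptj_locIncl_apply_self]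
  rfl

lemma ptj_qPart_of_ne [∀ q, Finite (ptj_Emb F q)] (g : ptj_J F) {q q' : Nat.Primes}
    (h : q' ≠ q) : (ptj_qPart g q : ptj_Amb F) q' = 1 := by
  funext φ
  rw [ptj_qPart, ptj_coe_finprod_J]
  apply finprod_eq_one_of_forall_eq_one
  intro ρ
  rw [ptj_locIncl_apply_of_ne _ _ h]
  rfl

/-- The hypothesis "units are norms of units at `σ`" (true when `K_σ/F_φ` is unramified). -/
def ptj_UnitsAreNorms (F : Type*) [Field F] [Algebra F K] (Γ : Type*) [Group Γ]
    [MulSemiringAction Γ K] [Finite Γ] [IsGaloisGroup Γ F K] {q : Nat.Primes}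
    (σ : ptj_Emb K q) : Prop :=
  ∀ u : ptj_KσU (ptj_resEmb (F := F) σ), ‖((u : (ptj_Om q)ˣ) : ptj_Om q)‖ = 1 →
    ∃ b : ptj_KσU σ, ‖((b : (ptj_Om q)ˣ) : ptj_Om q)‖ = 1 ∧ ptj_locNorm F Γ σ b = u

/-- NORM THEOREM: a `T`-idele of `F` which is a local norm at every place over `T` is the norm
of a `T`-idele of `K`, provided units are norms of units outside `T`. -/
theorem ptj_exists_norm_eq [∀ q, Finite (ptj_Emb F q)] (T : Finset Nat.Primes) {g : ptj_J F}
    (hg : g ∈ ptj_JT F T)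
    (hloc : ∀ q ∈ T, ∀ σ : ptj_Emb K q,
      ptj_evalAt (ptj_resEmb (F := F) σ) g ∈ (ptj_locNorm F Γ σ).range)
    (hunr : ∀ q ∉ T, ∀ σ : ptj_Emb K q, ptj_UnitsAreNorms F Γ σ) :
    ∃ f : ptj_J K, f ∈ ptj_JT K T ∧ ptj_norm F Γ f = g := by
  classical
  haveI : FiniteDimensional F K := IsGaloisGroup.finiteDimensional Γ F K
  -- lifts of embeddings
  choose lift hlift using fun (q : Nat.Primes) (φ : ptj_Emb F q) =>
    ptj_resEmb_surjective (K := K) φ
  -- local preimages at every place, units outside `T`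
  have hpre : ∀ (q : Nat.Primes) (φ : ptj_Emb F q), ∃ b : ptj_KσU (lift q φ),
      (q ∉ T → ‖((b : (ptj_Om q)ˣ) : ptj_Om q)‖ = 1) ∧
      ((ptj_locNorm F Γ (lift q φ) b : ptj_KσU (ptj_resEmb (F := F) (lift q φ))) :
        (ptj_Om q)ˣ) = (g : ptj_Amb F) q φ := by
    intro q φ
    by_cases hq : q ∈ T
    · obtain ⟨b, hb⟩ := hloc q hq (lift q φ)
      refine ⟨b, fun h => absurd hq h, ?_⟩
      rw [hb, ptj_evalAt_coe, hlift]
    · have hu : ‖(((ptj_evalAt (ptj_resEmb (F := F) (lift q φ)) g :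
          ptj_KσU (ptj_resEmb (F := F) (lift q φ))) : (ptj_Om q)ˣ) : ptj_Om q)‖ = 1 := by
        rw [ptj_evalAt_coe]
        exact hg q hq _
      obtain ⟨b, hb1, hb2⟩ := hunr q hq (lift q φ) _ hu
      refine ⟨b, fun _ => hb1, ?_⟩
      rw [hb2, ptj_evalAt_coe, hlift]
  choose b hb1 hb2 using hpre
  -- the candidate, prime by prime
  let fq : ∀ q : Nat.Primes, ptj_J K := fun q =>
    ∏ᶠ ρ : ptj_reps F q, ptj_locIncl (lift q ρ) (b q ρ)
  let f : ptj_Amb K := fun q => (fq q : ptj_Amb K) q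
  have hfq_unit : ∀ q, q ∉ T → ptj_IsUnitAt (fq q : ptj_Amb K) q := by
    intro q hq σ
    have : (fq q : ptj_Amb K) q σ = ∏ᶠ ρ : ptj_reps F q,
        ptj_locFun (lift q ρ) (b q ρ : (ptj_Om q)ˣ) σ := by
      rw [ptj_coe_finprod_J]
      apply finprod_congr
      intro ρ
      rw [ptj_locIncl_apply_self]
    rw [this]
    haveI : Fintype (ptj_reps F q) := Fintype.ofFinite _
    rw [finprod_eq_prod_of_fintype, Units.coe_prod, norm_prod]
    apply Finset.prod_eq_one
    intro ρ _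
    by_cases hso : ptj_SameOrbit (lift q ρ) σ
    · obtain ⟨τ, rfl⟩ := hso
      rw [ptj_norm_post (ptj_locFun_mem_Jq (b q ρ).2), ptj_locFun_self (b q ρ).2]
      exact hb1 q ρ hq
    · rw [ptj_locFun_of_not _ hso]
      simp
  have hf : f ∈ ptj_J K := by
    refine ⟨fun q => (fq q).2.1 q, ?_⟩
    rw [Filter.eventually_cofinite]
    refine T.finite_toSet.subset ?_
    intro q hq
    by_contra hqT
    exact hq (hfq_unit q hqT)
  refine ⟨⟨f, hf⟩, fun q hq => hfq_unit q hq, ?_⟩
  -- compare the norms prime by prime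
  apply Subtype.ext
  funext q
  have h1 : (ptj_norm F Γ (⟨f, hf⟩ : ptj_J K) : ptj_Amb F) q =
      (ptj_norm F Γ (fq q) : ptj_Amb F) q := ptj_norm_congr rfl
  rw [h1, ← ptj_qPart_self g q]
  -- `norm (fq q) = qPart g q`
  have h2 : ptj_norm F Γ (fq q) = ptj_qPart g q := by
    haveI : Fintype (ptj_reps F q) := Fintype.ofFinite _
    show ptj_norm F Γ (∏ᶠ ρ : ptj_reps F q, ptj_locIncl (lift q ρ) (b q ρ)) = _
    rw [finprod_eq_prod_of_fintype, map_prod, ptj_qPart, finprod_eq_prod_of_fintype]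
    apply Finset.prod_congr rfl
    intro ρ _
    rw [ptj_norm_locIncl]
    -- transport along `resEmb (lift q ρ) = ρ`
    have hρ : ptj_resEmb (F := F) (lift q ρ) = ρ := hlift q ρ
    apply Subtype.ext
    funext q' φ'
    by_cases hq' : q' = q
    · subst hq'
      rw [ptj_locIncl_apply_self, ptj_locIncl_apply_self, hb2, ptj_evalAt_coe, hρ]
    · rw [ptj_locIncl_apply_of_ne _ _ hq', ptj_locIncl_apply_of_ne _ _ hq']
  rw [h2]

end Fermat.Agent.Lib.PT

end
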