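/-
G1 (global modules for the S55 long-haul), part 8: the COINDUCED description of the
`q`-component on a `(G_q × Γ)`-orbit (explicit Mackey/Shapiro), and HILBERT 90 FOR IDELES:
`H¹(Γ, J_K) = 0` (and the same for unit ideles / `T`-ideles), from local Hilbert 90.
-/
import Fermat.Agent.Lib.PT.GModNorm

set_option autoImplicit false
set_option linter.unusedVariables false
set_option linter.unusedSectionVars false
set_option linter.style.haveILetI false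

noncomputable section

namespace Fermat.Agent.Lib.PT

variable {F K : Type*} [Field F] [Field K] [Algebra F K] {q : Nat.Primes}
variable {Γ : Type*} [Group Γ] [MulSemiringAction Γ K]

/-! ### Extending a function on `Γ` to the `(G_q × Γ)`-orbit of `σ` -/

/-- `ρ` lies in the `(G_q × Γ)`-orbit of `σ`. -/
def ptj_BigOrbit (Γ : Type*) [Group Γ] [MulSemiringAction Γ K] (σ ρ : ptj_Emb K q) : Prop :=
  ∃ (τ : ptj_Gq q) (γ : Γ), ρ = ptj_post τ (ptj_pre γ σ)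

lemma ptj_bigOrbit_post_iff {σ ρ : ptj_Emb K q} (τ : ptj_Gq q) :
    ptj_BigOrbit Γ σ (ptj_post τ ρ) ↔ ptj_BigOrbit Γ σ ρ := by
  constructor
  · rintro ⟨τ', γ, h⟩
    refine ⟨τ⁻¹ * τ', γ, ?_⟩
    rw [ptj_post_mul, ← h, ← ptj_post_mul, inv_mul_cancel, ptj_post_one]
  · rintro ⟨τ', γ, rfl⟩
    exact ⟨τ * τ', γ, (ptj_post_mul _ _ _).symm⟩

lemma ptj_bigOrbit_pre_iff {σ ρ : ptj_Emb K q} (γ : Γ) :
    ptj_BigOrbit Γ σ (ptj_pre γ ρ) ↔ ptj_BigOrbit Γ σ ρ := by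
  constructor
  · rintro ⟨τ', γ', h⟩
    refine ⟨τ', γ' * γ⁻¹, ?_⟩
    have h1 := congrArg (ptj_pre γ⁻¹) h
    rw [← ptj_pre_mul, mul_inv_cancel, ptj_pre_one, ptj_pre_post, ← ptj_pre_mul] at h1
    exact h1
  · rintro ⟨τ', γ', rfl⟩
    exact ⟨τ', γ' * γ, by rw [ptj_pre_post, ← ptj_pre_mul]⟩

/-- Compatibility of `c : Γ → Ω_qˣ` with the decomposition group of `σ`:
`c (δ γ) = τ_δ (c γ)` — i.e. `c ∈ CoInd_{Γ_σ}^Γ K_σˣ`. -/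
structure ptj_IsCoind (σ : ptj_Emb K q) (c : Γ → (ptj_Om q)ˣ) : Prop where
  mem : ∀ γ, c γ ∈ ptj_KσU σ
  compat : ∀ (δ : ptj_decomp Γ σ) (γ : Γ), c ((δ : Γ) * γ) = ptj_tauU (ptj_tauOf δ) (c γ)

lemma ptj_IsCoind.wd {σ : ptj_Emb K q} {c : Γ → (ptj_Om q)ˣ} (hc : ptj_IsCoind σ c)
    {τ τ' : ptj_Gq q} {γ γ' : Γ}
    (h : ptj_post τ (ptj_pre γ σ) = ptj_post τ' (ptj_pre γ' σ)) :
    ptj_tauU τ (c γ) = ptj_tauU τ' (c γ') := by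
  -- `δ = γ' γ⁻¹` lies in the decomposition group, with witness `τ'⁻¹ τ`
  have h1 : ptj_pre (γ' * γ⁻¹) σ = ptj_post (τ'⁻¹ * τ) σ := by
    have h2 : ptj_pre γ⁻¹ (ptj_post τ'⁻¹ (ptj_post τ (ptj_pre γ σ))) =
        ptj_pre γ⁻¹ (ptj_post τ'⁻¹ (ptj_post τ' (ptj_pre γ' σ))) := by rw [h]
    rw [← ptj_post_mul, ← ptj_post_mul, inv_mul_cancel, ptj_post_one, ptj_pre_post,
      ← ptj_pre_mul, mul_inv_cancel, ptj_pre_one, ← ptj_pre_mul] at h2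
    exact h2.symm
  let δ : ptj_decomp Γ σ := ⟨γ' * γ⁻¹, τ'⁻¹ * τ, h1⟩
  have h3 : c γ' = ptj_tauU (τ'⁻¹ * τ) (c γ) := by
    have := hc.compat δ γ
    rw [show ((δ : Γ) * γ) = γ' by simp [δ]] at this
    rw [this]
    exact (ptj_tauU_eq_tauOf δ h1 (hc.mem γ)).symm
  rw [h3]
  ext
  simp only [ptj_tauU_coe, AlgEquiv.mul_apply]
  exact (AlgEquiv.apply_symm_apply τ' _).symm

open Classical in
/-- The extension of `c` to the embeddings: value `τ (c γ)` at `τ ∘ σ ∘ γ`, `1` off the orbit. -/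
def ptj_coindFun (σ : ptj_Emb K q) (c : Γ → (ptj_Om q)ˣ) : ptj_Emb K q → (ptj_Om q)ˣ :=
  fun ρ => if h : ptj_BigOrbit Γ σ ρ then ptj_tauU h.choose (c h.choose_spec.choose) else 1

lemma ptj_coindFun_of_not {σ ρ : ptj_Emb K q} (c : Γ → (ptj_Om q)ˣ)
    (h : ¬ ptj_BigOrbit Γ σ ρ) : ptj_coindFun σ c ρ = 1 := by
  unfold ptj_coindFun
  rw [dif_neg h]

lemma ptj_coindFun_apply {σ : ptj_Emb K q} {c : Γ → (ptj_Om q)ˣ} (hc : ptj_IsCoind σ c)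
    (τ : ptj_Gq q) (γ : Γ) :
    ptj_coindFun σ c (ptj_post τ (ptj_pre γ σ)) = ptj_tauU τ (c γ) := by
  have h : ptj_BigOrbit Γ σ (ptj_post τ (ptj_pre γ σ)) := ⟨τ, γ, rfl⟩
  unfold ptj_coindFun
  rw [dif_pos h]
  exact hc.wd h.choose_spec.choose_spec.symm

lemma ptj_coindFun_pre {σ : ptj_Emb K q} {c : Γ → (ptj_Om q)ˣ} (hc : ptj_IsCoind σ c) (γ : Γ) :
    ptj_coindFun σ c (ptj_pre γ σ) = c γ := by
  have := ptj_coindFun_apply hc 1 γ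
  rw [ptj_post_one] at this
  rw [this]
  ext; simp

lemma ptj_coindFun_mem_Jq {σ : ptj_Emb K q} {c : Γ → (ptj_Om q)ˣ} (hc : ptj_IsCoind σ c) :
    ptj_coindFun σ c ∈ ptj_Jq K q := by
  intro τ ρ
  by_cases h : ptj_BigOrbit Γ σ ρ
  · obtain ⟨τ', γ, rfl⟩ := h
    rw [← ptj_post_mul, ptj_coindFun_apply hc, ptj_coindFun_apply hc]
    ext; simp
  · rw [ptj_coindFun_of_not c h,
      ptj_coindFun_of_not c (fun h' => h ((ptj_bigOrbit_post_iff τ).1 h'))]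
    simp

lemma ptj_norm_coindFun {σ : ptj_Emb K q} {c : Γ → (ptj_Om q)ˣ} (hc : ptj_IsCoind σ c)
    (hu : ∀ γ, ‖((c γ : (ptj_Om q)ˣ) : ptj_Om q)‖ = 1) (ρ : ptj_Emb K q) :
    ‖((ptj_coindFun σ c ρ : (ptj_Om q)ˣ) : ptj_Om q)‖ = 1 := by
  by_cases h : ptj_BigOrbit Γ σ ρ
  · obtain ⟨τ, γ, rfl⟩ := h
    rw [ptj_coindFun_apply hc, ptj_tauU_coe]
    have := nnnorm_padicAlgCl_algEquiv (q : ℕ) τ ((c γ : (ptj_Om q)ˣ) : ptj_Om q)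
    rw [← hu γ]
    exact congrArg NNReal.toReal this
  · rw [ptj_coindFun_of_not c h]
    simp

/-! ### Multiplicative 1-cocycles with values in equivariant functions -/

/-- A 1-cocycle `Γ → J_q(K)` for the action `(γ • f) ρ = f (ρ ∘ γ)`, in ambient form. -/
structure ptj_IsCocycleQ (z : Γ → ptj_Emb K q → (ptj_Om q)ˣ) : Prop where
  mem : ∀ γ, z γ ∈ ptj_Jq K q
  cocycle : ∀ (γ δ : Γ) (ρ : ptj_Emb K q), z (γ * δ) ρ = z γ ρ * z δ (ptj_pre γ ρ)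

lemma ptj_IsCocycleQ.one {z : Γ → ptj_Emb K q → (ptj_Om q)ˣ} (hz : ptj_IsCocycleQ z)
    (ρ : ptj_Emb K q) : z 1 ρ = 1 := by
  have := hz.cocycle 1 1 ρ
  rw [mul_one, ptj_pre_one] at this
  exact (mul_eq_left.mp this.symm)

/-- Local Hilbert 90 at `σ`, as a hypothesis: every 1-cocycle of the decomposition group with
values in `K_σˣ` is a coboundary. -/
def ptj_LocalH90 (Γ : Type*) [Group Γ] [MulSemiringAction Γ K] (σ : ptj_Emb K q) : Prop :=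
  ∀ ζ : ptj_decomp Γ σ → (ptj_Om q)ˣ, (∀ δ, ζ δ ∈ ptj_KσU σ) →
    (∀ δ δ' : ptj_decomp Γ σ, ζ (δ * δ') = ζ δ * ptj_tauU (ptj_tauOf δ) (ζ δ')) →
    ∃ a : (ptj_Om q)ˣ, a ∈ ptj_KσU σ ∧ ∀ δ, ζ δ = ptj_tauU (ptj_tauOf δ) a / a

/-- Local Hilbert 90 for units at `σ`, as a hypothesis (true at unramified places). -/
def ptj_UnitsH90 (Γ : Type*) [Group Γ] [MulSemiringAction Γ K] (σ : ptj_Emb K q) : Prop :=
  ∀ ζ : ptj_decomp Γ σ → (ptj_Om q)ˣ, (∀ δ, ζ δ ∈ ptj_KσU σ) →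
    (∀ δ, ‖((ζ δ : (ptj_Om q)ˣ) : ptj_Om q)‖ = 1) →
    (∀ δ δ' : ptj_decomp Γ σ, ζ (δ * δ') = ζ δ * ptj_tauU (ptj_tauOf δ) (ζ δ')) →
    ∃ a : (ptj_Om q)ˣ, a ∈ ptj_KσU σ ∧ ‖((a : (ptj_Om q)ˣ) : ptj_Om q)‖ = 1 ∧
      ∀ δ, ζ δ = ptj_tauU (ptj_tauOf δ) a / a

/-- The orbit piece of a solution of `z γ ρ = b (ρ ∘ γ) / b ρ`. -/
lemma ptj_isCoind_of_cocycle {z : Γ → ptj_Emb K q → (ptj_Om q)ˣ} (hz : ptj_IsCocycleQ z)
    (σ : ptj_Emb K q) {a : (ptj_Om q)ˣ} (ha : a ∈ ptj_KσU σ)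
    (h90 : ∀ δ : ptj_decomp Γ σ, z (δ : Γ) σ = ptj_tauU (ptj_tauOf δ) a / a) :
    ptj_IsCoind σ (fun γ => a * z γ σ) where
  mem γ := (ptj_KσU σ).mul_mem ha (ptj_mem_Kσ_of_mem_Jq (hz.mem γ) σ)
  compat δ γ := by
    show a * z ((δ : Γ) * γ) σ = ptj_tauU (ptj_tauOf δ) (a * z γ σ)
    rw [hz.cocycle, h90 δ, map_mul, ptj_apply_pre_decomp (hz.mem γ) δ]
    rw [← mul_assoc, mul_div_cancel]

variable [Finite Γ] [IsGaloisGroup Γ F K]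

/-- Every embedding lies in the big orbit of the chosen lift of the chosen representative of its
restriction to `F`. -/
lemma ptj_bigOrbit_lift (lift : ptj_Emb F q → ptj_Emb K q)
    (hlift : ∀ φ, ptj_resEmb (F := F) (lift φ) = φ) (ρ : ptj_Emb K q) :
    ptj_BigOrbit Γ (lift (ptj_rep (ptj_resEmb (F := F) ρ))) ρ := by
  obtain ⟨τ, hτ⟩ := ptj_rep_sameOrbit (ptj_resEmb (F := F) ρ)
  have h1 : ptj_resEmb (F := F) (ptj_post τ (lift (ptj_rep (ptj_resEmb (F := F) ρ)))) =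
      ptj_resEmb ρ := by
    rw [ptj_resEmb_post, hlift]
    exact hτ.symm
  obtain ⟨γ, hγ⟩ := ptj_exists_pre_eq (Γ := Γ) h1
  exact ⟨τ, γ, hγ.trans (ptj_pre_post γ τ _)⟩

/-- Semi-local Hilbert 90, core construction: from local solutions `a σ` at all embeddings to a
global solution `b` of `z γ ρ = b (ρ ∘ γ) / b ρ`. -/
theorem ptj_exists_coboundaryQ_core (F : Type*) [Field F] [Algebra F K] [IsGaloisGroup Γ F K]
    {z : Γ → ptj_Emb K q → (ptj_Om q)ˣ}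
    (hz : ptj_IsCocycleQ z) (a : ptj_Emb K q → (ptj_Om q)ˣ) (ha : ∀ σ, a σ ∈ ptj_KσU σ)
    (h90 : ∀ (σ : ptj_Emb K q) (δ : ptj_decomp Γ σ),
      z (δ : Γ) σ = ptj_tauU (ptj_tauOf δ) (a σ) / a σ) :
    ∃ b : ptj_Emb K q → (ptj_Om q)ˣ, b ∈ ptj_Jq K q ∧
      (∀ γ ρ, z γ ρ = b (ptj_pre γ ρ) / b ρ) ∧
      ((∀ σ, ‖((a σ : (ptj_Om q)ˣ) : ptj_Om q)‖ = 1) →
        (∀ γ ρ, ‖((z γ ρ : (ptj_Om q)ˣ) : ptj_Om q)‖ = 1) →
        ∀ ρ, ‖((b ρ : (ptj_Om q)ˣ) : ptj_Om q)‖ = 1) := by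
  classical
  haveI : FiniteDimensional F K := IsGaloisGroup.finiteDimensional Γ F K
  choose lift hlift using fun (φ : ptj_Emb F q) => ptj_resEmb_surjective (K := K) φ
  -- base point and coinduced function attached to an embedding of `F`
  let s : ptj_Emb K q → ptj_Emb K q := fun ρ => lift (ptj_rep (ptj_resEmb (F := F) ρ))
  let c : ptj_Emb K q → Γ → (ptj_Om q)ˣ := fun σ γ => a σ * z γ σ
  have hc : ∀ σ, ptj_IsCoind σ (c σ) := fun σ => ptj_isCoind_of_cocycle hz σ (ha σ) (h90 σ)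
  have hs_post : ∀ (τ : ptj_Gq q) ρ, s (ptj_post τ ρ) = s ρ := by
    intro τ ρ
    show lift (ptj_rep (ptj_resEmb (F := F) (ptj_post τ ρ))) = _
    rw [ptj_resEmb_post, ← ptj_rep_eq_of_sameOrbit (⟨τ, rfl⟩ : ptj_SameOrbit _ (ptj_post τ _))]
  have hs_pre : ∀ (γ : Γ) ρ, s (ptj_pre γ ρ) = s ρ := by
    intro γ ρ
    show lift (ptj_rep (ptj_resEmb (F := F) (ptj_pre γ ρ))) = _
    rw [ptj_resEmb_pre]
  let b : ptj_Emb K q → (ptj_Om q)ˣ := fun ρ => ptj_coindFun (s ρ) (c (s ρ)) ρ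
  refine ⟨b, ?_, ?_, ?_⟩
  · intro τ ρ
    show ptj_coindFun (s (ptj_post τ ρ)) (c (s (ptj_post τ ρ))) (ptj_post τ ρ) = _
    rw [hs_post]
    exact ptj_coindFun_mem_Jq (hc (s ρ)) τ ρ
  · intro γ ρ
    show z γ ρ = ptj_coindFun (s (ptj_pre γ ρ)) (c (s (ptj_pre γ ρ))) (ptj_pre γ ρ) /
      ptj_coindFun (s ρ) (c (s ρ)) ρ
    rw [hs_pre]
    obtain ⟨τ, γ₀, hρ⟩ := ptj_bigOrbit_lift (Γ := Γ) lift hlift ρ
    have hρ' : ρ = ptj_post τ (ptj_pre γ₀ (s ρ)) := hρ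
    have h1 : ptj_pre γ ρ = ptj_post τ (ptj_pre (γ₀ * γ) (s ρ)) := by
      conv_lhs => rw [hρ']
      rw [ptj_pre_post, ← ptj_pre_mul]
    rw [h1]
    conv_rhs => rw [show ptj_coindFun (s ρ) (c (s ρ)) ρ =
      ptj_coindFun (s ρ) (c (s ρ)) (ptj_post τ (ptj_pre γ₀ (s ρ))) by rw [← hρ']]
    rw [ptj_coindFun_apply (hc (s ρ)), ptj_coindFun_apply (hc (s ρ))]
    show z γ ρ = ptj_tauU τ (a (s ρ) * z (γ₀ * γ) (s ρ)) / ptj_tauU τ (a (s ρ) * z γ₀ (s ρ))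
    rw [hz.cocycle, ← map_div, ← mul_assoc, mul_div_cancel_left]
    conv_lhs => rw [hρ']
    rw [(hz.mem γ) τ]
  · intro hau hzu ρ
    apply ptj_norm_coindFun (hc (s ρ))
    intro γ
    show ‖(((a (s ρ) * z γ (s ρ) : (ptj_Om q)ˣ)) : ptj_Om q)‖ = 1
    rw [Units.val_mul, norm_mul, hau, hzu, mul_one]

/-- Semi-local Hilbert 90 at `q`. -/
theorem ptj_exists_coboundaryQ (F : Type*) [Field F] [Algebra F K] [IsGaloisGroup Γ F K]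
    {z : Γ → ptj_Emb K q → (ptj_Om q)ˣ} (hz : ptj_IsCocycleQ z)
    (h90 : ∀ σ : ptj_Emb K q, ptj_LocalH90 Γ σ) :
    ∃ b : ptj_Emb K q → (ptj_Om q)ˣ, b ∈ ptj_Jq K q ∧
      ∀ γ ρ, z γ ρ = b (ptj_pre γ ρ) / b ρ := by
  -- the local cocycles
  have hloc : ∀ σ : ptj_Emb K q, ∃ a : (ptj_Om q)ˣ, a ∈ ptj_KσU σ ∧
      ∀ δ : ptj_decomp Γ σ, z (δ : Γ) σ = ptj_tauU (ptj_tauOf δ) a / a := by
    intro σ
    refine h90 σ (fun δ => z (δ : Γ) σ) (fun δ => ptj_mem_Kσ_of_mem_Jq (hz.mem _) σ) ?_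
    intro δ δ'
    show z ((δ : Γ) * (δ' : Γ)) σ = _
    rw [hz.cocycle, ptj_apply_pre_decomp (hz.mem _) δ]
  choose a ha h90' using hloc
  obtain ⟨b, hb, hb2, -⟩ := ptj_exists_coboundaryQ_core F hz a ha h90'
  exact ⟨b, hb, hb2⟩

/-- Semi-local Hilbert 90 for units at `q`. -/
theorem ptj_exists_coboundaryQ_units (F : Type*) [Field F] [Algebra F K] [IsGaloisGroup Γ F K]
    {z : Γ → ptj_Emb K q → (ptj_Om q)ˣ}
    (hz : ptj_IsCocycleQ z) (hzu : ∀ γ ρ, ‖((z γ ρ : (ptj_Om q)ˣ) : ptj_Om q)‖ = 1)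
    (h90 : ∀ σ : ptj_Emb K q, ptj_UnitsH90 Γ σ) :
    ∃ b : ptj_Emb K q → (ptj_Om q)ˣ, b ∈ ptj_Jq K q ∧
      (∀ ρ, ‖((b ρ : (ptj_Om q)ˣ) : ptj_Om q)‖ = 1) ∧
      ∀ γ ρ, z γ ρ = b (ptj_pre γ ρ) / b ρ := by
  have hloc : ∀ σ : ptj_Emb K q, ∃ a : (ptj_Om q)ˣ, a ∈ ptj_KσU σ ∧
      ‖((a : (ptj_Om q)ˣ) : ptj_Om q)‖ = 1 ∧
      ∀ δ : ptj_decomp Γ σ, z (δ : Γ) σ = ptj_tauU (ptj_tauOf δ) a / a := by
    intro σ
    refine h90 σ (fun δ => z (δ : Γ) σ) (fun δ => ptj_mem_Kσ_of_mem_Jq (hz.mem _) σ)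
      (fun δ => hzu _ _) ?_
    intro δ δ'
    show z ((δ : Γ) * (δ' : Γ)) σ = _
    rw [hz.cocycle, ptj_apply_pre_decomp (hz.mem _) δ]
  choose a ha hau h90' using hloc
  obtain ⟨b, hb, hb2, hb3⟩ := ptj_exists_coboundaryQ_core F hz a ha h90'
  exact ⟨b, hb, hb3 hau hzu, hb2⟩

end Fermat.Agent.Lib.PT

end
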