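/-
G1 (global modules for the S55 long-haul), part 9: HILBERT 90 FOR IDELES.
`H¹(Γ, J_K) = 0`, `H¹(Γ, J_{K,T}) = 0`, `H¹(Γ, U_{K,T}) = 0` (the last two when units satisfy
Hilbert 90 outside `T`, e.g. `K/F` unramified outside `T`), in Mathlib's multiplicative
`IsMulCocycle₁ / IsMulCoboundary₁` language.
-/
import Fermat.Agent.Lib.PT.GModCoind

set_option autoImplicit false
set_option linter.unusedVariables false
set_option linter.unusedSectionVars false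
set_option linter.style.haveILetI false

noncomputable section

namespace Fermat.Agent.Lib.PT

open groupCohomology

variable {F K : Type*} [Field F] [Field K] [Algebra F K] {q : Nat.Primes}
variable {Γ : Type*} [Group Γ] [MulSemiringAction Γ K] [Finite Γ] [IsGaloisGroup Γ F K]

/-! ### Units of the relative local field -/

variable (F) in
/-- `{a ∈ Ω_qˣ | a ∈ K_σ} ≃ (K_σ)ˣ`, with `K_σ` viewed over `F_φ`. -/
def ptj_KrelUEquiv (σ : ptj_Emb K q) : ptj_KσU σ ≃* (ptj_Krel F σ)ˣ where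
  toFun a := ⟨⟨((a : (ptj_Om q)ˣ) : ptj_Om q), a.2⟩,
    ⟨(((a⁻¹ : ptj_KσU σ) : (ptj_Om q)ˣ) : ptj_Om q), (a⁻¹).2⟩,
    Subtype.ext (by simp), Subtype.ext (by simp)⟩
  invFun x := ⟨Units.map ((ptj_Krel F σ).val : ptj_Krel F σ →* ptj_Om q) x, (x : ptj_Krel F σ).2⟩
  left_inv a := by ext; rfl
  right_inv x := by ext; rfl
  map_mul' a b := by ext; rfl

@[simp] lemma ptj_KrelUEquiv_coe (σ : ptj_Emb K q) (a : ptj_KσU σ) :
    (((ptj_KrelUEquiv F σ a : (ptj_Krel F σ)ˣ) : ptj_Krel F σ) : ptj_Om q) =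
      ((a : (ptj_Om q)ˣ) : ptj_Om q) := rfl

@[simp] lemma ptj_KrelUEquiv_symm_coe (σ : ptj_Emb K q) (x : (ptj_Krel F σ)ˣ) :
    ((((ptj_KrelUEquiv F σ).symm x : ptj_KσU σ) : (ptj_Om q)ˣ) : ptj_Om q) =
      ((x : ptj_Krel F σ) : ptj_Om q) := rfl

/-- Local Hilbert 90 holds at every embedding (Noether's theorem for `K_σ/F_φ`). -/
theorem ptj_localH90 (F : Type*) [Field F] [Algebra F K] [IsGaloisGroup Γ F K]
    (σ : ptj_Emb K q) : ptj_LocalH90 Γ σ := by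
  intro ζ hζmem hζ
  haveI : FiniteDimensional (ptj_Kσ (ptj_resEmb (F := F) σ)) (ptj_Krel F σ) :=
    IsGaloisGroup.finiteDimensional (ptj_decomp Γ σ) _ _
  let ε := ptj_decompEquiv (F := F) (Γ := Γ) σ
  let f : (ptj_Krel F σ ≃ₐ[ptj_Kσ (ptj_resEmb (F := F) σ)] ptj_Krel F σ) → (ptj_Krel F σ)ˣ :=
    fun e => ptj_KrelUEquiv F σ ⟨ζ (ε.symm e), hζmem _⟩
  have hf : IsMulCocycle₁ f := by
    intro g h
    apply Units.ext
    apply Subtype.ext
    show ((ζ (ε.symm (g * h)) : (ptj_Om q)ˣ) : ptj_Om q) =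
      ((g (⟨((ζ (ε.symm h) : (ptj_Om q)ˣ) : ptj_Om q), hζmem _⟩ : ptj_Krel F σ) :
        ptj_Krel F σ) : ptj_Om q) * ((ζ (ε.symm g) : (ptj_Om q)ˣ) : ptj_Om q)
    rw [map_mul, hζ, Units.val_mul, mul_comm]
    congr 1
    have hg : g = ε (ε.symm g) := (ε.apply_symm_apply g).symm
    conv_rhs => rw [hg]
    rfl
  obtain ⟨x, hx⟩ := isMulCoboundary₁_of_isMulCocycle₁_of_aut_to_units f hf
  refine ⟨((ptj_KrelUEquiv F σ).symm x : ptj_KσU σ), ((ptj_KrelUEquiv F σ).symm x).2, ?_⟩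
  intro δ
  have h1 := hx (ε δ)
  have h2 : f (ε δ) = ptj_KrelUEquiv F σ ⟨ζ δ, hζmem _⟩ := by
    show ptj_KrelUEquiv F σ ⟨ζ (ε.symm (ε δ)), hζmem _⟩ = _
    congr 2
    rw [ε.symm_apply_apply]
  rw [h2] at h1
  have h3 := congrArg (fun u : (ptj_Krel F σ)ˣ => ((u : ptj_Krel F σ) : ptj_Om q)) h1
  apply Units.ext
  rw [Units.val_div_eq_div_val, ptj_tauU_coe]
  simp only [ptj_KrelUEquiv_coe] at h3
  rw [← h3, Units.val_div_eq_div_val]
  rfl

/-! ### The global statement -/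

/-- The `q`-component of a cocycle of ideles is a cocycle of equivariant functions. -/
lemma ptj_isCocycleQ_of_isMulCocycle₁ {z : Γ → ptj_J K} (hz : IsMulCocycle₁ z) (q : Nat.Primes) :
    ptj_IsCocycleQ (fun γ => (z γ : ptj_Amb K) q) where
  mem γ := (z γ).2.1 q
  cocycle γ δ ρ := by
    have h1 : (z (γ * δ) : ptj_Amb K) q ρ = ((γ • z δ * z γ : ptj_J K) : ptj_Amb K) q ρ := by
      rw [hz γ δ]
    rw [h1, mul_comm]
    rfl

/-- Hilbert 90 for ideles, flexible form: a 1-cocycle `z : Γ → J_K` is the coboundary of an idele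
`b` such that: `b` is a unit at every `q ∉ T` at which all `z γ` are units, and `b` has trivial
`q`-component at every `q` at which all `z γ` have trivial component.  Hypothesis: Hilbert 90
for units at all embeddings outside `T`. -/
theorem ptj_exists_coboundary (F : Type*) [Field F] [Algebra F K] [IsGaloisGroup Γ F K]
    (T : Finset Nat.Primes)
    (hunr : ∀ q, q ∉ T → ∀ σ : ptj_Emb K q, ptj_UnitsH90 Γ σ)
    {z : Γ → ptj_J K} (hz : IsMulCocycle₁ z) :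
    ∃ b : ptj_J K, (∀ γ, γ • b / b = z γ) ∧
      (∀ q, q ∉ T → (∀ γ, ptj_IsUnitAt (z γ : ptj_Amb K) q) → ptj_IsUnitAt (b : ptj_Amb K) q) ∧
      (∀ q, (∀ γ, (z γ : ptj_Amb K) q = 1) → (b : ptj_Amb K) q = 1) := by
  classical
  haveI : Fintype Γ := Fintype.ofFinite Γ
  -- the finite set outside which all `z γ` are units
  choose Tγ hTγ using fun γ => ptj_exists_mem_JT (z γ)
  let T' : Finset Nat.Primes := T ∪ Finset.univ.biUnion Tγ
  have hT'unit : ∀ q, q ∉ T' → ∀ γ, ptj_IsUnitAt (z γ : ptj_Amb K) q := by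
    intro q hq γ
    apply hTγ γ q
    intro hq'
    exact hq (Finset.mem_union_right _ (Finset.mem_biUnion.2 ⟨γ, Finset.mem_univ _, hq'⟩))
  -- local solutions, prime by prime
  have hloc : ∀ q : Nat.Primes, ∃ bq : ptj_Emb K q → (ptj_Om q)ˣ, bq ∈ ptj_Jq K q ∧
      (∀ γ ρ, (z γ : ptj_Amb K) q ρ = bq (ptj_pre γ ρ) / bq ρ) ∧
      (q ∉ T → (∀ γ, ptj_IsUnitAt (z γ : ptj_Amb K) q) →
        ∀ ρ, ‖((bq ρ : (ptj_Om q)ˣ) : ptj_Om q)‖ = 1) ∧
      ((∀ γ, (z γ : ptj_Amb K) q = 1) → bq = 1) := by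
    intro q
    have hcq := ptj_isCocycleQ_of_isMulCocycle₁ hz q
    by_cases htriv : ∀ γ, (z γ : ptj_Amb K) q = 1
    · refine ⟨1, (ptj_Jq K q).one_mem, fun γ ρ => ?_, fun _ _ ρ => by simp, fun _ => rfl⟩
      rw [htriv γ]; simp
    · by_cases hu : q ∉ T ∧ ∀ γ, ptj_IsUnitAt (z γ : ptj_Amb K) q
      · obtain ⟨bq, hb1, hb2, hb3⟩ :=
          ptj_exists_coboundaryQ_units F hcq (fun γ ρ => hu.2 γ ρ) (hunr q hu.1)
        exact ⟨bq, hb1, hb3, fun _ _ => hb2, fun h => absurd h htriv⟩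
      · obtain ⟨bq, hb1, hb2⟩ := ptj_exists_coboundaryQ F hcq (fun σ => ptj_localH90 F σ)
        exact ⟨bq, hb1, hb2, fun h1 h2 => absurd ⟨h1, h2⟩ hu, fun h => absurd h htriv⟩
  choose b hb1 hb2 hb3 hb4 using hloc
  have hbJ : (fun q => b q) ∈ ptj_J K := by
    refine ⟨hb1, ?_⟩
    rw [Filter.eventually_cofinite]
    refine T'.finite_toSet.subset ?_
    intro q hq
    by_contra hqT'
    apply hq
    intro ρ
    have hqT : q ∉ T := fun h => hqT' (Finset.mem_union_left _ h)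
    exact hb3 q hqT (hT'unit q hqT') ρ
  refine ⟨⟨fun q => b q, hbJ⟩, fun γ => ?_, fun q hq hu ρ => hb3 q hq hu ρ, fun q h => hb4 q h⟩
  apply Subtype.ext
  funext q ρ
  exact (hb2 q γ ρ).symm

/-- `H¹(Γ, J_K) = 0`. -/
theorem ptj_H1_J (F : Type*) [Field F] [Algebra F K] [IsGaloisGroup Γ F K]
    (T : Finset Nat.Primes) (hunr : ∀ q, q ∉ T → ∀ σ : ptj_Emb K q, ptj_UnitsH90 Γ σ)
    {z : Γ → ptj_J K} (hz : IsMulCocycle₁ z) : IsMulCoboundary₁ z := by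
  obtain ⟨b, hb, -, -⟩ := ptj_exists_coboundary F T hunr hz
  exact ⟨b, hb⟩

/-- `H¹(Γ, J_{K,T}) = 0` when units satisfy Hilbert 90 outside `T`. -/
theorem ptj_H1_JT (F : Type*) [Field F] [Algebra F K] [IsGaloisGroup Γ F K]
    (T : Finset Nat.Primes) (hunr : ∀ q, q ∉ T → ∀ σ : ptj_Emb K q, ptj_UnitsH90 Γ σ)
    {z : Γ → ptj_J K} (hz : IsMulCocycle₁ z) (hzT : ∀ γ, z γ ∈ ptj_JT K T) :
    ∃ b : ptj_J K, b ∈ ptj_JT K T ∧ ∀ γ, γ • b / b = z γ := by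
  obtain ⟨b, hb, hb2, -⟩ := ptj_exists_coboundary F T hunr hz
  exact ⟨b, fun q hq => hb2 q hq fun γ => hzT γ q hq, hb⟩

/-- `H¹(Γ, U_{K,T}) = 0` when units satisfy Hilbert 90 outside `T`. -/
theorem ptj_H1_UT (F : Type*) [Field F] [Algebra F K] [IsGaloisGroup Γ F K]
    (T : Finset Nat.Primes) (hunr : ∀ q, q ∉ T → ∀ σ : ptj_Emb K q, ptj_UnitsH90 Γ σ)
    {z : Γ → ptj_J K} (hz : IsMulCocycle₁ z) (hzT : ∀ γ, z γ ∈ ptj_UT K T) :
    ∃ b : ptj_J K, b ∈ ptj_UT K T ∧ ∀ γ, γ • b / b = z γ := by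
  obtain ⟨b, hb, hb2, hb3⟩ := ptj_exists_coboundary F T hunr hz
  exact ⟨b, ⟨fun q hq => hb3 q fun γ => (hzT γ).1 q hq,
    fun q hq => hb2 q hq fun γ => (hzT γ).2 q hq⟩, hb⟩

end Fermat.Agent.Lib.PT

end
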