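/-
G1 (global modules for the S55 long-haul), part 10: GALOIS DESCENT FOR IDELE CLASSES.
For `K/F` Galois with group `Γ`:  `C_F → C_K` is injective with image `C_K^Γ`; the same for
`C_T(F) → C_T(K)` when units satisfy Hilbert 90 outside `T` (e.g. `K/F` unramified outside `T`).
-/
import Fermat.Agent.Lib.PT.GModH1

set_option autoImplicit false
set_option linter.unusedVariables false
set_option linter.unusedSectionVars false
set_option linter.style.haveILetI false

noncomputable section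

namespace Fermat.Agent.Lib.PT

open groupCohomology

variable {F K : Type*} [Field F] [Field K] [Algebra F K]
variable {Γ : Type*} [Group Γ] [MulSemiringAction Γ K] [Finite Γ] [IsGaloisGroup Γ F K]

/-! ### Hilbert 90 for `Kˣ` with an abstract Galois group -/

/-- Noether's Hilbert 90 for a finite group `Γ` with `IsGaloisGroup Γ F K`. -/
theorem ptj_hilbert90 (F : Type*) [Field F] [Algebra F K] [IsGaloisGroup Γ F K]
    (x : Γ → Kˣ) (hx : ∀ γ δ, x (γ * δ) = x γ * ptj_unitAct γ (x δ)) :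
    ∃ y : Kˣ, ∀ γ, x γ = ptj_unitAct γ y / y := by
  haveI : FiniteDimensional F K := IsGaloisGroup.finiteDimensional Γ F K
  let ε := IsGaloisGroup.mulEquivAlgEquiv Γ F K
  let f : (K ≃ₐ[F] K) → Kˣ := fun e => x (ε.symm e)
  have hf : IsMulCocycle₁ f := by
    intro g h
    show x (ε.symm (g * h)) = g • x (ε.symm h) * x (ε.symm g)
    rw [map_mul, hx, mul_comm]
    congr 1
    apply Units.ext
    have hg : g = ε (ε.symm g) := (ε.apply_symm_apply g).symm
    conv_rhs => rw [hg]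
    rfl
  obtain ⟨y, hy⟩ := isMulCoboundary₁_of_isMulCocycle₁_of_aut_to_units f hf
  refine ⟨y, fun γ => ?_⟩
  have h1 := hy (ε γ)
  have h2 : f (ε γ) = x γ := by
    show x (ε.symm (ε γ)) = x γ
    rw [ε.symm_apply_apply]
  rw [h2] at h1
  rw [← h1]
  rfl

/-! ### The diagonal embedding is injective and reflects invariance -/

section Diag

variable [CharZero K] [Algebra.IsAlgebraic ℚ K]

lemma ptj_diag_injective : Function.Injective (ptj_diag K) := by
  intro x y h
  -- use any embedding at the prime 2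
  let q : Nat.Primes := ⟨2, Nat.prime_two⟩
  letI : Algebra ℚ (ptj_Om q) := DivisionRing.toRatAlgebra
  let σ : K →ₐ[ℚ] ptj_Om q := IsAlgClosed.lift
  have h1 := congrArg (fun f : ptj_J K => (((f : ptj_Amb K) q (σ : K →+* ptj_Om q) :
    (ptj_Om q)ˣ) : ptj_Om q)) h
  simp only [ptj_diag_coe, ptj_diagAmb_apply] at h1
  exact Units.ext ((σ : K →+* ptj_Om q).injective h1)

/-- A unit of `K` fixed by `Γ` comes from `F`. -/
lemma ptj_exists_unit_of_fixed (F : Type*) [Field F] [Algebra F K] [IsGaloisGroup Γ F K]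
    {x : Kˣ} (hx : ∀ γ : Γ, ptj_unitAct γ x = x) :
    ∃ y : Fˣ, Units.map (algebraMap F K : F →* K) y = x := by
  have h1 : ∀ γ : Γ, γ • (x : K) = x := fun γ =>
    congrArg (fun u : Kˣ => (u : K)) (hx γ)
  obtain ⟨a, ha⟩ := Algebra.IsInvariant.isInvariant (A := F) (G := Γ) (x : K) h1
  have ha0 : a ≠ 0 := by
    rintro rfl
    rw [map_zero] at ha
    exact x.ne_zero ha.symm
  exact ⟨Units.mk0 a ha0, Units.ext ha⟩

end Diag

/-! ### Descent for `C_K` -/

variable [CharZero F] [Algebra.IsAlgebraic ℚ F] [CharZero K] [Algebra.IsAlgebraic ℚ K]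

/-- If `up g` is principal then `g` is principal. -/
lemma ptj_principal_of_up_principal (Γ : Type*) [Group Γ] [MulSemiringAction Γ K] [Finite Γ]
    [IsGaloisGroup Γ F K] {g : ptj_J F} (hg : ptj_up F K g ∈ ptj_principal K) :
    g ∈ ptj_principal F := by
  haveI : FiniteDimensional F K := IsGaloisGroup.finiteDimensional Γ F K
  obtain ⟨x, hx⟩ := hg
  have hfix : ∀ γ : Γ, ptj_unitAct γ x = x := by
    intro γ
    apply ptj_diag_injective
    rw [ptj_diag_smul, hx, ptj_smul_up]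
  obtain ⟨y, hy⟩ := ptj_exists_unit_of_fixed (Γ := Γ) F hfix
  refine ⟨y, ?_⟩
  apply ptj_up_injective (F := F) (K := K)
  rw [ptj_up_diag, hy, hx]

/-- Galois descent for idele classes: an idele of `K` whose class is `Γ`-invariant is, up to a
principal idele, the image of an idele of `F`. -/
theorem ptj_exists_up_of_class_invariant {f : ptj_J K}
    (hf : ∀ γ : Γ, γ • f / f ∈ ptj_principal K) :
    ∃ (g : ptj_J F) (y : Kˣ), f = ptj_up F K g * ptj_diag K y := by
  choose x hx using hf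
  have hxc : ∀ γ δ, x (γ * δ) = x γ * ptj_unitAct γ (x δ) := by
    intro γ δ
    apply ptj_diag_injective
    rw [map_mul, ptj_diag_smul, hx, hx, hx, mul_smul, smul_div']
    rw [mul_comm, div_mul_div_cancel]
  obtain ⟨y, hy⟩ := ptj_hilbert90 F x hxc
  have hinv : ∀ γ : Γ, γ • (f / ptj_diag K y) = f / ptj_diag K y := by
    intro γ
    rw [smul_div', ← ptj_diag_smul]
    have h1 : γ • f = f * ptj_diag K (x γ) := by
      rw [hx γ]; simp
    rw [h1, hy γ, map_div, div_eq_div_iff_mul_eq_mul]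
    simp only [mul_assoc]
    congr 1
    rw [div_mul_cancel]
  obtain ⟨g, hg⟩ := (ptj_mem_range_up_iff (F := F) (Γ := Γ) _).2 hinv
  exact ⟨g, y, by rw [hg]; simp⟩

/-! ### Descent for `C_T(K)` -/

/-- `Kˣ ∩ U_{K,T} = 1` for nonempty `T`. -/
lemma ptj_principal_inf_UT {T : Finset Nat.Primes} (hT : T.Nonempty) {x : Kˣ}
    (hx : ptj_diag K x ∈ ptj_UT K T) : x = 1 := by
  obtain ⟨q, hq⟩ := hT
  letI : Algebra ℚ (ptj_Om q) := DivisionRing.toRatAlgebra
  let σ : K →ₐ[ℚ] ptj_Om q := IsAlgClosed.lift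
  have h1 := congrFun (hx.1 q hq) (σ : K →+* ptj_Om q)
  have h2 := congrArg (fun u : (ptj_Om q)ˣ => (u : ptj_Om q)) h1
  simp only [ptj_diag_coe, ptj_diagAmb_apply] at h2
  apply Units.ext
  apply (σ : K →+* ptj_Om q).injective
  rw [h2]
  simp

/-- Uniqueness of the decomposition in `Kˣ · U_{K,T}`. -/
lemma ptj_princUT_unique {T : Finset Nat.Primes} (hT : T.Nonempty) {x x' : Kˣ} {u u' : ptj_J K}
    (hu : u ∈ ptj_UT K T) (hu' : u' ∈ ptj_UT K T)
    (h : ptj_diag K x * u = ptj_diag K x' * u') : x = x' ∧ u = u' := by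
  have h1 : ptj_diag K (x / x') = u' / u := by
    rw [map_div, div_eq_div_iff_mul_eq_mul, h, mul_comm]
  have h2 : x / x' = 1 :=
    ptj_principal_inf_UT hT (by rw [h1]; exact (ptj_UT K T).div_mem hu' hu)
  have h3 : x = x' := div_eq_one.1 h2
  refine ⟨h3, ?_⟩
  rw [h3] at h
  exact mul_left_cancel h

lemma ptj_mem_princUT_iff {T : Finset Nat.Primes} (f : ptj_J K) :
    f ∈ ptj_princUT K T ↔ ∃ (x : Kˣ) (u : ptj_J K), u ∈ ptj_UT K T ∧ f = ptj_diag K x * u := by
  constructor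
  · intro hf
    obtain ⟨a, ⟨x, rfl⟩, u, hu, rfl⟩ := Subgroup.mem_sup.1 hf
    exact ⟨x, u, hu, rfl⟩
  · rintro ⟨x, u, hu, rfl⟩
    exact Subgroup.mem_sup.2 ⟨_, ⟨x, rfl⟩, u, hu, rfl⟩

/-- An invariant element of `U_{K,T}` comes from `U_{F,T}`. -/
lemma ptj_exists_up_UT {T : Finset Nat.Primes} {u : ptj_J K} (hu : u ∈ ptj_UT K T)
    (hinv : ∀ γ : Γ, γ • u = u) : ∃ v : ptj_J F, v ∈ ptj_UT F T ∧ ptj_up F K v = u := by
  haveI : FiniteDimensional F K := IsGaloisGroup.finiteDimensional Γ F K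
  obtain ⟨v, rfl⟩ := (ptj_mem_range_up_iff (F := F) (Γ := Γ) _).2 hinv
  refine ⟨v, ⟨fun q hq => ?_, fun q hq φ => ?_⟩, rfl⟩
  · funext φ
    obtain ⟨σ, rfl⟩ := ptj_resEmb_surjective (K := K) φ
    exact congrFun (hu.1 q hq) σ
  · obtain ⟨σ, rfl⟩ := ptj_resEmb_surjective (K := K) φ
    exact hu.2 q hq σ

/-- If `up g ∈ Kˣ · U_{K,T}` then `g ∈ Fˣ · U_{F,T}`. -/
lemma ptj_princUT_of_up_princUT (Γ : Type*) [Group Γ] [MulSemiringAction Γ K] [Finite Γ]
    [IsGaloisGroup Γ F K] {T : Finset Nat.Primes} (hT : T.Nonempty) {g : ptj_J F}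
    (hg : ptj_up F K g ∈ ptj_princUT K T) : g ∈ ptj_princUT F T := by
  haveI : FiniteDimensional F K := IsGaloisGroup.finiteDimensional Γ F K
  obtain ⟨x, u, hu, hxu⟩ := (ptj_mem_princUT_iff _).1 hg
  have hfix : ∀ γ : Γ, ptj_unitAct γ x = x ∧ γ • u = u := by
    intro γ
    have h1 : ptj_diag K (ptj_unitAct γ x) * γ • u = ptj_diag K x * u := by
      rw [ptj_diag_smul, ← smul_mul', ← hxu, ptj_smul_up]
    exact ptj_princUT_unique hT (ptj_smul_mem_UT γ hu) hu h1
  obtain ⟨y, hy⟩ := ptj_exists_unit_of_fixed (Γ := Γ) F fun γ => (hfix γ).1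
  obtain ⟨v, hv, hvu⟩ := ptj_exists_up_UT (F := F) (Γ := Γ) hu fun γ => (hfix γ).2
  refine (ptj_mem_princUT_iff _).2 ⟨y, v, hv, ?_⟩
  apply ptj_up_injective (F := F) (K := K)
  rw [map_mul, ptj_up_diag, hy, hvu, hxu]

/-- Galois descent for `C_T`: an idele of `K` whose class modulo `Kˣ · U_{K,T}` is `Γ`-invariant
is, up to an element of `Kˣ · U_{K,T}`, the image of an idele of `F`.  Hypothesis: Hilbert 90 for
units outside `T`. -/
theorem ptj_exists_up_of_classT_invariant {T : Finset Nat.Primes} (hT : T.Nonempty)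
    (hunr : ∀ q, q ∉ T → ∀ σ : ptj_Emb K q, ptj_UnitsH90 Γ σ)
    {f : ptj_J K} (hf : ∀ γ : Γ, γ • f / f ∈ ptj_princUT K T) :
    ∃ (g : ptj_J F) (y : Kˣ) (v : ptj_J K), v ∈ ptj_UT K T ∧
      f = ptj_up F K g * (ptj_diag K y * v) := by
  have hf' := fun γ => (ptj_mem_princUT_iff _).1 (hf γ)
  choose x u hu hxu using hf'
  -- both components are cocycles, by uniqueness of the decomposition
  have hcoc : ∀ γ δ, x (γ * δ) = x γ * ptj_unitAct γ (x δ) ∧ u (γ * δ) = u γ * γ • u δ := by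
    intro γ δ
    apply ptj_princUT_unique hT (hu _) ((ptj_UT K T).mul_mem (hu _) (ptj_smul_mem_UT γ (hu _)))
    rw [← hxu, map_mul, ptj_diag_smul]
    have h1 : (γ * δ) • f / f = (γ • f / f) * γ • (δ • f / f) := by
      rw [mul_smul, smul_div', mul_comm, div_mul_div_cancel]
    rw [h1, hxu γ, hxu δ, smul_mul']
    simp only [mul_assoc, mul_left_comm]
  obtain ⟨y, hy⟩ := ptj_hilbert90 F x fun γ δ => (hcoc γ δ).1
  have hucoc : IsMulCocycle₁ u := fun γ δ => by rw [(hcoc γ δ).2, mul_comm]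
  obtain ⟨v, hv, hvu⟩ := ptj_H1_UT F T hunr hucoc hu
  have hinv : ∀ γ : Γ, γ • (f / (ptj_diag K y * v)) = f / (ptj_diag K y * v) := by
    intro γ
    have h1 : γ • f = f * (ptj_diag K (x γ) * u γ) := by
      rw [← hxu γ]; simp
    rw [smul_div', smul_mul', ← ptj_diag_smul, h1, hy γ, ← hvu γ, map_div,
      div_eq_div_iff_mul_eq_mul]
    have h2 : ptj_diag K (ptj_unitAct γ y) / ptj_diag K y * (γ • v / v) * (ptj_diag K y * v) =
        ptj_diag K (ptj_unitAct γ y) * γ • v := by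
      rw [mul_mul_mul_comm, div_mul_cancel, div_mul_cancel]
    rw [mul_assoc, h2]
  obtain ⟨g, hg⟩ := (ptj_mem_range_up_iff (F := F) (Γ := Γ) _).2 hinv
  exact ⟨g, y, v, hv, by rw [hg]; simp⟩

end Fermat.Agent.Lib.PT

end
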