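/-
S55 (Poitou–Tate), local ↔ global bridge, part A: the `q`-adic place of `Q̄` cut out by
`padicEmbedding q : Q̄ → PadicAlgCl q`, the image of `Q̄`, and the local field
`K_F = ℚ_q(ι F)` generated by a subfield `F ⊆ Q̄`.
-/
import Mathlib
import Fermat.Prelude.Def_GaloisRep_CompletionBridge

set_option autoImplicit false

namespace Fermat.Agent.Lib.PT

open scoped NNReal

variable (q : ℕ) [Fact q.Prime]

/-- the norm of `q` in the algebraic closure of `ℚ_q` -/
lemma ptg_norm_q : ‖(q : PadicAlgCl q)‖ = (q : ℝ)⁻¹ := by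
  have h := PadicAlgCl.norm_extends q (q : ℚ_[q])
  rw [Padic.norm_p] at h
  rw [← h]
  congr 1

variable {q} in
/-- membership in the `q`-adic place through the norm -/
lemma ptg_mem_padicPlace_iff {x : AlgebraicClosure ℚ} :
    x ∈ padicPlace q ↔ ‖padicEmbedding q x‖ ≤ 1 := by
  rw [mem_padicPlace_iff, ← NNReal.coe_le_coe]
  rfl

variable {q} in
/-- the maximal ideal of the `q`-adic place through the norm -/
lemma ptg_mem_nonunits_iff {x : AlgebraicClosure ℚ} :
    x ∈ (padicPlace q).nonunits ↔ ‖padicEmbedding q x‖ < 1 := by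
  rw [ValuationSubring.mem_nonunits_iff_or]
  by_cases hx : x = 0
  · simp [hx]
  · rw [ptg_mem_padicPlace_iff, map_inv₀, norm_inv]
    have h0 : 0 < ‖padicEmbedding q x‖ := by
      rw [norm_pos_iff]
      exact (map_ne_zero _).mpr hx
    constructor
    · rintro (h | h)
      · exact absurd h hx
      · rw [not_le, one_lt_inv₀ h0] at h
        exact h
    · intro h
      right
      rw [not_le, one_lt_inv₀ h0]
      exact h

/-- **(B1)** the `q`-adic place of `Q̄` lies over `q`. -/
theorem ptg_padicPlace_liesOver : (padicPlace q).LiesOverPrime q := by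
  show ((q : ℕ) : AlgebraicClosure ℚ) ∈ (padicPlace q).nonunits
  rw [ptg_mem_nonunits_iff, map_natCast, ptg_norm_q]
  have h2 : (2 : ℝ) ≤ q := by exact_mod_cast (Fact.out : q.Prime).two_le
  rw [inv_lt_one_iff₀]
  right
  linarith


/-! ### The image of `Q̄` in `PadicAlgCl q` -/

variable {q} in
/-- An element of `PadicAlgCl q` comes from `Q̄` iff it is algebraic over `ℚ`. -/
theorem ptg_mem_range_iff {y : PadicAlgCl q} :
    y ∈ Set.range (padicEmbedding q) ↔ IsAlgebraic ℚ y := by
  constructor
  · rintro ⟨x, rfl⟩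
    exact ((AlgebraicClosure.isAlgebraic ℚ).isAlgebraic x).algHom (padicEmbedding q)
  · intro hy
    have hint : IsIntegral ℚ y := hy.isIntegral
    have hsp : ((minpoly ℚ y).map (algebraMap ℚ (AlgebraicClosure ℚ))).Splits :=
      IsAlgClosed.splits _
    have hmem : y ∈ (minpoly ℚ y).rootSet (PadicAlgCl q) := by
      rw [Polynomial.mem_rootSet]
      exact ⟨minpoly.ne_zero hint, minpoly.aeval ℚ y⟩
    rw [← hsp.image_rootSet (padicEmbedding q)] at hmem
    obtain ⟨x, -, hx⟩ := hmem
    exact ⟨x, hx⟩


/-! ### The local field generated by a subfield of `Q̄` -/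

/-- `K_F = ℚ_q(ι F)`: the local field generated by the image of `F ⊆ Q̄`. -/
noncomputable def ptg_loc (F : IntermediateField ℚ (AlgebraicClosure ℚ)) :
    IntermediateField ℚ_[q] (PadicAlgCl q) :=
  IntermediateField.adjoin ℚ_[q] (padicEmbedding q '' (F : Set (AlgebraicClosure ℚ)))

variable {q} in
lemma ptg_map_mem_loc {F : IntermediateField ℚ (AlgebraicClosure ℚ)} {x : AlgebraicClosure ℚ}
    (hx : x ∈ F) : padicEmbedding q x ∈ ptg_loc q F :=
  IntermediateField.subset_adjoin _ _ ⟨x, hx, rfl⟩

variable {q} in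
lemma ptg_loc_mono {F F' : IntermediateField ℚ (AlgebraicClosure ℚ)} (h : F ≤ F') :
    ptg_loc q F ≤ ptg_loc q F' :=
  IntermediateField.adjoin.mono _ _ _ (Set.image_mono h)

variable {q} in
/-- `K_F` is generated by the image of a primitive element of `F`. -/
lemma ptg_loc_eq_adjoin_simple {F : IntermediateField ℚ (AlgebraicClosure ℚ)}
    [FiniteDimensional ℚ F] {α : F} (hα : IntermediateField.adjoin ℚ {α} = ⊤) :
    ptg_loc q F = IntermediateField.adjoin ℚ_[q] {padicEmbedding q (α : AlgebraicClosure ℚ)} := by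
  apply le_antisymm
  · rw [ptg_loc, IntermediateField.adjoin_le_iff]
    rintro y ⟨x, hx, rfl⟩
    have hαint : IsIntegral ℚ α := Algebra.IsIntegral.isIntegral α
    have htop : Algebra.adjoin ℚ {α} = ⊤ := by
      rw [← IntermediateField.adjoin_simple_toSubalgebra_of_isAlgebraic hαint.isAlgebraic, hα]
      rfl
    have hx' : (⟨x, hx⟩ : F) ∈ Algebra.adjoin ℚ {α} := by rw [htop]; trivial
    rw [Algebra.adjoin_singleton_eq_range_aeval] at hx'
    obtain ⟨P, hP⟩ := hx'
    have hx2 : x = Polynomial.aeval (α : AlgebraicClosure ℚ) P := by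
      have := congrArg (fun z : F => (z : AlgebraicClosure ℚ)) hP
      simp only at this
      rw [← this]
      exact (Polynomial.aeval_algebraMap_apply (AlgebraicClosure ℚ) α P).symm
    have hx3 : padicEmbedding q x =
        Polynomial.aeval (padicEmbedding q (α : AlgebraicClosure ℚ))
          (P.map (algebraMap ℚ ℚ_[q])) := by
      rw [Polynomial.aeval_map_algebraMap, hx2, Polynomial.aeval_algHom_apply]
    rw [SetLike.mem_coe, hx3]
    exact IntermediateField.algebra_adjoin_le_adjoin _ _
      (Polynomial.aeval_mem_adjoin_singleton _ _)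
  · rw [IntermediateField.adjoin_le_iff]
    rintro y hy
    rw [Set.mem_singleton_iff] at hy
    rw [hy]
    exact ptg_map_mem_loc α.2

/-- `K_F` is finite over `ℚ_q` when `F` is finite over `ℚ`. -/
instance ptg_loc_finiteDimensional (F : IntermediateField ℚ (AlgebraicClosure ℚ))
    [FiniteDimensional ℚ F] : FiniteDimensional ℚ_[q] (ptg_loc q F) := by
  obtain ⟨α, hα⟩ := Field.exists_primitive_element ℚ F
  rw [ptg_loc_eq_adjoin_simple hα]
  exact IntermediateField.adjoin.finiteDimensional
    (Algebra.IsIntegral.isIntegral (R := ℚ_[q]) _)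


/-- fixed points of a single automorphism contain what is generated by fixed generators -/
lemma ptg_apply_eq_of_mem_adjoin {K L : Type*} [Field K] [Field L] [Algebra K L]
    (τ : L ≃ₐ[K] L) {S : Set L} (hS : ∀ y ∈ S, τ y = y) {y : L}
    (hy : y ∈ IntermediateField.adjoin K S) : τ y = y := by
  have hle : IntermediateField.adjoin K S ≤
      IntermediateField.fixedField (Subgroup.zpowers τ) := by
    rw [IntermediateField.adjoin_le_iff]
    intro z hz
    rw [SetLike.mem_coe, IntermediateField.mem_fixedField_iff]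
    intro g hg
    have hst : Subgroup.zpowers τ ≤ MulAction.stabilizer (L ≃ₐ[K] L) z := by
      rw [Subgroup.zpowers_le, MulAction.mem_stabilizer_iff]
      exact hS z hz
    exact MulAction.mem_stabilizer_iff.mp (hst hg)
  exact (IntermediateField.mem_fixedField_iff _ _).mp (hle hy) τ (Subgroup.mem_zpowers τ)

variable {q} in
/-- **(B2)** `r τ` fixes `F` iff `τ` fixes `K_F`. -/
theorem ptg_mem_fixingSubgroup_loc_iff (F : IntermediateField ℚ (AlgebraicClosure ℚ))
    (τ : PadicAlgCl q ≃ₐ[ℚ_[q]] PadicAlgCl q) :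
    τ ∈ (ptg_loc q F).fixingSubgroup ↔ localGaloisToGlobal q τ ∈ F.fixingSubgroup := by
  rw [IntermediateField.mem_fixingSubgroup_iff, IntermediateField.mem_fixingSubgroup_iff]
  constructor
  · intro h x hx
    have hinj : Function.Injective (padicEmbedding q) := (padicEmbedding q).injective
    apply hinj
    rw [padicEmbedding_localGaloisToGlobal]
    exact h _ (ptg_map_mem_loc hx)
  · intro h y hy
    refine ptg_apply_eq_of_mem_adjoin τ ?_ hy
    rintro z ⟨x, hx, rfl⟩
    rw [← padicEmbedding_localGaloisToGlobal, h x hx]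

end Fermat.Agent.Lib.PT
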