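/-
S55 (Poitou–Tate), local ↔ global bridge, part B: Krasner approximation. Every element of
`PadicAlgCl q` lies in `ℚ_q(b)` for some `b` algebraic over `ℚ`.
-/
import Mathlib
import Fermat.Prelude.Def_GaloisRep_CompletionBridge

set_option autoImplicit false

namespace Fermat.Agent.Lib.PT

open Polynomial

variable (q : ℕ) [Fact q.Prime]

lemma ptg_denseRange_algebraMap : DenseRange (algebraMap ℚ ℚ_[q]) := by
  have h : (algebraMap ℚ ℚ_[q] : ℚ → ℚ_[q]) = ((↑) : ℚ → ℚ_[q]) := by
    funext x
    exact eq_ratCast _ x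
  rw [h]
  exact Padic.denseRange_ratCast q

/-- **Krasner approximation**: every element of `PadicAlgCl q` lies in `ℚ_q(b)` for some `b`
algebraic over `ℚ`. -/
theorem ptg_exists_algebraic_adjoin (β : PadicAlgCl q) :
    ∃ b : PadicAlgCl q, IsAlgebraic ℚ b ∧ β ∈ IntermediateField.adjoin ℚ_[q] {b} := by
  classical
  have hint : IsIntegral ℚ_[q] β := Algebra.IsIntegral.isIntegral β
  set f := minpoly ℚ_[q] β with hf
  have fmon : f.Monic := minpoly.monic hint
  have firr : Irreducible f := minpoly.irreducible hint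
  have fa0 : aeval β f = 0 := minpoly.aeval _ _
  have fnatdeg0 : f.natDegree ≠ 0 := (Irreducible.natDegree_pos firr).ne'
  let S : Finset (PadicAlgCl q) := {x ∈ (f.rootSet (PadicAlgCl q)).toFinset | x ≠ β}
  let δ : ℝ := if hS : S.Nonempty then Finset.min' (S.image fun x => ‖β - x‖)
      (Finset.image_nonempty.mpr hS) else 1
  have norm_sub_le : ∀ a' : PadicAlgCl q, IsConjRoot ℚ_[q] β a' → β ≠ a' → δ ≤ ‖β - a'‖ := by
    intro a' conj ne
    by_cases hS : S.Nonempty <;> simp only [hS, ↓reduceDIte, δ]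
    · apply Finset.min'_le (S.image fun x => ‖β - x‖) (‖β - a'‖)
      apply Finset.mem_image_of_mem
      simp only [Finset.mem_filter, Set.mem_toFinset, S]
      rw [← (isConjRoot_iff_mem_minpoly_rootSet hint)]
      exact ⟨conj, ne.symm⟩
    · simp only [ne_eq, Finset.not_nonempty_iff_eq_empty, Finset.filter_eq_empty_iff,
        Set.mem_toFinset, not_not, S] at hS
      rw [isConjRoot_iff_mem_minpoly_rootSet hint] at conj
      exact (ne (hS conj).symm).elim
  have δpos : δ > 0 := by
    by_cases hS : S.Nonempty <;> simp only [hS, ↓reduceDIte, δ]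
    · simp only [gt_iff_lt, Finset.lt_min'_iff, Finset.mem_image, forall_exists_index, and_imp,
        forall_apply_eq_imp_iff₂]
      rintro a' ha'
      simp only [Finset.mem_filter, Set.mem_toFinset, S] at ha'
      rw [norm_pos_iff, sub_ne_zero]
      exact ha'.2.symm
    · linarith
  have hε : (δ / (max ‖β‖ 1)) ^ f.natDegree / (f.natDegree + 1) > 0 := by positivity
  obtain ⟨g, gmon, gdeg, gcoeff⟩ :=
    exists_monic_and_natDegree_eq_and_norm_map_algebraMap_coeff_sub_lt
      (ptg_denseRange_algebraMap q) fmon hε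
  obtain ⟨b, hb, hab⟩ := exists_aroots_norm_sub_lt_of_norm_coeff_sub_lt
      (L := PadicAlgCl q) hε fa0 fmon (gmon.map _) (gdeg ▸ (g.natDegree_map _)) gcoeff
      (IsAlgClosed.splits _)
  have hab : ‖β - b‖ < δ := by
    rw [← Real.rpow_natCast, ← mul_comm_div, div_self, one_mul,
        ← Real.rpow_mul (div_pos δpos (by positivity)).le, mul_inv_cancel₀] at hab
    · simpa [mul_assoc, div_mul_cancel₀ _ (by positivity : (max ‖β‖ 1) > 0).ne'] using hab
    · simp [fnatdeg0]
    · positivity
  simp only [Polynomial.mem_roots', ne_eq, Polynomial.map_eq_zero, Polynomial.IsRoot.def,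
    Polynomial.eval_map_algebraMap, aroots_def] at hb
  have hgb : aeval b g = 0 := by
    have := hb.2
    rwa [Polynomial.aeval_map_algebraMap] at this
  refine ⟨b, ⟨g, gmon.ne_zero, hgb⟩, ?_⟩
  exact IsKrasner.krasner (minpoly.irreducible hint).separable (IsAlgClosed.splits _)
    ⟨(g.map _), gmon.map _, hb.2⟩ fun a' h1 h2 ↦ lt_of_lt_of_le hab (norm_sub_le a' h1 h2)

end Fermat.Agent.Lib.PT
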