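/-
S55 (Poitou–Tate), local ↔ global bridge, part C: Krasner cofinality. Every finite extension of
`ℚ_q` inside `PadicAlgCl q` lies in `K_F` for a finite normal `F/ℚ`; `localGaloisToGlobal q` is
injective; the subgroups `r⁻¹(Fix F)` are cofinal among the open subgroups.
-/
import Mathlib
import Fermat.Agent.Lib.PT.BridgeA
import Fermat.Agent.Lib.PT.BridgeB

set_option autoImplicit false

namespace Fermat.Agent.Lib.PT

variable (q : ℕ) [Fact q.Prime]

/-- a subfield of `Q̄` stable under all automorphisms (normal over `ℚ`), in a form that avoids the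
two `ℚ`-algebra structures on a subfield. -/
def ptg_IsStable (F : IntermediateField ℚ (AlgebraicClosure ℚ)) : Prop :=
  ∀ σ : AlgebraicClosure ℚ ≃ₐ[ℚ] AlgebraicClosure ℚ, ∀ x ∈ F, σ x ∈ F

/-- the splitting field in `Q̄` of the minimal polynomial of `x` -/
noncomputable def ptg_splitField (x : AlgebraicClosure ℚ) :
    IntermediateField ℚ (AlgebraicClosure ℚ) :=
  IntermediateField.adjoin ℚ ((minpoly ℚ x).rootSet (AlgebraicClosure ℚ))

lemma ptg_isIntegral_Qbar (x : AlgebraicClosure ℚ) : IsIntegral ℚ x :=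
  ((AlgebraicClosure.isAlgebraic ℚ).isAlgebraic x).isIntegral

lemma ptg_mem_splitField (x : AlgebraicClosure ℚ) : x ∈ ptg_splitField x := by
  apply IntermediateField.subset_adjoin
  rw [Polynomial.mem_rootSet]
  exact ⟨minpoly.ne_zero (ptg_isIntegral_Qbar x), minpoly.aeval ℚ x⟩

instance ptg_splitField_finiteDimensional (x : AlgebraicClosure ℚ) :
    FiniteDimensional ℚ (ptg_splitField x) := by
  have : Finite ((minpoly ℚ x).rootSet (AlgebraicClosure ℚ)) :=
    Polynomial.rootSet_finite _ _
  exact IntermediateField.finiteDimensional_adjoin fun y _ => ptg_isIntegral_Qbar y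

lemma ptg_splitField_isStable (x : AlgebraicClosure ℚ) : ptg_IsStable (ptg_splitField x) := by
  intro σ y hy
  have hmap : (ptg_splitField x).map (σ : AlgebraicClosure ℚ →ₐ[ℚ] AlgebraicClosure ℚ) ≤
      ptg_splitField x := by
    rw [ptg_splitField, IntermediateField.adjoin_map, IntermediateField.adjoin_le_iff]
    rintro z ⟨w, hw, rfl⟩
    apply IntermediateField.subset_adjoin
    rw [Polynomial.mem_rootSet] at hw ⊢
    refine ⟨hw.1, ?_⟩
    rw [Polynomial.aeval_algHom_apply, hw.2, map_zero]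
  exact hmap ⟨y, hy, rfl⟩

/-- a finite subextension of `PadicAlgCl q / ℚ_q` is simple -/
lemma ptg_exists_eq_adjoin_simple (K : IntermediateField ℚ_[q] (PadicAlgCl q))
    [FiniteDimensional ℚ_[q] K] :
    ∃ β : PadicAlgCl q, K = IntermediateField.adjoin ℚ_[q] {β} := by
  obtain ⟨α, hα⟩ := Field.exists_primitive_element ℚ_[q] K
  refine ⟨(α : PadicAlgCl q), ?_⟩
  have h1 : (IntermediateField.adjoin ℚ_[q] {α}).map K.val =
      IntermediateField.adjoin ℚ_[q] {(α : PadicAlgCl q)} := by
    rw [IntermediateField.adjoin_map, Set.image_singleton]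
    rfl
  rw [← h1, hα, ← AlgHom.fieldRange_eq_map, IntermediateField.fieldRange_val]

/-- **(B3) Krasner cofinality**: every finite extension of `ℚ_q` inside `PadicAlgCl q` is contained
in `K_F` for a finite normal extension `F/ℚ` inside `Q̄`. -/
theorem ptg_exists_le_loc (K : IntermediateField ℚ_[q] (PadicAlgCl q))
    [FiniteDimensional ℚ_[q] K] :
    ∃ F : IntermediateField ℚ (AlgebraicClosure ℚ), FiniteDimensional ℚ F ∧ ptg_IsStable F ∧
      K ≤ ptg_loc q F := by
  obtain ⟨β, rfl⟩ := ptg_exists_eq_adjoin_simple q K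
  obtain ⟨b, hbalg, hβ⟩ := ptg_exists_algebraic_adjoin q β
  obtain ⟨x, rfl⟩ := ptg_mem_range_iff.mpr hbalg
  refine ⟨ptg_splitField x, inferInstance, ptg_splitField_isStable x, ?_⟩
  rw [IntermediateField.adjoin_le_iff]
  intro y hy
  rw [Set.mem_singleton_iff] at hy
  subst hy
  have hle : IntermediateField.adjoin ℚ_[q] {padicEmbedding q x} ≤
      ptg_loc q (ptg_splitField x) := by
    rw [IntermediateField.adjoin_le_iff]
    intro z hz
    rw [Set.mem_singleton_iff] at hz
    subst hz
    exact ptg_map_mem_loc (ptg_mem_splitField x)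
  exact hle hβ

/-- `localGaloisToGlobal q` is injective. -/
theorem ptg_localGaloisToGlobal_injective : Function.Injective (localGaloisToGlobal q) := by
  rw [injective_iff_map_eq_one]
  intro τ hτ
  apply AlgEquiv.ext
  intro β
  obtain ⟨b, hbalg, hβ⟩ := ptg_exists_algebraic_adjoin q β
  obtain ⟨x, rfl⟩ := ptg_mem_range_iff.mpr hbalg
  refine ptg_apply_eq_of_mem_adjoin τ ?_ hβ
  intro y hy
  rw [Set.mem_singleton_iff] at hy
  subst hy
  rw [← padicEmbedding_localGaloisToGlobal, hτ]
  rfl

/-- cofinality in group form: every open subgroup `Gal(Q̄_q/K)` contains `r⁻¹(Fix F)` for a finite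
normal `F/ℚ`. -/
theorem ptg_exists_fixingSubgroup_le (K : IntermediateField ℚ_[q] (PadicAlgCl q))
    [FiniteDimensional ℚ_[q] K] :
    ∃ F : IntermediateField ℚ (AlgebraicClosure ℚ), FiniteDimensional ℚ F ∧ ptg_IsStable F ∧
      ∀ τ : PadicAlgCl q ≃ₐ[ℚ_[q]] PadicAlgCl q,
        localGaloisToGlobal q τ ∈ F.fixingSubgroup → τ ∈ K.fixingSubgroup := by
  obtain ⟨F, hF, hst, hle⟩ := ptg_exists_le_loc q K
  refine ⟨F, hF, hst, fun τ hτ => ?_⟩
  exact IntermediateField.fixingSubgroup_antitone hle
    ((ptg_mem_fixingSubgroup_loc_iff F τ).mpr hτ)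

end Fermat.Agent.Lib.PT
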