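/-
S55 (Poitou–Tate), local ↔ global bridge, part D: the elements of the decomposition group of the
`q`-adic place of `Q̄` are isometries for the `q`-adic absolute value; analytic core of the
extension of such an isometry to `PadicAlgCl q`.
-/
import Mathlib
import Fermat.Agent.Lib.PT.BridgeA
import Fermat.Agent.Lib.PT.BridgeB
import Fermat.Agent.Lib.PT.BridgeC

set_option autoImplicit false

namespace Fermat.Agent.Lib.PT

open scoped Pointwise

variable (q : ℕ) [Fact q.Prime]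

/-- the `q`-adic absolute value on `Q̄` -/
noncomputable def ptg_abs : AbsoluteValue (AlgebraicClosure ℚ) ℝ where
  toFun x := ‖padicEmbedding q x‖
  map_mul' x y := by rw [map_mul, norm_mul]
  nonneg' x := norm_nonneg _
  eq_zero' x := by rw [norm_eq_zero, map_eq_zero]
  add_le' x y := by rw [map_add]; exact norm_add_le _ _

lemma ptg_abs_apply (x : AlgebraicClosure ℚ) : ptg_abs q x = ‖padicEmbedding q x‖ := rfl

/-- the `q`-adic absolute value on `Q̄` transported by an automorphism -/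
noncomputable def ptg_absTw (σ : AlgebraicClosure ℚ ≃ₐ[ℚ] AlgebraicClosure ℚ) :
    AbsoluteValue (AlgebraicClosure ℚ) ℝ where
  toFun x := ‖padicEmbedding q (σ x)‖
  map_mul' x y := by rw [map_mul, map_mul, norm_mul]
  nonneg' x := norm_nonneg _
  eq_zero' x := by rw [norm_eq_zero, map_eq_zero, map_eq_zero]
  add_le' x y := by rw [map_add, map_add]; exact norm_add_le _ _

variable {q} in
/-- elements of the decomposition group preserve the place -/
lemma ptg_mem_iff_of_mem_decomp {σ : AlgebraicClosure ℚ ≃ₐ[ℚ] AlgebraicClosure ℚ}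
    (hσ : σ ∈ (padicPlace q).decompositionSubgroup ℚ) (x : AlgebraicClosure ℚ) :
    σ x ∈ padicPlace q ↔ x ∈ padicPlace q := by
  have h : σ • padicPlace q = padicPlace q := hσ
  constructor
  · intro hx
    have h2 : σ x ∈ σ • padicPlace q := by rw [h]; exact hx
    obtain ⟨y, hy, hyx⟩ := h2
    have : y = x := σ.injective hyx
    rw [← this]
    exact hy
  · intro hx
    rw [← h]
    exact ⟨x, hx, rfl⟩

variable {q} in
/-- **isometry**: the elements of the decomposition group of the `q`-adic place are isometries for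
the `q`-adic absolute value. -/
theorem ptg_norm_apply_of_mem_decomp {σ : AlgebraicClosure ℚ ≃ₐ[ℚ] AlgebraicClosure ℚ}
    (hσ : σ ∈ (padicPlace q).decompositionSubgroup ℚ) (x : AlgebraicClosure ℚ) :
    ‖padicEmbedding q (σ x)‖ = ‖padicEmbedding q x‖ := by
  have heq : (ptg_abs q).IsEquiv (ptg_absTw q σ) := by
    rw [AbsoluteValue.isEquiv_iff_lt_one_iff]
    intro y
    show ‖padicEmbedding q y‖ < 1 ↔ ‖padicEmbedding q (σ y)‖ < 1
    rw [← ptg_mem_nonunits_iff, ← ptg_mem_nonunits_iff, ValuationSubring.mem_nonunits_iff_or,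
      ValuationSubring.mem_nonunits_iff_or, ← map_inv₀, ptg_mem_iff_of_mem_decomp hσ,
      map_eq_zero]
  obtain ⟨c, hc, hcw⟩ := AbsoluteValue.isEquiv_iff_exists_rpow_eq.mp heq
  have hq := congrFun hcw (q : AlgebraicClosure ℚ)
  have h1 : ptg_abs q (q : AlgebraicClosure ℚ) = (q : ℝ)⁻¹ := by
    rw [ptg_abs_apply, map_natCast, ptg_norm_q]
  have h2 : ptg_absTw q σ (q : AlgebraicClosure ℚ) = (q : ℝ)⁻¹ := by
    show ‖padicEmbedding q (σ (q : AlgebraicClosure ℚ))‖ = _
    rw [map_natCast, map_natCast, ptg_norm_q]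
  rw [h2] at hq
  change (ptg_abs q (q : AlgebraicClosure ℚ)) ^ c = _ at hq
  rw [h1] at hq
  have hq1 : (1 : ℝ) < q := by exact_mod_cast (Fact.out : q.Prime).one_lt
  have hc1 : c = 1 := by
    have hpos : (0 : ℝ) < (q : ℝ)⁻¹ := by positivity
    have hne : ((q : ℝ)⁻¹) ≠ 1 := by
      rw [Ne, inv_eq_one]
      exact ne_of_gt hq1
    have hlog := congrArg Real.log hq
    rw [Real.log_rpow hpos] at hlog
    have hlne : Real.log ((q : ℝ)⁻¹) ≠ 0 := by
      rw [Real.log_inv, neg_ne_zero]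
      exact ne_of_gt (Real.log_pos hq1)
    exact mul_right_cancel₀ hlne (by rw [hlog, one_mul])
  have hx := congrFun hcw x
  change (ptg_abs q x) ^ c = ptg_absTw q σ x at hx
  rw [hc1, Real.rpow_one] at hx
  exact hx.symm


/-- analytic core of the extension of an isometry: a `ℚ_q`-linear relation between vectors `u i`
persists for vectors `w i` as soon as rational combinations of the `w i` and of the `u i` have the
same norm. -/
lemma ptg_sum_eq_zero_of_isometry {V : Type*} [NormedAddCommGroup V] [NormedSpace ℚ_[q] V]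
    {ι' : Type*} (s : Finset ι') (u w : ι' → V) (c : ι' → ℚ_[q])
    (hiso : ∀ r : ι' → ℚ, ‖∑ i ∈ s, (r i : ℚ_[q]) • w i‖ = ‖∑ i ∈ s, (r i : ℚ_[q]) • u i‖)
    (h0 : ∑ i ∈ s, c i • u i = 0) : ∑ i ∈ s, c i • w i = 0 := by
  by_contra hne
  set N := ‖∑ i ∈ s, c i • w i‖ with hN
  have hNpos : 0 < N := norm_pos_iff.mpr hne
  set B := ∑ i ∈ s, (‖w i‖ + ‖u i‖) + 1 with hB
  have hBpos : 0 < B := by
    have : 0 ≤ ∑ i ∈ s, (‖w i‖ + ‖u i‖) :=
      Finset.sum_nonneg fun i _ => add_nonneg (norm_nonneg _) (norm_nonneg _)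
    linarith
  set η := N / B with hη
  have hηpos : 0 < η := div_pos hNpos hBpos
  have hdense : ∀ i, ∃ r : ℚ, ‖c i - (r : ℚ_[q])‖ < η := by
    intro i
    obtain ⟨r, hr⟩ := (Padic.denseRange_ratCast q).exists_dist_lt (c i) hηpos
    exact ⟨r, by rwa [dist_eq_norm] at hr⟩
  choose r hr using hdense
  have e1 : ∑ i ∈ s, c i • w i =
      ∑ i ∈ s, (c i - (r i : ℚ_[q])) • w i + ∑ i ∈ s, (r i : ℚ_[q]) • w i := by
    rw [← Finset.sum_add_distrib]
    refine Finset.sum_congr rfl fun i _ => ?_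
    rw [← add_smul, sub_add_cancel]
  have e2 : ∑ i ∈ s, (r i : ℚ_[q]) • u i = ∑ i ∈ s, ((r i : ℚ_[q]) - c i) • u i := by
    have : ∑ i ∈ s, ((r i : ℚ_[q]) - c i) • u i =
        ∑ i ∈ s, (r i : ℚ_[q]) • u i - ∑ i ∈ s, c i • u i := by
      rw [← Finset.sum_sub_distrib]
      refine Finset.sum_congr rfl fun i _ => ?_
      rw [sub_smul]
    rw [this, h0, sub_zero]
  have b1 : ‖∑ i ∈ s, (c i - (r i : ℚ_[q])) • w i‖ ≤ ∑ i ∈ s, η * ‖w i‖ := by
    refine (norm_sum_le _ _).trans (Finset.sum_le_sum fun i _ => ?_)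
    rw [norm_smul]
    exact mul_le_mul_of_nonneg_right (hr i).le (norm_nonneg _)
  have b2 : ‖∑ i ∈ s, ((r i : ℚ_[q]) - c i) • u i‖ ≤ ∑ i ∈ s, η * ‖u i‖ := by
    refine (norm_sum_le _ _).trans (Finset.sum_le_sum fun i _ => ?_)
    rw [norm_smul, ← norm_neg, neg_sub]
    exact mul_le_mul_of_nonneg_right (hr i).le (norm_nonneg _)
  have hle : N ≤ η * (B - 1) := by
    calc N = ‖∑ i ∈ s, (c i - (r i : ℚ_[q])) • w i + ∑ i ∈ s, (r i : ℚ_[q]) • w i‖ := by
            rw [hN, e1]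
      _ ≤ ‖∑ i ∈ s, (c i - (r i : ℚ_[q])) • w i‖ + ‖∑ i ∈ s, (r i : ℚ_[q]) • w i‖ :=
            norm_add_le _ _
      _ = ‖∑ i ∈ s, (c i - (r i : ℚ_[q])) • w i‖ + ‖∑ i ∈ s, ((r i : ℚ_[q]) - c i) • u i‖ := by
            rw [hiso r, e2]
      _ ≤ ∑ i ∈ s, η * ‖w i‖ + ∑ i ∈ s, η * ‖u i‖ := add_le_add b1 b2
      _ = η * (B - 1) := by
            rw [hB, add_sub_cancel_right, ← Finset.mul_sum, ← Finset.mul_sum, ← mul_add,
              Finset.sum_add_distrib]
  have hlt : η * (B - 1) < N := by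
    have : η * B = N := div_mul_cancel₀ N (ne_of_gt hBpos)
    nlinarith
  exact absurd hle (not_le.mpr hlt)

end Fermat.Agent.Lib.PT
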