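/-
S55 (Poitou–Tate), local ↔ global bridge, part E: every element of the decomposition group of the
`q`-adic place of `Q̄` extends to an automorphism of `PadicAlgCl q` over `ℚ_q`; hence the image of
`localGaloisToGlobal q` is exactly the decomposition group.
-/
import Mathlib
import Fermat.Agent.Lib.PT.BridgeA
import Fermat.Agent.Lib.PT.BridgeB
import Fermat.Agent.Lib.PT.BridgeC
import Fermat.Agent.Lib.PT.BridgeD

set_option autoImplicit false

namespace Fermat.Agent.Lib.PT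

open scoped Pointwise

variable (q : ℕ) [Fact q.Prime]

/-- `x ↦ ι (σ x)` as a monoid hom -/
noncomputable def ptg_iotaM (σ : AlgebraicClosure ℚ ≃ₐ[ℚ] AlgebraicClosure ℚ) :
    AlgebraicClosure ℚ →* PadicAlgCl q where
  toFun x := padicEmbedding q (σ x)
  map_one' := by rw [map_one, map_one]
  map_mul' x y := by rw [map_mul, map_mul]

/-- the `ℚ_q`-algebra hom `ℚ_q[Q̄] → PadicAlgCl q`, `x ↦ ι (σ x)` -/
noncomputable def ptg_Phi (σ : AlgebraicClosure ℚ ≃ₐ[ℚ] AlgebraicClosure ℚ) :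
    MonoidAlgebra ℚ_[q] (AlgebraicClosure ℚ) →ₐ[ℚ_[q]] PadicAlgCl q :=
  MonoidAlgebra.lift ℚ_[q] (PadicAlgCl q) (AlgebraicClosure ℚ) (ptg_iotaM q σ)

lemma ptg_Phi_apply (σ : AlgebraicClosure ℚ ≃ₐ[ℚ] AlgebraicClosure ℚ)
    (c : MonoidAlgebra ℚ_[q] (AlgebraicClosure ℚ)) :
    ptg_Phi q σ c = ∑ x ∈ c.coeff.support, c.coeff x • padicEmbedding q (σ x) := by
  rw [ptg_Phi, MonoidAlgebra.lift_apply]
  rfl

lemma ptg_Phi_single (σ : AlgebraicClosure ℚ ≃ₐ[ℚ] AlgebraicClosure ℚ) (x : AlgebraicClosure ℚ)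
    (a : ℚ_[q]) :
    ptg_Phi q σ (MonoidAlgebra.single x a) = a • padicEmbedding q (σ x) := by
  rw [ptg_Phi, MonoidAlgebra.lift_single]
  rfl

lemma ptg_Phi_surjective (σ : AlgebraicClosure ℚ ≃ₐ[ℚ] AlgebraicClosure ℚ) :
    Function.Surjective (ptg_Phi q σ) := by
  intro β
  obtain ⟨b, hbalg, hβ⟩ := ptg_exists_algebraic_adjoin q β
  obtain ⟨x, rfl⟩ := ptg_mem_range_iff.mpr hbalg
  have hint : IsIntegral ℚ_[q] (padicEmbedding q x) := Algebra.IsIntegral.isIntegral _
  have hβ' : β ∈ Algebra.adjoin ℚ_[q] {padicEmbedding q x} := by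
    rw [← IntermediateField.adjoin_simple_toSubalgebra_of_isAlgebraic hint.isAlgebraic]
    exact hβ
  have hle : Algebra.adjoin ℚ_[q] {padicEmbedding q x} ≤ (ptg_Phi q σ).range := by
    rw [Algebra.adjoin_le_iff]
    intro y hy
    rw [Set.mem_singleton_iff] at hy
    subst hy
    refine ⟨MonoidAlgebra.single (σ.symm x) 1, ?_⟩
    show ptg_Phi q σ (MonoidAlgebra.single (σ.symm x) 1) = _
    rw [ptg_Phi_single, one_smul, AlgEquiv.apply_symm_apply]
  exact hle hβ'


variable {q} in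
/-- for `σ` in the decomposition group, a `ℚ_q`-linear relation between the `ι x` persists for the
`ι (σ x)`. -/
lemma ptg_ker_Phi_le {σ : AlgebraicClosure ℚ ≃ₐ[ℚ] AlgebraicClosure ℚ}
    (hσ : σ ∈ (padicPlace q).decompositionSubgroup ℚ)
    (c : MonoidAlgebra ℚ_[q] (AlgebraicClosure ℚ)) (hc : ptg_Phi q 1 c = 0) :
    ptg_Phi q σ c = 0 := by
  rw [ptg_Phi_apply] at hc ⊢
  refine ptg_sum_eq_zero_of_isometry q c.coeff.support
    (fun x => padicEmbedding q ((1 : AlgebraicClosure ℚ ≃ₐ[ℚ] AlgebraicClosure ℚ) x))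
    (fun x => padicEmbedding q (σ x)) (fun x => c.coeff x) ?_ hc
  intro r
  have h1 : ∀ (τ : AlgebraicClosure ℚ ≃ₐ[ℚ] AlgebraicClosure ℚ),
      ∑ x ∈ c.coeff.support, (r x : ℚ_[q]) • padicEmbedding q (τ x) =
        padicEmbedding q (τ (∑ x ∈ c.coeff.support, r x • x)) := by
    intro τ
    rw [map_sum, map_sum]
    refine Finset.sum_congr rfl fun x _ => ?_
    rw [map_rat_smul, map_rat_smul, Rat.cast_smul_eq_qsmul]
  change ‖∑ x ∈ c.coeff.support, (r x : ℚ_[q]) • padicEmbedding q (σ x)‖ =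
    ‖∑ x ∈ c.coeff.support, (r x : ℚ_[q]) •
      padicEmbedding q ((1 : AlgebraicClosure ℚ ≃ₐ[ℚ] AlgebraicClosure ℚ) x)‖
  rw [h1 σ, h1 1, ptg_norm_apply_of_mem_decomp hσ]
  rfl


variable {q} in
/-- the extension of an element of the decomposition group to `PadicAlgCl q`, as an algebra hom -/
noncomputable def ptg_extendHom {σ : AlgebraicClosure ℚ ≃ₐ[ℚ] AlgebraicClosure ℚ}
    (hσ : σ ∈ (padicPlace q).decompositionSubgroup ℚ) : PadicAlgCl q →ₐ[ℚ_[q]] PadicAlgCl q :=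
  (Ideal.Quotient.liftₐ (RingHom.ker (ptg_Phi q 1)) (ptg_Phi q σ)
    (fun c hc => ptg_ker_Phi_le hσ c hc)).comp
    (Ideal.quotientKerAlgEquivOfSurjective (ptg_Phi_surjective q 1)).symm.toAlgHom

variable {q} in
lemma ptg_extendHom_Phi {σ : AlgebraicClosure ℚ ≃ₐ[ℚ] AlgebraicClosure ℚ}
    (hσ : σ ∈ (padicPlace q).decompositionSubgroup ℚ)
    (c : MonoidAlgebra ℚ_[q] (AlgebraicClosure ℚ)) :
    ptg_extendHom hσ (ptg_Phi q 1 c) = ptg_Phi q σ c := by
  have h1 : (Ideal.quotientKerAlgEquivOfSurjective (ptg_Phi_surjective q 1)).symm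
      (ptg_Phi q 1 c) = Ideal.Quotient.mk (RingHom.ker (ptg_Phi q 1)) c := by
    rw [AlgEquiv.symm_apply_eq]
    rfl
  show Ideal.Quotient.liftₐ (RingHom.ker (ptg_Phi q 1)) (ptg_Phi q σ)
    (fun c hc => ptg_ker_Phi_le hσ c hc)
    ((Ideal.quotientKerAlgEquivOfSurjective (ptg_Phi_surjective q 1)).symm (ptg_Phi q 1 c)) = _
  rw [h1]
  rfl

variable {q} in
lemma ptg_extendHom_apply {σ : AlgebraicClosure ℚ ≃ₐ[ℚ] AlgebraicClosure ℚ}
    (hσ : σ ∈ (padicPlace q).decompositionSubgroup ℚ) (x : AlgebraicClosure ℚ) :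
    ptg_extendHom hσ (padicEmbedding q x) = padicEmbedding q (σ x) := by
  have h := ptg_extendHom_Phi hσ (MonoidAlgebra.single x 1)
  rw [ptg_Phi_single, ptg_Phi_single, one_smul, one_smul] at h
  exact h


variable {q} in
/-- **(B4)** every element of the decomposition group of the `q`-adic place comes from the local
Galois group. -/
theorem ptg_exists_local_lift {σ : AlgebraicClosure ℚ ≃ₐ[ℚ] AlgebraicClosure ℚ}
    (hσ : σ ∈ (padicPlace q).decompositionSubgroup ℚ) :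
    ∃ τ : PadicAlgCl q ≃ₐ[ℚ_[q]] PadicAlgCl q, localGaloisToGlobal q τ = σ := by
  have hbij : Function.Bijective (ptg_extendHom hσ) :=
    Algebra.IsAlgebraic.algHom_bijective _
  refine ⟨AlgEquiv.ofBijective (ptg_extendHom hσ) hbij, ?_⟩
  apply AlgEquiv.ext
  intro x
  have hinj : Function.Injective (padicEmbedding q) := (padicEmbedding q).injective
  apply hinj
  rw [padicEmbedding_localGaloisToGlobal]
  exact ptg_extendHom_apply hσ x

/-- **(B4)** the image of the local Galois group is the decomposition group of the `q`-adic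
place. -/
theorem ptg_range_localGaloisToGlobal :
    (localGaloisToGlobal q).range = (padicPlace q).decompositionSubgroup ℚ := by
  apply le_antisymm
  · rintro _ ⟨τ, rfl⟩
    exact localGaloisToGlobal_mem_decompositionSubgroup q τ
  · intro σ hσ
    exact ptg_exists_local_lift hσ

end Fermat.Agent.Lib.PT
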