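/-
S55 (Poitou–Tate), local ↔ global bridge, part F: finite level.  A ring hom `j : F → PadicAlgCl q`
from a subfield `F ⊆ Q̄` which is isometric for the `q`-adic absolute value is of the form `τ ∘ ι`
for an element `τ` of the local Galois group; consequently an element of `G_ℚ` which preserves the
`q`-adic place of `F` agrees on `F` with an element of the decomposition group.
-/
import Mathlib
import Fermat.Agent.Lib.PT.BridgeA
import Fermat.Agent.Lib.PT.BridgeB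
import Fermat.Agent.Lib.PT.BridgeC
import Fermat.Agent.Lib.PT.BridgeD
import Fermat.Agent.Lib.PT.BridgeE

set_option autoImplicit false

namespace Fermat.Agent.Lib.PT

variable (q : ℕ) [Fact q.Prime]

/-- the restriction of `ι` to a subfield `F ⊆ Q̄`, as a ring hom -/
noncomputable def ptg_iotaF (F : IntermediateField ℚ (AlgebraicClosure ℚ)) : ↥F →+* PadicAlgCl q :=
  ((padicEmbedding q : AlgebraicClosure ℚ →+* PadicAlgCl q)).comp F.val.toRingHom

lemma ptg_iotaF_apply (F : IntermediateField ℚ (AlgebraicClosure ℚ)) (x : ↥F) :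
    ptg_iotaF q F x = padicEmbedding q (x : AlgebraicClosure ℚ) := rfl

lemma ptg_iotaF_mem_loc (F : IntermediateField ℚ (AlgebraicClosure ℚ)) (x : ↥F) :
    ptg_iotaF q F x ∈ ptg_loc q F := ptg_map_mem_loc x.2

/-- the `ℚ_q`-algebra hom `ℚ_q[F] → PadicAlgCl q` attached to a ring hom `j : F → PadicAlgCl q` -/
noncomputable def ptg_PhiF (F : IntermediateField ℚ (AlgebraicClosure ℚ)) (j : ↥F →+* PadicAlgCl q) :
    MonoidAlgebra ℚ_[q] ↥F →ₐ[ℚ_[q]] PadicAlgCl q :=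
  MonoidAlgebra.lift ℚ_[q] (PadicAlgCl q) ↥F (j : ↥F →* PadicAlgCl q)

lemma ptg_PhiF_apply (F : IntermediateField ℚ (AlgebraicClosure ℚ)) (j : ↥F →+* PadicAlgCl q)
    (c : MonoidAlgebra ℚ_[q] ↥F) :
    ptg_PhiF q F j c = ∑ x ∈ c.coeff.support, c.coeff x • j x := by
  rw [ptg_PhiF, MonoidAlgebra.lift_apply]
  rfl

lemma ptg_PhiF_single (F : IntermediateField ℚ (AlgebraicClosure ℚ)) (j : ↥F →+* PadicAlgCl q)
    (x : ↥F) (a : ℚ_[q]) :
    ptg_PhiF q F j (MonoidAlgebra.single x a) = a • j x := by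
  rw [ptg_PhiF, MonoidAlgebra.lift_single]
  rfl

lemma ptg_PhiF_mem_loc (F : IntermediateField ℚ (AlgebraicClosure ℚ))
    (c : MonoidAlgebra ℚ_[q] ↥F) : ptg_PhiF q F (ptg_iotaF q F) c ∈ ptg_loc q F := by
  rw [ptg_PhiF_apply]
  refine Subalgebra.sum_mem (ptg_loc q F).toSubalgebra fun x _ => ?_
  exact Subalgebra.smul_mem _ (ptg_iotaF_mem_loc q F x) _

lemma ptg_loc_le_range_PhiF (F : IntermediateField ℚ (AlgebraicClosure ℚ)) :
    (ptg_loc q F).toSubalgebra ≤ (ptg_PhiF q F (ptg_iotaF q F)).range := by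
  rw [ptg_loc, IntermediateField.adjoin_toSubalgebra, Algebra.adjoin_le_iff]
  rintro _ ⟨x, hx, rfl⟩
  refine ⟨MonoidAlgebra.single ⟨x, hx⟩ 1, ?_⟩
  show ptg_PhiF q F (ptg_iotaF q F) (MonoidAlgebra.single ⟨x, hx⟩ 1) = _
  rw [ptg_PhiF_single, one_smul]
  rfl

variable {q} in
/-- kernel inclusion for an isometric `j` -/
lemma ptg_ker_PhiF_le {F : IntermediateField ℚ (AlgebraicClosure ℚ)} {j : ↥F →+* PadicAlgCl q}
    (hj : ∀ x : ↥F, ‖j x‖ = ‖padicEmbedding q (x : AlgebraicClosure ℚ)‖)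
    (c : MonoidAlgebra ℚ_[q] ↥F) (hc : ptg_PhiF q F (ptg_iotaF q F) c = 0) :
    ptg_PhiF q F j c = 0 := by
  rw [ptg_PhiF_apply] at hc ⊢
  refine ptg_sum_eq_zero_of_isometry q c.coeff.support
    (fun x => ptg_iotaF q F x) (fun x => j x) (fun x => c.coeff x) ?_ hc
  intro r
  have h1 : ∀ (k : ↥F →+* PadicAlgCl q),
      ∑ x ∈ c.coeff.support, (r x : ℚ_[q]) • k x = k (∑ x ∈ c.coeff.support, r x • x) := by
    intro k
    rw [map_sum]
    refine Finset.sum_congr rfl fun x _ => ?_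
    rw [map_rat_smul, Rat.cast_smul_eq_qsmul]
  rw [h1 j, h1 (ptg_iotaF q F), hj]
  rfl

/-- `Φ_ι` corestricted to `K_F` -/
noncomputable def ptg_PhiF' (F : IntermediateField ℚ (AlgebraicClosure ℚ)) :
    MonoidAlgebra ℚ_[q] ↥F →ₐ[ℚ_[q]] ↥(ptg_loc q F) :=
  (ptg_PhiF q F (ptg_iotaF q F)).codRestrict (ptg_loc q F).toSubalgebra (ptg_PhiF_mem_loc q F)

lemma ptg_PhiF'_coe (F : IntermediateField ℚ (AlgebraicClosure ℚ)) (c : MonoidAlgebra ℚ_[q] ↥F) :
    ((ptg_PhiF' q F c : ↥(ptg_loc q F)) : PadicAlgCl q) = ptg_PhiF q F (ptg_iotaF q F) c := rfl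

lemma ptg_PhiF'_surjective (F : IntermediateField ℚ (AlgebraicClosure ℚ)) :
    Function.Surjective (ptg_PhiF' q F) := by
  rintro ⟨y, hy⟩
  obtain ⟨c, hc⟩ := ptg_loc_le_range_PhiF q F hy
  exact ⟨c, Subtype.ext hc⟩

variable {q} in
lemma ptg_ker_PhiF'_le {F : IntermediateField ℚ (AlgebraicClosure ℚ)} {j : ↥F →+* PadicAlgCl q}
    (hj : ∀ x : ↥F, ‖j x‖ = ‖padicEmbedding q (x : AlgebraicClosure ℚ)‖)
    (c : MonoidAlgebra ℚ_[q] ↥F) (hc : c ∈ RingHom.ker (ptg_PhiF' q F)) :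
    ptg_PhiF q F j c = 0 := by
  refine ptg_ker_PhiF_le hj c ?_
  have h := congrArg (Subtype.val) (show ptg_PhiF' q F c = 0 from hc)
  exact h

variable {q} in
/-- the `ℚ_q`-embedding of `K_F` attached to an isometric ring hom `j : F → PadicAlgCl q` -/
noncomputable def ptg_embOfIsometry {F : IntermediateField ℚ (AlgebraicClosure ℚ)}
    {j : ↥F →+* PadicAlgCl q}
    (hj : ∀ x : ↥F, ‖j x‖ = ‖padicEmbedding q (x : AlgebraicClosure ℚ)‖) :
    ↥(ptg_loc q F) →ₐ[ℚ_[q]] PadicAlgCl q :=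
  (Ideal.Quotient.liftₐ (RingHom.ker (ptg_PhiF' q F)) (ptg_PhiF q F j)
    (ptg_ker_PhiF'_le hj)).comp
    (Ideal.quotientKerAlgEquivOfSurjective (ptg_PhiF'_surjective q F)).symm.toAlgHom

variable {q} in
lemma ptg_embOfIsometry_PhiF {F : IntermediateField ℚ (AlgebraicClosure ℚ)}
    {j : ↥F →+* PadicAlgCl q}
    (hj : ∀ x : ↥F, ‖j x‖ = ‖padicEmbedding q (x : AlgebraicClosure ℚ)‖)
    (c : MonoidAlgebra ℚ_[q] ↥F) :
    ptg_embOfIsometry hj (ptg_PhiF' q F c) = ptg_PhiF q F j c := by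
  have h1 : (Ideal.quotientKerAlgEquivOfSurjective (ptg_PhiF'_surjective q F)).symm
      (ptg_PhiF' q F c) = Ideal.Quotient.mk (RingHom.ker (ptg_PhiF' q F)) c := by
    rw [AlgEquiv.symm_apply_eq]
    rfl
  show Ideal.Quotient.liftₐ (RingHom.ker (ptg_PhiF' q F)) (ptg_PhiF q F j)
    (ptg_ker_PhiF'_le hj)
    ((Ideal.quotientKerAlgEquivOfSurjective (ptg_PhiF'_surjective q F)).symm (ptg_PhiF' q F c)) = _
  rw [h1]
  rfl

variable {q} in
lemma ptg_embOfIsometry_apply {F : IntermediateField ℚ (AlgebraicClosure ℚ)}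
    {j : ↥F →+* PadicAlgCl q}
    (hj : ∀ x : ↥F, ‖j x‖ = ‖padicEmbedding q (x : AlgebraicClosure ℚ)‖) (x : ↥F) :
    ptg_embOfIsometry hj ⟨ptg_iotaF q F x, ptg_iotaF_mem_loc q F x⟩ = j x := by
  have h := ptg_embOfIsometry_PhiF hj (MonoidAlgebra.single x 1)
  rw [ptg_PhiF_single, one_smul] at h
  rw [← h]
  congr 1
  apply Subtype.ext
  rw [ptg_PhiF'_coe, ptg_PhiF_single, one_smul]

variable {q} in
/-- **(F-lift)** an isometric ring hom `j : F → PadicAlgCl q` is `τ ∘ ι` for some `τ` in the local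
Galois group. -/
theorem ptg_exists_local_of_isometry {F : IntermediateField ℚ (AlgebraicClosure ℚ)}
    {j : ↥F →+* PadicAlgCl q}
    (hj : ∀ x : ↥F, ‖j x‖ = ‖padicEmbedding q (x : AlgebraicClosure ℚ)‖) :
    ∃ τ : PadicAlgCl q ≃ₐ[ℚ_[q]] PadicAlgCl q,
      ∀ x : ↥F, τ (padicEmbedding q (x : AlgebraicClosure ℚ)) = j x := by
  let e := ptg_embOfIsometry hj
  let τ₀ : PadicAlgCl q →ₐ[ℚ_[q]] PadicAlgCl q := e.liftNormal (PadicAlgCl q)
  have hbij : Function.Bijective τ₀ := Algebra.IsAlgebraic.algHom_bijective _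
  refine ⟨AlgEquiv.ofBijective τ₀ hbij, fun x => ?_⟩
  have h := e.liftNormal_commutes (PadicAlgCl q) ⟨ptg_iotaF q F x, ptg_iotaF_mem_loc q F x⟩
  rw [ptg_embOfIsometry_apply hj x] at h
  exact h


/-- two ring homs from a field to `PadicAlgCl q` with the same unit ball have the same norm -/
theorem ptg_norm_eq_of_le_one_iff {E : Type*} [Field E] (j₁ j₂ : E →+* PadicAlgCl q)
    (h : ∀ x : E, ‖j₁ x‖ ≤ 1 ↔ ‖j₂ x‖ ≤ 1) (x : E) : ‖j₁ x‖ = ‖j₂ x‖ := by
  let v₁ : AbsoluteValue E ℝ :=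
    { toFun := fun x => ‖j₁ x‖
      map_mul' := fun x y => by rw [map_mul, norm_mul]
      nonneg' := fun x => norm_nonneg _
      eq_zero' := fun x => by rw [norm_eq_zero, map_eq_zero]
      add_le' := fun x y => by rw [map_add]; exact norm_add_le _ _ }
  let v₂ : AbsoluteValue E ℝ :=
    { toFun := fun x => ‖j₂ x‖
      map_mul' := fun x y => by rw [map_mul, norm_mul]
      nonneg' := fun x => norm_nonneg _
      eq_zero' := fun x => by rw [norm_eq_zero, map_eq_zero]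
      add_le' := fun x y => by rw [map_add]; exact norm_add_le _ _ }
  have hlt : ∀ (j : E →+* PadicAlgCl q) (y : E), ‖j y‖ < 1 ↔ (y = 0 ∨ ¬ ‖j y⁻¹‖ ≤ 1) := by
    intro j y
    by_cases hy : y = 0
    · subst hy
      simp
    · have hjy : j y ≠ 0 := by rwa [Ne, map_eq_zero]
      have hpos : 0 < ‖j y‖ := norm_pos_iff.mpr hjy
      rw [map_inv₀, norm_inv, not_le]
      constructor
      · intro h1
        exact Or.inr ((one_lt_inv₀ hpos).mpr h1)
      · rintro (h1 | h1)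
        · exact absurd h1 hy
        · exact (one_lt_inv₀ hpos).mp h1
  have heq : v₁.IsEquiv v₂ := by
    rw [AbsoluteValue.isEquiv_iff_lt_one_iff]
    intro y
    show ‖j₁ y‖ < 1 ↔ ‖j₂ y‖ < 1
    rw [hlt j₁, hlt j₂, h]
  obtain ⟨c, hc, hcw⟩ := AbsoluteValue.isEquiv_iff_exists_rpow_eq.mp heq
  have hq := congrFun hcw (q : E)
  have h1 : v₁ (q : E) = (q : ℝ)⁻¹ := by
    show ‖j₁ (q : E)‖ = _
    rw [map_natCast, ptg_norm_q]
  have h2 : v₂ (q : E) = (q : ℝ)⁻¹ := by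
    show ‖j₂ (q : E)‖ = _
    rw [map_natCast, ptg_norm_q]
  rw [h2] at hq
  change (v₁ (q : E)) ^ c = _ at hq
  rw [h1] at hq
  have hq1 : (1 : ℝ) < q := by exact_mod_cast (Fact.out : q.Prime).one_lt
  have hc1 : c = 1 := by
    have hpos : (0 : ℝ) < (q : ℝ)⁻¹ := by positivity
    have hlog := congrArg Real.log hq
    rw [Real.log_rpow hpos] at hlog
    have hlne : Real.log ((q : ℝ)⁻¹) ≠ 0 := by
      rw [Real.log_inv, neg_ne_zero]
      exact ne_of_gt (Real.log_pos hq1)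
    exact mul_right_cancel₀ hlne (by rw [hlog, one_mul])
  have hx := congrFun hcw x
  change (v₁ x) ^ c = v₂ x at hx
  rw [hc1, Real.rpow_one] at hx
  exact hx


variable {q} in
/-- **(F)** an element of `G_ℚ` which is isometric on `F` agrees on `F` with an element coming
from the local Galois group. -/
theorem ptg_exists_local_lift_on (F : IntermediateField ℚ (AlgebraicClosure ℚ))
    (σ : AlgebraicClosure ℚ ≃ₐ[ℚ] AlgebraicClosure ℚ)
    (h : ∀ x ∈ F, ‖padicEmbedding q (σ x)‖ = ‖padicEmbedding q x‖) :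
    ∃ τ : PadicAlgCl q ≃ₐ[ℚ_[q]] PadicAlgCl q, ∀ x ∈ F, localGaloisToGlobal q τ x = σ x := by
  let j : ↥F →+* PadicAlgCl q :=
    ((padicEmbedding q : AlgebraicClosure ℚ →+* PadicAlgCl q)).comp
      ((σ : AlgebraicClosure ℚ →+* AlgebraicClosure ℚ).comp F.val.toRingHom)
  have hj : ∀ x : ↥F, ‖j x‖ = ‖padicEmbedding q (x : AlgebraicClosure ℚ)‖ := fun x => h x x.2
  obtain ⟨τ, hτ⟩ := ptg_exists_local_of_isometry hj
  refine ⟨τ, fun x hx => ?_⟩
  have hinj : Function.Injective (padicEmbedding q) := (padicEmbedding q).injective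
  apply hinj
  rw [padicEmbedding_localGaloisToGlobal]
  exact hτ ⟨x, hx⟩

variable {q} in
/-- the same with the hypothesis phrased with the valuation subring `padicPlace q` -/
theorem ptg_exists_local_lift_on' (F : IntermediateField ℚ (AlgebraicClosure ℚ))
    (σ : AlgebraicClosure ℚ ≃ₐ[ℚ] AlgebraicClosure ℚ)
    (h : ∀ x ∈ F, σ x ∈ padicPlace q ↔ x ∈ padicPlace q) :
    ∃ τ : PadicAlgCl q ≃ₐ[ℚ_[q]] PadicAlgCl q, ∀ x ∈ F, localGaloisToGlobal q τ x = σ x := by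
  refine ptg_exists_local_lift_on F σ fun x hx => ?_
  let j₁ : ↥F →+* PadicAlgCl q :=
    ((padicEmbedding q : AlgebraicClosure ℚ →+* PadicAlgCl q)).comp
      ((σ : AlgebraicClosure ℚ →+* AlgebraicClosure ℚ).comp F.val.toRingHom)
  have key := ptg_norm_eq_of_le_one_iff q j₁ (ptg_iotaF q F) (fun y => by
    have := h y y.2
    rw [ptg_mem_padicPlace_iff, ptg_mem_padicPlace_iff] at this
    exact this) ⟨x, hx⟩
  exact key

variable {q} in
/-- conversely, elements coming from the local Galois group are isometric -/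
theorem ptg_norm_eq_of_local_lift_on {F : IntermediateField ℚ (AlgebraicClosure ℚ)}
    {σ : AlgebraicClosure ℚ ≃ₐ[ℚ] AlgebraicClosure ℚ}
    {τ : PadicAlgCl q ≃ₐ[ℚ_[q]] PadicAlgCl q}
    (h : ∀ x ∈ F, localGaloisToGlobal q τ x = σ x) :
    ∀ x ∈ F, ‖padicEmbedding q (σ x)‖ = ‖padicEmbedding q x‖ := by
  intro x hx
  rw [← h x hx, padicEmbedding_localGaloisToGlobal]
  have := nnnorm_padicAlgCl_algEquiv q τ (padicEmbedding q x)
  exact congrArg NNReal.toReal this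

end Fermat.Agent.Lib.PT
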