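/-
S55 (Poitou–Tate), local ↔ global bridge, part H: the embedding version of part F, for the
"embedding model" of the idele group.  For ANY field `K` and two ring homs
`σ σ' : K →+* PadicAlgCl q` inducing the same absolute value (equivalently the same unit ball) on
`K`, there is `τ` in the local Galois group with `σ' = τ ∘ σ`: the places of `K` above `q` are the
`G_q`-orbits of `q`-adic embeddings.
-/
import Mathlib
import Fermat.Agent.Lib.PT.BridgeA
import Fermat.Agent.Lib.PT.BridgeB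
import Fermat.Agent.Lib.PT.BridgeC
import Fermat.Agent.Lib.PT.BridgeD
import Fermat.Agent.Lib.PT.BridgeE
import Fermat.Agent.Lib.PT.BridgeF

set_option autoImplicit false

namespace Fermat.Agent.Lib.PT

variable (q : ℕ) [Fact q.Prime] {K : Type*} [Field K]

/-- the local field `ℚ_q(σ K)` attached to a `q`-adic embedding `σ` of `K` -/
noncomputable def ptg_locEmb (σ : K →+* PadicAlgCl q) : IntermediateField ℚ_[q] (PadicAlgCl q) :=
  IntermediateField.adjoin ℚ_[q] (Set.range σ)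

lemma ptg_map_mem_locEmb (σ : K →+* PadicAlgCl q) (x : K) : σ x ∈ ptg_locEmb q σ :=
  IntermediateField.subset_adjoin _ _ ⟨x, rfl⟩

/-- `ptg_loc q F` is the local field attached to the embedding `ι|_F` -/
lemma ptg_locEmb_iotaF (F : IntermediateField ℚ (AlgebraicClosure ℚ)) :
    ptg_locEmb q (ptg_iotaF q F) = ptg_loc q F := by
  rw [ptg_locEmb, ptg_loc]
  congr 1
  ext y
  constructor
  · rintro ⟨x, rfl⟩
    exact ⟨x, x.2, rfl⟩
  · rintro ⟨x, hx, rfl⟩
    exact ⟨⟨x, hx⟩, rfl⟩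

/-- the `ℚ_q`-algebra hom `ℚ_q[K] → PadicAlgCl q` attached to a ring hom `j : K → PadicAlgCl q` -/
noncomputable def ptg_PhiK (j : K →+* PadicAlgCl q) :
    MonoidAlgebra ℚ_[q] K →ₐ[ℚ_[q]] PadicAlgCl q :=
  MonoidAlgebra.lift ℚ_[q] (PadicAlgCl q) K (j : K →* PadicAlgCl q)

lemma ptg_PhiK_apply (j : K →+* PadicAlgCl q) (c : MonoidAlgebra ℚ_[q] K) :
    ptg_PhiK q j c = ∑ x ∈ c.coeff.support, c.coeff x • j x := by
  rw [ptg_PhiK, MonoidAlgebra.lift_apply]
  rfl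

lemma ptg_PhiK_single (j : K →+* PadicAlgCl q) (x : K) (a : ℚ_[q]) :
    ptg_PhiK q j (MonoidAlgebra.single x a) = a • j x := by
  rw [ptg_PhiK, MonoidAlgebra.lift_single]
  rfl

lemma ptg_PhiK_mem_locEmb (σ : K →+* PadicAlgCl q) (c : MonoidAlgebra ℚ_[q] K) :
    ptg_PhiK q σ c ∈ ptg_locEmb q σ := by
  rw [ptg_PhiK_apply]
  refine Subalgebra.sum_mem (ptg_locEmb q σ).toSubalgebra fun x _ => ?_
  exact Subalgebra.smul_mem _ (ptg_map_mem_locEmb q σ x) _

lemma ptg_locEmb_le_range_PhiK (σ : K →+* PadicAlgCl q) :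
    (ptg_locEmb q σ).toSubalgebra ≤ (ptg_PhiK q σ).range := by
  rw [ptg_locEmb, IntermediateField.adjoin_toSubalgebra, Algebra.adjoin_le_iff]
  rintro _ ⟨x, rfl⟩
  refine ⟨MonoidAlgebra.single x 1, ?_⟩
  show ptg_PhiK q σ (MonoidAlgebra.single x 1) = _
  rw [ptg_PhiK_single, one_smul]

variable {q} in
/-- kernel inclusion for two embeddings with the same absolute value -/
lemma ptg_ker_PhiK_le {σ σ' : K →+* PadicAlgCl q} (h : ∀ x : K, ‖σ' x‖ = ‖σ x‖)
    (c : MonoidAlgebra ℚ_[q] K) (hc : ptg_PhiK q σ c = 0) : ptg_PhiK q σ' c = 0 := by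
  rw [ptg_PhiK_apply] at hc ⊢
  refine ptg_sum_eq_zero_of_isometry q c.coeff.support
    (fun x => σ x) (fun x => σ' x) (fun x => c.coeff x) ?_ hc
  intro r
  have h1 : ∀ (k : K →+* PadicAlgCl q),
      ∑ x ∈ c.coeff.support, (r x : ℚ_[q]) • k x =
        k (∑ x ∈ c.coeff.support, (r x : K) * x) := by
    intro k
    rw [map_sum]
    refine Finset.sum_congr rfl fun x _ => ?_
    rw [map_mul, map_ratCast, Algebra.smul_def, map_ratCast]
  rw [h1 σ', h1 σ, h]

/-- `Φ_σ` corestricted to `ℚ_q(σ K)` -/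
noncomputable def ptg_PhiK' (σ : K →+* PadicAlgCl q) :
    MonoidAlgebra ℚ_[q] K →ₐ[ℚ_[q]] ↥(ptg_locEmb q σ) :=
  (ptg_PhiK q σ).codRestrict (ptg_locEmb q σ).toSubalgebra (ptg_PhiK_mem_locEmb q σ)

lemma ptg_PhiK'_coe (σ : K →+* PadicAlgCl q) (c : MonoidAlgebra ℚ_[q] K) :
    ((ptg_PhiK' q σ c : ↥(ptg_locEmb q σ)) : PadicAlgCl q) = ptg_PhiK q σ c := rfl

lemma ptg_PhiK'_surjective (σ : K →+* PadicAlgCl q) : Function.Surjective (ptg_PhiK' q σ) := by
  rintro ⟨y, hy⟩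
  obtain ⟨c, hc⟩ := ptg_locEmb_le_range_PhiK q σ hy
  exact ⟨c, Subtype.ext hc⟩

variable {q} in
lemma ptg_ker_PhiK'_le {σ σ' : K →+* PadicAlgCl q} (h : ∀ x : K, ‖σ' x‖ = ‖σ x‖)
    (c : MonoidAlgebra ℚ_[q] K) (hc : c ∈ RingHom.ker (ptg_PhiK' q σ)) :
    ptg_PhiK q σ' c = 0 := by
  refine ptg_ker_PhiK_le h c ?_
  have h0 := congrArg (Subtype.val) (show ptg_PhiK' q σ c = 0 from hc)
  exact h0

variable {q} in
/-- the `ℚ_q`-embedding `ℚ_q(σ K) → PadicAlgCl q`, `σ x ↦ σ' x` -/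
noncomputable def ptg_embOfNormEq {σ σ' : K →+* PadicAlgCl q} (h : ∀ x : K, ‖σ' x‖ = ‖σ x‖) :
    ↥(ptg_locEmb q σ) →ₐ[ℚ_[q]] PadicAlgCl q :=
  (Ideal.Quotient.liftₐ (RingHom.ker (ptg_PhiK' q σ)) (ptg_PhiK q σ')
    (ptg_ker_PhiK'_le h)).comp
    (Ideal.quotientKerAlgEquivOfSurjective (ptg_PhiK'_surjective q σ)).symm.toAlgHom

variable {q} in
lemma ptg_embOfNormEq_PhiK {σ σ' : K →+* PadicAlgCl q} (h : ∀ x : K, ‖σ' x‖ = ‖σ x‖)
    (c : MonoidAlgebra ℚ_[q] K) :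
    ptg_embOfNormEq h (ptg_PhiK' q σ c) = ptg_PhiK q σ' c := by
  have h1 : (Ideal.quotientKerAlgEquivOfSurjective (ptg_PhiK'_surjective q σ)).symm
      (ptg_PhiK' q σ c) = Ideal.Quotient.mk (RingHom.ker (ptg_PhiK' q σ)) c := by
    rw [AlgEquiv.symm_apply_eq]
    rfl
  show Ideal.Quotient.liftₐ (RingHom.ker (ptg_PhiK' q σ)) (ptg_PhiK q σ')
    (ptg_ker_PhiK'_le h)
    ((Ideal.quotientKerAlgEquivOfSurjective (ptg_PhiK'_surjective q σ)).symm (ptg_PhiK' q σ c)) = _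
  rw [h1]
  rfl

variable {q} in
lemma ptg_embOfNormEq_apply {σ σ' : K →+* PadicAlgCl q} (h : ∀ x : K, ‖σ' x‖ = ‖σ x‖) (x : K) :
    ptg_embOfNormEq h ⟨σ x, ptg_map_mem_locEmb q σ x⟩ = σ' x := by
  have h0 := ptg_embOfNormEq_PhiK h (MonoidAlgebra.single x 1)
  rw [ptg_PhiK_single, one_smul] at h0
  rw [← h0]
  congr 1
  apply Subtype.ext
  rw [ptg_PhiK'_coe, ptg_PhiK_single, one_smul]

variable {q} in
/-- **(H)** two `q`-adic embeddings of `K` with the same absolute value are conjugate under the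
local Galois group. -/
theorem ptg_exists_galois_of_norm_eq {σ σ' : K →+* PadicAlgCl q} (h : ∀ x : K, ‖σ' x‖ = ‖σ x‖) :
    ∃ τ : PadicAlgCl q ≃ₐ[ℚ_[q]] PadicAlgCl q, ∀ x : K, τ (σ x) = σ' x := by
  let e := ptg_embOfNormEq h
  let τ₀ : PadicAlgCl q →ₐ[ℚ_[q]] PadicAlgCl q := e.liftNormal (PadicAlgCl q)
  have hbij : Function.Bijective τ₀ := Algebra.IsAlgebraic.algHom_bijective _
  refine ⟨AlgEquiv.ofBijective τ₀ hbij, fun x => ?_⟩
  have h0 := e.liftNormal_commutes (PadicAlgCl q) ⟨σ x, ptg_map_mem_locEmb q σ x⟩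
  rw [ptg_embOfNormEq_apply h x] at h0
  exact h0

variable {q} in
/-- the same with the hypothesis "same unit ball" -/
theorem ptg_exists_galois_of_le_one_iff {σ σ' : K →+* PadicAlgCl q}
    (h : ∀ x : K, ‖σ' x‖ ≤ 1 ↔ ‖σ x‖ ≤ 1) :
    ∃ τ : PadicAlgCl q ≃ₐ[ℚ_[q]] PadicAlgCl q, ∀ x : K, τ (σ x) = σ' x :=
  ptg_exists_galois_of_norm_eq (ptg_norm_eq_of_le_one_iff q σ' σ h)

variable {q} in
/-- conversely conjugate embeddings have the same absolute value -/
theorem ptg_norm_eq_of_galois {σ σ' : K →+* PadicAlgCl q}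
    (τ : PadicAlgCl q ≃ₐ[ℚ_[q]] PadicAlgCl q) (h : ∀ x : K, τ (σ x) = σ' x) (x : K) :
    ‖σ' x‖ = ‖σ x‖ := by
  rw [← h x]
  exact congrArg NNReal.toReal (nnnorm_padicAlgCl_algEquiv q τ (σ x))

variable {q} in
/-- the stabiliser of an embedding `σ` in the local Galois group is `Gal(Ω_q/ℚ_q(σ K))` -/
theorem ptg_mem_fixingSubgroup_locEmb_iff (σ : K →+* PadicAlgCl q)
    (τ : PadicAlgCl q ≃ₐ[ℚ_[q]] PadicAlgCl q) :
    τ ∈ (ptg_locEmb q σ).fixingSubgroup ↔ ∀ x : K, τ (σ x) = σ x := by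
  rw [IntermediateField.mem_fixingSubgroup_iff]
  constructor
  · intro h x
    exact h _ (ptg_map_mem_locEmb q σ x)
  · intro h y hy
    refine ptg_apply_eq_of_mem_adjoin (S := Set.range σ) τ ?_ hy
    rintro _ ⟨x, rfl⟩
    exact h x

/-- `ℚ_q(σ K)` is the `ℚ_q`-span of `σ K` -/
theorem ptg_locEmb_toSubmodule (σ : K →+* PadicAlgCl q) :
    (ptg_locEmb q σ).toSubalgebra.toSubmodule = Submodule.span ℚ_[q] (Set.range σ) := by
  apply le_antisymm
  · intro y hy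
    obtain ⟨c, rfl⟩ := ptg_locEmb_le_range_PhiK q σ hy
    show ptg_PhiK q σ c ∈ _
    rw [ptg_PhiK_apply]
    refine Submodule.sum_mem _ fun x _ => ?_
    exact Submodule.smul_mem _ _ (Submodule.subset_span ⟨x, rfl⟩)
  · rw [Submodule.span_le]
    rintro _ ⟨x, rfl⟩
    exact ptg_map_mem_locEmb q σ x

/-- `ℚ_q(σ K)` is spanned over `ℚ_q` by the image of a spanning set of `K` over `ℚ`. -/
theorem ptg_locEmb_toSubmodule_of_span [Algebra ℚ K] (σ : K →+* PadicAlgCl q) {s : Set K}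
    (hs : Submodule.span ℚ s = ⊤) :
    (ptg_locEmb q σ).toSubalgebra.toSubmodule = Submodule.span ℚ_[q] (σ '' s) := by
  rw [ptg_locEmb_toSubmodule]
  apply le_antisymm
  · rw [Submodule.span_le]
    rintro _ ⟨x, rfl⟩
    have hx : x ∈ Submodule.span ℚ s := by rw [hs]; trivial
    induction hx using Submodule.span_induction with
    | mem y hy => exact Submodule.subset_span ⟨y, hy, rfl⟩
    | zero => rw [map_zero]; exact Submodule.zero_mem _
    | add y z _ _ hy hz => rw [map_add]; exact Submodule.add_mem _ hy hz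
    | smul r y _ hy =>
      have : σ (r • y) = (r : ℚ_[q]) • σ y := by
        rw [Algebra.smul_def, map_mul, Algebra.smul_def, map_ratCast]
        congr 1
        rw [eq_ratCast, map_ratCast]
      rw [SetLike.mem_coe, this]
      exact Submodule.smul_mem _ _ hy
  · exact Submodule.span_mono (Set.image_subset_range _ _)

/-- `ℚ_q(σ K)` is finite over `ℚ_q` when `K` is finite over `ℚ`. -/
theorem ptg_locEmb_finiteDimensional [Algebra ℚ K] [FiniteDimensional ℚ K]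
    (σ : K →+* PadicAlgCl q) : FiniteDimensional ℚ_[q] (ptg_locEmb q σ) := by
  obtain ⟨s, hs⟩ := (Module.finite_def (R := ℚ) (M := K)).mp inferInstance
  have hfg : ((ptg_locEmb q σ).toSubalgebra.toSubmodule).FG := by
    rw [ptg_locEmb_toSubmodule_of_span q σ hs]
    exact Submodule.fg_span ((s.finite_toSet).image _)
  exact (Module.Finite.iff_fg (N := (ptg_locEmb q σ).toSubalgebra.toSubmodule)).mpr hfg

/-- local degree ≤ global degree -/
theorem ptg_finrank_locEmb_le [Algebra ℚ K] [FiniteDimensional ℚ K]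
    (σ : K →+* PadicAlgCl q) :
    Module.finrank ℚ_[q] (ptg_locEmb q σ) ≤ Module.finrank ℚ K := by
  classical
  let b := Module.finBasis ℚ K
  have hs : Submodule.span ℚ (Set.range b) = ⊤ := b.span_eq
  have h1 := ptg_locEmb_toSubmodule_of_span q σ hs
  have h2 : Module.finrank ℚ_[q] (ptg_locEmb q σ) =
      Module.finrank ℚ_[q] ((ptg_locEmb q σ).toSubalgebra.toSubmodule) := rfl
  rw [h2, h1, ← Set.range_comp]
  refine (finrank_range_le_card (R := ℚ_[q]) (fun i => σ (b i))).trans ?_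
  rw [Fintype.card_fin]

end Fermat.Agent.Lib.PT
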