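/-
S55 long haul, (UN) = the UNRAMIFIED DISCHARGE, part A (abstract form).
Setting of the `GMod*` files: `K/F` with Galois group `Γ` (`IsGaloisGroup Γ F K`), `q` a prime,
`σ : K →+* Ω_q`, `φ = σ|F`, local fields `F_φ = ptj_Kσ (ptj_resEmb σ) ⊆ K_σ = ptj_Krel F σ`.
If `K_σ/F_φ` is unramified in the sense of the local toolkit
(`hinj : Function.Injective (ptl_galRes q F_φ K_σ)`: the Galois group acts faithfully on the residue
field) then
* (UN1) `ptj_UnitsAreNorms F Γ σ`: every unit of `F_φ` is the local norm of a unit of `K_σ`;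
* (UN2) `ptj_UnitsH90 Γ σ`: Hilbert 90 for the units of `K_σ` under the decomposition group.
-/
import Fermat.Agent.Lib.PT.GModH1
import Fermat.Agent.Lib.PT.LocUnrNorm
import Fermat.Agent.Lib.PT.BridgeH

set_option autoImplicit false
set_option linter.unusedVariables false
set_option linter.unusedSectionVars false
set_option linter.style.haveILetI false

noncomputable section

namespace Fermat.Agent.Lib.PT

variable {F K : Type*} [Field F] [Field K] [Algebra F K] {q : Nat.Primes}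
variable {Γ : Type*} [Group Γ] [MulSemiringAction Γ K]

/-! ### Finite-dimensionality over `ℚ_q` of the local fields -/

/-- the local field of a finite extension of `ℚ` is finite over `ℚ_q` -/
instance pta_finiteDimensional_Kσ [Algebra ℚ K] [FiniteDimensional ℚ K] (σ : ptj_Emb K q) :
    FiniteDimensional ℚ_[(q : ℕ)] ↥(ptj_Kσ σ) :=
  ptg_locEmb_finiteDimensional (q : ℕ) σ

/-- a subfield of a finite extension of `ℚ_q` inside `Ω_q` is finite over `ℚ_q` -/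
lemma pta_finiteDimensional_of_le {E E' : IntermediateField ℚ_[(q : ℕ)] (ptj_Om q)} (h : E ≤ E')
    [FiniteDimensional ℚ_[(q : ℕ)] ↥E'] : FiniteDimensional ℚ_[(q : ℕ)] ↥E :=
  FiniteDimensional.of_injective (IntermediateField.inclusion h).toLinearMap
    (IntermediateField.inclusion h).injective

/-- the local base field `F_φ` is finite over `ℚ_q` if `K_σ` is -/
instance pta_finiteDimensional_Kσ_resEmb (σ : ptj_Emb K q)
    [FiniteDimensional ℚ_[(q : ℕ)] ↥(ptj_Kσ σ)] :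
    FiniteDimensional ℚ_[(q : ℕ)] ↥(ptj_Kσ (ptj_resEmb (F := F) σ)) :=
  pta_finiteDimensional_of_le (ptj_Kσ_resEmb_le (F := F) σ)

/-- the relative local field `K_σ/F_φ` is finite over `ℚ_q` if `K_σ` is -/
instance pta_finiteDimensional_Krel (σ : ptj_Emb K q)
    [FiniteDimensional ℚ_[(q : ℕ)] ↥(ptj_Kσ σ)] :
    FiniteDimensional ℚ_[(q : ℕ)] ↥(ptj_Krel F σ) := by
  show FiniteDimensional ℚ_[(q : ℕ)] ↥(ptj_Kσ σ)
  infer_instance

/-- On the relative local field the absolute value of the local toolkit is the norm of `Ω_q`. -/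
lemma pta_abs_Krel (σ : ptj_Emb K q) [FiniteDimensional ℚ_[(q : ℕ)] ↥(ptj_Kσ σ)]
    (x : ↥(ptj_Krel F σ)) : ptl_abs (q : ℕ) ↥(ptj_Krel F σ) x = ‖(x : ptj_Om q)‖ :=
  ptl_abs_intermediateField (q : ℕ) (ptj_Kσ σ) ⟨(x : ptj_Om q), x.2⟩

variable [Finite Γ] [IsGaloisGroup Γ F K]

/-- **(UN1)** If `K_σ/F_φ` is unramified, every unit of `F_φ` is the local norm of a unit of
`K_σ`. -/
theorem pta_unitsAreNorms_of_injective (σ : ptj_Emb K q)
    [FiniteDimensional ℚ_[(q : ℕ)] ↥(ptj_Kσ σ)]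
    (hinj : Function.Injective
      (ptl_galRes (q : ℕ) ↥(ptj_Kσ (ptj_resEmb (F := F) σ)) ↥(ptj_Krel F σ))) :
    ptj_UnitsAreNorms F Γ σ := by
  intro u hu
  haveI := ptj_isGalois_Krel (F := F) Γ σ
  haveI : FiniteDimensional (ptj_Kσ (ptj_resEmb (F := F) σ)) (ptj_Krel F σ) :=
    IsGaloisGroup.finiteDimensional (ptj_decomp Γ σ) _ _
  -- the unit `u` as an element of `F_φ`
  set a : ↥(ptj_Kσ (ptj_resEmb (F := F) σ)) := ⟨((u : (ptj_Om q)ˣ) : ptj_Om q), u.2⟩ with ha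
  have ha1 : ptl_abs (q : ℕ) ↥(ptj_Kσ (ptj_resEmb (F := F) σ)) a = 1 := by
    rw [ptl_abs_intermediateField]
    exact hu
  obtain ⟨w, hw1, hw2⟩ := ptl_norm_surjective_units (q : ℕ)
    ↥(ptj_Kσ (ptj_resEmb (F := F) σ)) ↥(ptj_Krel F σ) hinj ha1
  have hw0 : (w : ptj_Om q) ≠ 0 := by
    intro h0
    rw [pta_abs_Krel, h0, norm_zero] at hw1
    exact zero_ne_one hw1
  refine ⟨⟨Units.mk0 (w : ptj_Om q) hw0, w.2⟩, ?_, ?_⟩
  · have h := pta_abs_Krel (F := F) σ w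
    rw [hw1] at h
    exact h.symm
  · apply Subtype.ext
    apply Units.ext
    rw [ptj_locNorm_eq_algebraNorm]
    have : (⟨((Units.mk0 (w : ptj_Om q) hw0 : (ptj_Om q)ˣ) : ptj_Om q), w.2⟩ : ptj_Krel F σ)
        = w := rfl
    rw [this, hw2]

/-- **(UN2)** If `K_σ/F_φ` is unramified, the units of `K_σ` satisfy Hilbert 90 under the
decomposition group. -/
theorem pta_unitsH90_of_injective (σ : ptj_Emb K q)
    [FiniteDimensional ℚ_[(q : ℕ)] ↥(ptj_Kσ σ)]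
    (hinj : Function.Injective
      (ptl_galRes (q : ℕ) ↥(ptj_Kσ (ptj_resEmb (F := F) σ)) ↥(ptj_Krel F σ))) :
    ptj_UnitsH90 Γ σ := by
  intro ζ hζmem hζunit hζ
  haveI := ptj_isGalois_Krel (F := F) Γ σ
  haveI : FiniteDimensional (ptj_Kσ (ptj_resEmb (F := F) σ)) (ptj_Krel F σ) :=
    IsGaloisGroup.finiteDimensional (ptj_decomp Γ σ) _ _
  obtain ⟨a, haK, ha⟩ := ptj_localH90 F σ ζ hζmem hζ
  -- `a` as an element of `K_σ`, decomposed as `π_F ^ k * w` with `w` a unit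
  set y : ↥(ptj_Krel F σ) := ⟨((a : (ptj_Om q)ˣ) : ptj_Om q), haK⟩ with hy
  have hy0 : y ≠ 0 := by
    intro h0
    have := congrArg (fun z : ↥(ptj_Krel F σ) => (z : ptj_Om q)) h0
    exact a.ne_zero this
  have he1 := ptl_e_eq_one_of_injective (q : ℕ) ↥(ptj_Kσ (ptj_resEmb (F := F) σ))
    ↥(ptj_Krel F σ) hinj
  set πF : ↥(ptj_Kσ (ptj_resEmb (F := F) σ)) :=
    ptl_unif (q : ℕ) ↥(ptj_Kσ (ptj_resEmb (F := F) σ)) with hπF
  set πL : ↥(ptj_Krel F σ) :=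
    algebraMap ↥(ptj_Kσ (ptj_resEmb (F := F) σ)) ↥(ptj_Krel F σ) πF with hπL
  have hπL0 : πL ≠ 0 := by
    rw [hπL, Ne, map_eq_zero]
    exact ptl_unif_ne_zero (q : ℕ) _
  have hπLabs : ptl_abs (q : ℕ) ↥(ptj_Krel F σ) πL =
      ptl_abs (q : ℕ) ↥(ptj_Krel F σ) (ptl_unif (q : ℕ) ↥(ptj_Krel F σ)) := by
    rw [hπL, ptl_abs_tower, hπF,
      ptl_abs_unif_eq (q : ℕ) ↥(ptj_Kσ (ptj_resEmb (F := F) σ)) ↥(ptj_Krel F σ), he1, pow_one]
  set k := ptl_ordZ (q : ℕ) ↥(ptj_Krel F σ) y with hk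
  set w : ↥(ptj_Krel F σ) := y / πL ^ k with hw
  have hw1 : ptl_abs (q : ℕ) ↥(ptj_Krel F σ) w = 1 := by
    rw [hw, map_div₀, map_zpow₀, hπLabs, ← ptl_abs_eq_zpow (q : ℕ) hy0]
    exact div_self ((ptl_abs (q : ℕ) ↥(ptj_Krel F σ)).pos hy0).ne'
  have hw0 : (w : ptj_Om q) ≠ 0 := by
    intro h0
    rw [pta_abs_Krel, h0, norm_zero] at hw1
    exact zero_ne_one hw1
  -- `a = π ^ k * w` in `Ω_q`
  have hπΩ0 : ((πF : ↥(ptj_Kσ (ptj_resEmb (F := F) σ))) : ptj_Om q) ≠ 0 := by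
    intro h0
    apply ptl_unif_ne_zero (q : ℕ) ↥(ptj_Kσ (ptj_resEmb (F := F) σ))
    exact Subtype.ext h0
  have hya : y = πL ^ k * w := by
    rw [hw, mul_div_cancel₀ _ (zpow_ne_zero k hπL0)]
  have haΩ : ((a : (ptj_Om q)ˣ) : ptj_Om q) =
      ((πF : ↥(ptj_Kσ (ptj_resEmb (F := F) σ))) : ptj_Om q) ^ k * (w : ptj_Om q) := by
    have h1 : ((a : (ptj_Om q)ˣ) : ptj_Om q) = ((πL ^ k * w : ↥(ptj_Krel F σ)) : ptj_Om q) :=
      congrArg (fun z : ↥(ptj_Krel F σ) => (z : ptj_Om q)) hya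
    rw [h1, MulMemClass.coe_mul]
    congr 1
  refine ⟨Units.mk0 (w : ptj_Om q) hw0, w.2, ?_, fun δ => ?_⟩
  · have h := pta_abs_Krel (F := F) σ w
    rw [hw1] at h
    exact h.symm
  · rw [ha δ]
    apply Units.ext
    rw [Units.val_div_eq_div_val, Units.val_div_eq_div_val, ptj_tauU_coe, ptj_tauU_coe, haΩ,
      map_mul, map_zpow₀]
    have hfix : ptj_tauOf δ ((πF : ↥(ptj_Kσ (ptj_resEmb (F := F) σ))) : ptj_Om q) =
        ((πF : ↥(ptj_Kσ (ptj_resEmb (F := F) σ))) : ptj_Om q) :=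
      (IntermediateField.mem_fixingSubgroup_iff _ _).1
        (ptj_tauOf_mem_fixingSubgroup (F := F) σ δ) _ πF.2
    rw [hfix]
    show _ = ptj_tauOf δ (w : ptj_Om q) / (w : ptj_Om q)
    rw [mul_div_mul_left _ _ (zpow_ne_zero k hπΩ0)]

end Fermat.Agent.Lib.PT

end
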