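/-
S55 / G2 (part B): transport of the adic valuations of a Dedekind domain under a ring
automorphism, `(e • w).valuation (e x) = w.valuation x`.
-/
import Mathlib

set_option autoImplicit false

namespace Fermat.Agent.Lib.PT

open IsDedekindDomain WithZero

section Transport

variable {R : Type*} [CommRing R] [IsDedekindDomain R]

/-- the image of a height one prime under a ring automorphism -/
def cfh_mapPrime (e : R ≃+* R) (w : HeightOneSpectrum R) : HeightOneSpectrum R where
  asIdeal := w.asIdeal.comap (e.symm : R →+* R)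
  isPrime := Ideal.comap_isPrime _ _
  ne_bot := by
    intro h
    apply w.ne_bot
    rw [eq_bot_iff]
    intro y hy
    have : e y ∈ w.asIdeal.comap (e.symm : R →+* R) := by
      rw [Ideal.mem_comap]; simpa using hy
    rw [h, Ideal.mem_bot] at this
    rw [Ideal.mem_bot]
    exact (map_eq_zero_iff e e.injective).mp this

omit [IsDedekindDomain R] in
theorem cfh_mem_mapPrime_pow (e : R ≃+* R) (w : HeightOneSpectrum R) (n : ℕ) (r : R) :
    e r ∈ (cfh_mapPrime e w).asIdeal ^ n ↔ r ∈ w.asIdeal ^ n := by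
  have h1 : (cfh_mapPrime e w).asIdeal = w.asIdeal.map (e : R →+* R) := by
    change w.asIdeal.comap (e.symm : R →+* R) = _
    exact Ideal.comap_symm e
  rw [h1, ← Ideal.map_pow]
  constructor
  · intro h
    obtain ⟨x, hx, hxe⟩ := (Ideal.mem_map_of_equiv e (e r)).mp h
    rwa [← e.injective hxe]
  · intro h
    exact Ideal.mem_map_of_mem _ h

theorem cfh_eq_of_forall_le_exp {a b : ℤᵐ⁰} (ha0 : a ≠ 0) (hb0 : b ≠ 0) (ha1 : a ≤ 1)
    (hb1 : b ≤ 1) (h : ∀ n : ℕ, a ≤ exp (-(n : ℤ)) ↔ b ≤ exp (-(n : ℤ))) : a = b := by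
  have key : ∀ c : ℤᵐ⁰, c ≠ 0 → c ≤ 1 → ∃ k : ℕ, c = exp (-(k : ℤ)) := by
    intro c hc0 hc1
    have h1 : exp (log c) ≤ exp (0 : ℤ) := by rw [exp_log hc0]; simpa using hc1
    rw [exp_le_exp] at h1
    refine ⟨(-log c).toNat, ?_⟩
    rw [Int.toNat_of_nonneg (by omega), neg_neg, exp_log hc0]
  obtain ⟨k, hk⟩ := key a ha0 ha1
  obtain ⟨m, hm⟩ := key b hb0 hb1
  apply le_antisymm
  · have := (h m).mpr hm.le
    rwa [← hm] at this
  · have := (h k).mp hk.le
    rwa [← hk] at this

theorem cfh_intValuation_mapPrime (e : R ≃+* R) (w : HeightOneSpectrum R) (r : R) :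
    (cfh_mapPrime e w).intValuation (e r) = w.intValuation r := by
  by_cases hr : r = 0
  · subst hr; simp
  have her : e r ≠ 0 := (map_ne_zero_iff e e.injective).mpr hr
  refine cfh_eq_of_forall_le_exp (HeightOneSpectrum.intValuation_ne_zero _ _ her)
    (HeightOneSpectrum.intValuation_ne_zero _ _ hr) (HeightOneSpectrum.intValuation_le_one _ _)
    (HeightOneSpectrum.intValuation_le_one _ _) fun n => ?_
  rw [HeightOneSpectrum.intValuation_le_pow_iff_mem, HeightOneSpectrum.intValuation_le_pow_iff_mem,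
    cfh_mem_mapPrime_pow]

variable {K : Type*} [Field K] [Algebra R K] [IsFractionRing R K]

/-- transport of the valuation: `(e • w)(eK x) = w(x)` for compatible automorphisms `e` of `R`
and `eK` of `K`. -/
theorem cfh_valuation_mapPrime (e : R ≃+* R) (eK : K ≃+* K)
    (he : ∀ r : R, eK (algebraMap R K r) = algebraMap R K (e r)) (w : HeightOneSpectrum R)
    (x : K) : (cfh_mapPrime e w).valuation K (eK x) = w.valuation K x := by
  obtain ⟨a, b, hb, rfl⟩ := IsFractionRing.div_surjective (A := R) x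
  rw [map_div₀, he, he, map_div₀, map_div₀, HeightOneSpectrum.valuation_of_algebraMap,
    HeightOneSpectrum.valuation_of_algebraMap, HeightOneSpectrum.valuation_of_algebraMap,
    HeightOneSpectrum.valuation_of_algebraMap, cfh_intValuation_mapPrime,
    cfh_intValuation_mapPrime]

omit [IsDedekindDomain R] in
theorem cfh_mapPrime_symm (e : R ≃+* R) (w : HeightOneSpectrum R) :
    cfh_mapPrime e (cfh_mapPrime e.symm w) = w := by
  apply HeightOneSpectrum.ext
  ext x
  change e.symm.symm (e.symm x) ∈ w.asIdeal ↔ _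
  simp

omit [IsDedekindDomain R] in
theorem cfh_mapPrime_symm' (e : R ≃+* R) (w : HeightOneSpectrum R) :
    cfh_mapPrime e.symm (cfh_mapPrime e w) = w := by
  apply HeightOneSpectrum.ext
  ext x
  change e.symm (e.symm.symm x) ∈ w.asIdeal ↔ _
  simp

end Transport

end Fermat.Agent.Lib.PT
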