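/-
S55 / G2 (part C): the Galois action on the primes of `L` above a finite set `T` of primes of `F`
and on the group of `T`-units of `L`.
-/
import Mathlib
import Fermat.Agent.Lib.PT.SUnitA
import Fermat.Agent.Lib.PT.SUnitB

set_option autoImplicit false
set_option linter.unusedSectionVars false

namespace Fermat.Agent.Lib.PT

open IsDedekindDomain NumberField

section Above

variable (F L : Type*) [Field F] [NumberField F] [Field L] [NumberField L] [Algebra F L]

/-- the primes of `L` above a prime of `F` -/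
def cfh_above (v : HeightOneSpectrum (𝓞 F)) : Set (HeightOneSpectrum (𝓞 L)) :=
  {w | w.asIdeal.LiesOver v.asIdeal}

theorem cfh_above_finite (v : HeightOneSpectrum (𝓞 F)) : (cfh_above F L v).Finite := by
  have hmax : v.asIdeal.IsMaximal := v.isMaximal
  have hfin : (v.asIdeal.primesOver (𝓞 L)).Finite := IsDedekindDomain.primesOver_finite _ _
  refine Set.Finite.of_finite_image (f := fun w : HeightOneSpectrum (𝓞 L) => w.asIdeal)
    (hfin.subset ?_) (fun a _ b _ h => HeightOneSpectrum.ext h)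
  rintro _ ⟨w, hw, rfl⟩
  exact ⟨w.isPrime, hw⟩

open scoped Classical in
/-- the (finite) set of primes of `L` above the primes of `T` -/
noncomputable def cfh_aboveSet (T : Finset (HeightOneSpectrum (𝓞 F))) :
    Finset (HeightOneSpectrum (𝓞 L)) :=
  T.biUnion fun v => (cfh_above_finite F L v).toFinset

theorem cfh_mem_aboveSet {T : Finset (HeightOneSpectrum (𝓞 F))} {w : HeightOneSpectrum (𝓞 L)} :
    w ∈ cfh_aboveSet F L T ↔ ∃ v ∈ T, w.asIdeal.LiesOver v.asIdeal := by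
  classical
  simp [cfh_aboveSet, cfh_above]

variable {F L}

/-- the automorphism of `𝓞 L` induced by an element of the Galois group -/
noncomputable def cfh_galO (τ : L ≃ₐ[F] L) : 𝓞 L ≃+* 𝓞 L :=
  RingOfIntegers.mapRingEquiv (τ : L ≃+* L)

theorem cfh_galO_apply (τ : L ≃ₐ[F] L) (x : 𝓞 L) : ((cfh_galO τ x : 𝓞 L) : L) = τ (x : L) := rfl

theorem cfh_galO_symm_apply (τ : L ≃ₐ[F] L) (x : 𝓞 L) :
    (((cfh_galO τ).symm x : 𝓞 L) : L) = τ.symm (x : L) := rfl

theorem cfh_galO_algebraMap (τ : L ≃ₐ[F] L) (x : 𝓞 F) :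
    cfh_galO τ (algebraMap (𝓞 F) (𝓞 L) x) = algebraMap (𝓞 F) (𝓞 L) x := by
  apply RingOfIntegers.ext
  rw [cfh_galO_apply]
  exact τ.commutes (x : F)

theorem cfh_galO_symm_algebraMap (τ : L ≃ₐ[F] L) (x : 𝓞 F) :
    (cfh_galO τ).symm (algebraMap (𝓞 F) (𝓞 L) x) = algebraMap (𝓞 F) (𝓞 L) x := by
  rw [RingEquiv.symm_apply_eq, cfh_galO_algebraMap]

/-- the Galois action preserves the primes above `v` -/
theorem cfh_mapPrime_liesOver (τ : L ≃ₐ[F] L) (v : HeightOneSpectrum (𝓞 F))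
    (w : HeightOneSpectrum (𝓞 L)) :
    (cfh_mapPrime (cfh_galO τ) w).asIdeal.LiesOver v.asIdeal ↔ w.asIdeal.LiesOver v.asIdeal := by
  have key : (cfh_mapPrime (cfh_galO τ) w).asIdeal.under (𝓞 F) = w.asIdeal.under (𝓞 F) := by
    ext x
    change (cfh_galO τ).symm (algebraMap (𝓞 F) (𝓞 L) x) ∈ w.asIdeal ↔
      algebraMap (𝓞 F) (𝓞 L) x ∈ w.asIdeal
    rw [cfh_galO_symm_algebraMap]
  constructor
  · intro h
    exact ⟨by rw [h.over, key]⟩
  · intro h
    exact ⟨by rw [h.over, key]⟩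

theorem cfh_mapPrime_mem_aboveSet (τ : L ≃ₐ[F] L) (T : Finset (HeightOneSpectrum (𝓞 F)))
    (w : HeightOneSpectrum (𝓞 L)) :
    cfh_mapPrime (cfh_galO τ) w ∈ cfh_aboveSet F L T ↔ w ∈ cfh_aboveSet F L T := by
  rw [cfh_mem_aboveSet, cfh_mem_aboveSet]
  exact exists_congr fun v => and_congr_right fun _ => cfh_mapPrime_liesOver τ v w

/-- transport of valuations under the Galois group -/
theorem cfh_valuation_gal (τ : L ≃ₐ[F] L) (w : HeightOneSpectrum (𝓞 L)) (x : L) :
    (cfh_mapPrime (cfh_galO τ) w).valuation L (τ x) = w.valuation L x :=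
  cfh_valuation_mapPrime (cfh_galO τ) (τ : L ≃+* L) (fun _ => rfl) w x

/-- the `T`-units of `L` are stable under the Galois group -/
theorem cfh_gal_mem_sUnit (τ : L ≃ₐ[F] L) (T : Finset (HeightOneSpectrum (𝓞 F))) {x : Lˣ}
    (hx : x ∈ cfh_SUnit L (cfh_aboveSet F L T)) :
    Units.map (τ : L →* L) x ∈ cfh_SUnit L (cfh_aboveSet F L T) := by
  intro w hw
  -- `w = τ • w'` with `w' = τ⁻¹ • w`
  set w' := cfh_mapPrime (cfh_galO τ).symm w with hw'
  have hww' : cfh_mapPrime (cfh_galO τ) w' = w := cfh_mapPrime_symm _ _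
  have hw'T : w' ∉ (cfh_aboveSet F L T : Set (HeightOneSpectrum (𝓞 L))) := by
    intro h
    apply hw
    rw [← hww']
    exact (cfh_mapPrime_mem_aboveSet τ T w').mpr h
  have h1 := hx w' hw'T
  rw [← hww']
  change (cfh_mapPrime (cfh_galO τ) w').valuation L (τ (x : L)) = 1
  rw [cfh_valuation_gal]
  exact h1

/-- the action of the Galois group on the `T`-units of `L` -/
noncomputable def cfh_sUnitAct (T : Finset (HeightOneSpectrum (𝓞 F))) (τ : L ≃ₐ[F] L) :
    cfh_SUnit L (cfh_aboveSet F L T) →* cfh_SUnit L (cfh_aboveSet F L T) where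
  toFun x := ⟨Units.map (τ : L →* L) x, cfh_gal_mem_sUnit τ T x.2⟩
  map_one' := by apply Subtype.ext; simp
  map_mul' a b := by apply Subtype.ext; simp

theorem cfh_sUnitAct_coe (T : Finset (HeightOneSpectrum (𝓞 F))) (τ : L ≃ₐ[F] L)
    (x : cfh_SUnit L (cfh_aboveSet F L T)) :
    (((cfh_sUnitAct T τ x : cfh_SUnit L (cfh_aboveSet F L T)) : Lˣ) : L) = τ ((x : Lˣ) : L) := rfl

theorem cfh_sUnitAct_mul (T : Finset (HeightOneSpectrum (𝓞 F))) (τ τ' : L ≃ₐ[F] L)
    (x : cfh_SUnit L (cfh_aboveSet F L T)) :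
    cfh_sUnitAct T (τ * τ') x = cfh_sUnitAct T τ (cfh_sUnitAct T τ' x) := by
  apply Subtype.ext; apply Units.ext; rfl

theorem cfh_sUnitAct_one (T : Finset (HeightOneSpectrum (𝓞 F)))
    (x : cfh_SUnit L (cfh_aboveSet F L T)) : cfh_sUnitAct T (1 : L ≃ₐ[F] L) x = x := by
  apply Subtype.ext; apply Units.ext; rfl

end Above

end Fermat.Agent.Lib.PT
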