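/-
S55 / G2 (part D): the `T`-units of `F` inside the `T`-units of `L` are exactly the Galois
invariants.
-/
import Mathlib
import Fermat.Agent.Lib.PT.SUnitC

set_option autoImplicit false
set_option linter.unusedSectionVars false

namespace Fermat.Agent.Lib.PT

open IsDedekindDomain NumberField

section Under

variable (F : Type*) {L : Type*} [Field F] [NumberField F] [Field L] [NumberField L] [Algebra F L]

/-- the prime of `F` below a prime of `L` -/
noncomputable def cfh_under (w : HeightOneSpectrum (𝓞 L)) : HeightOneSpectrum (𝓞 F) where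
  asIdeal := w.asIdeal.under (𝓞 F)
  isPrime := inferInstance
  ne_bot := Ideal.under_ne_bot _ w.ne_bot

instance cfh_liesOver_under (w : HeightOneSpectrum (𝓞 L)) :
    w.asIdeal.LiesOver (cfh_under F w).asIdeal := ⟨rfl⟩

theorem cfh_under_eq_of_liesOver {w : HeightOneSpectrum (𝓞 L)} {v : HeightOneSpectrum (𝓞 F)}
    (h : w.asIdeal.LiesOver v.asIdeal) : cfh_under F w = v :=
  HeightOneSpectrum.ext h.over.symm

theorem cfh_mem_aboveSet_iff_under {T : Finset (HeightOneSpectrum (𝓞 F))}
    {w : HeightOneSpectrum (𝓞 L)} : w ∈ cfh_aboveSet F L T ↔ cfh_under F w ∈ T := by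
  rw [cfh_mem_aboveSet]
  constructor
  · rintro ⟨v, hv, h⟩
    rwa [cfh_under_eq_of_liesOver F h]
  · intro h
    exact ⟨cfh_under F w, h, inferInstance⟩

/-- every prime of `F` has a prime of `L` above it -/
theorem cfh_exists_under_eq (v : HeightOneSpectrum (𝓞 F)) :
    ∃ w : HeightOneSpectrum (𝓞 L), cfh_under F w = v := by
  have hmax : v.asIdeal.IsMaximal := v.isMaximal
  obtain ⟨P, hP, hPv⟩ := Ideal.exists_maximal_ideal_liesOver_of_isIntegral (S := 𝓞 L) v.asIdeal
  exact ⟨⟨P, hP.isPrime, Ideal.ne_bot_of_liesOver_of_ne_bot v.ne_bot P⟩,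
    cfh_under_eq_of_liesOver F hPv⟩

/-- an element of `F` is a unit at `w` iff it is a unit at the prime below `w` -/
theorem cfh_valuation_algebraMap_eq_one_iff (w : HeightOneSpectrum (𝓞 L)) (y : F) :
    w.valuation L (algebraMap F L y) = 1 ↔ (cfh_under F w).valuation F y = 1 := by
  rw [← HeightOneSpectrum.valuation_liesOver L (cfh_under F w) w y]
  exact pow_eq_one_iff_left
    (Ideal.IsDedekindDomain.ramificationIdx'_ne_zero_of_liesOver w.asIdeal (cfh_under F w).ne_bot)

variable {F}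

/-- the inclusion of the `T`-units of `F` into the `T`-units of `L` -/
noncomputable def cfh_sUnitIncl (L : Type*) [Field L] [NumberField L] [Algebra F L]
    (T : Finset (HeightOneSpectrum (𝓞 F))) :
    cfh_SUnit F T →* cfh_SUnit L (cfh_aboveSet F L T) where
  toFun y := ⟨Units.map (algebraMap F L : F →* L) y, fun w hw => by
    have hw' : cfh_under F w ∉ (T : Set (HeightOneSpectrum (𝓞 F))) := fun h =>
      hw (cfh_mem_aboveSet_iff_under F |>.mpr h)
    change w.valuation L (algebraMap F L ((y : Fˣ) : F)) = 1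
    rw [cfh_valuation_algebraMap_eq_one_iff]
    exact y.2 _ hw'⟩
  map_one' := by apply Subtype.ext; simp
  map_mul' a b := by apply Subtype.ext; simp

theorem cfh_sUnitIncl_coe (T : Finset (HeightOneSpectrum (𝓞 F))) (y : cfh_SUnit F T) :
    (((cfh_sUnitIncl L T y : cfh_SUnit L (cfh_aboveSet F L T)) : Lˣ) : L) =
      algebraMap F L ((y : Fˣ) : F) := rfl

theorem cfh_sUnitIncl_injective (T : Finset (HeightOneSpectrum (𝓞 F))) :
    Function.Injective (cfh_sUnitIncl L T) := by
  intro a b h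
  apply Subtype.ext; apply Units.ext
  have := congrArg (fun z : cfh_SUnit L (cfh_aboveSet F L T) => ((z : Lˣ) : L)) h
  simp only [cfh_sUnitIncl_coe] at this
  exact (algebraMap F L).injective this

/-- a `T`-unit of `L` lying in `F` is a `T`-unit of `F` -/
theorem cfh_exists_sUnitIncl_eq (T : Finset (HeightOneSpectrum (𝓞 F)))
    (x : cfh_SUnit L (cfh_aboveSet F L T)) (y : F) (hy : algebraMap F L y = ((x : Lˣ) : L)) :
    ∃ z : cfh_SUnit F T, cfh_sUnitIncl L T z = x := by
  have hy0 : y ≠ 0 := by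
    rintro rfl
    rw [map_zero] at hy
    exact (x : Lˣ).ne_zero hy.symm
  refine ⟨⟨Units.mk0 y hy0, fun v hv => ?_⟩, ?_⟩
  · obtain ⟨w, rfl⟩ := cfh_exists_under_eq (L := L) F v
    have hw : w ∉ (cfh_aboveSet F L T : Set (HeightOneSpectrum (𝓞 L))) := fun h =>
      hv (cfh_mem_aboveSet_iff_under F |>.mp h)
    have := x.2 w hw
    rw [Units.val_mk0, ← cfh_valuation_algebraMap_eq_one_iff, hy]
    exact this
  · apply Subtype.ext; apply Units.ext
    exact hy

/-- **Galois invariants**: a `T`-unit of `L` fixed by the Galois group comes from a `T`-unit of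
`F`. -/
theorem cfh_exists_sUnitIncl_eq_of_fixed [IsGalois F L] (T : Finset (HeightOneSpectrum (𝓞 F)))
    (x : cfh_SUnit L (cfh_aboveSet F L T)) (hx : ∀ τ : L ≃ₐ[F] L, cfh_sUnitAct T τ x = x) :
    ∃ z : cfh_SUnit F T, cfh_sUnitIncl L T z = x := by
  have hfix : ∀ τ : L ≃ₐ[F] L, τ ((x : Lˣ) : L) = ((x : Lˣ) : L) := fun τ => by
    have := congrArg (fun z : cfh_SUnit L (cfh_aboveSet F L T) => ((z : Lˣ) : L)) (hx τ)
    simpa only [cfh_sUnitAct_coe] using this
  obtain ⟨y, hy⟩ := (IsGalois.mem_range_algebraMap_iff_fixed ((x : Lˣ) : L)).mpr hfix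
  exact cfh_exists_sUnitIncl_eq T x y hy

theorem cfh_sUnitAct_sUnitIncl (T : Finset (HeightOneSpectrum (𝓞 F))) (τ : L ≃ₐ[F] L)
    (z : cfh_SUnit F T) : cfh_sUnitAct T τ (cfh_sUnitIncl L T z) = cfh_sUnitIncl L T z := by
  apply Subtype.ext; apply Units.ext
  rw [cfh_sUnitAct_coe, cfh_sUnitIncl_coe]
  exact τ.commutes _

end Under

end Fermat.Agent.Lib.PT
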