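/-
S55 / G2 (part E): counting the primes of `L` above `T` in a Galois extension of prime degree, and
the Herbrand quotient of the `T`-units of `L`:
`|H¹(G, E_{L,T})| * p^b = |Ĥ⁰(G, E_{L,T})| * p`, `b = #{v ∈ T | v does not split in L}`.
-/
import Mathlib
import Fermat.Agent.Lib.PT.SUnitD
import Fermat.Agent.Lib.CFT.HerbrandRank

set_option autoImplicit false
set_option linter.unusedSectionVars false

namespace Fermat.Agent.Lib.PT

open IsDedekindDomain NumberField Fermat.Agent.Lib.CFT

section Count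

variable (F L : Type*) [Field F] [NumberField F] [Field L] [NumberField L] [Algebra F L]

theorem cfh_above_ncard (v : HeightOneSpectrum (𝓞 F)) :
    (cfh_above F L v).ncard = (v.asIdeal.primesOver (𝓞 L)).ncard := by
  have himage : (fun w : HeightOneSpectrum (𝓞 L) => w.asIdeal) '' (cfh_above F L v) =
      v.asIdeal.primesOver (𝓞 L) := by
    ext q
    constructor
    · rintro ⟨w, hw, rfl⟩
      exact ⟨w.isPrime, hw⟩
    · intro hq
      have hq0 : q ≠ ⊥ := by
        have := hq.2
        exact Ideal.ne_bot_of_liesOver_of_ne_bot v.ne_bot q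
      exact ⟨⟨q, hq.1, hq0⟩, hq.2, rfl⟩
  rw [← himage, Set.ncard_image_of_injective _ (fun a b h => HeightOneSpectrum.ext h)]

/-- in a Galois extension of prime degree `p` a prime has `1` or `p` primes above it -/
theorem cfh_above_ncard_eq_one_or [IsGalois F L] {p : ℕ} (hp : p.Prime)
    (hdeg : Module.finrank F L = p) (v : HeightOneSpectrum (𝓞 F)) :
    (cfh_above F L v).ncard = 1 ∨ (cfh_above F L v).ncard = p := by
  have hG : IsGaloisGroup Gal(L/F) (𝓞 F) (𝓞 L) :=
    IsGaloisGroup.of_isFractionRing Gal(L/F) (𝓞 F) (𝓞 L) F L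
  have h := Ideal.ncard_primesOver_mul_ramificationIdxIn_mul_inertiaDegIn v.asIdeal (𝓞 L) Gal(L/F)
  rw [IsGalois.card_aut_eq_finrank, hdeg, ← cfh_above_ncard] at h
  exact (Nat.dvd_prime hp).mp ⟨_, h.symm⟩

theorem cfh_aboveSet_card (T : Finset (HeightOneSpectrum (𝓞 F))) :
    (cfh_aboveSet F L T).card = ∑ v ∈ T, (cfh_above F L v).ncard := by
  classical
  rw [cfh_aboveSet, Finset.card_biUnion]
  · refine Finset.sum_congr rfl fun v _ => ?_
    rw [Set.ncard_eq_toFinset_card _ (cfh_above_finite F L v)]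
  · intro v _ v' _ hvv'
    rw [Function.onFun, Finset.disjoint_left]
    intro w h1 h2
    rw [Set.Finite.mem_toFinset] at h1 h2
    exact hvv' ((cfh_under_eq_of_liesOver F h1).symm.trans (cfh_under_eq_of_liesOver F h2))

open scoped Classical in
/-- `#T_L = p * #{split} + #{non-split}` -/
theorem cfh_aboveSet_card_eq [IsGalois F L] {p : ℕ} (hp : p.Prime)
    (hdeg : Module.finrank F L = p) (T : Finset (HeightOneSpectrum (𝓞 F))) :
    (cfh_aboveSet F L T).card =
      p * (T.filter fun v => (cfh_above F L v).ncard ≠ 1).card +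
        (T.filter fun v => (cfh_above F L v).ncard = 1).card := by
  rw [cfh_aboveSet_card, ← Finset.sum_filter_add_sum_filter_not T
    (fun v => (cfh_above F L v).ncard = 1), add_comm]
  congr 1
  · rw [Finset.sum_congr rfl (g := fun _ => p), Finset.sum_const, smul_eq_mul, mul_comm]
    intro v hv
    rw [Finset.mem_filter] at hv
    exact (cfh_above_ncard_eq_one_or F L hp hdeg v).resolve_left hv.2
  · rw [Finset.sum_congr rfl (g := fun _ => 1), Finset.sum_const, smul_eq_mul, mul_one]
    intro v hv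
    rw [Finset.mem_filter] at hv
    exact hv.2

end Count

section Herbrand

variable {F L : Type*} [Field F] [NumberField F] [Field L] [NumberField L] [Algebra F L]

/-- the Galois generator acting on the (additively written) group of `T`-units of `L` -/
noncomputable def cfh_sigmaM (T : Finset (HeightOneSpectrum (𝓞 F))) (σ : L ≃ₐ[F] L) :
    AddMonoid.End (Additive (cfh_SUnit L (cfh_aboveSet F L T))) :=
  MonoidHom.toAdditive (cfh_sUnitAct T σ)

theorem cfh_sigmaM_apply (T : Finset (HeightOneSpectrum (𝓞 F))) (σ : L ≃ₐ[F] L)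
    (x : Additive (cfh_SUnit L (cfh_aboveSet F L T))) :
    cfh_sigmaM T σ x = Additive.ofMul (cfh_sUnitAct T σ x.toMul) := rfl

theorem cfh_sigmaM_pow_apply (T : Finset (HeightOneSpectrum (𝓞 F))) (σ : L ≃ₐ[F] L) (n : ℕ)
    (x : Additive (cfh_SUnit L (cfh_aboveSet F L T))) :
    (cfh_sigmaM T σ ^ n) x = Additive.ofMul (cfh_sUnitAct T (σ ^ n) x.toMul) := by
  induction n generalizing x with
  | zero =>
    rw [pow_zero, pow_zero, cfh_sUnitAct_one]; rfl
  | succ n ih =>
    rw [pow_succ', pow_succ', cfh_sUnitAct_mul]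
    change cfh_sigmaM T σ ((cfh_sigmaM T σ ^ n) x) = _
    rw [ih, cfh_sigmaM_apply]
    rfl

theorem cfh_fixed_of_generator (T : Finset (HeightOneSpectrum (𝓞 F))) (σ : L ≃ₐ[F] L)
    (hσ : ∀ τ : L ≃ₐ[F] L, τ ∈ Subgroup.zpowers σ)
    (x : cfh_SUnit L (cfh_aboveSet F L T)) (hx : cfh_sUnitAct T σ x = x) (τ : L ≃ₐ[F] L) :
    cfh_sUnitAct T τ x = x := by
  have hx' : σ ((x : Lˣ) : L) = ((x : Lˣ) : L) := by
    have := congrArg (fun z : cfh_SUnit L (cfh_aboveSet F L T) => ((z : Lˣ) : L)) hx
    simpa only [cfh_sUnitAct_coe] using this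
  have hinv : σ.symm ((x : Lˣ) : L) = ((x : Lˣ) : L) := by
    rw [AlgEquiv.symm_apply_eq, hx']
  apply Subtype.ext; apply Units.ext
  rw [cfh_sUnitAct_coe]
  obtain ⟨k, rfl⟩ := Subgroup.mem_zpowers_iff.mp (hσ τ)
  have hnat : ∀ n : ℕ, (σ ^ n) ((x : Lˣ) : L) = ((x : Lˣ) : L) := by
    intro n
    induction n with
    | zero => rfl
    | succ n ih => rw [pow_succ, AlgEquiv.mul_apply, hx', ih]
  have hnat' : ∀ n : ℕ, ((σ ^ n)⁻¹) ((x : Lˣ) : L) = ((x : Lˣ) : L) := by
    intro n
    change (σ ^ n).symm _ = _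
    rw [AlgEquiv.symm_apply_eq, hnat]
  obtain ⟨n, rfl | rfl⟩ := Int.eq_nat_or_neg k
  · rw [zpow_natCast]; exact hnat n
  · rw [zpow_neg, zpow_natCast]; exact hnat' n

open scoped Classical in
/-- **Herbrand quotient of the `T`-units** of a cyclic extension `L/F` of odd prime degree `p`:
with `D = σ - 1`, `N = 1 + σ + ... + σ^(p-1)` on `E = E_{L,T}` (written additively),
`[ker N : D E] * p^b = [ker D : N E] * p`, where `b` is the number of primes of `T` with a single
prime of `L` above them; both indices are finite. -/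
theorem cfh_sUnit_herbrand [IsGalois F L] {p : ℕ} (hp : p.Prime) (hp2 : p ≠ 2)
    (σ : L ≃ₐ[F] L) (hσ : ∀ τ : L ≃ₐ[F] L, τ ∈ Subgroup.zpowers σ)
    (hdeg : Module.finrank F L = p) (T : Finset (HeightOneSpectrum (𝓞 F))) :
    let σM := cfh_sigmaM T σ
    let D : Additive (cfh_SUnit L (cfh_aboveSet F L T)) →+
        Additive (cfh_SUnit L (cfh_aboveSet F L T)) := (σM - 1 : AddMonoid.End _)
    let N : Additive (cfh_SUnit L (cfh_aboveSet F L T)) →+
        Additive (cfh_SUnit L (cfh_aboveSet F L T)) :=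
      (∑ i ∈ Finset.range p, σM ^ i : AddMonoid.End _)
    N.range.relIndex D.ker ≠ 0 ∧ D.range.relIndex N.ker ≠ 0 ∧
      D.range.relIndex N.ker * p ^ (T.filter fun v => (cfh_above F L v).ncard = 1).card =
        N.range.relIndex D.ker * p := by
  intro σM D N
  have hcard : Nat.card (L ≃ₐ[F] L) = p := by rw [IsGalois.card_aut_eq_finrank, hdeg]
  have hσp : σ ^ p = 1 := by rw [← hcard]; exact pow_card_eq_one'
  have hpow : σM ^ p = 1 := by
    ext x
    rw [cfh_sigmaM_pow_apply, hσp, cfh_sUnitAct_one]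
    rfl
  obtain ⟨h0ne, h1ne, b', hrank, heq⟩ := cfa_herbrand hp σM hpow
  refine ⟨h0ne, h1ne, ?_⟩
  -- the rank of the invariants
  have hrF : Module.finrank ℤ ↥(AddMonoidHom.ker D) = NumberField.Units.rank F + T.card := by
    rw [← cfh_sUnit_finrank F T]
    let ιM : Additive (cfh_SUnit F T) →ₗ[ℤ] Additive (cfh_SUnit L (cfh_aboveSet F L T)) :=
      (MonoidHom.toAdditive (cfh_sUnitIncl L T)).toIntLinearMap
    have hinj : Function.Injective ιM := fun x y h => cfh_sUnitIncl_injective T h
    rw [← LinearMap.finrank_range_of_inj hinj]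
    have : (AddMonoidHom.ker D).toIntSubmodule = LinearMap.range ιM := by
      ext x
      constructor
      · intro hx
        have hx' : σM x - x = 0 := hx
        have hfix : cfh_sUnitAct T σ x.toMul = x.toMul := by
          have := sub_eq_zero.mp hx'
          rw [cfh_sigmaM_apply] at this
          exact this
        obtain ⟨z, hz⟩ := cfh_exists_sUnitIncl_eq_of_fixed T x.toMul
          (cfh_fixed_of_generator T σ hσ x.toMul hfix)
        exact ⟨Additive.ofMul z, congrArg Additive.ofMul hz⟩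
      · rintro ⟨z, rfl⟩
        change σM _ - _ = 0
        rw [sub_eq_zero]
        change Additive.ofMul (cfh_sUnitAct T σ (cfh_sUnitIncl L T z.toMul)) = _
        rw [cfh_sUnitAct_sUnitIncl]
        rfl
    rw [← this]
    rfl
  -- the rank of `E_{L,T}`
  have hrL := cfh_sUnit_finrank L (cfh_aboveSet F L T)
  have hodd : Odd (Module.finrank F L) := by rw [hdeg]; exact hp.odd_of_ne_two hp2
  have : IsUnramifiedAtInfinitePlaces F L := IsUnramifiedAtInfinitePlaces_of_odd_finrank hodd
  have hplaces := IsUnramifiedAtInfinitePlaces.card_infinitePlace F L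
  rw [hdeg] at hplaces
  have hTL := cfh_aboveSet_card_eq F L hp hdeg T
  have hTsplit : T.card = (T.filter fun v => (cfh_above F L v).ncard ≠ 1).card +
      (T.filter fun v => (cfh_above F L v).ncard = 1).card := by
    rw [add_comm]
    exact (Finset.card_filter_add_card_filter_not _).symm
  set a := (T.filter fun v => (cfh_above F L v).ncard ≠ 1).card with ha
  set b := (T.filter fun v => (cfh_above F L v).ncard = 1).card with hb
  have hposF : 0 < Fintype.card (InfinitePlace F) := Fintype.card_pos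
  set r := Fintype.card (InfinitePlace F) with hr
  rw [hrF, NumberField.Units.rank, ← hr, hTsplit] at heq hrank
  rw [hrL, NumberField.Units.rank, hplaces, hTL] at hrank
  -- `b' = r + a`
  have hp1 : 0 < p - 1 := by have := hp.two_le; omega
  obtain ⟨r', hr'⟩ : ∃ r', r = r' + 1 := ⟨r - 1, by omega⟩
  obtain ⟨p', hp'⟩ : ∃ p', p = p' + 1 := ⟨p - 1, by omega⟩
  have hb' : b' = r + a := by
    have h2 : (p - 1) * b' = (p - 1) * (r + a) := by
      rw [hr', hp'] at hrank ⊢
      simp only [Nat.add_sub_cancel] at hrank ⊢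
      have e1 : (r' + 1) * (p' + 1) - 1 = r' * p' + r' + p' := by
        have : (r' + 1) * (p' + 1) = r' * p' + r' + p' + 1 := by ring
        rw [this, Nat.add_sub_cancel]
      rw [e1] at hrank
      nlinarith
    exact Nat.eq_of_mul_eq_mul_left hp1 h2
  rw [hb'] at heq
  have e3 : p ^ (r - 1 + (a + b)) = p ^ (r' + a) * p ^ b := by
    rw [hr']; simp only [Nat.add_sub_cancel]; rw [← pow_add]; congr 1; ring
  have e4 : p ^ (r + a) = p ^ (r' + a) * p := by
    rw [hr', ← pow_succ]; congr 1; ring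
  rw [e3, e4] at heq
  have hpa : 0 < p ^ (r' + a) := pow_pos hp.pos _
  apply Nat.eq_of_mul_eq_mul_left hpa
  calc p ^ (r' + a) * (D.range.relIndex N.ker * p ^ b)
      = D.range.relIndex N.ker * (p ^ (r' + a) * p ^ b) := by ring
    _ = N.range.relIndex D.ker * (p ^ (r' + a) * p) := heq
    _ = p ^ (r' + a) * (N.range.relIndex D.ker * p) := by ring

end Herbrand

end Fermat.Agent.Lib.PT
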