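/-
Dictionary (P), part A: the prime of `𝓞 K` cut out by a `q`-adic embedding `σ : K →+* Ω_q`,
and comparison of `‖σ ·‖` with the adic valuation at that prime.
-/
import Fermat.Agent.Lib.PT.GModAction
import Fermat.Agent.Lib.PT.BridgeH
import Fermat.Agent.Lib.PT.SUnitE

set_option autoImplicit false
set_option linter.unusedSectionVars false

noncomputable section

namespace Fermat.Agent.Lib.PT

open IsDedekindDomain NumberField

variable {K : Type*} [Field K] [NumberField K]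

/-- A `q`-adic embedding sends algebraic integers into the unit ball. -/
theorem cfh_norm_emb_le_one {q : Nat.Primes} (σ : ptj_Emb K q) (x : 𝓞 K) : ‖σ (x : K)‖ ≤ 1 := by
  have hx : IsIntegral ℤ (x : K) := x.2
  exact ptj_norm_le_one_of_isIntegral q (hx.map (σ : K →+* ptj_Om q).toIntAlgHom)

theorem cfh_norm_natCast_q (q : Nat.Primes) : ‖((q : ℕ) : ptj_Om q)‖ = ((q : ℕ) : ℝ)⁻¹ :=
  ptg_norm_q (q : ℕ)

theorem cfh_norm_add_le_max {q : Nat.Primes} (x y : ptj_Om q) : ‖x + y‖ ≤ max ‖x‖ ‖y‖ :=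
  PadicAlgCl.isNonarchimedean (q : ℕ) x y

/-- The ideal `{x ∈ 𝓞 K | ‖σ x‖ < 1}`. -/
def cfh_primeIdeal {q : Nat.Primes} (σ : ptj_Emb K q) : Ideal (𝓞 K) where
  carrier := {x | ‖σ (x : K)‖ < 1}
  zero_mem' := by simp
  add_mem' := by
    intro a b ha hb
    simp only [Set.mem_ofPred_eq] at ha hb ⊢
    have : ((a + b : 𝓞 K) : K) = (a : K) + (b : K) := rfl
    rw [this, map_add]
    exact lt_of_le_of_lt (cfh_norm_add_le_max _ _) (max_lt ha hb)
  smul_mem' := by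
    intro c x hx
    simp only [Set.mem_ofPred_eq] at hx ⊢
    have : ((c • x : 𝓞 K) : K) = (c : K) * (x : K) := rfl
    rw [this, map_mul, norm_mul]
    calc ‖σ (c : K)‖ * ‖σ (x : K)‖ ≤ 1 * ‖σ (x : K)‖ :=
          mul_le_mul_of_nonneg_right (cfh_norm_emb_le_one σ c) (norm_nonneg _)
      _ < 1 := by rw [one_mul]; exact hx

theorem cfh_mem_primeIdeal {q : Nat.Primes} (σ : ptj_Emb K q) (x : 𝓞 K) :
    x ∈ cfh_primeIdeal σ ↔ ‖σ (x : K)‖ < 1 := Iff.rfl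

theorem cfh_natCast_mem_primeIdeal {q : Nat.Primes} (σ : ptj_Emb K q) :
    ((q : ℕ) : 𝓞 K) ∈ cfh_primeIdeal σ := by
  rw [cfh_mem_primeIdeal]
  have : (((q : ℕ) : 𝓞 K) : K) = ((q : ℕ) : K) := rfl
  rw [this, map_natCast, cfh_norm_natCast_q]
  have hq : (1 : ℝ) < ((q : ℕ) : ℝ) := by exact_mod_cast q.2.one_lt
  exact inv_lt_one_of_one_lt₀ hq

instance cfh_primeIdeal_isPrime {q : Nat.Primes} (σ : ptj_Emb K q) :
    (cfh_primeIdeal σ).IsPrime where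
  ne_top' := by
    intro h
    have h1 : (1 : 𝓞 K) ∈ cfh_primeIdeal σ := by rw [h]; trivial
    rw [cfh_mem_primeIdeal] at h1
    simp at h1
  mem_or_mem' := by
    intro x y hxy
    rw [cfh_mem_primeIdeal] at hxy
    have : ((x * y : 𝓞 K) : K) = (x : K) * (y : K) := rfl
    rw [this, map_mul, norm_mul] at hxy
    by_contra hcon
    rw [not_or] at hcon
    have hx : ‖σ (x : K)‖ = 1 :=
      le_antisymm (cfh_norm_emb_le_one σ x) (not_lt.1 hcon.1)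
    have hy : ‖σ (y : K)‖ = 1 :=
      le_antisymm (cfh_norm_emb_le_one σ y) (not_lt.1 hcon.2)
    rw [hx, hy, one_mul] at hxy
    exact lt_irrefl _ hxy

/-- The prime of `𝓞 K` cut out by the `q`-adic embedding `σ`. -/
def cfh_primeOf {q : Nat.Primes} (σ : ptj_Emb K q) : HeightOneSpectrum (𝓞 K) where
  asIdeal := cfh_primeIdeal σ
  isPrime := cfh_primeIdeal_isPrime σ
  ne_bot := by
    intro h
    have h1 := cfh_natCast_mem_primeIdeal σ
    rw [h, Ideal.mem_bot] at h1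
    have h2 : ((q : ℕ) : 𝓞 K) ≠ 0 := by
      exact_mod_cast q.2.ne_zero
    exact h2 h1

theorem cfh_mem_primeOf {q : Nat.Primes} (σ : ptj_Emb K q) (x : 𝓞 K) :
    x ∈ (cfh_primeOf σ).asIdeal ↔ ‖σ (x : K)‖ < 1 := Iff.rfl

theorem cfh_natCast_mem_primeOf {q : Nat.Primes} (σ : ptj_Emb K q) :
    ((q : ℕ) : 𝓞 K) ∈ (cfh_primeOf σ).asIdeal := cfh_natCast_mem_primeIdeal σ

/-- Elements outside the prime have norm one. -/
theorem cfh_norm_eq_one_of_notMem {q : Nat.Primes} (σ : ptj_Emb K q) {x : 𝓞 K}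
    (hx : x ∉ (cfh_primeOf σ).asIdeal) : ‖σ (x : K)‖ = 1 :=
  le_antisymm (cfh_norm_emb_le_one σ x) (not_lt.1 fun h => hx ((cfh_mem_primeOf σ x).2 h))

/-- `v(x) ≤ 1 ⇒ ‖σ x‖ ≤ 1`. -/
theorem cfh_norm_le_one_of_valuation_le_one {q : Nat.Primes} (σ : ptj_Emb K q) {x : K}
    (hx : (cfh_primeOf σ).valuation K x ≤ 1) : ‖σ x‖ ≤ 1 := by
  obtain ⟨n, d, hnd⟩ := (cfh_primeOf σ).exists_primeCompl_mul_eq_of_integer x hx
  have hd : ‖σ ((d : 𝓞 K) : K)‖ = 1 := cfh_norm_eq_one_of_notMem σ d.2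
  have h1 : ‖σ x‖ * ‖σ ((d : 𝓞 K) : K)‖ = ‖σ (n : K)‖ := by
    rw [← norm_mul, ← map_mul]
    exact congrArg (fun y => ‖σ y‖) hnd
  rw [hd, mul_one] at h1
  rw [h1]
  exact cfh_norm_emb_le_one σ n

/-- `v(x) < 1 ⇒ ‖σ x‖ < 1`. -/
theorem cfh_norm_lt_one_of_valuation_lt_one {q : Nat.Primes} (σ : ptj_Emb K q) {x : K}
    (hx : (cfh_primeOf σ).valuation K x < 1) : ‖σ x‖ < 1 := by
  obtain ⟨n, d, hnd⟩ := (cfh_primeOf σ).exists_primeCompl_mul_eq_of_integer x hx.le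
  have hd : ‖σ ((d : 𝓞 K) : K)‖ = 1 := cfh_norm_eq_one_of_notMem σ d.2
  have h1 : ‖σ x‖ * ‖σ ((d : 𝓞 K) : K)‖ = ‖σ (n : K)‖ := by
    rw [← norm_mul, ← map_mul]
    exact congrArg (fun y => ‖σ y‖) hnd
  rw [hd, mul_one] at h1
  rw [h1, ← cfh_mem_primeOf, ← HeightOneSpectrum.valuation_lt_one_iff_mem (K := K)]
  have hv : (cfh_primeOf σ).valuation K (algebraMap (𝓞 K) K (d : 𝓞 K)) = 1 :=
    ((cfh_primeOf σ).valuation_eq_one_iff_notMem (K := K)).2 d.2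
  have h2 := congrArg ((cfh_primeOf σ).valuation K) hnd
  rw [map_mul, hv, mul_one] at h2
  rw [← h2]
  exact hx

/-- `‖σ x‖ ≤ 1 ↔ v(x) ≤ 1`. -/
theorem cfh_norm_le_one_iff {q : Nat.Primes} (σ : ptj_Emb K q) (x : K) :
    ‖σ x‖ ≤ 1 ↔ (cfh_primeOf σ).valuation K x ≤ 1 := by
  refine ⟨fun h => ?_, cfh_norm_le_one_of_valuation_le_one σ⟩
  by_contra hcon
  rw [not_le] at hcon
  have hx0 : x ≠ 0 := by
    rintro rfl
    simp at hcon
  have h1 : (cfh_primeOf σ).valuation K x⁻¹ < 1 := by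
    rw [map_inv₀]
    exact inv_lt_one_of_one_lt₀ hcon
  have h2 := cfh_norm_lt_one_of_valuation_lt_one σ h1
  rw [map_inv₀, norm_inv] at h2
  have hpos : 0 < ‖σ x‖ := norm_pos_iff.2 ((map_ne_zero σ).2 hx0)
  have h3 : 1 < ‖σ x‖ := by
    rw [inv_lt_comm₀ hpos one_pos, inv_one] at h2
    exact h2
  exact absurd h (not_le.2 h3)

/-- `‖σ x‖ < 1 ↔ v(x) < 1`. -/
theorem cfh_norm_lt_one_iff {q : Nat.Primes} (σ : ptj_Emb K q) (x : K) :
    ‖σ x‖ < 1 ↔ (cfh_primeOf σ).valuation K x < 1 := by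
  refine ⟨fun h => ?_, cfh_norm_lt_one_of_valuation_lt_one σ⟩
  by_contra hcon
  rw [not_lt] at hcon
  have hx0 : x ≠ 0 := by
    rintro rfl
    simp at hcon
  have h1 : (cfh_primeOf σ).valuation K x⁻¹ ≤ 1 := by
    rw [map_inv₀]
    exact inv_le_one_of_one_le₀ hcon
  have h2 := cfh_norm_le_one_of_valuation_le_one σ h1
  rw [map_inv₀, norm_inv] at h2
  have hpos : 0 < ‖σ x‖ := norm_pos_iff.2 ((map_ne_zero σ).2 hx0)
  have h3 : 1 ≤ ‖σ x‖ := by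
    rw [inv_le_comm₀ hpos one_pos, inv_one] at h2
    exact h2
  exact absurd h (not_lt.2 h3)

/-- `‖σ x‖ = 1 ↔ v(x) = 1`. -/
theorem cfh_norm_eq_one_iff {q : Nat.Primes} (σ : ptj_Emb K q) (x : K) :
    ‖σ x‖ = 1 ↔ (cfh_primeOf σ).valuation K x = 1 := by
  constructor
  · intro h
    refine le_antisymm ((cfh_norm_le_one_iff σ x).1 h.le) (not_lt.1 fun h1 => ?_)
    exact absurd ((cfh_norm_lt_one_iff σ x).2 h1) (not_lt.2 h.ge)
  · intro h
    refine le_antisymm ((cfh_norm_le_one_iff σ x).2 h.le) (not_lt.1 fun h1 => ?_)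
    exact absurd ((cfh_norm_lt_one_iff σ x).1 h1) (not_lt.2 h.ge)

/-- The prime only depends on the `G_q`-orbit of the embedding. -/
theorem cfh_primeOf_post {q : Nat.Primes} (τ : ptj_Gq q) (σ : ptj_Emb K q) :
    cfh_primeOf (ptj_post τ σ) = cfh_primeOf σ := by
  apply HeightOneSpectrum.ext
  ext x
  rw [cfh_mem_primeOf, cfh_mem_primeOf, ptj_post_apply]
  have := congrArg NNReal.toReal (nnnorm_padicAlgCl_algEquiv (q : ℕ) τ (σ (x : K)))
  exact iff_of_eq (congrArg (· < 1) this)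

/-- Embeddings with the same prime are conjugate under `G_q`: the fibres of `σ ↦ 𝔭_σ` are the
`G_q`-orbits. -/
theorem cfh_exists_post_eq_of_primeOf_eq {q : Nat.Primes} {σ σ' : ptj_Emb K q}
    (h : cfh_primeOf σ' = cfh_primeOf σ) : ∃ τ : ptj_Gq q, ptj_post τ σ = σ' := by
  obtain ⟨τ, hτ⟩ := ptg_exists_galois_of_le_one_iff (q := (q : ℕ)) (σ := σ) (σ' := σ')
    (fun x => by rw [cfh_norm_le_one_iff, cfh_norm_le_one_iff, h])
  exact ⟨τ, RingHom.ext fun x => hτ x⟩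

theorem cfh_primeOf_eq_iff {q : Nat.Primes} {σ σ' : ptj_Emb K q} :
    cfh_primeOf σ' = cfh_primeOf σ ↔ ∃ τ : ptj_Gq q, ptj_post τ σ = σ' :=
  ⟨cfh_exists_post_eq_of_primeOf_eq, by rintro ⟨τ, rfl⟩; exact cfh_primeOf_post τ σ⟩

end Fermat.Agent.Lib.PT

end
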