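/-
Dictionary (P), part B: every prime of `𝓞 K` containing `q` is cut out by a `q`-adic embedding
(norm = product over the embeddings + prime avoidance; no completions).
-/
import Fermat.Agent.Lib.PT.PlaceA

set_option autoImplicit false
set_option linter.unusedSectionVars false

noncomputable section

namespace Fermat.Agent.Lib.PT

open IsDedekindDomain NumberField

variable {K : Type*} [Field K] [NumberField K]

/-- An integer divisible by `q` has `q`-adic norm `< 1`. -/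
theorem cfh_norm_intCast_lt_one (q : Nat.Primes) {b : ℤ} (hb : ((q : ℕ) : ℤ) ∣ b) :
    ‖(b : ptj_Om q)‖ < 1 := by
  obtain ⟨c, rfl⟩ := hb
  rw [Int.cast_mul, norm_mul, Int.cast_natCast, cfh_norm_natCast_q]
  have hq : (1 : ℝ) < ((q : ℕ) : ℝ) := by exact_mod_cast q.2.one_lt
  calc ((q : ℕ) : ℝ)⁻¹ * ‖(c : ptj_Om q)‖ ≤ ((q : ℕ) : ℝ)⁻¹ * 1 :=
        mul_le_mul_of_nonneg_left (ptj_norm_intCast_le_one q c) (by positivity)
    _ < 1 := by rw [mul_one]; exact inv_lt_one_of_one_lt₀ hq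

/-- The norm of an algebraic integer, computed `q`-adically. -/
theorem cfh_norm_eq_prod_emb (q : Nat.Primes) (x : 𝓞 K) :
    ((Algebra.norm ℤ x : ℤ) : ptj_Om q) = ∏ σ : ptj_Emb K q, σ (x : K) := by
  have h1 := Algebra.norm_eq_prod_embeddings ℚ (ptj_Om q) (x : K)
  rw [← Algebra.coe_norm_int, eq_ratCast, Rat.cast_intCast] at h1
  rw [h1]
  exact (Fintype.prod_equiv (RingHom.equivRatAlgHom K (ptj_Om q)) _ _ (fun σ => rfl)).symm

/-- `q` divides the absolute norm of a prime containing `q`. -/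
theorem cfh_dvd_absNorm (q : Nat.Primes) (v : HeightOneSpectrum (𝓞 K))
    (hv : ((q : ℕ) : 𝓞 K) ∈ v.asIdeal) : (q : ℕ) ∣ Ideal.absNorm v.asIdeal := by
  have h1 := Ideal.absNorm_dvd_norm_of_mem hv
  have h2 : (Algebra.norm ℤ) (((q : ℕ) : 𝓞 K)) = ((q : ℕ) : ℤ) ^ Module.finrank ℤ (𝓞 K) := by
    have : (((q : ℕ) : 𝓞 K)) = algebraMap ℤ (𝓞 K) ((q : ℕ) : ℤ) := by simp
    rw [this, Algebra.norm_algebraMap]
  rw [h2] at h1
  have h3 : Ideal.absNorm v.asIdeal ∣ (q : ℕ) ^ Module.finrank ℤ (𝓞 K) := by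
    exact_mod_cast h1
  obtain ⟨k, -, hk⟩ := (Nat.dvd_prime_pow q.2).1 h3
  have hk0 : k ≠ 0 := by
    rintro rfl
    rw [pow_zero, Ideal.absNorm_eq_one_iff] at hk
    exact v.isPrime.ne_top hk
  rw [hk]
  exact dvd_pow_self _ hk0

/-- **Surjectivity of `σ ↦ 𝔭_σ`** onto the primes containing `q`. -/
theorem cfh_exists_primeOf_eq (q : Nat.Primes) (v : HeightOneSpectrum (𝓞 K))
    (hv : ((q : ℕ) : 𝓞 K) ∈ v.asIdeal) : ∃ σ : ptj_Emb K q, cfh_primeOf σ = v := by
  classical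
  by_contra hcon
  rw [not_exists] at hcon
  -- prime avoidance
  have h1 : ¬ ((v.asIdeal : Set (𝓞 K)) ⊆
      ⋃ σ ∈ ((Finset.univ : Finset (ptj_Emb K q)) : Set (ptj_Emb K q)),
        ((cfh_primeOf σ).asIdeal : Set (𝓞 K))) := by
    intro hsub
    have hp : ∀ (a b : ptj_Emb K q), (∀ i ∈ (Finset.univ : Finset (ptj_Emb K q)), i ≠ a → i ≠ b →
        ((cfh_primeOf i).asIdeal).IsPrime) := fun a b i _ _ _ => (cfh_primeOf i).isPrime
    by_cases hne : Nonempty (ptj_Emb K q)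
    · obtain ⟨a⟩ := hne
      obtain ⟨σ, -, hσ⟩ := (Ideal.subset_union_prime (s := Finset.univ)
        (f := fun σ : ptj_Emb K q => (cfh_primeOf σ).asIdeal) a a (hp a a)).1 hsub
      have hmax : v.asIdeal.IsMaximal := v.isMaximal
      have := hmax.eq_of_le (cfh_primeOf σ).isPrime.ne_top hσ
      exact hcon σ (HeightOneSpectrum.ext this.symm)
    · rw [not_nonempty_iff] at hne
      have hq := hsub hv
      simp only [Set.mem_iUnion] at hq
      obtain ⟨σ, -⟩ := hq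
      exact hne.elim σ
  rw [Set.not_subset] at h1
  obtain ⟨x, hxv, hx⟩ := h1
  simp only [Finset.coe_univ, Set.mem_univ, Set.iUnion_true, Set.mem_iUnion, SetLike.mem_coe,
    not_exists] at hx
  -- all embeddings of x are units
  have h2 : ‖((Algebra.norm ℤ x : ℤ) : ptj_Om q)‖ = 1 := by
    rw [cfh_norm_eq_prod_emb, norm_prod]
    exact Finset.prod_eq_one fun σ _ => cfh_norm_eq_one_of_notMem σ (hx σ)
  -- but q divides the norm
  have h3 : ((q : ℕ) : ℤ) ∣ Algebra.norm ℤ x := by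
    refine Dvd.dvd.trans ?_ (Ideal.absNorm_dvd_norm_of_mem hxv)
    exact_mod_cast cfh_dvd_absNorm q v hv
  exact absurd h2 (ne_of_lt (cfh_norm_intCast_lt_one q h3))

end Fermat.Agent.Lib.PT

end
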