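/-
(P5), part A: the value group of the local field `K_σ = ℚ_q(σ K)` is the value group of `σ K`
(`σ K` is dense in `K_σ`: `K_σ` is the `ℚ_q`-span of `σ K` and `ℚ` is dense in `ℚ_q`).
-/
import Fermat.Agent.Lib.PT.PlaceB
import Fermat.Agent.Lib.PT.GModLocal

set_option autoImplicit false
set_option linter.unusedSectionVars false

noncomputable section

namespace Fermat.Agent.Lib.PT

open IsDedekindDomain NumberField

variable {K : Type*} [Field K] [NumberField K] {q : Nat.Primes}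

/-- ultrametric: `‖a - b‖ < ‖a‖ → ‖b‖ = ‖a‖` in `Ω_q` -/
theorem ptk_norm_eq_of_sub_lt {a b : ptj_Om q} (h : ‖a - b‖ < ‖a‖) : ‖b‖ = ‖a‖ := by
  apply le_antisymm
  · have h1 : b = a + (-(a - b)) := by ring
    have h2 := cfh_norm_add_le_max a (-(a - b))
    rw [← h1, norm_neg] at h2
    exact h2.trans (max_le le_rfl h.le)
  · by_contra hlt
    rw [not_le] at hlt
    have h1 : a = (a - b) + b := by ring
    have h2 := cfh_norm_add_le_max (a - b) b
    rw [← h1] at h2
    have : ‖a‖ < ‖a‖ := lt_of_le_of_lt h2 (max_lt h hlt)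
    exact lt_irrefl _ this

/-- elements of the `ℚ_q`-span of `σ K` are approximated by elements of `σ K` -/
theorem ptk_exists_approx (σ : ptj_Emb K q) {a : ptj_Om q}
    (ha : a ∈ Submodule.span ℚ_[(q : ℕ)] (Set.range σ)) {ε : ℝ} (hε : 0 < ε) :
    ∃ y : K, ‖a - σ y‖ < ε := by
  induction ha using Submodule.span_induction generalizing ε with
  | mem a ha =>
    obtain ⟨x, rfl⟩ := ha
    exact ⟨x, by simpa using hε⟩
  | zero => exact ⟨0, by simpa using hε⟩
  | add a b _ _ iha ihb =>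
    obtain ⟨y, hy⟩ := iha hε
    obtain ⟨z, hz⟩ := ihb hε
    refine ⟨y + z, ?_⟩
    have h1 : a + b - σ (y + z) = (a - σ y) + (b - σ z) := by rw [map_add]; ring
    rw [h1]
    exact lt_of_le_of_lt (cfh_norm_add_le_max _ _) (max_lt hy hz)
  | smul c a _ iha =>
    have hc1 : 0 < ‖c‖ + 1 := by positivity
    obtain ⟨y, hy⟩ := iha (div_pos hε hc1)
    have hy1 : 0 < ‖σ y‖ + 1 := by positivity
    obtain ⟨r, hr⟩ := Padic.rat_dense (q : ℕ) c (div_pos hε hy1)
    refine ⟨(r : K) * y, ?_⟩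
    have h1 : c • a - σ ((r : K) * y) =
        c • (a - σ y) + (algebraMap ℚ_[(q : ℕ)] (ptj_Om q) (c - r)) * σ y := by
      rw [map_mul, map_ratCast, Algebra.smul_def, Algebra.smul_def, map_sub, map_ratCast]
      ring
    rw [h1]
    refine lt_of_le_of_lt (cfh_norm_add_le_max _ _) (max_lt ?_ ?_)
    · rw [norm_smul]
      calc ‖c‖ * ‖a - σ y‖ ≤ ‖c‖ * (ε / (‖c‖ + 1)) :=
            mul_le_mul_of_nonneg_left hy.le (norm_nonneg _)
        _ < ε := by
            rw [mul_div_assoc', div_lt_iff₀ hc1]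
            nlinarith [norm_nonneg c]
    · rw [norm_mul, norm_algebraMap']
      calc ‖c - r‖ * ‖σ y‖ ≤ (ε / (‖σ y‖ + 1)) * ‖σ y‖ :=
            mul_le_mul_of_nonneg_right hr.le (norm_nonneg _)
        _ < ε := by
            rw [div_mul_eq_mul_div, div_lt_iff₀ hy1]
            nlinarith [norm_nonneg (σ y)]

/-- **value group**: every nonzero element of `K_σ` has the norm of some `σ y`, `y ∈ Kˣ` -/
theorem ptk_exists_norm_eq (σ : ptj_Emb K q) {a : ptj_Om q} (ha : a ∈ ptj_Kσ σ) (ha0 : a ≠ 0) :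
    ∃ y : Kˣ, ‖σ (y : K)‖ = ‖a‖ := by
  have hspan : a ∈ Submodule.span ℚ_[(q : ℕ)] (Set.range σ) := by
    have h := ptg_locEmb_toSubmodule (q : ℕ) σ
    have h2 : a ∈ (ptg_locEmb (q : ℕ) σ).toSubalgebra.toSubmodule := ha
    rwa [h] at h2
  obtain ⟨y, hy⟩ := ptk_exists_approx σ hspan (norm_pos_iff.mpr ha0)
  have hnorm := ptk_norm_eq_of_sub_lt hy
  have hy0 : y ≠ 0 := by
    rintro rfl
    rw [map_zero, norm_zero] at hnorm
    exact ha0 (norm_eq_zero.mp hnorm.symm)
  exact ⟨Units.mk0 y hy0, hnorm⟩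

end Fermat.Agent.Lib.PT

end
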