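/-
(P5), part B (pure ideal theory): outside a finite set `R₀` of primes of a number field `K`,
every prime `v` has a "uniformiser" `π ∈ Kˣ` (`v(π) = 1`) which is a unit at all other primes
outside `R₀` (finiteness of the class group).  Consequence: prescribed valuations at finitely
many primes outside `R₀` are realised by elements of `Kˣ` which are units outside `R₀` elsewhere.
-/
import Mathlib

set_option autoImplicit false
set_option linter.unusedSectionVars false

noncomputable section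

namespace Fermat.Agent.Lib.PT

open IsDedekindDomain NumberField
open scoped nonZeroDivisors

variable (K : Type*) [Field K] [NumberField K]

theorem ptk_exists_uniformizers :
    ∃ R₀ : Finset (HeightOneSpectrum (𝓞 K)), ∀ v : HeightOneSpectrum (𝓞 K), v ∉ R₀ →
      ∃ π : Kˣ, v.valuation K (π : K) = WithZero.exp (-1 : ℤ) ∧
        ∀ w : HeightOneSpectrum (𝓞 K), w ∉ R₀ → w ≠ v → w.valuation K (π : K) = 1 := by
  classical
  -- an integral ideal in every class
  choose I hI using (ClassGroup.mk0_surjective (R := 𝓞 K))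
  have hI0 : ∀ c, ((I c : (Ideal (𝓞 K))⁰) : Ideal (𝓞 K)) ≠ 0 := fun c =>
    nonZeroDivisors.coe_ne_zero (I c)
  have hfin : {v : HeightOneSpectrum (𝓞 K) | ∃ c, v.asIdeal ∣ (I c : Ideal (𝓞 K))}.Finite := by
    have h := Set.finite_iUnion (fun c : ClassGroup (𝓞 K) => Ideal.finite_factors (hI0 c))
    refine h.subset ?_
    rintro v ⟨c, hc⟩
    exact Set.mem_iUnion.mpr ⟨c, hc⟩
  refine ⟨hfin.toFinset, fun v hv => ?_⟩
  rw [Set.Finite.mem_toFinset, Set.mem_ofPred_eq, not_exists] at hv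
  set V : (Ideal (𝓞 K))⁰ := ⟨v.asIdeal, mem_nonZeroDivisors_iff_ne_zero.mpr v.ne_bot⟩ with hV
  set c : ClassGroup (𝓞 K) := (ClassGroup.mk0 V)⁻¹ with hc
  have hone : ClassGroup.mk0 (V * I c) = 1 := by
    rw [map_mul, hI c, hc, mul_inv_cancel]
  have hprinc : Submodule.IsPrincipal ((V * I c : (Ideal (𝓞 K))⁰) : Ideal (𝓞 K)) :=
    (ClassGroup.mk0_eq_one_iff (V * I c).2).mp hone
  obtain ⟨π₀, hπ₀⟩ := hprinc.principal
  have hspan : Ideal.span {π₀} = v.asIdeal * (I c : Ideal (𝓞 K)) := by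
    have : ((V * I c : (Ideal (𝓞 K))⁰) : Ideal (𝓞 K)) = v.asIdeal * (I c : Ideal (𝓞 K)) := rfl
    rw [← this, hπ₀]
  have hπ₀0 : π₀ ≠ 0 := by
    rintro rfl
    have h0 : v.asIdeal * (I c : Ideal (𝓞 K)) = ⊥ := by
      rw [← hspan]; simp
    exact mul_ne_zero v.ne_bot (hI0 c) h0
  have hπK : algebraMap (𝓞 K) K π₀ ≠ 0 := by
    rw [Ne, map_eq_zero_iff _ (FaithfulSMul.algebraMap_injective (𝓞 K) K)]
    exact hπ₀0
  refine ⟨Units.mk0 (algebraMap (𝓞 K) K π₀) hπK, ?_, ?_⟩
  · rw [Units.val_mk0, HeightOneSpectrum.valuation_of_algebraMap]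
    have h1 : v.intValuation π₀ ≤ WithZero.exp (-((1 : ℕ) : ℤ)) := by
      rw [HeightOneSpectrum.intValuation_le_pow_iff_dvd, hspan, pow_one]
      exact dvd_mul_right _ _
    have h2 : ¬ v.intValuation π₀ ≤ WithZero.exp (-((2 : ℕ) : ℤ)) := by
      rw [HeightOneSpectrum.intValuation_le_pow_iff_dvd, hspan, pow_two]
      intro hdvd
      exact hv c ((mul_dvd_mul_iff_left v.ne_bot).mp hdvd)
    have h0 : v.intValuation π₀ ≠ 0 := v.intValuation_ne_zero π₀ hπ₀0
    rw [← WithZero.exp_log h0] at h1 h2 ⊢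
    rw [WithZero.exp_le_exp] at h1 h2
    congr 1
    push_cast at h1 h2
    omega
  · intro w hw hwv
    rw [Set.Finite.mem_toFinset, Set.mem_ofPred_eq, not_exists] at hw
    rw [Units.val_mk0, HeightOneSpectrum.valuation_of_algebraMap]
    apply le_antisymm (w.intValuation_le_one π₀)
    rw [← not_lt, HeightOneSpectrum.intValuation_lt_one_iff_dvd, hspan]
    intro hdvd
    rcases (w.prime.dvd_or_dvd hdvd) with h | h
    · apply hwv
      have hle : v.asIdeal ≤ w.asIdeal := Ideal.le_of_dvd h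
      exact (HeightOneSpectrum.ext (v.isMaximal.eq_of_le w.isPrime.ne_top hle)).symm
    · exact hw c h

/-- prescribed valuation at one prime outside `R₀` -/
theorem ptk_exists_val_eq {R₀ : Finset (HeightOneSpectrum (𝓞 K))}
    (hR₀ : ∀ v : HeightOneSpectrum (𝓞 K), v ∉ R₀ →
      ∃ π : Kˣ, v.valuation K (π : K) = WithZero.exp (-1 : ℤ) ∧
        ∀ w : HeightOneSpectrum (𝓞 K), w ∉ R₀ → w ≠ v → w.valuation K (π : K) = 1)
    {v : HeightOneSpectrum (𝓞 K)} (hv : v ∉ R₀) (m : ℤ) :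
    ∃ x : Kˣ, v.valuation K (x : K) = WithZero.exp m ∧
      ∀ w : HeightOneSpectrum (𝓞 K), w ∉ R₀ → w ≠ v → w.valuation K (x : K) = 1 := by
  obtain ⟨π, hπ, hπ'⟩ := hR₀ v hv
  refine ⟨π ^ (-m), ?_, fun w hw hwv => ?_⟩
  · rw [Units.val_zpow_eq_zpow_val, map_zpow₀, hπ, ← WithZero.exp_zsmul]
    congr 1
    simp
  · rw [Units.val_zpow_eq_zpow_val, map_zpow₀, hπ' w hw hwv, one_zpow]

/-- prescribed valuations at finitely many primes outside `R₀` -/
theorem ptk_exists_vals_eq {R₀ : Finset (HeightOneSpectrum (𝓞 K))}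
    (hR₀ : ∀ v : HeightOneSpectrum (𝓞 K), v ∉ R₀ →
      ∃ π : Kˣ, v.valuation K (π : K) = WithZero.exp (-1 : ℤ) ∧
        ∀ w : HeightOneSpectrum (𝓞 K), w ∉ R₀ → w ≠ v → w.valuation K (π : K) = 1)
    (W : Finset (HeightOneSpectrum (𝓞 K))) (hW : ∀ v ∈ W, v ∉ R₀)
    (m : HeightOneSpectrum (𝓞 K) → ℤ) :
    ∃ x : Kˣ, (∀ v ∈ W, v.valuation K (x : K) = WithZero.exp (m v)) ∧
      ∀ w : HeightOneSpectrum (𝓞 K), w ∉ R₀ → w ∉ W → w.valuation K (x : K) = 1 := by
  classical
  induction W using Finset.induction_on with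
  | empty => exact ⟨1, by simp, fun w _ _ => by simp⟩
  | insert v W hvW ih =>
    obtain ⟨x, hx1, hx2⟩ := ih (fun w hw => hW w (Finset.mem_insert_of_mem hw))
    have hvR : v ∉ R₀ := hW v (Finset.mem_insert_self v W)
    obtain ⟨y, hy1, hy2⟩ := ptk_exists_val_eq K hR₀ hvR (m v)
    refine ⟨x * y, ?_, ?_⟩
    · intro w hw
      rw [Units.val_mul, map_mul]
      rcases Finset.mem_insert.mp hw with rfl | hw
      · rw [hx2 w hvR hvW, hy1, one_mul]
      · have hwv : w ≠ v := fun h => hvW (h ▸ hw)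
        rw [hx1 w hw, hy2 w (hW w (Finset.mem_insert_of_mem hw)) hwv, mul_one]
    · intro w hw hwW
      have hwv : w ≠ v := fun h => hwW (h ▸ Finset.mem_insert_self v W)
      have hwW' : w ∉ W := fun h => hwW (Finset.mem_insert_of_mem h)
      rw [Units.val_mul, map_mul, hx2 w hw hwW', hy2 w hw hwv, one_mul]

end Fermat.Agent.Lib.PT

end
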