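/-
(P5): THE CLASS GROUP IN THE EMBEDDING MODEL.  For a number field `K` there is a finite set `T₀`
of rational primes such that `J_K = Kˣ · J_{K,T}` for every finite `T ⊇ T₀`.
-/
import Fermat.Agent.Lib.PT.GPlaceClA
import Fermat.Agent.Lib.PT.GPlaceClB
import Fermat.Agent.Lib.CFT.ZetaSplit

set_option autoImplicit false
set_option linter.unusedSectionVars false

noncomputable section

namespace Fermat.Agent.Lib.PT

open IsDedekindDomain NumberField Fermat.Agent.Lib.CFT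

variable {K : Type*} [Field K] [NumberField K]

/-- the rational prime below a prime of `K` -/
def ptk_below (v : HeightOneSpectrum (𝓞 K)) : Nat.Primes := ⟨cfi_below K v, cfi_below_prime K v⟩

theorem ptk_eq_below_of_mem {q : Nat.Primes} {v : HeightOneSpectrum (𝓞 K)}
    (h : ((q : ℕ) : 𝓞 K) ∈ v.asIdeal) : q = ptk_below v := by
  have hlo := cfi_below_liesOver K v
  have h1 : ((q : ℕ) : ℤ) ∈ Ideal.under ℤ v.asIdeal := by
    rw [Ideal.under_def, Ideal.mem_comap]
    simpa using h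
  rw [← hlo.over, Ideal.mem_span_singleton] at h1
  have h2 : cfi_below K v ∣ (q : ℕ) := by exact_mod_cast h1
  have h3 := (Nat.prime_dvd_prime_iff_eq (cfi_below_prime K v) q.2).mp h2
  exact Subtype.ext h3.symm

theorem ptk_below_primeOf {q : Nat.Primes} (σ : ptj_Emb K q) : ptk_below (cfh_primeOf σ) = q :=
  (ptk_eq_below_of_mem (cfh_natCast_mem_primeOf σ)).symm

/-- the norm `‖σ y‖` only depends on the orbit of `σ` -/
theorem ptk_norm_post {q : Nat.Primes} (τ : ptj_Gq q) (σ : ptj_Emb K q) (y : K) :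
    ‖ptj_post τ σ y‖ = ‖σ y‖ := by
  rw [ptj_post_apply]
  exact congrArg NNReal.toReal (nnnorm_padicAlgCl_algEquiv (q : ℕ) τ (σ y))

/-- for an idele `f` and a prime `v` of `K`: an element of `Kˣ` with the same absolute value as
`f` at all embeddings belonging to `v` -/
theorem ptk_exists_same_norm (f : ptj_J K) (v : HeightOneSpectrum (𝓞 K)) :
    ∃ y : Kˣ, ∀ (q : Nat.Primes) (σ : ptj_Emb K q), cfh_primeOf σ = v →
      ‖σ (y : K)‖ = ‖(((f : ptj_Amb K) q σ : (ptj_Om q)ˣ) : ptj_Om q)‖ := by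
  by_cases hex : ∃ (q : Nat.Primes) (σ : ptj_Emb K q), cfh_primeOf σ = v
  · obtain ⟨q₀, σ₀, hσ₀⟩ := hex
    have hmem := ptj_mem_Kσ_of_mem_Jq (f.2.1 q₀) σ₀
    obtain ⟨y, hy⟩ := ptk_exists_norm_eq σ₀ hmem (Units.ne_zero _)
    refine ⟨y, fun q σ hσ => ?_⟩
    have hq : q = q₀ := by
      rw [← ptk_below_primeOf σ, ← ptk_below_primeOf σ₀, hσ, hσ₀]
    subst hq
    obtain ⟨τ, rfl⟩ := cfh_exists_post_eq_of_primeOf_eq (hσ.trans hσ₀.symm)
    rw [ptk_norm_post, ptj_norm_post (f.2.1 q) τ σ₀, hy]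
  · push Not at hex
    exact ⟨1, fun q σ hσ => absurd hσ (hex q σ)⟩

/-- **(P5)**: `J_K = Kˣ · J_{K,T}` for all `T` containing a suitable finite set `T₀`. -/
theorem ptk_class_group (K : Type*) [Field K] [NumberField K] :
    ∃ T₀ : Finset Nat.Primes, ∀ T : Finset Nat.Primes, T₀ ⊆ T →
      ptj_principal K ⊔ ptj_JT K T = ⊤ := by
  classical
  obtain ⟨R₀, hR₀⟩ := ptk_exists_uniformizers K
  refine ⟨R₀.image ptk_below, fun T hT => ?_⟩
  rw [eq_top_iff]
  intro f _
  -- primes of `K` over rational primes outside `T` are outside `R₀`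
  have hnotR : ∀ (q : Nat.Primes) (σ : ptj_Emb K q), q ∉ T → cfh_primeOf σ ∉ R₀ := by
    intro q σ hq hmem
    apply hq
    apply hT
    rw [← ptk_below_primeOf σ]
    exact Finset.mem_image_of_mem _ hmem
  obtain ⟨T'', hT''⟩ := ptj_exists_mem_JT f
  set B : Finset Nat.Primes := T'' \ T with hB
  set W : Finset (HeightOneSpectrum (𝓞 K)) :=
    B.biUnion (fun q => (Finset.univ : Finset (ptj_Emb K q)).image cfh_primeOf) with hW
  have hWR : ∀ v ∈ W, v ∉ R₀ := by
    intro v hv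
    rw [hW, Finset.mem_biUnion] at hv
    obtain ⟨q, hq, hv⟩ := hv
    obtain ⟨σ, -, rfl⟩ := Finset.mem_image.mp hv
    exact hnotR q σ (Finset.mem_sdiff.mp hq).2
  choose y hy using ptk_exists_same_norm f
  have hval0 : ∀ v : HeightOneSpectrum (𝓞 K), v.valuation K ((y v : Kˣ) : K) ≠ 0 := fun v =>
    (Valuation.ne_zero_iff _).mpr (Units.ne_zero _)
  obtain ⟨x, hx1, hx2⟩ := ptk_exists_vals_eq K hR₀ W hWR
    (fun v => (v.valuation K ((y v : Kˣ) : K)).log)
  -- the quotient is a `T`-idele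
  have hg : f * (ptj_diag K x)⁻¹ ∈ ptj_JT K T := by
    intro q hq σ
    have hcoe : ((((f * (ptj_diag K x)⁻¹ : ptj_J K) : ptj_Amb K) q σ : (ptj_Om q)ˣ) : ptj_Om q) =
        (((f : ptj_Amb K) q σ : (ptj_Om q)ˣ) : ptj_Om q) * (σ (x : K))⁻¹ := by
      show ((((f : ptj_Amb K) q σ) * ((ptj_diagAmb x q σ))⁻¹ : (ptj_Om q)ˣ) : ptj_Om q) = _
      rw [Units.val_mul, Units.val_inv_eq_inv_val, ptj_diagAmb_apply]
    rw [hcoe, norm_mul, norm_inv]
    have hσx0 : ‖σ (x : K)‖ ≠ 0 := norm_ne_zero_iff.mpr ((map_ne_zero σ).mpr (Units.ne_zero x))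
    suffices h : ‖σ (x : K)‖ = ‖(((f : ptj_Amb K) q σ : (ptj_Om q)ˣ) : ptj_Om q)‖ by
      rw [← h, mul_inv_cancel₀ hσx0]
    set v := cfh_primeOf σ with hv
    have hvR : v ∉ R₀ := hnotR q σ hq
    by_cases hvW : v ∈ W
    · -- same valuation as `y v`
      have h1 : v.valuation K (x : K) = v.valuation K ((y v : Kˣ) : K) := by
        rw [hx1 v hvW, WithZero.exp_log (hval0 v)]
      have h2 : v.valuation K ((x : K) / ((y v : Kˣ) : K)) = 1 := by
        rw [map_div₀, h1, div_self (hval0 v)]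
      have h3 := (cfh_norm_eq_one_iff σ ((x : K) / ((y v : Kˣ) : K))).mpr h2
      rw [map_div₀, norm_div, div_eq_one_iff_eq
        (norm_ne_zero_iff.mpr ((map_ne_zero σ).mpr (Units.ne_zero (y v))))] at h3
      rw [h3]
      exact hy v q σ rfl
    · have hqB : q ∉ B := by
        intro hqB
        apply hvW
        rw [hW, Finset.mem_biUnion]
        exact ⟨q, hqB, Finset.mem_image_of_mem _ (Finset.mem_univ σ)⟩
      have hqT'' : q ∉ T'' := fun h => hqB (Finset.mem_sdiff.mpr ⟨h, hq⟩)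
      rw [hT'' q hqT'' σ]
      exact (cfh_norm_eq_one_iff σ (x : K)).mpr (hx2 v hvR hvW)
  have hdecomp : f = ptj_diag K x * (f * (ptj_diag K x)⁻¹) := by
    rw [mul_comm f, mul_inv_cancel_left]
  rw [hdecomp]
  exact Subgroup.mul_mem_sup ⟨x, rfl⟩ hg

end Fermat.Agent.Lib.PT

end
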