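/-
S55 / K2 (part C): the index `[1 + 𝔪^n : 1 + 𝔪^(n+e)] = #(R/𝔪^e)` and the main theorem
`[Rˣ : (Rˣ)^p] = #μ_p(R) * #(R/pR)` for a complete discrete valuation ring of characteristic `0`
with finite residue field.
-/
import Mathlib
import Fermat.Agent.Lib.PT.LocalPowB

set_option autoImplicit false

namespace Fermat.Agent.Lib.PT

open IsLocalRing

section Index

variable {R : Type*} [CommRing R] [IsDomain R] [IsDiscreteValuationRing R]

/-- the unit `1 + ϖ^n t` (for `n ≥ 1`) as an element of `cfh_U (𝔪^n)` -/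
noncomputable def cfh_oneAdd {ϖ : R} (hϖ : Irreducible ϖ) {n : ℕ} (hn : 1 ≤ n) (t : R) :
    cfh_U (maximalIdeal R ^ n) :=
  ⟨(cfh_isUnit_one_add (x := ϖ ^ n * t)
      (cfh_maxPow_le_max hn ((cfh_mem_maxPow hϖ).mpr (Dvd.intro _ rfl)))).unit, by
    rw [cfh_mem_U, IsUnit.unit_spec, add_sub_cancel_left]
    exact (cfh_mem_maxPow hϖ).mpr (Dvd.intro _ rfl)⟩

theorem cfh_oneAdd_val {ϖ : R} (hϖ : Irreducible ϖ) {n : ℕ} (hn : 1 ≤ n) (t : R) :
    (((cfh_oneAdd hϖ hn t : cfh_U (maximalIdeal R ^ n)) : Rˣ) : R) = 1 + ϖ ^ n * t :=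
  IsUnit.unit_spec _

/-- `t ↦ [1 + ϖ^n t]` as an additive map `R → (1 + 𝔪^n)/(1 + 𝔪^(n+e))`, for `e ≤ n`. -/
noncomputable def cfh_theta {ϖ : R} (hϖ : Irreducible ϖ) {n : ℕ} (hn : 1 ≤ n) {e : ℕ}
    (hen : e ≤ n) :
    R →+ Additive (cfh_U (maximalIdeal R ^ n) ⧸
      (cfh_U (maximalIdeal R ^ (n + e))).subgroupOf (cfh_U (maximalIdeal R ^ n))) where
  toFun t := Additive.ofMul (QuotientGroup.mk (cfh_oneAdd hϖ hn t))
  map_zero' := by
    have : cfh_oneAdd hϖ hn (0 : R) = 1 := by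
      apply Subtype.ext; apply Units.ext
      rw [cfh_oneAdd_val]; simp
    rw [this]; rfl
  map_add' t t' := by
    rw [← ofMul_mul, ← QuotientGroup.mk_mul]
    congr 1
    rw [QuotientGroup.eq, Subgroup.mem_subgroupOf, inv_mul_eq_div, Subgroup.coe_div,
      cfh_div_mem_U, Subgroup.coe_mul, Units.val_mul, cfh_oneAdd_val, cfh_oneAdd_val,
      cfh_oneAdd_val, cfh_mem_maxPow hϖ]
    obtain ⟨k, rfl⟩ := Nat.exists_eq_add_of_le hen
    refine ⟨ϖ ^ k * t * t', ?_⟩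
    ring

theorem cfh_theta_apply {ϖ : R} (hϖ : Irreducible ϖ) {n : ℕ} (hn : 1 ≤ n) {e : ℕ}
    (hen : e ≤ n) (t : R) :
    cfh_theta hϖ hn hen t = Additive.ofMul (QuotientGroup.mk (cfh_oneAdd hϖ hn t)) := rfl

theorem cfh_theta_surjective {ϖ : R} (hϖ : Irreducible ϖ) {n : ℕ} (hn : 1 ≤ n) {e : ℕ}
    (hen : e ≤ n) : Function.Surjective (cfh_theta hϖ hn hen) := by
  intro x
  obtain ⟨h, rfl⟩ := QuotientGroup.mk_surjective (Additive.toMul x)
  obtain ⟨t, ht⟩ := (cfh_mem_maxPow hϖ).mp (cfh_mem_U.mp h.2)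
  refine ⟨t, ?_⟩
  have : cfh_oneAdd hϖ hn t = h := by
    apply Subtype.ext; apply Units.ext
    rw [cfh_oneAdd_val, ← ht]; ring
  rw [cfh_theta_apply, this]
  rfl

theorem cfh_theta_ker {ϖ : R} (hϖ : Irreducible ϖ) {n : ℕ} (hn : 1 ≤ n) {e : ℕ}
    (hen : e ≤ n) : (cfh_theta hϖ hn hen).ker = (maximalIdeal R ^ e).toAddSubgroup := by
  ext t
  rw [AddMonoidHom.mem_ker, cfh_theta_apply, Submodule.mem_toAddSubgroup, cfh_mem_maxPow hϖ]
  have h0 : (Additive.ofMul (QuotientGroup.mk (cfh_oneAdd hϖ hn t)) :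
      Additive (cfh_U (maximalIdeal R ^ n) ⧸
        (cfh_U (maximalIdeal R ^ (n + e))).subgroupOf (cfh_U (maximalIdeal R ^ n)))) = 0 ↔
      cfh_oneAdd hϖ hn t ∈
        (cfh_U (maximalIdeal R ^ (n + e))).subgroupOf (cfh_U (maximalIdeal R ^ n)) := by
    rw [← QuotientGroup.eq_one_iff]; rfl
  rw [h0, Subgroup.mem_subgroupOf, cfh_mem_U, cfh_oneAdd_val, add_sub_cancel_left,
    cfh_mem_maxPow hϖ, pow_add]
  exact mul_dvd_mul_iff_left (pow_ne_zero _ hϖ.ne_zero)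

/-- `[1 + 𝔪^n : 1 + 𝔪^(n+e)] = #(R/𝔪^e)` for `1 ≤ n`, `e ≤ n`. -/
theorem cfh_relIndex_U {n : ℕ} (hn : 1 ≤ n) {e : ℕ} (hen : e ≤ n) :
    (cfh_U (maximalIdeal R ^ (n + e))).relIndex (cfh_U (maximalIdeal R ^ n)) =
      Nat.card (R ⧸ maximalIdeal R ^ e) := by
  obtain ⟨ϖ, hϖ⟩ := IsDiscreteValuationRing.exists_irreducible R
  have h1 := AddSubgroup.index_ker (G := R) (G' := Additive (cfh_U (maximalIdeal R ^ n) ⧸
      (cfh_U (maximalIdeal R ^ (n + e))).subgroupOf (cfh_U (maximalIdeal R ^ n))))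
    (cfh_theta hϖ hn hen)
  rw [cfh_theta_ker, AddMonoidHom.range_eq_top.mpr (cfh_theta_surjective hϖ hn hen),
    AddSubgroup.card_top] at h1
  rw [Subgroup.relIndex, Subgroup.index_eq_card, ← Submodule.cardQuot_apply, Submodule.cardQuot,
    h1]
  rfl

end Index

theorem cfh_ker_powMonoidHom {M : Type*} [CommMonoid M] (p : ℕ) :
    (powMonoidHom p : Mˣ →* Mˣ).ker = rootsOfUnity p M := by
  ext u
  rw [MonoidHom.mem_ker, powMonoidHom_apply, mem_rootsOfUnity]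

section Main

variable {R : Type*} [CommRing R] [IsDomain R] [IsDiscreteValuationRing R]
  [IsPrecomplete (maximalIdeal R) R] [CharZero R] [Finite (ResidueField R)]

/-- **Local `p`-power index**: in a complete discrete valuation ring `R` of characteristic `0`
with finite residue field, `[Rˣ : (Rˣ)^p] = #μ_p(R) * #(R/pR)`. -/
theorem cfh_index_pow_units {p : ℕ} (hp : p.Prime) :
    (powMonoidHom p : Rˣ →* Rˣ).range.index =
      Nat.card (rootsOfUnity p R) * Nat.card (R ⧸ Ideal.span {(p : R)}) := by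
  obtain ⟨ϖ, hϖ⟩ := IsDiscreteValuationRing.exists_irreducible R
  have hp0 : (p : R) ≠ 0 := by exact_mod_cast hp.ne_zero
  obtain ⟨e, η, hpe'⟩ := IsDiscreteValuationRing.eq_unit_mul_pow_irreducible hp0 hϖ
  have hpe : (p : R) = η * ϖ ^ e := hpe'
  set n := e + 1 with hn
  have hen : e < n := by omega
  set φ : Rˣ →* Rˣ := powMonoidHom p with hφ
  set H : Subgroup Rˣ := cfh_U (maximalIdeal R ^ n) with hH
  have : Finite (R ⧸ maximalIdeal R) := ‹Finite (ResidueField R)›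
  have : Finite (R ⧸ maximalIdeal R ^ n) :=
    Ideal.finite_quotient_pow (IsNoetherian.noetherian _) n
  have hfin : H.index ≠ 0 := cfh_U_index_ne_zero _
  -- the image of `H`
  have hmap : H.map φ = cfh_U (maximalIdeal R ^ (n + e)) := by
    apply le_antisymm
    · rintro _ ⟨u, hu, rfl⟩
      rw [cfh_mem_U, hφ, powMonoidHom_apply, Units.val_pow_eq_pow_val]
      exact cfh_pow_sub_one_mem hp hpe hϖ hen.le (cfh_mem_U.mp hu)
    · intro u hu
      obtain ⟨a, ha, hau⟩ := cfh_exists_pow_eq hp hpe hϖ hen (cfh_mem_U.mp hu)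
      have hau' : IsUnit a := cfh_isUnit_of_sub_one_mem (by omega) ha
      refine ⟨hau'.unit, ?_, ?_⟩
      · rw [SetLike.mem_coe, cfh_mem_U, IsUnit.unit_spec]; exact ha
      · apply Units.ext
        rw [hφ, powMonoidHom_apply, Units.val_pow_eq_pow_val, IsUnit.unit_spec, hau]
  have hstab : H.map φ ≤ H := by
    rw [hmap]
    exact cfh_U_anti (Ideal.pow_le_pow_right (Nat.le_add_right n e))
  -- no `p`-torsion in `H`
  have hker : φ.ker ⊓ H = ⊥ := by
    rw [eq_bot_iff]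
    rintro u ⟨hu1, hu2⟩
    rw [Subgroup.mem_bot]
    apply Units.ext
    rw [Units.val_one]
    refine cfh_eq_one_of_pow_eq_one hp hpe hϖ hen (cfh_mem_U.mp hu2) ?_
    have := (MonoidHom.mem_ker).mp hu1
    rw [hφ, powMonoidHom_apply] at this
    rw [← Units.val_pow_eq_pow_val, this, Units.val_one]
  rw [cfh_index_range_eq φ H hstab hfin, hmap, hker, Subgroup.relIndex_bot_left,
    cfh_relIndex_U (by omega) hen.le, cfh_ker_powMonoidHom, mul_comm]
  congr 2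
  rw [hpe, Ideal.span_singleton_mul_left_unit η.isUnit, ← Ideal.span_singleton_pow,
    hϖ.maximalIdeal_eq]

end Main

end Fermat.Agent.Lib.PT
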