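/-
S55 / K2 (part D): the `p`-power index in the fraction field of a complete discrete valuation
ring: `[Kˣ : (Kˣ)^p] = p * #μ_p(R) * #(R/pR)`.
-/
import Mathlib
import Fermat.Agent.Lib.PT.LocalPowC

set_option autoImplicit false

namespace Fermat.Agent.Lib.PT

open IsLocalRing

section ProdPow

variable {G G' : Type*} [CommGroup G] [CommGroup G']

theorem cfh_range_pow_prod (p : ℕ) :
    (powMonoidHom p : (G × G') →* (G × G')).range =
      (powMonoidHom p : G →* G).range.prod (powMonoidHom p : G' →* G').range := by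
  ext ⟨x, y⟩
  simp only [MonoidHom.mem_range, powMonoidHom_apply, Subgroup.mem_prod, Prod.exists,
    Prod.pow_mk, Prod.mk.injEq]
  constructor
  · rintro ⟨a, b, rfl, rfl⟩
    exact ⟨⟨a, rfl⟩, ⟨b, rfl⟩⟩
  · rintro ⟨⟨a, rfl⟩, ⟨b, rfl⟩⟩
    exact ⟨a, b, rfl, rfl⟩

/-- the index of the `p`-th powers is invariant under isomorphism -/
theorem cfh_index_range_pow_equiv (e : G ≃* G') (p : ℕ) :
    (powMonoidHom p : G →* G).range.index = (powMonoidHom p : G' →* G').range.index := by
  rw [← Subgroup.index_map_equiv _ e]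
  congr 1
  ext y
  simp only [Subgroup.mem_map, MonoidHom.mem_range, powMonoidHom_apply, MonoidHom.coe_coe,
    exists_exists_eq_and, map_pow]
  constructor
  · rintro ⟨a, rfl⟩
    exact ⟨e a, rfl⟩
  · rintro ⟨b, rfl⟩
    exact ⟨e.symm b, by simp⟩

theorem cfh_index_range_pow_int {p : ℕ} (hp : p ≠ 0) :
    (powMonoidHom p : Multiplicative ℤ →* Multiplicative ℤ).range.index = p := by
  have : NeZero p := ⟨hp⟩
  let f : Multiplicative ℤ →* Multiplicative (ZMod p) :=
    AddMonoidHom.toMultiplicative (Int.castAddHom (ZMod p))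
  have hker : f.ker = (powMonoidHom p : Multiplicative ℤ →* Multiplicative ℤ).range := by
    ext x
    rw [MonoidHom.mem_ker, MonoidHom.mem_range]
    change ((Multiplicative.toAdd x : ℤ) : ZMod p) = 0 ↔ _
    rw [ZMod.intCast_zmod_eq_zero_iff_dvd]
    constructor
    · rintro ⟨k, hk⟩
      refine ⟨Multiplicative.ofAdd k, ?_⟩
      rw [powMonoidHom_apply, ← ofAdd_nsmul, nsmul_eq_mul, ← hk]
      rfl
    · rintro ⟨y, rfl⟩
      refine ⟨Multiplicative.toAdd y, ?_⟩
      rw [powMonoidHom_apply, toAdd_pow, nsmul_eq_mul]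
  have hsurj : Function.Surjective f := fun y =>
    ⟨Multiplicative.ofAdd ((Multiplicative.toAdd y).val : ℤ), by
      change Multiplicative.ofAdd ((((Multiplicative.toAdd y).val : ℤ)) : ZMod p) = y
      simp⟩
  rw [← hker, Subgroup.index_ker, MonoidHom.range_eq_top.mpr hsurj, Subgroup.card_top]
  change Nat.card (ZMod p) = p
  rw [Nat.card_eq_fintype_card, ZMod.card]

end ProdPow

section FractionField

variable {R : Type*} [CommRing R] [IsDomain R] [IsDiscreteValuationRing R]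
variable (K : Type*) [Field K] [Algebra R K] [IsFractionRing R K]

/-- a uniformizer as a unit of the fraction field -/
noncomputable def cfh_unifUnit {ϖ : R} (hϖ : Irreducible ϖ) : Kˣ :=
  Units.mk0 (algebraMap R K ϖ)
    ((map_ne_zero_iff _ (IsFractionRing.injective R K)).mpr hϖ.ne_zero)

/-- `(u, k) ↦ u ϖ^k`, `Rˣ × ℤ → Kˣ` -/
noncomputable def cfh_psi {ϖ : R} (hϖ : Irreducible ϖ) : Rˣ × Multiplicative ℤ →* Kˣ :=
  (Units.map (algebraMap R K : R →* K)).coprod (zpowersHom Kˣ (cfh_unifUnit K hϖ))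

omit [IsDomain R] [IsDiscreteValuationRing R] in
theorem cfh_psi_apply {ϖ : R} (hϖ : Irreducible ϖ) (u : Rˣ) (k : Multiplicative ℤ) :
    ((cfh_psi K hϖ (u, k) : Kˣ) : K) =
      algebraMap R K u * (algebraMap R K ϖ) ^ (Multiplicative.toAdd k) := by
  simp [cfh_psi, cfh_unifUnit, MonoidHom.coprod_apply, zpowersHom_apply]

omit [IsDomain R] [IsDiscreteValuationRing R] in
theorem cfh_not_isUnit_pow {ϖ : R} (hϖ : Irreducible ϖ) {m : ℕ} (hm : m ≠ 0) :
    ¬ IsUnit (ϖ ^ m) := fun h =>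
  hϖ.not_isUnit ((isUnit_pow_iff hm).mp h)

omit [IsDiscreteValuationRing R] in
theorem cfh_psi_injective {ϖ : R} (hϖ : Irreducible ϖ) :
    Function.Injective (cfh_psi K hϖ) := by
  rw [injective_iff_map_eq_one]
  rintro ⟨u, k⟩ h
  have h1 : algebraMap R K u * (algebraMap R K ϖ) ^ (Multiplicative.toAdd k) = 1 := by
    rw [← cfh_psi_apply K hϖ, h, Units.val_one]
  have hinj := IsFractionRing.injective R K
  have hϖK : algebraMap R K ϖ ≠ 0 := (map_ne_zero_iff _ hinj).mpr hϖ.ne_zero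
  obtain ⟨m, hm | hm⟩ := Int.eq_nat_or_neg (Multiplicative.toAdd k)
  · rw [hm, zpow_natCast, ← map_pow, ← map_mul, ← map_one (algebraMap R K)] at h1
    have h2 := hinj h1
    have hm0 : m = 0 := by
      by_contra hm0
      exact cfh_not_isUnit_pow hϖ hm0 (IsUnit.of_mul_eq_one _ (by rw [mul_comm]; exact h2))
    subst hm0
    rw [pow_zero, mul_one] at h2
    have hk : k = 1 := by
      have : Multiplicative.toAdd k = 0 := by simpa using hm
      exact this
    rw [hk, Prod.mk_eq_one]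
    exact ⟨Units.ext h2, rfl⟩
  · rw [hm, zpow_neg, zpow_natCast, ← map_pow] at h1
    have h2 : algebraMap R K (u : R) = algebraMap R K (ϖ ^ m) := by
      have hne : algebraMap R K (ϖ ^ m) ≠ 0 :=
        (map_ne_zero_iff _ hinj).mpr (pow_ne_zero _ hϖ.ne_zero)
      field_simp at h1
      exact h1
    have h3 := hinj h2
    have hm0 : m = 0 := by
      by_contra hm0
      exact cfh_not_isUnit_pow hϖ hm0 (h3 ▸ u.isUnit)
    subst hm0
    rw [pow_zero] at h3
    have hk : k = 1 := by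
      have : Multiplicative.toAdd k = 0 := by simpa using hm
      exact this
    rw [hk, Prod.mk_eq_one]
    exact ⟨Units.ext h3, rfl⟩

theorem cfh_psi_surjective {ϖ : R} (hϖ : Irreducible ϖ) :
    Function.Surjective (cfh_psi K hϖ) := by
  intro x
  have hinj := IsFractionRing.injective R K
  obtain ⟨a, b, hb, hab⟩ := IsFractionRing.div_surjective (A := R) (x : K)
  have hb0 : b ≠ 0 := nonZeroDivisors.ne_zero hb
  have ha0 : a ≠ 0 := by
    rintro rfl
    rw [map_zero, zero_div] at hab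
    exact x.ne_zero hab.symm
  obtain ⟨m, u, rfl⟩ := IsDiscreteValuationRing.eq_unit_mul_pow_irreducible ha0 hϖ
  obtain ⟨m', u', rfl⟩ := IsDiscreteValuationRing.eq_unit_mul_pow_irreducible hb0 hϖ
  refine ⟨(u / u', Multiplicative.ofAdd ((m : ℤ) - m')), ?_⟩
  apply Units.ext
  have hϖK : algebraMap R K ϖ ≠ 0 := (map_ne_zero_iff _ hinj).mpr hϖ.ne_zero
  have hu' : algebraMap R K (u' : R) ≠ 0 := (map_ne_zero_iff _ hinj).mpr u'.ne_zero
  rw [cfh_psi_apply, ← hab, toAdd_ofAdd, zpow_sub₀ hϖK, zpow_natCast, zpow_natCast, map_mul,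
    map_mul, map_pow, map_pow, div_eq_mul_inv u u', Units.val_mul, map_mul]
  have : algebraMap R K ((u'⁻¹ : Rˣ) : R) = (algebraMap R K (u' : R))⁻¹ :=
    eq_inv_of_mul_eq_one_left (by rw [← map_mul, Units.inv_mul, map_one])
  rw [this]
  field_simp

/-- `Kˣ ≅ Rˣ × ℤ` -/
noncomputable def cfh_psiEquiv {ϖ : R} (hϖ : Irreducible ϖ) : Rˣ × Multiplicative ℤ ≃* Kˣ :=
  MulEquiv.ofBijective (cfh_psi K hϖ) ⟨cfh_psi_injective K hϖ, cfh_psi_surjective K hϖ⟩

/-- `[Kˣ : (Kˣ)^p] = [Rˣ : (Rˣ)^p] * p` for the fraction field of a discrete valuation ring. -/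
theorem cfh_index_pow_field_eq {p : ℕ} (hp : p ≠ 0) :
    (powMonoidHom p : Kˣ →* Kˣ).range.index =
      (powMonoidHom p : Rˣ →* Rˣ).range.index * p := by
  obtain ⟨ϖ, hϖ⟩ := IsDiscreteValuationRing.exists_irreducible R
  rw [← cfh_index_range_pow_equiv (cfh_psiEquiv K hϖ) p, cfh_range_pow_prod,
    Subgroup.index_prod, cfh_index_range_pow_int hp]

/-- **Local `p`-power index (field version)**: for the fraction field `K` of a complete discrete
valuation ring `R` of characteristic `0` with finite residue field,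
`[Kˣ : (Kˣ)^p] = p * #μ_p(R) * #(R/pR)`. -/
theorem cfh_index_pow_field [IsPrecomplete (maximalIdeal R) R] [CharZero R]
    [Finite (ResidueField R)] {p : ℕ} (hp : p.Prime) :
    (powMonoidHom p : Kˣ →* Kˣ).range.index =
      p * (Nat.card (rootsOfUnity p R) * Nat.card (R ⧸ Ideal.span {(p : R)})) := by
  rw [cfh_index_pow_field_eq (R := R) K hp.ne_zero, cfh_index_pow_units hp, mul_comm]

end FractionField

section Corollaries

variable {R : Type*} [CommRing R] [IsDomain R] [IsDiscreteValuationRing R]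
  [IsPrecomplete (maximalIdeal R) R]

/-- explicit form: if `p = η ϖ^e`, every unit `≡ 1 mod 𝔪^(2e+1)` is a `p`-th power. -/
theorem cfh_U_le_range_pow_of_eq {p : ℕ} (hp : p.Prime) {ϖ : R} (hϖ : Irreducible ϖ) {η : Rˣ}
    {e : ℕ} (hpe : (p : R) = η * ϖ ^ e) :
    cfh_U (maximalIdeal R ^ (e + 1 + e)) ≤ (powMonoidHom p : Rˣ →* Rˣ).range := by
  intro u hu
  obtain ⟨a, ha, hau⟩ := cfh_exists_pow_eq hp hpe hϖ (Nat.lt_succ_self e) (cfh_mem_U.mp hu)
  have hau' : IsUnit a := cfh_isUnit_of_sub_one_mem (by omega) ha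
  refine ⟨hau'.unit, ?_⟩
  apply Units.ext
  rw [powMonoidHom_apply, Units.val_pow_eq_pow_val, IsUnit.unit_spec, hau]

/-- the higher unit groups `1 + 𝔪^N` consist of `p`-th powers for `N` large (complete discrete
valuation ring of characteristic `0`). -/
theorem cfh_exists_U_le_range_pow [CharZero R] {p : ℕ} (hp : p.Prime) :
    ∃ N : ℕ, cfh_U (maximalIdeal R ^ N) ≤ (powMonoidHom p : Rˣ →* Rˣ).range := by
  obtain ⟨ϖ, hϖ⟩ := IsDiscreteValuationRing.exists_irreducible R
  have hp0 : (p : R) ≠ 0 := by exact_mod_cast hp.ne_zero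
  obtain ⟨e, η, hpe⟩ := IsDiscreteValuationRing.eq_unit_mul_pow_irreducible hp0 hϖ
  exact ⟨e + 1 + e, cfh_U_le_range_pow_of_eq hp hϖ hpe⟩

/-- the `p`-th powers have finite index in `Rˣ` (complete DVR, char `0`, finite residue field) -/
theorem cfh_index_pow_units_ne_zero [CharZero R] [Finite (ResidueField R)] {p : ℕ}
    (hp : p.Prime) : (powMonoidHom p : Rˣ →* Rˣ).range.index ≠ 0 := by
  obtain ⟨N, hN⟩ := cfh_exists_U_le_range_pow (R := R) hp
  have : Finite (R ⧸ maximalIdeal R) := ‹Finite (ResidueField R)›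
  have : Finite (R ⧸ maximalIdeal R ^ N) :=
    Ideal.finite_quotient_pow (IsNoetherian.noetherian _) N
  intro h
  have hd := Subgroup.index_dvd_of_le hN
  rw [h, zero_dvd_iff] at hd
  exact cfh_U_index_ne_zero (maximalIdeal R ^ N) hd

end Corollaries

end Fermat.Agent.Lib.PT
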