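/-
K4 in the model, local part A: the ring of integers `ptl_O q K` of a finite extension `K/ℚ_q`
is precomplete for its maximal ideal (so helper8's local `p`-power index theorems
`cfh_index_pow_units`, `cfh_index_pow_field`, `cfh_U_le_range_pow_of_eq` apply to it).
-/
import Fermat.Agent.Lib.PT.LocDvr
import Fermat.Agent.Lib.PT.LocalPowD

set_option autoImplicit false
set_option linter.unusedSectionVars false

namespace Fermat.Agent.Lib.PT

open IsLocalRing

variable (q : ℕ) [Fact q.Prime]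
variable (K : Type*) [Field K] [Algebra ℚ_[q] K] [FiniteDimensional ℚ_[q] K]

theorem ptk_smodEq_iff (x y : ptl_O q K) (n : ℕ) :
    x ≡ y [SMOD (maximalIdeal (ptl_O q K) ^ n • ⊤ : Submodule (ptl_O q K) (ptl_O q K))] ↔
      ptl_abs q K ((x : K) - (y : K)) ≤ ptl_abs q K (ptl_unif q K) ^ n := by
  rw [SModEq.sub_mem, smul_eq_mul, Ideal.mul_top, ptl_mem_maximalIdeal_pow]
  rfl

instance ptk_isPrecomplete : IsPrecomplete (maximalIdeal (ptl_O q K)) (ptl_O q K) := by
  refine ⟨fun f hf => ?_⟩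
  set c : ℝ := ptl_abs q K (ptl_unif q K) with hc
  have hc0 : 0 ≤ c := (ptl_abs q K).nonneg _
  have hc1 : c < 1 := ptl_unif_lt_one q K
  have hstep : ∀ n, ptl_abs q K (((f (n + 1) : ptl_O q K) : K) - ((f n : ptl_O q K) : K)) ≤
      1 * c ^ n := by
    intro n
    rw [one_mul, ← ptl_abs_neg, neg_sub]
    exact (ptk_smodEq_iff q K (f n) (f (n + 1)) n).mp (hf (Nat.le_succ n))
  obtain ⟨y, hy⟩ := ptl_exists_limit q K (fun n => ((f n : ptl_O q K) : K)) 1 c zero_le_one hc0
    hc1 hstep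
  have hyO : y ∈ ptl_O q K := by
    rw [ptl_mem_O]
    have h0 := hy 0
    rw [pow_zero, mul_one] at h0
    have h1 : y = (y - ((f 0 : ptl_O q K) : K)) + ((f 0 : ptl_O q K) : K) := by ring
    rw [h1]
    exact (ptl_abs_add_le_max q _ _).trans (max_le h0 (ptl_abs_le_one q (f 0)))
  refine ⟨⟨y, hyO⟩, fun n => ?_⟩
  rw [ptk_smodEq_iff, ← ptl_abs_neg, neg_sub]
  have := hy n
  rwa [one_mul] at this

end Fermat.Agent.Lib.PT
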