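/-
K4 in the model, local part B: `#(O_K / p O_K)` for a finite extension `K/ℚ_q`:
`= q ^ [K : ℚ_q]` if `p = q`, `= 1` if `p ≠ q`.
-/
import Fermat.Agent.Lib.PT.GPlaceLocA
import Fermat.Agent.Lib.PT.LocCyc

set_option autoImplicit false
set_option linter.unusedSectionVars false

namespace Fermat.Agent.Lib.PT

open IsLocalRing

variable (q : ℕ) [hq : Fact q.Prime]

section Base

theorem ptk_abs_Qq (x : ℚ_[q]) : ptl_abs q ℚ_[q] x = ‖x‖ := by
  have := ptl_abs_algebraMap q (K := ℚ_[q]) x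
  simpa using this

/-- the inclusion of the unit ball of `ℚ_q` into `ℤ_q` -/
noncomputable def ptk_toPadicInt : ptl_O q ℚ_[q] →+* ℤ_[q] where
  toFun x := ⟨(x : ℚ_[q]), by rw [← ptk_abs_Qq]; exact ptl_abs_le_one q x⟩
  map_one' := rfl
  map_mul' _ _ := rfl
  map_zero' := rfl
  map_add' _ _ := rfl

/-- reduction of the unit ball of `ℚ_q` to `ZMod q` -/
noncomputable def ptk_toZMod : ptl_O q ℚ_[q] →+* ZMod q :=
  (PadicInt.toZMod (p := q)).comp (ptk_toPadicInt q)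

theorem ptk_toZMod_surjective : Function.Surjective (ptk_toZMod q) := by
  intro a
  obtain ⟨n, rfl⟩ := ZMod.natCast_zmod_surjective a
  exact ⟨(n : ptl_O q ℚ_[q]), by simp⟩

theorem ptk_ker_toZMod : RingHom.ker (ptk_toZMod q) = maximalIdeal (ptl_O q ℚ_[q]) := by
  ext x
  rw [RingHom.mem_ker, ptk_toZMod, RingHom.comp_apply, ← RingHom.mem_ker, PadicInt.ker_toZMod,
    ptl_mem_maximalIdeal, ptk_abs_Qq, IsLocalRing.mem_maximalIdeal, PadicInt.mem_nonunits]
  rfl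

/-- the residue field of `ℚ_q` has `q` elements -/
theorem ptk_card_k_Qq : Nat.card (ptl_O q ℚ_[q] ⧸ maximalIdeal (ptl_O q ℚ_[q])) = q := by
  have e := (Ideal.quotEquivOfEq (ptk_ker_toZMod q).symm).trans
    (RingHom.quotientKerEquivOfSurjective (ptk_toZMod_surjective q))
  rw [Nat.card_congr e.toEquiv, Nat.card_zmod]

theorem ptk_maximalIdeal_Qq :
    maximalIdeal (ptl_O q ℚ_[q]) = Ideal.span {((q : ℕ) : ptl_O q ℚ_[q])} := by
  have hq0 : ((q : ℕ) : ptl_O q ℚ_[q]) ≠ 0 := by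
    have : ((q : ℕ) : ℚ_[q]) ≠ 0 := by exact_mod_cast hq.out.ne_zero
    intro h
    apply this
    have := congrArg (fun z : ptl_O q ℚ_[q] => (z : ℚ_[q])) h
    simpa using this
  ext x
  rw [ptl_mem_maximalIdeal, Ideal.mem_span_singleton, ptl_dvd_iff q ℚ_[q] hq0]
  have h1 : (((q : ℕ) : ptl_O q ℚ_[q]) : ℚ_[q]) = (q : ℚ_[q]) := by simp
  rw [h1, ptl_abs_q, ptk_abs_Qq]
  have h2 := Padic.norm_le_pow_iff_norm_lt_pow_add_one (x : ℚ_[q]) (-1)
  simp only [Int.reduceNeg, zpow_neg, zpow_one, neg_add_cancel, zpow_zero] at h2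
  exact h2.symm

end Base

section General

variable (K : Type*) [Field K] [Algebra ℚ_[q] K] [FiniteDimensional ℚ_[q] K]

/-- `#(O_K / q O_K) = q ^ [K : ℚ_q]` -/
theorem ptk_card_quot_q :
    Nat.card (ptl_O q K ⧸ Ideal.span {((q : ℕ) : ptl_O q K)}) = q ^ Module.finrank ℚ_[q] K := by
  let _ := Ideal.Quotient.field (maximalIdeal (ptl_O q ℚ_[q]))
  have hmap : Ideal.map (algebraMap (ptl_O q ℚ_[q]) (ptl_O q K)) (maximalIdeal (ptl_O q ℚ_[q])) =
      Ideal.span {((q : ℕ) : ptl_O q K)} := by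
    rw [ptk_maximalIdeal_Qq, Ideal.map_span, Set.image_singleton, map_natCast]
  have h1 := IsLocalRing.finrank_quotient_map (R := ptl_O q ℚ_[q]) (S := ptl_O q K)
  rw [ptl_finrank_O q ℚ_[q] K] at h1
  have h2 := Module.natCard_eq_pow_finrank
    (K := ptl_O q ℚ_[q] ⧸ maximalIdeal (ptl_O q ℚ_[q]))
    (V := ptl_O q K ⧸ Ideal.map (algebraMap (ptl_O q ℚ_[q]) (ptl_O q K))
      (maximalIdeal (ptl_O q ℚ_[q])))
  rw [h1, ptk_card_k_Qq] at h2
  rw [← hmap]
  exact h2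

/-- `#(O_K / p O_K) = 1` for `p ≠ q` -/
theorem ptk_card_quot_of_ne {p : ℕ} (hp : p.Prime) (hpq : p ≠ q) :
    Nat.card (ptl_O q K ⧸ Ideal.span {((p : ℕ) : ptl_O q K)}) = 1 := by
  have hcop : Nat.Coprime p q := (Nat.coprime_primes hp hq.out).mpr hpq
  have hunit : IsUnit ((p : ℕ) : ptl_O q K) := by
    rw [ptl_isUnit_iff]
    have : (((p : ℕ) : ptl_O q K) : K) = (p : K) := by simp
    rw [this]
    exact ptl_abs_natCast_of_coprime q hcop
  rw [Ideal.span_singleton_eq_top.mpr hunit]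
  have : Subsingleton (ptl_O q K ⧸ (⊤ : Ideal (ptl_O q K))) := Ideal.Quotient.subsingleton_iff.mpr rfl
  exact Nat.card_unique

end General

end Fermat.Agent.Lib.PT
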