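/-
K4 in the model, local part C: for a finite extension `K/ℚ_q` containing a primitive `p`-th root
of unity: `[Kˣ : Kˣᵖ] = p · p · #(O_K/p)`, `[O_Kˣ : O_Kˣᵖ] = p · #(O_K/p)`, and Hensel
(`1 + 𝔪 ⊆ O_Kˣᵖ` for `p ≠ q`).
-/
import Fermat.Agent.Lib.PT.GPlaceLocB

set_option autoImplicit false
set_option linter.unusedSectionVars false

namespace Fermat.Agent.Lib.PT

open IsLocalRing

variable (q : ℕ) [hq : Fact q.Prime]
variable (K : Type*) [Field K] [Algebra ℚ_[q] K] [FiniteDimensional ℚ_[q] K]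

instance ptk_charZero_O : CharZero (ptl_O q K) := by
  have : CharZero K := ptl_charZero q K
  refine ⟨fun m n h => ?_⟩
  have h' := congrArg (fun z : ptl_O q K => (z : K)) h
  beta_reduce at h'
  have h1 : (((m : ℕ) : ptl_O q K) : K) = (m : K) := by simp
  have h2 : (((n : ℕ) : ptl_O q K) : K) = (n : K) := by simp
  rw [h1, h2] at h'
  exact_mod_cast h'

variable {K}

theorem ptk_abs_eq_one_of_pow_eq_one {x : K} {n : ℕ} (hn : n ≠ 0) (hx : x ^ n = 1) :
    ptl_abs q K x = 1 := by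
  have h1 : ptl_abs q K x ^ n = 1 := by rw [← map_pow, hx, map_one]
  exact (pow_eq_one_iff_of_nonneg ((ptl_abs q K).nonneg x) hn).mp h1

variable (K)

theorem ptk_card_rootsOfUnity_O {p : ℕ} (hp : p.Prime) {ζ : K} (hζ : IsPrimitiveRoot ζ p) :
    Nat.card (rootsOfUnity p (ptl_O q K)) = p := by
  have : NeZero p := ⟨hp.ne_zero⟩
  have hζO : ζ ∈ ptl_O q K := by
    rw [ptl_mem_O, ptk_abs_eq_one_of_pow_eq_one q hp.ne_zero hζ.pow_eq_one]
  have hprim : IsPrimitiveRoot (⟨ζ, hζO⟩ : ptl_O q K) p := by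
    refine IsPrimitiveRoot.of_map_of_injective (f := (ptl_O q K).subtype) ?_ Subtype.val_injective
    exact hζ
  exact hprim.card_rootsOfUnity

/-- `[Kˣ : Kˣᵖ] = p · (p · #(O_K/p))` -/
theorem ptk_index_pow_local {p : ℕ} (hp : p.Prime) {ζ : K} (hζ : IsPrimitiveRoot ζ p) :
    (powMonoidHom p : Kˣ →* Kˣ).range.index =
      p * (p * Nat.card (ptl_O q K ⧸ Ideal.span {((p : ℕ) : ptl_O q K)})) := by
  rw [cfh_index_pow_field (R := ptl_O q K) K hp, ptk_card_rootsOfUnity_O q K hp hζ]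

/-- `[O_Kˣ : O_Kˣᵖ] = p · #(O_K/p)` -/
theorem ptk_index_pow_local_units {p : ℕ} (hp : p.Prime) {ζ : K} (hζ : IsPrimitiveRoot ζ p) :
    (powMonoidHom p : (ptl_O q K)ˣ →* (ptl_O q K)ˣ).range.index =
      p * Nat.card (ptl_O q K ⧸ Ideal.span {((p : ℕ) : ptl_O q K)}) := by
  rw [cfh_index_pow_units (R := ptl_O q K) hp, ptk_card_rootsOfUnity_O q K hp hζ]

/-- Hensel: for `p ≠ q` every `x ∈ K` with `|x - 1| < 1` is a `p`-th power (of a unit). -/
theorem ptk_hensel_pow {p : ℕ} (hp : p.Prime) (hpq : p ≠ q) {x : K}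
    (hx : ptl_abs q K (x - 1) < 1) : ∃ w : K, ptl_abs q K w = 1 ∧ w ^ p = x := by
  have hcop : Nat.Coprime p q := (Nat.coprime_primes hp hq.out).mpr hpq
  have hx1 : ptl_abs q K x = 1 := by
    have h := ptl_abs_eq_of_sub_lt q (x := (1 : K)) (y := x) (by
      rw [map_one, ← ptl_abs_neg, neg_sub]; exact hx)
    rw [h, map_one]
  have hxO : x ∈ ptl_O q K := by rw [ptl_mem_O, hx1]
  have hxu : IsUnit (⟨x, hxO⟩ : ptl_O q K) := by rw [ptl_isUnit_iff]; exact hx1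
  have hpu : IsUnit ((p : ℕ) : ptl_O q K) := by
    rw [ptl_isUnit_iff]
    have : (((p : ℕ) : ptl_O q K) : K) = (p : K) := by simp
    rw [this]
    exact ptl_abs_natCast_of_coprime q hcop
  obtain ⟨ϖ, hϖ⟩ := IsDiscreteValuationRing.exists_irreducible (ptl_O q K)
  have hpe : ((p : ℕ) : ptl_O q K) = (hpu.unit : ptl_O q K) * ϖ ^ 0 := by
    rw [pow_zero, mul_one, IsUnit.unit_spec]
  have hle := cfh_U_le_range_pow_of_eq (R := ptl_O q K) hp hϖ hpe
  have hmem : hxu.unit ∈ cfh_U (maximalIdeal (ptl_O q K) ^ (0 + 1 + 0)) := by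
    rw [cfh_mem_U, IsUnit.unit_spec, zero_add, add_zero, pow_one, ptl_mem_maximalIdeal]
    exact hx
  obtain ⟨w, hw⟩ := hle hmem
  refine ⟨((w : ptl_O q K) : K), (ptl_isUnit_iff q _).mp w.isUnit, ?_⟩
  have h2 := congrArg (fun u : (ptl_O q K)ˣ => ((u : ptl_O q K) : K)) hw
  simpa using h2

end Fermat.Agent.Lib.PT
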