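/-
K4 in the model, local part D: the local groups `K_σˣ = ptj_KσU σ` of the embedding model:
unit subgroup, index of `p`-th powers, unit index, Hensel.
-/
import Fermat.Agent.Lib.PT.GPlaceLocC
import Fermat.Agent.Lib.PT.GPlaceClC
import Fermat.Agent.Lib.PT.GModUnrA

set_option autoImplicit false
set_option linter.unusedSectionVars false

noncomputable section

namespace Fermat.Agent.Lib.PT

open IsDedekindDomain NumberField

variable {K : Type*} [Field K] [NumberField K] {q : Nat.Primes}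

/-- density of `σ K` in `K_σ` -/
theorem ptk_exists_approx_Kσ (σ : ptj_Emb K q) {a : ptj_Om q} (ha : a ∈ ptj_Kσ σ) {ε : ℝ}
    (hε : 0 < ε) : ∃ y : K, ‖a - σ y‖ < ε := by
  have hspan : a ∈ Submodule.span ℚ_[(q : ℕ)] (Set.range σ) := by
    have h := ptg_locEmb_toSubmodule (q : ℕ) σ
    have h2 : a ∈ (ptg_locEmb (q : ℕ) σ).toSubalgebra.toSubmodule := ha
    rwa [h] at h2
  exact ptk_exists_approx σ hspan hε

/-- the local units inside `K_σˣ` -/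
def ptk_OσU (σ : ptj_Emb K q) : Subgroup (ptj_KσU σ) where
  carrier := {a | ‖((a : (ptj_Om q)ˣ) : ptj_Om q)‖ = 1}
  one_mem' := by simp
  mul_mem' := fun {a b} ha hb => by
    simp only [Set.mem_ofPred_eq] at ha hb ⊢
    rw [Subgroup.coe_mul, Units.val_mul, norm_mul, ha, hb, mul_one]
  inv_mem' := fun {a} ha => by
    simp only [Set.mem_ofPred_eq] at ha ⊢
    rw [Subgroup.coe_inv, Units.val_inv_eq_inv_val, norm_inv, ha, inv_one]

theorem ptk_mem_OσU (σ : ptj_Emb K q) (a : ptj_KσU σ) :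
    a ∈ ptk_OσU σ ↔ ‖((a : (ptj_Om q)ˣ) : ptj_Om q)‖ = 1 := Iff.rfl

theorem ptk_abs_Kσ (σ : ptj_Emb K q) (x : ↥(ptj_Kσ σ)) :
    ptl_abs (q : ℕ) ↥(ptj_Kσ σ) x = ‖(x : ptj_Om q)‖ :=
  ptl_abs_intermediateField (q : ℕ) (ptj_Kσ σ) x

/-- `[K_σˣ : K_σˣᵖ] = p · p · #(O/p)` -/
theorem ptk_index_lpows_KσU (σ : ptj_Emb K q) {p : ℕ} (hp : p.Prime) {ζ : K}
    (hζ : IsPrimitiveRoot ζ p) :
    (powMonoidHom p : ptj_KσU σ →* ptj_KσU σ).range.index =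
      p * (p * Nat.card (ptl_O (q : ℕ) ↥(ptj_Kσ σ) ⧸
        Ideal.span {((p : ℕ) : ptl_O (q : ℕ) ↥(ptj_Kσ σ))})) := by
  rw [← cfh_index_range_pow_equiv (ptj_KσUEquiv σ) p]
  have h1 : IsPrimitiveRoot (σ ζ) p := hζ.map_of_injective σ.injective
  have h2 : IsPrimitiveRoot (⟨σ ζ, ptj_apply_mem_Kσ σ ζ⟩ : ↥(ptj_Kσ σ)) p :=
    IsPrimitiveRoot.of_map_of_injective (f := (ptj_Kσ σ).val) h1 Subtype.val_injective
  exact ptk_index_pow_local (q : ℕ) ↥(ptj_Kσ σ) hp h2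

/-- the inclusion of the units of the ring of integers of `K_σ` into `K_σˣ` -/
def ptk_unitsToKσU (σ : ptj_Emb K q) : (ptl_O (q : ℕ) ↥(ptj_Kσ σ))ˣ →* ptj_KσU σ :=
  (ptj_KσUEquiv σ).toMonoidHom.comp
    (Units.map ((ptl_O (q : ℕ) ↥(ptj_Kσ σ)).subtype :
      ptl_O (q : ℕ) ↥(ptj_Kσ σ) →* ↥(ptj_Kσ σ)))

theorem ptk_unitsToKσU_coe (σ : ptj_Emb K q) (u : (ptl_O (q : ℕ) ↥(ptj_Kσ σ))ˣ) :
    (((ptk_unitsToKσU σ u : ptj_KσU σ) : (ptj_Om q)ˣ) : ptj_Om q) =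
      (((u : ptl_O (q : ℕ) ↥(ptj_Kσ σ)) : ↥(ptj_Kσ σ)) : ptj_Om q) := rfl

theorem ptk_unitsToKσU_injective (σ : ptj_Emb K q) : Function.Injective (ptk_unitsToKσU σ) := by
  intro u w h
  have h1 := congrArg (fun a : ptj_KσU σ => (((a : (ptj_Om q)ˣ) : ptj_Om q))) h
  simp only [ptk_unitsToKσU_coe] at h1
  exact Units.ext (Subtype.ext (Subtype.ext h1))

theorem ptk_range_unitsToKσU (σ : ptj_Emb K q) : (ptk_unitsToKσU σ).range = ptk_OσU σ := by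
  ext a
  constructor
  · rintro ⟨u, rfl⟩
    rw [ptk_mem_OσU, ptk_unitsToKσU_coe, ← ptk_abs_Kσ]
    exact (ptl_isUnit_iff (q : ℕ) _).mp u.isUnit
  · intro ha
    rw [ptk_mem_OσU] at ha
    set x : ↥(ptj_Kσ σ) := ⟨((a : (ptj_Om q)ˣ) : ptj_Om q), a.2⟩ with hx
    have hx1 : ptl_abs (q : ℕ) ↥(ptj_Kσ σ) x = 1 := by rw [ptk_abs_Kσ]; exact ha
    have hxO : x ∈ ptl_O (q : ℕ) ↥(ptj_Kσ σ) := by rw [ptl_mem_O, hx1]
    have hu : IsUnit (⟨x, hxO⟩ : ptl_O (q : ℕ) ↥(ptj_Kσ σ)) := by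
      rw [ptl_isUnit_iff]; exact hx1
    refine ⟨hu.unit, ?_⟩
    apply Subtype.ext
    apply Units.ext
    rw [ptk_unitsToKσU_coe, IsUnit.unit_spec]

/-- `[O_σˣ : O_σˣ ∩ K_σˣᵖ] ∣ p` for `p ≠ q` -/
theorem ptk_unit_relIndex (σ : ptj_Emb K q) {p : ℕ} (hp : p.Prime) (hpq : p ≠ (q : ℕ)) {ζ : K}
    (hζ : IsPrimitiveRoot ζ p) :
    ((powMonoidHom p : ptj_KσU σ →* ptj_KσU σ).range ⊓ ptk_OσU σ).relIndex (ptk_OσU σ) = p := by
  have h1 : IsPrimitiveRoot (σ ζ) p := hζ.map_of_injective σ.injective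
  have h2 : IsPrimitiveRoot (⟨σ ζ, ptj_apply_mem_Kσ σ ζ⟩ : ↥(ptj_Kσ σ)) p :=
    IsPrimitiveRoot.of_map_of_injective (f := (ptj_Kσ σ).val) h1 Subtype.val_injective
  have hidx := ptk_index_pow_local_units (q : ℕ) ↥(ptj_Kσ σ) hp h2
  rw [ptk_card_quot_of_ne (q : ℕ) ↥(ptj_Kσ σ) hp hpq, mul_one] at hidx
  set f := ptk_unitsToKσU σ with hf
  have hmap : Subgroup.map f (powMonoidHom p : (ptl_O (q : ℕ) ↥(ptj_Kσ σ))ˣ →* _).range =
      (powMonoidHom p : ptj_KσU σ →* ptj_KσU σ).range ⊓ ptk_OσU σ := by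
    ext b
    rw [Subgroup.mem_map, Subgroup.mem_inf]
    constructor
    · rintro ⟨u, ⟨w, rfl⟩, rfl⟩
      refine ⟨⟨f w, ?_⟩, ?_⟩
      · rw [powMonoidHom_apply, powMonoidHom_apply, map_pow]
      · rw [← ptk_range_unitsToKσU]; exact ⟨_, rfl⟩
    · rintro ⟨⟨c, rfl⟩, hc⟩
      rw [powMonoidHom_apply, ptk_mem_OσU] at hc
      have hc1 : ‖((c : (ptj_Om q)ˣ) : ptj_Om q)‖ = 1 := by
        have h3 : ‖((c : (ptj_Om q)ˣ) : ptj_Om q)‖ ^ p = 1 := by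
          rw [← norm_pow]
          simpa using hc
        exact (pow_eq_one_iff_of_nonneg (norm_nonneg _) hp.ne_zero).mp h3
      have hcO : c ∈ (ptk_unitsToKσU σ).range := by
        rw [ptk_range_unitsToKσU]; exact hc1
      obtain ⟨w, rfl⟩ := hcO
      exact ⟨w ^ p, ⟨w, rfl⟩, by rw [map_pow, powMonoidHom_apply]⟩
  have htop : Subgroup.map f ⊤ = ptk_OσU σ := by
    rw [← MonoidHom.range_eq_map, ptk_range_unitsToKσU]
  rw [← hmap, ← htop, Subgroup.relIndex_map_map_of_injective _ _ (ptk_unitsToKσU_injective σ),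
    Subgroup.relIndex_top_right, hidx]

/-- Hensel in the model -/
theorem ptk_hensel_model (σ : ptj_Emb K q) {p : ℕ} (hp : p.Prime) (hpq : p ≠ (q : ℕ)) (x : Kˣ)
    (hx : ‖σ (x : K)‖ = 1) :
    (∃ z : K, ‖σ ((x : K) - z ^ p)‖ < 1) ↔
      ptj_evalAt σ (ptj_diag K x) ∈ (powMonoidHom p : ptj_KσU σ →* ptj_KσU σ).range := by
  constructor
  · rintro ⟨z, hz⟩
    rw [map_sub, map_pow] at hz
    have hzp : ‖(σ z) ^ p‖ = 1 := by
      rw [← hx]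
      exact ptk_norm_eq_of_sub_lt (by rw [hx]; exact hz)
    have hz1 : ‖σ z‖ = 1 := by
      rw [norm_pow] at hzp
      exact (pow_eq_one_iff_of_nonneg (norm_nonneg _) hp.ne_zero).mp hzp
    have hz0 : σ z ≠ 0 := by
      intro h
      rw [h, norm_zero] at hz1
      exact zero_ne_one hz1
    set X : ↥(ptj_Kσ σ) := ⟨σ (x : K), ptj_apply_mem_Kσ σ x⟩ with hX
    set Z : ↥(ptj_Kσ σ) := ⟨σ z, ptj_apply_mem_Kσ σ z⟩ with hZ
    have hZ0 : Z ≠ 0 := fun h => hz0 (congrArg Subtype.val h)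
    have ht : ptl_abs (q : ℕ) ↥(ptj_Kσ σ) (X / Z ^ p - 1) < 1 := by
      have e : X / Z ^ p - 1 = (X - Z ^ p) / Z ^ p := by
        field_simp
      rw [e, map_div₀, ptk_abs_Kσ, ptk_abs_Kσ]
      have e2 : ((Z ^ p : ↥(ptj_Kσ σ)) : ptj_Om q) = (σ z) ^ p := rfl
      have e3 : ((X - Z ^ p : ↥(ptj_Kσ σ)) : ptj_Om q) = σ (x : K) - (σ z) ^ p := rfl
      rw [e2, e3, hzp, div_one]
      exact hz
    obtain ⟨w, hw1, hw⟩ := ptk_hensel_pow (q : ℕ) ↥(ptj_Kσ σ) hp hpq ht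
    have hwZ0 : w * Z ≠ 0 := by
      refine mul_ne_zero ?_ hZ0
      intro h
      rw [h, map_zero] at hw1
      exact zero_ne_one hw1
    refine ⟨ptj_KσUEquiv σ (Units.mk0 (w * Z) hwZ0), ?_⟩
    apply Subtype.ext
    apply Units.ext
    rw [powMonoidHom_apply]
    have e4 : (((ptj_evalAt σ (ptj_diag K x) : ptj_KσU σ) : (ptj_Om q)ˣ) : ptj_Om q) =
        σ (x : K) := rfl
    rw [e4, Subgroup.coe_pow, Units.val_pow_eq_pow_val, ptj_KσUEquiv_coe, Units.val_mk0]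
    have e5 : (w * Z) ^ p = X := by
      rw [mul_pow, hw, div_mul_cancel₀ _ (pow_ne_zero p hZ0)]
    exact congrArg Subtype.val e5
  · rintro ⟨b, hb⟩
    have hb' : ((b : (ptj_Om q)ˣ) : ptj_Om q) ^ p = σ (x : K) := by
      have := congrArg (fun a : ptj_KσU σ => (((a : (ptj_Om q)ˣ) : ptj_Om q))) hb
      simpa using this
    have hb1 : ‖((b : (ptj_Om q)ˣ) : ptj_Om q)‖ = 1 := by
      have h3 : ‖((b : (ptj_Om q)ˣ) : ptj_Om q)‖ ^ p = 1 := by rw [← norm_pow, hb', hx]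
      exact (pow_eq_one_iff_of_nonneg (norm_nonneg _) hp.ne_zero).mp h3
    obtain ⟨y, hy⟩ := ptk_exists_approx_Kσ σ (a := ((b : (ptj_Om q)ˣ) : ptj_Om q)) b.2
      zero_lt_one
    refine ⟨y, ?_⟩
    rw [map_sub, map_pow, ← hb']
    set B : ptj_Om q := ((b : (ptj_Om q)ˣ) : ptj_Om q) with hB
    have hy1 : ‖σ y‖ = 1 := by
      rw [← hb1]; exact ptk_norm_eq_of_sub_lt (by rw [hb1]; exact hy)
    have hgeom := (Commute.all B (σ y)).geom_sum₂_mul p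
    rw [← hgeom, norm_mul]
    have hsum : ‖∑ i ∈ Finset.range p, B ^ i * σ y ^ (p - 1 - i)‖ ≤ 1 := by
      refine IsUltrametricDist.norm_sum_le_of_forall_le_of_nonneg zero_le_one ?_
      intro i _
      rw [norm_mul, norm_pow, norm_pow, hb1, hy1, one_pow, one_pow, one_mul]
    calc ‖∑ i ∈ Finset.range p, B ^ i * σ y ^ (p - 1 - i)‖ * ‖B - σ y‖
        ≤ 1 * ‖B - σ y‖ := mul_le_mul_of_nonneg_right hsum (norm_nonneg _)
      _ < 1 := by rw [one_mul]; exact hy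

end Fermat.Agent.Lib.PT

end
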