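/-
K4 in the model, part E: the embedding model of the ideles satisfies the local axioms
`ptk_PlaceAxioms` of the abstract second inequality.
-/
import Fermat.Agent.Lib.PT.GPlaceLocD
import Fermat.Agent.Lib.PT.SecondAbsDefs
import Fermat.Agent.Lib.PT.GModDescent

set_option autoImplicit false
set_option linter.unusedSectionVars false

noncomputable section

namespace Fermat.Agent.Lib.PT

open IsDedekindDomain NumberField Fermat.Agent.Lib.CFT

variable {K : Type*} [Field K] [NumberField K]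

theorem ptk_below_mem (v : HeightOneSpectrum (𝓞 K)) :
    (((ptk_below v : Nat.Primes) : ℕ) : 𝓞 K) ∈ v.asIdeal := by
  have hlo := cfi_below_liesOver K v
  have h1 : ((cfi_below K v : ℕ) : ℤ) ∈ Ideal.under ℤ v.asIdeal := by
    rw [← hlo.over]
    exact Ideal.mem_span_singleton_self _
  rw [Ideal.under_def, Ideal.mem_comap] at h1
  have h2 : (((ptk_below v : Nat.Primes) : ℕ) : 𝓞 K) = algebraMap ℤ (𝓞 K) ((cfi_below K v : ℕ) : ℤ) := by
    simp [ptk_below]
  rw [h2]
  exact h1

/-- a chosen `q`-adic embedding inducing the prime `v` -/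
def ptk_sig (v : HeightOneSpectrum (𝓞 K)) : ptj_Emb K (ptk_below v) :=
  Classical.choose (cfh_exists_primeOf_eq (ptk_below v) v (ptk_below_mem v))

theorem ptk_primeOf_sig (v : HeightOneSpectrum (𝓞 K)) : cfh_primeOf (ptk_sig v) = v :=
  Classical.choose_spec (cfh_exists_primeOf_eq (ptk_below v) v (ptk_below_mem v))

variable (K) in
/-- the local groups `K_vˣ` of the model -/
abbrev ptk_G (v : HeightOneSpectrum (𝓞 K)) : Type := ↥(ptj_KσU (ptk_sig v))

variable (K) in
/-- the local unit groups of the model -/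
abbrev ptk_O (v : HeightOneSpectrum (𝓞 K)) : Subgroup (ptk_G K v) := ptk_OσU (ptk_sig v)

variable (K) in
/-- the local evaluations of the model -/
abbrev ptk_ev (v : HeightOneSpectrum (𝓞 K)) : ptj_J K →* ptk_G K v := ptj_evalAt (ptk_sig v)

variable (K) in
/-- the local inclusions of the model -/
abbrev ptk_loc (v : HeightOneSpectrum (𝓞 K)) : ptk_G K v →* ptj_J K := ptj_locIncl (ptk_sig v)

theorem ptk_evalAt_locIncl_of_ne {q q' : Nat.Primes} (σ : ptj_Emb K q) (σ' : ptj_Emb K q')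
    (h : cfh_primeOf σ' ≠ cfh_primeOf σ) (a : ptj_KσU σ) :
    ptj_evalAt σ' (ptj_locIncl σ a) = 1 := by
  apply Subtype.ext
  rw [ptj_evalAt_coe]
  by_cases hq : q' = q
  · subst hq
    rw [ptj_locIncl_apply_self, ptj_locFun_of_not]
    · rfl
    · rintro ⟨τ, rfl⟩
      exact h (cfh_primeOf_post τ σ)
  · rw [ptj_locIncl_apply_of_ne σ a hq]
    rfl

theorem ptk_evalAt_diag {q : Nat.Primes} (σ : ptj_Emb K q) (x : Kˣ) :
    (((ptj_evalAt σ (ptj_diag K x) : ptj_KσU σ) : (ptj_Om q)ˣ) : ptj_Om q) = σ (x : K) := rfl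

theorem ptk_ne_below_of_notMem {p : ℕ} {v : HeightOneSpectrum (𝓞 K)}
    (hv : (p : 𝓞 K) ∉ v.asIdeal) : p ≠ ((ptk_below v : Nat.Primes) : ℕ) := by
  intro h
  apply hv
  rw [h]
  exact ptk_below_mem v

/-- **the embedding model satisfies the local axioms** -/
theorem ptk_placeAxioms_model {p : ℕ} (hp : p.Prime) {ζ : K} (hζ : IsPrimitiveRoot ζ p) :
    ptk_PlaceAxioms (G := ptk_G K) (ptj_diag K) (ptk_O K) (ptk_ev K) p (ptk_loc K) where
  ev_loc v x := ptj_evalAt_locIncl (ptk_sig v) x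
  ev_loc_ne v w hwv x := by
    apply ptk_evalAt_locIncl_of_ne
    rw [ptk_primeOf_sig, ptk_primeOf_sig]
    exact hwv
  diag_inj := ptj_diag_injective
  unit_iff v x := by
    rw [ptk_mem_OσU, ptk_evalAt_diag, cfh_norm_eq_one_iff, ptk_primeOf_sig]
  hensel v hv x hx := by
    have hx1 : ‖(ptk_sig v) (x : K)‖ = 1 := by
      rw [cfh_norm_eq_one_iff, ptk_primeOf_sig]; exact hx
    rw [← ptk_hensel_model (ptk_sig v) hp (ptk_ne_below_of_notMem hv) x hx1]
    unfold ptk_PowMod
    refine exists_congr fun z => ?_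
    rw [cfh_norm_lt_one_iff, ptk_primeOf_sig]
  unit_index v hv := by
    rw [ptk_unit_relIndex (ptk_sig v) hp (ptk_ne_below_of_notMem hv) hζ]

end Fermat.Agent.Lib.PT

end
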