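/-
K4 in the model, part F: sum of the local degrees over a rational prime `= [K : ℚ]`, the local
`p`-power indices in the model, and `[K : ℚ] = 2 (rank + 1)` for `K ∋ ζ_p`, `p` odd.
-/
import Fermat.Agent.Lib.PT.GPlaceLocE

set_option autoImplicit false
set_option linter.unusedSectionVars false

noncomputable section

namespace Fermat.Agent.Lib.PT

open IsDedekindDomain NumberField Fermat.Agent.Lib.CFT

variable {K : Type*} [Field K] [NumberField K]

section Orbits

variable {q : Nat.Primes}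

/-- `G_q` acts on the `q`-adic embeddings by postcomposition -/
@[instance_reducible]
def ptk_postAction : MulAction (ptj_Gq q) (ptj_Emb K q) where
  smul := ptj_post
  one_smul := ptj_post_one
  mul_smul := ptj_post_mul

/-- the local degree is the number of embeddings inducing the same prime -/
theorem ptk_finrank_Kσ (σ : ptj_Emb K q) :
    Module.finrank ℚ_[(q : ℕ)] ↥(ptj_Kσ σ) =
      Nat.card {σ' : ptj_Emb K q // cfh_primeOf σ' = cfh_primeOf σ} := by
  let _ := ptk_postAction (K := K) (q := q)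
  rw [IntermediateField.finrank_eq_fixingSubgroup_index]
  have hstab : MulAction.stabilizer (ptj_Gq q) σ = (ptj_Kσ σ).fixingSubgroup := by
    ext τ
    rw [MulAction.mem_stabilizer_iff]
    exact ptj_post_eq_iff τ σ
  rw [← hstab, MulAction.index_stabilizer, ← Nat.card_coe_set_eq]
  apply Nat.card_congr
  refine Equiv.subtypeEquivRight (fun σ' => ?_)
  rw [MulAction.mem_orbit_iff, cfh_primeOf_eq_iff]
  rfl

variable (q) in
/-- the fibres of `σ ↦ cfh_primeOf σ` partition the embeddings -/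
theorem ptk_sum_card_fibres (S : Finset (HeightOneSpectrum (𝓞 K)))
    (hS : ∀ v : HeightOneSpectrum (𝓞 K), ptk_below v = q → v ∈ S) :
    ∑ v ∈ S, Nat.card {σ' : ptj_Emb K q // cfh_primeOf σ' = v} = Module.finrank ℚ K := by
  classical
  rw [← NumberField.Embeddings.card K (ptj_Om q), ← Finset.card_univ,
    Finset.card_eq_sum_card_fiberwise (f := fun σ' : ptj_Emb K q => cfh_primeOf σ')
      (s := Finset.univ) (t := S) (fun σ' _ => hS _ (ptk_below_primeOf σ'))]
  refine Finset.sum_congr rfl fun v _ => ?_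
  rw [Nat.card_eq_fintype_card, Fintype.card_subtype]

end Orbits

/-- the local degree of a prime `v` -/
def ptk_locDeg (v : HeightOneSpectrum (𝓞 K)) : ℕ :=
  Module.finrank ℚ_[((ptk_below v : Nat.Primes) : ℕ)] ↥(ptj_Kσ (ptk_sig v))

theorem ptk_card_fibre_congr {q q' : Nat.Primes} (h : q' = q) (v : HeightOneSpectrum (𝓞 K)) :
    Nat.card {σ' : ptj_Emb K q' // cfh_primeOf σ' = v} =
      Nat.card {σ' : ptj_Emb K q // cfh_primeOf σ' = v} := by
  subst h; rfl

theorem ptk_locDeg_eq (v : HeightOneSpectrum (𝓞 K)) :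
    ptk_locDeg v = Nat.card {σ' : ptj_Emb K (ptk_below v) // cfh_primeOf σ' = v} := by
  rw [ptk_locDeg, ptk_finrank_Kσ, ptk_primeOf_sig]

/-- `∑_{v | q} [K_v : ℚ_q] = [K : ℚ]` -/
theorem ptk_sum_locDeg (q : Nat.Primes) (S : Finset (HeightOneSpectrum (𝓞 K)))
    (hS : ∀ v : HeightOneSpectrum (𝓞 K), v ∈ S ↔ ptk_below v = q) :
    ∑ v ∈ S, ptk_locDeg v = Module.finrank ℚ K := by
  rw [← ptk_sum_card_fibres q S (fun v hv => (hS v).mpr hv)]
  refine Finset.sum_congr rfl fun v hv => ?_
  rw [ptk_locDeg_eq, ptk_card_fibre_congr ((hS v).mp hv) v]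

/-- the primes of `K` over a finite set of rational primes -/
theorem ptk_finite_over (T : Finset Nat.Primes) :
    {v : HeightOneSpectrum (𝓞 K) | ptk_below v ∈ T}.Finite := by
  classical
  have hsub : {v : HeightOneSpectrum (𝓞 K) | ptk_below v ∈ T} ⊆
      ⋃ q ∈ T, {v : HeightOneSpectrum (𝓞 K) |
        v.asIdeal ∣ Ideal.span {(((q : Nat.Primes) : ℕ) : 𝓞 K)}} := by
    intro v hv
    simp only [Set.mem_iUnion, Set.mem_ofPred_eq]
    refine ⟨ptk_below v, hv, ?_⟩
    rw [Ideal.dvd_span_singleton]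
    exact ptk_below_mem v
  refine Set.Finite.subset (Set.Finite.biUnion T.finite_toSet fun q _ => ?_) hsub
  apply Ideal.finite_factors
  rw [Ne, Ideal.zero_eq_bot, Ideal.span_singleton_eq_bot]
  exact_mod_cast q.2.ne_zero

/-- the primes of `K` over a finite set of rational primes, as a finset -/
def ptk_over (K : Type*) [Field K] [NumberField K] (T : Finset Nat.Primes) :
    Finset (HeightOneSpectrum (𝓞 K)) := (ptk_finite_over (K := K) T).toFinset

theorem ptk_mem_over {T : Finset Nat.Primes} {v : HeightOneSpectrum (𝓞 K)} :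
    v ∈ ptk_over K T ↔ ptk_below v ∈ T := by
  rw [ptk_over, Set.Finite.mem_toFinset]
  rfl

/-- the local index of `p`-th powers in the model -/
theorem ptk_index_lpows_model {p : ℕ} (hp : p.Prime) {ζ : K} (hζ : IsPrimitiveRoot ζ p)
    (v : HeightOneSpectrum (𝓞 K)) :
    (ptk_lpows (ptk_G K) p v).index =
      p ^ 2 * (if ((ptk_below v : Nat.Primes) : ℕ) = p then p ^ ptk_locDeg v else 1) := by
  rw [ptk_lpows, ptk_index_lpows_KσU (ptk_sig v) hp hζ]
  split_ifs with h
  · have h1 := ptk_card_quot_q ((ptk_below v : Nat.Primes) : ℕ) ↥(ptj_Kσ (ptk_sig v))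
    have h2 : Nat.card (ptl_O ((ptk_below v : Nat.Primes) : ℕ) ↥(ptj_Kσ (ptk_sig v)) ⧸
        Ideal.span {((p : ℕ) : ptl_O ((ptk_below v : Nat.Primes) : ℕ) ↥(ptj_Kσ (ptk_sig v)))}) =
        p ^ ptk_locDeg v := by
      rw [ptk_locDeg]
      have key : ∀ p' : ℕ, ((ptk_below v : Nat.Primes) : ℕ) = p' →
          Nat.card (ptl_O ((ptk_below v : Nat.Primes) : ℕ) ↥(ptj_Kσ (ptk_sig v)) ⧸
            Ideal.span {((p' : ℕ) :
              ptl_O ((ptk_below v : Nat.Primes) : ℕ) ↥(ptj_Kσ (ptk_sig v)))}) =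
          p' ^ Module.finrank ℚ_[((ptk_below v : Nat.Primes) : ℕ)] ↥(ptj_Kσ (ptk_sig v)) := by
        intro p' hp'
        subst hp'
        exact h1
      exact key p h
    rw [h2]; ring
  · rw [ptk_card_quot_of_ne _ _ hp (fun h' => h h'.symm)]; ring

/-- `∏_{v ∈ S} [K_vˣ : K_vˣᵖ] = p ^ (2 #S + [K : ℚ])` when `S` is the set of primes over `T ∋ p` -/
theorem ptk_prod_index_lpows {p : ℕ} (hp : p.Prime) {ζ : K} (hζ : IsPrimitiveRoot ζ p)
    (T : Finset Nat.Primes) (hpT : (⟨p, hp⟩ : Nat.Primes) ∈ T) :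
    ∏ v ∈ ptk_over K T, (ptk_lpows (ptk_G K) p v).index =
      p ^ (2 * (ptk_over K T).card + Module.finrank ℚ K) := by
  classical
  simp_rw [ptk_index_lpows_model hp hζ]
  rw [Finset.prod_mul_distrib, Finset.prod_const, ← pow_mul, pow_add]
  congr 1
  rw [← Finset.prod_filter, Finset.prod_pow_eq_pow_sum]
  congr 1
  apply ptk_sum_locDeg ⟨p, hp⟩
  intro v
  rw [Finset.mem_filter, ptk_mem_over]
  constructor
  · rintro ⟨_, h⟩
    exact Subtype.ext h
  · intro h
    rw [h]
    exact ⟨hpT, rfl⟩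

/-- a number field containing a primitive `p`-th root of unity, `p` odd, is totally complex -/
theorem ptk_finrank_eq_two_mul {p : ℕ} (hp : p.Prime) (hp2 : p ≠ 2) {ζ : K}
    (hζ : IsPrimitiveRoot ζ p) :
    Module.finrank ℚ K = 2 * (NumberField.Units.rank K + 1) := by
  classical
  have hodd : Odd p := hp.odd_of_ne_two hp2
  have hreal : NumberField.InfinitePlace.nrRealPlaces K = 0 := by
    rw [NumberField.InfinitePlace.nrRealPlaces, Fintype.card_eq_zero_iff]
    refine ⟨fun ⟨w, hw⟩ => ?_⟩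
    set φ : K →+* ℝ := NumberField.InfinitePlace.embedding_of_isReal hw with hφ
    have h1 : (φ ζ) ^ p = 1 := by rw [← map_pow, hζ.pow_eq_one, map_one]
    have h2 : φ ζ = 1 := by
      have := hodd.strictMono_pow (R := ℝ)
      apply this.injective
      simp only []
      rw [h1, one_pow]
    have h3 : ζ = 1 := φ.injective (by rw [h2, map_one])
    have h4 := hζ.eq_orderOf
    rw [h3, orderOf_one] at h4
    exact hp.one_lt.ne' h4
  have h1 := NumberField.InfinitePlace.card_add_two_mul_card_eq_rank (K := K)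
  have h2 := NumberField.InfinitePlace.card_eq_nrRealPlaces_add_nrComplexPlaces (K := K)
  rw [hreal, zero_add] at h1 h2
  have h3 : 0 < Fintype.card (NumberField.InfinitePlace K) := Fintype.card_pos
  rw [NumberField.Units.rank, ← h1, ← h2]
  omega

end Fermat.Agent.Lib.PT

end
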