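/-
K4 in the model, part G: THE SECOND INEQUALITY (Kummer case) IN THE EMBEDDING MODEL, assuming the
first inequality in weak form for all Kummer extensions of degree `p`.
-/
import Fermat.Agent.Lib.PT.GPlaceLocF
import Fermat.Agent.Lib.PT.SecondAbs

set_option autoImplicit false
set_option linter.unusedSectionVars false

noncomputable section

namespace Fermat.Agent.Lib.PT

open IsDedekindDomain NumberField Fermat.Agent.Lib.CFT

variable {K : Type*} [Field K] [NumberField K]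

/-- `T`-ideles are `S`-ideles for `S` the set of primes over `T` -/
theorem ptk_JT_le_JS (T : Finset Nat.Primes) :
    ptj_JT K T ≤ ptk_JS (G := ptk_G K) (ptk_O K) (ptk_ev K) (ptk_over K T) := by
  intro f hf v hv
  rw [ptk_mem_over] at hv
  exact hf (ptk_below v) hv (ptk_sig v)

/-- the abbreviation for "locally norm-like" ideles in the model -/
abbrev ptk_LocNormLikeM (p : ℕ) (b : Kˣ) (f : ptj_J K) : Prop :=
  ptk_LocNormLike (G := ptk_G K) (ptj_diag K) (ptk_O K) (ptk_ev K) p b f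

/-- **second inequality in the embedding model** (Kummer case, `p` odd) -/
theorem ptk_second_ineq_model {p : ℕ} [hp : Fact p.Prime] (hp2 : p ≠ 2) {ζ : K}
    (hζ : IsPrimitiveRoot ζ p)
    (hfirst : ∀ b : Kˣ, b ∉ ptk_pows K p → ∃ Nb : Subgroup (ptj_J K),
      ptj_principal K ⊔ Nb ≠ ⊤ ∧ ∀ f, ptk_LocNormLikeM p b f → f ∈ Nb)
    {a : Kˣ} (ha : a ∉ ptk_pows K p) (N : Subgroup (ptj_J K))
    (hN : ∀ f, ptk_LocNormLikeM p a f → f ∈ N) :
    (ptj_principal K ⊔ N).index ∣ p := by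
  classical
  obtain ⟨T₀, hT₀⟩ := ptk_class_group K
  obtain ⟨T₁, hT₁⟩ := ptj_exists_mem_JT (ptj_diag K a)
  set T : Finset Nat.Primes := T₀ ∪ T₁ ∪ {⟨p, hp.out⟩} with hT
  have hax := ptk_placeAxioms_model hp.out hζ
  have hpT : (⟨p, hp.out⟩ : Nat.Primes) ∈ T := by
    rw [hT]; exact Finset.mem_union_right _ (Finset.mem_singleton_self _)
  have hT₀T : T₀ ⊆ T := fun q hq => Finset.mem_union_left _ (Finset.mem_union_left _ hq)
  have hT₁T : T₁ ⊆ T := fun q hq => Finset.mem_union_left _ (Finset.mem_union_right _ hq)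
  refine ptk_second_ineq_abs (diag := ptj_diag K) hζ hax (ptk_over K T) ?_ ?_ ?_ hfirst ?_ ha N hN
  · intro v hv
    rw [ptk_mem_over]
    have h := ptk_eq_below_of_mem (q := ⟨p, hp.out⟩) (v := v) hv
    rw [← h]
    exact hpT
  · rw [eq_top_iff, ← hT₀ T hT₀T]
    exact sup_le_sup le_rfl (ptk_JT_le_JS T)
  · rw [ptk_prod_index_lpows hp.out hζ T hpT, ptk_finrank_eq_two_mul hp.out hp2 hζ]
    congr 1
    ring
  · have h1 : ptj_diag K a ∈ ptk_JS (G := ptk_G K) (ptk_O K) (ptk_ev K) (ptk_over K T) :=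
      ptk_JT_le_JS T (ptj_JT_mono hT₁T hT₁)
    exact (ptk_diag_mem_JS_iff hax _ a).mp h1

end Fermat.Agent.Lib.PT

end
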