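/-
S55 (Poitou–Tate), local ↔ global bridge, part G: the finite-level groups.  For a finite stable
`F ⊆ Q̄`: `K_F / ℚ_q` is Galois, the level subgroup `Gal(Ω_q/K_F) = r⁻¹(Fix F)` is normal of index
`[K_F : ℚ_q]`, the induced map `G_q / Gal(Ω_q/K_F) → G_ℚ / Fix F` is injective and its image is the
stabiliser of the `q`-adic place of `F`.
-/
import Mathlib
import Fermat.Agent.Lib.PT.BridgeA
import Fermat.Agent.Lib.PT.BridgeB
import Fermat.Agent.Lib.PT.BridgeC
import Fermat.Agent.Lib.PT.BridgeD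
import Fermat.Agent.Lib.PT.BridgeE
import Fermat.Agent.Lib.PT.BridgeF

set_option autoImplicit false

namespace Fermat.Agent.Lib.PT

variable (q : ℕ) [Fact q.Prime]

theorem ptg_loc_normal {F : IntermediateField ℚ (AlgebraicClosure ℚ)} (hF : ptg_IsStable F) :
    Normal ℚ_[q] (ptg_loc q F) := by
  rw [IntermediateField.normal_iff_forall_map_le']
  intro τ
  rw [ptg_loc, IntermediateField.adjoin_map]
  apply IntermediateField.adjoin.mono
  rintro _ ⟨_, ⟨x, hx, rfl⟩, rfl⟩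
  refine ⟨localGaloisToGlobal q τ x, hF _ x hx, ?_⟩
  exact padicEmbedding_localGaloisToGlobal q τ x

/-- `Fix F` is a normal subgroup of `G_ℚ` for stable `F`. -/
theorem ptg_fixingSubgroup_normal {F : IntermediateField ℚ (AlgebraicClosure ℚ)}
    (hF : ptg_IsStable F) : F.fixingSubgroup.Normal := by
  refine ⟨fun σ hσ g => ?_⟩
  rw [IntermediateField.mem_fixingSubgroup_iff] at hσ ⊢
  intro x hx
  show g (σ (g⁻¹ x)) = x
  rw [hσ _ (hF g⁻¹ x hx)]
  exact g.apply_symm_apply x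

/-- the level subgroup `Gal(Ω_q / K_F)` of the local Galois group -/
noncomputable def ptg_lev (F : IntermediateField ℚ (AlgebraicClosure ℚ)) :
    Subgroup (PadicAlgCl q ≃ₐ[ℚ_[q]] PadicAlgCl q) :=
  (ptg_loc q F).fixingSubgroup

variable {q} in
lemma ptg_mem_lev_iff {F : IntermediateField ℚ (AlgebraicClosure ℚ)}
    {τ : PadicAlgCl q ≃ₐ[ℚ_[q]] PadicAlgCl q} :
    τ ∈ ptg_lev q F ↔ localGaloisToGlobal q τ ∈ F.fixingSubgroup :=
  ptg_mem_fixingSubgroup_loc_iff F τ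

lemma ptg_lev_eq_comap (F : IntermediateField ℚ (AlgebraicClosure ℚ)) :
    ptg_lev q F = F.fixingSubgroup.comap (localGaloisToGlobal q) := by
  ext τ
  exact ptg_mem_lev_iff

variable {q} in
lemma ptg_lev_antitone {F F' : IntermediateField ℚ (AlgebraicClosure ℚ)} (h : F ≤ F') :
    ptg_lev q F' ≤ ptg_lev q F := by
  intro τ hτ
  rw [ptg_mem_lev_iff] at hτ ⊢
  exact IntermediateField.fixingSubgroup_antitone h hτ

instance ptg_lev_normal (F : IntermediateField ℚ (AlgebraicClosure ℚ))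
    [hN : F.fixingSubgroup.Normal] : (ptg_lev q F).Normal := by
  rw [ptg_lev_eq_comap]
  exact Subgroup.Normal.comap hN _

theorem ptg_index_lev (F : IntermediateField ℚ (AlgebraicClosure ℚ)) :
    (ptg_lev q F).index = Module.finrank ℚ_[q] (ptg_loc q F) :=
  (IntermediateField.finrank_eq_fixingSubgroup_index (F := ℚ_[q]) (E' := PadicAlgCl q) (ptg_loc q F)).symm

instance ptg_lev_finiteIndex (F : IntermediateField ℚ (AlgebraicClosure ℚ))
    [FiniteDimensional ℚ F] : (ptg_lev q F).FiniteIndex := by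
  refine ⟨?_⟩
  rw [ptg_index_lev]
  exact Module.finrank_pos.ne'

/-- the finite-level local-to-global map `G_q / Gal(Ω_q/K_F) → G_ℚ / Fix F` -/
noncomputable def ptg_quotMap (F : IntermediateField ℚ (AlgebraicClosure ℚ))
    [F.fixingSubgroup.Normal] :
    ((PadicAlgCl q ≃ₐ[ℚ_[q]] PadicAlgCl q) ⧸ ptg_lev q F) →*
      ((AlgebraicClosure ℚ ≃ₐ[ℚ] AlgebraicClosure ℚ) ⧸ F.fixingSubgroup) :=
  QuotientGroup.map (ptg_lev q F) F.fixingSubgroup (localGaloisToGlobal q)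
    (by rw [ptg_lev_eq_comap])

lemma ptg_quotMap_mk (F : IntermediateField ℚ (AlgebraicClosure ℚ)) [F.fixingSubgroup.Normal]
    (τ : PadicAlgCl q ≃ₐ[ℚ_[q]] PadicAlgCl q) :
    ptg_quotMap q F (τ : (PadicAlgCl q ≃ₐ[ℚ_[q]] PadicAlgCl q) ⧸ ptg_lev q F) =
      ((localGaloisToGlobal q τ : AlgebraicClosure ℚ ≃ₐ[ℚ] AlgebraicClosure ℚ) :
        (AlgebraicClosure ℚ ≃ₐ[ℚ] AlgebraicClosure ℚ) ⧸ F.fixingSubgroup) := rfl

theorem ptg_quotMap_injective (F : IntermediateField ℚ (AlgebraicClosure ℚ))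
    [F.fixingSubgroup.Normal] : Function.Injective (ptg_quotMap q F) := by
  rw [injective_iff_map_eq_one]
  intro x hx
  induction x using QuotientGroup.induction_on with | H τ =>
  rw [ptg_quotMap_mk, QuotientGroup.eq_one_iff] at hx
  rw [QuotientGroup.eq_one_iff]
  exact ptg_mem_lev_iff.mpr hx

/-- `G_q / Gal(Ω_q/K_F) ≃ Gal(K_F/ℚ_q)` -/
noncomputable def ptg_quotEquivGal (F : IntermediateField ℚ (AlgebraicClosure ℚ))
    [F.fixingSubgroup.Normal] [Normal ℚ_[q] (ptg_loc q F)] :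
    ((PadicAlgCl q ≃ₐ[ℚ_[q]] PadicAlgCl q) ⧸ ptg_lev q F) ≃*
      (↥(ptg_loc q F) ≃ₐ[ℚ_[q]] ↥(ptg_loc q F)) :=
  QuotientGroup.liftEquiv (ptg_lev q F)
    (AlgEquiv.restrictNormalHom_surjective (F := ℚ_[q]) (K₁ := ↥(ptg_loc q F)) (PadicAlgCl q))
    (IntermediateField.restrictNormalHom_ker (ptg_loc q F)).symm

lemma ptg_quotEquivGal_mk (F : IntermediateField ℚ (AlgebraicClosure ℚ))
    [F.fixingSubgroup.Normal] [Normal ℚ_[q] (ptg_loc q F)]
    (τ : PadicAlgCl q ≃ₐ[ℚ_[q]] PadicAlgCl q) (y : ↥(ptg_loc q F)) :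
    ((ptg_quotEquivGal q F (τ : (PadicAlgCl q ≃ₐ[ℚ_[q]] PadicAlgCl q) ⧸ ptg_lev q F) y :
      ↥(ptg_loc q F)) : PadicAlgCl q) = τ (y : PadicAlgCl q) :=
  AlgEquiv.restrictNormal_commutes τ ↥(ptg_loc q F) y


theorem ptg_loc_isGalois {F : IntermediateField ℚ (AlgebraicClosure ℚ)} (hF : ptg_IsStable F) :
    IsGalois ℚ_[q] (ptg_loc q F) := by
  have := ptg_loc_normal q hF
  exact ⟨⟩

/-- **(G)** the image of `G_q / Gal(Ω_q/K_F)` in `G_ℚ / Fix F` is the stabiliser of the `q`-adic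
place of `F`. -/
theorem ptg_mk_mem_range_quotMap_iff (F : IntermediateField ℚ (AlgebraicClosure ℚ))
    [F.fixingSubgroup.Normal] (σ : AlgebraicClosure ℚ ≃ₐ[ℚ] AlgebraicClosure ℚ) :
    ((σ : AlgebraicClosure ℚ ≃ₐ[ℚ] AlgebraicClosure ℚ) :
        (AlgebraicClosure ℚ ≃ₐ[ℚ] AlgebraicClosure ℚ) ⧸ F.fixingSubgroup) ∈ (ptg_quotMap q F).range ↔
      ∀ x ∈ F, ‖padicEmbedding q (σ x)‖ = ‖padicEmbedding q x‖ := by
  constructor
  · rintro ⟨y, hy⟩
    induction y using QuotientGroup.induction_on with | H τ =>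
    rw [ptg_quotMap_mk, QuotientGroup.eq] at hy
    rw [IntermediateField.mem_fixingSubgroup_iff] at hy
    refine ptg_norm_eq_of_local_lift_on (τ := τ) fun x hx => ?_
    have h1 := hy x hx
    have h2 : (localGaloisToGlobal q τ).symm (σ x) = x := h1
    exact ((localGaloisToGlobal q τ).symm_apply_eq.mp h2).symm
  · intro h
    obtain ⟨τ, hτ⟩ := ptg_exists_local_lift_on F σ h
    refine ⟨(τ : (PadicAlgCl q ≃ₐ[ℚ_[q]] PadicAlgCl q) ⧸ ptg_lev q F), ?_⟩
    rw [ptg_quotMap_mk, QuotientGroup.eq, IntermediateField.mem_fixingSubgroup_iff]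
    intro x hx
    show (localGaloisToGlobal q τ)⁻¹ (σ x) = x
    rw [← hτ x hx]
    exact (localGaloisToGlobal q τ).symm_apply_apply _

theorem ptg_card_range_quotMap (F : IntermediateField ℚ (AlgebraicClosure ℚ))
    [F.fixingSubgroup.Normal] :
    Nat.card (ptg_quotMap q F).range = Module.finrank ℚ_[q] (ptg_loc q F) := by
  rw [← ptg_index_lev, Subgroup.index, ← Nat.card_congr
    (MonoidHom.ofInjective (ptg_quotMap_injective q F)).toEquiv]

theorem ptg_isGalois_Qbar : IsGalois ℚ (AlgebraicClosure ℚ) := by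
  have h1 : Algebra.IsAlgebraic ℚ (AlgebraicClosure ℚ) := AlgebraicClosure.isAlgebraic ℚ
  have h2 : IsAlgClosure ℚ (AlgebraicClosure ℚ) := ⟨inferInstance, h1⟩
  exact IsAlgClosure.isGalois ℚ (AlgebraicClosure ℚ)

theorem ptg_index_fixingSubgroup (F : IntermediateField ℚ (AlgebraicClosure ℚ)) :
    F.fixingSubgroup.index = Module.finrank ℚ F := by
  have := ptg_isGalois_Qbar
  exact (IntermediateField.finrank_eq_fixingSubgroup_index (F := ℚ) (E' := AlgebraicClosure ℚ) F).symm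

instance ptg_fixingSubgroup_finiteIndex (F : IntermediateField ℚ (AlgebraicClosure ℚ))
    [FiniteDimensional ℚ F] : F.fixingSubgroup.FiniteIndex := by
  refine ⟨?_⟩
  rw [ptg_index_fixingSubgroup]
  exact Module.finrank_pos.ne'

end Fermat.Agent.Lib.PT
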