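/-
S55 (Poitou–Tate), local ↔ global bridge, part I: inertia.  If the inertia group of the `q`-adic
place of `Q̄` fixes the finite stable field `F` (e.g. `F.IsUnramifiedOutside S`, `q ∉ S`), then
`Gal(K_F/ℚ_q)` acts faithfully on the residue field of `K_F`, i.e. `K_F/ℚ_q` is unramified in the
sense of the local toolkit (`Function.Injective (ptl_galRes q ℚ_[q] K_F)`).
-/
import Mathlib
import Fermat.Prelude.Def_GroupCohomology_ContinuousUnramified
import Fermat.Agent.Lib.CFT.RamBridgeVal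
import Fermat.Agent.Lib.CFT.RamBridgeGal
import Fermat.Agent.Lib.PT.BridgeG
import Fermat.Agent.Lib.PT.BridgeH
import Fermat.Agent.Lib.PT.LocExt

set_option autoImplicit false

namespace Fermat.Agent.Lib.PT

open NumberField Fermat.Agent.Lib.CFT
open scoped Pointwise

variable (q : ℕ) [Fact q.Prime]

/-- the restriction of `g ∈ G_ℚ` to a stable subfield, as a ring automorphism -/
noncomputable def ptg_restrictEquiv {F : IntermediateField ℚ (AlgebraicClosure ℚ)}
    (hst : ptg_IsStable F) (g : AlgebraicClosure ℚ ≃ₐ[ℚ] AlgebraicClosure ℚ) : ↥F ≃+* ↥F where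
  toFun x := ⟨g x, hst g x x.2⟩
  invFun x := ⟨g.symm x, hst g.symm x x.2⟩
  left_inv x := Subtype.ext (g.symm_apply_apply x)
  right_inv x := Subtype.ext (g.apply_symm_apply x)
  map_mul' x y := Subtype.ext (map_mul g _ _)
  map_add' x y := Subtype.ext (map_add g _ _)

lemma ptg_restrictEquiv_coe {F : IntermediateField ℚ (AlgebraicClosure ℚ)}
    (hst : ptg_IsStable F) (g : AlgebraicClosure ℚ ≃ₐ[ℚ] AlgebraicClosure ℚ) (x : ↥F) :
    ((ptg_restrictEquiv hst g x : ↥F) : AlgebraicClosure ℚ) = g x := rfl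

variable {q} in
/-- **(I)** if the inertia group of the `q`-adic place fixes `F`, an element of `G_ℚ` acting
trivially on the integers of `F` modulo the `q`-adic place fixes `F`. -/
theorem ptg_mem_fixingSubgroup_of_inertia_congr {F : IntermediateField ℚ (AlgebraicClosure ℚ)}
    [FiniteDimensional ℚ F] (hst : ptg_IsStable F)
    (hI : (padicPlace q).inertiaSubgroupIn ℚ ≤ F.fixingSubgroup)
    (g : AlgebraicClosure ℚ ≃ₐ[ℚ] AlgebraicClosure ℚ)
    (hg : ∀ y ∈ F, IsIntegral ℤ y → ‖padicEmbedding q (g y - y)‖ < 1) :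
    g ∈ F.fixingSubgroup := by
  have hN : NumberField ↥F := ⟨⟩
  have hGal : IsGalois ℚ (AlgebraicClosure ℚ) := ptg_isGalois_Qbar
  have hq : q.Prime := Fact.out
  have hA : ((q : ℕ) : AlgebraicClosure ℚ) ∈ (padicPlace q).nonunits := ptg_padicPlace_liesOver q
  let τ : ↥F ≃ₐ[ℚ] ↥F := (ptg_restrictEquiv hst g).toRatAlgEquiv
  let Q : Ideal (𝓞 (AlgebraicClosure ℚ)) := cfg_center (padicPlace q)
  let P : Ideal (𝓞 ↥F) := Q.under (𝓞 ↥F)
  have hQP : Q.LiesOver P := ⟨rfl⟩
  have hτ : ∀ y : 𝓞 ↥F, τ • y - y ∈ P := by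
    intro y
    show algebraMap (𝓞 ↥F) (𝓞 (AlgebraicClosure ℚ)) (τ • y - y) ∈ cfg_center (padicPlace q)
    rw [cfg_mem_center_iff, ptg_mem_nonunits_iff]
    have h1 := hg ((y : ↥F) : AlgebraicClosure ℚ) (y : ↥F).2
      (by
        have := RingOfIntegers.isIntegral_coe y
        exact this.map (algebraMap ↥F (AlgebraicClosure ℚ)).toIntAlgHom)
    exact h1
  obtain ⟨σ, hσ, -, hσI⟩ := cfg_exists_lifts_inertia P Q τ hτ
  have hσin : σ ∈ (padicPlace q).inertiaSubgroupIn ℚ := by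
    refine cfg_mem_inertiaSubgroupIn_of_integral hq hA σ ?_
    intro b hb
    obtain ⟨b', rfl⟩ : ∃ b' : 𝓞 (AlgebraicClosure ℚ),
        algebraMap (𝓞 (AlgebraicClosure ℚ)) (AlgebraicClosure ℚ) b' = b :=
      (IsIntegralClosure.isIntegral_iff (A := 𝓞 (AlgebraicClosure ℚ))).mp hb
    have h1 := hσI b'
    exact h1
  have hσF := hI hσin
  rw [IntermediateField.mem_fixingSubgroup_iff] at hσF ⊢
  intro x hx
  have h2 := hσ ⟨x, hx⟩
  have h3 : σ x = g x := h2
  rw [← h3]
  exact hσF x hx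

variable {q} in
/-- **(I)** if the inertia group of the `q`-adic place fixes the finite stable field `F`, then
`Gal(K_F/ℚ_q)` acts faithfully on the residue field of `K_F`. -/
theorem ptg_galRes_injective_of_inertia_le {F : IntermediateField ℚ (AlgebraicClosure ℚ)}
    [FiniteDimensional ℚ F] (hst : ptg_IsStable F)
    (hI : (padicPlace q).inertiaSubgroupIn ℚ ≤ F.fixingSubgroup) :
    Function.Injective (ptl_galRes q ℚ_[q] ↥(ptg_loc q F)) := by
  have hnorm := ptg_loc_normal q hst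
  rw [injective_iff_map_eq_one]
  intro σ hσ
  obtain ⟨τ₁, rfl⟩ := AlgEquiv.restrictNormalHom_surjective (F := ℚ_[q])
    (K₁ := ↥(ptg_loc q F)) (PadicAlgCl q) σ
  have hcomm : ∀ y : ↥(ptg_loc q F),
      ((AlgEquiv.restrictNormalHom (F := ℚ_[q]) ↥(ptg_loc q F) τ₁ y : ↥(ptg_loc q F)) :
        PadicAlgCl q) = τ₁ (y : PadicAlgCl q) := fun y =>
    AlgEquiv.restrictNormal_commutes τ₁ ↥(ptg_loc q F) y
  have hmem : localGaloisToGlobal q τ₁ ∈ F.fixingSubgroup := by
    refine ptg_mem_fixingSubgroup_of_inertia_congr hst hI _ ?_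
    intro y hy hyint
    rw [map_sub, padicEmbedding_localGaloisToGlobal]
    -- the element `ι y` of `O_{K_F}`
    have hyO : (⟨padicEmbedding q y, ptg_map_mem_loc hy⟩ : ↥(ptg_loc q F)) ∈
        ptl_O q ↥(ptg_loc q F) := by
      rw [ptl_mem_O, ptl_abs_intermediateField]
      rw [← ptg_mem_padicPlace_iff]
      exact cfg_mem_of_isIntegral (padicPlace q) hyint
    have h1 := congrArg (fun φ => φ (IsLocalRing.residue (ptl_O q ↥(ptg_loc q F))
      ⟨⟨padicEmbedding q y, ptg_map_mem_loc hy⟩, hyO⟩)) hσ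
    simp only [ptl_galRes_residue, AlgEquiv.one_apply] at h1
    rw [← sub_eq_zero, ← map_sub, IsLocalRing.residue_eq_zero_iff, ptl_mem_maximalIdeal,
      ptl_abs_intermediateField] at h1
    have h2 : (((ptl_galO q (AlgEquiv.restrictNormalHom (F := ℚ_[q]) ↥(ptg_loc q F) τ₁)
        ⟨⟨padicEmbedding q y, ptg_map_mem_loc hy⟩, hyO⟩ -
        ⟨⟨padicEmbedding q y, ptg_map_mem_loc hy⟩, hyO⟩ : ptl_O q ↥(ptg_loc q F)) :
        ↥(ptg_loc q F)) : PadicAlgCl q) = τ₁ (padicEmbedding q y) - padicEmbedding q y := by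
      show ((AlgEquiv.restrictNormalHom (F := ℚ_[q]) ↥(ptg_loc q F) τ₁
        ⟨padicEmbedding q y, ptg_map_mem_loc hy⟩ : ↥(ptg_loc q F)) : PadicAlgCl q) -
          padicEmbedding q y = _
      rw [hcomm]
    rw [h2] at h1
    exact h1
  have hlev : τ₁ ∈ (ptg_loc q F).fixingSubgroup := (ptg_mem_fixingSubgroup_loc_iff F τ₁).mpr hmem
  rw [← IntermediateField.restrictNormalHom_ker] at hlev
  exact hlev

variable {q} in
/-- **(I)** for `F` unramified outside `S` and `q ∉ S`, the extension `K_F/ℚ_q` is unramified. -/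
theorem ptg_galRes_injective_of_isUnramifiedOutside {S : Finset Nat.Primes}
    {F : IntermediateField ℚ (AlgebraicClosure ℚ)} (hF : F.IsUnramifiedOutside S)
    (hst : ptg_IsStable F) (hqS : (⟨q, Fact.out⟩ : Nat.Primes) ∉ S) :
    Function.Injective (ptl_galRes q ℚ_[q] ↥(ptg_loc q F)) := by
  have := hF.1
  exact ptg_galRes_injective_of_inertia_le hst
    (hF.2 ⟨q, Fact.out⟩ hqS (padicPlace q) (ptg_padicPlace_liesOver q))

variable {q} in
/-- every `q`-adic embedding of a stable field `F ⊆ Q̄` is `ι ∘ γ|_F` for some `γ ∈ G_ℚ` -/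
theorem ptg_exists_global_of_emb {F : IntermediateField ℚ (AlgebraicClosure ℚ)}
    (σ : ↥F →+* PadicAlgCl q) :
    ∃ γ : AlgebraicClosure ℚ ≃ₐ[ℚ] AlgebraicClosure ℚ,
      ∀ x : ↥F, σ x = padicEmbedding q (γ (x : AlgebraicClosure ℚ)) := by
  have halg : Algebra.IsAlgebraic ℚ (AlgebraicClosure ℚ) := AlgebraicClosure.isAlgebraic ℚ
  have hnormal : Normal ℚ (AlgebraicClosure ℚ) := (ptg_isGalois_Qbar).to_normal
  -- `σ x` is algebraic over `ℚ`, hence in the range of `ι`
  have hr : ∀ x : ↥F, ∃ y : AlgebraicClosure ℚ, padicEmbedding q y = σ x := by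
    intro x
    have hx : IsAlgebraic ℚ (x : AlgebraicClosure ℚ) := Algebra.IsAlgebraic.isAlgebraic _
    have hx' : IsAlgebraic ℚ x :=
      (isAlgebraic_algebraMap_iff (algebraMap ↥F (AlgebraicClosure ℚ)).injective).mp hx
    have : IsAlgebraic ℚ (σ x) := hx'.algHom σ.toRatAlgHom
    exact ptg_mem_range_iff.mpr this
  choose j hj using hr
  have hinj : Function.Injective (padicEmbedding q) := (padicEmbedding q).injective
  let jr : ↥F →+* AlgebraicClosure ℚ :=
    { toFun := j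
      map_one' := hinj (by rw [hj, map_one, map_one])
      map_mul' := fun x y => hinj (by rw [hj, map_mul, map_mul, hj, hj])
      map_zero' := hinj (by rw [hj, map_zero, map_zero])
      map_add' := fun x y => hinj (by rw [hj, map_add, map_add, hj, hj]) }
  let ja : ↥F →ₐ[ℚ] AlgebraicClosure ℚ := jr.toRatAlgHom
  let γ₀ : AlgebraicClosure ℚ →ₐ[ℚ] AlgebraicClosure ℚ := ja.liftNormal (AlgebraicClosure ℚ)
  have hbij : Function.Bijective γ₀ := Algebra.IsAlgebraic.algHom_bijective _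
  refine ⟨AlgEquiv.ofBijective γ₀ hbij, fun x => ?_⟩
  have h := ja.liftNormal_commutes (AlgebraicClosure ℚ) x
  show σ x = padicEmbedding q (γ₀ (x : AlgebraicClosure ℚ))
  have h' : γ₀ (x : AlgebraicClosure ℚ) = j x := h
  rw [h', hj]

variable {q} in
/-- for a stable field all `q`-adic embeddings generate the same local field `K_F` -/
theorem ptg_locEmb_eq_loc {F : IntermediateField ℚ (AlgebraicClosure ℚ)} (hst : ptg_IsStable F)
    (σ : ↥F →+* PadicAlgCl q) : ptg_locEmb q σ = ptg_loc q F := by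
  obtain ⟨γ, hγ⟩ := ptg_exists_global_of_emb σ
  rw [ptg_locEmb, ptg_loc]
  congr 1
  ext y
  constructor
  · rintro ⟨x, rfl⟩
    exact ⟨γ x, hst γ x x.2, (hγ x).symm⟩
  · rintro ⟨x, hx, rfl⟩
    refine ⟨⟨γ.symm x, hst γ.symm x hx⟩, ?_⟩
    rw [hγ]
    show padicEmbedding q (γ (γ.symm x)) = _
    rw [γ.apply_symm_apply]

end Fermat.Agent.Lib.PT
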