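/-
S55 long haul, (UN) = the UNRAMIFIED DISCHARGE, part B (tower inside `Q̄`).
* `pta_galRes_injective_tower`: "unramified" (faithful action on the residue field) passes from
  `L/K₀` to `L/K₁` for `K₀ ⊆ K₁ ⊆ L`.
* For a finite subfield `K ⊆ Q̄` stable under `Gal(Q̄/ℚ)` and unramified outside `S` (Prelude's
  sense), `q ∉ S`, and ANY presentation `IsGaloisGroup Γ F ↥K`: for every `σ : ↥K →+* Ω_q` the
  local extension `K_σ/F_φ` is unramified, hence `ptj_UnitsAreNorms F Γ σ` and `ptj_UnitsH90 Γ σ`.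
-/
import Fermat.Agent.Lib.PT.GModUnrA
import Fermat.Agent.Lib.PT.BridgeI

set_option autoImplicit false
set_option linter.unusedVariables false
set_option linter.unusedSectionVars false
set_option linter.style.haveILetI false

noncomputable section

namespace Fermat.Agent.Lib.PT

section tower

variable (q : ℕ) [Fact q.Prime]
variable (K₀ K₁ L : Type*) [Field K₀] [Algebra ℚ_[q] K₀] [Algebra.IsAlgebraic ℚ_[q] K₀]
  [Field K₁] [Algebra ℚ_[q] K₁] [Algebra.IsAlgebraic ℚ_[q] K₁]
  [Field L] [Algebra ℚ_[q] L] [Algebra.IsAlgebraic ℚ_[q] L]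
  [Algebra K₀ K₁] [Algebra K₁ L] [Algebra K₀ L] [IsScalarTower K₀ K₁ L]
  [IsScalarTower ℚ_[q] K₀ L] [IsScalarTower ℚ_[q] K₁ L]

/-- Unramifiedness (faithful action of the automorphism group on the residue field) passes to the
upper part of a tower `K₀ ⊆ K₁ ⊆ L`. -/
theorem pta_galRes_injective_tower (h : Function.Injective (ptl_galRes q K₀ L)) :
    Function.Injective (ptl_galRes q K₁ L) := by
  rw [injective_iff_map_eq_one] at h ⊢
  intro s hs
  have h0 : ptl_galRes q K₀ L (s.restrictScalars K₀) = 1 := by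
    ext x
    obtain ⟨x, rfl⟩ := IsLocalRing.residue_surjective x
    have := congrArg (fun φ => φ (IsLocalRing.residue (ptl_O q L) x)) hs
    simp only [ptl_galRes_residue, AlgEquiv.one_apply] at this ⊢
    exact this
  have h1 := h _ h0
  ext x
  exact congrArg (fun t : L ≃ₐ[K₀] L => t x) h1

end tower

variable {F K : Type*} [Field F] [Field K] [Algebra F K] {q : Nat.Primes}
variable {Γ : Type*} [Group Γ] [MulSemiringAction Γ K]

instance pta_isAlgebraic_Krel (σ : ptj_Emb K q) :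
    Algebra.IsAlgebraic ℚ_[(q : ℕ)] ↥(ptj_Krel F σ) := by
  show Algebra.IsAlgebraic ℚ_[(q : ℕ)] ↥(ptj_Kσ σ)
  infer_instance

/-- If `K_σ/ℚ_q` is unramified then so is `K_σ/F_φ`. -/
theorem pta_galRes_injective_Krel (σ : ptj_Emb K q)
    (h : Function.Injective (ptl_galRes (q : ℕ) ℚ_[(q : ℕ)] ↥(ptj_Kσ σ))) :
    Function.Injective
      (ptl_galRes (q : ℕ) ↥(ptj_Kσ (ptj_resEmb (F := F) σ)) ↥(ptj_Krel F σ)) := by
  have h' : Function.Injective (ptl_galRes (q : ℕ) ℚ_[(q : ℕ)] ↥(ptj_Krel F σ)) := h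
  exact pta_galRes_injective_tower (q : ℕ) ℚ_[(q : ℕ)] ↥(ptj_Kσ (ptj_resEmb (F := F) σ))
    ↥(ptj_Krel F σ) h'

section overQbar

local notation "Qbar" => AlgebraicClosure ℚ

variable {S : Finset Nat.Primes} {q : Nat.Primes} {K : IntermediateField ℚ Qbar}

/-- For a finite stable `K ⊆ Q̄` unramified outside `S` and `q ∉ S`: the local field of `K` at ANY
`q`-adic embedding is unramified over `ℚ_q`. -/
theorem pta_galRes_injective_Kσ (hK : K.IsUnramifiedOutside S) (hst : ptg_IsStable K)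
    (hq : q ∉ S) (σ : ptj_Emb ↥K q) :
    Function.Injective (ptl_galRes (q : ℕ) ℚ_[(q : ℕ)] ↥(ptj_Kσ σ)) := by
  have h1 : Function.Injective (ptl_galRes (q : ℕ) ℚ_[(q : ℕ)] ↥(ptg_loc (q : ℕ) K)) :=
    ptg_galRes_injective_of_isUnramifiedOutside (q := (q : ℕ)) hK hst hq
  have h2 : ptj_Kσ σ = ptg_loc (q : ℕ) K := ptg_locEmb_eq_loc hst σ
  rw [h2]
  exact h1

variable {F : Type*} [Field F] [Algebra F ↥K]
variable {Γ : Type*} [Group Γ] [MulSemiringAction Γ ↥K]

/-- **(UN), hypothesis form (b).** `K ⊆ Q̄` finite, stable, unramified outside `S`, `q ∉ S`; for any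
`F` with `Algebra F ↥K` the local extension `K_σ/F_φ` is unramified, for every `σ`. -/
theorem pta_galRes_injective_of_isUnramifiedOutside (hK : K.IsUnramifiedOutside S)
    (hst : ptg_IsStable K) (hq : q ∉ S) (σ : ptj_Emb ↥K q) :
    Function.Injective
      (ptl_galRes (q : ℕ) ↥(ptj_Kσ (ptj_resEmb (F := F) σ)) ↥(ptj_Krel F σ)) :=
  pta_galRes_injective_Krel σ (pta_galRes_injective_Kσ hK hst hq σ)

/-- the local fields of a finite `K ⊆ Q̄` are finite over `ℚ_q` -/
lemma pta_finiteDimensional_Kσ_of_isUnramifiedOutside (hK : K.IsUnramifiedOutside S)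
    (σ : ptj_Emb ↥K q) : FiniteDimensional ℚ_[(q : ℕ)] ↥(ptj_Kσ σ) := by
  haveI := hK.1
  exact ptg_locEmb_finiteDimensional (q : ℕ) σ

variable [Finite Γ] [IsGaloisGroup Γ F ↥K]

/-- **(UN1), form (b)**: units are norms at every place of `K` over `q ∉ S`. -/
theorem pta_unitsAreNorms_of_isUnramifiedOutside (hK : K.IsUnramifiedOutside S)
    (hst : ptg_IsStable K) (hq : q ∉ S) (σ : ptj_Emb ↥K q) : ptj_UnitsAreNorms F Γ σ := by
  haveI := pta_finiteDimensional_Kσ_of_isUnramifiedOutside hK σ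
  exact pta_unitsAreNorms_of_injective σ (pta_galRes_injective_of_isUnramifiedOutside hK hst hq σ)

/-- **(UN2), form (b)**: Hilbert 90 for units at every place of `K` over `q ∉ S`. -/
theorem pta_unitsH90_of_isUnramifiedOutside (F : Type*) [Field F] [Algebra F ↥K]
    [IsGaloisGroup Γ F ↥K] (hK : K.IsUnramifiedOutside S)
    (hst : ptg_IsStable K) (hq : q ∉ S) (σ : ptj_Emb ↥K q) : ptj_UnitsH90 Γ σ := by
  haveI := pta_finiteDimensional_Kσ_of_isUnramifiedOutside hK σ
  exact pta_unitsH90_of_injective (F := F) σ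
    (pta_galRes_injective_of_isUnramifiedOutside hK hst hq σ)

end overQbar

end Fermat.Agent.Lib.PT

end
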