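/-
K4 in the model, (O-e) part A: local norm facts for a cyclic extension `K/F` of prime degree `p`
in the embedding model (`φ = σ|F`):
* `u ^ p` is a local norm for every `u ∈ F_φˣ`;
* if `K_σ = F_φ` every element of `F_φˣ` is a local norm;
* Kummer extensions by `p`-th roots of units are unramified at `q ≠ p`.
-/
import Fermat.Agent.Lib.PT.GPlaceLocG
import Fermat.Agent.Lib.PT.GModUnrB

set_option autoImplicit false
set_option linter.unusedSectionVars false
set_option linter.unusedVariables false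

noncomputable section

namespace Fermat.Agent.Lib.PT

open IsDedekindDomain NumberField

section LocalKummer

variable (q : ℕ) [Fact q.Prime]
variable (K L : Type*) [Field K] [Algebra ℚ_[q] K] [FiniteDimensional ℚ_[q] K]
  [Field L] [Algebra ℚ_[q] L] [FiniteDimensional ℚ_[q] L] [Algebra K L]
  [IsScalarTower ℚ_[q] K L]

/-- A Kummer extension `L = K(β)`, `β ^ p ∈ K` a unit, `p ≠ q`, is unramified: the Galois group
acts faithfully on the residue field. -/
theorem ptk_galRes_injective_of_kummer {p : ℕ} (hp : p.Prime) (hpq : p ≠ q) (β : L)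
    (hβ1 : ptl_abs q L β = 1) (hβ : β ^ p ∈ Set.range (algebraMap K L))
    (hgen : ∀ g : L ≃ₐ[K] L, g β = β → g = 1) :
    Function.Injective (ptl_galRes q K L) := by
  have hcop : Nat.Coprime p q := (Nat.coprime_primes hp (Fact.out : q.Prime)).mpr hpq
  rw [injective_iff_map_eq_one]
  intro g hg
  apply hgen
  have hβ0 : β ≠ 0 := by
    intro h; rw [h, map_zero] at hβ1; exact zero_ne_one hβ1
  have h1 := congrArg (fun τ => τ (IsLocalRing.residue (ptl_O q L) ⟨β, hβ1.le⟩)) hg
  simp only [ptl_galRes_residue, AlgEquiv.one_apply] at h1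
  rw [← sub_eq_zero, ← map_sub, IsLocalRing.residue_eq_zero_iff, ptl_mem_maximalIdeal] at h1
  have h2 : ptl_abs q L (g β - β) < 1 := h1
  obtain ⟨c, hc⟩ := hβ
  have h3 : (g β / β) ^ p = 1 := by
    rw [div_pow, ← map_pow, ← hc, g.commutes, div_self]
    rw [hc]; exact pow_ne_zero p hβ0
  have h4 : ptl_abs q L (g β / β - 1) < 1 := by
    have e : g β / β - 1 = (g β - β) / β := by field_simp
    rw [e, map_div₀, hβ1, div_one]
    exact h2
  have h5 := ptl_eq_of_pow_eq_one_of_abs_sub_lt q hcop h3 (one_pow p) h4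
  exact (div_eq_one_iff_eq hβ0).mp h5

end LocalKummer

section Model

variable {F K : Type*} [Field F] [Field K] [Algebra F K] {q : Nat.Primes}
variable {Γ : Type*} [Group Γ] [MulSemiringAction Γ K] [Finite Γ] [IsGaloisGroup Γ F K]

/-- an element of `F_φˣ` viewed in `K_σˣ` -/
def ptk_baseToTop (σ : ptj_Emb K q) (u : ptj_KσU (ptj_resEmb (F := F) σ)) : ptj_KσU σ :=
  ⟨(u : (ptj_Om q)ˣ), ptj_Kσ_resEmb_le (F := F) σ u.2⟩

/-- the local norm of an element of the base field is its `#Γ_σ`-th power -/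
theorem ptk_locNorm_baseToTop (σ : ptj_Emb K q) (u : ptj_KσU (ptj_resEmb (F := F) σ)) :
    ptj_locNorm F Γ σ (ptk_baseToTop σ u) = u ^ Nat.card (ptj_decomp Γ σ) := by
  classical
  haveI : Fintype (ptj_decomp Γ σ) := Fintype.ofFinite _
  apply Subtype.ext
  rw [ptj_locNorm_coe']
  have h1 : ∀ γ : ptj_decomp Γ σ,
      ptj_tauU (ptj_tauOf γ) ((ptk_baseToTop σ u : ptj_KσU σ) : (ptj_Om q)ˣ) =
        (u : (ptj_Om q)ˣ) := by
    intro γ
    apply Units.ext
    rw [ptj_tauU_coe]
    exact (IntermediateField.mem_fixingSubgroup_iff _ _).mp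
      (ptj_tauOf_mem_fixingSubgroup (F := F) σ γ) _ u.2
  rw [Finset.prod_congr rfl (fun γ _ => h1 γ), Finset.prod_const, Finset.card_univ,
    Nat.card_eq_fintype_card, Subgroup.coe_pow]

/-- `u ^ #Γ` is a local norm for every `u ∈ F_φˣ` -/
theorem ptk_pow_card_mem_range_locNorm (σ : ptj_Emb K q)
    (u : ptj_KσU (ptj_resEmb (F := F) σ)) :
    u ^ Nat.card Γ ∈ (ptj_locNorm F Γ σ).range := by
  obtain ⟨e, he⟩ : Nat.card (ptj_decomp Γ σ) ∣ Nat.card Γ := Subgroup.card_subgroup_dvd_card _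
  refine ⟨ptk_baseToTop σ u ^ e, ?_⟩
  rw [map_pow, ptk_locNorm_baseToTop, he, ← pow_mul]

/-- if `K_σ = F_φ` the local norm is surjective -/
theorem ptk_locNorm_surjective_of_le (σ : ptj_Emb K q)
    (hle : ptj_Kσ σ ≤ ptj_Kσ (ptj_resEmb (F := F) σ)) :
    Function.Surjective (ptj_locNorm F Γ σ) := by
  have hbot : ptj_Krel F σ = ⊥ := by
    rw [eq_bot_iff]
    intro y hy
    rw [IntermediateField.mem_bot]
    exact ⟨⟨y, hle hy⟩, rfl⟩
  have hcard : Nat.card (ptj_decomp Γ σ) = 1 := by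
    rw [ptj_card_decomp (F := F) (Γ := Γ) σ, hbot, IntermediateField.finrank_bot]
  intro u
  refine ⟨ptk_baseToTop σ u, ?_⟩
  rw [ptk_locNorm_baseToTop, hcard, pow_one]

end Model

end Fermat.Agent.Lib.PT

end
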