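/-
K4 in the model, (O-e) part B: Kummer extensions `K = F(α)`, `α ^ p = a ∈ F`, in the embedding
model: `K_σ = F_φ(σ α)`; `K_σ = F_φ` if `φ a` is a `p`-th power in `F_φ`; `K_σ/F_φ` is unramified
(so units are norms) if `φ a` is a unit and `q ≠ p`.
-/
import Fermat.Agent.Lib.PT.GPlaceNormA

set_option autoImplicit false
set_option linter.unusedSectionVars false
set_option linter.unusedVariables false

noncomputable section

namespace Fermat.Agent.Lib.PT

open IsDedekindDomain NumberField IntermediateField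

variable {F K : Type*} [Field F] [Field K] [Algebra F K] {q : Nat.Primes}

/-- `σ x ∈ F_φ(σ α)` for all `x ∈ K = F(α)` -/
theorem ptk_apply_mem_adjoin {α : K} (hgen : Algebra.adjoin F {α} = ⊤) (σ : ptj_Emb K q) (x : K) :
    σ x ∈ IntermediateField.adjoin ↥(ptj_Kσ (ptj_resEmb (F := F) σ)) {σ α} := by
  have hx : x ∈ Algebra.adjoin F {α} := by rw [hgen]; trivial
  induction hx using Algebra.adjoin_induction with
  | mem y hy =>
    rw [Set.mem_singleton_iff] at hy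
    rw [hy]
    exact IntermediateField.subset_adjoin _ _ (Set.mem_singleton _)
  | algebraMap c =>
    have h1 : σ (algebraMap F K c) ∈ ptj_Kσ (ptj_resEmb (F := F) σ) :=
      ptj_apply_mem_Kσ (ptj_resEmb (F := F) σ) c
    exact IntermediateField.algebraMap_mem _ (⟨_, h1⟩ : ↥(ptj_Kσ (ptj_resEmb (F := F) σ)))
  | add y z _ _ hy hz => rw [map_add]; exact add_mem hy hz
  | mul y z _ _ hy hz => rw [map_mul]; exact mul_mem hy hz

/-- `K_σ = F_φ(σ α)` -/
theorem ptk_Krel_eq_adjoin {α : K} (hgen : Algebra.adjoin F {α} = ⊤) (σ : ptj_Emb K q) :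
    ptj_Krel F σ = IntermediateField.adjoin ↥(ptj_Kσ (ptj_resEmb (F := F) σ)) {σ α} := by
  apply le_antisymm
  · intro y hy
    have hy' : y ∈ ptj_Kσ σ := hy
    have hle : ptj_Kσ σ ≤ (IntermediateField.adjoin ↥(ptj_Kσ (ptj_resEmb (F := F) σ))
        {σ α}).restrictScalars ℚ_[(q : ℕ)] := by
      rw [ptj_Kσ, IntermediateField.adjoin_le_iff]
      rintro _ ⟨x, rfl⟩
      exact ptk_apply_mem_adjoin hgen σ x
    exact hle hy'
  · rw [IntermediateField.adjoin_le_iff]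
    intro y hy
    rw [Set.mem_singleton_iff] at hy
    rw [hy]
    exact ptj_apply_mem_Kσ σ α

/-- if `σ α ∈ F_φ` then `K_σ = F_φ` -/
theorem ptk_Kσ_le_of_mem {α : K} (hgen : Algebra.adjoin F {α} = ⊤) (σ : ptj_Emb K q)
    (hα : σ α ∈ ptj_Kσ (ptj_resEmb (F := F) σ)) :
    ptj_Kσ σ ≤ ptj_Kσ (ptj_resEmb (F := F) σ) := by
  intro y hy
  have hy' : y ∈ ptj_Krel F σ := hy
  rw [ptk_Krel_eq_adjoin hgen σ] at hy'
  have hbot : IntermediateField.adjoin ↥(ptj_Kσ (ptj_resEmb (F := F) σ)) {σ α} = ⊥ := by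
    rw [IntermediateField.adjoin_simple_eq_bot_iff, IntermediateField.mem_bot]
    exact ⟨⟨σ α, hα⟩, rfl⟩
  rw [hbot, IntermediateField.mem_bot] at hy'
  obtain ⟨z, rfl⟩ := hy'
  exact z.2

/-- if `φ a = c ^ p` with `c ∈ F_φ` (and `ζ_p ∈ F`) then `K_σ = F_φ` -/
theorem ptk_Kσ_le_of_pow {p : ℕ} (hp : p.Prime) {ζ : F} (hζ : IsPrimitiveRoot ζ p) {a : F}
    {α : K} (hα : α ^ p = algebraMap F K a) (hgen : Algebra.adjoin F {α} = ⊤) (σ : ptj_Emb K q)
    {c : ptj_Om q} (hc : c ∈ ptj_Kσ (ptj_resEmb (F := F) σ)) (hc0 : c ≠ 0)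
    (hca : c ^ p = ptj_resEmb (F := F) σ a) :
    ptj_Kσ σ ≤ ptj_Kσ (ptj_resEmb (F := F) σ) := by
  apply ptk_Kσ_le_of_mem hgen σ
  have : NeZero p := ⟨hp.ne_zero⟩
  have hne : ptj_resEmb (F := F) σ a ≠ 0 := by rw [← hca]; exact pow_ne_zero p hc0
  have h1 : (σ α / c) ^ p = 1 := by
    rw [div_pow, ← map_pow, hα, hca]
    exact div_self hne
  have hζ' : IsPrimitiveRoot (ptj_resEmb (F := F) σ ζ) p :=
    hζ.map_of_injective (ptj_resEmb (F := F) σ).injective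
  obtain ⟨k, _, hk⟩ := hζ'.eq_pow_of_pow_eq_one h1
  have h2 : σ α = (ptj_resEmb (F := F) σ ζ) ^ k * c := by
    rw [hk, div_mul_cancel₀ _ hc0]
  rw [h2]
  exact mul_mem (pow_mem (ptj_apply_mem_Kσ _ ζ) k) hc

variable {Γ : Type*} [Group Γ] [MulSemiringAction Γ K] [Finite Γ] [IsGaloisGroup Γ F K]

/-- **Kummer extensions by roots of units are unramified outside `p`** (in the model) -/
theorem ptk_galRes_injective_model [Algebra ℚ K] [FiniteDimensional ℚ K] {p : ℕ} (hp : p.Prime)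
    (hpq : p ≠ (q : ℕ)) {a : F} {α : K} (hα : α ^ p = algebraMap F K a)
    (hgen : Algebra.adjoin F {α} = ⊤) (σ : ptj_Emb K q) (hunit : ‖σ α‖ = 1) :
    Function.Injective
      (ptl_galRes (q : ℕ) ↥(ptj_Kσ (ptj_resEmb (F := F) σ)) ↥(ptj_Krel F σ)) := by
  set β : ↥(ptj_Krel F σ) := ⟨σ α, ptj_apply_mem_Kσ σ α⟩ with hβdef
  refine ptk_galRes_injective_of_kummer (q : ℕ) ↥(ptj_Kσ (ptj_resEmb (F := F) σ))
    ↥(ptj_Krel F σ) hp hpq β ?_ ?_ ?_
  · rw [pta_abs_Krel]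
    exact hunit
  · refine ⟨⟨ptj_resEmb (F := F) σ a, ptj_apply_mem_Kσ _ a⟩, ?_⟩
    apply Subtype.ext
    show ptj_resEmb (F := F) σ a = (σ α) ^ p
    rw [← map_pow, hα]
    rfl
  · intro g hg
    have h := IntermediateField.algHom_ext_of_eq_adjoin _ (ptk_Krel_eq_adjoin hgen σ)
      (φ₁ := (g : ↥(ptj_Krel F σ) →ₐ[↥(ptj_Kσ (ptj_resEmb (F := F) σ))] ↥(ptj_Krel F σ)))
      (φ₂ := AlgHom.id _ _) (by
        intro x hx
        rw [Set.mem_singleton_iff] at hx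
        subst hx
        exact hg)
    ext x
    exact congrArg Subtype.val (DFunLike.congr_fun h x)

/-- units are norms at unramified Kummer places -/
theorem ptk_unitsAreNorms_kummer [Algebra ℚ K] [FiniteDimensional ℚ K] {p : ℕ} (hp : p.Prime)
    (hpq : p ≠ (q : ℕ)) {a : F} {α : K} (hα : α ^ p = algebraMap F K a)
    (hgen : Algebra.adjoin F {α} = ⊤) (σ : ptj_Emb K q)
    (hunit : ‖ptj_resEmb (F := F) σ a‖ = 1) :
    ptj_UnitsAreNorms F Γ σ := by
  apply pta_unitsAreNorms_of_injective σ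
  apply ptk_galRes_injective_model hp hpq hα hgen σ
  have h1 : ‖σ α‖ ^ p = 1 := by
    rw [← norm_pow, ← map_pow, hα]
    exact hunit
  exact (pow_eq_one_iff_of_nonneg (norm_nonneg _) hp.ne_zero).mp h1

end Fermat.Agent.Lib.PT

end
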