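/-
K4 in the model, (O-e) part C: for a Kummer extension `K = F(α)`, `α ^ p = a`, cyclic of degree `p`
with group `Γ`, every "locally norm-like" idele of `F` is the norm of an idele of `K`.
Consequently (second inequality) `[J_F : Fˣ · N J_K] ∣ p`, given the weak first inequality.
-/
import Fermat.Agent.Lib.PT.GPlaceNormB

set_option autoImplicit false
set_option linter.unusedSectionVars false
set_option linter.unusedVariables false

noncomputable section

namespace Fermat.Agent.Lib.PT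

open IsDedekindDomain NumberField

section Transport

variable {F : Type*} [Field F] [NumberField F]

/-- transport of a `G_q`-invariant property of embeddings along equality of the induced primes -/
theorem ptk_transport {P : ∀ q : Nat.Primes, ptj_Emb F q → Prop}
    (hP : ∀ (q : Nat.Primes) (τ : ptj_Gq q) (σ : ptj_Emb F q), P q σ → P q (ptj_post τ σ))
    {q q' : Nat.Primes} (σ' : ptj_Emb F q') (φ : ptj_Emb F q)
    (hv : cfh_primeOf σ' = cfh_primeOf φ) (h : P q' σ') : P q φ := by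
  have hq : q' = q := by
    have h1 := ptk_below_primeOf σ'
    rw [hv, ptk_below_primeOf] at h1
    exact h1.symm
  subst hq
  obtain ⟨τ, rfl⟩ := cfh_primeOf_eq_iff.mp hv.symm
  exact hP _ τ σ' h

/-- being a local `p`-th power is `G_q`-invariant -/
theorem ptk_evalAt_mem_pow_post (f : ptj_J F) (p : ℕ) {q : Nat.Primes} (τ : ptj_Gq q)
    (σ : ptj_Emb F q)
    (h : ptj_evalAt σ f ∈ (powMonoidHom p : ptj_KσU σ →* ptj_KσU σ).range) :
    ptj_evalAt (ptj_post τ σ) f ∈
      (powMonoidHom p : ptj_KσU (ptj_post τ σ) →* ptj_KσU (ptj_post τ σ)).range := by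
  obtain ⟨b, hb⟩ := h
  have hb' : ((b : (ptj_Om q)ˣ)) ^ p = (f : ptj_Amb F) q σ := by
    have := congrArg (fun u : ptj_KσU σ => (u : (ptj_Om q)ˣ)) hb
    simpa using this
  have hmem : ptj_tauU τ (b : (ptj_Om q)ˣ) ∈ ptj_KσU (ptj_post τ σ) := by
    rw [ptj_mem_KσU_iff, ptj_tauU_coe]
    exact ptj_apply_mem_Kσ_post τ σ b.2
  refine ⟨⟨ptj_tauU τ (b : (ptj_Om q)ˣ), hmem⟩, ?_⟩
  apply Subtype.ext
  rw [powMonoidHom_apply, Subgroup.coe_pow, ptj_evalAt_coe, f.2.1 q τ σ, ← hb', map_pow]

end Transport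

section Main

variable {F K : Type*} [Field F] [NumberField F] [Field K] [NumberField K] [Algebra F K]
variable {Γ : Type*} [Group Γ] [MulSemiringAction Γ K] [Finite Γ] [IsGaloisGroup Γ F K]

/-- **(O-e)**: locally norm-like ideles are norms from the Kummer extension -/
theorem ptk_locNormLike_mem_range_norm {p : ℕ} [hp : Fact p.Prime] (hcard : Nat.card Γ = p)
    {ζ : F} (hζ : IsPrimitiveRoot ζ p) {a : Fˣ} {α : K}
    (hα : α ^ p = algebraMap F K (a : F)) (hgen : Algebra.adjoin F {α} = ⊤) {f : ptj_J F}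
    (hf : ptk_LocNormLikeM p a f) : f ∈ (ptj_norm F Γ : ptj_J K →* ptj_J F).range := by
  classical
  obtain ⟨T₁, hT₁⟩ := ptj_exists_mem_JT f
  obtain ⟨T₂, hT₂⟩ := ptj_exists_mem_JT (ptj_diag F a)
  set T : Finset Nat.Primes := T₁ ∪ T₂ ∪ {⟨p, hp.out⟩} with hT
  have hpT : (⟨p, hp.out⟩ : Nat.Primes) ∈ T := by
    rw [hT]; exact Finset.mem_union_right _ (Finset.mem_singleton_self _)
  have hfT : f ∈ ptj_JT F T :=
    ptj_JT_mono (fun q hq => Finset.mem_union_left _ (Finset.mem_union_left _ hq)) hT₁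
  have haT : ptj_diag F a ∈ ptj_JT F T :=
    ptj_JT_mono (fun q hq => Finset.mem_union_left _ (Finset.mem_union_right _ hq)) hT₂
  have hne_of_notMem : ∀ q : Nat.Primes, q ∉ T → p ≠ (q : ℕ) := by
    intro q hq h
    apply hq
    have : q = ⟨p, hp.out⟩ := Subtype.ext h.symm
    rw [this]; exact hpT
  suffices hex : ∃ g : ptj_J K, g ∈ ptj_JT K T ∧ ptj_norm F Γ g = f by
    obtain ⟨g, -, hg⟩ := hex
    exact ⟨g, hg⟩
  refine ptj_exists_norm_eq (F := F) (K := K) (Γ := Γ) T hfT ?_ ?_
  · -- local norms at the places over `T`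
    intro q _ σ
    set φ : ptj_Emb F q := ptj_resEmb (F := F) σ with hφ
    set v : HeightOneSpectrum (𝓞 F) := cfh_primeOf φ with hv
    rcases hf v with h1 | h2 | ⟨hpv, hav, hOv⟩
    · -- `f_v` is a `p`-th power
      have h1' := ptk_transport
        (P := fun q σ => ptj_evalAt σ f ∈ (powMonoidHom p : ptj_KσU σ →* ptj_KσU σ).range)
        (fun q τ σ h => ptk_evalAt_mem_pow_post f p τ σ h) (ptk_sig v) φ
        (ptk_primeOf_sig v) h1
      obtain ⟨y, hy⟩ := h1'
      rw [← hy, powMonoidHom_apply, ← hcard]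
      exact ptk_pow_card_mem_range_locNorm σ y
    · -- `a` is a `p`-th power in `F_v`: the local extension is trivial
      have h2' := ptk_transport
        (P := fun q σ => ptj_evalAt σ (ptj_diag F a) ∈
          (powMonoidHom p : ptj_KσU σ →* ptj_KσU σ).range)
        (fun q τ σ h => ptk_evalAt_mem_pow_post (ptj_diag F a) p τ σ h) (ptk_sig v) φ
        (ptk_primeOf_sig v) h2
      obtain ⟨c, hc⟩ := h2'
      have hc' : (((c : (ptj_Om q)ˣ)) : ptj_Om q) ^ p = φ (a : F) := by
        have := congrArg (fun u : ptj_KσU φ => ((u : (ptj_Om q)ˣ) : ptj_Om q)) hc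
        simpa using this
      have hle := ptk_Kσ_le_of_pow hp.out hζ hα hgen σ c.2 (Units.ne_zero _) hc'
      exact ptk_locNorm_surjective_of_le (Γ := Γ) σ hle _
    · -- unramified place, `f_v` a unit
      have h3 := ptk_transport
        (P := fun q σ => p ≠ (q : ℕ) ∧ ‖σ (a : F)‖ = 1 ∧
          ‖((((f : ptj_Amb F) q σ : (ptj_Om q)ˣ)) : ptj_Om q)‖ = 1)
        (fun q τ σ h => ⟨h.1, by rw [ptk_norm_post]; exact h.2.1,
          by rw [ptj_norm_post (f.2.1 q)]; exact h.2.2⟩) (ptk_sig v) φ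
        (ptk_primeOf_sig v)
        ⟨ptk_ne_below_of_notMem hpv, by
          rw [cfh_norm_eq_one_iff, ptk_primeOf_sig]; exact hav, hOv⟩
      obtain ⟨hpq, haφ, hfφ⟩ := h3
      have hun : ptj_UnitsAreNorms F Γ σ :=
        ptk_unitsAreNorms_kummer hp.out hpq hα hgen σ haφ
      obtain ⟨b, -, hb⟩ := hun (ptj_evalAt φ f) hfφ
      exact ⟨b, hb⟩
  · -- units are norms outside `T`
    intro q hq σ
    apply ptk_unitsAreNorms_kummer hp.out (hne_of_notMem q hq) hα hgen σ
    exact haT q hq (ptj_resEmb (F := F) σ)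

end Main

end Fermat.Agent.Lib.PT

end
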