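/-
S55 (Poitou–Tate), (G8) global F3, number-theoretic counts (helper9, prefix `pti_`), part B:
the index computations (NT1), (NT3) IN THE EMBEDDING MODEL of the ideles of a number field `K ∋ ζ_p`
(`p` odd), for a finite set `S ∋ p` of rational primes.
-/
import Fermat.Agent.Lib.PT.BrauerExA
import Fermat.Agent.Lib.PT.GPlaceLocG
import Fermat.Agent.Lib.PT.GPlaceNormC

set_option autoImplicit false
set_option linter.unusedSectionVars false

noncomputable section

namespace Fermat.Agent.Lib.PT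

open IsDedekindDomain NumberField Fermat.Agent.Lib.CFT

section Generic

/-- the `p`-th powers have index `p` in `ℤ` (multiplicative notation) -/
theorem pti_index_pow_range_int {p : ℕ} :
    (powMonoidHom p : Multiplicative ℤ →* Multiplicative ℤ).range.index = p := by
  have h1 : (powMonoidHom p : Multiplicative ℤ →* Multiplicative ℤ).range =
      AddSubgroup.toSubgroup (AddSubgroup.zmultiples (p : ℤ)) := by
    ext x
    constructor
    · rintro ⟨y, rfl⟩
      show Multiplicative.toAdd (y ^ p) ∈ AddSubgroup.zmultiples (p : ℤ)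
      rw [toAdd_pow]
      exact ⟨Multiplicative.toAdd y, by simp [mul_comm]⟩
    · intro hx
      obtain ⟨k, hk⟩ : ∃ k : ℤ, k • (p : ℤ) = Multiplicative.toAdd x := hx
      refine ⟨Multiplicative.ofAdd k, ?_⟩
      show (Multiplicative.ofAdd k) ^ p = x
      rw [← ofAdd_nsmul, nsmul_eq_mul, mul_comm, ← smul_eq_mul, hk]
      rfl
  rw [h1, AddSubgroup.index_toSubgroup, Int.index_zmultiples]
  simp

/-- for a surjective "valuation" `f : G → ℤ`, `[G : Gᵖ · ker f] = p` -/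
theorem pti_index_pow_sup_ker {G : Type*} [CommGroup G] (f : G →* Multiplicative ℤ)
    (hf : Function.Surjective f) (p : ℕ) :
    ((powMonoidHom p : G →* G).range ⊔ f.ker).index = p := by
  have h1 : (powMonoidHom p : G →* G).range ⊔ f.ker =
      (powMonoidHom p : Multiplicative ℤ →* Multiplicative ℤ).range.comap f := by
    apply le_antisymm
    · refine sup_le ?_ ?_
      · rintro _ ⟨y, rfl⟩
        exact ⟨f y, by simp⟩
      · intro x hx
        rw [Subgroup.mem_comap, MonoidHom.mem_ker.mp hx]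
        exact Subgroup.one_mem _
    · intro x hx
      obtain ⟨y, hy⟩ := hx
      obtain ⟨z, rfl⟩ := hf y
      have h2 : x = z ^ p * (x / z ^ p) := by rw [mul_div_cancel]
      rw [h2]
      refine Subgroup.mul_mem_sup ⟨z, rfl⟩ ?_
      rw [MonoidHom.mem_ker, map_div, map_pow]
      rw [powMonoidHom_apply] at hy
      rw [hy, div_self']
  rw [h1, Subgroup.index_comap_of_surjective _ hf, pti_index_pow_range_int]

end Generic

section Model

variable {K : Type*} [Field K] [NumberField K]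

/-- the valuation `K_σˣ → ℤ` -/
def pti_ordKσU {q : Nat.Primes} (σ : ptj_Emb K q) : ptj_KσU σ →* Multiplicative ℤ :=
  (ptl_ord (q : ℕ) ↥(ptj_Kσ σ)).comp (ptj_KσUEquiv σ).symm.toMonoidHom

theorem pti_ordKσU_surjective {q : Nat.Primes} (σ : ptj_Emb K q) :
    Function.Surjective (pti_ordKσU σ) :=
  (ptl_ord_surjective (q : ℕ) (K := ↥(ptj_Kσ σ))).comp (ptj_KσUEquiv σ).symm.surjective

theorem pti_ker_ordKσU {q : Nat.Primes} (σ : ptj_Emb K q) :
    (pti_ordKσU σ).ker = ptk_OσU σ := by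
  ext a
  rw [MonoidHom.mem_ker, ptk_mem_OσU]
  show ptl_ord (q : ℕ) ↥(ptj_Kσ σ) ((ptj_KσUEquiv σ).symm a) = 1 ↔ _
  rw [← MonoidHom.mem_ker, ptl_mem_ker_ord, ptk_abs_Kσ]
  rfl

/-- **local valuation index**: `[K_vˣ : K_vˣᵖ · O_vˣ] = p` -/
theorem pti_validx_model (p : ℕ) (v : HeightOneSpectrum (𝓞 K)) :
    (ptk_lpows (ptk_G K) p v ⊔ ptk_O K v).index = p := by
  have h := pti_index_pow_sup_ker (pti_ordKσU (ptk_sig v)) (pti_ordKσU_surjective (ptk_sig v)) p
  rw [pti_ker_ordKσU] at h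
  exact h

/-- `T`-ideles in lead's sense = `S`-ideles in helper2's sense for `S` the primes over `T` -/
theorem pti_JT_eq_JS (T : Finset Nat.Primes) :
    ptj_JT K T = ptk_JS (G := ptk_G K) (ptk_O K) (ptk_ev K) (ptk_over K T) := by
  apply le_antisymm (ptk_JT_le_JS T)
  intro f hf q hq σ
  have hv : cfh_primeOf σ ∉ ptk_over K T := by
    rw [ptk_mem_over, ptk_below_primeOf]; exact hq
  have h1 := hf _ hv
  rw [ptk_mem_OσU, ptj_evalAt_coe] at h1
  exact ptk_transport (P := fun q σ => ‖(((f : ptj_Amb K) q σ : (ptj_Om q)ˣ) : ptj_Om q)‖ = 1)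
    (fun q τ σ h => by rw [ptj_norm_post (f.2.1 q)]; exact h)
    (ptk_sig (cfh_primeOf σ)) σ (ptk_primeOf_sig _) h1

/-- unit ideles supported outside `T`: lead's `ptj_UT` in helper2's vocabulary -/
theorem pti_UT_eq_US (T : Finset Nat.Primes) :
    ptj_UT K T = pti_US (G := ptk_G K) (ptk_O K) (ptk_ev K) (ptk_over K T) := by
  ext f
  rw [ptj_mem_UT_iff, pti_mem_US]
  constructor
  · rintro ⟨h1, h2⟩
    refine ⟨fun v hv => ?_, fun v hv => ?_⟩
    · apply Subtype.ext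
      rw [ptj_evalAt_coe, h1 _ (ptk_mem_over.mp hv)]
      rfl
    · rw [ptk_mem_over] at hv
      exact h2 _ hv (ptk_sig v)
  · rintro ⟨h1, h2⟩
    refine ⟨fun q hq => ?_, ?_⟩
    · funext σ
      have hv : cfh_primeOf σ ∈ ptk_over K T := by
        rw [ptk_mem_over, ptk_below_primeOf]; exact hq
      have h3 : (f : ptj_Amb K) (ptk_below (cfh_primeOf σ)) (ptk_sig (cfh_primeOf σ)) = 1 := by
        have h5 := congrArg (Subtype.val) (h1 _ hv)
        exact h5
      exact ptk_transport (P := fun q σ => (f : ptj_Amb K) q σ = 1)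
        (fun q τ σ h => by rw [f.2.1 q τ σ, h, map_one])
        (ptk_sig (cfh_primeOf σ)) σ (ptk_primeOf_sig _) h3
    · have h4 : f ∈ ptj_JT K T := by
        rw [pti_JT_eq_JS]; exact h2
      exact h4

/-- every element of `K_σˣ` has the absolute value of a global element -/
theorem pti_exists_global_norm (v : HeightOneSpectrum (𝓞 K)) (y : ptk_G K v) :
    ∃ b : Kˣ, ‖(((ptk_ev K v (ptj_diag K b) : ptk_G K v) : (ptj_Om (ptk_below v))ˣ) :
      ptj_Om (ptk_below v))‖ = ‖(((y : ptk_G K v) : (ptj_Om (ptk_below v))ˣ) :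
      ptj_Om (ptk_below v))‖ := by
  obtain ⟨b, hb⟩ := ptk_exists_norm_eq (ptk_sig v) (a := ((y : (ptj_Om (ptk_below v))ˣ) :
    ptj_Om (ptk_below v))) y.2 (Units.ne_zero _)
  exact ⟨b, hb⟩

/-- if `x` is locally at `v` a `p`-th power times a unit, then `v(x) ∈ p · v(Kˣ)` -/
theorem pti_exists_valuation_div_pow {p : ℕ} [hp : Fact p.Prime] {ζ : K}
    (hζ : IsPrimitiveRoot ζ p) (v : HeightOneSpectrum (𝓞 K)) (x : Kˣ)
    (hx : ptk_ev K v (ptj_diag K x) ∈ ptk_lpows (ptk_G K) p v ⊔ ptk_O K v) :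
    ∃ b : Kˣ, v.valuation K (((x / b ^ p : Kˣ)) : K) = 1 := by
  have hax := ptk_placeAxioms_model (K := K) hp.out hζ
  obtain ⟨_, ⟨y, rfl⟩, o, ho, hyo⟩ := Subgroup.mem_sup.mp hx
  obtain ⟨b, hb⟩ := pti_exists_global_norm v y
  refine ⟨b, (hax.unit_iff v _).mp ?_⟩
  rw [map_div, map_div, map_pow, map_pow, ← hyo]
  show _ ∈ ptk_OσU (ptk_sig v)
  rw [ptk_mem_OσU] at ho ⊢
  rw [powMonoidHom_apply, Subgroup.coe_div, Units.val_div_eq_div_val, norm_div,
    Subgroup.coe_mul, Units.val_mul, norm_mul, ho, mul_one, Subgroup.coe_pow, Subgroup.coe_pow,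
    Units.val_pow_eq_pow_val, Units.val_pow_eq_pow_val, norm_pow, norm_pow, hb]
  apply div_self
  apply pow_ne_zero
  rw [norm_ne_zero_iff]
  exact Units.ne_zero _


/-- **(NT1) + (NT3) in the model**: for `K ∋ ζ_p` (`p` odd) and a finite set `S ∋ p` of rational
primes there are subgroups `Δ ≤ Δ₀ ≤ Kˣ`, `Δ₀` consisting of elements whose valuations outside `S`
are divisible by `p` (up to the value group), `Δ` moreover of local `p`-th powers over `S`, with
`[J : Kˣ · U_S · Jᵖ] = p ^ (r + s) · [Δ : Δ ∩ Kˣᵖ]` and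
`p ^ (r + s) · [J : Kˣ · J_S · Jᵖ] = [Δ₀ : Δ₀ ∩ Kˣᵖ]`, all indices finite. -/
theorem pti_NT_model {p : ℕ} [hp : Fact p.Prime] (hp2 : p ≠ 2) {ζ : K}
    (hζ : IsPrimitiveRoot ζ p) (S : Finset Nat.Primes) (hpS : (⟨p, hp.out⟩ : Nat.Primes) ∈ S) :
    ∃ Δ Δ₀ : Subgroup Kˣ, Δ ≤ Δ₀ ∧
      (∀ x ∈ Δ₀, ∀ v : HeightOneSpectrum (𝓞 K), v ∉ ptk_over K S →
        ∃ b : Kˣ, v.valuation K (((x / b ^ p : Kˣ)) : K) = 1) ∧
      (∀ x ∈ Δ, ∀ v ∈ ptk_over K S,
        ptk_ev K v (ptj_diag K x) ∈ ptk_lpows (ptk_G K) p v) ∧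
      (ptj_principal K ⊔ ptj_UT K S ⊔
          (powMonoidHom p : ↥(ptj_J K) →* ↥(ptj_J K)).range).index =
        p ^ (NumberField.Units.rank K + (ptk_over K S).card + 1) *
          (ptk_pows K p).relIndex Δ ∧
      p ^ (NumberField.Units.rank K + (ptk_over K S).card + 1) *
          (ptj_principal K ⊔ ptj_JT K S ⊔
            (powMonoidHom p : ↥(ptj_J K) →* ↥(ptj_J K)).range).index =
        (ptk_pows K p).relIndex Δ₀ ∧
      (ptj_principal K ⊔ ptj_UT K S ⊔
          (powMonoidHom p : ↥(ptj_J K) →* ↥(ptj_J K)).range).index ≠ 0 ∧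
      (ptj_principal K ⊔ ptj_JT K S ⊔
          (powMonoidHom p : ↥(ptj_J K) →* ↥(ptj_J K)).range).index ≠ 0 := by
  classical
  obtain ⟨T₀, hT₀⟩ := ptk_class_group K
  have hax := ptk_placeAxioms_model (K := K) hp.out hζ
  set SK : Finset (HeightOneSpectrum (𝓞 K)) := ptk_over K S with hSK
  set TK : Finset (HeightOneSpectrum (𝓞 K)) := ptk_over K ((T₀ ∪ S) \ S) with hTK
  set S'K : Finset (HeightOneSpectrum (𝓞 K)) := ptk_over K (T₀ ∪ S) with hS'K
  have hS' : ∀ v, v ∈ S'K ↔ v ∈ SK ∨ v ∈ TK := by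
    intro v
    rw [hS'K, hSK, hTK, ptk_mem_over, ptk_mem_over, ptk_mem_over, Finset.mem_sdiff,
      Finset.mem_union]
    tauto
  have hdisj : ∀ v ∈ TK, v ∉ SK := by
    intro v hv
    rw [hTK, ptk_mem_over, Finset.mem_sdiff] at hv
    rw [hSK, ptk_mem_over]
    exact hv.2
  have hcard : S'K.card = SK.card + TK.card := by
    have h1 : S'K = SK ∪ TK := by
      ext v; rw [Finset.mem_union]; exact hS' v
    rw [h1]
    apply Finset.card_union_of_disjoint
    rw [Finset.disjoint_left]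
    intro v hv hv'
    exact hdisj v hv' hv
  have hclass : (ptj_diag K).range ⊔ ptk_JS (G := ptk_G K) (ptk_O K) (ptk_ev K) S'K = ⊤ := by
    rw [hS'K, ← pti_JT_eq_JS]
    exact hT₀ (T₀ ∪ S) Finset.subset_union_left
  have hlocidx : ∏ v ∈ SK, (ptk_lpows (ptk_G K) p v).index =
      p ^ (2 * (NumberField.Units.rank K + SK.card + 1)) := by
    rw [hSK, ptk_prod_index_lpows hp.out hζ S hpS, ptk_finrank_eq_two_mul hp.out hp2 hζ]
    congr 1
    ring
  have hvalidx : ∀ v ∈ TK, (ptk_lpows (ptk_G K) p v ⊔ ptk_O K v).index = p :=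
    fun v _ => pti_validx_model p v
  have hE₀ := pti_sup_E₀_eq hax hS' hdisj hclass
  have hE := pti_sup_E_eq hax hS' hdisj hclass
  have h3 := pti_NT3_abs hζ hax hS' hcard hclass hvalidx
  have h1 := pti_NT1_abs hζ hax hS' hdisj hcard hclass hlocidx hvalidx
  have hne₀ : ((ptj_diag K).range ⊔ pti_Ecut₀ (ptk_O K) (ptk_ev K) p S'K TK).index ≠ 0 := by
    apply pti_index_sup_ne_zero _ _ _ hclass (pti_Ecut₀_le_JS p S'K TK)
    rw [pti_relIndex_E₀ hax hS' hvalidx]
    exact pow_ne_zero _ hp.out.ne_zero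
  have hne : ((ptj_diag K).range ⊔ pti_Ecut (ptk_O K) (ptk_ev K) p S'K SK TK).index ≠ 0 := by
    apply pti_index_sup_ne_zero _ _ _ hclass
      ((pti_E_le_E₀ p S'K SK TK).trans (pti_Ecut₀_le_JS p S'K TK))
    rw [pti_relIndex_E hax hS' hdisj hlocidx hvalidx]
    exact mul_ne_zero (pow_ne_zero _ hp.out.ne_zero) (pow_ne_zero _ hp.out.ne_zero)
  have hEq : ptj_principal K ⊔ ptj_UT K S ⊔ (powMonoidHom p : ↥(ptj_J K) →* ↥(ptj_J K)).range =
      (ptj_diag K).range ⊔ pti_Ecut (ptk_O K) (ptk_ev K) p S'K SK TK := by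
    rw [hE, pti_UT_eq_US, sup_right_comm]
    rfl
  have hEq₀ : ptj_principal K ⊔ ptj_JT K S ⊔ (powMonoidHom p : ↥(ptj_J K) →* ↥(ptj_J K)).range =
      (ptj_diag K).range ⊔ pti_Ecut₀ (ptk_O K) (ptk_ev K) p S'K TK := by
    rw [hE₀, pti_JT_eq_JS]
    rfl
  refine ⟨(pti_Ecut (ptk_O K) (ptk_ev K) p S'K SK TK).comap (ptj_diag K),
    (pti_Ecut₀ (ptk_O K) (ptk_ev K) p S'K TK).comap (ptj_diag K),
    Subgroup.comap_mono (pti_E_le_E₀ p S'K SK TK), ?_, ?_, ?_, ?_, ?_, ?_⟩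
  · intro x hx v hv
    have hx' : ptj_diag K x ∈ pti_Ecut₀ (ptk_O K) (ptk_ev K) p S'K TK := hx
    by_cases hvT : v ∈ TK
    · exact pti_exists_valuation_div_pow hζ v x (hx'.2 v hvT)
    · have hvS' : v ∉ S'K := fun h => ((hS' v).mp h).elim hv hvT
      refine ⟨1, ?_⟩
      rw [one_pow, div_one]
      exact (hax.unit_iff v x).mp (hx'.1 v hvS')
  · intro x hx v hv
    have hx' : ptj_diag K x ∈ pti_Ecut (ptk_O K) (ptk_ev K) p S'K SK TK := hx
    exact hx'.2 v hv
  · rw [hEq]; exact h1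
  · rw [hEq₀]; exact h3
  · rw [hEq]; exact hne
  · rw [hEq₀]; exact hne₀


end Model

end Fermat.Agent.Lib.PT

end
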