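/-
G1 (global modules for the S55 long-haul), part 11: THE BIG MODULES over `Q̄ = AlgebraicClosure ℚ`.

* any two `q`-adic embeddings of `Q̄` differ by an element of `G_ℚ`;
* infinite Galois descent for ideles: the image of `J_E → J_{Q̄}` is the set of ideles fixed by
  all `γ ∈ G_ℚ` fixing `E`;
* the smooth `S`-ideles `𝒥_S ≤ J_{Q̄}` (fixed by `Fix F` for some `F` unramified outside `S`),
  stable under `G_ℚ`, the union of the images of `J_F`;
* the relation subgroup `𝒩_S = ℚ_Sˣ · 𝒰_S` and the class module `𝒞_S = 𝒥_S / 𝒩_S` with its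
  `G_ℚ`-action, as a multiplicative quotient and as a `Representation ℤ G_ℚ` on `Additive`.
-/
import Fermat.Agent.Lib.PT.GModDescent
import Fermat.Agent.Lib.PT.GLevelField

set_option autoImplicit false
set_option linter.unusedVariables false
set_option linter.unusedSectionVars false
set_option linter.style.haveILetI false

noncomputable section

namespace Fermat.Agent.Lib.PT

open IntermediateField

local notation "Qbar" => AlgebraicClosure ℚ
local notation "GQ" => (AlgebraicClosure ℚ ≃ₐ[ℚ] AlgebraicClosure ℚ)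

/-! ### Embeddings of `Q̄` -/

/-- Any two `q`-adic embeddings of `Q̄` differ by an automorphism of `Q̄`. -/
theorem ptj_exists_pre_eq_Qbar {q : Nat.Primes} (σ σ' : ptj_Emb Qbar q) :
    ∃ γ : GQ, σ' = ptj_pre γ σ := by
  haveI : IsAlgClosure ℚ Qbar := ⟨inferInstance, AlgebraicClosure.isAlgebraic ℚ⟩
  haveI : Normal ℚ Qbar := IsAlgClosure.normal ℚ Qbar
  letI : Algebra Qbar (ptj_Om q) := σ.toAlgebra
  haveI : IsScalarTower ℚ Qbar (ptj_Om q) :=
    IsScalarTower.of_algebraMap_eq' (Subsingleton.elim _ _)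
  let σ'a : Qbar →ₐ[ℚ] ptj_Om q :=
    { (σ' : Qbar →+* ptj_Om q) with
      commutes' := fun r => by
        show σ' (algebraMap ℚ Qbar r) = algebraMap ℚ (ptj_Om q) r
        rw [eq_ratCast, eq_ratCast, map_ratCast] }
  let e : GQ := σ'a.restrictNormal' Qbar
  refine ⟨e, ?_⟩
  ext x
  have h1 : algebraMap Qbar (ptj_Om q) (σ'a.restrictNormal Qbar x) = σ'a (algebraMap Qbar Qbar x) :=
    σ'a.restrictNormal_commutes Qbar x
  show σ' x = σ (e x)
  exact h1.symm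

/-- Two embeddings of `Q̄` with the same restriction to `E` differ by an automorphism fixing
`E`. -/
theorem ptj_exists_pre_eq_Qbar_of_res {E : Type*} [Field E] [Algebra E Qbar] {q : Nat.Primes}
    {σ σ' : ptj_Emb Qbar q} (h : ptj_resEmb (F := E) σ = ptj_resEmb σ') :
    ∃ γ : GQ, (∀ x : E, γ (algebraMap E Qbar x) = algebraMap E Qbar x) ∧ σ' = ptj_pre γ σ := by
  obtain ⟨γ, rfl⟩ := ptj_exists_pre_eq_Qbar σ σ'
  refine ⟨γ, fun x => ?_, rfl⟩
  have := congrArg (fun ρ : ptj_Emb E q => ρ x) h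
  exact (σ.injective this).symm

/-! ### Infinite Galois descent for ideles -/

/-- `γ` fixes the image of `E` in `Q̄`. -/
def ptj_FixesE (E : Type*) [Field E] [Algebra E Qbar] (γ : GQ) : Prop :=
  ∀ x : E, γ (algebraMap E Qbar x) = algebraMap E Qbar x

lemma ptj_smul_up_Qbar {E : Type*} [Field E] [Algebra E Qbar] {γ : GQ} (hγ : ptj_FixesE E γ)
    (g : ptj_J E) : γ • ptj_up E Qbar g = ptj_up E Qbar g := by
  apply Subtype.ext
  funext q σ
  show (g : ptj_Amb E) q (ptj_resEmb (ptj_pre γ σ)) = (g : ptj_Amb E) q (ptj_resEmb σ)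
  have h : ptj_resEmb (F := E) (ptj_pre γ σ) = ptj_resEmb σ := by
    ext x
    show σ (γ (algebraMap E Qbar x)) = σ (algebraMap E Qbar x)
    rw [hγ x]
  rw [h]

/-- Galois descent: the image of `J_E` in `J_{Q̄}` is the set of ideles fixed by `Gal(Q̄/E)`. -/
theorem ptj_mem_range_up_Qbar_iff {E : Type*} [Field E] [Algebra E Qbar]
    [Algebra.IsAlgebraic E Qbar] (f : ptj_J Qbar) :
    f ∈ (ptj_up E Qbar).range ↔ ∀ γ : GQ, ptj_FixesE E γ → γ • f = f := by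
  constructor
  · rintro ⟨g, rfl⟩ γ hγ
    exact ptj_smul_up_Qbar hγ g
  · intro hinv
    have hdep : ∀ (q : Nat.Primes) (σ σ' : ptj_Emb Qbar q),
        ptj_resEmb (F := E) σ = ptj_resEmb σ' →
        (f : ptj_Amb Qbar) q σ' = (f : ptj_Amb Qbar) q σ := by
      intro q σ σ' h
      obtain ⟨γ, hγ, rfl⟩ := ptj_exists_pre_eq_Qbar_of_res h
      have := congrArg (fun x : ptj_J Qbar => (x : ptj_Amb Qbar) q σ) (hinv γ hγ)
      exact this
    choose ext hext using fun (q : Nat.Primes) (φ : ptj_Emb E q) =>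
      ptj_resEmb_surjective (K := Qbar) φ
    let g : ptj_Amb E := fun q φ => (f : ptj_Amb Qbar) q (ext q φ)
    have hg : g ∈ ptj_J E := by
      refine ⟨fun q τ φ => ?_, f.2.2.mono fun q h φ => h (ext q φ)⟩
      show (f : ptj_Amb Qbar) q (ext q (ptj_post τ φ))
        = ptj_tauU τ ((f : ptj_Amb Qbar) q (ext q φ))
      rw [← f.2.1 q τ (ext q φ)]
      apply hdep
      rw [ptj_resEmb_post, hext, hext]
    refine ⟨⟨g, hg⟩, ?_⟩
    apply Subtype.ext
    funext q σ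
    show (f : ptj_Amb Qbar) q (ext q (ptj_resEmb σ)) = (f : ptj_Amb Qbar) q σ
    apply hdep
    rw [hext]

/-- For an intermediate field, `ptj_FixesE` is membership in the fixing subgroup. -/
lemma ptj_fixesE_iff (F : IntermediateField ℚ Qbar) (γ : GQ) :
    ptj_FixesE F γ ↔ γ ∈ F.fixingSubgroup := by
  rw [IntermediateField.mem_fixingSubgroup_iff]
  exact ⟨fun h x hx => h ⟨x, hx⟩, fun h x => h x x.2⟩

/-- Descent for intermediate fields. -/
theorem ptj_mem_range_up_field_iff (F : IntermediateField ℚ Qbar) (f : ptj_J Qbar) :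
    f ∈ (ptj_up F Qbar).range ↔ ∀ γ ∈ F.fixingSubgroup, γ • f = f := by
  rw [ptj_mem_range_up_Qbar_iff]
  exact ⟨fun h γ hγ => h γ ((ptj_fixesE_iff F γ).2 hγ),
    fun h γ hγ => h γ ((ptj_fixesE_iff F γ).1 hγ)⟩

/-! ### Smooth `S`-ideles -/

variable (S : Finset Nat.Primes)

/-- The smooth `S`-ideles of `Q̄`: ideles fixed by `Fix F` for some `F` unramified outside `S`;
equivalently the union of the images of `J_F`, `F ⊆ ℚ_S` finite. -/
def ptj_JS : Subgroup (ptj_J Qbar) where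
  carrier := {f | ∃ F : IntermediateField ℚ Qbar, F.IsUnramifiedOutside S ∧
    ∀ γ ∈ F.fixingSubgroup, γ • f = f}
  one_mem' := ⟨⊥, IntermediateField.isUnramifiedOutside_bot S, fun γ _ => smul_one γ⟩
  mul_mem' := by
    rintro f g ⟨F, hF, hf⟩ ⟨F', hF', hg⟩
    refine ⟨F ⊔ F', hF.sup hF', fun γ hγ => ?_⟩
    rw [IntermediateField.fixingSubgroup_sup] at hγ
    rw [smul_mul', hf γ hγ.1, hg γ hγ.2]
  inv_mem' := by
    rintro f ⟨F, hF, hf⟩
    exact ⟨F, hF, fun γ hγ => by rw [smul_inv', hf γ hγ]⟩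

variable {S}

lemma ptj_mem_JS_iff (f : ptj_J Qbar) :
    f ∈ ptj_JS S ↔ ∃ F : IntermediateField ℚ Qbar, F.IsUnramifiedOutside S ∧
      ∀ γ ∈ F.fixingSubgroup, γ • f = f := Iff.rfl

/-- The level can be taken Galois over `ℚ`. -/
lemma ptj_exists_stable_level {f : ptj_J Qbar} (hf : f ∈ ptj_JS S) :
    ∃ F : IntermediateField ℚ Qbar, F.IsUnramifiedOutside S ∧ (∀ σ : GQ, ∀ x ∈ F, σ x ∈ F) ∧
      ∀ γ ∈ F.fixingSubgroup, γ • f = f := by
  obtain ⟨F, hF, h⟩ := hf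
  refine ⟨pta_galClosure F, pta_isUnramifiedOutside_galClosure hF, pta_galClosure_stable F,
    fun γ hγ => h γ ?_⟩
  exact IntermediateField.fixingSubgroup_antitone (pta_le_galClosure F) hγ

/-- The smooth `S`-ideles are the union of the images of the `J_F`. -/
lemma ptj_mem_JS_iff_exists_up (f : ptj_J Qbar) :
    f ∈ ptj_JS S ↔ ∃ F : IntermediateField ℚ Qbar, F.IsUnramifiedOutside S ∧
      f ∈ (ptj_up F Qbar).range := by
  constructor
  · rintro ⟨F, hF, h⟩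
    exact ⟨F, hF, (ptj_mem_range_up_field_iff F f).2 h⟩
  · rintro ⟨F, hF, h⟩
    exact ⟨F, hF, (ptj_mem_range_up_field_iff F f).1 h⟩

lemma ptj_up_mem_JS {F : IntermediateField ℚ Qbar} (hF : F.IsUnramifiedOutside S)
    (g : ptj_J F) : ptj_up F Qbar g ∈ ptj_JS S :=
  (ptj_mem_JS_iff_exists_up _).2 ⟨F, hF, g, rfl⟩

/-- `G_ℚ` preserves the smooth `S`-ideles. -/
lemma ptj_smul_mem_JS (γ₀ : GQ) {f : ptj_J Qbar} (hf : f ∈ ptj_JS S) : γ₀ • f ∈ ptj_JS S := by
  obtain ⟨F, hF, hst, h⟩ := ptj_exists_stable_level hf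
  refine ⟨F, hF, fun γ hγ => ?_⟩
  haveI := pta_normal_fixingSubgroup hst
  have h1 : γ₀⁻¹ * γ * γ₀ ∈ F.fixingSubgroup := by
    have := (inferInstance : F.fixingSubgroup.Normal).conj_mem γ hγ γ₀⁻¹
    simpa using this
  have h2 := h _ h1
  calc γ • γ₀ • f = γ₀ • ((γ₀⁻¹ * γ * γ₀) • f) := by
        rw [← mul_smul, ← mul_smul]; congr 1; group
    _ = γ₀ • f := by rw [h2]


/-- The action of `G_ℚ` on the smooth `S`-ideles. -/
instance ptj_JSAction : MulDistribMulAction GQ (ptj_JS S) where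
  smul γ f := ⟨γ • (f : ptj_J Qbar), ptj_smul_mem_JS γ f.2⟩
  one_smul f := Subtype.ext (one_smul GQ (f : ptj_J Qbar))
  mul_smul γ γ' f := Subtype.ext (mul_smul γ γ' (f : ptj_J Qbar))
  smul_mul γ f g := Subtype.ext (smul_mul' γ (f : ptj_J Qbar) (g : ptj_J Qbar))
  smul_one γ := Subtype.ext (smul_one γ)

@[simp] lemma ptj_JS_smul_coe (γ : GQ) (f : ptj_JS S) :
    ((γ • f : ptj_JS S) : ptj_J Qbar) = γ • (f : ptj_J Qbar) := rfl

/-! ### Principal smooth ideles: `ℚ_Sˣ` -/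

/-- `diag x` is fixed by `γ` iff `γ x = x`. -/
lemma ptj_smul_diag_Qbar (γ : GQ) (x : Qbarˣ) :
    γ • ptj_diag Qbar x = ptj_diag Qbar (Units.map (γ : Qbar →* Qbar) x) := by
  apply Subtype.ext
  funext q σ
  ext
  rfl

variable (S) in
/-- `x ∈ ℚ_S`: `x` lies in a finite extension of `ℚ` unramified outside `S`. -/
def ptj_QS : Subgroup Qbarˣ where
  carrier := {x | ∃ F : IntermediateField ℚ Qbar, F.IsUnramifiedOutside S ∧ (x : Qbar) ∈ F}
  one_mem' := ⟨⊥, IntermediateField.isUnramifiedOutside_bot S, by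
    rw [Units.val_one]; exact one_mem _⟩
  mul_mem' := by
    rintro x y ⟨F, hF, hx⟩ ⟨F', hF', hy⟩
    refine ⟨F ⊔ F', hF.sup hF', ?_⟩
    rw [Units.val_mul]
    exact mul_mem ((le_sup_left : F ≤ F ⊔ F') hx) ((le_sup_right : F' ≤ F ⊔ F') hy)
  inv_mem' := by
    rintro x ⟨F, hF, hx⟩
    refine ⟨F, hF, ?_⟩
    rw [Units.val_inv_eq_inv_val]
    exact inv_mem hx

lemma ptj_diag_mem_JS {x : Qbarˣ} (hx : x ∈ ptj_QS S) : ptj_diag Qbar x ∈ ptj_JS S := by
  obtain ⟨F, hF, hxF⟩ := hx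
  refine ⟨F, hF, fun γ hγ => ?_⟩
  rw [ptj_smul_diag_Qbar]
  congr 1
  ext
  rw [IntermediateField.mem_fixingSubgroup_iff] at hγ
  exact hγ x hxF

lemma ptj_smul_mem_QS (γ : GQ) {x : Qbarˣ} (hx : x ∈ ptj_QS S) :
    Units.map (γ : Qbar →* Qbar) x ∈ ptj_QS S := by
  obtain ⟨F, hF, hxF⟩ := hx
  exact ⟨F.map (γ : Qbar →ₐ[ℚ] Qbar), pta_isUnramifiedOutside_map hF γ, ⟨x, hxF, rfl⟩⟩

variable (S) in
/-- The principal smooth `S`-ideles `𝒫_S = diag(ℚ_Sˣ)`. -/
def ptj_PS : Subgroup (ptj_J Qbar) := (ptj_QS S).map (ptj_diag Qbar)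

lemma ptj_PS_le_JS : ptj_PS S ≤ ptj_JS S := by
  rintro _ ⟨x, hx, rfl⟩
  exact ptj_diag_mem_JS hx

lemma ptj_smul_mem_PS (γ : GQ) {f : ptj_J Qbar} (hf : f ∈ ptj_PS S) : γ • f ∈ ptj_PS S := by
  obtain ⟨x, hx, rfl⟩ := hf
  rw [ptj_smul_diag_Qbar]
  exact ⟨_, ptj_smul_mem_QS γ hx, rfl⟩

/-! ### Unit ideles outside `S` -/

variable (S) in
/-- The smooth unit ideles supported outside `S`: `𝒰_S = colim U_{F,S}`. -/
def ptj_US : Subgroup (ptj_J Qbar) := ptj_UT Qbar S ⊓ ptj_JS S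

lemma ptj_US_le_JS : ptj_US S ≤ ptj_JS S := inf_le_right

lemma ptj_smul_mem_US (γ : GQ) {f : ptj_J Qbar} (hf : f ∈ ptj_US S) : γ • f ∈ ptj_US S :=
  ⟨ptj_smul_mem_UT γ hf.1, ptj_smul_mem_JS γ hf.2⟩

/-! ### The class module `𝒞_S` -/

variable (S) in
/-- The relation subgroup `𝒩_S = ℚ_Sˣ · 𝒰_S`. -/
def ptj_NS : Subgroup (ptj_J Qbar) := ptj_PS S ⊔ ptj_US S

lemma ptj_NS_le_JS : ptj_NS S ≤ ptj_JS S := sup_le ptj_PS_le_JS ptj_US_le_JS

lemma ptj_mem_NS_iff (f : ptj_J Qbar) :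
    f ∈ ptj_NS S ↔ ∃ x ∈ ptj_QS S, ∃ u ∈ ptj_US S, f = ptj_diag Qbar x * u := by
  constructor
  · intro hf
    obtain ⟨a, ⟨x, hx, rfl⟩, u, hu, rfl⟩ := Subgroup.mem_sup.1 hf
    exact ⟨x, hx, u, hu, rfl⟩
  · rintro ⟨x, hx, u, hu, rfl⟩
    exact Subgroup.mem_sup.2 ⟨_, ⟨x, hx, rfl⟩, u, hu, rfl⟩

lemma ptj_smul_mem_NS (γ : GQ) {f : ptj_J Qbar} (hf : f ∈ ptj_NS S) : γ • f ∈ ptj_NS S := by
  obtain ⟨a, ha, b, hb, rfl⟩ := Subgroup.mem_sup.1 hf
  rw [smul_mul']
  exact Subgroup.mem_sup.2 ⟨γ • a, ptj_smul_mem_PS γ ha, γ • b, ptj_smul_mem_US γ hb, rfl⟩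

variable (S) in
/-- `𝒩_S` as a subgroup of `𝒥_S`. -/
def ptj_NSsub : Subgroup (ptj_JS S) := (ptj_NS S).subgroupOf (ptj_JS S)

lemma ptj_mem_NSsub_iff (f : ptj_JS S) : f ∈ ptj_NSsub S ↔ (f : ptj_J Qbar) ∈ ptj_NS S :=
  Subgroup.mem_subgroupOf

variable (S) in
/-- The `S`-idele class module of `ℚ_S`: `𝒞_S = 𝒥_S / (ℚ_Sˣ · 𝒰_S) = colim_F C_S(F)`
(multiplicative version). -/
abbrev ptj_CSm : Type := ptj_JS S ⧸ ptj_NSsub S

/-- The action of `G_ℚ` on `𝒞_S`. -/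
instance ptj_CSmAction : MulDistribMulAction GQ (ptj_CSm S) where
  smul γ := Quotient.map' (fun f => γ • f) (fun a b hab => by
    rw [QuotientGroup.leftRel_apply] at hab ⊢
    rw [ptj_mem_NSsub_iff] at hab ⊢
    have := ptj_smul_mem_NS γ hab
    rw [show ((a⁻¹ * b : ptj_JS S) : ptj_J Qbar) = (a : ptj_J Qbar)⁻¹ * b from rfl] at this
    rwa [smul_mul', smul_inv'] at this)
  one_smul c := by
    induction c using QuotientGroup.induction_on with
    | H f => exact congrArg _ (one_smul GQ f)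
  mul_smul γ γ' c := by
    induction c using QuotientGroup.induction_on with
    | H f => exact congrArg _ (mul_smul γ γ' f)
  smul_mul γ c d := by
    induction c using QuotientGroup.induction_on with
    | H f =>
      induction d using QuotientGroup.induction_on with
      | H g => exact congrArg _ (smul_mul' γ f g)
  smul_one γ := congrArg _ (smul_one γ)

@[simp] lemma ptj_CSm_smul_mk (γ : GQ) (f : ptj_JS S) :
    γ • (QuotientGroup.mk f : ptj_CSm S) = QuotientGroup.mk (γ • f) := rfl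

variable (S) in
/-- The projection `𝒥_S → 𝒞_S`. -/
def ptj_CSmk : ptj_JS S →* ptj_CSm S := QuotientGroup.mk' (ptj_NSsub S)

lemma ptj_CSmk_surjective : Function.Surjective (ptj_CSmk S) := QuotientGroup.mk'_surjective _

lemma ptj_CSmk_eq_one_iff (f : ptj_JS S) : ptj_CSmk S f = 1 ↔ (f : ptj_J Qbar) ∈ ptj_NS S := by
  rw [ptj_CSmk, QuotientGroup.mk'_apply, QuotientGroup.eq_one_iff, ptj_mem_NSsub_iff]

lemma ptj_CSmk_smul (γ : GQ) (f : ptj_JS S) : ptj_CSmk S (γ • f) = γ • ptj_CSmk S f := rfl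

/-- Every class is fixed by a level (discreteness). -/
lemma ptj_CSm_exists_level (c : ptj_CSm S) :
    ∃ F : IntermediateField ℚ Qbar, F.IsUnramifiedOutside S ∧ (∀ σ : GQ, ∀ x ∈ F, σ x ∈ F) ∧
      ∀ γ ∈ F.fixingSubgroup, γ • c = c := by
  obtain ⟨f, rfl⟩ := ptj_CSmk_surjective c
  obtain ⟨F, hF, hst, h⟩ := ptj_exists_stable_level f.2
  refine ⟨F, hF, hst, fun γ hγ => ?_⟩
  rw [← ptj_CSmk_smul]
  congr 1
  exact Subtype.ext (h γ hγ)

variable (S) in
/-- `𝒞_S` written additively: the module of the big-group model. -/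
def ptj_CS : Type := Additive (ptj_CSm S)

instance ptj_CS_addCommGroup : AddCommGroup (ptj_CS S) :=
  inferInstanceAs (AddCommGroup (Additive (ptj_CSm S)))

/-- `𝒞_S` multiplicative to additive. -/
def ptj_CSof : ptj_CSm S ≃ ptj_CS S := Additive.ofMul

@[simp] lemma ptj_CSof_mul (c d : ptj_CSm S) : ptj_CSof (c * d) = ptj_CSof c + ptj_CSof d := rfl

@[simp] lemma ptj_CSof_one : ptj_CSof (1 : ptj_CSm S) = 0 := rfl

@[simp] lemma ptj_CSof_inv (c : ptj_CSm S) : ptj_CSof c⁻¹ = -ptj_CSof c := rfl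

lemma ptj_CSof_zpow (c : ptj_CSm S) (n : ℤ) : ptj_CSof (c ^ n) = n • ptj_CSof c := rfl

lemma ptj_CSof_pow (c : ptj_CSm S) (n : ℕ) : ptj_CSof (c ^ n) = n • ptj_CSof c := rfl

variable (S) in
/-- The `G_ℚ`-representation on `𝒞_S`. -/
def ptj_CSrep : Representation ℤ GQ (ptj_CS S) where
  toFun γ :=
    { toFun := fun c => ptj_CSof (γ • ptj_CSof.symm c)
      map_add' := fun c d => by
        show ptj_CSof (γ • (ptj_CSof.symm c * ptj_CSof.symm d)) = _
        rw [smul_mul']; rfl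
      map_smul' := fun n c => by
        show ptj_CSof (γ • (ptj_CSof.symm c ^ n)) = n • ptj_CSof (γ • ptj_CSof.symm c)
        rw [smul_zpow']; rfl }
  map_one' := by
    ext c
    show ptj_CSof ((1 : GQ) • ptj_CSof.symm c) = c
    rw [one_smul]; rfl
  map_mul' γ γ' := by
    ext c
    show ptj_CSof ((γ * γ') • ptj_CSof.symm c) = ptj_CSof (γ • (γ' • ptj_CSof.symm c))
    rw [mul_smul]

@[simp] lemma ptj_CSrep_apply (γ : GQ) (c : ptj_CSm S) :
    ptj_CSrep S γ (ptj_CSof c) = ptj_CSof (γ • c) := rfl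

end Fermat.Agent.Lib.PT

end
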