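/-
G1 (global modules for the S55 long-haul), part 12: FINITE LEVELS OF THE BIG CLASS MODULE.

For a field `E` with an embedding into `Q̄` (in practice `E = ↥F`, `F` an intermediate field),
unramified outside `S`:
* `ptj_upS E : J_E → 𝒥_S`, `ptj_iota E : C_S(E) = J_E/(Eˣ·U_{E,S}) → 𝒞_S`;
* Galois levels `L : IntermediateField E Q̄` above `E` containing any given `S`-unramified field;
* `ptj_iota E` is injective (`S ≠ ∅`);
* its image is the group of `Gal(Q̄/E)`-invariants of `𝒞_S` (given Hilbert 90 for units in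
  the `S`-unramified tower, hypothesis `ptj_TowerH90`);
* equivariance for `G_ℚ → Gal(F/ℚ)`.
-/
import Fermat.Agent.Lib.PT.GModBigA

set_option autoImplicit false
set_option linter.unusedVariables false
set_option linter.unusedSectionVars false
set_option linter.style.haveILetI false

noncomputable section

namespace Fermat.Agent.Lib.PT

open IntermediateField

local notation "Qbar" => AlgebraicClosure ℚ
local notation "GQ" => (AlgebraicClosure ℚ ≃ₐ[ℚ] AlgebraicClosure ℚ)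

/-! ### Generalities -/

/-- A field with an embedding into `Q̄` is algebraic over `ℚ`. -/
theorem ptj_isAlgebraic_of_algebra_Qbar (E : Type*) [Field E] [CharZero E] [Algebra E Qbar] :
    Algebra.IsAlgebraic ℚ E :=
  Algebra.IsAlgebraic.of_injective (algebraMap E Qbar).toRatAlgHom (algebraMap E Qbar).injective

instance ptj_isAlgebraic_interm (E : Type*) [Field E] [Algebra E Qbar]
    (L : IntermediateField E Qbar) : Algebra.IsAlgebraic ℚ ↥L :=
  ptj_isAlgebraic_of_algebra_Qbar L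

/-- Transitivity of `J_F → J_K → J_L`. -/
lemma ptj_up_up {F K L : Type*} [Field F] [Field K] [Field L] [Algebra F K] [Algebra K L]
    [Algebra F L] [IsScalarTower F K L] (g : ptj_J F) :
    ptj_up K L (ptj_up F K g) = ptj_up F L g := by
  apply Subtype.ext
  funext q σ
  show (g : ptj_Amb F) q (ptj_resEmb (ptj_resEmb σ)) = (g : ptj_Amb F) q (ptj_resEmb σ)
  have h : ptj_resEmb (F := F) (ptj_resEmb (F := K) σ) = ptj_resEmb σ := by
    ext x
    show σ (algebraMap K L (algebraMap F K x)) = σ (algebraMap F L x)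
    rw [← IsScalarTower.algebraMap_apply]
  rw [h]

/-- If `up u` is a unit idele outside `T` then so is `u`. -/
lemma ptj_mem_UT_of_up_mem_UT {F K : Type*} [Field F] [Field K] [Algebra F K]
    [Algebra.IsAlgebraic F K] {T : Finset Nat.Primes} {u : ptj_J F}
    (hu : ptj_up F K u ∈ ptj_UT K T) : u ∈ ptj_UT F T := by
  refine ⟨fun q hq => ?_, fun q hq φ => ?_⟩
  · funext φ
    obtain ⟨σ, rfl⟩ := ptj_resEmb_surjective (K := K) φ
    exact congrFun (hu.1 q hq) σ
  · obtain ⟨σ, rfl⟩ := ptj_resEmb_surjective (K := K) φ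
    exact hu.2 q hq σ

section General

variable {S : Finset Nat.Primes} (E : Type*) [Field E] [CharZero E] [Algebra E Qbar]

/-- The image of `E` in `Q̄`, as an intermediate field of `Q̄/ℚ`. -/
def ptj_imField : IntermediateField ℚ Qbar :=
  (⊥ : IntermediateField E Qbar).restrictScalars ℚ

lemma ptj_mem_imField_iff (y : Qbar) : y ∈ ptj_imField E ↔ ∃ x : E, algebraMap E Qbar x = y := by
  show y ∈ (⊥ : IntermediateField E Qbar) ↔ _
  rw [IntermediateField.mem_bot]
  rfl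

lemma ptj_imField_eq (F : IntermediateField ℚ Qbar) : ptj_imField F = F := by
  ext y
  rw [ptj_mem_imField_iff]
  exact ⟨fun ⟨x, hx⟩ => hx ▸ x.2, fun hy => ⟨⟨y, hy⟩, rfl⟩⟩

lemma ptj_fixesE_iff_imField (γ : GQ) :
    ptj_FixesE E γ ↔ γ ∈ (ptj_imField E).fixingSubgroup := by
  rw [IntermediateField.mem_fixingSubgroup_iff]
  constructor
  · intro h y hy
    obtain ⟨x, rfl⟩ := (ptj_mem_imField_iff E y).1 hy
    exact h x
  · intro h x
    exact h _ ((ptj_mem_imField_iff E _).2 ⟨x, rfl⟩)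

lemma ptj_imField_le (L : IntermediateField E Qbar) : ptj_imField E ≤ L.restrictScalars ℚ := by
  intro y hy
  obtain ⟨x, rfl⟩ := (ptj_mem_imField_iff E y).1 hy
  exact L.algebraMap_mem x

lemma ptj_imField_interm (L : IntermediateField E Qbar) :
    ptj_imField L = L.restrictScalars ℚ := by
  ext y
  rw [ptj_mem_imField_iff]
  exact ⟨fun ⟨x, hx⟩ => hx ▸ x.2, fun hy => ⟨⟨y, hy⟩, rfl⟩⟩

variable {E}

/-- Descent for a general base field. -/
theorem ptj_mem_range_up_iff_imField [Algebra.IsAlgebraic E Qbar] (f : ptj_J Qbar) :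
    f ∈ (ptj_up E Qbar).range ↔ ∀ γ ∈ (ptj_imField E).fixingSubgroup, γ • f = f := by
  rw [ptj_mem_range_up_Qbar_iff]
  exact ⟨fun h γ hγ => h γ ((ptj_fixesE_iff_imField E γ).2 hγ),
    fun h γ hγ => h γ ((ptj_fixesE_iff_imField E γ).1 hγ)⟩

variable (S E) in
/-- `E` (rather its image in `Q̄`) is unramified outside `S`. -/
def ptj_IsUnrE : Prop := (ptj_imField E).IsUnramifiedOutside S

lemma ptj_up_mem_JS_of_isUnrE [Algebra.IsAlgebraic E Qbar] (hE : ptj_IsUnrE S E) (g : ptj_J E) :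
    ptj_up E Qbar g ∈ ptj_JS S :=
  ⟨ptj_imField E, hE, (ptj_mem_range_up_iff_imField _).1 ⟨g, rfl⟩⟩

variable (S E) in
/-- `J_E → 𝒥_S`. -/
def ptj_upS [Algebra.IsAlgebraic E Qbar] (hE : ptj_IsUnrE S E) : ptj_J E →* ptj_JS S :=
  (ptj_up E Qbar).codRestrict (ptj_JS S) (ptj_up_mem_JS_of_isUnrE hE)

@[simp] lemma ptj_upS_coe [Algebra.IsAlgebraic E Qbar] (hE : ptj_IsUnrE S E) (g : ptj_J E) :
    ((ptj_upS S E hE g : ptj_JS S) : ptj_J Qbar) = ptj_up E Qbar g := rfl

variable [Algebra.IsAlgebraic ℚ E]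

lemma ptj_up_diag_mem_PS (hE : ptj_IsUnrE S E) (x : Eˣ) :
    ptj_up E Qbar (ptj_diag E x) ∈ ptj_PS S := by
  rw [ptj_up_diag]
  exact ⟨_, ⟨ptj_imField E, hE, (ptj_mem_imField_iff E _).2 ⟨x, rfl⟩⟩, rfl⟩

lemma ptj_up_mem_NS [Algebra.IsAlgebraic E Qbar] (hE : ptj_IsUnrE S E) {g : ptj_J E}
    (hg : g ∈ ptj_princUT E S) : ptj_up E Qbar g ∈ ptj_NS S := by
  obtain ⟨x, u, hu, rfl⟩ := (ptj_mem_princUT_iff g).1 hg
  rw [map_mul]
  exact Subgroup.mem_sup.2 ⟨_, ptj_up_diag_mem_PS hE x, _,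
    ⟨ptj_up_mem_UT hu, ptj_up_mem_JS_of_isUnrE hE u⟩, rfl⟩

variable (S E) in
/-- `ι_E : C_S(E) → 𝒞_S`. -/
def ptj_iota [Algebra.IsAlgebraic E Qbar] (hE : ptj_IsUnrE S E) : ptj_CT E S →* ptj_CSm S :=
  QuotientGroup.map (ptj_princUT E S) (ptj_NSsub S) (ptj_upS S E hE) fun g hg => by
    rw [Subgroup.mem_comap, ptj_mem_NSsub_iff]
    exact ptj_up_mem_NS hE hg

@[simp] lemma ptj_iota_mk [Algebra.IsAlgebraic E Qbar] (hE : ptj_IsUnrE S E) (g : ptj_J E) :
    ptj_iota S E hE (QuotientGroup.mk g) = ptj_CSmk S (ptj_upS S E hE g) := rfl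


/-! ### Galois levels above `E` -/

omit [Algebra.IsAlgebraic ℚ E] in
/-- Above `E` (unramified outside `S`) there is a finite Galois level, unramified outside `S`,
Galois over `ℚ`, containing any given field unramified outside `S`. -/
theorem ptj_exists_galois_level [Algebra.IsAlgebraic E Qbar] (hE : ptj_IsUnrE S E)
    {F₁ : IntermediateField ℚ Qbar} (hF₁ : F₁.IsUnramifiedOutside S) :
    ∃ L : IntermediateField E Qbar, FiniteDimensional E L ∧ IsGalois E L ∧
      (L.restrictScalars ℚ).IsUnramifiedOutside S ∧ F₁ ≤ L.restrictScalars ℚ ∧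
      (∀ σ : GQ, ∀ x ∈ L.restrictScalars ℚ, σ x ∈ L.restrictScalars ℚ) := by
  set L₀ : IntermediateField ℚ Qbar := pta_galClosure (ptj_imField E ⊔ F₁) with hL₀
  have hL₀u : L₀.IsUnramifiedOutside S := pta_isUnramifiedOutside_galClosure (hE.sup hF₁)
  have hEL₀ : ptj_imField E ≤ L₀ := le_sup_left.trans (pta_le_galClosure _)
  have hF₁L₀ : F₁ ≤ L₀ := le_sup_right.trans (pta_le_galClosure _)
  let L : IntermediateField E Qbar := L₀.toSubfield.toIntermediateField fun x =>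
    hEL₀ ((ptj_mem_imField_iff E _).2 ⟨x, rfl⟩)
  have hLr : L.restrictScalars ℚ = L₀ := by
    ext y
    rfl
  have hst : ∀ σ : GQ, ∀ x ∈ L₀, σ x ∈ L₀ := fun σ x hx => pta_galClosure_stable _ σ x hx
  haveI : FiniteDimensional ℚ L₀ := hL₀u.1
  -- finiteness
  have hfin : FiniteDimensional E L := by
    let φ : ↥L →+* ↥L₀ :=
      { toFun := fun x => ⟨x.1, x.2⟩
        map_one' := rfl
        map_mul' := fun _ _ => rfl
        map_zero' := rfl
        map_add' := fun _ _ => rfl }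
    haveI : Module.Finite ℚ ↥L :=
      Module.Finite.of_injective φ.toRatAlgHom.toLinearMap fun a b h => by
        apply Subtype.ext
        exact congrArg (fun z : ↥L₀ => (z : Qbar)) h
    exact Module.Finite.of_restrictScalars_finite ℚ E ↥L
  haveI := hfin
  -- normality
  haveI : IsAlgClosure E Qbar := ⟨inferInstance, inferInstance⟩
  haveI : Normal E Qbar := IsAlgClosure.normal E Qbar
  have hnorm : Normal E L := by
    rw [IntermediateField.normal_iff_forall_map_le']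
    rintro σ _ ⟨x, hx, rfl⟩
    exact hst (σ.restrictScalars ℚ) x hx
  haveI := hnorm
  refine ⟨L, hfin, ⟨⟩, hLr ▸ hL₀u, hLr ▸ hF₁L₀, ?_⟩
  rw [hLr]
  exact hst

section Compat

variable {Γ : Type*} [Group Γ] [MulSemiringAction Γ E]

omit [CharZero E] [Algebra.IsAlgebraic ℚ E] in
/-- `J_E → J_{Q̄}` is equivariant for compatible automorphisms. -/
lemma ptj_up_smul_compat (γ' : Γ) (γ : GQ)
    (h : ∀ x : E, algebraMap E Qbar (γ' • x) = γ (algebraMap E Qbar x)) (g : ptj_J E) :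
    ptj_up E Qbar (γ' • g) = γ • ptj_up E Qbar g := by
  apply Subtype.ext
  funext q σ
  show (g : ptj_Amb E) q (ptj_pre γ' (ptj_resEmb σ)) = (g : ptj_Amb E) q (ptj_resEmb (ptj_pre γ σ))
  have h1 : ptj_pre γ' (ptj_resEmb (F := E) σ) = ptj_resEmb (ptj_pre γ σ) := by
    ext x
    show σ (algebraMap E Qbar (γ' • x)) = σ (γ (algebraMap E Qbar x))
    rw [h]
  rw [h1]

end Compat

/-! ### Injectivity of `ι_E` -/

/-- The core of injectivity: an idele of `E` which becomes trivial in `𝒞_S` is in `Eˣ·U_{E,S}`. -/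
theorem ptj_mem_princUT_of_up_mem_NS [Algebra.IsAlgebraic E Qbar] (hS : S.Nonempty)
    (hE : ptj_IsUnrE S E) {g : ptj_J E} (h : ptj_up E Qbar g ∈ ptj_NS S) :
    g ∈ ptj_princUT E S := by
  obtain ⟨x, ⟨F₁, hF₁, hx⟩, u, ⟨huT, F₂, hF₂, hu⟩, hgxu⟩ := (ptj_mem_NS_iff _).1 h
  obtain ⟨L, hfin, hgal, hLu, hFL, -⟩ := ptj_exists_galois_level hE (hF₁.sup hF₂)
  haveI := hfin
  haveI := hgal
  have hF₁L : F₁ ≤ L.restrictScalars ℚ := le_sup_left.trans hFL
  have hF₂L : F₂ ≤ L.restrictScalars ℚ := le_sup_right.trans hFL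
  -- `x` comes from `L`
  have hxL : (x : Qbar) ∈ L := hF₁L hx
  have hxiL : ((x⁻¹ : Qbarˣ) : Qbar) ∈ L := by
    rw [Units.val_inv_eq_inv_val]; exact inv_mem hxL
  let xL : (↥L)ˣ :=
    ⟨⟨x, hxL⟩, ⟨(x⁻¹ : Qbarˣ), hxiL⟩, Subtype.ext (by simp), Subtype.ext (by simp)⟩
  have hxL' : ptj_diag Qbar x = ptj_up L Qbar (ptj_diag L xL) := by
    rw [ptj_up_diag]
    congr 1
  -- `u` comes from `L`
  obtain ⟨uL, huL⟩ : u ∈ (ptj_up L Qbar).range := by
    rw [ptj_mem_range_up_iff_imField, ptj_imField_interm]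
    exact fun γ hγ => hu γ (IntermediateField.fixingSubgroup_antitone hF₂L hγ)
  have huLT : uL ∈ ptj_UT L S := ptj_mem_UT_of_up_mem_UT (K := Qbar) (by rw [huL]; exact huT)
  have hkey : ptj_up E L g = ptj_diag L xL * uL := by
    apply ptj_up_injective (F := ↥L) (K := Qbar)
    rw [ptj_up_up, map_mul, ← hxL', huL, hgxu]
  exact ptj_princUT_of_up_princUT (F := E) (K := ↥L) (↥L ≃ₐ[E] ↥L) hS
    (by rw [hkey]; exact (ptj_mem_princUT_iff _).2 ⟨xL, uL, huLT, rfl⟩)

/-- `ι_E : C_S(E) → 𝒞_S` is injective. -/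
theorem ptj_iota_injective [Algebra.IsAlgebraic E Qbar] (hS : S.Nonempty)
    (hE : ptj_IsUnrE S E) : Function.Injective (ptj_iota S E hE) := by
  rw [injective_iff_map_eq_one]
  intro c hc
  induction c using QuotientGroup.induction_on with
  | H g =>
    rw [ptj_iota_mk, ptj_CSmk_eq_one_iff, ptj_upS_coe] at hc
    exact (QuotientGroup.eq_one_iff g).2 (ptj_mem_princUT_of_up_mem_NS hS hE hc)


/-! ### The image of `ι_E` is the group of invariants -/

variable (S E) in
/-- Hilbert 90 for units in the `S`-unramified tower above `E` (to be discharged from the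
local theory at unramified places). -/
def ptj_TowerH90 : Prop :=
  ∀ (L : IntermediateField E Qbar) [FiniteDimensional E L] [IsGalois E L],
    (L.restrictScalars ℚ).IsUnramifiedOutside S →
    ∀ q : Nat.Primes, q ∉ S → ∀ σ : ptj_Emb ↥L q, ptj_UnitsH90 (↥L ≃ₐ[E] ↥L) σ

omit [Algebra.IsAlgebraic ℚ E] in
/-- Every element of `Gal(L/E)` lifts to an element of `G_ℚ` fixing `E`. -/
lemma ptj_exists_lift_gal [Algebra.IsAlgebraic E Qbar] (L : IntermediateField E Qbar)
    [Normal E L] (γ' : ↥L ≃ₐ[E] ↥L) :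
    ∃ γ : GQ, ptj_FixesE E γ ∧ ∀ x : ↥L, algebraMap ↥L Qbar (γ' • x) = γ (algebraMap ↥L Qbar x) := by
  haveI : IsAlgClosure E Qbar := ⟨inferInstance, inferInstance⟩
  haveI : Normal E Qbar := IsAlgClosure.normal E Qbar
  obtain ⟨γ₁, hγ₁⟩ := AlgEquiv.restrictNormalHom_surjective (F := E) (K₁ := ↥L) Qbar γ'
  refine ⟨γ₁.restrictScalars ℚ, fun x => γ₁.commutes x, fun x => ?_⟩
  rw [← hγ₁]
  exact AlgEquiv.restrictNormal_commutes γ₁ ↥L x

/-- The image of `C_S(E)` in `𝒞_S` is the group of `Gal(Q̄/E)`-invariants. -/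
theorem ptj_mem_range_iota_iff [Algebra.IsAlgebraic E Qbar] (hS : S.Nonempty)
    (hE : ptj_IsUnrE S E) (h90 : ptj_TowerH90 S E) (c : ptj_CSm S) :
    c ∈ (ptj_iota S E hE).range ↔ ∀ γ ∈ (ptj_imField E).fixingSubgroup, γ • c = c := by
  constructor
  · rintro ⟨c', rfl⟩ γ hγ
    induction c' using QuotientGroup.induction_on with
    | H g =>
      rw [ptj_iota_mk, ← ptj_CSmk_smul]
      congr 1
      apply Subtype.ext
      exact ptj_smul_up_Qbar ((ptj_fixesE_iff_imField E γ).2 hγ) g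
  · intro hinv
    obtain ⟨f, rfl⟩ := ptj_CSmk_surjective c
    obtain ⟨F₁, hF₁, hf⟩ := f.2
    obtain ⟨L, hfin, hgal, hLu, hFL, -⟩ := ptj_exists_galois_level hE hF₁
    haveI := hfin
    haveI := hgal
    have hLE : ptj_IsUnrE S ↥L := by
      rw [ptj_IsUnrE, ptj_imField_interm]; exact hLu
    -- `f` comes from `L`
    obtain ⟨gL, hgL⟩ : (f : ptj_J Qbar) ∈ (ptj_up L Qbar).range := by
      rw [ptj_mem_range_up_iff_imField, ptj_imField_interm]
      exact fun γ hγ => hf γ (IntermediateField.fixingSubgroup_antitone hFL hγ)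
    -- the class of `gL` is `Gal(L/E)`-invariant
    have hcls : ∀ γ' : ↥L ≃ₐ[E] ↥L, γ' • gL / gL ∈ ptj_princUT ↥L S := by
      intro γ'
      obtain ⟨γ, hγE, hγc⟩ := ptj_exists_lift_gal L γ'
      apply ptj_mem_princUT_of_up_mem_NS hS hLE
      rw [map_div, ptj_up_smul_compat γ' γ hγc, hgL]
      have h1 := hinv γ ((ptj_fixesE_iff_imField E γ).1 hγE)
      rw [← ptj_CSmk_smul] at h1
      have h2 : ptj_CSmk S (γ • f / f) = 1 := by
        rw [map_div, h1, div_self']
      exact (ptj_CSmk_eq_one_iff _).1 h2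
    obtain ⟨g, y, v, hv, hgyv⟩ := ptj_exists_up_of_classT_invariant (F := E) (K := ↥L)
      (Γ := ↥L ≃ₐ[E] ↥L) hS (h90 L hLu) hcls
    refine ⟨QuotientGroup.mk g, ?_⟩
    rw [ptj_iota_mk]
    symm
    rw [← div_eq_one, ← map_div (ptj_CSmk S), ptj_CSmk_eq_one_iff]
    have h3 : ((f / ptj_upS S E hE g : ptj_JS S) : ptj_J Qbar)
        = ptj_up L Qbar (ptj_diag L y * v) := by
      show (f : ptj_J Qbar) / ptj_up E Qbar g = _
      rw [← hgL, hgyv, map_mul, ptj_up_up]
      simp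
    rw [h3]
    exact ptj_up_mem_NS hLE ((ptj_mem_princUT_iff _).2 ⟨y, v, hv, rfl⟩)

end General

/-! ### Presented levels: intermediate fields Galois over `ℚ` -/

section Field

variable {S : Finset Nat.Primes} (F : IntermediateField ℚ Qbar)

lemma ptj_isUnrE_field (hF : F.IsUnramifiedOutside S) : ptj_IsUnrE S F := by
  rw [ptj_IsUnrE, ptj_imField_eq]; exact hF

/-- Equivariance of `ι_F` for `G_ℚ → Gal(F/ℚ)`. -/
theorem ptj_iota_smul [Normal ℚ F] (hF : F.IsUnramifiedOutside S) (γ : GQ) (c : ptj_CT F S) :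
    ptj_iota S F (ptj_isUnrE_field F hF) (AlgEquiv.restrictNormalHom F γ • c)
      = γ • ptj_iota S F (ptj_isUnrE_field F hF) c := by
  induction c using QuotientGroup.induction_on with
  | H g =>
    rw [ptj_CT_smul_mk, ptj_iota_mk, ptj_iota_mk, ← ptj_CSmk_smul]
    congr 1
    apply Subtype.ext
    exact ptj_up_smul_compat (AlgEquiv.restrictNormalHom F γ) γ
      (fun x => AlgEquiv.restrictNormal_commutes γ F x) g

/-- The image of `C_S(F)` in `𝒞_S` is the group of `Fix F`-invariants. -/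
theorem ptj_mem_range_iota_field_iff (hS : S.Nonempty) (hF : F.IsUnramifiedOutside S)
    (h90 : ptj_TowerH90 S F) (c : ptj_CSm S) :
    c ∈ (ptj_iota S F (ptj_isUnrE_field F hF)).range ↔ ∀ γ ∈ F.fixingSubgroup, γ • c = c := by
  rw [ptj_mem_range_iota_iff hS _ h90, ptj_imField_eq]

end Field

end Fermat.Agent.Lib.PT

end
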