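/-
G1 (global modules for the S55 long-haul), part 13: the image of `ι_E : C_S(E) → 𝒞_S` is the group
of invariants, with the Hilbert-90 hypothesis restricted to levels which are GALOIS OVER `ℚ`
(`ptj_TowerH90'`; this is the form which the local theory at unramified places discharges).
-/
import Fermat.Agent.Lib.PT.GModBigB

set_option autoImplicit false
set_option linter.unusedVariables false
set_option linter.unusedSectionVars false
set_option linter.style.haveILetI false

noncomputable section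

namespace Fermat.Agent.Lib.PT

open IntermediateField

local notation "Qbar" => AlgebraicClosure ℚ
local notation "GQ" => (AlgebraicClosure ℚ ≃ₐ[ℚ] AlgebraicClosure ℚ)

section General

variable {S : Finset Nat.Primes} {E : Type*} [Field E] [CharZero E] [Algebra E Qbar]

variable (S E) in
/-- Hilbert 90 for units in the `S`-unramified tower above `E`, only for the levels which are
stable under `G_ℚ`. -/
def ptj_TowerH90' : Prop :=
  ∀ (L : IntermediateField E Qbar) [FiniteDimensional E L] [IsGalois E L],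
    (L.restrictScalars ℚ).IsUnramifiedOutside S →
    (∀ σ : GQ, ∀ x ∈ L.restrictScalars ℚ, σ x ∈ L.restrictScalars ℚ) →
    ∀ q : Nat.Primes, q ∉ S → ∀ σ : ptj_Emb ↥L q, ptj_UnitsH90 (↥L ≃ₐ[E] ↥L) σ

lemma ptj_TowerH90.toStable (h : ptj_TowerH90 S E) : ptj_TowerH90' S E :=
  fun L _ _ hLu _ q hq σ => h L hLu q hq σ

variable [Algebra.IsAlgebraic ℚ E]

/-- The image of `C_S(E)` in `𝒞_S` is the group of `Gal(Q̄/E)`-invariants (stable-level form of the
Hilbert-90 hypothesis). -/
theorem ptj_mem_range_iota_iff' [Algebra.IsAlgebraic E Qbar] (hS : S.Nonempty)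
    (hE : ptj_IsUnrE S E) (h90 : ptj_TowerH90' S E) (c : ptj_CSm S) :
    c ∈ (ptj_iota S E hE).range ↔ ∀ γ ∈ (ptj_imField E).fixingSubgroup, γ • c = c := by
  constructor
  · rintro ⟨c', rfl⟩ γ hγ
    induction c' using QuotientGroup.induction_on with
    | H g =>
      rw [ptj_iota_mk, ← ptj_CSmk_smul]
      congr 1
      apply Subtype.ext
      exact ptj_smul_up_Qbar ((ptj_fixesE_iff_imField E γ).2 hγ) g
  · intro hinv
    obtain ⟨f, rfl⟩ := ptj_CSmk_surjective c
    obtain ⟨F₁, hF₁, hf⟩ := f.2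
    obtain ⟨L, hfin, hgal, hLu, hFL, hst⟩ := ptj_exists_galois_level hE hF₁
    haveI := hfin
    haveI := hgal
    have hLE : ptj_IsUnrE S ↥L := by
      rw [ptj_IsUnrE, ptj_imField_interm]; exact hLu
    -- `f` comes from `L`
    obtain ⟨gL, hgL⟩ : (f : ptj_J Qbar) ∈ (ptj_up L Qbar).range := by
      rw [ptj_mem_range_up_iff_imField, ptj_imField_interm]
      exact fun γ hγ => hf γ (IntermediateField.fixingSubgroup_antitone hFL hγ)
    -- the class of `gL` is `Gal(L/E)`-invariant
    have hcls : ∀ γ' : ↥L ≃ₐ[E] ↥L, γ' • gL / gL ∈ ptj_princUT ↥L S := by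
      intro γ'
      obtain ⟨γ, hγE, hγc⟩ := ptj_exists_lift_gal L γ'
      apply ptj_mem_princUT_of_up_mem_NS hS hLE
      rw [map_div, ptj_up_smul_compat γ' γ hγc, hgL]
      have h1 := hinv γ ((ptj_fixesE_iff_imField E γ).1 hγE)
      rw [← ptj_CSmk_smul] at h1
      have h2 : ptj_CSmk S (γ • f / f) = 1 := by
        rw [map_div, h1, div_self']
      exact (ptj_CSmk_eq_one_iff _).1 h2
    obtain ⟨g, y, v, hv, hgyv⟩ := ptj_exists_up_of_classT_invariant (F := E) (K := ↥L)
      (Γ := ↥L ≃ₐ[E] ↥L) hS (h90 L hLu hst) hcls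
    refine ⟨QuotientGroup.mk g, ?_⟩
    rw [ptj_iota_mk]
    symm
    rw [← div_eq_one, ← map_div (ptj_CSmk S), ptj_CSmk_eq_one_iff]
    have h3 : ((f / ptj_upS S E hE g : ptj_JS S) : ptj_J Qbar)
        = ptj_up L Qbar (ptj_diag L y * v) := by
      show (f : ptj_J Qbar) / ptj_up E Qbar g = _
      rw [← hgL, hgyv, map_mul, ptj_up_up]
      simp
    rw [h3]
    exact ptj_up_mem_NS hLE ((ptj_mem_princUT_iff _).2 ⟨y, v, hv, rfl⟩)

end General

section Field

variable {S : Finset Nat.Primes} (F : IntermediateField ℚ Qbar)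

/-- The image of `C_S(F)` in `𝒞_S` is the group of `Fix F`-invariants (stable-level form). -/
theorem ptj_mem_range_iota_field_iff' (hS : S.Nonempty) (hF : F.IsUnramifiedOutside S)
    (h90 : ptj_TowerH90' S F) (c : ptj_CSm S) :
    c ∈ (ptj_iota S F (ptj_isUnrE_field F hF)).range ↔ ∀ γ ∈ F.fixingSubgroup, γ • c = c := by
  rw [ptj_mem_range_iota_iff' hS _ h90, ptj_imField_eq]

end Field

end Fermat.Agent.Lib.PT

end
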