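/-
S55 long haul, (UN) part C: the unramified discharge for the towers of `GModBigB`
(`L : IntermediateField E Q̄`, finite Galois over `E`, with `L.restrictScalars ℚ` stable under
`Gal(Q̄/ℚ)` and unramified outside `S`).
-/
import Fermat.Agent.Lib.PT.GModUnrB
import Fermat.Agent.Lib.PT.GModBigB

set_option autoImplicit false
set_option linter.unusedVariables false
set_option linter.unusedSectionVars false
set_option linter.style.haveILetI false

noncomputable section

namespace Fermat.Agent.Lib.PT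

local notation "Qbar" => AlgebraicClosure ℚ
local notation "GQ" => (AlgebraicClosure ℚ ≃ₐ[ℚ] AlgebraicClosure ℚ)

variable {S : Finset Nat.Primes} {E : Type*} [Field E] [CharZero E] [Algebra E Qbar]

/-- the local field of `L` at `σ` is unramified over `ℚ_q`, for `L/E` inside `Q̄` with
`L.restrictScalars ℚ` stable and unramified outside `S`, `q ∉ S` -/
theorem pta_galRes_injective_Kσ_tower (L : IntermediateField E Qbar)
    (hun : (L.restrictScalars ℚ).IsUnramifiedOutside S)
    (hst : ∀ σ : GQ, ∀ x ∈ L.restrictScalars ℚ, σ x ∈ L.restrictScalars ℚ)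
    {q : Nat.Primes} (hq : q ∉ S) (σ : ptj_Emb ↥L q) :
    Function.Injective (ptl_galRes (q : ℕ) ℚ_[(q : ℕ)] ↥(ptj_Kσ σ)) :=
  pta_galRes_injective_Kσ (K := L.restrictScalars ℚ) hun hst hq σ

/-- `K_σ` is finite over `ℚ_q` -/
theorem pta_finiteDimensional_Kσ_tower (L : IntermediateField E Qbar)
    (hun : (L.restrictScalars ℚ).IsUnramifiedOutside S)
    {q : Nat.Primes} (σ : ptj_Emb ↥L q) : FiniteDimensional ℚ_[(q : ℕ)] ↥(ptj_Kσ σ) :=
  pta_finiteDimensional_Kσ_of_isUnramifiedOutside (K := L.restrictScalars ℚ) hun σ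

/-- **(UN2) for the towers of `GModBigB`** (stable levels). -/
theorem pta_unitsH90_tower (L : IntermediateField E Qbar) [FiniteDimensional E L] [IsGalois E L]
    (hun : (L.restrictScalars ℚ).IsUnramifiedOutside S)
    (hst : ∀ σ : GQ, ∀ x ∈ L.restrictScalars ℚ, σ x ∈ L.restrictScalars ℚ)
    {q : Nat.Primes} (hq : q ∉ S) (σ : ptj_Emb ↥L q) :
    ptj_UnitsH90 (↥L ≃ₐ[E] ↥L) σ := by
  haveI := pta_finiteDimensional_Kσ_tower L hun σ
  exact pta_unitsH90_of_injective (F := E) σ
    (pta_galRes_injective_Krel σ (pta_galRes_injective_Kσ_tower L hun hst hq σ))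

/-- **(UN1) for the towers of `GModBigB`** (stable levels). -/
theorem pta_unitsAreNorms_tower (L : IntermediateField E Qbar) [FiniteDimensional E L]
    [IsGalois E L] (hun : (L.restrictScalars ℚ).IsUnramifiedOutside S)
    (hst : ∀ σ : GQ, ∀ x ∈ L.restrictScalars ℚ, σ x ∈ L.restrictScalars ℚ)
    {q : Nat.Primes} (hq : q ∉ S) (σ : ptj_Emb ↥L q) :
    ptj_UnitsAreNorms E (↥L ≃ₐ[E] ↥L) σ := by
  haveI := pta_finiteDimensional_Kσ_tower L hun σ
  exact pta_unitsAreNorms_of_injective σ
    (pta_galRes_injective_Krel σ (pta_galRes_injective_Kσ_tower L hun hst hq σ))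

end Fermat.Agent.Lib.PT

end
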