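/-
G1 (global modules for the S55 long-haul), part 14: the Hilbert-90 hypothesis `ptj_TowerH90'` is
discharged by the local theory at unramified places (helper1's `pta_unitsH90_tower`), hence the
image of `ι_F : C_S(F) → 𝒞_S` is the group of `Fix F`-invariants, unconditionally.
-/
import Fermat.Agent.Lib.PT.GModBigC
import Fermat.Agent.Lib.PT.GModUnrC

set_option autoImplicit false
set_option linter.unusedVariables false
set_option linter.unusedSectionVars false
set_option linter.style.haveILetI false

noncomputable section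

namespace Fermat.Agent.Lib.PT

open IntermediateField

local notation "Qbar" => AlgebraicClosure ℚ
local notation "GQ" => (AlgebraicClosure ℚ ≃ₐ[ℚ] AlgebraicClosure ℚ)

/-- Hilbert 90 for units in the stable `S`-unramified tower above `E` holds. -/
theorem ptj_towerH90'_holds (S : Finset Nat.Primes) (E : Type*) [Field E] [CharZero E]
    [Algebra E Qbar] : ptj_TowerH90' S E :=
  fun L _ _ hun hst _ hq σ => pta_unitsH90_tower L hun hst hq σ

/-- The image of `C_S(E)` in `𝒞_S` is the group of `Gal(Q̄/E)`-invariants. -/
theorem ptj_mem_range_iota_iff_invariant {S : Finset Nat.Primes} {E : Type*} [Field E] [CharZero E]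
    [Algebra E Qbar] [Algebra.IsAlgebraic ℚ E] [Algebra.IsAlgebraic E Qbar] (hS : S.Nonempty)
    (hE : ptj_IsUnrE S E) (c : ptj_CSm S) :
    c ∈ (ptj_iota S E hE).range ↔ ∀ γ ∈ (ptj_imField E).fixingSubgroup, γ • c = c :=
  ptj_mem_range_iota_iff' hS hE (ptj_towerH90'_holds S E) c

/-- The image of `C_S(F)` in `𝒞_S` is the group of `Fix F`-invariants. -/
theorem ptj_mem_range_iota_field_iff_invariant {S : Finset Nat.Primes}
    (F : IntermediateField ℚ Qbar) (hS : S.Nonempty) (hF : F.IsUnramifiedOutside S)
    (c : ptj_CSm S) :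
    c ∈ (ptj_iota S F (ptj_isUnrE_field F hF)).range ↔ ∀ γ ∈ F.fixingSubgroup, γ • c = c :=
  ptj_mem_range_iota_field_iff' F hS hF (ptj_towerH90'_holds S F) c

end Fermat.Agent.Lib.PT

end
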