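/-
S55 (Poitou–Tate), local ↔ global bridge, part M: ROOTS OF UNITY of `Ω_q` and the identification
`Hom_{G_q}(M, Ω_qˣ) = (M.dualTwist χ)^{G_q}` for `p`-torsion `M`.

* `ptg_zetaHom p ζ hζ : ZMod p →+ Additive A` (`a ↦ ζ ^ a`), injective for primitive `ζ`, onto the
  `p`-torsion when `A = Ωˣ` for a field `Ω`;
* `ptg_apply_rootOfUnity`, `ptg_smul_rootOfUnity`: `G_q` acts on `μ_p(Ω_q)` through
  `cycloChar p ∘ localGaloisToGlobal q`; `ptg_zetaHom_smul_local`;
* abstract: `ptg_exists_dual_of_equivariant` / `ptg_isEquivariant_of_dual`: equivariant maps from a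
  `ZMod p`-module to a module with `p`-torsion `μ_p` are the twisted-invariant linear forms;
  `ptg_dualTwist_invariant_iff`: the Prelude's `dualTwist` form of the invariance; local corollary
  `ptg_exists_dual_of_equivariant_local`.
-/
import Mathlib
import Fermat.Prelude.Def_ExtCitation_KummerBridge
import Fermat.Prelude.Def_GroupCohomology_Selmer
import Fermat.Agent.Lib.CFT.GalRedChi
import Fermat.Agent.Lib.PT.GLevelTwist
import Fermat.Agent.Lib.PT.BridgeL

set_option autoImplicit false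
set_option linter.unusedSectionVars false

namespace Fermat.Agent.Lib.PT

open groupCohomology CategoryTheory ExtCitation Fermat.Agent.Lib.CFT


section Abstract

variable {A : Type*} [CommGroup A] (p : ℕ) [Fact p.Prime]

/-- `a ↦ ζ ^ a` as an additive map `ZMod p → Additive A`, for `ζ ^ p = 1` -/
noncomputable def ptg_zetaHom (ζ : A) (hζ : ζ ^ p = 1) : ZMod p →+ Additive A where
  toFun a := Additive.ofMul (ζ ^ a.val)
  map_zero' := by
    have : NeZero p := ⟨(Fact.out : p.Prime).ne_zero⟩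
    simp
  map_add' a b := by
    have : NeZero p := ⟨(Fact.out : p.Prime).ne_zero⟩
    rw [← ofMul_mul, ← pow_add, ZMod.val_add, ← pow_eq_pow_mod _ hζ]

lemma ptg_zetaHom_apply (ζ : A) (hζ : ζ ^ p = 1) (a : ZMod p) :
    ptg_zetaHom p ζ hζ a = Additive.ofMul (ζ ^ a.val) := rfl

lemma ptg_zetaHom_natCast (ζ : A) (hζ : ζ ^ p = 1) (n : ℕ) :
    ptg_zetaHom p ζ hζ (n : ZMod p) = Additive.ofMul (ζ ^ n) := by
  rw [ptg_zetaHom_apply, ZMod.val_natCast, ← pow_eq_pow_mod _ hζ]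

lemma ptg_zetaHom_tors (ζ : A) (hζ : ζ ^ p = 1) (a : ZMod p) : p • ptg_zetaHom p ζ hζ a = 0 := by
  rw [← map_nsmul, nsmul_eq_mul]
  simp

lemma ptg_zetaHom_injective {ζ : A} (hζ : IsPrimitiveRoot ζ p) :
    Function.Injective (ptg_zetaHom p ζ hζ.pow_eq_one) := by
  have : NeZero p := ⟨(Fact.out : p.Prime).ne_zero⟩
  intro a b hab
  have h1 : ζ ^ a.val = ζ ^ b.val := hab
  exact ZMod.val_injective p (hζ.pow_inj (ZMod.val_lt a) (ZMod.val_lt b) h1)

end Abstract


section LocalRoots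


variable (q p : ℕ) [Fact q.Prime] [Fact p.Prime]

/-- the action of `G_ℚ` on `p`-th roots of unity of `Q̄` through the cyclotomic character -/
lemma ptg_cycloChar_spec (σ : AlgebraicClosure ℚ ≃ₐ[ℚ] AlgebraicClosure ℚ)
    {ζ : AlgebraicClosure ℚ} (hζ : ζ ^ p = 1) :
    σ ζ = ζ ^ ((cycloChar p σ : (ZMod p)ˣ) : ZMod p).val :=
  cff_chi_spec p σ hζ

/-- a primitive `p`-th root of unity of `Q̄` stays primitive in `Ω_q` -/
lemma ptg_isPrimitiveRoot_padicEmbedding {ζ : AlgebraicClosure ℚ} (hζ : IsPrimitiveRoot ζ p) :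
    IsPrimitiveRoot (padicEmbedding q ζ) p :=
  hζ.map_of_injective (padicEmbedding q).toRingHom.injective

theorem ptg_exists_primitiveRoot_units : ∃ ζ : (PadicAlgCl q)ˣ, IsPrimitiveRoot ζ p := by
  obtain ⟨ζ₀, hζ₀⟩ := pta_exists_primitiveRoot p
  have h1 := ptg_isPrimitiveRoot_padicEmbedding q p hζ₀
  have hp0 : p ≠ 0 := (Fact.out : p.Prime).ne_zero
  exact ⟨(h1.isUnit hp0).unit, IsPrimitiveRoot.coe_units_iff.mp (by simpa using h1)⟩

/-- **(M)** `G_q` acts on the `p`-th roots of unity of `Ω_q` through the restriction of the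
global mod `p` cyclotomic character -/
theorem ptg_apply_rootOfUnity (τ : PadicAlgCl q ≃ₐ[ℚ_[q]] PadicAlgCl q) {u : PadicAlgCl q}
    (hu : u ^ p = 1) :
    τ u = u ^ ((cycloChar p (localGaloisToGlobal q τ) : (ZMod p)ˣ) : ZMod p).val := by
  have : NeZero p := ⟨(Fact.out : p.Prime).ne_zero⟩
  obtain ⟨ζ₀, hζ₀⟩ := pta_exists_primitiveRoot p
  have h1 := ptg_isPrimitiveRoot_padicEmbedding q p hζ₀
  obtain ⟨i, -, rfl⟩ := h1.eq_pow_of_pow_eq_one hu
  rw [map_pow, ← padicEmbedding_localGaloisToGlobal,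
    ptg_cycloChar_spec p (localGaloisToGlobal q τ) hζ₀.pow_eq_one, map_pow, ← pow_mul, ← pow_mul,
    mul_comm]

theorem ptg_smul_rootOfUnity (τ : PadicAlgCl q ≃ₐ[ℚ_[q]] PadicAlgCl q) {u : (PadicAlgCl q)ˣ}
    (hu : u ^ p = 1) :
    τ • u = u ^ ((cycloChar p (localGaloisToGlobal q τ) : (ZMod p)ˣ) : ZMod p).val := by
  apply Units.ext
  rw [AlgEquiv.smul_units_def, Units.coe_map, Units.val_pow_eq_pow_val]
  refine ptg_apply_rootOfUnity q p τ ?_
  rw [← Units.val_pow_eq_pow_val, hu, Units.val_one]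


end LocalRoots


section AbstractHom

variable {p : ℕ} [Fact p.Prime] {G : Type*} [Group G] (χ : G →* (ZMod p)ˣ)
variable {C : Type*} [AddCommGroup C] (ρC : Representation ℤ G C)
variable (z : ZMod p →+ C) (hzinj : Function.Injective z)
  (hztors : ∀ c : C, p • c = 0 → ∃ a, z a = c)
  (hzsmul : ∀ g a, ρC g (z a) = z ((χ g : ZMod p) * a))
variable {M : Type*} [AddCommGroup M] [Module (ZMod p) M] (ρM : Representation (ZMod p) G M)

include hzinj hztors hzsmul in
/-- **(M)** a `G`-equivariant additive map from a `ZMod p`-module `M` to a module `C` whose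
`p`-torsion is `μ_p = z (ZMod p)` (with `G` acting on it through `χ`) is `z ∘ φ` for a
`χ`-twisted invariant linear form `φ` -/
theorem ptg_exists_dual_of_equivariant (f : M →+ C) (hf : ptd_IsEquivariant ρC ρM f) :
    ∃ φ : Module.Dual (ZMod p) M, (∀ g m, (χ g : ZMod p) * φ (ρM g⁻¹ m) = φ m) ∧
      ∀ m, f m = z (φ m) := by
  have hp : ∀ m : M, p • f m = 0 := by
    intro m
    rw [← map_nsmul]
    have : p • m = 0 := by
      rw [← Nat.cast_smul_eq_nsmul (ZMod p), ZMod.natCast_self, zero_smul]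
    rw [this, map_zero]
  choose φ₀ hφ₀ using fun m => hztors (f m) (hp m)
  let φA : M →+ ZMod p :=
    { toFun := φ₀
      map_zero' := hzinj (by rw [hφ₀, map_zero, map_zero])
      map_add' := fun a b => hzinj (by rw [hφ₀, map_add, map_add, hφ₀, hφ₀]) }
  refine ⟨φA.toZModLinearMap p, fun g m => ?_, fun m => (hφ₀ m).symm⟩
  show (χ g : ZMod p) * φ₀ (ρM g⁻¹ m) = φ₀ m
  apply hzinj
  rw [← hzsmul, hφ₀, hφ₀, hf, ← Module.End.mul_apply, ← map_mul, mul_inv_cancel, map_one,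
    Module.End.one_apply]

include hzsmul in
/-- **(M)** conversely `z ∘ φ` is equivariant for a `χ`-twisted invariant form `φ` -/
theorem ptg_isEquivariant_of_dual (φ : Module.Dual (ZMod p) M)
    (hφ : ∀ g m, (χ g : ZMod p) * φ (ρM g⁻¹ m) = φ m) :
    ptd_IsEquivariant ρC ρM (z.comp φ.toAddMonoidHom) := by
  intro g m
  show z (φ (ρM g m)) = ρC g (z (φ m))
  rw [hzsmul]
  congr 1
  have h1 := hφ g (ρM g m)
  rw [← Module.End.mul_apply, ← map_mul, inv_mul_cancel, map_one, Module.End.one_apply] at h1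
  exact h1.symm

end AbstractHom

/-- the invariance condition of `ptg_exists_dual_of_equivariant` is invariance in the Prelude's
`dualTwist` -/
lemma ptg_dualTwist_invariant_iff {p : ℕ} [Fact p.Prime] {G : Type} [Group G]
    (M : Rep (ZMod p) G) (χ : G →* (ZMod p)ˣ) (φ : Module.Dual (ZMod p) M) :
    (∀ g, (M.dualTwist χ).ρ g φ = φ) ↔ ∀ g m, (χ g : ZMod p) * φ (M.ρ g⁻¹ m) = φ m := by
  constructor
  · intro h g m
    have := LinearMap.congr_fun (h g) m
    rwa [Rep.dualTwist_ρ_apply] at this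
  · intro h g
    rw [Rep.dualTwist_ρ_apply]
    exact LinearMap.ext fun m => h g m

/-- the `p`-torsion of `Ωˣ` is generated by a primitive `p`-th root of unity -/
theorem ptg_exists_zetaHom_of_tors {Ω : Type*} [Field Ω] (p : ℕ) [Fact p.Prime] {ζ : Ωˣ}
    (hζ : IsPrimitiveRoot ζ p) (x : Additive Ωˣ) (hx : p • x = 0) :
    ∃ a, ptg_zetaHom p ζ hζ.pow_eq_one a = x := by
  have : NeZero p := ⟨(Fact.out : p.Prime).ne_zero⟩
  have h1 : (Additive.toMul x : Ωˣ) ^ p = 1 := by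
    have := congrArg Additive.toMul hx
    simpa using this
  have h2 : ((Additive.toMul x : Ωˣ) : Ω) ^ p = 1 := by
    rw [← Units.val_pow_eq_pow_val, h1, Units.val_one]
  have hζ' : IsPrimitiveRoot (ζ : Ω) p := IsPrimitiveRoot.coe_units_iff.mpr hζ
  obtain ⟨i, -, hi⟩ := hζ'.eq_pow_of_pow_eq_one h2
  refine ⟨(i : ZMod p), ?_⟩
  rw [ptg_zetaHom_natCast]
  apply congrArg Additive.ofMul
  apply Units.ext
  rw [Units.val_pow_eq_pow_val, hi]
  rfl

variable (q p : ℕ) [Fact q.Prime] [Fact p.Prime]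

/-- **(M)** `G_q` acts on `μ_p(Ω_q) = ζ_q (ZMod p)` through the restriction of the global mod `p`
cyclotomic character -/
theorem ptg_zetaHom_smul_local {ζ : (PadicAlgCl q)ˣ} (hζ : ζ ^ p = 1)
    (τ : PadicAlgCl q ≃ₐ[ℚ_[q]] PadicAlgCl q) (a : ZMod p) :
    ptg_unitsRep q τ (ptg_zetaHom p ζ hζ a) =
      ptg_zetaHom p ζ hζ ((cycloChar p (localGaloisToGlobal q τ) : ZMod p) * a) := by
  have : NeZero p := ⟨(Fact.out : p.Prime).ne_zero⟩
  rw [Representation.ofMulDistribMulAction_apply_apply, ptg_zetaHom_apply, ptg_zetaHom_apply,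
    toMul_ofMul]
  apply congrArg Additive.ofMul
  have h1 : (ζ ^ a.val) ^ p = 1 := by rw [← pow_mul, mul_comm, pow_mul, hζ, one_pow]
  rw [ptg_smul_rootOfUnity q p τ h1, ← pow_mul, ZMod.val_mul, ← pow_eq_pow_mod _ hζ, mul_comm]


/-- **(M)** local corollary: a `G_q`-equivariant map from (the restriction of) a `ZMod p`-module
`M` of `G_ℚ` to `Ω_qˣ` is `ζ_q ∘ φ` for a `G_q`-invariant `φ` of `M.dualTwist (cycloChar p)` -/
theorem ptg_exists_dual_of_equivariant_local {ζ : (PadicAlgCl q)ˣ} (hζ : IsPrimitiveRoot ζ p)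
    (M : Rep (ZMod p) (AlgebraicClosure ℚ ≃ₐ[ℚ] AlgebraicClosure ℚ))
    (f : M →+ Additive (PadicAlgCl q)ˣ)
    (hf : ptd_IsEquivariant (ptg_unitsRep q) (Rep.res (localGaloisToGlobal q) M).ρ f) :
    ∃ φ : Module.Dual (ZMod p) M,
      (∀ τ, (M.dualTwist (cycloChar p)).ρ (localGaloisToGlobal q τ) φ = φ) ∧
      ∀ m, f m = ptg_zetaHom p ζ hζ.pow_eq_one (φ m) := by
  obtain ⟨φ, h1, h2⟩ := ptg_exists_dual_of_equivariant
    ((cycloChar p).comp (localGaloisToGlobal q)) (ptg_unitsRep q)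
    (ptg_zetaHom p ζ hζ.pow_eq_one) (ptg_zetaHom_injective p hζ)
    (ptg_exists_zetaHom_of_tors p hζ) (ptg_zetaHom_smul_local q p hζ.pow_eq_one)
    (Rep.res (localGaloisToGlobal q) M).ρ f hf
  refine ⟨φ, fun τ => ?_, h2⟩
  rw [Rep.dualTwist_ρ_apply]
  refine LinearMap.ext fun m => ?_
  have h3 : (Rep.res (localGaloisToGlobal q) M).ρ τ⁻¹ = M.ρ (localGaloisToGlobal q τ)⁻¹ := by
    show M.ρ (localGaloisToGlobal q τ⁻¹) = _
    rw [map_inv]
  have := h1 τ m
  rw [h3] at this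
  exact this

/-- **(M)** conversely, a `G_q`-invariant `φ` of `M.dualTwist (cycloChar p)` gives the
`G_q`-equivariant map `ζ_q ∘ φ : M → Ω_qˣ` -/
theorem ptg_isEquivariant_of_dual_local {ζ : (PadicAlgCl q)ˣ} (hζ : ζ ^ p = 1)
    (M : Rep (ZMod p) (AlgebraicClosure ℚ ≃ₐ[ℚ] AlgebraicClosure ℚ))
    (φ : Module.Dual (ZMod p) M)
    (hφ : ∀ τ, (M.dualTwist (cycloChar p)).ρ (localGaloisToGlobal q τ) φ = φ) :
    ptd_IsEquivariant (ptg_unitsRep q) (Rep.res (localGaloisToGlobal q) M).ρ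
      ((ptg_zetaHom p ζ hζ).comp φ.toAddMonoidHom) := by
  refine ptg_isEquivariant_of_dual ((cycloChar p).comp (localGaloisToGlobal q)) (ptg_unitsRep q)
    (ptg_zetaHom p ζ hζ) (ptg_zetaHom_smul_local q p hζ)
    (Rep.res (localGaloisToGlobal q) M).ρ φ (fun τ m => ?_)
  have h3 : (Rep.res (localGaloisToGlobal q) M).ρ τ⁻¹ = M.ρ (localGaloisToGlobal q τ)⁻¹ := by
    show M.ρ (localGaloisToGlobal q τ⁻¹) = _
    rw [map_inv]
  have := LinearMap.congr_fun (hφ τ) m
  rw [Rep.dualTwist_ρ_apply] at this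
  rw [h3]
  exact this

end Fermat.Agent.Lib.PT
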