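/-
S55 long haul, (EM): the instance of the S-track interface `pts_EMod` on top of the big global
modules of `GModBigA`.  Part A: the `S`-part of an idele, the `S`-supported smooth ideles
`𝒥_S^S`, the modules `J = Additive 𝒥_S^S`, `C = 𝒞_S` with their `G_ℚ`-actions, the projection `π`.
-/
import Fermat.Agent.Lib.PT.GModBigA

set_option autoImplicit false
set_option linter.unusedVariables false
set_option linter.unusedSectionVars false
set_option linter.style.haveILetI false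

noncomputable section

namespace Fermat.Agent.Lib.PT

open IntermediateField

local notation "Qbar" => AlgebraicClosure ℚ
local notation "GQ" => (AlgebraicClosure ℚ ≃ₐ[ℚ] AlgebraicClosure ℚ)

/-! ### The `S`-part of an idele -/

section Spart

variable {K : Type*} [Field K] (S : Finset Nat.Primes)

/-- the `S`-part of an element of the ambient product: same components at `q ∈ S`, trivial
outside -/
def pta_SpartAmb (f : ptj_Amb K) : ptj_Amb K := fun q => if q ∈ S then f q else 1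

lemma pta_SpartAmb_of_mem (f : ptj_Amb K) {q : Nat.Primes} (hq : q ∈ S) :
    pta_SpartAmb S f q = f q := if_pos hq

lemma pta_SpartAmb_of_not_mem (f : ptj_Amb K) {q : Nat.Primes} (hq : q ∉ S) :
    pta_SpartAmb S f q = 1 := if_neg hq

lemma pta_SpartAmb_mem_J {f : ptj_Amb K} (hf : f ∈ ptj_J K) : pta_SpartAmb S f ∈ ptj_J K := by
  refine ⟨fun q => ?_, hf.2.mono fun q h => ?_⟩
  · by_cases hq : q ∈ S
    · rw [pta_SpartAmb_of_mem S f hq]; exact hf.1 q
    · rw [pta_SpartAmb_of_not_mem S f hq]; exact (ptj_Jq K q).one_mem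
  · intro σ
    by_cases hq : q ∈ S
    · rw [pta_SpartAmb_of_mem S f hq]; exact h σ
    · rw [pta_SpartAmb_of_not_mem S f hq]; simp

/-- the `S`-part of an idele, as a group endomorphism of `J_K` -/
def pta_Spart : ptj_J K →* ptj_J K where
  toFun f := ⟨pta_SpartAmb S (f : ptj_Amb K), pta_SpartAmb_mem_J S f.2⟩
  map_one' := by
    apply Subtype.ext
    funext q
    show pta_SpartAmb S (1 : ptj_Amb K) q = 1
    unfold pta_SpartAmb
    split_ifs <;> rfl
  map_mul' f g := by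
    apply Subtype.ext
    funext q
    show pta_SpartAmb S ((f : ptj_Amb K) * (g : ptj_Amb K)) q =
      pta_SpartAmb S (f : ptj_Amb K) q * pta_SpartAmb S (g : ptj_Amb K) q
    unfold pta_SpartAmb
    split_ifs
    · rfl
    · rw [one_mul]

lemma pta_Spart_of_mem (f : ptj_J K) {q : Nat.Primes} (hq : q ∈ S) :
    (pta_Spart S f : ptj_Amb K) q = (f : ptj_Amb K) q := pta_SpartAmb_of_mem S _ hq

lemma pta_Spart_of_not_mem (f : ptj_J K) {q : Nat.Primes} (hq : q ∉ S) :
    (pta_Spart S f : ptj_Amb K) q = 1 := pta_SpartAmb_of_not_mem S _ hq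

variable {Γ : Type*} [Group Γ] [MulSemiringAction Γ K]

/-- the `S`-part commutes with the action of automorphisms -/
lemma pta_smul_Spart (γ : Γ) (f : ptj_J K) : γ • pta_Spart S f = pta_Spart S (γ • f) := by
  apply Subtype.ext
  funext q σ
  show (pta_Spart S f : ptj_Amb K) q (ptj_pre γ σ) = (pta_Spart S (γ • f) : ptj_Amb K) q σ
  by_cases hq : q ∈ S
  · rw [pta_Spart_of_mem S f hq, pta_Spart_of_mem S _ hq]; rfl
  · rw [pta_Spart_of_not_mem S f hq, pta_Spart_of_not_mem S _ hq]; rfl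

/-- `f / Spart f` is trivial at `S` -/
lemma pta_div_Spart_of_mem (f : ptj_J K) {q : Nat.Primes} (hq : q ∈ S) :
    ((f / pta_Spart S f : ptj_J K) : ptj_Amb K) q = 1 := by
  show (f : ptj_Amb K) q / (pta_Spart S f : ptj_Amb K) q = 1
  rw [pta_Spart_of_mem S f hq, div_self']

lemma pta_div_Spart_of_not_mem (f : ptj_J K) {q : Nat.Primes} (hq : q ∉ S) :
    ((f / pta_Spart S f : ptj_J K) : ptj_Amb K) q = (f : ptj_Amb K) q := by
  show (f : ptj_Amb K) q / (pta_Spart S f : ptj_Amb K) q = _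
  rw [pta_Spart_of_not_mem S f hq, div_one]

/-- if `f` is a unit outside `S` then `f / Spart f ∈ U_{K,S}` -/
lemma pta_div_Spart_mem_UT {f : ptj_J K} (hf : f ∈ ptj_JT K S) :
    f / pta_Spart S f ∈ ptj_UT K S := by
  refine ⟨fun q hq => pta_div_Spart_of_mem S f hq, fun q hq σ => ?_⟩
  rw [pta_div_Spart_of_not_mem S f hq]
  exact hf q hq σ

lemma pta_Spart_idem (f : ptj_J K) : pta_Spart S (pta_Spart S f) = pta_Spart S f := by
  apply Subtype.ext
  funext q
  by_cases hq : q ∈ S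
  · rw [pta_Spart_of_mem S _ hq]
  · rw [pta_Spart_of_not_mem S _ hq, pta_Spart_of_not_mem S _ hq]

end Spart

/-! ### The `S`-supported smooth ideles -/

variable (S : Finset Nat.Primes)

lemma pta_Spart_mem_JS {f : ptj_J Qbar} (hf : f ∈ ptj_JS S) : pta_Spart S f ∈ ptj_JS S := by
  obtain ⟨F, hF, h⟩ := hf
  refine ⟨F, hF, fun γ hγ => ?_⟩
  rw [pta_smul_Spart, h γ hγ]

/-- `𝒥_S^S`: the smooth `S`-ideles of `Q̄` with trivial components outside `S`. -/
def pta_JSS : Subgroup (ptj_J Qbar) where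
  carrier := {f | f ∈ ptj_JS S ∧ ∀ q, q ∉ S → (f : ptj_Amb Qbar) q = 1}
  one_mem' := ⟨(ptj_JS S).one_mem, fun _ _ => rfl⟩
  mul_mem' := by
    rintro f g ⟨hf, hf'⟩ ⟨hg, hg'⟩
    refine ⟨(ptj_JS S).mul_mem hf hg, fun q hq => ?_⟩
    show (f : ptj_Amb Qbar) q * (g : ptj_Amb Qbar) q = 1
    rw [hf' q hq, hg' q hq, one_mul]
  inv_mem' := by
    rintro f ⟨hf, hf'⟩
    refine ⟨(ptj_JS S).inv_mem hf, fun q hq => ?_⟩
    show ((f : ptj_Amb Qbar) q)⁻¹ = 1
    rw [hf' q hq, inv_one]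

variable {S}

lemma pta_mem_JSS_iff (f : ptj_J Qbar) :
    f ∈ pta_JSS S ↔ f ∈ ptj_JS S ∧ ∀ q, q ∉ S → (f : ptj_Amb Qbar) q = 1 := Iff.rfl

lemma pta_JSS_le_JS : pta_JSS S ≤ ptj_JS S := fun _ h => h.1

lemma pta_Spart_mem_JSS {f : ptj_J Qbar} (hf : f ∈ ptj_JS S) : pta_Spart S f ∈ pta_JSS S :=
  ⟨pta_Spart_mem_JS S hf, fun q hq => pta_Spart_of_not_mem S f hq⟩

lemma pta_Spart_eq_self {f : ptj_J Qbar} (hf : f ∈ pta_JSS S) : pta_Spart S f = f := by
  apply Subtype.ext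
  funext q
  by_cases hq : q ∈ S
  · exact pta_Spart_of_mem S f hq
  · rw [pta_Spart_of_not_mem S f hq, hf.2 q hq]

lemma pta_smul_mem_JSS (γ : GQ) {f : ptj_J Qbar} (hf : f ∈ pta_JSS S) : γ • f ∈ pta_JSS S := by
  refine ⟨ptj_smul_mem_JS γ hf.1, fun q hq => ?_⟩
  funext σ
  show (f : ptj_Amb Qbar) q (ptj_pre γ σ) = 1
  rw [hf.2 q hq]
  rfl

/-- The action of `G_ℚ` on `𝒥_S^S`. -/
instance pta_JSSAction : MulDistribMulAction GQ (pta_JSS S) where
  smul γ f := ⟨γ • (f : ptj_J Qbar), pta_smul_mem_JSS γ f.2⟩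
  one_smul f := Subtype.ext (one_smul GQ (f : ptj_J Qbar))
  mul_smul γ γ' f := Subtype.ext (mul_smul γ γ' (f : ptj_J Qbar))
  smul_mul γ f g := Subtype.ext (smul_mul' γ (f : ptj_J Qbar) (g : ptj_J Qbar))
  smul_one γ := Subtype.ext (smul_one γ)

@[simp] lemma pta_JSS_smul_coe (γ : GQ) (f : pta_JSS S) :
    ((γ • f : pta_JSS S) : ptj_J Qbar) = γ • (f : ptj_J Qbar) := rfl

/-! ### The modules `J` and `C` -/

variable (S) in
/-- `J`: the `S`-supported smooth ideles, written additively. -/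
abbrev pta_EJ : Type := Additive ↥(pta_JSS S)

/-- the `G_ℚ`-action on `J` -/
instance pta_EJAction : DistribMulAction GQ (Additive ↥(pta_JSS S)) where
  smul γ x := Additive.ofMul (γ • x.toMul)
  one_smul x := by
    show Additive.ofMul ((1 : GQ) • x.toMul) = x
    rw [one_smul]; rfl
  mul_smul γ γ' x := by
    show Additive.ofMul ((γ * γ') • x.toMul) = Additive.ofMul (γ • (γ' • x.toMul))
    rw [mul_smul]
  smul_zero γ := by
    show Additive.ofMul (γ • (1 : ↥(pta_JSS S))) = 0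
    rw [smul_one]; rfl
  smul_add γ x y := by
    show Additive.ofMul (γ • (x.toMul * y.toMul)) = _
    rw [smul_mul']; rfl

lemma pta_EJ_smul_def (γ : GQ) (x : pta_EJ S) : γ • x = Additive.ofMul (γ • x.toMul) := rfl

/-- the `G_ℚ`-action on `C = 𝒞_S` (additive), `g • c = ptj_CSrep S g c` -/
@[reducible] def pta_CSAction (S : Finset Nat.Primes) : DistribMulAction GQ (ptj_CS S) where
  smul γ c := ptj_CSrep S γ c
  one_smul c := by
    show ptj_CSrep S 1 c = c
    rw [map_one]; rfl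
  mul_smul γ γ' c := by
    show ptj_CSrep S (γ * γ') c = ptj_CSrep S γ (ptj_CSrep S γ' c)
    rw [map_mul]; rfl
  smul_zero γ := map_zero _
  smul_add γ x y := map_add _ _ _

attribute [local instance] pta_CSAction

lemma pta_CS_smul_def (γ : GQ) (c : ptj_CS S) : γ • c = ptj_CSrep S γ c := rfl

variable (S) in
/-- the projection `π : J → C` -/
def pta_Eπ : pta_EJ S →+ ptj_CS S where
  toFun x := ptj_CSof (ptj_CSmk S ⟨(x.toMul : ptj_J Qbar), pta_JSS_le_JS x.toMul.2⟩)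
  map_zero' := by
    show ptj_CSof (ptj_CSmk S 1) = 0
    rw [map_one]; rfl
  map_add' x y := by
    show ptj_CSof (ptj_CSmk S (⟨(x.toMul : ptj_J Qbar), pta_JSS_le_JS x.toMul.2⟩ *
      ⟨(y.toMul : ptj_J Qbar), pta_JSS_le_JS y.toMul.2⟩)) = _
    rw [map_mul]; rfl

lemma pta_Eπ_apply (x : pta_EJ S) :
    pta_Eπ S x = ptj_CSof (ptj_CSmk S ⟨(x.toMul : ptj_J Qbar), pta_JSS_le_JS x.toMul.2⟩) := rfl

lemma pta_Eπ_smul (γ : GQ) (x : pta_EJ S) : pta_Eπ S (γ • x) = γ • pta_Eπ S x := rfl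

/-- `π x = 0` iff the idele lies in the relation subgroup `𝒩_S`. -/
lemma pta_Eπ_eq_zero_iff (x : pta_EJ S) :
    pta_Eπ S x = 0 ↔ ((x.toMul : pta_JSS S) : ptj_J Qbar) ∈ ptj_NS S := by
  rw [pta_Eπ_apply]
  constructor
  · intro h
    have h1 : ptj_CSmk S ⟨(x.toMul : ptj_J Qbar), pta_JSS_le_JS x.toMul.2⟩ = 1 :=
      ptj_CSof.injective h
    exact (ptj_CSmk_eq_one_iff _).1 h1
  · intro h
    have h1 := (ptj_CSmk_eq_one_iff ⟨(x.toMul : ptj_J Qbar), pta_JSS_le_JS x.toMul.2⟩).2 h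
    rw [h1]; rfl

/-- discreteness of `J` -/
lemma pta_EJ_discrete (x : pta_EJ S) : ∃ F : IntermediateField ℚ Qbar,
    F.IsUnramifiedOutside S ∧ ∀ s ∈ F.fixingSubgroup, s • x = x := by
  obtain ⟨F, hF, h⟩ := x.toMul.2.1
  refine ⟨F, hF, fun s hs => ?_⟩
  rw [pta_EJ_smul_def]
  have : s • x.toMul = x.toMul := Subtype.ext (h s hs)
  rw [this]; rfl

end Fermat.Agent.Lib.PT

end
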