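/-
S55 long haul, (EM) part B: roots of unity in `J` (`ζ : ZMod p →+ J`) and the coordinates
`ev q : J → ZMod p` at the base embeddings `ι_q = padicEmbedding q`.
-/
import Fermat.Agent.Lib.PT.GModEModA
import Fermat.Agent.Lib.PT.BridgeM

set_option autoImplicit false
set_option linter.unusedVariables false
set_option linter.unusedSectionVars false
set_option linter.style.haveILetI false

noncomputable section

namespace Fermat.Agent.Lib.PT

open IntermediateField ExtCitation

local notation "Qbar" => AlgebraicClosure ℚ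
local notation "GQ" => (AlgebraicClosure ℚ ≃ₐ[ℚ] AlgebraicClosure ℚ)

/-! ### Discrete logarithm on `μ_p` -/

section zlog

variable {Ω : Type*} [Field Ω] (p : ℕ) [Fact p.Prime] {ζ : Ωˣ} (hζ : IsPrimitiveRoot ζ p)

open Classical in
/-- the `a : ZMod p` with `ζ ^ a = y`, or `0` if there is none -/
def pta_zlog (y : Additive Ωˣ) : ZMod p :=
  if h : ∃ a, ptg_zetaHom p ζ hζ.pow_eq_one a = y then Classical.choose h else 0

lemma pta_zlog_spec {y : Additive Ωˣ} (hy : p • y = 0) :
    ptg_zetaHom p ζ hζ.pow_eq_one (pta_zlog p hζ y) = y := by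
  have h := ptg_exists_zetaHom_of_tors p hζ y hy
  unfold pta_zlog
  rw [dif_pos h]
  exact Classical.choose_spec h

lemma pta_zlog_zetaHom (a : ZMod p) : pta_zlog p hζ (ptg_zetaHom p ζ hζ.pow_eq_one a) = a := by
  apply ptg_zetaHom_injective p hζ
  exact pta_zlog_spec p hζ (ptg_zetaHom_tors p ζ hζ.pow_eq_one a)

lemma pta_zlog_add {y y' : Additive Ωˣ} (hy : p • y = 0) (hy' : p • y' = 0) :
    pta_zlog p hζ (y + y') = pta_zlog p hζ y + pta_zlog p hζ y' := by
  apply ptg_zetaHom_injective p hζ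
  rw [map_add, pta_zlog_spec p hζ hy, pta_zlog_spec p hζ hy',
    pta_zlog_spec p hζ (by rw [nsmul_add, hy, hy', add_zero])]

lemma pta_zlog_eq_zero_iff {y : Additive Ωˣ} (hy : p • y = 0) : pta_zlog p hζ y = 0 ↔ y = 0 := by
  constructor
  · intro h
    rw [← pta_zlog_spec p hζ hy, h, map_zero]
  · intro h
    rw [h, ← map_zero (ptg_zetaHom p ζ hζ.pow_eq_one), pta_zlog_zetaHom]

end zlog

/-! ### The base embedding and the chosen root of unity -/

/-- the base `q`-adic embedding `ι_q` of `Q̄` -/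
def pta_iota (q : Nat.Primes) : ptj_Emb Qbar q :=
  ((padicEmbedding (q : ℕ)) : Qbar →+* ptj_Om q)

@[simp] lemma pta_iota_apply (q : Nat.Primes) (x : Qbar) :
    pta_iota q x = padicEmbedding (q : ℕ) x := rfl

/-- `ι_q ∘ r_q(τ) = τ ∘ ι_q` -/
lemma pta_pre_iota (q : Nat.Primes) (τ : ptj_Gq q) :
    ptj_pre (localGaloisToGlobal (q : ℕ) τ) (pta_iota q) = ptj_post τ (pta_iota q) := by
  ext x
  exact padicEmbedding_localGaloisToGlobal (q : ℕ) τ x

/-- every `q`-adic embedding of `Q̄` is `ι_q ∘ g` for a unique `g` -/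
lemma pta_exists_pre_iota (q : Nat.Primes) (σ : ptj_Emb Qbar q) :
    ∃ g : GQ, σ = ptj_pre g (pta_iota q) := ptj_exists_pre_eq_Qbar (pta_iota q) σ

lemma pta_pre_iota_injective (q : Nat.Primes) {g g' : GQ}
    (h : ptj_pre g (pta_iota q) = ptj_pre g' (pta_iota q)) : g = g' := by
  ext x
  have := congrArg (fun ρ : ptj_Emb Qbar q => ρ x) h
  exact (pta_iota q).injective this

variable (p : ℕ) [Fact p.Prime]

/-- a chosen primitive `p`-th root of unity of `Q̄` -/
def pta_zeta0 : Qbar := Classical.choose (pta_exists_primitiveRoot p)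

lemma pta_zeta0_spec : IsPrimitiveRoot (pta_zeta0 p) p :=
  Classical.choose_spec (pta_exists_primitiveRoot p)

/-- `ζ₀` as a unit -/
def pta_zeta0U : Qbarˣ := ((pta_zeta0_spec p).isUnit (Fact.out : p.Prime).ne_zero).unit

@[simp] lemma pta_zeta0U_coe : ((pta_zeta0U p : Qbarˣ) : Qbar) = pta_zeta0 p := rfl

lemma pta_zeta0U_spec : IsPrimitiveRoot (pta_zeta0U p) p :=
  IsPrimitiveRoot.coe_units_iff.mp (by simpa using pta_zeta0_spec p)

/-- `ι_q ζ₀` as a unit of `Ω_q` -/
def pta_zetaq (q : Nat.Primes) : (ptj_Om q)ˣ :=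
  Units.map ((pta_iota q : Qbar →+* ptj_Om q) : Qbar →* ptj_Om q) (pta_zeta0U p)

lemma pta_zetaq_spec (q : Nat.Primes) : IsPrimitiveRoot (pta_zetaq p q) p := by
  apply IsPrimitiveRoot.coe_units_iff.mp
  exact ptg_isPrimitiveRoot_padicEmbedding (q : ℕ) p (pta_zeta0_spec p)

/-! ### Coordinates of ideles -/

lemma pta_coe_pow_apply {K : Type*} [Field K] (f : ptj_J K) (n : ℕ) (q : Nat.Primes)
    (σ : ptj_Emb K q) :
    ((f ^ n : ptj_J K) : ptj_Amb K) q σ = ((f : ptj_Amb K) q σ) ^ n := by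
  rw [Subgroup.coe_pow]
  rfl

variable (S : Finset Nat.Primes)

/-- evaluation at the base embedding `ι_q`, additively -/
def pta_evU (q : Nat.Primes) : pta_EJ S →+ Additive (ptj_Om q)ˣ where
  toFun x := Additive.ofMul (((x.toMul : ptj_J Qbar) : ptj_Amb Qbar) q (pta_iota q))
  map_zero' := rfl
  map_add' x y := rfl

lemma pta_evU_apply (q : Nat.Primes) (x : pta_EJ S) :
    pta_evU S q x = Additive.ofMul (((x.toMul : ptj_J Qbar) : ptj_Amb Qbar) q (pta_iota q)) := rfl

lemma pta_evU_smul (q : Nat.Primes) (g : GQ) (x : pta_EJ S) :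
    pta_evU S q (g • x) =
      Additive.ofMul (((x.toMul : ptj_J Qbar) : ptj_Amb Qbar) q (ptj_pre g (pta_iota q))) := rfl

/-- the coordinate at `ι_q` of the translate by a local Galois element -/
lemma pta_evU_loc (q : Nat.Primes) (τ : ptj_Gq q) (x : pta_EJ S) :
    pta_evU S q (localGaloisToGlobal (q : ℕ) τ • x) =
      Additive.ofMul (ptj_tauU τ (((x.toMul : ptj_J Qbar) : ptj_Amb Qbar) q (pta_iota q))) := by
  rw [pta_evU_smul, pta_pre_iota]
  congr 1
  exact (x.toMul : ptj_J Qbar).2.1 q τ (pta_iota q)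

/-- the `p`-torsion of `J` evaluates into the `p`-torsion of `Ω_qˣ` -/
lemma pta_evU_tors (q : Nat.Primes) {x : pta_EJ S} (hx : p • x = 0) : p • pta_evU S q x = 0 := by
  rw [← map_nsmul, hx, map_zero]

/-- the coordinate `ev q : J → ZMod p` at the base place over `q` -/
def pta_Eev (q : Nat.Primes) (x : pta_EJ S) : ZMod p :=
  pta_zlog p (pta_zetaq_spec p q) (pta_evU S q x)

lemma pta_Eev_spec (q : Nat.Primes) {x : pta_EJ S} (hx : p • x = 0) :
    ptg_zetaHom p (pta_zetaq p q) (pta_zetaq_spec p q).pow_eq_one (pta_Eev p S q x) =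
      pta_evU S q x :=
  pta_zlog_spec p (pta_zetaq_spec p q) (pta_evU_tors p S q hx)

lemma pta_Eev_add (q : Nat.Primes) {x y : pta_EJ S} (hx : p • x = 0) (hy : p • y = 0) :
    pta_Eev p S q (x + y) = pta_Eev p S q x + pta_Eev p S q y := by
  unfold pta_Eev
  rw [map_add]
  exact pta_zlog_add p _ (pta_evU_tors p S q hx) (pta_evU_tors p S q hy)

/-- characterisation of the coordinate -/
lemma pta_Eev_eq_of (q : Nat.Primes) (x : pta_EJ S) (a : ZMod p)
    (h : ((x.toMul : ptj_J Qbar) : ptj_Amb Qbar) q (pta_iota q) = pta_zetaq p q ^ a.val) :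
    pta_Eev p S q x = a := by
  unfold pta_Eev
  have : pta_evU S q x = ptg_zetaHom p (pta_zetaq p q) (pta_zetaq_spec p q).pow_eq_one a := by
    rw [pta_evU_apply, h]
    rfl
  rw [this, pta_zlog_zetaHom]

/-- `G_q` acts on the coordinates through the cyclotomic character -/
lemma pta_Eev_loc (q : Nat.Primes) (τ : ptj_Gq q) {x : pta_EJ S} (hx : p • x = 0) :
    pta_Eev p S q (localGaloisToGlobal (q : ℕ) τ • x) =
      (cycloChar p (localGaloisToGlobal (q : ℕ) τ) : ZMod p) * pta_Eev p S q x := by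
  have : NeZero p := ⟨(Fact.out : p.Prime).ne_zero⟩
  have h1 := pta_Eev_spec p S q hx
  rw [pta_evU_apply, ptg_zetaHom_apply] at h1
  have h2 : ((x.toMul : ptj_J Qbar) : ptj_Amb Qbar) q (pta_iota q) =
      pta_zetaq p q ^ (pta_Eev p S q x).val := (Additive.ofMul.injective h1).symm
  apply pta_Eev_eq_of
  have h3 : ((((localGaloisToGlobal (q : ℕ) τ • x : pta_EJ S)).toMul : ptj_J Qbar) :
      ptj_Amb Qbar) q (pta_iota q) =
      ptj_tauU τ (((x.toMul : ptj_J Qbar) : ptj_Amb Qbar) q (pta_iota q)) :=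
    Additive.ofMul.injective (pta_evU_loc S q τ x)
  rw [h3, h2, map_pow]
  have h4 : ptj_tauU τ (pta_zetaq p q) = pta_zetaq p q ^
      ((cycloChar p (localGaloisToGlobal (q : ℕ) τ) : (ZMod p)ˣ) : ZMod p).val := by
    apply Units.ext
    rw [ptj_tauU_coe, Units.val_pow_eq_pow_val]
    exact ptg_apply_rootOfUnity (q : ℕ) p τ
      (by
        have := (pta_zetaq_spec p q).pow_eq_one
        rw [← Units.val_pow_eq_pow_val, this, Units.val_one])
  rw [h4, ← pow_mul, ZMod.val_mul]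
  exact (pow_eq_pow_mod _ (pta_zetaq_spec p q).pow_eq_one).symm ▸ rfl

end Fermat.Agent.Lib.PT

end
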