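/-
G7a (global invariant for the S55 long-haul), part 1: ABSTRACT restricted sums of local invariants.

For a big-group model `(G, 𝓛, ρJ)` and a family of localisations
`(H q, lev q, r q : H q → G, A q, ρ q, ev q : J → A q, inv q)` such that every level cocycle of `G`
localises to a level coboundary at almost all `q`, the function
`INV y = ∑ᶠ q, inv q (ev q ∘ y ∘ (r q × r q))` is additive on level cocycles and vanishes on level
coboundaries; `INV_U := INV ∘ cor` has the same properties on every open subgroup.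
-/
import Fermat.Agent.Lib.PT.AdtBaseDefs
import Fermat.Agent.Lib.PT.AdtCorE

set_option autoImplicit false
set_option linter.unusedVariables false
set_option linter.unusedSectionVars false

noncomputable section

namespace Fermat.Agent.Lib.PT

open scoped Classical

section Abstract

variable {G : Type*} [Group G] (𝓛 : ptd_Levels G) {J : Type*} [AddCommGroup J]
  (ρJ : Representation ℤ G J) (T : Type*) [AddCommGroup T] (Q : Type*)

/-- A family of localisations of `(G, 𝓛, ρJ)` with local invariant functions, such that level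
cocycles localise to coboundaries almost everywhere. -/
structure ptj_LocFam where
  /-- the local groups -/
  H : Q → Type
  [grp : ∀ q, Group (H q)]
  /-- their level structures -/
  lev : ∀ q, ptd_Levels (H q)
  /-- the maps to the global group -/
  r : ∀ q, H q →* G
  r_cont : ∀ q, ptd_IsLevCont (lev q) 𝓛 (r q)
  /-- the local modules -/
  A : Q → Type
  [acg : ∀ q, AddCommGroup (A q)]
  ρ : ∀ q, Representation ℤ (H q) (A q)
  /-- the evaluation maps -/
  ev : ∀ q, J →+ A q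
  ev_equiv : ∀ q (t : H q) (x : J), ev q (ρJ (r q t) x) = ρ q t (ev q x)
  /-- the local invariants -/
  inv : ∀ q, (H q × H q → A q) → T
  inv_add : ∀ q z z', ptd_IsLZ2 (lev q) (ρ q) z → ptd_IsLZ2 (lev q) (ρ q) z' →
    inv q (z + z') = inv q z + inv q z'
  inv_b2 : ∀ q z, ptd_IsB2 (lev q) (ρ q) z → inv q z = 0
  fin : ∀ y, ptd_IsLZ2 𝓛 ρJ y →
    {q | ¬ ptd_IsB2 (lev q) (ρ q) (ptd_loc₂ (r q) (ev q) y)}.Finite

attribute [instance] ptj_LocFam.grp ptj_LocFam.acg

namespace ptj_LocFam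

variable {𝓛 ρJ T Q} (F : ptj_LocFam 𝓛 ρJ T Q)

/-- the localisation of a 2-cochain at `q` -/
def loc (q : Q) (y : G × G → J) : F.H q × F.H q → F.A q := ptd_loc₂ (F.r q) (F.ev q) y

lemma loc_add (q : Q) (y y' : G × G → J) : F.loc q (y + y') = F.loc q y + F.loc q y' := by
  funext x
  simp only [loc, ptd_loc₂, Pi.add_apply, map_add]

lemma loc_isLZ2 (q : Q) {y : G × G → J} (hy : ptd_IsLZ2 𝓛 ρJ y) :
    ptd_IsLZ2 (F.lev q) (F.ρ q) (F.loc q y) :=
  hy.loc (F.r_cont q) (F.ev q) (F.ev_equiv q)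

lemma loc_isB2 (q : Q) {y : G × G → J} (hy : ptd_IsB2 𝓛 ρJ y) :
    ptd_IsB2 (F.lev q) (F.ρ q) (F.loc q y) :=
  hy.loc (F.r_cont q) (F.ev q) (F.ev_equiv q)

/-- **The global invariant**: the (finite) sum of the local invariants. -/
def INV (y : G × G → J) : T := ∑ᶠ q, F.inv q (F.loc q y)

lemma support_finite {y : G × G → J} (hy : ptd_IsLZ2 𝓛 ρJ y) :
    (Function.support fun q => F.inv q (F.loc q y)).Finite := by
  refine (F.fin y hy).subset fun q hq hB => hq ?_
  exact F.inv_b2 q _ hB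

/-- `INV` as a finite sum over any finite set outside which the localisations are coboundaries. -/
theorem INV_eq_sum {y : G × G → J} (s : Finset Q)
    (hs : ∀ q, q ∉ s → ptd_IsB2 (F.lev q) (F.ρ q) (F.loc q y)) :
    F.INV y = ∑ q ∈ s, F.inv q (F.loc q y) := by
  refine finsum_eq_sum_of_support_subset _ fun q hq => ?_
  by_contra hqs
  exact hq (F.inv_b2 q _ (hs q (by simpa using hqs)))

/-- `INV` is additive on level cocycles. -/
theorem INV_add {y y' : G × G → J} (hy : ptd_IsLZ2 𝓛 ρJ y) (hy' : ptd_IsLZ2 𝓛 ρJ y') :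
    F.INV (y + y') = F.INV y + F.INV y' := by
  unfold INV
  rw [← finsum_add_distrib (F.support_finite hy) (F.support_finite hy')]
  refine finsum_congr fun q => ?_
  rw [F.loc_add, F.inv_add q _ _ (F.loc_isLZ2 q hy) (F.loc_isLZ2 q hy')]

/-- `INV` vanishes on level coboundaries. -/
theorem INV_b2 {y : G × G → J} (hy : ptd_IsB2 𝓛 ρJ y) : F.INV y = 0 := by
  unfold INV
  rw [finsum_congr fun q => F.inv_b2 q _ (F.loc_isB2 q hy)]
  exact finsum_zero

lemma isLZ2_zero : ptd_IsLZ2 𝓛 ρJ (0 : G × G → J) := by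
  refine ⟨fun g h j => by simp, ?_⟩
  obtain ⟨N, hN⟩ := 𝓛.nonempty
  exact ⟨N, hN, fun _ _ _ _ _ _ => rfl⟩

lemma INV_zero : F.INV (0 : G × G → J) = 0 := by
  have h := F.INV_add (isLZ2_zero (𝓛 := 𝓛) (ρJ := ρJ)) (isLZ2_zero (𝓛 := 𝓛) (ρJ := ρJ))
  rw [add_zero] at h
  have h2 : F.INV (0 : G × G → J) + 0 = F.INV 0 + F.INV 0 := by rw [add_zero]; exact h
  exact (add_left_cancel h2).symm

lemma INV_neg {y : G × G → J} (hy : ptd_IsLZ2 𝓛 ρJ y) : F.INV (-y) = -F.INV y := by
  have h := F.INV_add hy hy.neg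
  rw [add_neg_cancel, F.INV_zero] at h
  exact (neg_eq_of_add_eq_zero_right h.symm).symm

lemma INV_sub {y y' : G × G → J} (hy : ptd_IsLZ2 𝓛 ρJ y) (hy' : ptd_IsLZ2 𝓛 ρJ y') :
    F.INV (y - y') = F.INV y - F.INV y' := by
  rw [sub_eq_add_neg, F.INV_add hy hy'.neg, F.INV_neg hy', sub_eq_add_neg]

lemma INV_nsmul {y : G × G → J} (hy : ptd_IsLZ2 𝓛 ρJ y) (n : ℕ) :
    F.INV (n • y) = n • F.INV y := by
  induction n with
  | zero => simp [F.INV_zero]
  | succ n ih =>
    rw [succ_nsmul, succ_nsmul, F.INV_add (hy.nsmul n) hy, ih]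

lemma INV_zsmul {y : G × G → J} (hy : ptd_IsLZ2 𝓛 ρJ y) (n : ℤ) :
    F.INV (n • y) = n • F.INV y := by
  obtain ⟨m, rfl | rfl⟩ := n.eq_nat_or_neg
  · rw [natCast_zsmul, natCast_zsmul, F.INV_nsmul hy]
  · rw [neg_zsmul, neg_zsmul, natCast_zsmul, natCast_zsmul, F.INV_neg (hy.nsmul m),
      F.INV_nsmul hy]

/-- `INV` only depends on the class modulo level coboundaries. -/
theorem INV_congr (hd : ptd_IsDiscrete 𝓛 ρJ) {y y' : G × G → J} (hy : ptd_IsLZ2 𝓛 ρJ y)
    (h : ptd_IsB2 𝓛 ρJ (y' - y)) : F.INV y' = F.INV y := by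
  have h1 : y' = y + (y' - y) := by abel
  rw [h1, F.INV_add hy (h.isLZ2 hd), F.INV_b2 h, add_zero]

/-! ### The invariant of an open subgroup: `INV ∘ cor` -/

section Open

variable (U : Subgroup G) (hU : 𝓛.IsOpen U)

/-- the invariant of an open subgroup `U`: `INV_U y = INV (cor y)` -/
def INVU (y : U × U → J) : T :=
  haveI := hU.finiteIndex
  F.INV (ptd_cor₂ U ρJ y)

variable {U}

theorem INVU_add {y y' : U × U → J} (hy : ptd_IsLZ2 (𝓛.sub U hU) (ptd_resRep ρJ U) y)
    (hy' : ptd_IsLZ2 (𝓛.sub U hU) (ptd_resRep ρJ U) y') :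
    F.INVU U hU (y + y') = F.INVU U hU y + F.INVU U hU y' := by
  haveI := hU.finiteIndex
  unfold INVU
  rw [ptd_cor₂_add, F.INV_add (ptd_isLZ2_cor₂ U hU ρJ hy) (ptd_isLZ2_cor₂ U hU ρJ hy')]

theorem INVU_b2 {y : U × U → J} (hy : ptd_IsB2 (𝓛.sub U hU) (ptd_resRep ρJ U) y) :
    F.INVU U hU y = 0 := by
  haveI := hU.finiteIndex
  unfold INVU
  exact F.INV_b2 (ptd_isB2_cor₂ U hU ρJ hy)

/-- `INV_U ∘ res = [G : U] • INV` on level cocycles of `G`. -/
theorem INVU_res (hd : ptd_IsDiscrete 𝓛 ρJ) {z : G × G → J} (hz : ptd_IsLZ2 𝓛 ρJ z) :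
    F.INVU U hU (ptd_res₂ U z) = U.index • F.INV z := by
  haveI := hU.finiteIndex
  unfold INVU
  have hB := ptd_cor₂_res_sub_isB2 U hU ρJ hz
  have h1 : ptd_IsB2 𝓛 ρJ (ptd_cor₂ U ρJ (ptd_res₂ U z) - U.index • z) := by
    have := hB.neg
    rwa [neg_sub] at this
  rw [F.INV_congr hd (hz.nsmul U.index) h1, F.INV_nsmul hz]

end Open

end ptj_LocFam

end Abstract

end Fermat.Agent.Lib.PT

end
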