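/-
G7a (global invariant for the S55 long-haul), part 2: THE MODEL.

* `ptj_AJ S = Additive 𝒥_S` with the representation `ptj_JSrep S` of `G_ℚ` (discrete for the
  `S`-levels), the projection `ptj_piJ S : 𝒥_S → 𝒞_S` (equivariant, surjective);
* evaluation at the base embedding `ptj_evq S q : 𝒥_S → Ω_qˣ`, equivariant along
  `localGaloisToGlobal q`; level-continuity of `localGaloisToGlobal q`;
* the localisation family `ptj_locFam` over all primes, from abstract local invariants and the
  hypothesis (UC) "unit-valued cocycles at unramified levels are coboundaries"; the global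
  invariant `ptj_INV`.
-/
import Fermat.Agent.Lib.PT.GModInvA
import Fermat.Agent.Lib.PT.GModBigD
import Fermat.Agent.Lib.PT.GModEModB
import Fermat.Agent.Lib.PT.BridgeL

set_option autoImplicit false
set_option linter.unusedVariables false
set_option linter.unusedSectionVars false
set_option linter.style.haveILetI false

noncomputable section

namespace Fermat.Agent.Lib.PT

open IntermediateField

local notation "Qbar" => AlgebraicClosure ℚ
local notation "GQ" => (AlgebraicClosure ℚ ≃ₐ[ℚ] AlgebraicClosure ℚ)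

variable (S : Finset Nat.Primes)

/-! ### The module `𝒥_S`, additively -/

/-- the smooth `S`-ideles, additively -/
abbrev ptj_AJ : Type := Additive ↥(ptj_JS S)

/-- the representation of `G_ℚ` on the smooth `S`-ideles -/
abbrev ptj_JSrep : Representation ℤ GQ (ptj_AJ S) :=
  Representation.ofMulDistribMulAction GQ ↥(ptj_JS S)

lemma ptj_JSrep_apply (g : GQ) (x : ptj_AJ S) :
    ptj_JSrep S g x = Additive.ofMul (g • Additive.toMul x) := rfl

/-- `𝒥_S` is discrete for the `S`-levels -/
theorem ptj_isDiscrete_JS : ptd_IsDiscrete (pta_levelsS S) (ptj_JSrep S) := by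
  intro x
  obtain ⟨F, hF, hst, h⟩ := ptj_exists_stable_level (Additive.toMul x).2
  refine ⟨_, pta_mem_levelsS hF hst, fun n hn => ?_⟩
  rw [ptj_JSrep_apply]
  apply congrArg Additive.ofMul
  exact Subtype.ext (h n hn)

/-- the projection `𝒥_S → 𝒞_S`, additively -/
def ptj_piJ : ptj_AJ S →+ ptj_CS S where
  toFun x := ptj_CSof (ptj_CSmk S (Additive.toMul x))
  map_zero' := by
    show ptj_CSof (ptj_CSmk S 1) = 0
    rw [map_one]; rfl
  map_add' x y := by
    show ptj_CSof (ptj_CSmk S (Additive.toMul x * Additive.toMul y)) = _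
    rw [map_mul]; rfl

lemma ptj_piJ_apply (x : ptj_AJ S) : ptj_piJ S x = ptj_CSof (ptj_CSmk S (Additive.toMul x)) := rfl

lemma ptj_piJ_equiv (g : GQ) (x : ptj_AJ S) :
    ptj_piJ S (ptj_JSrep S g x) = ptj_CSrep S g (ptj_piJ S x) := rfl

lemma ptj_piJ_surjective : Function.Surjective (ptj_piJ S) := by
  intro c
  obtain ⟨f, hf⟩ := ptj_CSmk_surjective (ptj_CSof.symm c)
  exact ⟨Additive.ofMul f, by rw [ptj_piJ_apply, toMul_ofMul, hf]; rfl⟩

lemma ptj_piJ_eq_zero_iff (x : ptj_AJ S) :
    ptj_piJ S x = 0 ↔ ((Additive.toMul x : ptj_JS S) : ptj_J Qbar) ∈ ptj_NS S := by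
  rw [← ptj_CSmk_eq_one_iff]
  exact Iff.rfl

/-- `𝒞_S` is discrete for the `S`-levels -/
theorem ptj_isDiscrete_CS : ptd_IsDiscrete (pta_levelsS S) (ptj_CSrep S) := by
  intro c
  obtain ⟨x, rfl⟩ := ptj_piJ_surjective S c
  obtain ⟨N, hN, h⟩ := ptj_isDiscrete_JS S x
  exact ⟨N, hN, fun n hn => by rw [← ptj_piJ_equiv, h n hn]⟩

/-! ### Evaluation at the base embedding -/

/-- evaluation of a smooth idele at the base embedding `ι_q`, additively -/
def ptj_evq (q : Nat.Primes) : ptj_AJ S →+ Additive (ptj_Om q)ˣ where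
  toFun x := Additive.ofMul ((((Additive.toMul x : ptj_JS S) : ptj_J Qbar) : ptj_Amb Qbar) q
    (pta_iota q))
  map_zero' := rfl
  map_add' x y := rfl

lemma ptj_evq_apply (q : Nat.Primes) (x : ptj_AJ S) :
    ptj_evq S q x = Additive.ofMul ((((Additive.toMul x : ptj_JS S) : ptj_J Qbar) :
      ptj_Amb Qbar) q (pta_iota q)) := rfl

/-- the coordinate at `ι_q ∘ g` -/
lemma ptj_evq_smul (q : Nat.Primes) (g : GQ) (x : ptj_AJ S) :
    ptj_evq S q (ptj_JSrep S g x) = Additive.ofMul ((((Additive.toMul x : ptj_JS S) :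
      ptj_J Qbar) : ptj_Amb Qbar) q (ptj_pre g (pta_iota q))) := rfl

/-- equivariance of the evaluation along `localGaloisToGlobal q` -/
theorem ptj_evq_equiv (q : Nat.Primes) (τ : ptj_Gq q) (x : ptj_AJ S) :
    ptj_evq S q (ptj_JSrep S (localGaloisToGlobal (q : ℕ) τ) x) =
      ptg_unitsRep (q : ℕ) τ (ptj_evq S q x) := by
  rw [ptj_evq_smul, pta_pre_iota]
  show _ = Additive.ofMul (τ • Additive.toMul (ptj_evq S q x))
  apply congrArg Additive.ofMul
  rw [((Additive.toMul x : ptj_JS S) : ptj_J Qbar).2.1 q τ (pta_iota q)]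
  apply Units.ext
  rw [AlgEquiv.smul_units_def]
  rfl

/-! ### Level-continuity of `localGaloisToGlobal q` -/

theorem ptj_isLevCont_local (q : Nat.Primes) :
    ptd_IsLevCont (ptg_levels (q : ℕ)) (pta_levelsS S) (localGaloisToGlobal (q : ℕ)) := by
  rintro _ ⟨F, hF, hst, rfl⟩
  haveI := hF.1
  exact ⟨_, ⟨F, hF.1, hst, rfl⟩, fun n hn => hn⟩

end Fermat.Agent.Lib.PT

end
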