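/-
G7a (global invariant for the S55 long-haul), part 3: invariants of open subgroups.

* an open subgroup `W` of `G_ℚ` (for the `S`-levels) is the fixing subgroup of its fixed field,
  which is unramified outside `S`;
* (lift) `𝒞_S^W = π(𝒥_S^W)`;
* the `G_ℚ`-invariant elements of `ker π` are the products `diag(x)·u`, `x ∈ ℚˣ`, `u` a
  `G_ℚ`-invariant unit idele supported outside `S`.
-/
import Fermat.Agent.Lib.PT.GModInvB

set_option autoImplicit false
set_option linter.unusedVariables false
set_option linter.unusedSectionVars false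
set_option linter.style.haveILetI false

noncomputable section

namespace Fermat.Agent.Lib.PT

open IntermediateField

local notation "Qbar" => AlgebraicClosure ℚ
local notation "GQ" => (AlgebraicClosure ℚ ≃ₐ[ℚ] AlgebraicClosure ℚ)

variable {S : Finset Nat.Primes}

/-! ### Open subgroups and their fixed fields -/

/-- the fixed field of an open subgroup is contained in a level field -/
lemma ptj_fixedField_le_of_le {W : Subgroup GQ} {F : IntermediateField ℚ Qbar}
    (h : F.fixingSubgroup ≤ W) : IntermediateField.fixedField W ≤ F := by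
  haveI : IsAlgClosure ℚ Qbar := ⟨inferInstance, AlgebraicClosure.isAlgebraic ℚ⟩
  haveI : IsGalois ℚ Qbar := IsAlgClosure.isGalois ℚ Qbar
  have h2 : IntermediateField.fixedField W ≤ IntermediateField.fixedField F.fixingSubgroup := by
    intro x hx
    rw [IntermediateField.mem_fixedField_iff] at hx ⊢
    exact fun g hg => hx g (h hg)
  rwa [InfiniteGalois.fixedField_fixingSubgroup] at h2

/-- the fixed field of an open subgroup is unramified outside `S` -/
theorem ptj_fixedField_isUnramifiedOutside {W : Subgroup GQ} (hW : (pta_levelsS S).IsOpen W) :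
    (IntermediateField.fixedField W).IsUnramifiedOutside S := by
  obtain ⟨_, ⟨F, hF, -, rfl⟩, hle⟩ := hW
  exact hF.of_le (ptj_fixedField_le_of_le hle)

/-- an open subgroup is the fixing subgroup of its fixed field -/
theorem ptj_fixingSubgroup_fixedField {W : Subgroup GQ} (hW : (pta_levelsS S).IsOpen W) :
    (IntermediateField.fixedField W).fixingSubgroup = W := by
  haveI : IsAlgClosure ℚ Qbar := ⟨inferInstance, AlgebraicClosure.isAlgebraic ℚ⟩
  haveI : IsGalois ℚ Qbar := IsAlgClosure.isGalois ℚ Qbar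
  obtain ⟨_, ⟨F, hF, -, rfl⟩, hle⟩ := hW
  haveI := hF.1
  have hopen : IsOpen (W : Set GQ) := Subgroup.isOpen_mono hle F.fixingSubgroup_isOpen
  have hclosed : IsClosed (W : Set GQ) := Subgroup.isClosed_of_isOpen _ hopen
  exact InfiniteGalois.fixingSubgroup_fixedField (⟨W, hclosed⟩ : ClosedSubgroup GQ)

/-! ### (lift): invariant classes come from invariant ideles -/

/-- **(lift)** a class fixed by an open subgroup `W` is the class of an idele fixed by `W`. -/
theorem ptj_exists_lift_invariant (hS : S.Nonempty) {W : Subgroup GQ}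
    (hW : (pta_levelsS S).IsOpen W) (c : ptj_CS S) (hc : ∀ w ∈ W, ptj_CSrep S w c = c) :
    ∃ j : ptj_AJ S, (∀ w ∈ W, ptj_JSrep S w j = j) ∧ ptj_piJ S j = c := by
  set E : IntermediateField ℚ Qbar := IntermediateField.fixedField W with hE
  have hEu : E.IsUnramifiedOutside S := ptj_fixedField_isUnramifiedOutside hW
  have hfix : E.fixingSubgroup = W := ptj_fixingSubgroup_fixedField hW
  have hc' : ∀ γ ∈ E.fixingSubgroup, γ • ptj_CSof.symm c = ptj_CSof.symm c := by
    intro γ hγ
    rw [hfix] at hγ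
    have := hc γ hγ
    exact congrArg ptj_CSof.symm this
  obtain ⟨c', hc'⟩ := (ptj_mem_range_iota_field_iff_invariant E hS hEu (ptj_CSof.symm c)).2 hc'
  obtain ⟨g, rfl⟩ := QuotientGroup.mk_surjective c'
  rw [ptj_iota_mk] at hc'
  refine ⟨Additive.ofMul (ptj_upS S E (ptj_isUnrE_field E hEu) g), fun w hw => ?_, ?_⟩
  · rw [ptj_JSrep_apply]
    apply congrArg Additive.ofMul
    apply Subtype.ext
    rw [toMul_ofMul, ptj_JS_smul_coe, ptj_upS_coe]
    have hw' : w ∈ E.fixingSubgroup := by rw [hfix]; exact hw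
    exact (ptj_mem_range_up_field_iff E _).1 ⟨g, rfl⟩ w hw'
  · rw [ptj_piJ_apply, toMul_ofMul, hc']
    rfl

/-! ### The invariant part of `ker π` -/

/-- uniqueness of the decomposition `diag(x)·u` -/
lemma ptj_diag_mul_unique (hS : S.Nonempty) {x x' : Qbarˣ} {u u' : ptj_J Qbar}
    (hu : u ∈ ptj_UT Qbar S) (hu' : u' ∈ ptj_UT Qbar S)
    (h : ptj_diag Qbar x * u = ptj_diag Qbar x' * u') : x = x' ∧ u = u' := by
  have h1 : ptj_diag Qbar (x / x') = u' / u := by
    rw [map_div, div_eq_div_iff_mul_eq_mul, h, mul_comm]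
  have h2 : x / x' = 1 := by
    apply ptj_principal_inf_UT hS
    rw [h1]
    exact (ptj_UT Qbar S).div_mem hu' hu
  have hx : x = x' := div_eq_one.mp h2
  refine ⟨hx, ?_⟩
  rw [hx] at h
  exact mul_left_cancel h

/-- **The `G_ℚ`-invariant elements of `ker π`**: products of a principal idele of `ℚˣ` and a
`G_ℚ`-invariant unit idele supported outside `S`. -/
theorem ptj_ker_invariant_decomp (hS : S.Nonempty) (z : ptj_AJ S)
    (hz : ∀ g : GQ, ptj_JSrep S g z = z) (hπ : ptj_piJ S z = 0) :
    ∃ (a : ℚˣ) (u : ptj_J Qbar), u ∈ ptj_US S ∧ (∀ g : GQ, g • u = u) ∧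
      ((Additive.toMul z : ptj_JS S) : ptj_J Qbar) =
        ptj_diag Qbar (Units.map (algebraMap ℚ Qbar : ℚ →* Qbar) a) * u := by
  haveI : IsAlgClosure ℚ Qbar := ⟨inferInstance, AlgebraicClosure.isAlgebraic ℚ⟩
  haveI : IsGalois ℚ Qbar := IsAlgClosure.isGalois ℚ Qbar
  obtain ⟨x, hx, u, hu, hzu⟩ := (ptj_mem_NS_iff _).1 ((ptj_piJ_eq_zero_iff S z).1 hπ)
  -- invariance of both factors
  have hinv : ∀ g : GQ, Units.map (g : Qbar →* Qbar) x = x ∧ g • u = u := by
    intro g
    have h1 : g • ((Additive.toMul z : ptj_JS S) : ptj_J Qbar) =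
        ((Additive.toMul z : ptj_JS S) : ptj_J Qbar) := by
      have := hz g
      rw [ptj_JSrep_apply] at this
      have h2 := congrArg (fun y : ptj_AJ S => ((Additive.toMul y : ptj_JS S) : ptj_J Qbar)) this
      simpa using h2
    rw [hzu, smul_mul', ptj_smul_diag_Qbar] at h1
    exact ptj_diag_mul_unique hS (ptj_smul_mem_US g hu).1 hu.1 h1
  -- `x` is rational
  have hxQ : (x : Qbar) ∈ (⊥ : IntermediateField ℚ Qbar) := by
    rw [InfiniteGalois.mem_bot_iff_fixed]
    intro g
    have := congrArg (fun y : Qbarˣ => (y : Qbar)) (hinv g).1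
    simpa using this
  obtain ⟨a, ha⟩ := IntermediateField.mem_bot.1 hxQ
  have ha0 : a ≠ 0 := by
    rintro rfl
    rw [map_zero] at ha
    exact x.ne_zero ha.symm
  refine ⟨Units.mk0 a ha0, u, hu, fun g => (hinv g).2, ?_⟩
  rw [hzu]
  congr 2
  exact Units.ext ha.symm

end Fermat.Agent.Lib.PT

end
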