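/-
S55 long haul, (G8) transport (TR2): the classes of `𝒞_S` fixed by `Gal(Q̄/F)` are the image of
the ideles of `F`; principal ideles and units outside `S` die, `S`-ideles (`ptj_JT F S`) go to
images of invariant `S`-SUPPORTED smooth ideles.  Consequence: an index bound for any subgroup of
`𝒞_S` containing the images of the invariant supported ideles and the `p`-th powers of invariant
classes, by `[J_F : Fˣ · J_{F,S} · J_F^p]` (`= #(Cl_S(F)/p)`).
-/
import Fermat.Agent.Lib.PT.GModInvG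
import Fermat.Agent.Lib.PT.GModBigD

set_option autoImplicit false
set_option linter.unusedVariables false
set_option linter.unusedSectionVars false
set_option linter.style.haveILetI false

noncomputable section

namespace Fermat.Agent.Lib.PT

local notation "Qbar" => AlgebraicClosure ℚ
local notation "GQ" => (AlgebraicClosure ℚ ≃ₐ[ℚ] AlgebraicClosure ℚ)

variable {S : Finset Nat.Primes} (F : IntermediateField ℚ Qbar)
  (hF : F.IsUnramifiedOutside S)

/-- the map from the ideles of `F` to `𝒞_S` -/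
def ptj_phiF : ptj_J ↥F →* ptj_CSm S :=
  (ptj_iota S F (ptj_isUnrE_field F hF)).comp (QuotientGroup.mk' (ptj_princUT ↥F S))

lemma ptj_phiF_apply (f : ptj_J ↥F) :
    ptj_phiF F hF f = ptj_CSmk S (ptj_upS S F (ptj_isUnrE_field F hF) f) := rfl

lemma ptj_phiF_range : (ptj_phiF F hF).range = (ptj_iota S F (ptj_isUnrE_field F hF)).range := by
  unfold ptj_phiF
  rw [MonoidHom.range_comp, MonoidHom.range_eq_top.2 (QuotientGroup.mk'_surjective _),
    ← MonoidHom.range_eq_map]

lemma ptj_phiF_eq_one_of_mem {f : ptj_J ↥F} (hf : f ∈ ptj_princUT ↥F S) :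
    ptj_phiF F hF f = 1 := by
  unfold ptj_phiF
  have h : (QuotientGroup.mk' (ptj_princUT ↥F S)) f = 1 := (QuotientGroup.eq_one_iff f).2 hf
  rw [MonoidHom.comp_apply, h, map_one]

/-- `up` commutes with the `S`-part -/
lemma ptj_up_Spart (f : ptj_J ↥F) :
    ptj_up ↥F Qbar (pta_Spart S f) = pta_Spart S (ptj_up ↥F Qbar f) := by
  apply Subtype.ext
  funext q
  by_cases hq : q ∈ S
  · rw [pta_Spart_of_mem S _ hq]
    funext σ
    show (pta_Spart S f : ptj_Amb ↥F) q (ptj_resEmb σ) = (f : ptj_Amb ↥F) q (ptj_resEmb σ)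
    rw [pta_Spart_of_mem S _ hq]
  · rw [pta_Spart_of_not_mem S _ hq]
    funext σ
    show (pta_Spart S f : ptj_Amb ↥F) q (ptj_resEmb σ) = 1
    rw [pta_Spart_of_not_mem S _ hq]
    rfl

/-- the invariant `S`-supported smooth idele attached to an idele of `F` -/
def ptj_suppOf (f : ptj_J ↥F) : pta_EJ S :=
  Additive.ofMul ⟨pta_Spart S (ptj_up ↥F Qbar f),
    pta_Spart_mem_JS S (ptj_up_mem_JS_of_isUnrE (ptj_isUnrE_field F hF) f),
    fun q hq => pta_Spart_of_not_mem S _ hq⟩

lemma ptj_suppOf_invariant (f : ptj_J ↥F) (γ : GQ) (hγ : γ ∈ F.fixingSubgroup) :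
    pta_EJrep S γ (ptj_suppOf F hF f) = ptj_suppOf F hF f := by
  show γ • ptj_suppOf F hF f = ptj_suppOf F hF f
  rw [pta_EJ_smul_def]
  apply congrArg Additive.ofMul
  apply Subtype.ext
  show γ • pta_Spart S (ptj_up ↥F Qbar f) = pta_Spart S (ptj_up ↥F Qbar f)
  rw [pta_smul_Spart]
  congr 1
  have h := (ptj_mem_range_up_iff_imField (E := ↥F) (ptj_up ↥F Qbar f)).1 ⟨f, rfl⟩ γ
  rw [ptj_imField_eq] at h
  exact h hγ

/-- ideles of `F` which are units outside `S` map to images of invariant supported ideles -/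
theorem ptj_phiF_of_mem_JT {f : ptj_J ↥F} (hf : f ∈ ptj_JT ↥F S) :
    ptj_phiF F hF f = Additive.toMul (pta_Eπ S (ptj_suppOf F hF f)) := by
  have h2 : ptj_phiF F hF (f / pta_Spart S f) = 1 :=
    ptj_phiF_eq_one_of_mem F hF
      (Subgroup.mem_sup_right (pta_div_Spart_mem_UT S hf))
  have h3 : ptj_phiF F hF f = ptj_phiF F hF (pta_Spart S f) := by
    have h4 : ptj_phiF F hF f =
        ptj_phiF F hF (pta_Spart S f) * ptj_phiF F hF (f / pta_Spart S f) := by
      rw [← map_mul]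
      congr 1
      rw [div_eq_mul_inv, mul_comm f, mul_inv_cancel_left]
    rw [h4, h2]
    exact mul_one (ptj_phiF F hF (pta_Spart S f))
  rw [h3, ptj_phiF_apply]
  show _ = ptj_CSmk S ⟨pta_Spart S (ptj_up ↥F Qbar f), _⟩
  congr 1
  apply Subtype.ext
  exact ptj_up_Spart F f

variable (p : ℕ)

/-- **(TR2)**: index bound. -/
theorem ptj_index_dvd_of_supp (hS : S.Nonempty) (H : Subgroup (ptj_CSm S))
    (h1 : ∀ x : pta_EJ S, (∀ γ ∈ F.fixingSubgroup, pta_EJrep S γ x = x) →
      Additive.toMul (pta_Eπ S x) ∈ H)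
    (h2 : ∀ c : ptj_CSm S, (∀ γ ∈ F.fixingSubgroup, γ • c = c) → c ^ p ∈ H) :
    (H.subgroupOf (ptj_iota S F (ptj_isUnrE_field F hF)).range).index ∣
      (ptj_principal ↥F ⊔ ptj_JT ↥F S ⊔ (powMonoidHom p : ptj_J ↥F →* ptj_J ↥F).range).index := by
  set R := (ptj_iota S F (ptj_isUnrE_field F hF)).range with hR
  -- the surjection `J_F → R`
  let φ : ptj_J ↥F →* ↥R := (ptj_phiF F hF).codRestrict R (fun f => by
    rw [hR, ← ptj_phiF_range F hF]; exact ⟨f, rfl⟩)
  have hφs : Function.Surjective φ := by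
    rintro ⟨c, hc⟩
    rw [hR, ← ptj_phiF_range F hF] at hc
    obtain ⟨f, hf⟩ := hc
    exact ⟨f, Subtype.ext hf⟩
  have hidx : ((H.subgroupOf R).comap φ).index = (H.subgroupOf R).index :=
    Subgroup.index_comap_of_surjective _ hφs
  rw [← hidx]
  apply Subgroup.index_dvd_of_le
  -- the three generators land in `H`
  have hinvR : ∀ c ∈ R, ∀ γ ∈ F.fixingSubgroup, γ • c = c := fun c hc =>
    (ptj_mem_range_iota_field_iff_invariant F hS hF c).1 hc
  refine sup_le (sup_le ?_ ?_) ?_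
  · intro f hf
    show (φ f : ptj_CSm S) ∈ H
    show ptj_phiF F hF f ∈ H
    rw [ptj_phiF_eq_one_of_mem F hF (Subgroup.mem_sup_left hf)]
    exact H.one_mem
  · intro f hf
    show ptj_phiF F hF f ∈ H
    rw [ptj_phiF_of_mem_JT F hF hf]
    exact h1 _ (ptj_suppOf_invariant F hF f)
  · rintro _ ⟨f, rfl⟩
    show ptj_phiF F hF (f ^ p) ∈ H
    rw [map_pow]
    exact h2 _ (hinvR _ (by rw [hR, ← ptj_phiF_range F hF]; exact ⟨f, rfl⟩))

end Fermat.Agent.Lib.PT

end
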