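/-
S55 long haul, (G8) transport (TR1)+(TR2), additive form for the abstract counting lemmas:
for `U = Gal(Q̄/F)`, `F` unramified outside `S`,
* `#(C^U / p) = (ptl_pInv …).index` divides `[J_F : Fˣ · U_{F,S} · J_F^p]`;
* `#Q = (ptd_QSub …).index` divides `[J_F : Fˣ · J_{F,S} · J_F^p]`.
-/
import Fermat.Agent.Lib.PT.GModInvJ
import Fermat.Agent.Lib.PT.AdtF3D

set_option autoImplicit false
set_option linter.unusedVariables false
set_option linter.unusedSectionVars false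
set_option linter.style.haveILetI false

noncomputable section

namespace Fermat.Agent.Lib.PT

local notation "Qbar" => AlgebraicClosure ℚ
local notation "GQ" => (AlgebraicClosure ℚ ≃ₐ[ℚ] AlgebraicClosure ℚ)

variable {S : Finset Nat.Primes} (F : IntermediateField ℚ Qbar)
  (hF : F.IsUnramifiedOutside S)

lemma ptj_CSrep_CSof (γ : GQ) (x : ptj_CSm S) : ptj_CSrep S γ (ptj_CSof x) = ptj_CSof (γ • x) :=
  rfl

/-- the additive map from the ideles of `F` onto the `Gal(Q̄/F)`-invariant classes -/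
def ptj_psiF (hS : S.Nonempty) :
    Additive (ptj_J ↥F) →+ (ptd_resRep (ptj_CSrep S) F.fixingSubgroup).invariants where
  toFun f := ⟨ptj_CSof (ptj_phiF F hF f.toMul), by
    rw [Representation.mem_invariants]
    intro u
    show ptj_CSrep S (u : GQ) (ptj_CSof _) = _
    rw [ptj_CSrep_CSof]
    congr 1
    refine (ptj_mem_range_iota_field_iff_invariant F hS hF _).1 ?_ u u.2
    rw [← ptj_phiF_range F hF]
    exact ⟨_, rfl⟩⟩
  map_zero' := by
    apply Subtype.ext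
    show ptj_CSof (ptj_phiF F hF 1) = 0
    rw [map_one]; rfl
  map_add' f g := by
    apply Subtype.ext
    show ptj_CSof (ptj_phiF F hF (f.toMul * g.toMul)) = _
    rw [map_mul]; rfl

lemma ptj_psiF_coe (hS : S.Nonempty) (f : Additive (ptj_J ↥F)) :
    ((ptj_psiF F hF hS f : (ptd_resRep (ptj_CSrep S) F.fixingSubgroup).invariants) : ptj_CS S) =
      ptj_CSof (ptj_phiF F hF f.toMul) := rfl

lemma ptj_psiF_surjective (hS : S.Nonempty) : Function.Surjective (ptj_psiF F hF hS) := by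
  rintro ⟨c, hc⟩
  rw [Representation.mem_invariants] at hc
  have h1 : ptj_CSof.symm c ∈ (ptj_iota S F (ptj_isUnrE_field F hF)).range := by
    rw [ptj_mem_range_iota_field_iff_invariant F hS hF]
    intro γ hγ
    have := hc ⟨γ, hγ⟩
    exact congrArg ptj_CSof.symm this
  rw [← ptj_phiF_range F hF] at h1
  obtain ⟨f, hf⟩ := h1
  refine ⟨Additive.ofMul f, Subtype.ext ?_⟩
  rw [ptj_psiF_coe]
  show ptj_CSof (ptj_phiF F hF f) = c
  rw [hf]
  exact ptj_CSof.apply_symm_apply c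

variable (p : ℕ)

include hF

lemma ptj_phiF_mul_pow {a : ptj_J ↥F} (ha : a ∈ ptj_princUT ↥F S) (b c : ptj_J ↥F) :
    ptj_phiF F hF (a * b * c ^ p) = ptj_phiF F hF b * ptj_phiF F hF c ^ p := by
  have h1 : ptj_phiF F hF (a * b * c ^ p) =
      ptj_phiF F hF a * ptj_phiF F hF b * ptj_phiF F hF c ^ p := by
    rw [map_mul, map_mul, map_pow]
  rw [h1, ptj_phiF_eq_one_of_mem F hF ha]
  congr 1
  exact one_mul (ptj_phiF F hF b)

omit hF in
lemma ptj_CSof_mul_pow (x y : ptj_CSm S) : ptj_CSof (x * y ^ p) = ptj_CSof x + p • ptj_CSof y :=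
  rfl

/-- **(TR1)**: `#(C^U/p)` divides `[J_F : Fˣ · U_{F,S} · J_F^p]`. -/
theorem ptj_pInv_index_dvd (hS : S.Nonempty) :
    (ptl_pInv (ptd_resRep (ptj_CSrep S) F.fixingSubgroup) p).index ∣
      (ptj_princUT ↥F S ⊔ (powMonoidHom p : ptj_J ↥F →* ptj_J ↥F).range).index := by
  rw [← AddSubgroup.index_comap_of_surjective _ (ptj_psiF_surjective F hF hS),
    ← Subgroup.index_toAddSubgroup]
  apply AddSubgroup.index_dvd_of_le
  intro f hf
  have hf' : f.toMul ∈ ptj_princUT ↥F S ⊔ (powMonoidHom p : ptj_J ↥F →* ptj_J ↥F).range := hf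
  rw [AddSubgroup.mem_comap]
  obtain ⟨a, ha, b, ⟨b', rfl⟩, hab⟩ := Subgroup.mem_sup.1 hf'
  refine ⟨ptj_psiF F hF hS (Additive.ofMul b'), Subtype.ext ?_⟩
  show p • ptj_CSof (ptj_phiF F hF b') = ptj_CSof (ptj_phiF F hF f.toMul)
  have h2 : f.toMul = a * 1 * b' ^ p := by rw [mul_one]; exact hab.symm
  rw [h2, ptj_phiF_mul_pow F hF p ha, map_one, ptj_CSof_mul_pow]
  show _ = (0 : ptj_CS S) + _
  rw [zero_add]

/-- **(TR2)**: `#Q` divides `[J_F : Fˣ · J_{F,S} · J_F^p]`. -/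
theorem ptj_QSub_index_dvd (hS : S.Nonempty) :
    (ptd_QSub (ptd_resRep (pta_EJrep S) F.fixingSubgroup)
      (ptd_resRep (ptj_CSrep S) F.fixingSubgroup) (pta_Eπ S) p).index ∣
      (ptj_principal ↥F ⊔ ptj_JT ↥F S ⊔ (powMonoidHom p : ptj_J ↥F →* ptj_J ↥F).range).index := by
  rw [← AddSubgroup.index_comap_of_surjective _ (ptj_psiF_surjective F hF hS),
    ← Subgroup.index_toAddSubgroup]
  apply AddSubgroup.index_dvd_of_le
  intro f hf
  have hf' : f.toMul ∈ ptj_principal ↥F ⊔ ptj_JT ↥F S ⊔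
      (powMonoidHom p : ptj_J ↥F →* ptj_J ↥F).range := hf
  rw [AddSubgroup.mem_comap]
  obtain ⟨ab, hab, c, ⟨c', rfl⟩, habc⟩ := Subgroup.mem_sup.1 hf'
  obtain ⟨a, ha, b, hb, rfl⟩ := Subgroup.mem_sup.1 hab
  have hdec : ptj_psiF F hF hS f = ptj_psiF F hF hS (Additive.ofMul b) +
      p • ptj_psiF F hF hS (Additive.ofMul c') := by
    apply Subtype.ext
    show ptj_CSof (ptj_phiF F hF f.toMul) =
      ptj_CSof (ptj_phiF F hF b) + p • ptj_CSof (ptj_phiF F hF c')
    have h2 : f.toMul = a * b * c' ^ p := habc.symm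
    rw [h2, ptj_phiF_mul_pow F hF p (Subgroup.mem_sup_left ha), ptj_CSof_mul_pow]
  rw [hdec]
  refine AddSubgroup.add_mem _ (AddSubgroup.mem_sup_left ?_)
    (AddSubgroup.mem_sup_right ⟨_, rfl⟩)
  refine ⟨ptj_suppOf F hF b, fun u => ptj_suppOf_invariant F hF b u u.2, ?_⟩
  rw [ptj_psiF_coe]
  show pta_Eπ S (ptj_suppOf F hF b) = ptj_CSof (ptj_phiF F hF b)
  rw [ptj_phiF_of_mem_JT F hF hb]
  rfl

end Fermat.Agent.Lib.PT

end
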