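/-
S55 (Poitou–Tate long-haul), GLOBAL DICTIONARY, G4: from Mathlib's `Algebra.IsUnramifiedAt` to the
Prelude's `IsUnramifiedOutside`.
`K ⊆ L` number fields inside an algebraic extension `Ω/ℚ`, `L/K` Galois.  If an element `σ` of an
inertia group `A.inertiaSubgroupIn ℚ` of `Ω/ℚ` fixes `K` pointwise and the prime of `L` below `A`
is unramified over `K`, then `σ` fixes `L` pointwise.  Consequently a Galois extension `L/K` of an
`S`-unramified field `K`, unramified (in Mathlib's sense) at all primes not above `S`, is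
`S`-unramified in the Prelude's sense.
-/
import Mathlib
import Fermat.Prelude.Def_GroupCohomology_ContinuousUnramified
import Fermat.Agent.Lib.Frey.OrdInertia
import Fermat.Agent.Lib.CFT.RamBridgeVal
import Fermat.Agent.Lib.CFT.RamBridgeFin

set_option autoImplicit false
set_option linter.unusedSectionVars false

namespace Fermat.Agent.Lib.PT

open NumberField Fermat.Agent.Lib.Frey Fermat.Agent.Lib.CFT

section abstract

variable {Ω : Type*} [Field Ω] [Algebra ℚ Ω]
  {K L : Type*} [Field K] [NumberField K] [Field L] [NumberField L] [Algebra K L]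
  [Algebra K Ω] [Algebra L Ω] [IsScalarTower K L Ω]

/-- the composite `𝓞 L → L → Ω` -/
def pta_intHom (L Ω : Type*) [Field L] [Field Ω] [Algebra L Ω] : 𝓞 L →+* Ω :=
  (algebraMap L Ω).comp (algebraMap (𝓞 L) L)

lemma pta_intHom_apply (x : 𝓞 L) : pta_intHom L Ω x = algebraMap L Ω (x : L) := rfl

lemma pta_intHom_mem (A : ValuationSubring Ω) (x : 𝓞 L) : pta_intHom L Ω x ∈ A :=
  cfg_mem_of_isIntegral A ((RingOfIntegers.isIntegral_coe x).map ((algebraMap L Ω).toIntAlgHom))

/-- the prime of `𝓞 L` below a valuation subring `A` of `Ω` -/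
def pta_primeBelow (A : ValuationSubring Ω) : Ideal (𝓞 L) where
  carrier := {x | pta_intHom L Ω x ∈ A.nonunits}
  add_mem' := by
    intro a b ha hb
    simp only [Set.mem_ofPred_eq, ValuationSubring.mem_nonunits_iff, map_add] at ha hb ⊢
    exact Valuation.map_add_lt _ ha hb
  zero_mem' := by
    simp only [Set.mem_ofPred_eq, ValuationSubring.mem_nonunits_iff, map_zero]
    exact zero_lt_one
  smul_mem' := by
    intro c b hb
    simp only [Set.mem_ofPred_eq, ValuationSubring.mem_nonunits_iff, smul_eq_mul, map_mul] at hb ⊢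
    exact mul_lt_one_of_nonneg_of_lt_one_right
      ((A.valuation_le_one_iff _).mpr (pta_intHom_mem A c)) zero_le hb

lemma pta_mem_primeBelow (A : ValuationSubring Ω) (x : 𝓞 L) :
    x ∈ pta_primeBelow (L := L) A ↔ pta_intHom L Ω x ∈ A.nonunits := Iff.rfl

instance pta_primeBelow_isPrime (A : ValuationSubring Ω) : (pta_primeBelow (L := L) A).IsPrime := by
  refine ⟨?_, ?_⟩
  · intro h
    have h1 : (1 : 𝓞 L) ∈ pta_primeBelow (L := L) A := h ▸ Submodule.mem_top
    rw [pta_mem_primeBelow, A.mem_nonunits_iff, map_one, map_one] at h1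
    exact lt_irrefl _ h1
  · intro a b hab
    by_contra hcon
    rw [not_or] at hcon
    have hval : ∀ c : 𝓞 L, c ∉ pta_primeBelow (L := L) A →
        A.valuation (pta_intHom L Ω c) = 1 := by
      intro c hc
      rw [pta_mem_primeBelow, A.mem_nonunits_iff, not_lt] at hc
      exact le_antisymm ((A.valuation_le_one_iff _).mpr (pta_intHom_mem A c)) hc
    rw [pta_mem_primeBelow, A.mem_nonunits_iff, map_mul, map_mul, hval a hcon.1,
      hval b hcon.2, one_mul] at hab
    exact lt_irrefl _ hab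

lemma pta_natCast_mem_primeBelow (A : ValuationSubring Ω) {ℓ : ℕ} (hA : (ℓ : Ω) ∈ A.nonunits) :
    (ℓ : 𝓞 L) ∈ pta_primeBelow (L := L) A := by
  rw [pta_mem_primeBelow, map_natCast]
  exact hA

lemma pta_primeBelow_ne_bot (A : ValuationSubring Ω) {ℓ : ℕ} (hℓ : ℓ.Prime)
    (hA : (ℓ : Ω) ∈ A.nonunits) : pta_primeBelow (L := L) A ≠ ⊥ := by
  intro h
  have h1 := pta_natCast_mem_primeBelow (L := L) A hA
  rw [h, Ideal.mem_bot] at h1
  exact hℓ.ne_zero (by exact_mod_cast h1)

variable [IsGalois K L]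

/-- **G4, core.** An element of an inertia group of `Ω/ℚ` fixing `K` pointwise fixes `L`
pointwise, if `L/K` is Galois and unramified at the prime of `L` below the valuation subring. -/
theorem pta_inertia_fixes_of_isUnramifiedAt (A : ValuationSubring Ω) {ℓ : ℕ} (hℓ : ℓ.Prime)
    (hA : (ℓ : Ω) ∈ A.nonunits) (σ : Ω ≃ₐ[ℚ] Ω) (hσ : σ ∈ A.inertiaSubgroupIn ℚ)
    (hK : ∀ x : K, σ (algebraMap K Ω x) = algebraMap K Ω x)
    [hun : Algebra.IsUnramifiedAt (𝓞 K) (pta_primeBelow (L := L) A)] :
    ∀ x : L, σ (algebraMap L Ω x) = algebraMap L Ω x := by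
  -- `σ` as a `K`-automorphism of `Ω`
  let σK : Ω ≃ₐ[K] Ω := { (σ : Ω ≃+* Ω) with commutes' := hK }
  have hσK : ∀ y : Ω, σK y = σ y := fun _ => rfl
  let τ : L ≃ₐ[K] L := σK.restrictNormal L
  have hτ : ∀ x : L, algebraMap L Ω (τ x) = σ (algebraMap L Ω x) := fun x =>
    (AlgEquiv.restrictNormal_commutes σK L x).trans (hσK _)
  obtain ⟨-, hI⟩ := ford_inertia_spec A σ hσ
  have hτ1 : τ = 1 := by
    refine cfg_eq_one_of_isUnramifiedAt (K := K) (L := L) (pta_primeBelow (L := L) A)
      (pta_primeBelow_ne_bot A hℓ hA) τ (fun x => ?_)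
    rw [pta_mem_primeBelow, pta_intHom_apply]
    have h1 : (((τ • x - x : 𝓞 L)) : L) = τ (x : L) - (x : L) := rfl
    rw [h1, map_sub, hτ]
    exact hI _ (pta_intHom_mem A x)
  intro x
  rw [← hτ, hτ1]
  rfl

end abstract

section overQbar

local notation "Qbar" => AlgebraicClosure ℚ

variable {S : Finset Nat.Primes}

/-- finite-dimensionality over `ℚ` of a number field given as an intermediate field of a tower -/
lemma pta_finiteDimensional_restrictScalars (K : IntermediateField ℚ Qbar)
    (L : IntermediateField K Qbar) [NumberField L] :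
    FiniteDimensional ℚ (L.restrictScalars ℚ) := by
  let f : ↥L →+ ↥(L.restrictScalars ℚ) :=
    { toFun := fun x => ⟨x.1, x.2⟩, map_zero' := rfl, map_add' := fun _ _ => rfl }
  have hf : Function.Surjective f.toRatLinearMap := fun y => ⟨⟨y.1, y.2⟩, rfl⟩
  exact Module.Finite.of_surjective f.toRatLinearMap hf

/-- **G4.** `K ⊆ L ⊆ Q̄`, `K` unramified outside `S` in the Prelude's sense, `L/K` Galois and
unramified (in Mathlib's sense) at every prime of `L` above a prime `q ∉ S`: then `L` is unramified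
outside `S` in the Prelude's sense. -/
theorem pta_isUnramifiedOutside_of_isUnramifiedAt (K : IntermediateField ℚ Qbar)
    (L : IntermediateField K Qbar) [NumberField K] [NumberField L] [IsGalois K L]
    (hK : K.IsUnramifiedOutside S)
    (hun : ∀ q : Nat.Primes, q ∉ S → ∀ (Q : Ideal (𝓞 L)) [Q.IsPrime], ((q : ℕ) : 𝓞 L) ∈ Q →
      Algebra.IsUnramifiedAt (𝓞 K) Q) :
    (L.restrictScalars ℚ).IsUnramifiedOutside S := by
  refine ⟨pta_finiteDimensional_restrictScalars K L, fun q hq A hA σ hσ => ?_⟩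
  rw [IntermediateField.mem_fixingSubgroup_iff]
  intro x hx
  have hA' : ((q : ℕ) : Qbar) ∈ A.nonunits := hA
  have hKfix : ∀ y : K, σ (algebraMap K Qbar y) = algebraMap K Qbar y := by
    intro y
    have h1 := hK.2 q hq A hA hσ
    rw [IntermediateField.mem_fixingSubgroup_iff] at h1
    exact h1 y y.2
  have := hun q hq (pta_primeBelow (L := L) A) (pta_natCast_mem_primeBelow (L := L) A hA')
  exact pta_inertia_fixes_of_isUnramifiedAt (K := K) (L := L) A q.2 hA' σ hσ hKfix ⟨x, hx⟩

end overQbar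

end Fermat.Agent.Lib.PT
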