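/-
S55 long haul, (EM) part C: `ζ : ZMod p →+ J` (roots of unity as `S`-supported ideles), its
compatibility with `ev`, the Galois action, injectivity; `ev_inj` and `ev_surj`
(`J[p] = ⊕_{q ∈ S} CoInd μ_p`).
-/
import Fermat.Agent.Lib.PT.GModEModB

set_option autoImplicit false
set_option linter.unusedVariables false
set_option linter.unusedSectionVars false
set_option linter.style.haveILetI false

noncomputable section

namespace Fermat.Agent.Lib.PT

open IntermediateField ExtCitation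

local notation "Qbar" => AlgebraicClosure ℚ
local notation "GQ" => (AlgebraicClosure ℚ ≃ₐ[ℚ] AlgebraicClosure ℚ)

variable (p : ℕ) [Fact p.Prime] (S : Finset Nat.Primes) (hpS : pPrime p ∈ S)

/-! ### `S`-parts of principal ideles -/

/-- coordinates of the `S`-part of a principal idele -/
lemma pta_Spart_diag_apply (x : Qbarˣ) {q : Nat.Primes} (hq : q ∈ S) (σ : ptj_Emb Qbar q) :
    (pta_Spart S (ptj_diag Qbar x) : ptj_Amb Qbar) q σ =
      Units.map ((σ : Qbar →+* ptj_Om q) : Qbar →* ptj_Om q) x := by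
  rw [pta_Spart_of_mem S _ hq]
  rfl

include hpS in
lemma pta_zeta0U_mem_QS : pta_zeta0U p ∈ ptj_QS S :=
  ⟨pta_cycloField p, pta_cycloField_unram S hpS, pta_mem_cycloField (pta_zeta0_spec p)⟩

/-- `z₀ = Spart (diag ζ₀)`, the basic root of unity in `𝒥_S^S` -/
def pta_zJ : ↥(pta_JSS S) :=
  ⟨pta_Spart S (ptj_diag Qbar (pta_zeta0U p)),
    pta_Spart_mem_JSS (ptj_diag_mem_JS (pta_zeta0U_mem_QS p S hpS))⟩

lemma pta_zJ_coe :
    ((pta_zJ p S hpS : ↥(pta_JSS S)) : ptj_J Qbar) = pta_Spart S (ptj_diag Qbar (pta_zeta0U p)) :=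
  rfl

lemma pta_zJ_pow : pta_zJ p S hpS ^ p = 1 := by
  apply Subtype.ext
  rw [Subgroup.coe_pow, pta_zJ_coe, ← map_pow, ← map_pow, (pta_zeta0U_spec p).pow_eq_one,
    map_one, map_one]
  rfl

/-- coordinates of `z₀ ^ n` -/
lemma pta_zJ_pow_apply (n : ℕ) {q : Nat.Primes} (hq : q ∈ S) (σ : ptj_Emb Qbar q) :
    (((pta_zJ p S hpS ^ n : ↥(pta_JSS S)) : ptj_J Qbar) : ptj_Amb Qbar) q σ =
      Units.map ((σ : Qbar →+* ptj_Om q) : Qbar →* ptj_Om q) (pta_zeta0U p) ^ n := by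
  rw [Subgroup.coe_pow, pta_coe_pow_apply, pta_zJ_coe, pta_Spart_diag_apply S _ hq]

/-- `ζ : ZMod p →+ J` -/
def pta_Eζ : ZMod p →+ pta_EJ S := ptg_zetaHom p (pta_zJ p S hpS) (pta_zJ_pow p S hpS)

lemma pta_Eζ_apply (a : ZMod p) :
    pta_Eζ p S hpS a = Additive.ofMul (pta_zJ p S hpS ^ a.val) := rfl

lemma pta_Eζ_tors (a : ZMod p) : p • pta_Eζ p S hpS a = 0 := ptg_zetaHom_tors p _ _ a

/-- `ev q (ζ a) = a` -/
lemma pta_Eev_ζ {q : Nat.Primes} (hq : q ∈ S) (a : ZMod p) :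
    pta_Eev p S q (pta_Eζ p S hpS a) = a := by
  apply pta_Eev_eq_of
  rw [pta_Eζ_apply]
  exact pta_zJ_pow_apply p S hpS a.val hq (pta_iota q)

lemma pta_Eζ_injective : Function.Injective (pta_Eζ p S hpS) := by
  intro a b hab
  have h1 := pta_Eev_ζ p S hpS hpS a
  rw [hab, pta_Eev_ζ p S hpS hpS b] at h1
  exact h1.symm

/-- the Galois action on `ζ`: through the cyclotomic character -/
lemma pta_smul_Eζ (g : GQ) (a : ZMod p) :
    g • pta_Eζ p S hpS a = pta_Eζ p S hpS ((cycloChar p g : ZMod p) * a) := by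
  have : NeZero p := ⟨(Fact.out : p.Prime).ne_zero⟩
  rw [pta_EJ_smul_def, pta_Eζ_apply, pta_Eζ_apply]
  congr 1
  apply Subtype.ext
  apply Subtype.ext
  funext q σ
  show (((pta_zJ p S hpS ^ a.val : ↥(pta_JSS S)) : ptj_J Qbar) : ptj_Amb Qbar) q (ptj_pre g σ) = _
  by_cases hq : q ∈ S
  · rw [pta_zJ_pow_apply p S hpS _ hq, pta_zJ_pow_apply p S hpS _ hq]
    apply Units.ext
    rw [Units.val_pow_eq_pow_val, Units.val_pow_eq_pow_val]
    show (σ (g (pta_zeta0 p))) ^ a.val = (σ (pta_zeta0 p)) ^ _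
    rw [ptg_cycloChar_spec p g (pta_zeta0_spec p).pow_eq_one, map_pow, ← pow_mul, ZMod.val_mul]
    have hσ : (σ (pta_zeta0 p)) ^ p = 1 := by
      rw [← map_pow, (pta_zeta0_spec p).pow_eq_one, map_one]
    exact pow_eq_pow_mod _ hσ
  · have h1 : ∀ n : ℕ, (((pta_zJ p S hpS ^ n : ↥(pta_JSS S)) : ptj_J Qbar) : ptj_Amb Qbar) q = 1 :=
      fun n => (pta_zJ p S hpS ^ n).2.2 q hq
    rw [h1, h1]
    rfl

/-! ### `ev_inj` -/

/-- the coordinates of all conjugates determine a `p`-torsion element of `J` -/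
lemma pta_Eev_inj (x : pta_EJ S) (hx : p • x = 0)
    (h : ∀ q ∈ S, ∀ g : GQ, pta_Eev p S q (g • x) = 0) : x = 0 := by
  have hx' : ∀ g : GQ, p • (g • x) = 0 := fun g => by rw [smul_comm, hx, smul_zero]
  have key : ∀ q ∈ S, ∀ σ : ptj_Emb Qbar q,
      ((x.toMul : ptj_J Qbar) : ptj_Amb Qbar) q σ = 1 := by
    intro q hq σ
    obtain ⟨g, rfl⟩ := pta_exists_pre_iota q σ
    have h1 := (pta_zlog_eq_zero_iff p (pta_zetaq_spec p q) (pta_evU_tors p S q (hx' g))).1
      (h q hq g)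
    rw [pta_evU_smul] at h1
    exact Additive.ofMul.injective h1
  show x = Additive.ofMul 1
  apply Additive.toMul.injective
  apply Subtype.ext
  apply Subtype.ext
  funext q
  by_cases hq : q ∈ S
  · funext σ
    exact key q hq σ
  · exact x.toMul.2.2 q hq

end Fermat.Agent.Lib.PT

end
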