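/-
S55 long haul, (EM) part D: `ev_surj` — every level-constant `G_q`-equivariant family of
coordinates is realised by a `p`-torsion element of `J` (`J[p] = ⊕_{q ∈ S} CoInd_{G_q}^{G_ℚ} μ_p`).
-/
import Fermat.Agent.Lib.PT.GModEModC

set_option autoImplicit false
set_option linter.unusedVariables false
set_option linter.unusedSectionVars false
set_option linter.style.haveILetI false

noncomputable section

namespace Fermat.Agent.Lib.PT

open IntermediateField ExtCitation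

local notation "Qbar" => AlgebraicClosure ℚ
local notation "GQ" => (AlgebraicClosure ℚ ≃ₐ[ℚ] AlgebraicClosure ℚ)

/-- the unique `g` with `σ = ι_q ∘ g` -/
def pta_gOf (q : Nat.Primes) (σ : ptj_Emb Qbar q) : GQ := Classical.choose (pta_exists_pre_iota q σ)

lemma pta_gOf_spec (q : Nat.Primes) (σ : ptj_Emb Qbar q) :
    σ = ptj_pre (pta_gOf q σ) (pta_iota q) := Classical.choose_spec (pta_exists_pre_iota q σ)

lemma pta_gOf_pre (q : Nat.Primes) (g : GQ) : pta_gOf q (ptj_pre g (pta_iota q)) = g :=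
  (pta_pre_iota_injective q (pta_gOf_spec q (ptj_pre g (pta_iota q)))).symm

lemma pta_gOf_pre' (q : Nat.Primes) (s : GQ) (σ : ptj_Emb Qbar q) :
    pta_gOf q (ptj_pre s σ) = pta_gOf q σ * s := by
  conv_lhs => rw [pta_gOf_spec q σ, ← ptj_pre_mul]
  exact pta_gOf_pre q _

lemma pta_gOf_post (q : Nat.Primes) (τ : ptj_Gq q) (σ : ptj_Emb Qbar q) :
    pta_gOf q (ptj_post τ σ) = localGaloisToGlobal (q : ℕ) τ * pta_gOf q σ := by
  conv_lhs => rw [pta_gOf_spec q σ, ← ptj_pre_post, ← pta_pre_iota, ← ptj_pre_mul]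
  exact pta_gOf_pre q _

variable (p : ℕ) [Fact p.Prime]

/-- `G_q` acts on `ι_q ζ₀` through the cyclotomic character -/
lemma pta_tauU_zetaq (q : Nat.Primes) (τ : ptj_Gq q) :
    ptj_tauU τ (pta_zetaq p q) = pta_zetaq p q ^
      ((cycloChar p (localGaloisToGlobal (q : ℕ) τ) : (ZMod p)ˣ) : ZMod p).val := by
  apply Units.ext
  rw [ptj_tauU_coe, Units.val_pow_eq_pow_val]
  exact ptg_apply_rootOfUnity (q : ℕ) p τ
    (by
      have := (pta_zetaq_spec p q).pow_eq_one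
      rw [← Units.val_pow_eq_pow_val, this, Units.val_one])

lemma pta_norm_zetaq_pow (q : Nat.Primes) (n : ℕ) :
    ‖(((pta_zetaq p q) ^ n : (ptj_Om q)ˣ) : ptj_Om q)‖ = 1 := by
  have hp0 : 0 < p := (Fact.out : p.Prime).pos
  apply IsOfFinOrder.norm_eq_one
  rw [isOfFinOrder_iff_pow_eq_one]
  refine ⟨p, hp0, ?_⟩
  rw [← Units.val_pow_eq_pow_val, ← pow_mul, mul_comm, pow_mul, (pta_zetaq_spec p q).pow_eq_one,
    one_pow, Units.val_one]

variable (S : Finset Nat.Primes)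

open Classical in
/-- the idele with prescribed coordinates -/
def pta_coindAmb (h : ↥S → GQ → ZMod p) : ptj_Amb Qbar := fun q σ =>
  if hq : q ∈ S then pta_zetaq p q ^ (h ⟨q, hq⟩ (pta_gOf q σ)).val else 1

lemma pta_coindAmb_of_mem (h : ↥S → GQ → ZMod p) {q : Nat.Primes} (hq : q ∈ S)
    (σ : ptj_Emb Qbar q) :
    pta_coindAmb p S h q σ = pta_zetaq p q ^ (h ⟨q, hq⟩ (pta_gOf q σ)).val := by
  unfold pta_coindAmb
  rw [dif_pos hq]

lemma pta_coindAmb_of_not_mem (h : ↥S → GQ → ZMod p) {q : Nat.Primes} (hq : q ∉ S) :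
    pta_coindAmb p S h q = 1 := by
  funext σ
  unfold pta_coindAmb
  rw [dif_neg hq]
  rfl

variable {S} in
lemma pta_coindAmb_mem_J {h : ↥S → GQ → ZMod p}
    (hloc : ∀ (q : ↥S) (τ : ptj_Gq q.1) (g : GQ),
      h q (localGaloisToGlobal (q.1 : ℕ) τ * g)
        = (cycloChar p (localGaloisToGlobal (q.1 : ℕ) τ) : ZMod p) * h q g) :
    pta_coindAmb p S h ∈ ptj_J Qbar := by
  have : NeZero p := ⟨(Fact.out : p.Prime).ne_zero⟩
  refine ⟨fun q τ σ => ?_, Filter.Eventually.of_forall fun q σ => ?_⟩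
  · by_cases hq : q ∈ S
    · rw [pta_coindAmb_of_mem p S h hq, pta_coindAmb_of_mem p S h hq, pta_gOf_post,
        hloc ⟨q, hq⟩ τ, map_pow, pta_tauU_zetaq, ← pow_mul, ZMod.val_mul]
      exact (pow_eq_pow_mod _ (pta_zetaq_spec p q).pow_eq_one).symm
    · rw [pta_coindAmb_of_not_mem p S h hq]
      simp
  · by_cases hq : q ∈ S
    · rw [pta_coindAmb_of_mem p S h hq]
      exact pta_norm_zetaq_pow p q _
    · rw [pta_coindAmb_of_not_mem p S h hq]
      simp

variable {S} in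
/-- **`ev_surj`**. -/
theorem pta_Eev_surj (h : ↥S → GQ → ZMod p)
    (hlev : ∃ F : IntermediateField ℚ Qbar, F.IsUnramifiedOutside S ∧
      ∀ q g s, s ∈ F.fixingSubgroup → h q (g * s) = h q g)
    (hloc : ∀ (q : ↥S) (τ : ptj_Gq q.1) (g : GQ),
      h q (localGaloisToGlobal (q.1 : ℕ) τ * g)
        = (cycloChar p (localGaloisToGlobal (q.1 : ℕ) τ) : ZMod p) * h q g) :
    ∃ x : pta_EJ S, p • x = 0 ∧ ∀ (q : ↥S) (g : GQ), pta_Eev p S q.1 (g • x) = h q g := by
  obtain ⟨F, hF, hFh⟩ := hlev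
  set f : ptj_J Qbar := ⟨pta_coindAmb p S h, pta_coindAmb_mem_J p hloc⟩ with hf
  have hfS : f ∈ pta_JSS S := by
    refine ⟨⟨F, hF, fun s hs => ?_⟩, fun q hq => pta_coindAmb_of_not_mem p S h hq⟩
    apply Subtype.ext
    funext q σ
    show pta_coindAmb p S h q (ptj_pre s σ) = pta_coindAmb p S h q σ
    by_cases hq : q ∈ S
    · rw [pta_coindAmb_of_mem p S h hq, pta_coindAmb_of_mem p S h hq, pta_gOf_pre',
        hFh ⟨q, hq⟩ _ s hs]
    · rw [pta_coindAmb_of_not_mem p S h hq]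
      rfl
  refine ⟨Additive.ofMul ⟨f, hfS⟩, ?_, fun q g => ?_⟩
  · show Additive.ofMul ((⟨f, hfS⟩ : ↥(pta_JSS S)) ^ p) = Additive.ofMul 1
    congr 1
    apply Subtype.ext
    apply Subtype.ext
    funext r σ
    show ((f ^ p : ptj_J Qbar) : ptj_Amb Qbar) r σ = 1
    rw [pta_coe_pow_apply]
    show (pta_coindAmb p S h r σ) ^ p = 1
    by_cases hr : r ∈ S
    · rw [pta_coindAmb_of_mem p S h hr, ← pow_mul, mul_comm, pow_mul,
        (pta_zetaq_spec p r).pow_eq_one, one_pow]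
    · rw [pta_coindAmb_of_not_mem p S h hr]
      simp
  · apply pta_Eev_eq_of
    show pta_coindAmb p S h q.1 (ptj_pre g (pta_iota q.1)) = _
    rw [pta_coindAmb_of_mem p S h q.2, pta_gOf_pre]

end Fermat.Agent.Lib.PT

end
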