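/-
S55 (Poitou–Tate long-haul), S-track, abstract part (E).

Abstract "big-model" presentation of the `S`-idele class module:  a discrete `G_ℚ`-module `J`
(the `S`-ideles of `ℚ_S`), an equivariant map `π : J → C` whose kernel `E` (the `S`-units of
`ℚ_S`) is `p`-divisible with `E[p] = μ_p = ζ (ZMod p)`, every `p`-torsion element of `C` lifts to
`J`, and `J[p] = ⊕_{q ∈ S} CoInd_{G_q}^{G_ℚ} μ_p` expressed through the base-place coordinates
`ev q`.  From this interface we build the connecting map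
`δ : Hom_G(M, C) → H¹(G_ℚ, M')`, `M' = M.dualTwist (cycloChar p)`, and prove
`ker δ = im (⊕_q H⁰(ℚ_q, M'))`, `im δ = Ш¹_S(M')`.

This file: the interface, quasi-equivariant lifts and their cocycles.
-/
import Mathlib
import Fermat.Prelude.Def_GroupCohomology_ContinuousUnramified

set_option autoImplicit false
set_option linter.unusedSectionVars false

namespace Fermat.Agent.Lib.PT

open CategoryTheory groupCohomology ExtCitation

local notation "Qbar" => AlgebraicClosure ℚ
local notation "GQ" => (AlgebraicClosure ℚ ≃ₐ[ℚ] AlgebraicClosure ℚ)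

/-- Abstract big-model datum for part (E) of Poitou–Tate: see the file header. -/
structure pts_EMod (p : ℕ) [Fact p.Prime] (S : Finset Nat.Primes) where
  /-- the `S`-ideles of `ℚ_S` (additive notation) -/
  J : Type
  /-- the `S`-idele class module -/
  C : Type
  [instJ : AddCommGroup J]
  [instC : AddCommGroup C]
  [actJ : DistribMulAction GQ J]
  [actC : DistribMulAction GQ C]
  /-- the projection; its kernel is the group `E` of `S`-units of `ℚ_S` -/
  π : J →+ C
  π_smul : ∀ (g : GQ) (x : J), π (g • x) = g • π x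
  /-- `p`-torsion classes lift (capitulation of the `p`-part of `Cl_S`) -/
  π_surj_tors : ∀ c : C, p • c = 0 → ∃ x : J, π x = c
  /-- `E` is `p`-divisible -/
  ker_div : ∀ e : J, π e = 0 → ∃ u : J, π u = 0 ∧ p • u = e
  /-- `J` is a discrete module for the `S`-levels -/
  discrete : ∀ x : J, ∃ F : IntermediateField ℚ Qbar, F.IsUnramifiedOutside S ∧
    ∀ s ∈ F.fixingSubgroup, s • x = x
  /-- `μ_p`, identified with `ZMod p` twisted by the cyclotomic character -/
  ζ : ZMod p →+ J
  ζ_inj : Function.Injective ζ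
  π_ζ : ∀ a, π (ζ a) = 0
  ker_tors : ∀ e : J, π e = 0 → p • e = 0 → ∃ a, ζ a = e
  smul_ζ : ∀ (g : GQ) (a : ZMod p), g • ζ a = ζ ((cycloChar p g : ZMod p) * a)
  /-- the coordinate at the base place over `q` of a `p`-torsion idele -/
  ev : ↥S → J → ZMod p
  ev_add : ∀ q x y, p • x = 0 → p • y = 0 → ev q (x + y) = ev q x + ev q y
  ev_ζ : ∀ q a, ev q (ζ a) = a
  ev_loc : ∀ (q : ↥S) (τ : primeLocalGaloisGroup q.1) (x : J), p • x = 0 →
    ev q (primeLocalToGlobal q.1 τ • x)
      = (cycloChar p (primeLocalToGlobal q.1 τ) : ZMod p) * ev q x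
  /-- the coordinates of all conjugates determine a `p`-torsion idele -/
  ev_inj : ∀ x, p • x = 0 → (∀ q (g : GQ), ev q (g • x) = 0) → x = 0
  /-- every level-constant `G_q`-equivariant family of coordinates is realised -/
  ev_surj : ∀ h : ↥S → GQ → ZMod p,
    (∃ F : IntermediateField ℚ Qbar, F.IsUnramifiedOutside S ∧
      ∀ q g s, s ∈ F.fixingSubgroup → h q (g * s) = h q g) →
    (∀ (q : ↥S) (τ : primeLocalGaloisGroup q.1) (g : GQ),
      h q (primeLocalToGlobal q.1 τ * g)
        = (cycloChar p (primeLocalToGlobal q.1 τ) : ZMod p) * h q g) →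
    ∃ x : J, p • x = 0 ∧ ∀ q (g : GQ), ev q (g • x) = h q g

attribute [instance] pts_EMod.instJ pts_EMod.instC pts_EMod.actJ pts_EMod.actC

namespace pts_EMod

variable {p : ℕ} [Fact p.Prime] {S : Finset Nat.Primes} (𝒢 : pts_EMod p S)

lemma ev_zero (q : ↥S) : 𝒢.ev q 0 = 0 := by
  have h := 𝒢.ev_add q 0 0 (smul_zero _) (smul_zero _)
  rw [add_zero] at h
  exact left_eq_add.mp h

lemma ev_neg (q : ↥S) {x : 𝒢.J} (hx : p • x = 0) : 𝒢.ev q (-x) = - 𝒢.ev q x := by
  have h := 𝒢.ev_add q x (-x) hx (by rw [smul_neg, hx, neg_zero])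
  rw [add_neg_cancel, ev_zero] at h
  exact (neg_eq_of_add_eq_zero_right h.symm).symm

lemma ev_sub (q : ↥S) {x y : 𝒢.J} (hx : p • x = 0) (hy : p • y = 0) :
    𝒢.ev q (x - y) = 𝒢.ev q x - 𝒢.ev q y := by
  rw [sub_eq_add_neg, 𝒢.ev_add q x (-y) hx (by rw [smul_neg, hy, neg_zero]), 𝒢.ev_neg q hy,
    sub_eq_add_neg]

lemma nsmul_smul (g : GQ) (x : 𝒢.J) : p • (g • x) = g • (p • x) := by
  rw [smul_comm]

lemma tors_smul (g : GQ) {x : 𝒢.J} (hx : p • x = 0) : p • (g • x) = 0 := by
  rw [smul_comm, hx, smul_zero]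

/-- Two `p`-torsion ideles with the same coordinates are equal. -/
lemma ext_ev {x y : 𝒢.J} (hx : p • x = 0) (hy : p • y = 0)
    (h : ∀ q (g : GQ), 𝒢.ev q (g • x) = 𝒢.ev q (g • y)) : x = y := by
  have hxy : p • (x - y) = 0 := by rw [smul_sub, hx, hy, sub_zero]
  have := 𝒢.ev_inj (x - y) hxy (fun q g => by
    rw [smul_sub, 𝒢.ev_sub q (𝒢.tors_smul g hx) (𝒢.tors_smul g hy), h q g, sub_self])
  exact sub_eq_zero.mp this

lemma ζ_tors (a : ZMod p) : p • 𝒢.ζ a = 0 := by
  rw [← map_nsmul, nsmul_eq_mul]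
  simp

end pts_EMod

end Fermat.Agent.Lib.PT
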