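/-
S55 long haul, (EM) part E: the kernel of `π` on `S`-supported ideles (`S`-parts of principal
`S`-unit ideles), `π ∘ ζ = 0`, `E_S[p] = μ_p`, and the constructor of `pts_EMod` from the two
arithmetic inputs (`E_S` is `p`-divisible; `p`-torsion classes lift).
-/
import Fermat.Agent.Lib.PT.GModEModD
import Fermat.Agent.Lib.PT.SeqEDefs

set_option autoImplicit false
set_option linter.unusedVariables false
set_option linter.unusedSectionVars false
set_option linter.style.haveILetI false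

noncomputable section

namespace Fermat.Agent.Lib.PT

open IntermediateField ExtCitation

local notation "Qbar" => AlgebraicClosure ℚ
local notation "GQ" => (AlgebraicClosure ℚ ≃ₐ[ℚ] AlgebraicClosure ℚ)

attribute [local instance] pta_CSAction

variable {S : Finset Nat.Primes}

/-! ### The kernel of `π` -/

/-- `x ∈ Q̄ˣ` is a unit at all places outside `S` -/
def pta_IsSUnit (S : Finset Nat.Primes) (x : Qbarˣ) : Prop :=
  ∀ q : Nat.Primes, q ∉ S → ∀ σ : ptj_Emb Qbar q, ‖σ (x : Qbar)‖ = 1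

lemma pta_diag_mem_JT {x : Qbarˣ} (hx : pta_IsSUnit S x) : ptj_diag Qbar x ∈ ptj_JT Qbar S :=
  fun q hq σ => hx q hq σ

/-- **Lemma A**: the `S`-part of a principal idele of an `S`-unit of `ℚ_S` is a relation. -/
lemma pta_Spart_diag_mem_NS {x : Qbarˣ} (hx : x ∈ ptj_QS S) (hu : pta_IsSUnit S x) :
    pta_Spart S (ptj_diag Qbar x) ∈ ptj_NS S := by
  rw [ptj_mem_NS_iff]
  refine ⟨x, hx, (ptj_diag Qbar x / pta_Spart S (ptj_diag Qbar x))⁻¹, ?_, ?_⟩
  · refine (ptj_US S).inv_mem ⟨pta_div_Spart_mem_UT S (pta_diag_mem_JT hu), ?_⟩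
    exact (ptj_JS S).div_mem (ptj_diag_mem_JS hx) (pta_Spart_mem_JS S (ptj_diag_mem_JS hx))
  · rw [inv_div, mul_div_cancel]

/-- the `S`-part of a unit idele supported outside `S` is trivial -/
lemma pta_Spart_of_mem_UT {K : Type*} [Field K] {u : ptj_J K} (hu : u ∈ ptj_UT K S) :
    pta_Spart S u = 1 := by
  apply Subtype.ext
  funext q
  by_cases hq : q ∈ S
  · rw [pta_Spart_of_mem S u hq, hu.1 q hq]; rfl
  · rw [pta_Spart_of_not_mem S u hq]; rfl

/-- **Lemma B**: an `S`-supported smooth idele which is a relation is the `S`-part of the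
principal idele of an `S`-unit of `ℚ_S`. -/
lemma pta_exists_Spart_diag {e : ptj_J Qbar} (he : e ∈ pta_JSS S) (hN : e ∈ ptj_NS S) :
    ∃ x : Qbarˣ, x ∈ ptj_QS S ∧ pta_IsSUnit S x ∧ e = pta_Spart S (ptj_diag Qbar x) := by
  obtain ⟨x, hx, u, hu, rfl⟩ := (ptj_mem_NS_iff e).1 hN
  refine ⟨x, hx, fun q hq σ => ?_, ?_⟩
  · have h1 : ((ptj_diag Qbar x * u : ptj_J Qbar) : ptj_Amb Qbar) q σ = 1 := by
      rw [he.2 q hq]; rfl
    have h2 : (ptj_diagAmb x q σ : (ptj_Om q)ˣ) * (u : ptj_Amb Qbar) q σ = 1 := h1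
    have h3 : ‖((ptj_diagAmb x q σ : (ptj_Om q)ˣ) : ptj_Om q)‖ *
        ‖(((u : ptj_Amb Qbar) q σ : (ptj_Om q)ˣ) : ptj_Om q)‖ = 1 := by
      rw [← norm_mul, ← Units.val_mul, h2, Units.val_one, norm_one]
    rw [hu.1.2 q hq σ, mul_one, ptj_diagAmb_apply] at h3
    exact h3
  · rw [← pta_Spart_eq_self he, map_mul, pta_Spart_of_mem_UT hu.1, mul_one]

variable (p : ℕ) [Fact p.Prime] (hpS : pPrime p ∈ S)

lemma pta_isSUnit_zeta0U_pow (n : ℕ) : pta_IsSUnit S (pta_zeta0U p ^ n) := by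
  intro q hq σ
  apply IsOfFinOrder.norm_eq_one
  rw [isOfFinOrder_iff_pow_eq_one]
  refine ⟨p, (Fact.out : p.Prime).pos, ?_⟩
  rw [← map_pow, ← Units.val_pow_eq_pow_val, ← pow_mul, mul_comm, pow_mul,
    (pta_zeta0U_spec p).pow_eq_one, one_pow, Units.val_one, map_one]

lemma pta_zJ_pow_coe (n : ℕ) :
    ((pta_zJ p S hpS ^ n : ↥(pta_JSS S)) : ptj_J Qbar) =
      pta_Spart S (ptj_diag Qbar (pta_zeta0U p ^ n)) := by
  rw [Subgroup.coe_pow, pta_zJ_coe, map_pow, map_pow]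

/-- `π ∘ ζ = 0` -/
lemma pta_Eπ_ζ (a : ZMod p) : pta_Eπ S (pta_Eζ p S hpS a) = 0 := by
  rw [pta_Eπ_eq_zero_iff, pta_Eζ_apply]
  show ((pta_zJ p S hpS ^ a.val : ↥(pta_JSS S)) : ptj_J Qbar) ∈ ptj_NS S
  rw [pta_zJ_pow_coe]
  exact pta_Spart_diag_mem_NS ((ptj_QS S).pow_mem (pta_zeta0U_mem_QS p S hpS) _)
    (pta_isSUnit_zeta0U_pow p _)

/-- `E_S[p] = μ_p` -/
lemma pta_ker_tors (e : pta_EJ S) (he : pta_Eπ S e = 0) (hpe : p • e = 0) :
    ∃ a, pta_Eζ p S hpS a = e := by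
  have : NeZero p := ⟨(Fact.out : p.Prime).ne_zero⟩
  rw [pta_Eπ_eq_zero_iff] at he
  obtain ⟨x, hx, hxu, hex⟩ := pta_exists_Spart_diag e.toMul.2 he
  -- `x ^ p = 1`
  have h1 : (e.toMul : ↥(pta_JSS S)) ^ p = 1 := congrArg Additive.toMul hpe
  have h2 : ((e.toMul : ↥(pta_JSS S)) : ptj_J Qbar) ^ p = 1 := by
    rw [← Subgroup.coe_pow, h1]; rfl
  have h3 : ((((e.toMul : ↥(pta_JSS S)) : ptj_J Qbar) ^ p : ptj_J Qbar) : ptj_Amb Qbar)
      (pPrime p) (pta_iota (pPrime p)) = 1 := by rw [h2]; rfl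
  rw [pta_coe_pow_apply, hex, pta_Spart_diag_apply S x hpS] at h3
  have h4 : (x : Qbar) ^ p = 1 := by
    have := congrArg (fun u : (ptj_Om (pPrime p))ˣ => (u : ptj_Om (pPrime p))) h3
    simp only [Units.val_pow_eq_pow_val, Units.coe_map, MonoidHom.coe_coe, Units.val_one] at this
    rw [← map_pow] at this
    exact (pta_iota (pPrime p)).injective (this.trans (map_one _).symm)
  obtain ⟨k, hk, hkx⟩ := (pta_zeta0_spec p).eq_pow_of_pow_eq_one h4
  have hxk : x = pta_zeta0U p ^ k := by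
    apply Units.ext
    rw [Units.val_pow_eq_pow_val, pta_zeta0U_coe, hkx]
  refine ⟨(k : ZMod p), ?_⟩
  unfold pta_Eζ
  rw [ptg_zetaHom_natCast]
  show Additive.ofMul (pta_zJ p S hpS ^ k) = e
  apply Additive.toMul.injective
  apply Subtype.ext
  show ((pta_zJ p S hpS ^ k : ↥(pta_JSS S)) : ptj_J Qbar) = _
  rw [pta_zJ_pow_coe, ← hxk]
  exact hex.symm

end Fermat.Agent.Lib.PT

end
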