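/-
S55 long haul, (EM) part F: the constructor of the S-track datum `pts_EMod p S` from the big
global modules, with the two arithmetic inputs as hypotheses:
* `hsurj`: every `p`-torsion class of `𝒞_S` is represented by an `S`-supported smooth idele;
* `hdiv`: the kernel of `π` on `S`-supported smooth ideles (the `S`-units of `ℚ_S`) is
  `p`-divisible.
-/
import Fermat.Agent.Lib.PT.GModEModE

set_option autoImplicit false
set_option linter.unusedVariables false
set_option linter.unusedSectionVars false
set_option linter.style.haveILetI false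

noncomputable section

namespace Fermat.Agent.Lib.PT

open IntermediateField ExtCitation

local notation "Qbar" => AlgebraicClosure ℚ
local notation "GQ" => (AlgebraicClosure ℚ ≃ₐ[ℚ] AlgebraicClosure ℚ)

attribute [local instance] pta_CSAction

variable (p : ℕ) [Fact p.Prime] {S : Finset Nat.Primes} (hpS : pPrime p ∈ S)

/-- **(EM), constructor**: the S-track datum on the big global modules, given the two arithmetic
inputs. -/
def pta_EMod_of
    (hsurj : ∀ c : ptj_CS S, p • c = 0 → ∃ x : pta_EJ S, pta_Eπ S x = c)
    (hdiv : ∀ e : pta_EJ S, pta_Eπ S e = 0 → ∃ u : pta_EJ S, pta_Eπ S u = 0 ∧ p • u = e) :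
    pts_EMod p S where
  J := pta_EJ S
  C := ptj_CS S
  instJ := inferInstance
  instC := inferInstance
  actJ := pta_EJAction
  actC := pta_CSAction S
  π := pta_Eπ S
  π_smul := pta_Eπ_smul
  π_surj_tors := hsurj
  ker_div := hdiv
  discrete := pta_EJ_discrete
  ζ := pta_Eζ p S hpS
  ζ_inj := pta_Eζ_injective p S hpS
  π_ζ := pta_Eπ_ζ p hpS
  ker_tors := pta_ker_tors p hpS
  smul_ζ := pta_smul_Eζ p S hpS
  ev := fun q x => pta_Eev p S q.1 x
  ev_add := fun q x y hx hy => pta_Eev_add p S q.1 hx hy
  ev_ζ := fun q a => pta_Eev_ζ p S hpS q.2 a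
  ev_loc := fun q τ x hx => pta_Eev_loc p S q.1 τ hx
  ev_inj := fun x hx h => pta_Eev_inj p S x hx (fun q hq g => h ⟨q, hq⟩ g)
  ev_surj := fun h hlev hloc => pta_Eev_surj p h hlev hloc

end Fermat.Agent.Lib.PT

end
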