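/-
S55 long haul, (EM) part G: **Lemma C** -- every valuation subring `A` of `Q̄` over `q` is
dominated, on a given number field `K ⊆ Q̄`, by the unit ball of some `q`-adic embedding
`σ : Q̄ → Ω_q`: elements of `K` of `σ`-norm one are units of `A`.
-/
import Fermat.Agent.Lib.PT.GModEModF
import Fermat.Agent.Lib.PT.PlaceB
import Fermat.Agent.Lib.PT.GLevelRam

set_option autoImplicit false
set_option linter.unusedVariables false
set_option linter.unusedSectionVars false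
set_option linter.style.haveILetI false

noncomputable section

namespace Fermat.Agent.Lib.PT

open IntermediateField ExtCitation IsDedekindDomain NumberField

local notation "Qbar" => AlgebraicClosure ℚ
local notation "GQ" => (AlgebraicClosure ℚ ≃ₐ[ℚ] AlgebraicClosure ℚ)

/-- an integer of `K` outside the prime below `A` is a unit of `A` -/
lemma pta_unit_of_notMem_primeBelow (K : IntermediateField ℚ Qbar) [NumberField ↥K]
    (A : ValuationSubring Qbar) {n : 𝓞 ↥K}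
    (hn : n ∉ pta_primeBelow (L := ↥K) (Ω := Qbar) A) :
    (((n : ↥K) : Qbar)) ∈ A ∧ (((n : ↥K) : Qbar))⁻¹ ∈ A := by
  have h1 : pta_intHom (↥K) Qbar n ∈ A := pta_intHom_mem A n
  have h2 : pta_intHom (↥K) Qbar n ∉ A.nonunits := fun h => hn ((pta_mem_primeBelow A n).2 h)
  have h3 : pta_intHom (↥K) Qbar n = (((n : ↥K) : Qbar)) := rfl
  rw [h3] at h1 h2
  refine ⟨h1, ?_⟩
  rw [A.mem_nonunits_iff, not_lt] at h2
  have h4 : A.valuation (((n : ↥K) : Qbar)) = 1 :=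
    le_antisymm ((A.valuation_le_one_iff _).2 h1) h2
  rw [← A.valuation_le_one_iff, map_inv₀, h4, inv_one]

/-- **Lemma C.** For a number field `K ⊆ Q̄` and a valuation subring `A` of `Q̄` over `q`, there
is a `q`-adic embedding `σ` of `Q̄` such that every element of `K` of `σ`-norm one is a unit of
`A`. -/
theorem pta_exists_emb_dominating (K : IntermediateField ℚ Qbar) [FiniteDimensional ℚ K]
    (q : Nat.Primes) (A : ValuationSubring Qbar) (hA : A.LiesOverPrime (q : ℕ)) :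
    ∃ σ : ptj_Emb Qbar q, ∀ z ∈ K, ‖σ z‖ = 1 → z ∈ A ∧ z⁻¹ ∈ A := by
  haveI hN : NumberField ↥K := ⟨⟩
  let v : HeightOneSpectrum (𝓞 ↥K) :=
    ⟨pta_primeBelow (L := ↥K) (Ω := Qbar) A, inferInstance, pta_primeBelow_ne_bot A q.2 hA⟩
  have hv : (((q : ℕ) : 𝓞 ↥K)) ∈ v.asIdeal := pta_natCast_mem_primeBelow A hA
  obtain ⟨σK, hσK⟩ := cfh_exists_primeOf_eq q v hv
  obtain ⟨σ, hσ⟩ := ptj_resEmb_surjective (F := ↥K) (K := Qbar) σK
  refine ⟨σ, fun z hz hnorm => ?_⟩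
  have h1 : ‖σK ⟨z, hz⟩‖ = 1 := by
    rw [← hσ]
    exact hnorm
  rw [cfh_norm_eq_one_iff, hσK] at h1
  obtain ⟨n, d, hnd⟩ := v.exists_primeCompl_mul_eq_of_integer (⟨z, hz⟩ : ↥K) h1.le
  have hd : (d : 𝓞 ↥K) ∉ v.asIdeal := d.2
  have hvd : v.valuation ↥K (algebraMap (𝓞 ↥K) ↥K (d : 𝓞 ↥K)) = 1 :=
    (v.valuation_eq_one_iff_notMem (K := ↥K)).2 hd
  have hvn : v.valuation ↥K (algebraMap (𝓞 ↥K) ↥K n) = 1 := by
    rw [← hnd, map_mul, h1, hvd, one_mul]
  have hn : n ∉ v.asIdeal := (v.valuation_eq_one_iff_notMem (K := ↥K)).1 hvn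
  obtain ⟨hnA, hnA'⟩ := pta_unit_of_notMem_primeBelow K A hn
  obtain ⟨hdA, hdA'⟩ := pta_unit_of_notMem_primeBelow K A hd
  have hd0 : (((d : 𝓞 ↥K) : ↥K) : Qbar) ≠ 0 := by
    intro h
    apply hd
    have : (d : 𝓞 ↥K) = 0 := by
      apply Subtype.ext
      apply Subtype.ext
      exact h
    rw [this]
    exact v.asIdeal.zero_mem
  have hz' : z * (((d : 𝓞 ↥K) : ↥K) : Qbar) = (((n : 𝓞 ↥K) : ↥K) : Qbar) :=
    congrArg (fun y : ↥K => (y : Qbar)) hnd
  have hzeq : z = (((n : 𝓞 ↥K) : ↥K) : Qbar) * ((((d : 𝓞 ↥K) : ↥K) : Qbar))⁻¹ := by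
    rw [← hz', mul_assoc, mul_inv_cancel₀ hd0, mul_one]
  constructor
  · rw [hzeq]
    exact mul_mem hnA hdA'
  · rw [hzeq, mul_inv, inv_inv]
    exact mul_mem hnA' hdA

end Fermat.Agent.Lib.PT

end
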