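/-
S55 long haul, (EM) part H: the **Kummer lemma (KL)**: adjoining a `p`-th root `y` of an element
of an `S`-unramified field `K` (`p ∈ S`) which is, at every valuation subring `A` of `Q̄` over a
prime outside `S`, a unit times an element of `K`, gives an `S`-unramified field.  Also the
version with the local condition stated on `q`-adic embeddings (through Lemma C).
-/
import Fermat.Agent.Lib.PT.GModEModG
import Fermat.Agent.Lib.PT.GLevelTwist

set_option autoImplicit false
set_option linter.unusedVariables false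
set_option linter.unusedSectionVars false
set_option linter.style.haveILetI false

noncomputable section

namespace Fermat.Agent.Lib.PT

open IntermediateField ExtCitation Fermat.Agent.Lib.Frey

local notation "Qbar" => AlgebraicClosure ℚ
local notation "GQ" => (AlgebraicClosure ℚ ≃ₐ[ℚ] AlgebraicClosure ℚ)

variable {p : ℕ} [Fact p.Prime]

/-- a `p`-th root of unity congruent to `1` modulo the maximal ideal of a valuation subring over
`q ≠ p` is `1` -/
lemma pta_root_eq_one_of_valuation_lt {q : ℕ} (hq : q.Prime) (hqp : q ≠ p)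
    (A : ValuationSubring Qbar) (hA : A.LiesOverPrime q) {μ : Qbar} (hμp : μ ^ p = 1)
    (hv : A.valuation (μ - 1) < 1) : μ = 1 := by
  have hp : p.Prime := Fact.out
  by_contra hμ1
  have hμprim : IsPrimitiveRoot μ p := by
    rw [IsPrimitiveRoot.iff_orderOf]
    exact orderOf_eq_prime hμp hμ1
  have hμA : μ ∈ A := by
    have : μ = (μ - 1) + 1 := by ring
    rw [this]
    exact add_mem ((A.valuation_le_one_iff _).1 hv.le) (one_mem A)
  have hsum0 : ∑ j ∈ Finset.range p, μ ^ j = 0 := hμprim.geom_sum_eq_zero hp.one_lt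
  have hpsum : (p : Qbar) = ∑ j ∈ Finset.range p, (1 - μ ^ j) := by
    rw [Finset.sum_sub_distrib, hsum0, sub_zero, Finset.sum_const, Finset.card_range,
      nsmul_eq_mul, mul_one]
  have hterm : ∀ j ∈ Finset.range p, A.valuation (1 - μ ^ j) < 1 := by
    intro j _
    have h2 : 1 - μ ^ j = -((∑ i ∈ Finset.range j, μ ^ i) * (μ - 1)) := by
      rw [geom_sum_mul]; ring
    rw [h2, Valuation.map_neg, map_mul]
    have h3 : (∑ i ∈ Finset.range j, μ ^ i) ∈ A := sum_mem fun i _ => pow_mem hμA i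
    exact mul_lt_one_of_nonneg_of_lt_one_right ((A.valuation_le_one_iff _).2 h3) zero_le hv
  have hpA : (p : Qbar) ∈ A.nonunits := by
    rw [A.mem_nonunits_iff, hpsum]
    exact A.valuation.map_sum_lt one_ne_zero hterm
  exact pta_not_mem_nonunits_of_ne hq hqp A hA hpA

/-- **(KL), core**: an inertia element at `q ≠ p` fixing `y ^ p` and `b`, where `y / b` is a unit
of the valuation subring, fixes `y`. -/
theorem pta_kummer_fix {q : ℕ} (hq : q.Prime) (hqp : q ≠ p) (A : ValuationSubring Qbar)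
    (hA : A.LiesOverPrime q) (g : GQ) (hg : g ∈ A.inertiaSubgroupIn ℚ) {y b : Qbar}
    (hy0 : y ≠ 0) (hyp : g (y ^ p) = y ^ p) (hb : g b = b) (hb0 : b ≠ 0)
    (h1 : y * b⁻¹ ∈ A) (h2 : b * y⁻¹ ∈ A) : g y = y := by
  obtain ⟨-, hI⟩ := ford_inertia_spec A g hg
  set μ : Qbar := g y * y⁻¹ with hμdef
  have hμp : μ ^ p = 1 := by
    rw [hμdef, mul_pow, inv_pow, ← map_pow, hyp, mul_inv_cancel₀ (pow_ne_zero _ hy0)]
  have hz := hI (y * b⁻¹) h1
  have hzeq : g (y * b⁻¹) - y * b⁻¹ = (μ - 1) * (y * b⁻¹) := by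
    rw [map_mul, map_inv₀, hb, hμdef]
    field_simp
  rw [hzeq, A.mem_nonunits_iff, map_mul] at hz
  have hu : A.valuation (y * b⁻¹) = 1 := by
    refine le_antisymm ((A.valuation_le_one_iff _).2 h1) ?_
    have h3 : A.valuation (b * y⁻¹) ≤ 1 := (A.valuation_le_one_iff _).2 h2
    have h4 : A.valuation (y * b⁻¹) * A.valuation (b * y⁻¹) = 1 := by
      rw [← map_mul]
      have : y * b⁻¹ * (b * y⁻¹) = 1 := by field_simp
      rw [this, map_one]
    calc (1 : _) = A.valuation (y * b⁻¹) * A.valuation (b * y⁻¹) := h4.symm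
      _ ≤ A.valuation (y * b⁻¹) * 1 := by gcongr
      _ = A.valuation (y * b⁻¹) := mul_one _
  rw [hu, mul_one] at hz
  have hμ1 := pta_root_eq_one_of_valuation_lt hq hqp A hA hμp hz
  rw [hμdef, mul_inv_eq_one₀ hy0] at hμ1
  exact hμ1

variable {S : Finset Nat.Primes}

/-- **(KL)**: the Kummer lemma, valuation-subring form. -/
theorem pta_kummer_unram (hpS : pPrime p ∈ S) {K : IntermediateField ℚ Qbar}
    (hK : K.IsUnramifiedOutside S) {y : Qbar} (hy0 : y ≠ 0) (hyK : y ^ p ∈ K)
    (hloc : ∀ q : Nat.Primes, q ∉ S → ∀ A : ValuationSubring Qbar, A.LiesOverPrime (q : ℕ) →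
      ∃ b ∈ K, b ≠ 0 ∧ y * b⁻¹ ∈ A ∧ b * y⁻¹ ∈ A) :
    (K ⊔ ℚ⟮y⟯).IsUnramifiedOutside S := by
  haveI := hK.1
  have hyint : IsIntegral ℚ y := (Algebra.IsAlgebraic.isAlgebraic y).isIntegral
  haveI : FiniteDimensional ℚ ℚ⟮y⟯ := IntermediateField.adjoin.finiteDimensional hyint
  refine ⟨IntermediateField.finiteDimensional_sup K ℚ⟮y⟯, fun q hq A hA g hg => ?_⟩
  rw [IntermediateField.fixingSubgroup_sup]
  have hgK : g ∈ K.fixingSubgroup := hK.2 q hq A hA hg
  refine ⟨hgK, ?_⟩
  rw [IntermediateField.mem_fixingSubgroup_iff] at hgK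
  obtain ⟨b, hbK, hb0, h1, h2⟩ := hloc q hq A hA
  have hqp : (q : ℕ) ≠ p := by
    intro h
    apply hq
    have : q = pPrime p := Subtype.ext h
    rw [this]
    exact hpS
  have hgy : g y = y := pta_kummer_fix q.2 hqp A hA g hg hy0 (hgK _ hyK) (hgK _ hbK) hb0 h1 h2
  -- `g` fixes `ℚ⟮y⟯`
  have hle : ℚ⟮y⟯ ≤ IntermediateField.fixedField (Subgroup.zpowers g) := by
    rw [IntermediateField.adjoin_simple_le_iff]
    rintro ⟨_, k, rfl⟩
    show (g ^ k) y = y
    have hfix : ∀ n : ℕ, (g ^ n) y = y := by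
      intro n
      induction n with
      | zero => rfl
      | succ n ih => rw [pow_succ, AlgEquiv.mul_apply, hgy, ih]
    rcases Int.eq_nat_or_neg k with ⟨n, rfl | rfl⟩
    · rw [zpow_natCast]; exact hfix n
    · rw [zpow_neg, zpow_natCast]
      have := hfix n
      calc (g ^ n)⁻¹ y = (g ^ n)⁻¹ ((g ^ n) y) := by rw [this]
        _ = y := by
          show ((g ^ n)⁻¹ * (g ^ n)) y = y
          rw [inv_mul_cancel]; rfl
  show g ∈ ℚ⟮y⟯.fixingSubgroup
  rw [IntermediateField.mem_fixingSubgroup_iff]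
  intro x hx
  exact hle hx ⟨g, Subgroup.mem_zpowers g⟩

end Fermat.Agent.Lib.PT

end
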