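/-
S55 long haul, (EM) part I: the Kummer lemma with the local condition on `q`-adic embeddings,
and **hdiv**: the kernel of `π` on `S`-supported smooth ideles (the `S`-units of `ℚ_S`) is
`p`-divisible.
-/
import Fermat.Agent.Lib.PT.GModEModH

set_option autoImplicit false
set_option linter.unusedVariables false
set_option linter.unusedSectionVars false
set_option linter.style.haveILetI false

noncomputable section

namespace Fermat.Agent.Lib.PT

open IntermediateField ExtCitation Fermat.Agent.Lib.Frey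

local notation "Qbar" => AlgebraicClosure ℚ
local notation "GQ" => (AlgebraicClosure ℚ ≃ₐ[ℚ] AlgebraicClosure ℚ)

attribute [local instance] pta_CSAction

/-- valuation subrings are integrally closed: `x ^ n ∈ A → x ∈ A` -/
lemma pta_mem_of_pow_mem {L : Type*} [Field L] (A : ValuationSubring L) {x : L} {n : ℕ}
    (hn : n ≠ 0) (h : x ^ n ∈ A) : x ∈ A := by
  rcases A.mem_or_inv_mem x with hx | hx
  · exact hx
  · by_cases hx0 : x = 0
    · rw [hx0]; exact zero_mem A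
    -- `x = x ^ n * (x⁻¹) ^ (n - 1)`
    have : x = x ^ n * (x⁻¹) ^ (n - 1) := by
      obtain ⟨m, rfl⟩ := Nat.exists_eq_succ_of_ne_zero hn
      rw [Nat.succ_sub_one, pow_succ, inv_pow]
      field_simp
    rw [this]
    exact mul_mem h (pow_mem hx _)

variable {p : ℕ} [Fact p.Prime] {S : Finset Nat.Primes}

/-- **(KL), embedding form**: if `y ^ p` lies in the `S`-unramified field `K` and at every
`q`-adic embedding (`q ∉ S`) `y` has the absolute value of an element of `K`, then `K(y)` is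
`S`-unramified. -/
theorem pta_kummer_unram_emb (hpS : pPrime p ∈ S) {K : IntermediateField ℚ Qbar}
    (hK : K.IsUnramifiedOutside S) {y : Qbar} (hy0 : y ≠ 0) (hyK : y ^ p ∈ K)
    (hloc : ∀ q : Nat.Primes, q ∉ S → ∀ σ : ptj_Emb Qbar q, ∃ b ∈ K, b ≠ 0 ∧ ‖σ y‖ = ‖σ b‖) :
    (K ⊔ ℚ⟮y⟯).IsUnramifiedOutside S := by
  have hp : p.Prime := Fact.out
  haveI := hK.1
  refine pta_kummer_unram hpS hK hy0 hyK (fun q hq A hA => ?_)
  obtain ⟨σ, hσ⟩ := pta_exists_emb_dominating K q A hA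
  obtain ⟨b, hbK, hb0, hnorm⟩ := hloc q hq σ
  refine ⟨b, hbK, hb0, ?_⟩
  have hzK : y ^ p * (b ^ p)⁻¹ ∈ K := mul_mem hyK (inv_mem (pow_mem hbK p))
  have hσb0 : ‖σ b‖ ≠ 0 := norm_ne_zero_iff.2 ((map_ne_zero σ).2 hb0)
  have hz1 : ‖σ (y ^ p * (b ^ p)⁻¹)‖ = 1 := by
    rw [map_mul, map_inv₀, map_pow, map_pow, norm_mul, norm_inv, norm_pow, norm_pow, hnorm,
      mul_inv_cancel₀ (pow_ne_zero _ hσb0)]
  obtain ⟨h1, h2⟩ := hσ _ hzK hz1
  constructor
  · apply pta_mem_of_pow_mem A hp.ne_zero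
    rw [mul_pow, inv_pow]
    exact h1
  · apply pta_mem_of_pow_mem A hp.ne_zero
    have : (b * y⁻¹) ^ p = (y ^ p * (b ^ p)⁻¹)⁻¹ := by
      rw [mul_pow, inv_pow, mul_inv, inv_inv, mul_comm]
    rw [this]
    exact h2

/-- `p`-th roots of `S`-units of `ℚ_S` are in `ℚ_S` (`p ∈ S`) -/
theorem pta_root_mem_QS (hpS : pPrime p ∈ S) {x y : Qbarˣ} (hx : x ∈ ptj_QS S)
    (hxu : pta_IsSUnit S x) (hyx : y ^ p = x) : y ∈ ptj_QS S ∧ pta_IsSUnit S y := by
  have hp : p.Prime := Fact.out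
  obtain ⟨K, hK, hxK⟩ := hx
  have hyu : pta_IsSUnit S y := by
    intro q hq σ
    have h1 := hxu q hq σ
    rw [← hyx, Units.val_pow_eq_pow_val, map_pow, norm_pow] at h1
    exact (pow_eq_one_iff_of_nonneg (norm_nonneg _) hp.ne_zero).1 h1
  refine ⟨⟨K ⊔ ℚ⟮(y : Qbar)⟯, ?_, ?_⟩, hyu⟩
  · refine pta_kummer_unram_emb hpS hK (Units.ne_zero y) ?_ (fun q hq σ => ?_)
    · rw [← Units.val_pow_eq_pow_val, hyx]
      exact hxK
    · exact ⟨1, one_mem K, one_ne_zero, by rw [map_one, norm_one]; exact hyu q hq σ⟩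
  · exact (le_sup_right : ℚ⟮(y : Qbar)⟯ ≤ K ⊔ ℚ⟮(y : Qbar)⟯)
      (IntermediateField.mem_adjoin_simple_self ℚ (y : Qbar))

/-- **hdiv**: the kernel of `π` on the `S`-supported smooth ideles is `p`-divisible. -/
theorem pta_hdiv (hpS : pPrime p ∈ S) (e : pta_EJ S) (he : pta_Eπ S e = 0) :
    ∃ u : pta_EJ S, pta_Eπ S u = 0 ∧ p • u = e := by
  have hp : p.Prime := Fact.out
  rw [pta_Eπ_eq_zero_iff] at he
  obtain ⟨x, hx, hxu, hex⟩ := pta_exists_Spart_diag e.toMul.2 he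
  obtain ⟨y0, hy0⟩ : ∃ y : Qbar, y ^ p = (x : Qbar) := IsAlgClosed.exists_pow_nat_eq _ hp.pos
  have hy00 : y0 ≠ 0 := by
    rintro rfl
    rw [zero_pow hp.ne_zero] at hy0
    exact Units.ne_zero x hy0.symm
  set y : Qbarˣ := Units.mk0 y0 hy00 with hy
  have hyx : y ^ p = x := by
    apply Units.ext
    rw [Units.val_pow_eq_pow_val, hy, Units.val_mk0, hy0]
  obtain ⟨hyQS, hyu⟩ := pta_root_mem_QS hpS hx hxu hyx
  refine ⟨Additive.ofMul ⟨pta_Spart S (ptj_diag Qbar y),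
    pta_Spart_mem_JSS (ptj_diag_mem_JS hyQS)⟩, ?_, ?_⟩
  · rw [pta_Eπ_eq_zero_iff]
    exact pta_Spart_diag_mem_NS hyQS hyu
  · apply Additive.toMul.injective
    apply Subtype.ext
    show ((⟨pta_Spart S (ptj_diag Qbar y), pta_Spart_mem_JSS (ptj_diag_mem_JS hyQS)⟩ :
      ↥(pta_JSS S)) ^ p : ↥(pta_JSS S)).1 = _
    rw [Subgroup.coe_pow]
    show pta_Spart S (ptj_diag Qbar y) ^ p = _
    rw [← map_pow, ← map_pow, hyx]
    exact hex.symm

end Fermat.Agent.Lib.PT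

end
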