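/-
S55 long haul, (EM) part J: **capitulation** (`hsurj`, strong form): if `p • c` is the class of an
`S`-supported smooth idele then so is `c`.
-/
import Fermat.Agent.Lib.PT.GModEModI
import Fermat.Agent.Lib.PT.GPlaceClA

set_option autoImplicit false
set_option linter.unusedVariables false
set_option linter.unusedSectionVars false
set_option linter.style.haveILetI false

noncomputable section

namespace Fermat.Agent.Lib.PT

open IntermediateField ExtCitation Fermat.Agent.Lib.Frey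

local notation "Qbar" => AlgebraicClosure ℚ
local notation "GQ" => (AlgebraicClosure ℚ ≃ₐ[ℚ] AlgebraicClosure ℚ)

attribute [local instance] pta_CSAction

variable {p : ℕ} [Fact p.Prime] {S : Finset Nat.Primes}

/-- the absolute values of a smooth idele of level `K` at `q`-adic embeddings are absolute values
of elements of `K` -/
lemma pta_exists_norm_eq_of_level {K : IntermediateField ℚ Qbar} [FiniteDimensional ℚ K]
    {a : ptj_J Qbar} (ha : a ∈ (ptj_up K Qbar).range) (q : Nat.Primes) (σ : ptj_Emb Qbar q) :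
    ∃ b ∈ K, b ≠ 0 ∧ ‖σ b‖ = ‖(((a : ptj_Amb Qbar) q σ : (ptj_Om q)ˣ) : ptj_Om q)‖ := by
  haveI hN : NumberField ↥K := ⟨⟩
  obtain ⟨g, rfl⟩ := ha
  have h1 := ptj_mem_Kσ_of_mem_Jq (g.2.1 q) (ptj_resEmb (F := ↥K) σ)
  obtain ⟨b', hb'⟩ := ptk_exists_norm_eq (ptj_resEmb (F := ↥K) σ) h1 (Units.ne_zero _)
  refine ⟨((b' : ↥K) : Qbar), (b' : ↥K).2, ?_, hb'⟩
  intro h
  exact Units.ne_zero b' (Subtype.ext h)

/-- **capitulation, idele form**: a smooth `S`-idele `a` whose `p`-th power is, modulo relations,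
supported on `S`, is itself, modulo relations, supported on `S`. -/
theorem pta_capitulation (hpS : pPrime p ∈ S) {a : ptj_J Qbar} (ha : a ∈ ptj_JS S)
    {j : ptj_J Qbar} (hj : ∀ q, q ∉ S → (j : ptj_Amb Qbar) q = 1)
    (h : a ^ p * j⁻¹ ∈ ptj_NS S) :
    ∃ j' ∈ pta_JSS S, a * j'⁻¹ ∈ ptj_NS S := by
  have hp : p.Prime := Fact.out
  obtain ⟨x, hx, w, hw, hEq⟩ := (ptj_mem_NS_iff _).1 h
  obtain ⟨F, hF, haF⟩ := ha
  obtain ⟨Kx, hKx, hxK⟩ := hx
  set K : IntermediateField ℚ Qbar := F ⊔ Kx with hKdef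
  have hK : K.IsUnramifiedOutside S := hF.sup hKx
  haveI := hK.1
  have haK : a ∈ (ptj_up K Qbar).range := by
    rw [ptj_mem_range_up_field_iff]
    intro γ hγ
    exact haF γ (IntermediateField.fixingSubgroup_antitone (le_sup_left : F ≤ K) hγ)
  -- a `p`-th root of `x`
  obtain ⟨y0, hy0⟩ : ∃ y : Qbar, y ^ p = (x : Qbar) := IsAlgClosed.exists_pow_nat_eq _ hp.pos
  have hy00 : y0 ≠ 0 := by
    rintro rfl
    rw [zero_pow hp.ne_zero] at hy0
    exact Units.ne_zero x hy0.symm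
  obtain ⟨y, hyval⟩ : ∃ y : Qbarˣ, (y : Qbar) = y0 := ⟨Units.mk0 y0 hy00, rfl⟩
  -- the absolute values of `y` are those of `a` outside `S`
  have hnorm : ∀ q : Nat.Primes, q ∉ S → ∀ σ : ptj_Emb Qbar q,
      ‖σ y0‖ = ‖(((a : ptj_Amb Qbar) q σ : (ptj_Om q)ˣ) : ptj_Om q)‖ := by
    intro q hq σ
    have h1 : ((a ^ p * j⁻¹ : ptj_J Qbar) : ptj_Amb Qbar) q σ =
        ((ptj_diag Qbar x * w : ptj_J Qbar) : ptj_Amb Qbar) q σ := by rw [hEq]
    have h2 : ((a : ptj_Amb Qbar) q σ) ^ p * ((j : ptj_Amb Qbar) q σ)⁻¹ =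
        ptj_diagAmb x q σ * (w : ptj_Amb Qbar) q σ := h1
    rw [hj q hq] at h2
    have h3 := congrArg (fun u : (ptj_Om q)ˣ => ‖(u : ptj_Om q)‖) h2
    simp only [Pi.one_apply, inv_one, mul_one, Units.val_pow_eq_pow_val, norm_pow, Units.val_mul,
      norm_mul, ptj_diagAmb_apply] at h3
    rw [hw.1.2 q hq σ, mul_one, ← hy0, map_pow, norm_pow] at h3
    exact (pow_left_inj₀ (norm_nonneg _) (norm_nonneg _) hp.ne_zero).1 h3.symm
  -- `y ∈ ℚ_S`
  have hyQS : y ∈ ptj_QS S := by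
    refine ⟨K ⊔ ℚ⟮y0⟯, ?_, ?_⟩
    · refine pta_kummer_unram_emb hpS hK hy00 ?_ (fun q hq σ => ?_)
      · rw [hy0]
        exact (le_sup_right : Kx ≤ K) hxK
      · obtain ⟨b, hbK, hb0, hb⟩ := pta_exists_norm_eq_of_level haK q σ
        exact ⟨b, hbK, hb0, (hnorm q hq σ).trans hb.symm⟩
    · rw [hyval]
      exact (le_sup_right : ℚ⟮y0⟯ ≤ K ⊔ ℚ⟮y0⟯) (IntermediateField.mem_adjoin_simple_self ℚ y0)
  -- `a' = a / diag y` is a unit outside `S`
  set a' : ptj_J Qbar := a * (ptj_diag Qbar y)⁻¹ with ha'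
  have ha'JS : a' ∈ ptj_JS S :=
    (ptj_JS S).mul_mem ⟨F, hF, haF⟩ ((ptj_JS S).inv_mem (ptj_diag_mem_JS hyQS))
  have ha'JT : a' ∈ ptj_JT Qbar S := by
    intro q hq σ
    have hcoe : ((((a' : ptj_J Qbar) : ptj_Amb Qbar) q σ : (ptj_Om q)ˣ) : ptj_Om q) =
        (((a : ptj_Amb Qbar) q σ : (ptj_Om q)ˣ) : ptj_Om q) * (σ y0)⁻¹ := by
      show ((((a : ptj_Amb Qbar) q σ) * ((ptj_diagAmb y q σ))⁻¹ : (ptj_Om q)ˣ) : ptj_Om q) = _
      rw [Units.val_mul, Units.val_inv_eq_inv_val, ptj_diagAmb_apply, hyval]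
    rw [hcoe, norm_mul, norm_inv, ← hnorm q hq σ]
    exact mul_inv_cancel₀ (norm_ne_zero_iff.2 ((map_ne_zero σ).2 hy00))
  refine ⟨pta_Spart S a', pta_Spart_mem_JSS ha'JS, ?_⟩
  rw [ptj_mem_NS_iff]
  refine ⟨y, hyQS, a' / pta_Spart S a', ⟨pta_div_Spart_mem_UT S ha'JT,
    (ptj_JS S).div_mem ha'JS (pta_Spart_mem_JS S ha'JS)⟩, ?_⟩
  have hcomm : ptj_diag Qbar y * (a' / pta_Spart S a') = a * (pta_Spart S a')⁻¹ := by
    rw [div_eq_mul_inv, ← mul_assoc]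
    congr 1
    rw [ha', mul_comm a, mul_inv_cancel_left]
  exact hcomm.symm

/-- **hsurj, strong form**: if `p • c` is in the image of `π` then so is `c`. -/
theorem pta_hsurj_strong (hpS : pPrime p ∈ S) (c : ptj_CS S) (j : pta_EJ S)
    (hj : pta_Eπ S j = p • c) : ∃ x : pta_EJ S, pta_Eπ S x = c := by
  obtain ⟨cm, rfl⟩ := ptj_CSof.surjective c
  obtain ⟨a, rfl⟩ := ptj_CSmk_surjective cm
  rw [pta_Eπ_apply, ← ptj_CSof_pow, ← map_pow] at hj
  have h1 : ptj_CSmk S ⟨(j.toMul : ptj_J Qbar), pta_JSS_le_JS j.toMul.2⟩ = ptj_CSmk S (a ^ p) :=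
    ptj_CSof.injective hj
  have h2 : ptj_CSmk S (a ^ p * (⟨(j.toMul : ptj_J Qbar), pta_JSS_le_JS j.toMul.2⟩)⁻¹) = 1 := by
    rw [map_mul, map_inv, h1, mul_inv_cancel]
  rw [ptj_CSmk_eq_one_iff] at h2
  have h3 : (a : ptj_J Qbar) ^ p * ((j.toMul : ↥(pta_JSS S)) : ptj_J Qbar)⁻¹ ∈ ptj_NS S := h2
  obtain ⟨j', hj', hrel⟩ := pta_capitulation hpS a.2 (j.toMul.2.2) h3
  refine ⟨Additive.ofMul ⟨j', hj'⟩, ?_⟩
  rw [pta_Eπ_apply]
  congr 1
  symm
  rw [← mul_inv_eq_one, ← map_inv, ← map_mul, ptj_CSmk_eq_one_iff]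
  exact hrel

/-- **hsurj**: every `p`-torsion class of `𝒞_S` is the class of an `S`-supported smooth idele. -/
theorem pta_hsurj (hpS : pPrime p ∈ S) (c : ptj_CS S) (hc : p • c = 0) :
    ∃ x : pta_EJ S, pta_Eπ S x = c :=
  pta_hsurj_strong hpS c 0 (by rw [map_zero, hc])

/-- **(EM)**: the S-track datum on the big global modules. -/
def pta_EMod (p : ℕ) [Fact p.Prime] {S : Finset Nat.Primes} (hpS : pPrime p ∈ S) : pts_EMod p S :=
  pta_EMod_of p hpS (pta_hsurj hpS) (fun e he => pta_hdiv hpS e he)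

end Fermat.Agent.Lib.PT

end
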