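/-
S55 long haul, (EM) part K: the cokernel of `π` (`= colim Cl_S(F)`) is torsion of order prime to
`p`: **cl**.  Part 1 (pure ideal theory + embedding model): for a number field `K` with class
number `h`, the `h`-th power of every idele is, in absolute value, principal.
-/
import Fermat.Agent.Lib.PT.GPlaceClC

set_option autoImplicit false
set_option linter.unusedVariables false
set_option linter.unusedSectionVars false
set_option linter.style.haveILetI false

noncomputable section

namespace Fermat.Agent.Lib.PT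

open IsDedekindDomain NumberField
open scoped nonZeroDivisors

section ideal

variable (K : Type*) [Field K] [NumberField K]

/-- the `h`-th power of a prime is principal, `h` the class number: a generator -/
theorem pta_exists_pow_generator (v : HeightOneSpectrum (𝓞 K)) :
    ∃ π : Kˣ, v.valuation K (π : K) = WithZero.exp (-(Fintype.card (ClassGroup (𝓞 K)) : ℤ)) ∧
      ∀ w : HeightOneSpectrum (𝓞 K), w ≠ v → w.valuation K (π : K) = 1 := by
  classical
  set h : ℕ := Fintype.card (ClassGroup (𝓞 K)) with hh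
  set V : (Ideal (𝓞 K))⁰ := ⟨v.asIdeal, mem_nonZeroDivisors_iff_ne_zero.mpr v.ne_bot⟩ with hV
  have hone : ClassGroup.mk0 (V ^ h) = 1 := by
    rw [map_pow, hh]
    exact pow_card_eq_one
  have hprinc : Submodule.IsPrincipal ((V ^ h : (Ideal (𝓞 K))⁰) : Ideal (𝓞 K)) :=
    (ClassGroup.mk0_eq_one_iff (V ^ h).2).mp hone
  obtain ⟨π₀, hπ₀⟩ := hprinc.principal
  have hspan : Ideal.span {π₀} = v.asIdeal ^ h := by
    have : ((V ^ h : (Ideal (𝓞 K))⁰) : Ideal (𝓞 K)) = v.asIdeal ^ h := rfl
    rw [← this, hπ₀]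
  have hπ₀0 : π₀ ≠ 0 := by
    rintro rfl
    have h0 : v.asIdeal ^ h = ⊥ := by
      rw [← hspan]; simp
    exact pow_ne_zero h v.ne_bot h0
  have hπK : algebraMap (𝓞 K) K π₀ ≠ 0 := by
    rw [Ne, map_eq_zero_iff _ (FaithfulSMul.algebraMap_injective (𝓞 K) K)]
    exact hπ₀0
  refine ⟨Units.mk0 (algebraMap (𝓞 K) K π₀) hπK, ?_, ?_⟩
  · rw [Units.val_mk0, HeightOneSpectrum.valuation_of_algebraMap]
    have h1 : v.intValuation π₀ ≤ WithZero.exp (-((h : ℕ) : ℤ)) := by
      rw [HeightOneSpectrum.intValuation_le_pow_iff_dvd, hspan]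
    have h2 : ¬ v.intValuation π₀ ≤ WithZero.exp (-((h + 1 : ℕ) : ℤ)) := by
      rw [HeightOneSpectrum.intValuation_le_pow_iff_dvd, hspan]
      intro hdvd
      have hle : v.asIdeal ^ h ≤ v.asIdeal ^ (h + 1) := Ideal.le_of_dvd hdvd
      have hlt : v.asIdeal ^ (h + 1) < v.asIdeal ^ h :=
        Ideal.pow_right_strictAnti v.asIdeal v.ne_bot v.isPrime.ne_top (Nat.lt_succ_self h)
      exact absurd hle (not_le_of_gt hlt)
    have h0 : v.intValuation π₀ ≠ 0 := v.intValuation_ne_zero π₀ hπ₀0
    rw [← WithZero.exp_log h0] at h1 h2 ⊢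
    rw [WithZero.exp_le_exp] at h1 h2
    congr 1
    push_cast at h1 h2
    omega
  · intro w hwv
    rw [Units.val_mk0, HeightOneSpectrum.valuation_of_algebraMap]
    apply le_antisymm (w.intValuation_le_one π₀)
    rw [← not_lt, HeightOneSpectrum.intValuation_lt_one_iff_dvd, hspan]
    intro hdvd
    have h := w.prime.dvd_of_dvd_pow hdvd
    apply hwv
    have hle : v.asIdeal ≤ w.asIdeal := Ideal.le_of_dvd h
    exact (HeightOneSpectrum.ext (v.isMaximal.eq_of_le w.isPrime.ne_top hle)).symm

/-- prescribed valuations (multiples of the class number) at finitely many primes -/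
theorem pta_exists_vals_eq_mul (W : Finset (HeightOneSpectrum (𝓞 K)))
    (m : HeightOneSpectrum (𝓞 K) → ℤ) :
    ∃ x : Kˣ, (∀ v ∈ W, v.valuation K (x : K) =
        WithZero.exp ((Fintype.card (ClassGroup (𝓞 K)) : ℤ) * m v)) ∧
      ∀ w : HeightOneSpectrum (𝓞 K), w ∉ W → w.valuation K (x : K) = 1 := by
  classical
  induction W using Finset.induction_on with
  | empty => exact ⟨1, by simp, fun w _ => by simp⟩
  | insert v W hvW ih =>
    obtain ⟨x, hx1, hx2⟩ := ih
    obtain ⟨π, hπ, hπ'⟩ := pta_exists_pow_generator K v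
    refine ⟨x * π ^ (-m v), ?_, ?_⟩
    · intro w hw
      rw [Units.val_mul, map_mul, Units.val_zpow_eq_zpow_val, map_zpow₀]
      rcases Finset.mem_insert.mp hw with rfl | hw
      · rw [hx2 w hvW, hπ, one_mul, ← WithZero.exp_zsmul]
        congr 1
        simp
        ring
      · have hwv : w ≠ v := fun h => hvW (h ▸ hw)
        rw [hx1 w hw, hπ' w hwv, one_zpow, mul_one]
    · intro w hwW
      have hwv : w ≠ v := fun h => hwW (h ▸ Finset.mem_insert_self v W)
      have hwW' : w ∉ W := fun h => hwW (Finset.mem_insert_of_mem h)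
      rw [Units.val_mul, map_mul, Units.val_zpow_eq_zpow_val, map_zpow₀, hx2 w hwW',
        hπ' w hwv, one_zpow, one_mul]

end ideal

variable {K : Type*} [Field K] [NumberField K]

/-- **finiteness of the class group, embedding model**: the `h`-th power of any idele has the
absolute values of a principal idele (`h` the class number). -/
theorem pta_exists_principal_pow (f : ptj_J K) :
    ∃ x : Kˣ, ∀ (q : Nat.Primes) (σ : ptj_Emb K q),
      ‖σ (x : K)‖ = ‖(((f : ptj_Amb K) q σ : (ptj_Om q)ˣ) : ptj_Om q)‖ ^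
        Fintype.card (ClassGroup (𝓞 K)) := by
  classical
  set h : ℕ := Fintype.card (ClassGroup (𝓞 K)) with hh
  obtain ⟨T, hT⟩ := ptj_exists_mem_JT f
  set W : Finset (HeightOneSpectrum (𝓞 K)) :=
    T.biUnion (fun q => (Finset.univ : Finset (ptj_Emb K q)).image cfh_primeOf) with hW
  choose y hy using ptk_exists_same_norm f
  have hval0 : ∀ v : HeightOneSpectrum (𝓞 K), v.valuation K ((y v : Kˣ) : K) ≠ 0 := fun v =>
    (Valuation.ne_zero_iff _).mpr (Units.ne_zero _)
  obtain ⟨x, hx1, hx2⟩ := pta_exists_vals_eq_mul K W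
    (fun v => (v.valuation K ((y v : Kˣ) : K)).log)
  refine ⟨x, fun q σ => ?_⟩
  set v := cfh_primeOf σ with hv
  by_cases hvW : v ∈ W
  · have h1 : v.valuation K (x : K) = v.valuation K ((y v : Kˣ) : K) ^ h := by
      rw [hx1 v hvW]
      conv_rhs => rw [← WithZero.exp_log (hval0 v)]
      rw [← WithZero.exp_nsmul]
      congr 1
    have h2 : v.valuation K ((x : K) / ((y v : Kˣ) : K) ^ h) = 1 := by
      rw [map_div₀, map_pow, h1, div_self (pow_ne_zero _ (hval0 v))]
    have h3 := (cfh_norm_eq_one_iff σ ((x : K) / ((y v : Kˣ) : K) ^ h)).mpr h2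
    rw [map_div₀, norm_div, map_pow, norm_pow, div_eq_one_iff_eq
      (pow_ne_zero _ (norm_ne_zero_iff.mpr ((map_ne_zero σ).mpr (Units.ne_zero (y v)))))] at h3
    rw [h3, hy v q σ rfl]
  · have hqT : q ∉ T := by
      intro hqT
      apply hvW
      rw [hW, Finset.mem_biUnion]
      exact ⟨q, hqT, Finset.mem_image_of_mem _ (Finset.mem_univ σ)⟩
    rw [hT q hqT σ, one_pow]
    exact (cfh_norm_eq_one_iff σ (x : K)).mpr (hx2 v hvW)

end Fermat.Agent.Lib.PT

end
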