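/-
S55 long haul, (EM) part L: **cl**: the cokernel of `π : 𝒥_S^S → 𝒞_S` (`= colim Cl_S(F)`) is
torsion of order prime to `p`.
-/
import Fermat.Agent.Lib.PT.GModEModJ
import Fermat.Agent.Lib.PT.GModEModK

set_option autoImplicit false
set_option linter.unusedVariables false
set_option linter.unusedSectionVars false
set_option linter.style.haveILetI false

noncomputable section

namespace Fermat.Agent.Lib.PT

open IntermediateField ExtCitation NumberField

local notation "Qbar" => AlgebraicClosure ℚ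
local notation "GQ" => (AlgebraicClosure ℚ ≃ₐ[ℚ] AlgebraicClosure ℚ)

attribute [local instance] pta_CSAction

variable {S : Finset Nat.Primes}

/-- a smooth idele `a'` which is a unit outside `S` is congruent to its `S`-part modulo relations:
if `b = diag x * a'` with `x ∈ ℚ_S` then `b / Spart a'` is a relation -/
lemma pta_div_Spart_mem_NS {a' : ptj_J Qbar} (ha'JS : a' ∈ ptj_JS S)
    (ha'JT : a' ∈ ptj_JT Qbar S) {x : Qbarˣ} (hx : x ∈ ptj_QS S) :
    ptj_diag Qbar x * a' * (pta_Spart S a')⁻¹ ∈ ptj_NS S := by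
  rw [ptj_mem_NS_iff]
  refine ⟨x, hx, a' / pta_Spart S a', ⟨pta_div_Spart_mem_UT S ha'JT,
    (ptj_JS S).div_mem ha'JS (pta_Spart_mem_JS S ha'JS)⟩, ?_⟩
  rw [div_eq_mul_inv, mul_assoc]

/-- **finiteness of the class group, big model**: some nonzero multiple of every class of `𝒞_S`
is the class of an `S`-supported smooth idele. -/
theorem pta_exists_smul_mem_range (c : ptj_CS S) :
    ∃ n : ℕ, n ≠ 0 ∧ ∃ j : pta_EJ S, pta_Eπ S j = n • c := by
  obtain ⟨cm, rfl⟩ := ptj_CSof.surjective c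
  obtain ⟨a, rfl⟩ := ptj_CSmk_surjective cm
  obtain ⟨F, hF, g, hg⟩ := (ptj_mem_JS_iff_exists_up (a : ptj_J Qbar)).1 a.2
  haveI := hF.1
  haveI hN : NumberField ↥F := ⟨⟩
  set n : ℕ := Fintype.card (ClassGroup (𝓞 ↥F)) with hn
  have hn0 : n ≠ 0 := Fintype.card_ne_zero
  obtain ⟨x, hx⟩ := pta_exists_principal_pow g
  set xQ : Qbarˣ := Units.map (algebraMap ↥F Qbar : ↥F →* Qbar) x with hxQ
  have hxQS : xQ ∈ ptj_QS S := ⟨F, hF, (x : ↥F).2⟩
  set a' : ptj_J Qbar := (a : ptj_J Qbar) ^ n * (ptj_diag Qbar xQ)⁻¹ with ha'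
  have ha'JS : a' ∈ ptj_JS S :=
    (ptj_JS S).mul_mem ((ptj_JS S).pow_mem a.2 n) ((ptj_JS S).inv_mem (ptj_diag_mem_JS hxQS))
  have ha'JT : a' ∈ ptj_JT Qbar S := by
    intro q hq σ
    have hcoe : ((((a' : ptj_J Qbar) : ptj_Amb Qbar) q σ : (ptj_Om q)ˣ) : ptj_Om q) =
        (((g : ptj_Amb ↥F) q (ptj_resEmb (F := ↥F) σ) : (ptj_Om q)ˣ) : ptj_Om q) ^ n *
          (ptj_resEmb (F := ↥F) σ (x : ↥F))⁻¹ := by
      rw [ha', ← hg]
      show ((((ptj_up ↥F Qbar g : ptj_J Qbar) : ptj_Amb Qbar) q σ) ^ n *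
        ((ptj_diagAmb xQ q σ))⁻¹ : (ptj_Om q)ˣ).1 = _
      rw [Units.val_mul, Units.val_inv_eq_inv_val, ptj_diagAmb_apply, Units.val_pow_eq_pow_val]
      rfl
    rw [hcoe, norm_mul, norm_inv, norm_pow, hx q (ptj_resEmb (F := ↥F) σ)]
    refine mul_inv_cancel₀ (pow_ne_zero _ ?_)
    exact norm_ne_zero_iff.2 (Units.ne_zero _)
  refine ⟨n, hn0, Additive.ofMul ⟨pta_Spart S a', pta_Spart_mem_JSS ha'JS⟩, ?_⟩
  rw [pta_Eπ_apply, ← ptj_CSof_pow, ← map_pow]
  congr 1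
  symm
  rw [← mul_inv_eq_one, ← map_inv, ← map_mul, ptj_CSmk_eq_one_iff]
  show (a : ptj_J Qbar) ^ n * (pta_Spart S a')⁻¹ ∈ ptj_NS S
  have h1 := pta_div_Spart_mem_NS ha'JS ha'JT hxQS
  have h2 : ptj_diag Qbar xQ * a' = (a : ptj_J Qbar) ^ n := by
    rw [ha', mul_comm ((a : ptj_J Qbar) ^ n), mul_inv_cancel_left]
  rw [h2] at h1
  exact h1

variable {p : ℕ} [Fact p.Prime]

/-- **cl**: for every class `c` of `𝒞_S` some multiple `m • c`, `p ∤ m`, is the class of an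
`S`-supported smooth idele. -/
theorem pta_cl (hpS : pPrime p ∈ S) (c : ptj_CS S) :
    ∃ m : ℕ, ¬ p ∣ m ∧ ∃ j : pta_EJ S, pta_Eπ S j = m • c := by
  have hp : p.Prime := Fact.out
  obtain ⟨n, hn0, j, hj⟩ := pta_exists_smul_mem_range c
  obtain ⟨k, m, hm, rfl⟩ := Nat.exists_eq_pow_mul_and_not_dvd hn0 p hp.ne_one
  refine ⟨m, hm, ?_⟩
  clear hn0
  induction k generalizing j with
  | zero =>
    rw [pow_zero, one_mul] at hj
    exact ⟨j, hj⟩
  | succ k ih =>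
    have h1 : pta_Eπ S j = p • ((p ^ k * m) • c) := by
      rw [hj, ← mul_smul, pow_succ]
      congr 1
      ring
    obtain ⟨j', hj'⟩ := pta_hsurj_strong hpS _ j h1
    exact ih j' hj'

end Fermat.Agent.Lib.PT

end
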