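/-
S55 (Poitou–Tate long-haul), S-track, part (D)/(A)/(C) packaging, first file: pushing level
cocycles forward along equivariant additive maps and pulling them back along group homomorphisms,
in the big-group vocabulary of `AdtLevels`/`AdtDefs`; the value `inv (f ∘ z)` is biadditive and
kills coboundaries.
-/
import Mathlib
import Fermat.Agent.Lib.PT.AdtDefs

set_option autoImplicit false
set_option linter.unusedSectionVars false

namespace Fermat.Agent.Lib.PT

section Push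

variable {G : Type*} [Group G] (𝓛 : ptd_Levels G)
variable {k : Type*} [CommRing k] {M : Type*} [AddCommGroup M] [Module k M]
variable {ρM : Representation k G M}
variable {C : Type*} [AddCommGroup C] {ρC : Representation ℤ G C}

lemma pts_isZ2_map {f : M →+ C} (hf : ptd_IsEquivariant ρC ρM f) {z : G × G → M}
    (hz : ptd_IsZ2 ρM z) : ptd_IsZ2 ρC (fun x => f (z x)) := by
  intro g h j
  have := congrArg f (hz g h j)
  rw [map_add, map_add, hf g (z (h, j))] at this
  exact this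

lemma pts_isLZ2_map {f : M →+ C} (hf : ptd_IsEquivariant ρC ρM f) {z : G × G → M}
    (hz : ptd_IsLZ2 𝓛 ρM z) : ptd_IsLZ2 𝓛 ρC (fun x => f (z x)) :=
  ⟨pts_isZ2_map hf hz.1, hz.2.comp f⟩

lemma pts_d1_map {f : M →+ C} (hf : ptd_IsEquivariant ρC ρM f) (φ : G → M) :
    (fun x => f (ptd_d1 ρM φ x)) = ptd_d1 ρC (fun g => f (φ g)) := by
  funext ⟨g, h⟩
  simp only [ptd_d1_apply, map_add, map_sub]
  rw [hf g (φ h)]

lemma pts_isB2_map {f : M →+ C} (hf : ptd_IsEquivariant ρC ρM f) {z : G × G → M}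
    (hz : ptd_IsB2 𝓛 ρM z) : ptd_IsB2 𝓛 ρC (fun x => f (z x)) := by
  obtain ⟨φ, hφ, rfl⟩ := hz
  exact ⟨fun g => f (φ g), hφ.comp f, pts_d1_map hf φ⟩

/-- If `M` is killed by `p`, the push-forward of a level cocycle has `p`-torsion class. -/
lemma pts_isLZ2p_map {p : ℕ} (hp : ∀ m : M, p • m = 0) {f : M →+ C}
    (hf : ptd_IsEquivariant ρC ρM f) {z : G × G → M} (hz : ptd_IsLZ2 𝓛 ρM z) :
    ptd_IsLZ2p 𝓛 ρC p (fun x => f (z x)) := by
  refine ⟨pts_isLZ2_map 𝓛 hf hz, ?_⟩
  have h0 : (p • fun x => f (z x)) = 0 := by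
    funext x
    simp only [Pi.smul_apply, Pi.zero_apply]
    rw [← map_nsmul, hp, map_zero]
  rw [h0]
  exact ptd_isB2_zero

variable {T : Type*} [AddCommGroup T] {p : ℕ} (inv : ptd_Inv 𝓛 ρC T p)

lemma pts_inv_zero : inv (0 : G × G → C) = 0 :=
  inv.map_b2' 0 ptd_isB2_zero

/-- Additivity of `inv (f ∘ z)` in `z`. -/
lemma pts_inv_map_add (hp : ∀ m : M, p • m = 0) {f : M →+ C} (hf : ptd_IsEquivariant ρC ρM f)
    {z z' : G × G → M} (hz : ptd_IsLZ2 𝓛 ρM z) (hz' : ptd_IsLZ2 𝓛 ρM z') :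
    inv (fun x => f ((z + z') x)) = inv (fun x => f (z x)) + inv (fun x => f (z' x)) := by
  rw [← inv.map_add' _ _ (pts_isLZ2p_map 𝓛 hp hf hz) (pts_isLZ2p_map 𝓛 hp hf hz')]
  congr 1
  funext x
  simp only [Pi.add_apply, map_add]

/-- Additivity of `inv (f ∘ z)` in `f`. -/
lemma pts_inv_add_map (hp : ∀ m : M, p • m = 0) {f f' : M →+ C}
    (hf : ptd_IsEquivariant ρC ρM f) (hf' : ptd_IsEquivariant ρC ρM f')
    {z : G × G → M} (hz : ptd_IsLZ2 𝓛 ρM z) :
    inv (fun x => (f + f') (z x)) = inv (fun x => f (z x)) + inv (fun x => f' (z x)) := by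
  rw [← inv.map_add' _ _ (pts_isLZ2p_map 𝓛 hp hf hz) (pts_isLZ2p_map 𝓛 hp hf' hz)]
  congr 1

/-- `inv (f ∘ z) = 0` for a level coboundary `z`. -/
lemma pts_inv_map_b2 {f : M →+ C} (hf : ptd_IsEquivariant ρC ρM f)
    {z : G × G → M} (hz : ptd_IsB2 𝓛 ρM z) : inv (fun x => f (z x)) = 0 :=
  inv.map_b2' _ (pts_isB2_map 𝓛 hf hz)

end Push

section Pull

variable {G H : Type*} [Group G] [Group H] (r : H →* G)
variable {k : Type*} [CommRing k] {A : Type*} [AddCommGroup A] [Module k A]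
variable (ρ : Representation k G A)

/-- Pull-back of a 2-cocycle along a group homomorphism. -/
lemma pts_isZ2_comap {z : G × G → A} (hz : ptd_IsZ2 ρ z) :
    ptd_IsZ2 (ρ.comp r) (fun x : H × H => z (r x.1, r x.2)) := by
  intro g h j
  have := hz (r g) (r h) (r j)
  simp only [map_mul, MonoidHom.comp_apply] at this ⊢
  exact this

end Pull

end Fermat.Agent.Lib.PT
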