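/-
S55 (Poitou–Tate long-haul), S-track, abstract part (E), fourth file.

For `𝒢 : pts_EMod p S` and a finite `M` trivialised by an `S`-level, with
`M' = M.dualTwist (cycloChar p)`:
* `cls F ∈ Ш¹_S(M')` for every quasi-equivariant `F` (given `H¹(ℝ, M') = 0`), and every class of
  `Ш¹_S(M')` is of this form;
* the `ZMod p`-linear maps `j : ⊕_v H⁰(ℚ_v, M') → Hom_G(M, C)` and `δ : Hom_G(M, C) → H¹(G_ℚ, M')`
  with `ker δ = im j` and `im δ = Ш¹_S(M')`.
-/
import Mathlib
import Fermat.Agent.Lib.PT.SeqECoind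

set_option autoImplicit false
set_option linter.unusedSectionVars false

namespace Fermat.Agent.Lib.PT

open CategoryTheory groupCohomology ExtCitation

local notation "Qbar" => AlgebraicClosure ℚ
local notation "GQ" => (AlgebraicClosure ℚ ≃ₐ[ℚ] AlgebraicClosure ℚ)

/-- Additive maps between `ZMod p`-vector spaces are linear (version of
`AddMonoidHom.toZModLinearMap` whose instance arguments are elaborated with `p` prime). -/
def pts_zmodLin {p : ℕ} [Fact p.Prime] {A B : Type*} [AddCommGroup A] [AddCommGroup B]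
    [Module (ZMod p) A] [Module (ZMod p) B] (f : A →+ B) : A →ₗ[ZMod p] B where
  toFun := f
  map_add' := map_add f
  map_smul' := fun c x => by
    obtain ⟨n, rfl⟩ : ∃ n : ℕ, (n : ZMod p) = c := ⟨c.val, ZMod.natCast_zmod_val c⟩
    rw [RingHom.id_apply, Nat.cast_smul_eq_nsmul, Nat.cast_smul_eq_nsmul, map_nsmul]

@[simp]
lemma pts_zmodLin_apply {p : ℕ} [Fact p.Prime] {A B : Type*} [AddCommGroup A] [AddCommGroup B]
    [Module (ZMod p) A] [Module (ZMod p) B] (f : A →+ B) (x : A) :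
    pts_zmodLin (p := p) f x = f x := rfl

/-- Instance helper (type-class synthesis does not see through the constructor): the group
structure of the local Galois group at a finite place. -/
@[reducible] noncomputable def pts_instGroupInr (S : Finset Nat.Primes) (q : ↥S) :
    Group (extArithLocalGroups S (Sum.inr q)) :=
  ExtCitation.instGroupExtArithLocalGroups S (Sum.inr q)

/-- Instance helper: the group structure of the archimedean decomposition group. -/
@[reducible] noncomputable def pts_instGroupInl (S : Finset Nat.Primes) (u : Unit) :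
    Group (extArithLocalGroups S (Sum.inl u)) :=
  ExtCitation.instGroupExtArithLocalGroups S (Sum.inl u)

attribute [local instance] pts_instGroupInr pts_instGroupInl

namespace pts_EMod

variable {p : ℕ} [Fact p.Prime] {S : Finset Nat.Primes} (𝒢 : pts_EMod p S)
variable {M : Rep.{0} (ZMod p) GQ}

/-- The explicit cocycle identity in `M' = M.dualTwist (cycloChar p)`. -/
lemma cocycle_dualTwist_iff (c : GQ → (M.dualTwist (cycloChar p)).V) :
    c ∈ cocycles₁ (M.dualTwist (cycloChar p)) ↔ ∀ (g h : GQ) (m : M.V),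
      (c (g * h) : Module.Dual (ZMod p) M.V) m
        = (cycloChar p g : ZMod p) * (c h : Module.Dual (ZMod p) M.V) (M.ρ g⁻¹ m)
          + (c g : Module.Dual (ZMod p) M.V) m := by
  rw [mem_cocycles₁_iff]
  constructor
  · intro h g g' m
    have := LinearMap.congr_fun (h g g') m
    rw [this, Rep.dualTwist_ρ_apply]
    rfl
  · intro h g g'
    refine LinearMap.ext fun m => ?_
    rw [h g g' m, Rep.dualTwist_ρ_apply]
    rfl

/-- The restriction to `G_q` of the class of a cocycle vanishes iff the cocycle is a coboundary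
on `G_q`. -/
lemma map_H1π_eq_zero_iff (c : cocycles₁ (M.dualTwist (cycloChar p))) (q : Nat.Primes) :
    (groupCohomology.map (primeLocalToGlobal q)
        (𝟙 (Rep.res (primeLocalToGlobal q) (M.dualTwist (cycloChar p)))) 1).hom
        ((H1π (M.dualTwist (cycloChar p))).hom c) = 0
      ↔ ∃ φ : Module.Dual (ZMod p) M.V, ∀ (τ : primeLocalGaloisGroup q) (m : M.V),
          ((c : GQ → (M.dualTwist (cycloChar p)).V) (primeLocalToGlobal q τ) :
              Module.Dual (ZMod p) M.V) m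
            = (cycloChar p (primeLocalToGlobal q τ) : ZMod p)
                * φ (M.ρ (primeLocalToGlobal q τ)⁻¹ m) - φ m := by
  have h1 := H1π_comp_map_apply (primeLocalToGlobal q)
    (𝟙 (Rep.res (primeLocalToGlobal q) (M.dualTwist (cycloChar p)))) c
  change (groupCohomology.map (primeLocalToGlobal q)
        (𝟙 (Rep.res (primeLocalToGlobal q) (M.dualTwist (cycloChar p)))) 1).hom
        ((H1π (M.dualTwist (cycloChar p))).hom c) = _ at h1
  rw [h1]
  erw [H1π_eq_zero_iff]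
  constructor
  · rintro ⟨φ, hφ⟩
    refine ⟨φ, fun τ m => ?_⟩
    have h2 := congrFun hφ τ
    have h3 := LinearMap.congr_fun h2 m
    rw [d₀₁_hom_apply] at h3
    exact h3.symm
  · rintro ⟨φ, hφ⟩
    refine ⟨φ, funext fun τ => LinearMap.ext fun m => ?_⟩
    rw [d₀₁_hom_apply]
    exact (hφ τ m).symm

/-- The class of a quasi-equivariant map lies in `Ш¹_S(M')`. -/
theorem cls_mem_sha₁ [Module.Finite (ZMod p) M.V] (hM : TrivOnLevel S M)
    (hinf : ∀ y : H1 (Rep.res (extArithLoc S (Sum.inl ())) (M.dualTwist (cycloChar p))), y = 0)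
    (F : 𝒢.QE M) : 𝒢.cls M F ∈ sha₁ S (M.dualTwist (cycloChar p)) := by
  refine ⟨?_, ?_⟩
  · exact (mem_continuousH1S_iff S _ _).2 ⟨𝒢.coc M F, 𝒢.isLevelConstantS₁_coc hM F, rfl⟩
  · rw [SetLike.mem_coe, LinearMap.mem_ker]
    funext v
    rcases v with u | q
    · exact hinf _
    · change (groupCohomology.map (primeLocalToGlobal q.1)
        (𝟙 (Rep.res (primeLocalToGlobal q.1) (M.dualTwist (cycloChar p)))) 1).hom
        ((H1π (M.dualTwist (cycloChar p))).hom (𝒢.coc M F)) = 0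
      rw [map_H1π_eq_zero_iff]
      exact ⟨𝒢.coord F q, fun τ m => 𝒢.cocLin_loc F q τ m⟩

/-- Every class of `Ш¹_S(M')` is the class of a quasi-equivariant map. -/
theorem exists_cls_eq_of_mem_sha₁ (hM : TrivOnLevel S M)
    {x : H1 (M.dualTwist (cycloChar p))} (hx : x ∈ sha₁ S (M.dualTwist (cycloChar p))) :
    ∃ F : 𝒢.QE M, 𝒢.cls M F = x := by
  obtain ⟨hx1, hx2⟩ := hx
  obtain ⟨c, hc, rfl⟩ := (mem_continuousH1S_iff S _ _).1 hx1
  rw [SetLike.mem_coe, LinearMap.mem_ker] at hx2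
  have hloc : ∀ q : ↥S, ∃ φ : Module.Dual (ZMod p) M.V,
      ∀ (τ : primeLocalGaloisGroup q.1) (m : M.V),
        ((c : GQ → (M.dualTwist (cycloChar p)).V) (primeLocalToGlobal q.1 τ) :
            Module.Dual (ZMod p) M.V) m
          = (cycloChar p (primeLocalToGlobal q.1 τ) : ZMod p)
              * φ (M.ρ (primeLocalToGlobal q.1 τ)⁻¹ m) - φ m := fun q => by
    rw [← map_H1π_eq_zero_iff]
    exact congrFun hx2 (Sum.inr q)
  choose φ hφ using hloc
  obtain ⟨F, hF1, -⟩ := 𝒢.exists_QE_of_locTriv hM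
    (fun g => ((c : GQ → (M.dualTwist (cycloChar p)).V) g : Module.Dual (ZMod p) M.V)) φ hc
    ((cocycle_dualTwist_iff _).1 c.2) hφ
  have hQE : F ∈ 𝒢.QE M := fun g m => ⟨_, hF1 g m⟩
  refine ⟨⟨F, hQE⟩, ?_⟩
  rw [cls_apply]
  congr 1
  apply Subtype.ext
  funext g
  change 𝒢.cocLin ⟨F, hQE⟩ g = _
  rw [cocLin_eq_iff]
  exact hF1 g

/-! ### The local terms and the map `j` -/

variable (S M) in
/-- `H⁰(ℚ_v, M')` as a submodule of `M'`. -/
noncomputable def P0 (v : extArithIndex S) : Submodule (ZMod p) (M.dualTwist (cycloChar p)).V :=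
  (Rep.res (extArithLoc S v) (M.dualTwist (cycloChar p))).ρ.invariants

lemma mem_P0_inr_iff (q : ↥S) (φ : (M.dualTwist (cycloChar p)).V) :
    φ ∈ P0 S M (Sum.inr q) ↔ ∀ (τ : primeLocalGaloisGroup q.1) (m : M.V),
      (cycloChar p (primeLocalToGlobal q.1 τ) : ZMod p)
        * (φ : Module.Dual (ZMod p) M.V) (M.ρ (primeLocalToGlobal q.1 τ)⁻¹ m)
        = (φ : Module.Dual (ZMod p) M.V) m := by
  constructor
  · intro h τ m
    have h1 := (Representation.mem_invariants _ _).1 h τ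
    have h2 := LinearMap.congr_fun h1 m
    exact h2
  · intro h
    refine (Representation.mem_invariants _ _).2 fun τ => LinearMap.ext fun m => ?_
    exact h τ m

/-- The coordinates of an equivariant map `M → J` are local invariants of `M'`. -/
lemma coord_mem_P0 (F : 𝒢.QE M) (hF : F.1 ∈ 𝒢.HomJ M) (q : ↥S) :
    (𝒢.coord F q : (M.dualTwist (cycloChar p)).V) ∈ P0 S M (Sum.inr q) := by
  rw [mem_P0_inr_iff]
  intro τ m
  have h := 𝒢.cocLin_loc F q τ m
  rw [(𝒢.mem_HomJ_iff_cocLin F).1 hF, LinearMap.zero_apply] at h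
  exact (sub_eq_zero.mp h.symm)

/-- Existence of the equivariant map with prescribed local invariants as coordinates. -/
lemma exists_jLift (hM : TrivOnLevel S M) (x0 : ∀ v, P0 S M v) :
    ∃ F : 𝒢.QE M, F.1 ∈ 𝒢.HomJ M ∧
      ∀ q : ↥S, 𝒢.coord F q = ((x0 (Sum.inr q)).1 : Module.Dual (ZMod p) M.V) := by
  obtain ⟨F, hF1, hF2⟩ := 𝒢.exists_QE_of_locTriv hM (fun _ => 0)
    (fun q => ((x0 (Sum.inr q)).1 : Module.Dual (ZMod p) M.V))
    (isLevelConstantS₁_const S _) (fun g h m => by simp)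
    (fun q τ m => by
      have := (mem_P0_inr_iff q _).1 (x0 (Sum.inr q)).2 τ m
      rw [this, sub_self]; rfl)
  have hQE : F ∈ 𝒢.QE M := fun g m => ⟨_, hF1 g m⟩
  refine ⟨⟨F, hQE⟩, ?_, fun q => LinearMap.ext fun m => hF2 q m⟩
  rw [mem_HomJ_iff_cocLin]
  intro g
  rw [cocLin_eq_iff]
  exact hF1 g

/-- The equivariant map `M → J` with coordinates `x0`. -/
noncomputable def jLift (hM : TrivOnLevel S M) (x0 : ∀ v, P0 S M v) : 𝒢.QE M :=
  (𝒢.exists_jLift hM x0).choose

lemma jLift_mem_HomJ (hM : TrivOnLevel S M) (x0 : ∀ v, P0 S M v) :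
    (𝒢.jLift hM x0).1 ∈ 𝒢.HomJ M := (𝒢.exists_jLift hM x0).choose_spec.1

lemma coord_jLift (hM : TrivOnLevel S M) (x0 : ∀ v, P0 S M v) (q : ↥S) :
    𝒢.coord (𝒢.jLift hM x0) q = ((x0 (Sum.inr q)).1 : Module.Dual (ZMod p) M.V) :=
  (𝒢.exists_jLift hM x0).choose_spec.2 q

lemma ev_jLift (hM : TrivOnLevel S M) (x0 : ∀ v, P0 S M v) (q : ↥S) (m : M.V) :
    𝒢.ev q ((𝒢.jLift hM x0).1 m) = ((x0 (Sum.inr q)).1 : Module.Dual (ZMod p) M.V) m := by
  rw [← coord_jLift, coord_apply]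

lemma cocLin_jLift (hM : TrivOnLevel S M) (x0 : ∀ v, P0 S M v) (g : GQ) :
    𝒢.cocLin (𝒢.jLift hM x0) g = 0 :=
  (𝒢.mem_HomJ_iff_cocLin _).1 (𝒢.jLift_mem_HomJ hM x0) g

lemma coord_add (F F' : 𝒢.QE M) (q : ↥S) : 𝒢.coord (F + F') q = 𝒢.coord F q + 𝒢.coord F' q := by
  refine LinearMap.ext fun m => ?_
  rw [LinearMap.add_apply, coord_apply, coord_apply, coord_apply, AddSubgroup.coe_add,
    AddMonoidHom.add_apply]
  exact 𝒢.ev_add q _ _ (tors_apply M F.1 m) (tors_apply M F'.1 m)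

lemma jLift_add (hM : TrivOnLevel S M) (x0 x0' : ∀ v, P0 S M v) :
    𝒢.jLift hM (x0 + x0') = 𝒢.jLift hM x0 + 𝒢.jLift hM x0' := by
  apply 𝒢.QE_ext
  · intro g
    rw [cocLin_add, cocLin_jLift, cocLin_jLift, cocLin_jLift, add_zero]
  · intro q
    rw [coord_add, coord_jLift, coord_jLift, coord_jLift]
    rfl

/-- `Hom_G(M, C)` is a `ZMod p`-vector space. -/
noncomputable instance instModuleHomC : Module (ZMod p) (𝒢.HomC M) :=
  AddCommGroup.zmodModule (fun f => Subtype.ext (AddMonoidHom.ext fun m => by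
    rw [AddSubgroup.coe_nsmul, AddMonoidHom.nsmul_apply]
    exact tors_apply M f.1 m))

/-- The map `j` as an additive map. -/
noncomputable def jAdd (hM : TrivOnLevel S M) : (∀ v, P0 S M v) →+ 𝒢.HomC M :=
  AddMonoidHom.mk' (fun x0 => 𝒢.toHomC M (𝒢.jLift hM x0)) (fun x0 x0' => by
    rw [jLift_add, map_add])

/-- The map `j : ⊕_v H⁰(ℚ_v, M') → Hom_G(M, C)` (the archimedean component is ignored). -/
noncomputable def jMap (hM : TrivOnLevel S M) : (∀ v, P0 S M v) →ₗ[ZMod p] 𝒢.HomC M where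
  toFun := 𝒢.jAdd hM
  map_add' := map_add _
  map_smul' := fun c x => by
    obtain ⟨n, rfl⟩ : ∃ n : ℕ, (n : ZMod p) = c := ⟨c.val, ZMod.natCast_zmod_val c⟩
    rw [RingHom.id_apply, Nat.cast_smul_eq_nsmul, Nat.cast_smul_eq_nsmul, map_nsmul]

lemma jMap_apply (hM : TrivOnLevel S M) (x0 : ∀ v, P0 S M v) :
    𝒢.jMap hM x0 = 𝒢.toHomC M (𝒢.jLift hM x0) := rfl

variable (M) in
/-- The connecting map `δ` as a `ZMod p`-linear map. -/
noncomputable def deltaL : 𝒢.HomC M →ₗ[ZMod p] H1 (M.dualTwist (cycloChar p)) :=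
  pts_zmodLin (𝒢.delta M)

lemma deltaL_apply (f : 𝒢.HomC M) : 𝒢.deltaL M f = 𝒢.delta M f := rfl

/-- **(E), first half**: `ker δ = im j`. -/
theorem ker_deltaL (hM : TrivOnLevel S M) :
    LinearMap.ker (𝒢.deltaL M) = LinearMap.range (𝒢.jMap hM) := by
  ext f
  rw [LinearMap.mem_ker, deltaL_apply, delta_eq_zero_iff, LinearMap.mem_range]
  constructor
  · rintro ⟨F, hF, hlift⟩
    have hQE : F ∈ 𝒢.QE M := 𝒢.HomJ_le_QE hF
    let x0 : ∀ v, P0 S M v := fun v =>
      match v with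
      | Sum.inl _ => 0
      | Sum.inr q => ⟨𝒢.coord ⟨F, hQE⟩ q, 𝒢.coord_mem_P0 ⟨F, hQE⟩ hF q⟩
    refine ⟨x0, ?_⟩
    have h1 : 𝒢.jLift hM x0 = ⟨F, hQE⟩ := by
      apply 𝒢.QE_ext
      · intro g
        rw [cocLin_jLift, (𝒢.mem_HomJ_iff_cocLin ⟨F, hQE⟩).1 hF g]
      · intro q
        rw [coord_jLift]
    rw [jMap_apply, h1]
    exact Subtype.ext (AddMonoidHom.ext fun m => hlift m)
  · rintro ⟨x0, rfl⟩
    exact ⟨(𝒢.jLift hM x0).1, 𝒢.jLift_mem_HomJ hM x0, fun m => rfl⟩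

/-- **(E), second half**: `im δ = Ш¹_S(M')`. -/
theorem range_deltaL [Module.Finite (ZMod p) M.V] (hM : TrivOnLevel S M)
    (hinf : ∀ y : H1 (Rep.res (extArithLoc S (Sum.inl ())) (M.dualTwist (cycloChar p))), y = 0) :
    LinearMap.range (𝒢.deltaL M) = sha₁ S (M.dualTwist (cycloChar p)) := by
  ext x
  rw [LinearMap.mem_range]
  constructor
  · rintro ⟨f, rfl⟩
    obtain ⟨F, rfl⟩ := 𝒢.toHomC_surjective f
    rw [deltaL_apply, delta_toHomC]
    exact 𝒢.cls_mem_sha₁ hM hinf F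
  · intro hx
    obtain ⟨F, rfl⟩ := 𝒢.exists_cls_eq_of_mem_sha₁ hM hx
    exact ⟨𝒢.toHomC M F, by rw [deltaL_apply, delta_toHomC]⟩

end pts_EMod

end Fermat.Agent.Lib.PT
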