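/-
S55 (Poitou–Tate long-haul), S-track: the map `a : Hom_G(M, C) → H²(G_S, M)^∨`,
`a f [z] = inv_G (f ∘ z)`, from a big-model invariant map `inv_G : ptd_Inv (pta_levelsS S) ρC`;
(A) = right-nondegeneracy from `ptd_NondegH2`, (B') = injectivity from `ptd_NondegHom`.
-/
import Mathlib
import Fermat.Agent.Lib.PT.SeqESha
import Fermat.Agent.Lib.PT.SeqDPush
import Fermat.Agent.Lib.PT.GLevelAdt

set_option autoImplicit false
set_option linter.unusedSectionVars false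

namespace Fermat.Agent.Lib.PT

open CategoryTheory groupCohomology ExtCitation Module

local notation "Qbar" => AlgebraicClosure ℚ
local notation "GQ" => (AlgebraicClosure ℚ ≃ₐ[ℚ] AlgebraicClosure ℚ)

namespace pts_EMod

variable {p : ℕ} [Fact p.Prime] {S : Finset Nat.Primes} (𝒢 : pts_EMod p S)
variable {M : Rep.{0} (ZMod p) GQ}

/-- The class module as an integral representation. -/
noncomputable abbrev ρC : Representation ℤ GQ 𝒢.C := Representation.ofDistribMulAction ℤ GQ 𝒢.C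

/-- The idele module as an integral representation. -/
noncomputable abbrev ρJ : Representation ℤ GQ 𝒢.J := Representation.ofDistribMulAction ℤ GQ 𝒢.J

lemma isEquivariant_of_mem_HomC {f : M.V →+ 𝒢.C} (hf : f ∈ 𝒢.HomC M) :
    ptd_IsEquivariant 𝒢.ρC M.ρ f := fun g m => hf g m

lemma mem_HomC_of_isEquivariant {f : M.V →+ 𝒢.C} (hf : ptd_IsEquivariant 𝒢.ρC M.ρ f) :
    f ∈ 𝒢.HomC M := fun g m => hf g m

lemma isEquivariant_of_mem_HomJ {F : M.V →+ 𝒢.J} (hF : F ∈ 𝒢.HomJ M) :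
    ptd_IsEquivariant 𝒢.ρJ M.ρ F := fun g m => hF g m

lemma isEquivariant_π : ptd_IsEquivariant 𝒢.ρC 𝒢.ρJ 𝒢.π := fun g x => 𝒢.π_smul g x

variable (M) in
lemma nsmul_eq_zero (m : M.V) : p • m = 0 := ZModModule.char_nsmul_eq_zero p m

variable (invG : ptd_Inv (pta_levelsS S) 𝒢.ρC (ZMod p) p)

/-- The functional `z ↦ inv_G (f ∘ z)` on level cocycles. -/
noncomputable def aCoc (f : 𝒢.HomC M) : ↥(levelCocyclesS₂ S M) →+ ZMod p :=
  AddMonoidHom.mk' (fun z => invG (fun x => f.1 ((z : GQ × GQ → M.V) x))) (fun z z' =>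
    pts_inv_map_add (pta_levelsS S) invG (nsmul_eq_zero M) (𝒢.isEquivariant_of_mem_HomC f.2)
      ((pta_isLZ2_iff M _).2 z.2) ((pta_isLZ2_iff M _).2 z'.2))

/-- The functional `[z] ↦ inv_G (f ∘ z)` on `continuousH2S S M`. -/
noncomputable def aFun (f : 𝒢.HomC M) : Dual (ZMod p) (continuousH2S S M) :=
  Submodule.liftQ _ (pts_zmodLin (𝒢.aCoc invG f)) (fun z hz => by
    rw [LinearMap.mem_ker, pts_zmodLin_apply]
    exact pts_inv_map_b2 (pta_levelsS S) invG (𝒢.isEquivariant_of_mem_HomC f.2)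
      ((pta_isB2_iff M _).2 hz))

lemma aFun_mk (f : 𝒢.HomC M) (z : ↥(levelCocyclesS₂ S M)) :
    𝒢.aFun invG f (continuousH2Sπ S M z) = invG (fun x => f.1 ((z : GQ × GQ → M.V) x)) := rfl

/-- **The map `a`** : `Hom_G(M, C) → H²(G_S, M)^∨`. -/
noncomputable def aMap : 𝒢.HomC M →ₗ[ZMod p] Dual (ZMod p) (continuousH2S S M) :=
  pts_zmodLin (AddMonoidHom.mk' (fun f => 𝒢.aFun invG f) (fun f f' => by
    refine LinearMap.ext fun x => ?_
    obtain ⟨z, rfl⟩ := Submodule.mkQ_surjective _ x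
    rw [LinearMap.add_apply]
    change 𝒢.aFun invG (f + f') (continuousH2Sπ S M z) = 𝒢.aFun invG f (continuousH2Sπ S M z)
      + 𝒢.aFun invG f' (continuousH2Sπ S M z)
    rw [aFun_mk, aFun_mk, aFun_mk]
    exact pts_inv_add_map (pta_levelsS S) invG (nsmul_eq_zero M)
      (𝒢.isEquivariant_of_mem_HomC f.2) (𝒢.isEquivariant_of_mem_HomC f'.2)
      ((pta_isLZ2_iff M _).2 z.2)))

lemma aMap_mk (f : 𝒢.HomC M) (z : ↥(levelCocyclesS₂ S M)) :
    𝒢.aMap invG f (continuousH2Sπ S M z) = invG (fun x => f.1 ((z : GQ × GQ → M.V) x)) := rfl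

/-- (A): right-nondegeneracy of `a` from `ptd_NondegH2`. -/
theorem aMap_right_nondeg (hAG : ptd_NondegH2 (pta_levelsS S) 𝒢.ρC invG M.ρ)
    (x : continuousH2S S M) (hx : ∀ f, 𝒢.aMap invG f x = 0) : x = 0 := by
  obtain ⟨z, rfl⟩ := Submodule.mkQ_surjective _ x
  refine pta_eq_zero_of_nondegH2 M 𝒢.ρC invG hAG z fun f hf => ?_
  exact hx ⟨f, 𝒢.mem_HomC_of_isEquivariant hf⟩

/-- (B'): injectivity of `a` from `ptd_NondegHom`. -/
theorem aMap_injective (hBG : ptd_NondegHom (pta_levelsS S) 𝒢.ρC invG M.ρ)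
    (f : 𝒢.HomC M) (hf : 𝒢.aMap invG f = 0) : f = 0 := by
  apply Subtype.ext
  refine hBG f.1 (𝒢.isEquivariant_of_mem_HomC f.2) fun z hz => ?_
  have := LinearMap.congr_fun hf (continuousH2Sπ S M ⟨z, (pta_isLZ2_iff M _).1 hz⟩)
  exact this

end pts_EMod

end Fermat.Agent.Lib.PT
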