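/-
S55 long haul, (EM) part M: the Kummer / capitulation package `ptd_GKummer` of the F4-global
theorem (helper3's `AdtBaseDefs`) for the big global modules, over any subgroup `U` of `G_ℚ`
fixing `μ_p`.
-/
import Fermat.Agent.Lib.PT.GModEModL
import Fermat.Agent.Lib.PT.AdtBaseDefs
import Fermat.Agent.Lib.PT.SeqDGlobal

set_option autoImplicit false
set_option linter.unusedVariables false
set_option linter.unusedSectionVars false
set_option linter.style.haveILetI false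

noncomputable section

namespace Fermat.Agent.Lib.PT

open IntermediateField ExtCitation NumberField

local notation "Qbar" => AlgebraicClosure ℚ
local notation "GQ" => (AlgebraicClosure ℚ ≃ₐ[ℚ] AlgebraicClosure ℚ)

variable {p : ℕ} [Fact p.Prime] {S : Finset Nat.Primes}

/-- the Kummer package over `U ≤ ker χ_cyc` from an S-track datum with `cl` -/
theorem pta_GKummer_of (𝒢 : pts_EMod p S)
    (hcl : ∀ c : 𝒢.C, ∃ m : ℕ, ¬ p ∣ m ∧ ∃ j : 𝒢.J, 𝒢.π j = m • c)
    (U : Subgroup GQ) (hU : U ≤ (cycloChar p).ker) :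
    ptd_GKummer p (ptd_resRep 𝒢.ρJ U) (ptd_resRep 𝒢.ρC U) 𝒢.π 𝒢.ζ where
  π_equiv g x := 𝒢.π_smul (g : GQ) x
  ζ_inj := 𝒢.ζ_inj
  π_ζ := 𝒢.π_ζ
  ζ_fix g a := by
    show (g : GQ) • 𝒢.ζ a = 𝒢.ζ a
    rw [𝒢.smul_ζ]
    have h1 : cycloChar p (g : GQ) = 1 := MonoidHom.mem_ker.1 (hU g.2)
    rw [h1, Units.val_one, one_mul]
  ker_tors := 𝒢.ker_tors
  ker_div := 𝒢.ker_div
  cl := hcl

/-- **the Kummer package for the big global modules** over `U ≤ ker χ_cyc` -/
theorem pta_GKummer (hpS : pPrime p ∈ S) (U : Subgroup GQ) (hU : U ≤ (cycloChar p).ker) :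
    ptd_GKummer p (ptd_resRep (pta_EMod p hpS).ρJ U) (ptd_resRep (pta_EMod p hpS).ρC U)
      (pta_EMod p hpS).π (pta_EMod p hpS).ζ :=
  pta_GKummer_of (pta_EMod p hpS) (fun c => pta_cl hpS c) U hU

end Fermat.Agent.Lib.PT

end
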