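/-
S55 (Poitou–Tate long-haul), GLOBAL FINITE-LEVEL DICTIONARY, abstract inflation package.
Data ("Form B"): a surjection `π : G → Γ`, a representation `N` of `Γ`, a representation `M` of `G`
and a linear equivalence `e : N ≃ M` with `e (γ̄ · n) = g · e n` for `γ̄ = π g`.
Inflation of inhomogeneous cochains is the Prelude's `cochainsPullPush₁/₂ π e`.
We prove: compatibility with the differentials, injectivity, "cocycle iff cocycle", descent of
`ker π`-invariant cochains, linear maps on cocycles and on `H¹`, `H²` (built with an explicit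
descent principle for maps out of `H¹`, `H²`), injectivity on `H¹`, and the description of the
kernel on `H²` by invariant primitives.
-/
import Mathlib
import Fermat.Prelude.Def_GroupCohomology_ContinuousH2Map
import Fermat.Agent.Lib.PT.GLevelAbs

set_option autoImplicit false
set_option linter.unusedSectionVars false

namespace Fermat.Agent.Lib.PT

open groupCohomology CategoryTheory

universe u

section descH

variable {k G : Type u} [CommRing k] [Group G] (A : Rep.{u} k G)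

lemma pta_H1π_surjective : Function.Surjective (H1π A).hom :=
  (ModuleCat.epi_iff_surjective _).1 inferInstance

lemma pta_H2π_surjective : Function.Surjective (H2π A).hom :=
  (ModuleCat.epi_iff_surjective _).1 inferInstance

/-- Linear maps out of `H¹`: a linear map on 1-cocycles killing the coboundaries. -/
noncomputable def pta_H1desc {Y : Type*} [AddCommGroup Y] [Module k Y]
    (ψ : cocycles₁ A →ₗ[k] Y) (h : ∀ x : cocycles₁ A, ⇑x ∈ coboundaries₁ A → ψ x = 0) :
    H1 A →ₗ[k] Y :=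
  (Submodule.liftQ _ ψ (fun x hx => by
      rw [LinearMap.mem_ker] at hx ⊢
      exact h x ((H1π_eq_zero_iff x).1 hx))) ∘ₗ
    (LinearMap.quotKerEquivOfSurjective (H1π A).hom (pta_H1π_surjective A)).symm.toLinearMap

lemma pta_H1desc_π {Y : Type*} [AddCommGroup Y] [Module k Y]
    (ψ : cocycles₁ A →ₗ[k] Y) (h : ∀ x : cocycles₁ A, ⇑x ∈ coboundaries₁ A → ψ x = 0)
    (x : cocycles₁ A) : pta_H1desc A ψ h ((H1π A).hom x) = ψ x := by
  have h1 : (LinearMap.quotKerEquivOfSurjective (H1π A).hom (pta_H1π_surjective A)).symm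
      ((H1π A).hom x) = Submodule.Quotient.mk x := by
    rw [LinearEquiv.symm_apply_eq]
    rfl
  simp only [pta_H1desc, LinearMap.comp_apply, LinearEquiv.coe_coe, h1]
  rfl

/-- Linear maps out of `H²`: a linear map on 2-cocycles killing the coboundaries. -/
noncomputable def pta_H2desc {Y : Type*} [AddCommGroup Y] [Module k Y]
    (ψ : cocycles₂ A →ₗ[k] Y) (h : ∀ x : cocycles₂ A, ⇑x ∈ coboundaries₂ A → ψ x = 0) :
    H2 A →ₗ[k] Y :=
  (Submodule.liftQ _ ψ (fun x hx => by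
      rw [LinearMap.mem_ker] at hx ⊢
      exact h x ((H2π_eq_zero_iff x).1 hx))) ∘ₗ
    (LinearMap.quotKerEquivOfSurjective (H2π A).hom (pta_H2π_surjective A)).symm.toLinearMap

lemma pta_H2desc_π {Y : Type*} [AddCommGroup Y] [Module k Y]
    (ψ : cocycles₂ A →ₗ[k] Y) (h : ∀ x : cocycles₂ A, ⇑x ∈ coboundaries₂ A → ψ x = 0)
    (x : cocycles₂ A) : pta_H2desc A ψ h ((H2π A).hom x) = ψ x := by
  have h1 : (LinearMap.quotKerEquivOfSurjective (H2π A).hom (pta_H2π_surjective A)).symm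
      ((H2π A).hom x) = Submodule.Quotient.mk x := by
    rw [LinearEquiv.symm_apply_eq]
    rfl
  simp only [pta_H2desc, LinearMap.comp_apply, LinearEquiv.coe_coe, h1]
  rfl

/-- Two linear maps out of `H¹` agreeing on classes of cocycles are equal. -/
lemma pta_H1_hom_ext {Y : Type*} [AddCommGroup Y] [Module k Y] {f g : H1 A →ₗ[k] Y}
    (h : ∀ x : cocycles₁ A, f ((H1π A).hom x) = g ((H1π A).hom x)) : f = g := by
  ext y
  obtain ⟨x, rfl⟩ := pta_H1π_surjective A y
  exact h x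

/-- Two linear maps out of `H²` agreeing on classes of cocycles are equal. -/
lemma pta_H2_hom_ext {Y : Type*} [AddCommGroup Y] [Module k Y] {f g : H2 A →ₗ[k] Y}
    (h : ∀ x : cocycles₂ A, f ((H2π A).hom x) = g ((H2π A).hom x)) : f = g := by
  ext y
  obtain ⟨x, rfl⟩ := pta_H2π_surjective A y
  exact h x

end descH

section formB

variable {k G Γ : Type u} [CommRing k] [Group G] [Group Γ] (π : G →* Γ)
  (hπ : Function.Surjective π) {N : Rep.{u} k Γ} {M : Rep.{u} k G} (e : N.V ≃ₗ[k] M.V)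
  (he : ∀ (g : G) (n : N.V), e (N.ρ (π g) n) = M.ρ g (e n))

/-- inflation of 1-cochains along `(π, e)` -/
noncomputable abbrev pta_inf₁ : (Γ → N.V) →ₗ[k] (G → M.V) :=
  cochainsPullPush₁ π (e : N.V →ₗ[k] M.V)

/-- inflation of 2-cochains along `(π, e)` -/
noncomputable abbrev pta_inf₂ : (Γ × Γ → N.V) →ₗ[k] (G × G → M.V) :=
  cochainsPullPush₂ π (e : N.V →ₗ[k] M.V)

lemma pta_inf₁_apply (x : Γ → N.V) (g : G) : pta_inf₁ π e x g = e (x (π g)) := rfl

lemma pta_inf₂_apply (x : Γ × Γ → N.V) (g h : G) : pta_inf₂ π e x (g, h) = e (x (π g, π h)) := rfl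

lemma pta_inf₁_eq (x : Γ → N.V) : pta_inf₁ π e x = pta_infl₁ π (e ∘ x) := rfl

lemma pta_inf₂_eq (x : Γ × Γ → N.V) : pta_inf₂ π e x = pta_infl₂ π (e ∘ x) := rfl

include hπ in
lemma pta_inf₁_injective : Function.Injective (pta_inf₁ π e) := by
  intro x y h
  funext γ
  obtain ⟨g, rfl⟩ := hπ γ
  exact e.injective (congrFun h g)

include hπ in
lemma pta_inf₂_injective : Function.Injective (pta_inf₂ π e) := by
  intro x y h
  funext ⟨γ, δ⟩
  obtain ⟨g, rfl⟩ := hπ γ
  obtain ⟨g', rfl⟩ := hπ δ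
  exact e.injective (congrFun h (g, g'))

include he in
/-- inflation commutes with `d₀₁` -/
lemma pta_inf₁_d₀₁ (n : N.V) : pta_inf₁ π e ((d₀₁ N).hom n) = (d₀₁ M).hom (e n) := by
  funext g
  simp only [pta_inf₁_apply, d₀₁_hom_apply, map_sub, he]

include he in
/-- inflation commutes with `d₁₂` -/
lemma pta_inf₂_d₁₂ (x : Γ → N.V) :
    pta_inf₂ π e ((d₁₂ N).hom x) = (d₁₂ M).hom (pta_inf₁ π e x) :=
  cochainsPullPush₂_d₁₂ π (e : N.V →ₗ[k] M.V) he x

include he in
/-- the inflation of a 1-cocycle is a 1-cocycle -/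
lemma pta_inf₁_mem_cocycles₁ {x : Γ → N.V} (hx : x ∈ cocycles₁ N) :
    pta_inf₁ π e x ∈ cocycles₁ M := by
  rw [mem_cocycles₁_def] at hx ⊢
  intro g g'
  have := hx (π g) (π g')
  simp only [pta_inf₁_apply, map_mul, ← he, ← map_sub, ← map_add, this, map_zero]

include hπ he in
/-- a cochain on `Γ` is a 1-cocycle iff its inflation is -/
lemma pta_inf₁_mem_cocycles₁_iff (x : Γ → N.V) :
    pta_inf₁ π e x ∈ cocycles₁ M ↔ x ∈ cocycles₁ N := by
  refine ⟨fun h => ?_, pta_inf₁_mem_cocycles₁ π e he⟩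
  rw [mem_cocycles₁_def] at h ⊢
  intro a b
  obtain ⟨g, rfl⟩ := hπ a
  obtain ⟨g', rfl⟩ := hπ b
  have := h g g'
  simp only [pta_inf₁_apply, map_mul, ← he, ← map_sub, ← map_add] at this
  exact e.injective (this.trans (map_zero e).symm)

include hπ he in
/-- a cochain on `Γ × Γ` is a 2-cocycle iff its inflation is -/
lemma pta_inf₂_mem_cocycles₂_iff (x : Γ × Γ → N.V) :
    pta_inf₂ π e x ∈ cocycles₂ M ↔ x ∈ cocycles₂ N := by
  rw [mem_cocycles₂_def, mem_cocycles₂_def]
  constructor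
  · intro h a b c
    obtain ⟨g, rfl⟩ := hπ a
    obtain ⟨g', rfl⟩ := hπ b
    obtain ⟨g'', rfl⟩ := hπ c
    have := h g g' g''
    simp only [pta_inf₂_apply, map_mul, ← he, ← map_sub, ← map_add] at this
    exact e.injective (this.trans (map_zero e).symm)
  · intro h g g' g''
    have := h (π g) (π g') (π g'')
    simp only [pta_inf₂_apply, map_mul, ← he, ← map_sub, ← map_add, this, map_zero]

lemma pta_rightInv₁_inf (x : Γ → N.V) : pta_RightInv₁ π (pta_inf₁ π e x) :=
  pta_rightInv₁_infl π (e ∘ x)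

lemma pta_rightInv₂_inf (x : Γ × Γ → N.V) : pta_RightInv₂ π (pta_inf₂ π e x) :=
  pta_rightInv₂_infl π (e ∘ x)

include hπ in
/-- descent: every `ker π`-invariant 1-cochain is an inflation -/
lemma pta_RightInv₁.exists_inf {f : G → M.V} (hf : pta_RightInv₁ π f) :
    ∃ x : Γ → N.V, pta_inf₁ π e x = f := by
  refine ⟨e.symm ∘ pta_desc₁ π hπ f, ?_⟩
  rw [pta_inf₁_eq]
  have : (e ∘ e.symm ∘ pta_desc₁ π hπ f) = pta_desc₁ π hπ f := by
    funext γ; simp
  rw [this, pta_infl₁_desc₁ π hπ hf]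

include hπ in
/-- descent: every `ker π`-invariant 2-cochain is an inflation -/
lemma pta_RightInv₂.exists_inf {f : G × G → M.V} (hf : pta_RightInv₂ π f) :
    ∃ x : Γ × Γ → N.V, pta_inf₂ π e x = f := by
  refine ⟨e.symm ∘ pta_desc₂ π hπ f, ?_⟩
  rw [pta_inf₂_eq]
  have : (e ∘ e.symm ∘ pta_desc₂ π hπ f) = pta_desc₂ π hπ f := by
    funext γ; simp
  rw [this, pta_infl₂_desc₂ π hπ hf]

/-- inflation on 1-cocycles -/
noncomputable def pta_infZ1 : cocycles₁ N →ₗ[k] cocycles₁ M :=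
  ((pta_inf₁ π e).comp (cocycles₁ N).subtype).codRestrict (cocycles₁ M) (fun x =>
    pta_inf₁_mem_cocycles₁ π e he x.2)

lemma pta_infZ1_coe (x : cocycles₁ N) :
    ((pta_infZ1 π e he x : cocycles₁ M) : G → M.V) = pta_inf₁ π e (x : Γ → N.V) := rfl

/-- inflation on 2-cocycles -/
noncomputable def pta_infZ2 : cocycles₂ N →ₗ[k] cocycles₂ M :=
  ((pta_inf₂ π e).comp (cocycles₂ N).subtype).codRestrict (cocycles₂ M) (fun x =>
    cochainsPullPush₂_mem_cocycles₂ π (e : N.V →ₗ[k] M.V) he x.2)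

lemma pta_infZ2_coe (x : cocycles₂ N) :
    ((pta_infZ2 π e he x : cocycles₂ M) : G × G → M.V) = pta_inf₂ π e (x : Γ × Γ → N.V) := rfl

/-- inflation on `H¹` -/
noncomputable def pta_infH1 : H1 N →ₗ[k] H1 M :=
  pta_H1desc N ((H1π M).hom ∘ₗ pta_infZ1 π e he) (fun x hx => by
    obtain ⟨n, hn⟩ := hx
    rw [LinearMap.comp_apply]
    refine (H1π_eq_zero_iff _).2 ⟨e n, ?_⟩
    rw [pta_infZ1_coe, ← hn, pta_inf₁_d₀₁ π e he])

lemma pta_infH1_π (x : cocycles₁ N) :
    pta_infH1 π e he ((H1π N).hom x) = (H1π M).hom (pta_infZ1 π e he x) :=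
  pta_H1desc_π N _ _ x

/-- inflation on `H²` -/
noncomputable def pta_infH2 : H2 N →ₗ[k] H2 M :=
  pta_H2desc N ((H2π M).hom ∘ₗ pta_infZ2 π e he) (fun x hx => by
    obtain ⟨y, hy⟩ := hx
    rw [LinearMap.comp_apply]
    refine (H2π_eq_zero_iff _).2 ⟨pta_inf₁ π e y, ?_⟩
    rw [pta_infZ2_coe, ← hy, pta_inf₂_d₁₂ π e he])

lemma pta_infH2_π (x : cocycles₂ N) :
    pta_infH2 π e he ((H2π N).hom x) = (H2π M).hom (pta_infZ2 π e he x) :=
  pta_H2desc_π N _ _ x

include hπ he in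
/-- If the inflation of a 1-cochain is the coboundary of `m`, the cochain is the coboundary of
`e⁻¹ m`. -/
lemma pta_eq_d₀₁_of_inf₁_eq (x : Γ → N.V) (m : M.V) (h : pta_inf₁ π e x = (d₀₁ M).hom m) :
    x = (d₀₁ N).hom (e.symm m) := by
  apply pta_inf₁_injective π hπ e
  rw [h, pta_inf₁_d₀₁ π e he, LinearEquiv.apply_symm_apply]

include hπ he in
/-- inflation is injective on `H¹` -/
theorem pta_infH1_injective : Function.Injective (pta_infH1 π e he) := by
  rw [injective_iff_map_eq_zero]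
  intro y hy
  obtain ⟨x, rfl⟩ := pta_H1π_surjective N y
  rw [pta_infH1_π] at hy
  obtain ⟨m, hm⟩ := (H1π_eq_zero_iff _).1 hy
  rw [pta_infZ1_coe] at hm
  exact (H1π_eq_zero_iff _).2 ⟨e.symm m, (pta_eq_d₀₁_of_inf₁_eq π hπ e he _ m hm.symm).symm⟩

include hπ he in
/-- A 2-cocycle on `Γ` is a coboundary iff its inflation is the coboundary of a `ker π`-invariant
1-cochain. -/
theorem pta_mem_coboundaries₂_iff (x : Γ × Γ → N.V) :
    x ∈ coboundaries₂ N ↔
      ∃ f : G → M.V, pta_RightInv₁ π f ∧ (d₁₂ M).hom f = pta_inf₂ π e x := by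
  constructor
  · rintro ⟨y, rfl⟩
    exact ⟨pta_inf₁ π e y, pta_rightInv₁_inf π e y, (pta_inf₂_d₁₂ π e he y).symm⟩
  · rintro ⟨f, hf, hfx⟩
    obtain ⟨y, rfl⟩ := hf.exists_inf π hπ e
    refine ⟨y, ?_⟩
    apply pta_inf₂_injective π hπ e
    rw [pta_inf₂_d₁₂ π e he, hfx]

end formB

end Fermat.Agent.Lib.PT
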