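/-
S55 (Poitou–Tate long-haul), GLOBAL FINITE-LEVEL DICTIONARY, cohomological part.
*Presented levels* `L : pta_Lev S M`: a level field `L.F`, a group `L.Γ` with a surjection
`L.π : Gal(Q̄/ℚ) → L.Γ` of kernel `Fix L.F`, and a model `L.rep : Rep k L.Γ` of `M` at that level
(`L.e : L.rep ≃ M` intertwining).  Any consumer may choose its own `Γ` (`Gal(F/ℚ)`, a quotient
group, ...) and its own model of `M`.
For every presented level: inflation maps `H¹(L.Γ, L.rep) → H¹(G, M)` (injective, with values in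
`continuousH1S S M`) and `H²(L.Γ, L.rep) → continuousH2S S M`; transition maps between levels;
compatibilities.
-/
import Mathlib
import Fermat.Prelude.Def_GroupCohomology_ContinuousUnramified
import Fermat.Agent.Lib.PT.GLevelField
import Fermat.Agent.Lib.PT.GLevelInf

set_option autoImplicit false
set_option linter.unusedSectionVars false

namespace Fermat.Agent.Lib.PT

open groupCohomology CategoryTheory

local notation "Qbar" => AlgebraicClosure ℚ
local notation "GQ" => (AlgebraicClosure ℚ ≃ₐ[ℚ] AlgebraicClosure ℚ)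

variable {k : Type} [CommRing k] (S : Finset Nat.Primes) (M : Rep.{0} k GQ)

/-- A *presented level* for `(S, M)`. -/
structure pta_Lev where
  /-- the level field -/
  F : IntermediateField ℚ Qbar
  isLevel : pta_IsLevel S M F
  /-- the finite Galois group, in any presentation -/
  Γ : Type
  [grp : Group Γ]
  /-- the projection from the absolute Galois group -/
  π : GQ →* Γ
  surj : Function.Surjective π
  ker_eq : π.ker = F.fixingSubgroup
  /-- a model of `M` as a representation of `Γ` -/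
  rep : Rep.{0} k Γ
  /-- comparison of carriers -/
  e : rep.V ≃ₗ[k] M.V
  comm : ∀ (g : GQ) (n : rep.V), e (rep.ρ (π g) n) = M.ρ g (e n)

attribute [instance] pta_Lev.grp

variable {S M}

namespace pta_Lev

variable (L L' L'' : pta_Lev S M)

lemma mem_ker_iff (s : GQ) : s ∈ L.π.ker ↔ s ∈ L.F.fixingSubgroup := by rw [L.ker_eq]

lemma triv (s : GQ) (hs : s ∈ L.π.ker) : M.ρ s = 1 := by
  rw [L.ker_eq] at hs
  exact MonoidHom.mem_ker.mp (L.isLevel.triv hs)

lemma finite : Finite L.Γ := by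
  have := L.isLevel.finiteIndex
  have h1 : Finite (GQ ⧸ L.π.ker) := by
    rw [L.ker_eq]
    exact Subgroup.finite_quotient_of_finiteIndex
  exact Finite.of_equiv _ (QuotientGroup.quotientKerEquivOfSurjective L.π L.surj).toEquiv

/-- `ker π`-invariance is invariance under the fixing subgroup of the level field. -/
lemma rightInv₁_iff {X : Type*} (f : GQ → X) :
    pta_RightInv₁ L.π f ↔ ∀ g s, s ∈ L.F.fixingSubgroup → f (g * s) = f g := by
  unfold pta_RightInv₁
  rw [L.ker_eq]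

lemma rightInv₂_iff {X : Type*} (f : GQ × GQ → X) :
    pta_RightInv₂ L.π f ↔ ∀ g g' s s', s ∈ L.F.fixingSubgroup → s' ∈ L.F.fixingSubgroup →
      f (g * s, g' * s') = f (g, g') := by
  unfold pta_RightInv₂
  rw [L.ker_eq]

/-! ### Inflation to the Prelude's `S`-level-constant cochains -/

/-- inflation of 1-cochains from the level `L` -/
noncomputable abbrev inf₁ : (L.Γ → L.rep.V) →ₗ[k] (GQ → M.V) := pta_inf₁ L.π L.e

/-- inflation of 2-cochains from the level `L` -/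
noncomputable abbrev inf₂ : (L.Γ × L.Γ → L.rep.V) →ₗ[k] (GQ × GQ → M.V) := pta_inf₂ L.π L.e

lemma isLevelConstantS₁_inf₁ (x : L.Γ → L.rep.V) : IsLevelConstantS₁ S (L.inf₁ x) :=
  ⟨L.F, L.isLevel.unram, (L.rightInv₁_iff _).1 (pta_rightInv₁_inf L.π L.e x)⟩

lemma isLevelConstantS₂_inf₂ (x : L.Γ × L.Γ → L.rep.V) : IsLevelConstantS₂ S (L.inf₂ x) :=
  ⟨L.F, L.isLevel.unram, (L.rightInv₂_iff _).1 (pta_rightInv₂_inf L.π L.e x)⟩

/-- inflation on 1-cocycles -/
noncomputable abbrev infZ1 : cocycles₁ L.rep →ₗ[k] cocycles₁ M := pta_infZ1 L.π L.e L.comm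

/-- inflation on `H¹` -/
noncomputable abbrev infH1 : H1 L.rep →ₗ[k] H1 M := pta_infH1 L.π L.e L.comm

lemma infH1_π (x : cocycles₁ L.rep) :
    L.infH1 ((H1π L.rep).hom x) = (H1π M).hom (L.infZ1 x) := pta_infH1_π L.π L.e L.comm x

theorem infH1_injective : Function.Injective L.infH1 :=
  pta_infH1_injective L.π L.surj L.e L.comm

theorem infH1_mem (y : H1 L.rep) : L.infH1 y ∈ continuousH1S S M := by
  obtain ⟨x, rfl⟩ := pta_H1π_surjective L.rep y
  rw [infH1_π]
  exact (mem_continuousH1S_iff S M _).2 ⟨L.infZ1 x, L.isLevelConstantS₁_inf₁ x, rfl⟩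

/-- inflation on 2-cocycles, with values in the Prelude's `S`-level cocycles -/
noncomputable def infZ2S : cocycles₂ L.rep →ₗ[k] levelCocyclesS₂ S M :=
  ((L.inf₂).comp (cocycles₂ L.rep).subtype).codRestrict (levelCocyclesS₂ S M) (fun x =>
    ⟨cochainsPullPush₂_mem_cocycles₂ L.π (L.e : L.rep.V →ₗ[k] M.V) L.comm x.2,
      L.isLevelConstantS₂_inf₂ x⟩)

lemma infZ2S_coe (x : cocycles₂ L.rep) :
    ((L.infZ2S x : levelCocyclesS₂ S M) : GQ × GQ → M.V) = L.inf₂ (x : L.Γ × L.Γ → L.rep.V) := rfl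

/-- inflation `H²(Γ_L, M_L) → H²(G_S, M)` (the Prelude's `continuousH2S`) -/
noncomputable def infH2S : H2 L.rep →ₗ[k] continuousH2S S M :=
  pta_H2desc L.rep ((continuousH2Sπ S M) ∘ₗ L.infZ2S) (fun x hx => by
    obtain ⟨y, hy⟩ := hx
    rw [LinearMap.comp_apply, continuousH2Sπ_eq_zero_iff, mem_levelCoboundariesS₂_iff]
    refine ⟨L.inf₁ y, L.isLevelConstantS₁_inf₁ y, ?_⟩
    rw [infZ2S_coe, ← hy]
    exact (pta_inf₂_d₁₂ L.π L.e L.comm y).symm)

lemma infH2S_π (x : cocycles₂ L.rep) :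
    L.infH2S ((H2π L.rep).hom x) = continuousH2Sπ S M (L.infZ2S x) :=
  pta_H2desc_π L.rep _ _ x

/-! ### Transition maps between levels -/

variable {L L' L''}

/-- the transition map `Γ_{L'} → Γ_L` for `L.F ≤ L'.F` -/
noncomputable def trans (h : L.F ≤ L'.F) : L'.Γ →* L.Γ :=
  L'.π.liftOfSurjective L'.surj ⟨L.π, by
    rw [L.ker_eq, L'.ker_eq]
    exact IntermediateField.fixingSubgroup_antitone h⟩

@[simp] lemma trans_π (h : L.F ≤ L'.F) (g : GQ) : trans h (L'.π g) = L.π g :=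
  MonoidHom.liftOfRightInverse_comp_apply _ _ _ _ g

lemma trans_surjective (h : L.F ≤ L'.F) : Function.Surjective (trans h) := by
  intro γ
  obtain ⟨g, rfl⟩ := L.surj γ
  exact ⟨L'.π g, trans_π h g⟩

lemma trans_trans (h : L.F ≤ L'.F) (h' : L'.F ≤ L''.F) (γ : L''.Γ) :
    trans h (trans h' γ) = trans (h.trans h') γ := by
  obtain ⟨g, rfl⟩ := L''.surj γ
  simp

/-- comparison of the models of `M` at two levels -/
noncomputable def transE (L L' : pta_Lev S M) : L.rep.V ≃ₗ[k] L'.rep.V := L.e.trans L'.e.symm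

@[simp] lemma e_transE (L L' : pta_Lev S M) (n : L.rep.V) : L'.e (transE L L' n) = L.e n := by
  simp [transE]

lemma transE_comm (h : L.F ≤ L'.F) (γ : L'.Γ) (n : L.rep.V) :
    transE L L' (L.rep.ρ (trans h γ) n) = L'.rep.ρ γ (transE L L' n) := by
  obtain ⟨g, rfl⟩ := L'.surj γ
  apply L'.e.injective
  rw [trans_π, e_transE, L.comm, L'.comm, e_transE]

/-- inflation of 1-cochains from level `L` to level `L'` -/
noncomputable abbrev infTo₁ (h : L.F ≤ L'.F) : (L.Γ → L.rep.V) →ₗ[k] (L'.Γ → L'.rep.V) :=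
  pta_inf₁ (trans h) (transE L L')

/-- inflation of 2-cochains from level `L` to level `L'` -/
noncomputable abbrev infTo₂ (h : L.F ≤ L'.F) :
    (L.Γ × L.Γ → L.rep.V) →ₗ[k] (L'.Γ × L'.Γ → L'.rep.V) :=
  pta_inf₂ (trans h) (transE L L')

lemma inf₁_infTo₁ (h : L.F ≤ L'.F) (x : L.Γ → L.rep.V) : L'.inf₁ (infTo₁ h x) = L.inf₁ x := by
  funext g
  simp [pta_inf₁_apply]

lemma inf₂_infTo₂ (h : L.F ≤ L'.F) (x : L.Γ × L.Γ → L.rep.V) :
    L'.inf₂ (infTo₂ h x) = L.inf₂ x := by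
  funext ⟨g, g'⟩
  simp [pta_inf₂_apply]

/-- inflation on 1-cocycles between levels -/
noncomputable abbrev infToZ1 (h : L.F ≤ L'.F) : cocycles₁ L.rep →ₗ[k] cocycles₁ L'.rep :=
  pta_infZ1 (trans h) (transE L L') (transE_comm h)

/-- inflation on 2-cocycles between levels -/
noncomputable abbrev infToZ2 (h : L.F ≤ L'.F) : cocycles₂ L.rep →ₗ[k] cocycles₂ L'.rep :=
  pta_infZ2 (trans h) (transE L L') (transE_comm h)

/-- inflation `H¹(Γ_L, M_L) → H¹(Γ_{L'}, M_{L'})` -/
noncomputable abbrev infToH1 (h : L.F ≤ L'.F) : H1 L.rep →ₗ[k] H1 L'.rep :=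
  pta_infH1 (trans h) (transE L L') (transE_comm h)

/-- inflation `H²(Γ_L, M_L) → H²(Γ_{L'}, M_{L'})` -/
noncomputable abbrev infToH2 (h : L.F ≤ L'.F) : H2 L.rep →ₗ[k] H2 L'.rep :=
  pta_infH2 (trans h) (transE L L') (transE_comm h)

lemma infToH1_π (h : L.F ≤ L'.F) (x : cocycles₁ L.rep) :
    infToH1 h ((H1π L.rep).hom x) = (H1π L'.rep).hom (infToZ1 h x) :=
  pta_infH1_π _ _ _ x

lemma infToH2_π (h : L.F ≤ L'.F) (x : cocycles₂ L.rep) :
    infToH2 h ((H2π L.rep).hom x) = (H2π L'.rep).hom (infToZ2 h x) :=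
  pta_infH2_π _ _ _ x

theorem infToH1_injective (h : L.F ≤ L'.F) : Function.Injective (infToH1 h) :=
  pta_infH1_injective (trans h) (trans_surjective h) (transE L L') (transE_comm h)

lemma infZ1_infToZ1 (h : L.F ≤ L'.F) (x : cocycles₁ L.rep) :
    L'.infZ1 (infToZ1 h x) = L.infZ1 x :=
  Subtype.ext (inf₁_infTo₁ h (x : L.Γ → L.rep.V))

lemma infZ2S_infToZ2 (h : L.F ≤ L'.F) (x : cocycles₂ L.rep) :
    L'.infZ2S (infToZ2 h x) = L.infZ2S x :=
  Subtype.ext (inf₂_infTo₂ h (x : L.Γ × L.Γ → L.rep.V))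

/-- compatibility of the inflations on `H¹` -/
theorem infH1_infToH1 (h : L.F ≤ L'.F) (y : H1 L.rep) : L'.infH1 (infToH1 h y) = L.infH1 y := by
  obtain ⟨x, rfl⟩ := pta_H1π_surjective L.rep y
  rw [infToH1_π, infH1_π, infH1_π, infZ1_infToZ1]

/-- compatibility of the inflations on `H²` -/
theorem infH2S_infToH2 (h : L.F ≤ L'.F) (y : H2 L.rep) : L'.infH2S (infToH2 h y) = L.infH2S y := by
  obtain ⟨x, rfl⟩ := pta_H2π_surjective L.rep y
  rw [infToH2_π, infH2S_π, infH2S_π, infZ2S_infToZ2]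

theorem infToH1_infToH1 (h : L.F ≤ L'.F) (h' : L'.F ≤ L''.F) (y : H1 L.rep) :
    infToH1 h' (infToH1 h y) = infToH1 (h.trans h') y :=
  L''.infH1_injective (by rw [infH1_infToH1, infH1_infToH1, infH1_infToH1])

theorem infToH2_infToH2 (h : L.F ≤ L'.F) (h' : L'.F ≤ L''.F) (y : H2 L.rep) :
    infToH2 h' (infToH2 h y) = infToH2 (h.trans h') y := by
  obtain ⟨x, rfl⟩ := pta_H2π_surjective L.rep y
  rw [infToH2_π, infToH2_π, infToH2_π]
  congr 1
  apply Subtype.ext
  funext ⟨γ, δ⟩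
  show transE L' L'' (transE L L' ((x : L.Γ × L.Γ → L.rep.V) (trans h (trans h' γ),
    trans h (trans h' δ)))) = transE L L'' ((x : L.Γ × L.Γ → L.rep.V) (trans (h.trans h') γ,
    trans (h.trans h') δ))
  rw [trans_trans, trans_trans]
  simp [transE]

end pta_Lev

end Fermat.Agent.Lib.PT
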