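/-
S55 (Poitou–Tate long-haul), GLOBAL DICTIONARY: localisation of inflated classes at cochain level.
For a presented level `L`, a group homomorphism `f : H → Gal(Q̄/ℚ)` (a local Galois group) and a
cocycle `x` of `Γ_L`, the Prelude's localisation maps send the inflated class of `x` to the class
of the cochain `τ ↦ e (x (π (f τ)))`.
-/
import Mathlib
import Fermat.Prelude.Def_GroupCohomology_ContinuousUnramified
import Fermat.Agent.Lib.PT.GLevelCoh

set_option autoImplicit false
set_option linter.unusedSectionVars false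

namespace Fermat.Agent.Lib.PT

open groupCohomology CategoryTheory

local notation "Qbar" => AlgebraicClosure ℚ
local notation "GQ" => (AlgebraicClosure ℚ ≃ₐ[ℚ] AlgebraicClosure ℚ)

variable {k : Type} [CommRing k] {S : Finset Nat.Primes} {M : Rep.{0} k GQ}

section H2

variable {H : Type} [Group H] (f : H →* GQ)

/-- the localisation of a level cocycle, as a level cocycle of `H` -/
noncomputable def pta_locZ2 (z : levelCocyclesS₂ S M) : levelCocycles₂ f (Rep.res f M) :=
  levelCocycles₂Map (rH := MonoidHom.id _) (rG := f) f (fun _ => rfl)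
    (LinearMap.id : M →ₗ[k] Rep.res f M) (fun _ _ => rfl) (levelCocyclesS₂ToLevelCocycles₂ S M z)

lemma pta_locZ2_apply (z : levelCocyclesS₂ S M) (τ τ' : H) :
    (pta_locZ2 f z : H × H → M.V) (τ, τ') = (z : GQ × GQ → M.V) (f τ, f τ') := rfl

/-- `locRes₂S` on the class of a level cocycle -/
lemma pta_locRes₂S_π (z : levelCocyclesS₂ S M) :
    locRes₂S S M f (continuousH2Sπ S M z) = continuousH2π f (Rep.res f M) (pta_locZ2 f z) := rfl

/-- the localisation of the class of `z` vanishes iff `z ∘ (f × f)` is the coboundary of an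
`f`-level-constant 1-cochain -/
lemma pta_locRes₂S_π_eq_zero_iff (z : levelCocyclesS₂ S M) :
    locRes₂S S M f (continuousH2Sπ S M z) = 0 ↔
      ∃ y : H → M.V, IsLevelConstant₁ f y ∧
        ∀ τ τ' : H, M.ρ (f τ) (y τ') - y (τ * τ') + y τ = (z : GQ × GQ → M.V) (f τ, f τ') := by
  rw [pta_locRes₂S_π, continuousH2π_eq_zero_iff, mem_levelCoboundaries₂_iff]
  refine exists_congr fun y => and_congr_right fun _ => ?_
  constructor
  · intro h τ τ'
    have := congrFun h (τ, τ')
    rw [d₁₂_hom_apply] at this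
    exact this
  · intro h
    funext ⟨τ, τ'⟩
    rw [d₁₂_hom_apply]
    exact h τ τ'

variable (L : pta_Lev S M)

/-- the localisation of an inflated class: cochain formula -/
lemma pta_locZ2_infZ2S_apply (x : cocycles₂ L.rep) (τ τ' : H) :
    (pta_locZ2 f (L.infZ2S x) : H × H → M.V) (τ, τ') = L.e (x.1 (L.π (f τ), L.π (f τ'))) := rfl

/-- the localisation of the inflation of the class of `x` vanishes iff
`(τ, τ') ↦ e (x (π (f τ), π (f τ')))` is the coboundary of an `f`-level-constant cochain -/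
theorem pta_locRes₂S_infH2S_eq_zero_iff (x : cocycles₂ L.rep) :
    locRes₂S S M f (L.infH2S ((H2π L.rep).hom x)) = 0 ↔
      ∃ y : H → M.V, IsLevelConstant₁ f y ∧
        ∀ τ τ' : H, M.ρ (f τ) (y τ') - y (τ * τ') + y τ =
          L.e (x.1 (L.π (f τ), L.π (f τ'))) := by
  rw [pta_Lev.infH2S_π, pta_locRes₂S_π_eq_zero_iff]
  rfl

end H2

section H1

universe u

variable {ι : Type} {Γv : ι → Type} [∀ v, Group (Γv v)] (loc : ∀ v, Γv v →* GQ)

/-- the localisation of the class of a 1-cocycle `c` of `Gal(Q̄/ℚ)` vanishes iff `c ∘ loc v` is a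
coboundary -/
theorem pta_locRes_π_eq_zero_iff {K : Type} [Field K] (A : Rep.{0} K GQ) (v : ι)
    (c : cocycles₁ A) :
    (locRes loc A v).hom ((H1π A).hom c) = 0 ↔
      ∃ m : A.V, ∀ τ : Γv v, A.ρ (loc v τ) m - m = c.1 (loc v τ) := by
  have h1 : (locRes loc A v).hom ((H1π A).hom c) =
      (H1π (Rep.res (loc v) A)).hom (mapCocycles₁ (loc v) (𝟙 (Rep.res (loc v) A)) c) :=
    H1π_comp_map_apply (loc v) (𝟙 (Rep.res (loc v) A)) c
  rw [h1, H1π_eq_zero_iff]
  constructor
  · rintro ⟨m, hm⟩
    refine ⟨m, fun τ => ?_⟩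
    have := congrFun hm τ
    rw [d₀₁_hom_apply] at this
    rw [coe_mapCocycles₁] at this
    exact this
  · rintro ⟨m, hm⟩
    refine ⟨m, ?_⟩
    funext τ
    rw [d₀₁_hom_apply, coe_mapCocycles₁]
    exact hm τ

end H1

end Fermat.Agent.Lib.PT
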