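/-
S55 (Poitou–Tate long-haul), S-track: the local big-model datum `pts_LocData 𝒢 q` at `q ∈ S`
(local module `A = Ω_q^×`, evaluation `evΩ : J → A` at the base embedding, `μ_p ⊂ A`, local
invariant map) and the map `b_q : H⁰(ℚ_q, M') → H²(ℚ_q, M)^∨`, `b_q φ [z] = inv_q (ζ_q ∘ φ ∘ z)`;
(C) = surjectivity of `b_q` from the local `ptd_NondegH2`.
-/
import Mathlib
import Fermat.Agent.Lib.PT.SeqDGlobal
import Fermat.Agent.Lib.PT.AssemblyTop

set_option autoImplicit false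
set_option linter.unusedSectionVars false

namespace Fermat.Agent.Lib.PT

open CategoryTheory groupCohomology ExtCitation Module

local notation "Qbar" => AlgebraicClosure ℚ
local notation "GQ" => (AlgebraicClosure ℚ ≃ₐ[ℚ] AlgebraicClosure ℚ)

/-- Local big-model datum at `q ∈ S` attached to a global datum `𝒢`: the local module `A`
(`= Ω_q^×` additively) with its `G_q`-action and level structure, the full evaluation
`evΩ : J → A` at the base embedding, `μ_p ⊂ A`, and the local invariant map. -/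
structure pts_LocData {p : ℕ} [Fact p.Prime] {S : Finset Nat.Primes} (𝒢 : pts_EMod p S)
    (q : ↥S) where
  A : Type
  [instA : AddCommGroup A]
  ρ : Representation ℤ (primeLocalGaloisGroup q.1) A
  /-- the level structure of `G_q` -/
  𝓛 : ptd_Levels (primeLocalGaloisGroup q.1)
  lev₁_iff : ∀ {X : Type} (f : primeLocalGaloisGroup q.1 → X),
    ptd_IsLev₁ 𝓛 f ↔ IsLevelConstant₁ (primeLocalToGlobal q.1) f
  lev₂_iff : ∀ {X : Type} (f : primeLocalGaloisGroup q.1 × primeLocalGaloisGroup q.1 → X),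
    ptd_IsLev₂ 𝓛 f ↔ IsLevelConstant₂ (primeLocalToGlobal q.1) f
  /-- evaluation of an idele at the base embedding over `q` -/
  evΩ : 𝒢.J →+ A
  evΩ_loc : ∀ (τ : primeLocalGaloisGroup q.1) (x : 𝒢.J),
    evΩ (primeLocalToGlobal q.1 τ • x) = ρ τ (evΩ x)
  /-- `μ_p ⊂ A` -/
  ζloc : ZMod p →+ A
  ζloc_inj : Function.Injective ζloc
  tors : ∀ a : A, p • a = 0 → ∃ c, ζloc c = a
  evΩ_tors : ∀ x : 𝒢.J, p • x = 0 → evΩ x = ζloc (𝒢.ev q x)
  /-- the local invariant map -/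
  inv : ptd_Inv 𝓛 ρ (ZMod p) p

attribute [instance] pts_LocData.instA

namespace pts_LocData

variable {p : ℕ} [Fact p.Prime] {S : Finset Nat.Primes} {𝒢 : pts_EMod p S} {q : ↥S}
variable (L : pts_LocData 𝒢 q) {M : Rep.{0} (ZMod p) GQ}

lemma evΩ_ζ (c : ZMod p) : L.evΩ (𝒢.ζ c) = L.ζloc c := by
  rw [L.evΩ_tors _ (𝒢.ζ_tors c), 𝒢.ev_ζ]

lemma ρ_ζloc (τ : primeLocalGaloisGroup q.1) (c : ZMod p) :
    L.ρ τ (L.ζloc c) = L.ζloc ((cycloChar p (primeLocalToGlobal q.1 τ) : ZMod p) * c) := by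
  rw [← L.evΩ_ζ, ← L.evΩ_loc, 𝒢.smul_ζ, L.evΩ_ζ]

/-- The restriction of `M` to `G_q`. -/
noncomputable abbrev Mq (M : Rep.{0} (ZMod p) GQ) (q : ↥S) :
    Rep.{0} (ZMod p) (primeLocalGaloisGroup q.1) :=
  Rep.res (primeLocalToGlobal q.1) M

/-- `ζ_q ∘ φ` is `G_q`-equivariant for `φ ∈ H⁰(ℚ_q, M')`. -/
lemma isEquivariant_ζloc_comp {φ : (M.dualTwist (cycloChar p)).V}
    (hφ : φ ∈ pts_EMod.P0 S M (Sum.inr q)) :
    ptd_IsEquivariant L.ρ (Mq M q).ρ
      (L.ζloc.comp (φ : Module.Dual (ZMod p) M.V).toAddMonoidHom) := by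
  intro τ m
  have h := (pts_EMod.mem_P0_inr_iff q φ).1 hφ τ (M.ρ (primeLocalToGlobal q.1 τ) m)
  rw [← Module.End.mul_apply, ← map_mul, inv_mul_cancel, map_one, Module.End.one_apply] at h
  change L.ζloc ((φ : Module.Dual (ZMod p) M.V) (M.ρ (primeLocalToGlobal q.1 τ) m))
    = L.ρ τ (L.ζloc ((φ : Module.Dual (ZMod p) M.V) m))
  rw [L.ρ_ζloc, h]

/-- Every `G_q`-equivariant additive map `M → A` is `ζ_q ∘ φ` with `φ ∈ H⁰(ℚ_q, M')`. -/
lemma exists_of_isEquivariant {f : M.V →+ L.A} (hf : ptd_IsEquivariant L.ρ (Mq M q).ρ f) :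
    ∃ φ : (M.dualTwist (cycloChar p)).V, φ ∈ pts_EMod.P0 S M (Sum.inr q) ∧
      ∀ m, f m = L.ζloc ((φ : Module.Dual (ZMod p) M.V) m) := by
  have hex : ∀ m, ∃ c, L.ζloc c = f m := fun m => L.tors _ (pts_EMod.tors_apply M f m)
  choose φ hφ using hex
  have hadd : ∀ m m', φ (m + m') = φ m + φ m' := fun m m' => by
    apply L.ζloc_inj
    rw [map_add, hφ, hφ, hφ, map_add]
  let φl : Module.Dual (ZMod p) M.V := (AddMonoidHom.mk' φ hadd).toZModLinearMap p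
  refine ⟨φl, ?_, fun m => (hφ m).symm⟩
  rw [pts_EMod.mem_P0_inr_iff]
  intro τ m
  change (cycloChar p (primeLocalToGlobal q.1 τ) : ZMod p) * φ (M.ρ (primeLocalToGlobal q.1 τ)⁻¹ m)
    = φ m
  apply L.ζloc_inj
  rw [← L.ρ_ζloc, hφ, hφ]
  have := hf τ (M.ρ (primeLocalToGlobal q.1 τ)⁻¹ m)
  rw [← this]
  change f (M.ρ (primeLocalToGlobal q.1 τ) (M.ρ (primeLocalToGlobal q.1 τ)⁻¹ m)) = f m
  rw [← Module.End.mul_apply, ← map_mul, mul_inv_cancel, map_one, Module.End.one_apply]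

section dict

variable (A : Rep.{0} (ZMod p) (primeLocalGaloisGroup q.1))

lemma isLZ2_iff (z : primeLocalGaloisGroup q.1 × primeLocalGaloisGroup q.1 → A.V) :
    ptd_IsLZ2 L.𝓛 A.ρ z ↔ z ∈ levelCocycles₂ (primeLocalToGlobal q.1) A := by
  rw [mem_levelCocycles₂_iff, ptd_IsLZ2, pta_isZ2R_iff, L.lev₂_iff]

lemma isB2_iff (z : primeLocalGaloisGroup q.1 × primeLocalGaloisGroup q.1 → A.V) :
    ptd_IsB2 L.𝓛 A.ρ z ↔ z ∈ levelCoboundaries₂ (primeLocalToGlobal q.1) A := by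
  rw [mem_levelCoboundaries₂_iff]
  constructor
  · rintro ⟨φ, hφ, rfl⟩
    exact ⟨φ, (L.lev₁_iff φ).1 hφ, (pta_d1R_eq A φ).symm⟩
  · rintro ⟨φ, hφ, rfl⟩
    exact ⟨φ, (L.lev₁_iff φ).2 hφ, (pta_d1R_eq A φ).symm⟩

end dict

/-- The functional `z ↦ inv_q (ζ_q ∘ φ ∘ z)` on local level cocycles. -/
noncomputable def bCoc (φ : pts_EMod.P0 S M (Sum.inr q)) :
    ↥(levelCocycles₂ (primeLocalToGlobal q.1) (Mq M q)) →+ ZMod p :=
  AddMonoidHom.mk' (fun z => L.inv (fun x =>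
      L.ζloc ((φ.1 : Module.Dual (ZMod p) M.V)
        ((z : primeLocalGaloisGroup q.1 × primeLocalGaloisGroup q.1 → M.V) x))))
    (fun z z' =>
      pts_inv_map_add L.𝓛 L.inv (pts_EMod.nsmul_eq_zero M) (L.isEquivariant_ζloc_comp φ.2)
        ((L.isLZ2_iff (Mq M q) _).2 z.2) ((L.isLZ2_iff (Mq M q) _).2 z'.2))

/-- The functional `[z] ↦ inv_q (ζ_q ∘ φ ∘ z)` on `H²(ℚ_q, M)`. -/
noncomputable def bFun (φ : pts_EMod.P0 S M (Sum.inr q)) :
    Dual (ZMod p) (continuousH2 (primeLocalToGlobal q.1) (Mq M q)) :=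
  Submodule.liftQ _ (pts_zmodLin (L.bCoc φ)) (fun z hz => by
    rw [LinearMap.mem_ker, pts_zmodLin_apply]
    exact pts_inv_map_b2 L.𝓛 L.inv (L.isEquivariant_ζloc_comp φ.2)
      ((L.isB2_iff (Mq M q) _).2 hz))

lemma bFun_mk (φ : pts_EMod.P0 S M (Sum.inr q))
    (z : ↥(levelCocycles₂ (primeLocalToGlobal q.1) (Mq M q))) :
    L.bFun φ (continuousH2π (primeLocalToGlobal q.1) (Mq M q) z)
      = L.inv (fun x => L.ζloc ((φ.1 : Module.Dual (ZMod p) M.V)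
          ((z : primeLocalGaloisGroup q.1 × primeLocalGaloisGroup q.1 → M.V) x))) := rfl

/-- **The map `b_q`** : `H⁰(ℚ_q, M') → H²(ℚ_q, M)^∨`. -/
noncomputable def bMap : pts_EMod.P0 S M (Sum.inr q) →ₗ[ZMod p]
    Dual (ZMod p) (continuousH2 (primeLocalToGlobal q.1) (Mq M q)) :=
  pts_zmodLin (AddMonoidHom.mk' (fun φ => L.bFun φ) (fun φ φ' => by
    refine LinearMap.ext fun x => ?_
    obtain ⟨z, rfl⟩ := Submodule.mkQ_surjective _ x
    rw [LinearMap.add_apply]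
    change L.bFun (φ + φ') (continuousH2π _ _ z) = L.bFun φ (continuousH2π _ _ z)
      + L.bFun φ' (continuousH2π _ _ z)
    rw [bFun_mk, bFun_mk, bFun_mk]
    have := pts_inv_add_map L.𝓛 L.inv (pts_EMod.nsmul_eq_zero M)
      (L.isEquivariant_ζloc_comp φ.2) (L.isEquivariant_ζloc_comp φ'.2)
      ((L.isLZ2_iff (Mq M q) _).2 z.2)
    refine Eq.trans ?_ this
    congr 1
    funext x
    rw [AddMonoidHom.add_apply, AddMonoidHom.comp_apply, AddMonoidHom.comp_apply, ← map_add]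
    rfl))

lemma bMap_mk (φ : pts_EMod.P0 S M (Sum.inr q))
    (z : ↥(levelCocycles₂ (primeLocalToGlobal q.1) (Mq M q))) :
    L.bMap φ (continuousH2π (primeLocalToGlobal q.1) (Mq M q) z)
      = L.inv (fun x => L.ζloc ((φ.1 : Module.Dual (ZMod p) M.V)
          ((z : primeLocalGaloisGroup q.1 × primeLocalGaloisGroup q.1 → M.V) x))) := rfl

/-- (C): `b_q` is surjective, from the local `ptd_NondegH2`. -/
theorem bMap_surjective [FiniteDimensional (ZMod p) M.V]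
    (hC : ptd_NondegH2 L.𝓛 L.ρ L.inv (Mq M q).ρ) :
    Function.Surjective (L.bMap (M := M)) := by
  have : FiniteDimensional (ZMod p) (M.dualTwist (cycloChar p)).V :=
    inferInstanceAs (FiniteDimensional (ZMod p) (Module.Dual (ZMod p) M.V))
  apply pts_surjective_of_right_nondeg
  intro x hx
  obtain ⟨z, rfl⟩ := Submodule.mkQ_surjective _ x
  change continuousH2π _ _ z = 0
  rw [continuousH2π_eq_zero_iff, ← L.isB2_iff (Mq M q)]
  refine hC _ ((L.isLZ2_iff (Mq M q) _).2 z.2) fun f hf => ?_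
  obtain ⟨φ, hφ, hfφ⟩ := L.exists_of_isEquivariant hf
  have := hx ⟨φ, hφ⟩
  change L.bMap ⟨φ, hφ⟩ (continuousH2π _ _ z) = 0 at this
  rw [bMap_mk] at this
  rw [← this]
  congr 1
  funext x
  exact hfφ _

end pts_LocData

end Fermat.Agent.Lib.PT
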