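/-
S55 (Poitou–Tate long-haul): THE FINAL CONSUMER STATEMENT.

`pts_S55_of_producers` derives the frozen statement S55 from named hypotheses, one per producer:

* (G1)    `𝒢 : pts_EMod p S`  — the global big module `0 → E_S → J_S → C_S` (SeqEDefs);
* (ADT-G) `invG`, `hAG : ptd_NondegH2 …`, `hBG : ptd_NondegHom …` — the global invariant map and the
          ADT-lite main theorem for `(G_ℚ, S-levels, C_S)` and `M`;
* (ADT-L) `L q : pts_LocData 𝒢 q`, `hCL q : ptd_NondegH2 …` — the local big model at `q ∈ S` and the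
          local ADT-lite theorem for `M|_{G_q}`;
* (LG)    `hLG` — local–global compatibility of the invariant maps on idele-valued classes.

Everything else ((E): `δ`, `ker δ = im j`, `im δ = Ш¹`; (D); the archimedean place; the linear-algebra
endgame) is proved in `SeqE*`, `SeqD*`, `AssemblyNondeg`, `GLevel*`.
-/
import Mathlib
import Fermat.Statements.S55
import Fermat.Agent.Lib.PT.SeqDLocal
import Fermat.Agent.Lib.PT.AssemblyNondeg
import Fermat.Agent.Lib.PT.GLevelArch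
import Fermat.Agent.Lib.PT.GLevelLoc

set_option autoImplicit false
set_option linter.unusedSectionVars false

namespace Fermat.Agent.Lib.PT

open CategoryTheory groupCohomology ExtCitation Module

local notation "Qbar" => AlgebraicClosure ℚ
local notation "GQ" => (AlgebraicClosure ℚ ≃ₐ[ℚ] AlgebraicClosure ℚ)

attribute [local instance] pts_instGroupInr pts_instGroupInl

section Skeleton

variable {p : ℕ} [Fact p.Prime] {S : Finset Nat.Primes} (𝒢 : pts_EMod p S)
variable {M : Rep.{0} (ZMod p) GQ}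

/-- The family of local maps `b_v`; the archimedean one is zero. -/
noncomputable def pts_bAll (L : ∀ q : ↥S, pts_LocData 𝒢 q) :
    ∀ v : extArithIndex S, pts_EMod.P0 S M v →ₗ[ZMod p]
      Dual (ZMod p) (continuousH2 (extArithLoc S v) (Rep.res (extArithLoc S v) M))
  | Sum.inl _ => 0
  | Sum.inr q => (L q).bMap

/-- **(D)**: `a (j x0) x = ∑_v b_v (x0 v) (loc_v x)`, from the local–global compatibility (LG). -/
theorem pts_compat_D (hM : pts_EMod.TrivOnLevel S M)
    (invG : ptd_Inv (pta_levelsS S) 𝒢.ρC (ZMod p) p)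
    (L : ∀ q : ↥S, pts_LocData 𝒢 q)
    (hLG : ∀ y : GQ × GQ → 𝒢.J, ptd_IsLZ2 (pta_levelsS S) 𝒢.ρJ y → (∀ x, p • y x = 0) →
      invG (fun x => 𝒢.π (y x)) = ∑ q : ↥S, (L q).inv (fun x =>
        (L q).evΩ (y (primeLocalToGlobal q.1 x.1, primeLocalToGlobal q.1 x.2))))
    (x0 : ∀ v, pts_EMod.P0 S M v) (x : continuousH2S S M) :
    𝒢.aMap invG (𝒢.jMap hM x0) x
      = ∑ v, pts_bAll 𝒢 L v (x0 v) (locTotal₂S S M x v) := by
  obtain ⟨z, rfl⟩ := Submodule.mkQ_surjective _ x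
  change 𝒢.aMap invG (𝒢.jMap hM x0) (continuousH2Sπ S M z) = _
  rw [pts_EMod.aMap_mk]
  have hy : ptd_IsLZ2 (pta_levelsS S) 𝒢.ρJ
      (fun x => (𝒢.jLift hM x0).1 ((z : GQ × GQ → M.V) x)) :=
    pts_isLZ2_map (pta_levelsS S) (𝒢.isEquivariant_of_mem_HomJ (𝒢.jLift_mem_HomJ hM x0))
      ((pta_isLZ2_iff M _).2 z.2)
  have h1 := hLG _ hy (fun x => pts_EMod.tors_apply M _ _)
  have h2 : (fun x => (𝒢.jMap hM x0).1 ((z : GQ × GQ → M.V) x))
      = fun x => 𝒢.π ((𝒢.jLift hM x0).1 ((z : GQ × GQ → M.V) x)) := rfl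
  rw [h2, h1]
  have h3 := Fintype.sum_sum_type (fun v : Unit ⊕ ↥S =>
    pts_bAll 𝒢 L v (x0 v) (locTotal₂S S M (continuousH2Sπ S M z) v))
  refine Eq.trans ?_ h3.symm
  have h4 : ∑ u : Unit, pts_bAll 𝒢 L (Sum.inl u) (x0 (Sum.inl u))
      (locTotal₂S S M (continuousH2Sπ S M z) (Sum.inl u)) = 0 :=
    Finset.sum_eq_zero fun u _ => rfl
  rw [h4, zero_add]
  refine Finset.sum_congr rfl fun q _ => ?_
  change _ = (L q).bMap (x0 (Sum.inr q))
    (locRes₂S S M (primeLocalToGlobal q.1) (continuousH2Sπ S M z))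
  rw [pta_locRes₂S_π, pts_LocData.bMap_mk]
  congr 1
  funext x
  rw [(L q).evΩ_tors _ (pts_EMod.tors_apply M _ _), 𝒢.ev_jLift]
  rfl

end Skeleton

set_option maxHeartbeats 1600000 in
/-- **S55 from the producers' theorems.** -/
theorem pts_S55_of_producers
    {p : ℕ} [Fact p.Prime] (hp2 : p ≠ 2) (S : Finset Nat.Primes) (_hpS : pPrime p ∈ S)
    (M : Rep (ZMod p) (AlgebraicClosure ℚ ≃ₐ[ℚ] AlgebraicClosure ℚ))
    [FiniteDimensional (ZMod p) M]
    (hsm : ∀ m : M, ∃ F : IntermediateField ℚ (AlgebraicClosure ℚ), FiniteDimensional ℚ F ∧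
      ∀ s ∈ F.fixingSubgroup, M.ρ s m = m)
    (hMur : ∀ q : Nat.Primes, q ∉ S → ∀ A : ValuationSubring (AlgebraicClosure ℚ),
      A.LiesOverPrime (q : ℕ) → ∀ g ∈ A.inertiaSubgroupIn ℚ, M.ρ g = 1)
    -- (G1) the global big module
    (𝒢 : pts_EMod p S)
    -- (ADT-G) the global invariant map and the ADT-lite theorem for `M`
    (invG : ptd_Inv (pta_levelsS S) 𝒢.ρC (ZMod p) p)
    (hAG : ptd_NondegH2 (pta_levelsS S) 𝒢.ρC invG M.ρ)
    (hBG : ptd_NondegHom (pta_levelsS S) 𝒢.ρC invG M.ρ)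
    -- (ADT-L) the local big models and the local ADT-lite theorem for `M|_{G_q}`
    (L : ∀ q : ↥S, pts_LocData 𝒢 q)
    (hCL : ∀ q : ↥S, ptd_NondegH2 (L q).𝓛 (L q).ρ (L q).inv (pts_LocData.Mq M q).ρ)
    -- (LG) local–global compatibility of the invariant maps
    (hLG : ∀ y : GQ × GQ → 𝒢.J, ptd_IsLZ2 (pta_levelsS S) 𝒢.ρJ y → (∀ x, p • y x = 0) →
      invG (fun x => 𝒢.π (y x)) = ∑ q : ↥S, (L q).inv (fun x =>
        (L q).evΩ (y (primeLocalToGlobal q.1 x.1, primeLocalToGlobal q.1 x.2)))) :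
    ∃ B : sha₁ S (M.dualTwist (cycloChar p)) →ₗ[ZMod p] sha₂ S M →ₗ[ZMod p] ZMod p,
      (∀ y, (∀ x, B y x = 0) → y = 0) ∧ (∀ x, (∀ y, B y x = 0) → x = 0) := by
  have hlev := pta_isLevel_kerField (S := S) hsm hMur
  have hM : pts_EMod.TrivOnLevel S M := ⟨pta_kerField M, hlev.unram, hlev.triv⟩
  have hinf : ∀ y : H1 (Rep.res (extArithLoc S (Sum.inl ())) (M.dualTwist (cycloChar p))),
      y = 0 := fun y => by
    have := pta_subsingleton_H1_arch hp2 (Rep.res archimedeanLoc (M.dualTwist (cycloChar p)))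
    exact Subsingleton.elim (α := H1 (Rep.res archimedeanLoc (M.dualTwist (cycloChar p)))) _ _
  refine pts_S55_of_data_nondeg S M (X := ↥(𝒢.HomC M)) (P0 := fun v => ↥(pts_EMod.P0 S M v))
    (𝒢.jMap hM) (𝒢.aMap invG) (pts_bAll 𝒢 L) (𝒢.deltaL M) ?_ ?_ ?_ ?_ (𝒢.ker_deltaL hM)
    (𝒢.range_deltaL hM hinf)
  · exact fun x hx => 𝒢.aMap_right_nondeg invG hAG x hx
  · intro f hf
    rw [𝒢.aMap_injective invG hBG f hf, map_zero]
  · intro v
    rcases v with u | q
    · intro φ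
      refine ⟨0, ?_⟩
      have := pta_subsingleton_continuousH2_arch hp2 (Rep.res archimedeanLoc M)
      refine LinearMap.ext fun x => ?_
      have hx : x = 0 :=
        Subsingleton.elim (α := continuousH2 archimedeanLoc (Rep.res archimedeanLoc M)) _ _
      rw [hx, map_zero, map_zero]
    · exact (L q).bMap_surjective (hCL q)
  · exact pts_compat_D 𝒢 hM invG L hLG

end Fermat.Agent.Lib.PT
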