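/-
S55 (Poitou–Tate long-haul), S-track: THE FORMATION GLUE.  Generic in the big-group model
`(G, 𝓛, C, ρC)`: from helper5's level data `D : ptn_LevelData 𝓛 ρC p` (fundamental classes at the
presented levels) and the two "trivial coefficient" inputs

* (F3) reciprocity + existence theorem in exponent `p`,
* (F4) nondegeneracy of `Hom_U(ℤ/p, C) × H²(U, ℤ/p) → T` (both sides),

for the open subgroups `U ≤ K` (`K` := an open normal subgroup of index prime to `p`, in the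
applications the stabiliser of `μ_p`), the two one-sided nondegeneracies of
`Hom_G(M, C) × H²(G, M) → T` for EVERY finite `ZMod p[G]`-module `M` trivial on a level —
helper3's `ptd_nondegH2`, `ptd_nondegHom` with the Sylow choice of `U` made once and for all.
The same theorem serves the local producers (`G = G_q`) and the global one (`G = G_ℚ`).
-/
import Mathlib
import Fermat.Agent.Lib.PT.AdtFull
import Fermat.Agent.Lib.PT.BrgMain
import Fermat.Agent.Lib.PT.SeqDTheta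

set_option autoImplicit false
set_option linter.unusedSectionVars false

namespace Fermat.Agent.Lib.PT

section Sylow

variable {G : Type*} [Group G] {𝓛 : ptd_Levels G} {p : ℕ} [hp : Fact p.Prime]

/-- an element of `p`-power order modulo a subgroup of `K` lies in `K`, if `K` is normal of index
prime to `p` -/
lemma pts_mem_of_pow_mem (K : Subgroup G) [K.Normal] (hKp : ¬ p ∣ K.index) {x : G} {k : ℕ}
    (hx : x ^ p ^ k ∈ K) : x ∈ K := by
  have h0 : (QuotientGroup.mk' K x) ^ p ^ k = 1 := by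
    rw [← map_pow, QuotientGroup.mk'_apply, QuotientGroup.eq_one_iff]
    exact hx
  have h1 : orderOf (QuotientGroup.mk' K x) ∣ p ^ k := orderOf_dvd_of_pow_eq_one h0
  have h2 : orderOf (QuotientGroup.mk' K x) ∣ K.index := by
    rw [Subgroup.index_eq_card]
    exact orderOf_dvd_natCard _
  have hcop : Nat.Coprime (p ^ k) K.index :=
    Nat.Coprime.pow_left k ((Nat.Prime.coprime_iff_not_dvd hp.out).mpr hKp)
  have h3 : orderOf (QuotientGroup.mk' K x) = 1 := Nat.eq_one_of_dvd_coprimes hcop h1 h2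
  rw [orderOf_eq_one_iff, QuotientGroup.mk'_apply, QuotientGroup.eq_one_iff] at h3
  exact h3

/-- **The Sylow choice.**  Below a given level `N₀` there is a level `N ≤ K` and an open subgroup
`U ⊇ N` of index prime to `p`, contained in `K`, with `U / N` a `p`-group. -/
lemma pts_exists_sylow_open (K : Subgroup G) [K.Normal] (hK : 𝓛.IsOpen K) (hKp : ¬ p ∣ K.index)
    {N₀ : Subgroup G} (hN₀ : N₀ ∈ 𝓛.lev) :
    ∃ N ∈ 𝓛.lev, N ≤ N₀ ∧ N ≤ K ∧ ∃ U : Subgroup G, N ≤ U ∧ U ≤ K ∧ ¬ p ∣ U.index ∧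
      ∀ x ∈ U, ∃ k : ℕ, x ^ p ^ k ∈ N := by
  obtain ⟨N₁, hN₁, hN₁K⟩ := hK
  obtain ⟨N, hN, hle⟩ := 𝓛.directed N₀ hN₀ N₁ hN₁
  have := 𝓛.normal N hN
  have := 𝓛.finiteIndex N hN
  have hNK : N ≤ K := (hle.trans inf_le_right).trans hN₁K
  obtain ⟨P, hNP, hPidx, hP⟩ := ptn_exists_sylow N p
  refine ⟨N, hN, hle.trans inf_le_left, hNK, P, hNP, fun x hx => ?_, hPidx, hP⟩
  obtain ⟨k, hk⟩ := hP x hx
  exact pts_mem_of_pow_mem K hKp (hNK hk)

/-- a subgroup acting through a `p`-group quotient has `p`-group image in `GL(M)` -/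
lemma pts_isPGroup_range {k : Type*} [CommRing k] {M : Type*} [AddCommGroup M] [Module k M]
    (ρM : Representation k G M) (U N : Subgroup G) (hNM : ∀ n ∈ N, ρM n = 1)
    (hP : ∀ x ∈ U, ∃ k : ℕ, x ^ p ^ k ∈ N) :
    IsPGroup p (ptd_resRep ρM U).asGroupHom.range := by
  rintro ⟨_, u, rfl⟩
  obtain ⟨k, hk⟩ := hP u u.2
  refine ⟨k, Subtype.ext ?_⟩
  rw [SubmonoidClass.coe_pow, ← map_pow]
  apply Units.ext
  rw [Representation.asGroupHom_apply]
  show ρM ((u ^ p ^ k : U) : G) = 1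
  rw [Subgroup.coe_pow]
  exact hNM _ hk

end Sylow

section Formation

variable {G : Type*} [Group G] {𝓛 : ptd_Levels G} {C : Type*} [AddCommGroup C]
variable {ρC : Representation ℤ G C} {p : ℕ} [hp : Fact p.Prime]
variable (D : ptn_LevelData 𝓛 ρC p) (hd : ptd_IsDiscrete 𝓛 ρC)
variable (K : Subgroup G) [K.Normal] (hK : 𝓛.IsOpen K) (hKp : ¬ p ∣ K.index)
variable {M : Type*} [AddCommGroup M] [Module (ZMod p) M]
variable (ρM : Representation (ZMod p) G M)

include hK hKp in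
/-- **(A) for a class formation**: right nondegeneracy of `Hom_G(M, C) × H²(G, M) → ℚ/ℤ_(p)` for
every finite `M` trivial on a level, from F3 and F4 (trivial coefficients) for the open subgroups
contained in `K`. -/
theorem pts_nondegH2_of_levelData [Module.Finite (ZMod p) M]
    (hF3 : ∀ (U : Subgroup G) (hU : 𝓛.IsOpen U), U ≤ K →
      ptd_F3 (𝓛.sub U hU) (ptd_resRep ρC U) (ptn_invU D hd U hU))
    (hF4 : ∀ (U : Subgroup G) (hU : 𝓛.IsOpen U), U ≤ K →
      ptd_NondegH2 (𝓛.sub U hU) (ptd_resRep ρC U) (ptn_invU D hd U hU)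
        (Representation.trivial (ZMod p) U (ZMod p)))
    (htriv : ptd_IsTrivOnLevel 𝓛 ρM) : ptd_NondegH2 𝓛 ρC (ptn_invG D hd) ρM := by
  obtain ⟨N₀, hN₀, hN₀M⟩ := htriv
  obtain ⟨N, hN, hNN₀, -, U, hNU, hUK, hUidx, hUP⟩ := pts_exists_sylow_open K hK hKp hN₀
  have hU : 𝓛.IsOpen U := ⟨N, hN, hNU⟩
  have := hU.finiteIndex
  exact ptd_nondegH2 hd (ptn_invG D hd) U hU hUidx (ptn_invU D hd U hU) (ptn_hcor D hd U hU)
    (ptn_F1 D hd U hU) (hF3 U hU hUK) (hF4 U hU hUK) ρM ⟨N₀, hN₀, hN₀M⟩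
    (pts_isPGroup_range ρM U N (fun n hn => hN₀M n (hNN₀ hn)) hUP)

include hK in
/-- **(B') for a class formation**: left nondegeneracy, from F4 (ii) for the levels contained in
`K`. -/
theorem pts_nondegHom_of_levelData
    (hF4' : ∀ (V : Subgroup G) (hV : V ∈ 𝓛.lev), V ≤ K →
      ptd_NondegHom (𝓛.sub V (𝓛.isOpen_of_mem hV)) (ptd_resRep ρC V)
        (ptn_invU D hd V (𝓛.isOpen_of_mem hV)) (Representation.trivial (ZMod p) V (ZMod p)))
    (htriv : ptd_IsTrivOnLevel 𝓛 ρM) : ptd_NondegHom 𝓛 ρC (ptn_invG D hd) ρM := by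
  obtain ⟨N₀, hN₀, hN₀M⟩ := htriv
  obtain ⟨N₁, hN₁, hN₁K⟩ := hK
  obtain ⟨V, hV, hle⟩ := 𝓛.directed N₀ hN₀ N₁ hN₁
  have := 𝓛.finiteIndex V hV
  exact ptd_nondegHom (ptn_invG D hd) ρM V hV (fun n hn => hN₀M n (hle hn).1)
    (ptn_invU D hd V (𝓛.isOpen_of_mem hV)) (ptn_hcor D hd V (𝓛.isOpen_of_mem hV))
    (hF4' V hV ((hle.trans inf_le_right).trans hN₁K))

include hK hKp in
/-- (A), `ZMod p`-valued: the shape of `hAG` / `hCL` of `pts_S55_of_producers`. -/
theorem pts_nondegH2_invZ_of_levelData [Module.Finite (ZMod p) M]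
    (hF3 : ∀ (U : Subgroup G) (hU : 𝓛.IsOpen U), U ≤ K →
      ptd_F3 (𝓛.sub U hU) (ptd_resRep ρC U) (ptn_invU D hd U hU))
    (hF4 : ∀ (U : Subgroup G) (hU : 𝓛.IsOpen U), U ≤ K →
      ptd_NondegH2 (𝓛.sub U hU) (ptd_resRep ρC U) (ptn_invU D hd U hU)
        (Representation.trivial (ZMod p) U (ZMod p)))
    (htriv : ptd_IsTrivOnLevel 𝓛 ρM) : ptd_NondegH2 𝓛 ρC (pts_invZ (ptn_invG D hd)) ρM :=
  pts_nondegH2_invZ (fun m => ZModModule.char_nsmul_eq_zero p m)
    (pts_nondegH2_of_levelData D hd K hK hKp ρM hF3 hF4 htriv)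

include hK in
/-- (B'), `ZMod p`-valued: the shape of `hBG` of `pts_S55_of_producers`. -/
theorem pts_nondegHom_invZ_of_levelData
    (hF4' : ∀ (V : Subgroup G) (hV : V ∈ 𝓛.lev), V ≤ K →
      ptd_NondegHom (𝓛.sub V (𝓛.isOpen_of_mem hV)) (ptd_resRep ρC V)
        (ptn_invU D hd V (𝓛.isOpen_of_mem hV)) (Representation.trivial (ZMod p) V (ZMod p)))
    (htriv : ptd_IsTrivOnLevel 𝓛 ρM) : ptd_NondegHom 𝓛 ρC (pts_invZ (ptn_invG D hd)) ρM :=
  pts_nondegHom_invZ (fun m => ZModModule.char_nsmul_eq_zero p m)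
    (pts_nondegHom_of_levelData D hd K hK ρM hF4' htriv)

end Formation

end Fermat.Agent.Lib.PT
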