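/-
S55 (Poitou–Tate long-haul): THE FINAL CONSUMER STATEMENT, second form.

`pts_S55_of_formations` derives the frozen statement S55 from

* (G1)    `𝒢 : pts_EMod p S` — the global big module;
* (G-FC)  `DG : ptn_LevelData (pta_levelsS S) 𝒢.ρC p` — global fundamental classes at the levels;
* (G-F3), (G-F4), (G-F4') — trivial-coefficient inputs for the open subgroups `U ≤ ker χ_cyc`;
* (L-pre) `L q : pts_LocPre 𝒢 q` — the local big model at `q ∈ S` (no invariant map yet);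
* (L-FC)  `DL q : ptn_LevelData (L q).𝓛 (L q).ρ p` — local fundamental classes;
* (L-F3), (L-F4) — local trivial-coefficient inputs for `U ≤ ker (χ_cyc ∘ r_q)`;
* (LG)    — local–global compatibility of the `ℚ/ℤ_(p)`-valued invariant maps.

The invariant maps are the bridge's `ptn_invG`, converted to `ZMod p` by `pts_theta`.
-/
import Mathlib
import Fermat.Agent.Lib.PT.S55Skeleton
import Fermat.Agent.Lib.PT.SeqFormation
import Fermat.Agent.Lib.PT.GLevelTwist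

set_option autoImplicit false
set_option linter.unusedSectionVars false

namespace Fermat.Agent.Lib.PT

open CategoryTheory groupCohomology ExtCitation Module

local notation "Qbar" => AlgebraicClosure ℚ
local notation "GQ" => (AlgebraicClosure ℚ ≃ₐ[ℚ] AlgebraicClosure ℚ)

section Cyclo

variable {p : ℕ} [hp : Fact p.Prime]

/-- the kernel of a character with values in `(ℤ/p)^×` has index prime to `p` -/
lemma pts_not_dvd_index_ker {H : Type*} [Group H] (f : H →* (ZMod p)ˣ) : ¬ p ∣ f.ker.index := by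
  intro h
  rw [Subgroup.index_ker] at h
  have h1 : Nat.card f.range ∣ Nat.card (ZMod p)ˣ := Subgroup.card_subgroup_dvd_card f.range
  have h2 : Nat.card (ZMod p)ˣ = p - 1 := by
    rw [Nat.card_eq_fintype_card, ZMod.card_units_eq_totient, Nat.totient_prime hp.out]
  rw [h2] at h1
  have h3 := Nat.le_of_dvd (Nat.sub_pos_of_lt hp.out.one_lt) (h.trans h1)
  have := hp.out.one_lt
  omega

/-- `ker χ_cyc` is open for the `S`-levels (as `p ∈ S`) -/
lemma pts_isOpen_cycloKer {S : Finset Nat.Primes} (hpS : pPrime p ∈ S) :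
    (pta_levelsS S).IsOpen (cycloChar p).ker :=
  ⟨_, pta_mem_levelsS (pta_cycloField_unram S hpS) pta_cycloField_stable,
    pta_fixingSubgroup_cycloField.le⟩

/-- the stabiliser of `μ_p` in `G_q` -/
noncomputable abbrev pts_cycloKerLoc (p : ℕ) [Fact p.Prime] (q : Nat.Primes) :
    Subgroup (primeLocalGaloisGroup q) :=
  ((cycloChar p).comp (primeLocalToGlobal q)).ker

lemma pts_not_dvd_index_cycloKerLoc (q : Nat.Primes) : ¬ p ∣ (pts_cycloKerLoc p q).index :=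
  pts_not_dvd_index_ker _

end Cyclo

/-- The local big model at `q ∈ S` attached to `𝒢`, WITHOUT the invariant map (`pts_LocData`
minus its last field). -/
structure pts_LocPre {p : ℕ} [Fact p.Prime] {S : Finset Nat.Primes} (𝒢 : pts_EMod p S)
    (q : ↥S) where
  A : Type
  [instA : AddCommGroup A]
  ρ : Representation ℤ (primeLocalGaloisGroup q.1) A
  /-- the level structure of `G_q` -/
  𝓛 : ptd_Levels (primeLocalGaloisGroup q.1)
  lev₁_iff : ∀ {X : Type} (f : primeLocalGaloisGroup q.1 → X),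
    ptd_IsLev₁ 𝓛 f ↔ IsLevelConstant₁ (primeLocalToGlobal q.1) f
  lev₂_iff : ∀ {X : Type} (f : primeLocalGaloisGroup q.1 × primeLocalGaloisGroup q.1 → X),
    ptd_IsLev₂ 𝓛 f ↔ IsLevelConstant₂ (primeLocalToGlobal q.1) f
  /-- evaluation of an idele at the base embedding over `q` -/
  evΩ : 𝒢.J →+ A
  evΩ_loc : ∀ (τ : primeLocalGaloisGroup q.1) (x : 𝒢.J),
    evΩ (primeLocalToGlobal q.1 τ • x) = ρ τ (evΩ x)
  /-- `μ_p ⊂ A` -/
  ζloc : ZMod p →+ A
  ζloc_inj : Function.Injective ζloc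
  tors : ∀ a : A, p • a = 0 → ∃ c, ζloc c = a
  evΩ_tors : ∀ x : 𝒢.J, p • x = 0 → evΩ x = ζloc (𝒢.ev q x)

attribute [instance] pts_LocPre.instA

namespace pts_LocPre

variable {p : ℕ} [hp : Fact p.Prime] {S : Finset Nat.Primes} {𝒢 : pts_EMod p S} {q : ↥S}
variable (L : pts_LocPre 𝒢 q)

/-- adding an invariant map -/
def toLocData (inv : ptd_Inv L.𝓛 L.ρ (ZMod p) p) : pts_LocData 𝒢 q where
  A := L.A
  ρ := L.ρ
  𝓛 := L.𝓛
  lev₁_iff := L.lev₁_iff
  lev₂_iff := L.lev₂_iff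
  evΩ := L.evΩ
  evΩ_loc := L.evΩ_loc
  ζloc := L.ζloc
  ζloc_inj := L.ζloc_inj
  tors := L.tors
  evΩ_tors := L.evΩ_tors
  inv := inv

lemma isOpen_K : L.𝓛.IsOpen (pts_cycloKerLoc p q.1) := by
  have h : IsLevelConstant₁ (primeLocalToGlobal q.1)
      (fun τ : primeLocalGaloisGroup q.1 => cycloChar p (primeLocalToGlobal q.1 τ)) := by
    refine ⟨pta_cycloField p, inferInstance, fun g s hs => ?_⟩
    rw [pta_fixingSubgroup_cycloField, MonoidHom.mem_ker] at hs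
    show cycloChar p (primeLocalToGlobal q.1 (g * s)) = cycloChar p (primeLocalToGlobal q.1 g)
    rw [map_mul, map_mul, hs, mul_one]
  obtain ⟨N, hN, hNc⟩ := (L.lev₁_iff _).2 h
  refine ⟨N, hN, fun n hn => ?_⟩
  have := hNc 1 n hn
  simp only [one_mul, map_one] at this
  exact this

/-- the restriction to `G_q` of a smooth finite `G_ℚ`-module is trivial on a level -/
lemma isTrivOnLevel (M : Rep.{0} (ZMod p) GQ) [Module.Finite (ZMod p) M]
    (hsm : ∀ m : M, ∃ F : IntermediateField ℚ Qbar, FiniteDimensional ℚ F ∧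
      ∀ s ∈ F.fixingSubgroup, M.ρ s m = m) :
    ptd_IsTrivOnLevel L.𝓛 (pts_LocData.Mq M q).ρ := by
  obtain ⟨F, hF, hle⟩ := pta_exists_finite_triv hsm
  have h : IsLevelConstant₁ (primeLocalToGlobal q.1)
      (fun τ : primeLocalGaloisGroup q.1 => M.ρ (primeLocalToGlobal q.1 τ)) := by
    refine ⟨F, hF, fun g s hs => ?_⟩
    have := MonoidHom.mem_ker.mp (hle hs)
    show M.ρ (primeLocalToGlobal q.1 (g * s)) = M.ρ (primeLocalToGlobal q.1 g)
    rw [map_mul, map_mul, this, mul_one]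
  obtain ⟨N, hN, hNc⟩ := (L.lev₁_iff _).2 h
  refine ⟨N, hN, fun n hn => ?_⟩
  have := hNc 1 n hn
  simp only [one_mul, map_one] at this
  exact this

/-- the `q`-component of a `J`-valued level 2-cocycle of `G_ℚ` is a level 2-cocycle of `G_q` -/
lemma isLZ2_evΩ {y : GQ × GQ → 𝒢.J} (hy : ptd_IsLZ2 (pta_levelsS S) 𝒢.ρJ y) :
    ptd_IsLZ2 L.𝓛 L.ρ (fun x =>
      L.evΩ (y (primeLocalToGlobal q.1 x.1, primeLocalToGlobal q.1 x.2))) := by
  refine ⟨fun g h j => ?_, ?_⟩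
  · have := hy.1 (primeLocalToGlobal q.1 g) (primeLocalToGlobal q.1 h) (primeLocalToGlobal q.1 j)
    simp only [map_mul]
    rw [← map_add, this, map_add]
    congr 1
    exact L.evΩ_loc g _
  · rw [L.lev₂_iff]
    obtain ⟨_, ⟨F, hF, -, rfl⟩, h⟩ := hy.2
    have := hF.1
    refine ⟨F, inferInstance, fun g g' s s' hs hs' => ?_⟩
    simp only [map_mul]
    rw [h _ _ _ hs _ hs']

lemma isLZ2p_evΩ {y : GQ × GQ → 𝒢.J} (hy : ptd_IsLZ2 (pta_levelsS S) 𝒢.ρJ y)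
    (hyp : ∀ x, p • y x = 0) :
    ptd_IsLZ2p L.𝓛 L.ρ p (fun x =>
      L.evΩ (y (primeLocalToGlobal q.1 x.1, primeLocalToGlobal q.1 x.2))) :=
  (L.isLZ2_evΩ hy).isLZ2p_of_nsmul_eq_zero' (by
    funext x
    simp only [Pi.smul_apply, Pi.zero_apply]
    rw [← map_nsmul, hyp, map_zero])

end pts_LocPre

section Top

variable {p : ℕ} [hp : Fact p.Prime]

set_option maxHeartbeats 800000 in
/-- **S55 from level data** (T-valued nondegeneracies as hypotheses). -/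
theorem pts_S55_of_levelData
    (hp2 : p ≠ 2) (S : Finset Nat.Primes) (hpS : pPrime p ∈ S)
    (M : Rep (ZMod p) (AlgebraicClosure ℚ ≃ₐ[ℚ] AlgebraicClosure ℚ))
    [FiniteDimensional (ZMod p) M]
    (hsm : ∀ m : M, ∃ F : IntermediateField ℚ (AlgebraicClosure ℚ), FiniteDimensional ℚ F ∧
      ∀ s ∈ F.fixingSubgroup, M.ρ s m = m)
    (hMur : ∀ q : Nat.Primes, q ∉ S → ∀ A : ValuationSubring (AlgebraicClosure ℚ),
      A.LiesOverPrime (q : ℕ) → ∀ g ∈ A.inertiaSubgroupIn ℚ, M.ρ g = 1)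
    (𝒢 : pts_EMod p S)
    (DG : ptn_LevelData (pta_levelsS S) 𝒢.ρC p) (hdG : ptd_IsDiscrete (pta_levelsS S) 𝒢.ρC)
    (hAG : ptd_NondegH2 (pta_levelsS S) 𝒢.ρC (ptn_invG DG hdG) M.ρ)
    (hBG : ptd_NondegHom (pta_levelsS S) 𝒢.ρC (ptn_invG DG hdG) M.ρ)
    (L : ∀ q : ↥S, pts_LocPre 𝒢 q)
    (DL : ∀ q : ↥S, ptn_LevelData (L q).𝓛 (L q).ρ p)
    (hdL : ∀ q : ↥S, ptd_IsDiscrete (L q).𝓛 (L q).ρ)
    (hCL : ∀ q : ↥S, ptd_NondegH2 (L q).𝓛 (L q).ρ (ptn_invG (DL q) (hdL q))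
      (pts_LocData.Mq M q).ρ)
    (hLG : ∀ y : GQ × GQ → 𝒢.J, ptd_IsLZ2 (pta_levelsS S) 𝒢.ρJ y → (∀ x, p • y x = 0) →
      ptn_invG DG hdG (fun x => 𝒢.π (y x)) = ∑ q : ↥S, ptn_invG (DL q) (hdL q) (fun x =>
        (L q).evΩ (y (primeLocalToGlobal q.1 x.1, primeLocalToGlobal q.1 x.2)))) :
    ∃ B : sha₁ S (M.dualTwist (cycloChar p)) →ₗ[ZMod p] sha₂ S M →ₗ[ZMod p] ZMod p,
      (∀ y, (∀ x, B y x = 0) → y = 0) ∧ (∀ x, (∀ y, B y x = 0) → x = 0) := by
  have hpM : ∀ m : M.V, p • m = 0 := fun m => ZModModule.char_nsmul_eq_zero p m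
  refine pts_S55_of_producers hp2 S hpS M hsm hMur 𝒢 (pts_invZ (ptn_invG DG hdG))
    (pts_nondegH2_invZ hpM hAG) (pts_nondegHom_invZ hpM hBG)
    (fun q => (L q).toLocData (pts_invZ (ptn_invG (DL q) (hdL q))))
    (fun q => pts_nondegH2_invZ hpM (hCL q)) (fun y hy hyp => ?_)
  change pts_theta p (ptn_invG DG hdG (fun x => 𝒢.π (y x)))
    = ∑ q : ↥S, pts_theta p (ptn_invG (DL q) (hdL q) (fun x =>
        (L q).evΩ (y (primeLocalToGlobal q.1 x.1, primeLocalToGlobal q.1 x.2))))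
  rw [hLG y hy hyp, pts_theta_sum]
  exact fun q _ => pts_inv_tors _ ((L q).isLZ2p_evΩ hy hyp)

set_option maxHeartbeats 800000 in
/-- **S55 from the two class formations** (global and local level data) and the
trivial-coefficient inputs F3, F4 for the open subgroups fixing `μ_p`, plus (LG). -/
theorem pts_S55_of_formations
    (hp2 : p ≠ 2) (S : Finset Nat.Primes) (hpS : pPrime p ∈ S)
    (M : Rep (ZMod p) (AlgebraicClosure ℚ ≃ₐ[ℚ] AlgebraicClosure ℚ))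
    [FiniteDimensional (ZMod p) M]
    (hsm : ∀ m : M, ∃ F : IntermediateField ℚ (AlgebraicClosure ℚ), FiniteDimensional ℚ F ∧
      ∀ s ∈ F.fixingSubgroup, M.ρ s m = m)
    (hMur : ∀ q : Nat.Primes, q ∉ S → ∀ A : ValuationSubring (AlgebraicClosure ℚ),
      A.LiesOverPrime (q : ℕ) → ∀ g ∈ A.inertiaSubgroupIn ℚ, M.ρ g = 1)
    -- (G1)
    (𝒢 : pts_EMod p S)
    -- (G-FC)
    (DG : ptn_LevelData (pta_levelsS S) 𝒢.ρC p) (hdG : ptd_IsDiscrete (pta_levelsS S) 𝒢.ρC)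
    -- (G-F3), (G-F4), (G-F4')
    (hF3G : ∀ (U : Subgroup GQ) (hU : (pta_levelsS S).IsOpen U), U ≤ (cycloChar p).ker →
      ptd_F3 ((pta_levelsS S).sub U hU) (ptd_resRep 𝒢.ρC U) (ptn_invU DG hdG U hU))
    (hF4G : ∀ (U : Subgroup GQ) (hU : (pta_levelsS S).IsOpen U), U ≤ (cycloChar p).ker →
      ptd_NondegH2 ((pta_levelsS S).sub U hU) (ptd_resRep 𝒢.ρC U) (ptn_invU DG hdG U hU)
        (Representation.trivial (ZMod p) U (ZMod p)))
    (hF4G' : ∀ (V : Subgroup GQ) (hV : V ∈ (pta_levelsS S).lev), V ≤ (cycloChar p).ker →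
      ptd_NondegHom ((pta_levelsS S).sub V ((pta_levelsS S).isOpen_of_mem hV))
        (ptd_resRep 𝒢.ρC V) (ptn_invU DG hdG V ((pta_levelsS S).isOpen_of_mem hV))
        (Representation.trivial (ZMod p) V (ZMod p)))
    -- (L-pre), (L-FC)
    (L : ∀ q : ↥S, pts_LocPre 𝒢 q)
    (DL : ∀ q : ↥S, ptn_LevelData (L q).𝓛 (L q).ρ p)
    (hdL : ∀ q : ↥S, ptd_IsDiscrete (L q).𝓛 (L q).ρ)
    -- (L-F3), (L-F4)
    (hF3L : ∀ (q : ↥S) (U : Subgroup (primeLocalGaloisGroup q.1)) (hU : (L q).𝓛.IsOpen U),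
      U ≤ pts_cycloKerLoc p q.1 → ptd_F3 ((L q).𝓛.sub U hU) (ptd_resRep (L q).ρ U)
        (ptn_invU (DL q) (hdL q) U hU))
    (hF4L : ∀ (q : ↥S) (U : Subgroup (primeLocalGaloisGroup q.1)) (hU : (L q).𝓛.IsOpen U),
      U ≤ pts_cycloKerLoc p q.1 → ptd_NondegH2 ((L q).𝓛.sub U hU) (ptd_resRep (L q).ρ U)
        (ptn_invU (DL q) (hdL q) U hU) (Representation.trivial (ZMod p) U (ZMod p)))
    -- (LG)
    (hLG : ∀ y : GQ × GQ → 𝒢.J, ptd_IsLZ2 (pta_levelsS S) 𝒢.ρJ y → (∀ x, p • y x = 0) →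
      ptn_invG DG hdG (fun x => 𝒢.π (y x)) = ∑ q : ↥S, ptn_invG (DL q) (hdL q) (fun x =>
        (L q).evΩ (y (primeLocalToGlobal q.1 x.1, primeLocalToGlobal q.1 x.2)))) :
    ∃ B : sha₁ S (M.dualTwist (cycloChar p)) →ₗ[ZMod p] sha₂ S M →ₗ[ZMod p] ZMod p,
      (∀ y, (∀ x, B y x = 0) → y = 0) ∧ (∀ x, (∀ y, B y x = 0) → x = 0) := by
  have htrivG : ptd_IsTrivOnLevel (pta_levelsS S) M.ρ :=
    pta_isTrivOnLevel M (pta_isLevel_kerField (S := S) hsm hMur)
  refine pts_S55_of_levelData hp2 S hpS M hsm hMur 𝒢 DG hdG ?_ ?_ L DL hdL (fun q => ?_) hLG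
  · exact pts_nondegH2_of_levelData DG hdG (cycloChar p).ker (pts_isOpen_cycloKer hpS)
      (pts_not_dvd_index_ker _) M.ρ hF3G hF4G htrivG
  · exact pts_nondegHom_of_levelData DG hdG (cycloChar p).ker (pts_isOpen_cycloKer hpS) M.ρ
      hF4G' htrivG
  · exact pts_nondegH2_of_levelData (DL q) (hdL q) (pts_cycloKerLoc p q.1) (L q).isOpen_K
      (pts_not_dvd_index_cycloKerLoc q.1)
      (pts_LocData.Mq M q).ρ (hF3L q) (hF4L q) ((L q).isTrivOnLevel M hsm)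

end Top

end Fermat.Agent.Lib.PT
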