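/-
S55 long haul, (EM) part N: the local big models attached to `pta_EMod` (`pts_LocPre`, with
`A = Additive Ω_qˣ`, `ρ = ptg_unitsRep q`, levels `pta_levelsR`, `evΩ` = the coordinate at the base
embedding), and the full coinduced presentation of `J = 𝒥_S^S`:
`J = ⊕_{q ∈ S} CoInd_{G_q}^{G_ℚ} Ω_qˣ` (smooth part) — injectivity and surjectivity.
-/
import Fermat.Agent.Lib.PT.GModEModM
import Fermat.Agent.Lib.PT.S55Formation

set_option autoImplicit false
set_option linter.unusedVariables false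
set_option linter.unusedSectionVars false
set_option linter.style.haveILetI false

noncomputable section

namespace Fermat.Agent.Lib.PT

open IntermediateField ExtCitation groupCohomology

local notation "Qbar" => AlgebraicClosure ℚ
local notation "GQ" => (AlgebraicClosure ℚ ≃ₐ[ℚ] AlgebraicClosure ℚ)

variable (p : ℕ) [Fact p.Prime] {S : Finset Nat.Primes}

/-- the coordinate at `ι_q` of the translate by a local Galois element, in terms of the
representation `ptg_unitsRep` -/
lemma pta_evU_loc' (q : Nat.Primes) (τ : ptj_Gq q) (x : pta_EJ S) :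
    pta_evU S q (localGaloisToGlobal (q : ℕ) τ • x) = ptg_unitsRep (q : ℕ) τ (pta_evU S q x) := by
  rw [pta_evU_loc]
  rfl

/-- **the local big model at `q ∈ S` attached to `pta_EMod`**. -/
def pta_LocPre (hpS : pPrime p ∈ S) (q : ↥S) : pts_LocPre (pta_EMod p hpS) q where
  A := Additive (ptj_Om q.1)ˣ
  instA := inferInstance
  ρ := ptg_unitsRep (q.1 : ℕ)
  𝓛 := pta_levelsR (primeLocalToGlobal q.1)
  lev₁_iff := fun f => pta_isLevR₁_iff f
  lev₂_iff := fun f => pta_isLevR₂_iff f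
  evΩ := pta_evU S q.1
  evΩ_loc := fun τ x => pta_evU_loc' q.1 τ x
  ζloc := ptg_zetaHom p (pta_zetaq p q.1) (pta_zetaq_spec p q.1).pow_eq_one
  ζloc_inj := ptg_zetaHom_injective p (pta_zetaq_spec p q.1)
  tors := fun a ha => ptg_exists_zetaHom_of_tors p (pta_zetaq_spec p q.1) a ha
  evΩ_tors := fun x hx => (pta_Eev_spec p S q.1 hx).symm

/-! ### The coinduced presentation of `J` -/

variable (S)

open Classical in
/-- the element of the ambient product with prescribed `Ω_qˣ`-valued coordinates at `q ∈ S` -/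
def pta_coindFullAmb (f : ∀ q : ↥S, GQ → Additive (ptj_Om q.1)ˣ) : ptj_Amb Qbar := fun q σ =>
  if hq : q ∈ S then (f ⟨q, hq⟩ (pta_gOf q σ)).toMul else 1

lemma pta_coindFullAmb_of_mem (f : ∀ q : ↥S, GQ → Additive (ptj_Om q.1)ˣ) {q : Nat.Primes}
    (hq : q ∈ S) (σ : ptj_Emb Qbar q) :
    pta_coindFullAmb S f q σ = (f ⟨q, hq⟩ (pta_gOf q σ)).toMul := by
  unfold pta_coindFullAmb
  rw [dif_pos hq]

lemma pta_coindFullAmb_of_not_mem (f : ∀ q : ↥S, GQ → Additive (ptj_Om q.1)ˣ) {q : Nat.Primes}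
    (hq : q ∉ S) : pta_coindFullAmb S f q = 1 := by
  funext σ
  unfold pta_coindFullAmb
  rw [dif_neg hq]
  rfl

variable {S}

lemma pta_coindFullAmb_mem_J {f : ∀ q : ↥S, GQ → Additive (ptj_Om q.1)ˣ}
    (hloc : ∀ (q : ↥S) (τ : ptj_Gq q.1) (g : GQ),
      f q (localGaloisToGlobal (q.1 : ℕ) τ * g) = ptg_unitsRep (q.1 : ℕ) τ (f q g)) :
    pta_coindFullAmb S f ∈ ptj_J Qbar := by
  refine ⟨fun q τ σ => ?_, ?_⟩
  · by_cases hq : q ∈ S
    · rw [pta_coindFullAmb_of_mem S f hq, pta_coindFullAmb_of_mem S f hq, pta_gOf_post,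
        hloc ⟨q, hq⟩ τ]
      rfl
    · rw [pta_coindFullAmb_of_not_mem S f hq]
      simp
  · rw [Filter.eventually_cofinite]
    refine S.finite_toSet.subset fun q hq => ?_
    by_contra hqS
    apply hq
    intro σ
    rw [pta_coindFullAmb_of_not_mem S f hqS]
    simp

/-- **(COIND-full), surjectivity**: every level-smooth `G_q`-equivariant family of
`Ω_qˣ`-valued coordinates is realised by an `S`-supported smooth idele. -/
theorem pta_evU_surj (f : ∀ q : ↥S, GQ → Additive (ptj_Om q.1)ˣ)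
    (hlev : ∃ F : IntermediateField ℚ Qbar, F.IsUnramifiedOutside S ∧
      ∀ q g s, s ∈ F.fixingSubgroup → f q (g * s) = f q g)
    (hloc : ∀ (q : ↥S) (τ : ptj_Gq q.1) (g : GQ),
      f q (localGaloisToGlobal (q.1 : ℕ) τ * g) = ptg_unitsRep (q.1 : ℕ) τ (f q g)) :
    ∃ x : pta_EJ S, ∀ (q : ↥S) (g : GQ), pta_evU S q.1 (g • x) = f q g := by
  obtain ⟨F, hF, hFf⟩ := hlev
  set a : ptj_J Qbar := ⟨pta_coindFullAmb S f, pta_coindFullAmb_mem_J hloc⟩ with ha
  have haS : a ∈ pta_JSS S := by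
    refine ⟨⟨F, hF, fun s hs => ?_⟩, fun q hq => pta_coindFullAmb_of_not_mem S f hq⟩
    apply Subtype.ext
    funext q σ
    show pta_coindFullAmb S f q (ptj_pre s σ) = pta_coindFullAmb S f q σ
    by_cases hq : q ∈ S
    · rw [pta_coindFullAmb_of_mem S f hq, pta_coindFullAmb_of_mem S f hq, pta_gOf_pre',
        hFf ⟨q, hq⟩ _ s hs]
    · rw [pta_coindFullAmb_of_not_mem S f hq]
      rfl
  refine ⟨Additive.ofMul ⟨a, haS⟩, fun q g => ?_⟩
  rw [pta_evU_smul]
  show Additive.ofMul (pta_coindFullAmb S f q.1 (ptj_pre g (pta_iota q.1))) = f q g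
  rw [pta_coindFullAmb_of_mem S f q.2, pta_gOf_pre]
  rfl

/-- **(COIND-full), injectivity**: an `S`-supported smooth idele is determined by the coordinates
at the base embeddings of all its conjugates. -/
theorem pta_evU_inj (x : pta_EJ S) (h : ∀ (q : ↥S) (g : GQ), pta_evU S q.1 (g • x) = 0) :
    x = 0 := by
  apply Additive.toMul.injective
  apply Subtype.ext
  apply Subtype.ext
  funext q σ
  show ((x.toMul : ptj_J Qbar) : ptj_Amb Qbar) q σ = 1
  by_cases hq : q ∈ S
  · have h1 := h ⟨q, hq⟩ (pta_gOf q σ)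
    rw [pta_evU_smul, ← pta_gOf_spec] at h1
    exact h1
  · rw [x.toMul.2.2 q hq]
    rfl

end Fermat.Agent.Lib.PT

end
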