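/-
S55 (Poitou–Tate long-haul), (SL): the SEMI-LOCAL STRUCTURE of the idele module from a COINDUCED
PRESENTATION, abstractly.

`pts_CoindPres 𝓛 ρJ 𝓛v ρv r ev` : the `G`-module `J` is "`⊕_v` of the smooth coinduced modules
`CoInd_{Gv}^G Av`" through the coordinates `g ↦ ev v (g • x)`:
* (inj)  `x` is determined by its coordinates;
* (surj) every level-smooth, `Gv`-equivariant family of coordinate functions is realised.

From such a presentation (and local Hilbert 90, for `h1J`, `h2J`) we prove the fields of helper3's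
`ptd_GSemiLocal`: `ev_inj`, `ev_indep`, `sh1`, `h1J` (this file) and `h2J` (`SemiLocH2`), by
explicit cochain formulas — Shapiro's lemma in degrees 1 and 2 reduces to (inj)/(surj).
-/
import Mathlib
import Fermat.Agent.Lib.PT.AdtBaseDefs

set_option autoImplicit false
set_option linter.unusedSectionVars false

namespace Fermat.Agent.Lib.PT

section Pres

variable {G : Type*} [Group G] (𝓛 : ptd_Levels G)
variable {J : Type*} [AddCommGroup J] (ρJ : Representation ℤ G J)
variable {𝒱 : Type*} {Gv : 𝒱 → Type*} [∀ v, Group (Gv v)] (𝓛v : ∀ v, ptd_Levels (Gv v))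
variable {Av : 𝒱 → Type*} [∀ v, AddCommGroup (Av v)] (ρv : ∀ v, Representation ℤ (Gv v) (Av v))
variable (r : ∀ v, Gv v →* G) (ev : ∀ v, J →+ Av v)

/-- a coinduced presentation of the `G`-module `J` with respect to the local groups
`r v : Gv v → G` and the evaluation maps `ev v : J → Av v` -/
structure pts_CoindPres : Prop where
  disc : ptd_IsDiscrete 𝓛 ρJ
  r_inj : ∀ v, Function.Injective (r v)
  r_cont : ∀ v, ptd_IsLevCont (𝓛v v) 𝓛 (r v)
  ev_equiv : ∀ v (t : Gv v) (x : J), ev v (ρJ (r v t) x) = ρv v t (ev v x)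
  inj : ∀ x : J, (∀ v g, ev v (ρJ g x) = 0) → x = 0
  surj : ∀ f : ∀ v, G → Av v, (∃ N ∈ 𝓛.lev, ∀ v g, ∀ n ∈ N, f v (g * n) = f v g) →
    (∀ v (t : Gv v) (g : G), f v (r v t * g) = ρv v t (f v g)) →
    ∃ x : J, ∀ v g, ev v (ρJ g x) = f v g

/-- local Hilbert 90 for the open subgroups of the local groups, in cochain form -/
def pts_LocalH90 : Prop :=
  ∀ v (H : Subgroup (Gv v)), (𝓛v v).IsOpen H → ∀ φ : Gv v → Av v, ptd_IsLev₁ (𝓛v v) φ →
    (∀ a ∈ H, ∀ b ∈ H, φ (a * b) = ρv v a (φ b) + φ a) →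
    ∃ c : Av v, ∀ a ∈ H, φ a = ρv v a c - c

variable {𝓛 ρJ 𝓛v ρv r ev}

namespace pts_CoindPres

variable (P : pts_CoindPres 𝓛 ρJ 𝓛v ρv r ev)
include P

lemma ext {x y : J} (h : ∀ v g, ev v (ρJ g x) = ev v (ρJ g y)) : x = y := by
  have := P.inj (x - y) (fun v g => by rw [map_sub, map_sub, h v g, sub_self])
  exact sub_eq_zero.mp this

/-- an invariant idele is determined by its local components -/
theorem ev_inj (j : J) (hj : ∀ g, ρJ g j = j) (h : ∀ v, ev v j = 0) : j = 0 :=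
  P.inj j fun v g => by rw [hj g, h v]

/-- invariant ideles with one prescribed local component -/
theorem ev_indep (p : ℕ) (v : 𝒱) (a : Av v) (ha : ∀ t, ρv v t a = a) :
    ∃ j : J, (∀ g, ρJ g j = j) ∧ ev v j = a ∧ (∀ v', v' ≠ v → ev v' j = 0) ∧
      (p • a = 0 → p • j = 0) := by
  classical
  let f : ∀ v', G → Av v' := fun v' _ => if h : v' = v then h ▸ a else 0
  have hf_self : ∀ g, f v g = a := fun g => by simp [f]
  have hf_ne : ∀ v', v' ≠ v → ∀ g, f v' g = 0 := fun v' hv' g => by simp [f, hv']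
  obtain ⟨N₀, hN₀⟩ := 𝓛.nonempty
  obtain ⟨j, hj⟩ := P.surj f ⟨N₀, hN₀, fun _ _ _ _ => rfl⟩ (fun v' t g => by
    by_cases hv' : v' = v
    · subst hv'
      rw [hf_self (r v' t * g)]
      exact (ha t).symm
    · rw [hf_ne v' hv' (r v' t * g)]
      exact (map_zero _).symm)
  refine ⟨j, fun g => P.ext fun v' g' => ?_, ?_, fun v' hv' => ?_, fun hpa => ?_⟩
  · rw [← Module.End.mul_apply, ← map_mul, hj, hj]
  · have := hj v 1
    rwa [map_one, Module.End.one_apply, hf_self 1] at this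
  · have := hj v' 1
    rwa [map_one, Module.End.one_apply, hf_ne v' hv' 1] at this
  · refine P.inj _ fun v' g => ?_
    rw [map_nsmul, map_nsmul, hj]
    by_cases hv' : v' = v
    · subst hv'
      rw [hf_self g, hpa]
    · rw [hf_ne v' hv' g, smul_zero]

/-- **Shapiro in degree one for `J[p]`**: a locally trivial level character is `g ↦ g x - x`
through `ζ`, for a `p`-torsion idele `x`. -/
theorem sh1 {p : ℕ} [Fact p.Prime] (ζ : ZMod p →+ J) (hζ : ∀ g a, ρJ g (ζ a) = ζ a)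
    (χ : G → ZMod p) (hχ : ptd_IsChar χ) (hχl : ptd_IsLev₁ 𝓛 χ)
    (hloc : ∀ v t, χ (r v t) = 0) :
    ∃ x : J, p • x = 0 ∧ ∀ g, ρJ g x - x = ζ (χ g) := by
  obtain ⟨N, hN, hχN⟩ := hχl
  obtain ⟨x, hx⟩ := P.surj (fun v g => ev v (ζ (χ g)))
    ⟨N, hN, fun v g n hn => by simp only [hχN g n hn]⟩ (fun v t g => by
      rw [hχ, hloc, zero_add, ← P.ev_equiv, hζ])
  refine ⟨x, P.inj _ fun v g => ?_, fun g => P.ext fun v g' => ?_⟩
  · rw [map_nsmul, map_nsmul, hx, ← map_nsmul, ← map_nsmul, nsmul_eq_mul, ZMod.natCast_self,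
      zero_mul, map_zero, map_zero]
  · rw [map_sub, map_sub, ← Module.End.mul_apply, ← map_mul, hx, hx, hζ, hχ, map_add, map_add,
      add_sub_cancel_left]

/-- **Hilbert 90 for the ideles** (Shapiro in degree one): every level `1`-cocycle with values in
`J` is a coboundary. -/
theorem h1J (h90 : pts_LocalH90 𝓛v ρv) (ψ : G → J) (hψ : ptd_IsLZ1 𝓛 ρJ ψ) :
    ptd_IsB1 ρJ ψ := by
  obtain ⟨hZ, hL⟩ := hψ
  -- the local cocycles are coboundaries
  have hloc : ∀ v, ∃ c : Av v, ∀ t, ev v (ψ (r v t)) = ρv v t c - c := by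
    intro v
    obtain ⟨c, hc⟩ := h90 v ⊤ (𝓛v v).isOpen_top (ptd_loc₁ (r v) (ev v) ψ)
      (hL.loc (P.r_cont v) (ev v)) (fun a _ b _ => by
        simp only [ptd_loc₁_apply, map_mul]
        rw [hZ, map_add, P.ev_equiv])
    exact ⟨c, fun t => hc t (Subgroup.mem_top t)⟩
  choose c hc using hloc
  obtain ⟨N, hN, hψN⟩ := hL
  obtain ⟨x, hx⟩ := P.surj (fun v g => c v + ev v (ψ g))
    ⟨N, hN, fun v g n hn => by simp only [hψN g n hn]⟩ (fun v t g => by
      rw [hZ, map_add, P.ev_equiv, hc, map_add]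
      abel)
  refine ⟨x, ?_⟩
  funext g
  rw [ptd_d0_apply]
  refine P.ext fun v g' => ?_
  rw [map_sub, map_sub, ← Module.End.mul_apply, ← map_mul, hx, hx, hZ g' g, map_add]
  abel

end pts_CoindPres

end Pres

end Fermat.Agent.Lib.PT
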