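/-
S55 (Poitou–Tate long-haul), (SL): the HASSE PRINCIPLE FOR `H²` OF THE IDELES (`h2J` of helper3's
`ptd_GSemiLocal`) from a coinduced presentation and local Hilbert 90 — Shapiro's lemma in degree
two, by explicit cochains.

For a level `2`-cocycle `W : G × G → J` whose localisations `W_v = ev v ∘ W ∘ (r v × r v)` are
level coboundaries `d φ_v`:
* (A) a level `N` at which `W` lives;
* (B) the local primitives `φ_v` can be chosen at the level `r v ⁻¹ N` (inflation is injective, by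
  Hilbert 90 for the open subgroup `r v ⁻¹ N`);
* (C) a `0`-cochain `c_v : G → Av v` with `c_v (r τ * y) = τ • c_v y + ev v (W (r τ, y)) - φ_v τ`,
  right-`N`-invariant (double coset representatives `r v (Gv v) \ G / N`);
* the coordinates `ev v (W (x, u)) - c_v (x * u) + c_v x` of `η u ∈ J` with `d η = W`.
-/
import Mathlib
import Fermat.Agent.Lib.PT.SemiLocPres
import Fermat.Agent.Lib.PT.BrgLevA

set_option autoImplicit false
set_option linter.unusedSectionVars false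

namespace Fermat.Agent.Lib.PT

section AtLevel

variable {G : Type*} [Group G] {J : Type*} [AddCommGroup J] (ρJ : Representation ℤ G J)

/-- a `2`-cocycle living at the subgroup `N`: right-`N`-invariant with `N`-fixed values -/
structure pts_AtLevel (N : Subgroup G) (W : G × G → J) : Prop where
  z2 : ptd_IsZ2 ρJ W
  rinv : ∀ g h, ∀ n ∈ N, ∀ n' ∈ N, W (g * n, h * n') = W (g, h)
  fix : ∀ g h, ∀ n ∈ N, ρJ n (W (g, h)) = W (g, h)

variable {ρJ} {N : Subgroup G} {W : G × G → J}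

namespace pts_AtLevel

variable (hW : pts_AtLevel ρJ N W)
include hW

lemma rinv₁ (g h : G) {n : G} (hn : n ∈ N) : W (g * n, h) = W (g, h) := by
  have := hW.rinv g h n hn 1 N.one_mem
  rwa [mul_one] at this

lemma rinv₂ (g h : G) {n : G} (hn : n ∈ N) : W (g, h * n) = W (g, h) := by
  have := hW.rinv g h 1 N.one_mem n hn
  rwa [mul_one] at this

lemma one_left (s : G) : W (1, s) = W (1, 1) := by
  have := hW.z2 1 1 s
  rw [one_mul, one_mul, map_one, Module.End.one_apply] at this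
  exact (add_left_cancel this).symm

lemma one_right (g : G) : W (g, 1) = ρJ g (W (1, 1)) := by
  have := hW.z2 g 1 1
  rw [mul_one, mul_one] at this
  exact add_right_cancel this

lemma mem_left {n : G} (hn : n ∈ N) (s : G) : W (n, s) = W (1, 1) := by
  have := hW.rinv₁ 1 s hn
  rw [one_mul] at this
  rw [this, hW.one_left]

lemma mem_right (g : G) {n : G} (hn : n ∈ N) : W (g, n) = ρJ g (W (1, 1)) := by
  have := hW.rinv₂ g 1 hn
  rw [one_mul] at this
  rw [this, hW.one_right]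

/-- left multiplication of the second variable by an element of the (normal) level -/
lemma rinv₂' [N.Normal] (g s : G) {n : G} (hn : n ∈ N) : W (g, n * s) = W (g, s) := by
  have h : n * s = s * (s⁻¹ * n * s) := by group
  rw [h]
  exact hW.rinv₂ g s (by simpa using Subgroup.Normal.conj_mem ‹N.Normal› n hn s⁻¹)

end pts_AtLevel

end AtLevel

section H2

variable {G : Type*} [Group G] {𝓛 : ptd_Levels G}
variable {J : Type*} [AddCommGroup J] {ρJ : Representation ℤ G J}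
variable {𝒱 : Type*} {Gv : 𝒱 → Type*} [∀ v, Group (Gv v)] {𝓛v : ∀ v, ptd_Levels (Gv v)}
variable {Av : 𝒱 → Type*} [∀ v, AddCommGroup (Av v)] {ρv : ∀ v, Representation ℤ (Gv v) (Av v)}
variable {r : ∀ v, Gv v →* G} {ev : ∀ v, J →+ Av v}

/-- (A): a level cocycle with values in a discrete module lives at a level -/
lemma pts_exists_atLevel (hd : ptd_IsDiscrete 𝓛 ρJ) {W : G × G → J} (hW : ptd_IsLZ2 𝓛 ρJ W) :
    ∃ N ∈ 𝓛.lev, pts_AtLevel ρJ N W := by
  obtain ⟨N₁, hN₁, hfix⟩ := hd.exists_level_of_finite (ptn_isLev₂_finite_range hW.2)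
  obtain ⟨N₂, hN₂, h₂⟩ := hW.2
  obtain ⟨N, hN, hle⟩ := 𝓛.directed N₁ hN₁ N₂ hN₂
  exact ⟨N, hN, hW.1, fun g h n hn n' hn' => h₂ g h n (hle hn).2 n' (hle hn').2,
    fun g h n hn => hfix _ ⟨(g, h), rfl⟩ n (hle hn).1⟩

end H2

section Single

variable {G : Type*} [Group G] {𝓛 : ptd_Levels G}
variable {J : Type*} [AddCommGroup J] {ρJ : Representation ℤ G J}
variable {H' : Type*} [Group H'] {𝓛' : ptd_Levels H'}
variable {A : Type*} [AddCommGroup A] {ρA : Representation ℤ H' A}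
variable (rr : H' →* G) (e : J →+ A)

/-- (B): **inflation is injective**: if the localisation of a cocycle living at the level `N` is
a level coboundary, it is the coboundary of a cochain living at the level `rr ⁻¹ N`. -/
lemma pts_exists_good_primitive (he : ∀ t x, e (ρJ (rr t) x) = ρA t (e x))
    (hcont : ptd_IsLevCont 𝓛' 𝓛 rr)
    (h90 : ∀ H : Subgroup H', 𝓛'.IsOpen H → ∀ φ : H' → A, ptd_IsLev₁ 𝓛' φ →
      (∀ a ∈ H, ∀ b ∈ H, φ (a * b) = ρA a (φ b) + φ a) → ∃ c : A, ∀ a ∈ H, φ a = ρA a c - c)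
    {N : Subgroup G} (hN : N ∈ 𝓛.lev) [N.Normal] {W : G × G → J} (hW : pts_AtLevel ρJ N W)
    (hloc : ptd_IsB2 𝓛' ρA (ptd_loc₂ rr e W)) :
    ∃ φ : H' → A, ptd_d1 ρA φ = ptd_loc₂ rr e W ∧ (∀ τ ν, rr ν ∈ N → φ (τ * ν) = φ τ) ∧
      (∀ τ ν, rr ν ∈ N → ρA ν (φ τ) = φ τ) := by
  obtain ⟨φ₁, hφ₁lev, hφ₁⟩ := hloc
  set w₀ : A := e (W (1, 1)) with hw₀
  -- the open subgroup `rr ⁻¹ N`
  have hHopen : 𝓛'.IsOpen (N.comap rr) := by
    obtain ⟨N', hN', h⟩ := hcont N hN
    exact ⟨N', hN', fun n hn => h n hn⟩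
  have hw₀fix : ∀ ν, rr ν ∈ N → ρA ν w₀ = w₀ := fun ν hν => by
    rw [hw₀, ← he, hW.fix 1 1 _ hν]
  have hWv : ∀ a b, ptd_loc₂ rr e W (a, b) = ρA a (φ₁ b) - φ₁ (a * b) + φ₁ a := fun a b => by
    rw [hφ₁, ptd_d1_apply]
  -- `φ₁ - w₀` is a cocycle on `rr ⁻¹ N`
  obtain ⟨c, hc⟩ := h90 (N.comap rr) hHopen (fun τ => φ₁ τ - w₀)
    (hφ₁lev.sub (ptd_isLev₁_const w₀)) (fun a ha b hb => by
      have h1 := hWv a b
      rw [ptd_loc₂_apply, hW.mem_left ha] at h1
      have h2 : ρA a (φ₁ b - w₀) = ρA a (φ₁ b) - w₀ := by rw [map_sub, hw₀fix a ha]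
      rw [h2]
      have h3 : φ₁ (a * b) = ρA a (φ₁ b) + φ₁ a - w₀ := by
        rw [← hw₀] at h1
        rw [h1]; abel
      rw [h3]; abel)
  refine ⟨fun τ => φ₁ τ - (ρA τ c - c), ?_, ?_, ?_⟩
  · have : (fun τ => φ₁ τ - (ρA τ c - c)) = φ₁ - ptd_d0 ρA c := rfl
    rw [this, ptd_d1_sub, ptd_d1_d0, sub_zero, hφ₁]
  all_goals
    set φ : H' → A := fun τ => φ₁ τ - (ρA τ c - c) with hφdef
    have hdφ : ∀ a b, ptd_loc₂ rr e W (a, b) = ρA a (φ b) - φ (a * b) + φ a := fun a b => by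
      have h0 : ptd_d1 ρA φ = ptd_loc₂ rr e W := by
        have : φ = φ₁ - ptd_d0 ρA c := rfl
        rw [this, ptd_d1_sub, ptd_d1_d0, sub_zero, hφ₁]
      rw [← h0, ptd_d1_apply]
    have hφH : ∀ ν, rr ν ∈ N → φ ν = w₀ := fun ν hν => by
      have := hc ν hν
      show φ₁ ν - (ρA ν c - c) = w₀
      rw [← this]; abel
    have ha : ∀ τ ν, rr ν ∈ N → φ (τ * ν) = φ τ := fun τ ν hν => by
      have h1 := hdφ τ ν
      rw [ptd_loc₂_apply, hW.mem_right _ hν, he, ← hw₀, hφH ν hν] at h1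
      have : φ (τ * ν) = φ τ + (ρA τ w₀ - ρA τ w₀) := by
        rw [sub_self, add_zero]
        have h2 : ρA τ w₀ - φ (τ * ν) + φ τ = ρA τ w₀ := h1.symm
        have h3 : φ τ - φ (τ * ν) = 0 := by
          have : ρA τ w₀ - φ (τ * ν) + φ τ = ρA τ w₀ + (φ τ - φ (τ * ν)) := by abel
          rw [this] at h2
          exact add_eq_left.mp h2
        exact (sub_eq_zero.mp h3).symm
      rw [this, sub_self, add_zero]
  · exact ha
  · intro τ ν hν
    have h1 := hdφ ν τ
    rw [ptd_loc₂_apply, hW.mem_left hν, ← hw₀, hφH ν hν] at h1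
    have h2 : φ (ν * τ) = φ τ := by
      have : ν * τ = τ * (τ⁻¹ * ν * τ) := by group
      rw [this]
      refine ha τ _ ?_
      rw [map_mul, map_mul, map_inv]
      simpa using Subgroup.Normal.conj_mem ‹N.Normal› (rr ν) hν (rr τ)⁻¹
    rw [h2] at h1
    have h3 : ρA ν (φ τ) - φ τ = 0 := by
      have : ρA ν (φ τ) - φ τ + w₀ = w₀ := h1.symm
      exact add_eq_right.mp this
    exact sub_eq_zero.mp h3

/-- (C): the `0`-cochain `c` correcting the coordinates `x ↦ e (W (x, u))` into `H'`-equivariant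
ones, constant on the cosets of `N`. -/
lemma pts_exists_zero_cochain (he : ∀ t x, e (ρJ (rr t) x) = ρA t (e x))
    {N : Subgroup G} [N.Normal] {W : G × G → J} (hW : pts_AtLevel ρJ N W)
    {φ : H' → A} (hdφ : ptd_d1 ρA φ = ptd_loc₂ rr e W)
    (hφa : ∀ τ ν, rr ν ∈ N → φ (τ * ν) = φ τ) :
    ∃ c : G → A, (∀ τ y, c (rr τ * y) = ρA τ (c y) + e (W (rr τ, y)) - φ τ) ∧
      (∀ y, ∀ n ∈ N, c (y * n) = c y) := by
  -- well-definedness on a double coset
  have hWD : ∀ (s₀ : G) (τ τ' : H') (n n' : G), n ∈ N → n' ∈ N →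
      rr τ * s₀ * n = rr τ' * s₀ * n' →
      e (W (rr τ, s₀)) - φ τ = e (W (rr τ', s₀)) - φ τ' := by
    intro s₀ τ τ' n n' hn hn' heq
    have hν : rr (τ'⁻¹ * τ) ∈ N := by
      have h1 : rr (τ'⁻¹ * τ) = s₀ * (n' * n⁻¹) * s₀⁻¹ := by
        rw [map_mul, map_inv]
        have h2 : rr τ = rr τ' * s₀ * n' * n⁻¹ * s₀⁻¹ := by
          rw [← heq]; group
        rw [h2]; group
      rw [h1]
      exact Subgroup.Normal.conj_mem ‹N.Normal› _ (N.mul_mem hn' (N.inv_mem hn)) s₀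
    have hτ : τ = τ' * (τ'⁻¹ * τ) := by group
    have hφ : φ τ = φ τ' := by
      rw [hτ]
      exact hφa τ' _ hν
    have hWeq : W (rr τ, s₀) = W (rr τ', s₀) := by
      have hz := hW.z2 (rr τ') (rr (τ'⁻¹ * τ)) s₀
      rw [hW.mem_left hν, hW.mem_right _ hν, hW.rinv₂' _ _ hν, ← map_mul, ← hτ] at hz
      rw [add_comm] at hz
      exact add_left_cancel hz
    rw [hφ, hWeq]
  -- the double cosets `rr H' \ G / N`
  let R : Setoid G :=
    { r := fun y y' => ∃ τ : H', ∃ n ∈ N, y' = rr τ * y * n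
      iseqv :=
        ⟨fun y => ⟨1, 1, N.one_mem, by rw [map_one, one_mul, mul_one]⟩,
          fun {y y'} ⟨τ, n, hn, h⟩ => ⟨τ⁻¹, n⁻¹, N.inv_mem hn, by rw [h, map_inv]; group⟩,
          fun {y y' y''} ⟨τ, n, hn, h⟩ ⟨τ', n', hn', h'⟩ =>
            ⟨τ' * τ, n * n', N.mul_mem hn hn', by rw [h', h, map_mul]; group⟩⟩ }
  let s : G → G := fun y => (Quotient.mk R y).out
  have hs : ∀ y, ∃ τ : H', ∃ n ∈ N, y = rr τ * s y * n := fun y =>
    Quotient.exact (Quotient.out_eq (Quotient.mk R y))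
  choose τy ny hny hy using hs
  have hs_eq : ∀ y y', R.r y y' → s y' = s y := fun y y' h => by
    show (Quotient.mk R y').out = (Quotient.mk R y).out
    rw [Quotient.sound (s := R) h]
  refine ⟨fun y => e (W (rr (τy y), s y)) - φ (τy y), fun τ y => ?_, fun y n hn => ?_⟩
  · have hsy : s (rr τ * y) = s y :=
      hs_eq y (rr τ * y) ⟨τ, 1, N.one_mem, by rw [mul_one]⟩
    have h1 : e (W (rr (τy (rr τ * y)), s y)) - φ (τy (rr τ * y))
        = e (W (rr (τ * τy y), s y)) - φ (τ * τy y) := by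
      refine hWD (s y) _ _ (ny (rr τ * y)) (ny y) (hny _) (hny _) ?_
      have h2 := hy (rr τ * y)
      rw [hsy] at h2
      rw [← h2, map_mul]
      conv_lhs => rw [hy y]
      group
    show e (W (rr (τy (rr τ * y)), s (rr τ * y))) - φ (τy (rr τ * y)) = _
    rw [hsy, h1]
    have hz := hW.z2 (rr τ) (rr (τy y)) (s y)
    have h3 : W (rr τ, rr (τy y) * s y) = W (rr τ, y) := by
      conv_rhs => rw [hy y]
      exact (hW.rinv₂ _ _ (hny y)).symm
    rw [h3, ← map_mul] at hz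
    have hz' := congrArg e hz
    rw [map_add, map_add, he] at hz'
    have hd := congrFun hdφ (τ, τy y)
    rw [ptd_d1_apply, ptd_loc₂_apply] at hd
    have hX : e (W (rr (τ * τy y), s y))
        = ρA τ (e (W (rr (τy y), s y))) + e (W (rr τ, y)) - e (W (rr τ, rr (τy y))) :=
      eq_sub_of_add_eq hz'
    have hY : φ (τ * τy y) = ρA τ (φ (τy y)) + φ τ - e (W (rr τ, rr (τy y))) := by
      rw [← hd]; abel
    rw [hX, hY, map_sub]
    abel
  · have hsy : s (y * n) = s y := hs_eq y (y * n) ⟨1, n, hn, by rw [map_one, one_mul]⟩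
    show e (W (rr (τy (y * n)), s (y * n))) - φ (τy (y * n)) = _
    rw [hsy]
    refine hWD (s y) _ _ (ny (y * n)) (ny y * n) (hny _) (N.mul_mem (hny _) hn) ?_
    have h2 := hy (y * n)
    rw [hsy] at h2
    rw [← h2]
    conv_lhs => rw [hy y]
    group

end Single

section Main

variable {G : Type*} [Group G] {𝓛 : ptd_Levels G}
variable {J : Type*} [AddCommGroup J] {ρJ : Representation ℤ G J}
variable {𝒱 : Type*} {Gv : 𝒱 → Type*} [∀ v, Group (Gv v)] {𝓛v : ∀ v, ptd_Levels (Gv v)}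
variable {Av : 𝒱 → Type*} [∀ v, AddCommGroup (Av v)] {ρv : ∀ v, Representation ℤ (Gv v) (Av v)}
variable {r : ∀ v, Gv v →* G} {ev : ∀ v, J →+ Av v}

/-- **Hasse principle for `H²` of the ideles** (Shapiro in degree two): a level `2`-cocycle with
values in `J` all of whose localisations are level coboundaries is a level coboundary. -/
theorem pts_CoindPres.h2J (P : pts_CoindPres 𝓛 ρJ 𝓛v ρv r ev) (h90 : pts_LocalH90 𝓛v ρv)
    (W : G × G → J) (hW : ptd_IsLZ2 𝓛 ρJ W)
    (hloc : ∀ v, ptd_IsB2 (𝓛v v) (ρv v) (ptd_loc₂ (r v) (ev v) W)) : ptd_IsB2 𝓛 ρJ W := by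
  obtain ⟨N, hN, hWN⟩ := pts_exists_atLevel P.disc hW
  have hNn := 𝓛.normal N hN
  have hB := fun v => pts_exists_good_primitive (r v) (ev v) (P.ev_equiv v) (P.r_cont v)
    (h90 v) hN hWN (hloc v)
  choose φ hdφ hφa _ using hB
  have hC := fun v => pts_exists_zero_cochain (r v) (ev v) (P.ev_equiv v) hWN (hdφ v) (hφa v)
  choose c hc1 hc2 using hC
  -- the coordinates of `η u`
  have hη : ∀ u : G, ∃ x : J, ∀ v g,
      ev v (ρJ g x) = ev v (W (g, u)) - c v (g * u) + c v g := by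
    intro u
    refine P.surj (fun v g => ev v (W (g, u)) - c v (g * u) + c v g)
      ⟨N, hN, fun v g n hn => ?_⟩ (fun v t g => ?_)
    · have h1 : g * n * u = g * u * (u⁻¹ * n * u) := by group
      have h2 : u⁻¹ * n * u ∈ N := by
        simpa using Subgroup.Normal.conj_mem hNn n hn u⁻¹
      show ev v (W (g * n, u)) - c v (g * n * u) + c v (g * n) = _
      rw [hWN.rinv₁ g u hn, h1, hc2 v _ _ h2, hc2 v g n hn]
    · have hz := congrArg (ev v) (hWN.z2 (r v t) g u)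
      rw [map_add, map_add, P.ev_equiv] at hz
      have hX : ev v (W (r v t * g, u))
          = ρv v t (ev v (W (g, u))) + ev v (W (r v t, g * u)) - ev v (W (r v t, g)) :=
        eq_sub_of_add_eq hz
      show ev v (W (r v t * g, u)) - c v (r v t * g * u) + c v (r v t * g) = _
      rw [mul_assoc, hc1 v t (g * u), hc1 v t g, hX, map_add, map_sub]
      abel
  choose η hη using hη
  refine ⟨η, ⟨N, hN, fun u n hn => P.ext fun v g => ?_⟩, ?_⟩
  · rw [hη, hη, hWN.rinv₂ g u hn, ← mul_assoc, hc2 v _ n hn]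
  · funext ⟨u, u'⟩
    refine P.ext fun v g => ?_
    rw [ptd_d1_apply, map_add, map_sub, map_add, map_sub, ← Module.End.mul_apply, ← map_mul,
      hη, hη, hη]
    have hz := congrArg (ev v) (hWN.z2 g u u')
    rw [map_add, map_add] at hz
    have hX : ev v (ρJ g (W (u, u')))
        = ev v (W (g * u, u')) + ev v (W (g, u)) - ev v (W (g, u * u')) :=
      eq_sub_of_add_eq hz.symm
    rw [hX, mul_assoc]
    abel

/-- **(P ⇒ SL)**: a coinduced presentation with local Hilbert 90 gives helper3's semi-local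
structure `ptd_GSemiLocal`. -/
theorem pts_CoindPres.toSemiLocal (P : pts_CoindPres 𝓛 ρJ 𝓛v ρv r ev)
    (h90 : pts_LocalH90 𝓛v ρv) (p : ℕ) [Fact p.Prime] (ζ : ZMod p →+ J)
    (hζ : ∀ g a, ρJ g (ζ a) = ζ a) : ptd_GSemiLocal 𝓛 p ρJ ζ 𝓛v ρv r ev where
  disc := P.disc
  r_cont := P.r_cont
  ev_equiv := P.ev_equiv
  ev_indep := fun v a ha => P.ev_indep p v a ha
  ev_inj := fun j hj _ h => P.ev_inj j hj h
  sh1 := fun χ hχ hχl hloc => P.sh1 ζ hζ χ hχ hχl hloc
  h1J := fun ψ hψ => P.h1J h90 ψ hψ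
  h2J := fun W hW _ hloc => P.h2J h90 W hW hloc

end Main

end Fermat.Agent.Lib.PT
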