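/-
S55 long haul, (SL) model side, part A: the coinduced presentation `pts_CoindPres` of the
`S`-supported smooth ideles `J = 𝒥_S^S` over `G = G_ℚ` with respect to the local family
`(G_q, r_q = localGaloisToGlobal q, A_q = Ω_qˣ, e_q = coordinate at ι_q)`, `q ∈ S`, and the local
Hilbert 90 hypothesis `pts_LocalH90` for this family.  Consequently helper3's semi-local package
`ptd_GSemiLocal` holds over `G_ℚ`.
-/
import Fermat.Agent.Lib.PT.GModEModN
import Fermat.Agent.Lib.PT.SemiLocH2
import Fermat.Agent.Lib.PT.BridgeL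

set_option autoImplicit false
set_option linter.unusedVariables false
set_option linter.unusedSectionVars false
set_option linter.style.haveILetI false

noncomputable section

namespace Fermat.Agent.Lib.PT

open IntermediateField ExtCitation groupCohomology

local notation "Qbar" => AlgebraicClosure ℚ
local notation "GQ" => (AlgebraicClosure ℚ ≃ₐ[ℚ] AlgebraicClosure ℚ)

variable (S : Finset Nat.Primes)

/-- the `G_ℚ`-representation on `J = 𝒥_S^S` -/
abbrev pta_EJrep : Representation ℤ GQ (pta_EJ S) := Representation.ofDistribMulAction ℤ GQ (pta_EJ S)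

/-- the local groups of the family over `G_ℚ` -/
abbrev pta_SLG (q : ↥S) : Type := ptj_Gq q.1

/-- the local modules of the family over `G_ℚ` -/
abbrev pta_SLA (q : ↥S) : Type := Additive (ptj_Om q.1)ˣ

/-- the local level structures -/
abbrev pta_SLlev (q : ↥S) : ptd_Levels (pta_SLG S q) := pta_levelsR (localGaloisToGlobal (q.1 : ℕ))

/-- the local representations -/
abbrev pta_SLrep (q : ↥S) : Representation ℤ (pta_SLG S q) (pta_SLA S q) := ptg_unitsRep (q.1 : ℕ)

/-- the local-to-global maps -/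
abbrev pta_SLr (q : ↥S) : pta_SLG S q →* GQ := localGaloisToGlobal (q.1 : ℕ)

/-- the evaluation maps -/
abbrev pta_SLev (q : ↥S) : pta_EJ S →+ pta_SLA S q := pta_evU S q.1

variable {S}

lemma pta_EJ_isDiscrete : ptd_IsDiscrete (pta_levelsS S) (pta_EJrep S) := by
  intro x
  obtain ⟨F, hF, hst, h⟩ := ptj_exists_stable_level x.toMul.2.1
  refine ⟨F.fixingSubgroup, pta_mem_levelsS hF hst, fun n hn => ?_⟩
  show n • x = x
  rw [pta_EJ_smul_def]
  have : n • x.toMul = x.toMul := Subtype.ext (h n hn)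
  rw [this]; rfl

lemma pta_SLr_cont (q : ↥S) : ptd_IsLevCont (pta_SLlev S q) (pta_levelsS S) (pta_SLr S q) := by
  rintro _ ⟨F, hF, hst, rfl⟩
  exact ⟨_, pta_mem_levelsR hF.1 hst, fun n hn => hn⟩

/-- **the coinduced presentation of `J` over `G_ℚ`** -/
theorem pta_coindPres : pts_CoindPres (pta_levelsS S) (pta_EJrep S) (pta_SLlev S) (pta_SLrep S)
    (pta_SLr S) (pta_SLev S) where
  disc := pta_EJ_isDiscrete
  r_inj := fun q => ptg_localGaloisToGlobal_injective (q.1 : ℕ)
  r_cont := pta_SLr_cont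
  ev_equiv := fun q t x => pta_evU_loc' q.1 t x
  inj := fun x h => pta_evU_inj x (fun q g => h q g)
  surj := by
    rintro f ⟨_, ⟨F, hF, hst, rfl⟩, hN⟩ hloc
    obtain ⟨x, hx⟩ := pta_evU_surj f ⟨F, hF, fun q g s hs => hN q g s hs⟩ hloc
    exact ⟨x, fun q g => hx q g⟩

/-- **local Hilbert 90** for the family over `G_ℚ` -/
theorem pta_localH90 : pts_LocalH90 (pta_SLlev S) (pta_SLrep S) := by
  intro q H hH φ hφ hcoc
  have h1 := ptg_isB1_of_isLZ1_units (q := (q.1 : ℕ)) (U := H) hH (ptd_res₁ H φ)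
    ⟨fun a b => hcoc a a.2 b b.2, hφ.res H hH⟩
  obtain ⟨c, hc⟩ := h1
  refine ⟨c, fun a ha => ?_⟩
  have := congrFun hc ⟨a, ha⟩
  exact this

/-- **(SL) over `G_ℚ`**: helper3's semi-local package for `J = 𝒥_S^S`. -/
theorem pta_semiLocal (p : ℕ) [Fact p.Prime] (ζ : ZMod p →+ pta_EJ S)
    (hζ : ∀ g a, pta_EJrep S g (ζ a) = ζ a) :
    ptd_GSemiLocal (pta_levelsS S) p (pta_EJrep S) ζ (pta_SLlev S) (pta_SLrep S) (pta_SLr S)
      (pta_SLev S) :=
  pta_coindPres.toSemiLocal pta_localH90 p ζ hζ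

end Fermat.Agent.Lib.PT

end
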