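/-
S55 (Poitou–Tate long-haul), (SL): local Hilbert 90 passes to the restricted local family over an
open subgroup (`SemiLocFamily`): the local groups there are open subgroups `V_d` of the original
local groups, and an open subgroup of `V_d` is an open subgroup of the original local group.
-/
import Mathlib
import Fermat.Agent.Lib.PT.SemiLocMackey
import Fermat.Agent.Lib.PT.SemiLocH2

set_option autoImplicit false
set_option linter.unusedSectionVars false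

namespace Fermat.Agent.Lib.PT

section H90

variable {H : Type*} [Group H] {𝓛H : ptd_Levels H} {A : Type*} [AddCommGroup A]
variable {ρ : Representation ℤ H A}

/-- Hilbert 90 (cochain form) for the open subgroups of `H` gives Hilbert 90 for the open subgroups
of an open subgroup `V` of `H`. -/
lemma pts_h90_sub
    (h90 : ∀ K : Subgroup H, 𝓛H.IsOpen K → ∀ φ : H → A, ptd_IsLev₁ 𝓛H φ →
      (∀ a ∈ K, ∀ b ∈ K, φ (a * b) = ρ a (φ b) + φ a) → ∃ c : A, ∀ a ∈ K, φ a = ρ a c - c)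
    (V : Subgroup H) (hV : 𝓛H.IsOpen V) (K : Subgroup V) (hK : (𝓛H.sub V hV).IsOpen K)
    (φ : V → A) (hφ : ptd_IsLev₁ (𝓛H.sub V hV) φ)
    (hcoc : ∀ a ∈ K, ∀ b ∈ K, φ (a * b) = ptd_resRep ρ V a (φ b) + φ a) :
    ∃ c : A, ∀ a ∈ K, φ a = ptd_resRep ρ V a c - c := by
  classical
  -- `K` as an open subgroup of `H`
  have hK' : 𝓛H.IsOpen (K.map V.subtype) := by
    obtain ⟨_, ⟨N, hN, hNV, rfl⟩, hle⟩ := hK
    refine ⟨N, hN, fun n hn => ?_⟩
    exact ⟨⟨n, hNV hn⟩, hle (Subgroup.mem_subgroupOf.mpr hn), rfl⟩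
  -- extension of `φ` by zero
  let φ' : H → A := fun τ => if h : τ ∈ V then φ ⟨τ, h⟩ else 0
  have hφ'V : ∀ τ : V, φ' τ = φ τ := fun τ => by
    show (if h : (τ : H) ∈ V then φ ⟨τ, h⟩ else 0) = φ τ
    rw [dif_pos τ.2]
  have hφ'lev : ptd_IsLev₁ 𝓛H φ' := by
    obtain ⟨_, ⟨N, hN, hNV, rfl⟩, hinv⟩ := hφ
    refine ⟨N, hN, fun τ n hn => ?_⟩
    by_cases hτ : τ ∈ V
    · have h1 : φ' (τ * n) = φ (⟨τ, hτ⟩ * ⟨n, hNV hn⟩) := hφ'V (⟨τ, hτ⟩ * ⟨n, hNV hn⟩)
      have h2 : φ' τ = φ ⟨τ, hτ⟩ := hφ'V ⟨τ, hτ⟩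
      rw [h1, h2]
      exact hinv ⟨τ, hτ⟩ ⟨n, hNV hn⟩ (Subgroup.mem_subgroupOf.mpr hn)
    · have hτn : τ * n ∉ V := fun h => hτ (by
        have := V.mul_mem h (V.inv_mem (hNV hn))
        rwa [mul_inv_cancel_right] at this)
      show (if h : τ * n ∈ V then φ ⟨τ * n, h⟩ else 0) = (if h : τ ∈ V then φ ⟨τ, h⟩ else 0)
      rw [dif_neg hτ, dif_neg hτn]
  obtain ⟨c, hc⟩ := h90 (K.map V.subtype) hK' φ' hφ'lev (by
    rintro _ ⟨a, ha, rfl⟩ _ ⟨b, hb, rfl⟩
    have h1 : φ' (V.subtype a * V.subtype b) = φ (a * b) := hφ'V (a * b)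
    rw [h1, hcoc a ha b hb]
    show _ = ρ (a : H) (φ' (b : H)) + φ' (a : H)
    rw [hφ'V a, hφ'V b]
    rfl)
  refine ⟨c, fun a ha => ?_⟩
  have := hc (V.subtype a) ⟨a, ha, rfl⟩
  rw [← hφ'V a]
  exact this

end H90

section Family

variable {G : Type*} [Group G] {𝓛 : ptd_Levels G}
variable {J : Type*} [AddCommGroup J] {ρJ : Representation ℤ G J}
variable {I : Type*} {Hh : I → Type*} [∀ i, Group (Hh i)] {𝓛i : ∀ i, ptd_Levels (Hh i)}
variable {Ai : I → Type*} [∀ i, AddCommGroup (Ai i)]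
variable {ρi : ∀ i, Representation ℤ (Hh i) (Ai i)}
variable {r : ∀ i, Hh i →* G} {e : ∀ i, J →+ Ai i}

/-- local Hilbert 90 for the restricted family over an open subgroup -/
theorem pts_LocalH90.restrict (h90 : pts_LocalH90 𝓛i ρi)
    (P : pts_CoindPres 𝓛 ρJ 𝓛i ρi r e) (U : Subgroup G) (hU : 𝓛.IsOpen U) :
    pts_LocalH90
      (fun v : pts_Places r U => (𝓛i v.1).sub (pts_dcSub (r v.1) U v.2)
        (pts_dcSub_isOpen (P.r_cont v.1) hU v.2))
      (fun v : pts_Places r U => ptd_resRep (ρi v.1) (pts_dcSub (r v.1) U v.2)) := by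
  rintro ⟨i, d⟩ K hK φ hφ hcoc
  exact pts_h90_sub (h90 i) _ _ K hK φ hφ hcoc

/-- **(SL) over an open subgroup**: helper3's semi-local structure for the `U`-module `J` and the
local family over `U`, from a coinduced presentation over `G` and local Hilbert 90. -/
theorem pts_CoindPres.toSemiLocal_restrict (P : pts_CoindPres 𝓛 ρJ 𝓛i ρi r e)
    (h90 : pts_LocalH90 𝓛i ρi) (U : Subgroup G) (hU : 𝓛.IsOpen U) (p : ℕ) [Fact p.Prime]
    (ζ : ZMod p →+ J) (hζ : ∀ g ∈ U, ∀ a, ρJ g (ζ a) = ζ a) :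
    ptd_GSemiLocal (𝓛.sub U hU) p (ptd_resRep ρJ U) ζ
      (fun v : pts_Places r U => (𝓛i v.1).sub (pts_dcSub (r v.1) U v.2)
        (pts_dcSub_isOpen (P.r_cont v.1) hU v.2))
      (fun v : pts_Places r U => ptd_resRep (ρi v.1) (pts_dcSub (r v.1) U v.2))
      (fun v : pts_Places r U => pts_dcHom (r v.1) U v.2)
      (pts_dcEv ρJ e U) :=
  (P.restrict U hU).toSemiLocal (h90.restrict P U hU) p ζ (fun g a => hζ g g.2 a)

end Family

end Fermat.Agent.Lib.PT
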