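/-
S55 (Poitou–Tate long-haul), (SL) IN THE MODEL over every open subgroup `U ≤ ker χ_cyc` of `G_ℚ`:
helper3's `ptd_GSemiLocal` for the `U`-module `J = 𝒥_S^S` (helper1's `pta_EMod`) and the local
family over `U` of `SemiLocFamily` built from `(G_q, localGaloisToGlobal q, Ω_qˣ, coordinate at ι_q)`.
-/
import Mathlib
import Fermat.Agent.Lib.PT.GModSLA
import Fermat.Agent.Lib.PT.SemiLocH90

set_option autoImplicit false
set_option linter.unusedSectionVars false

noncomputable section

namespace Fermat.Agent.Lib.PT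

open IntermediateField ExtCitation groupCohomology

local notation "Qbar" => AlgebraicClosure ℚ
local notation "GQ" => (AlgebraicClosure ℚ ≃ₐ[ℚ] AlgebraicClosure ℚ)

variable {p : ℕ} [Fact p.Prime] {S : Finset Nat.Primes}

/-- the places of the fixed field of `U` above `S` (pairs `(q, double coset)`) -/
abbrev pts_PlacesS (S : Finset Nat.Primes) (U : Subgroup GQ) : Type := pts_Places (pta_SLr S) U

/-- the local group at the place `v`: an open subgroup of `G_q` -/
abbrev pts_Vv (U : Subgroup GQ) (v : pts_PlacesS S U) : Subgroup (pta_SLG S v.1) :=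
  pts_dcSub (pta_SLr S v.1) U v.2

lemma pts_Vv_isOpen {U : Subgroup GQ} (hU : (pta_levelsS S).IsOpen U) (v : pts_PlacesS S U) :
    (pta_SLlev S v.1).IsOpen (pts_Vv U v) :=
  pts_dcSub_isOpen (pta_SLr_cont v.1) hU v.2

instance pts_finite_PlacesS (U : Subgroup GQ) [U.FiniteIndex] : Finite (pts_PlacesS S U) :=
  inferInstanceAs (Finite (Σ q : ↥S, pts_DC (pta_SLr S q) U))

/-- **(SL) in the model.** -/
theorem pts_semiLocal_model (hpS : pPrime p ∈ S) (U : Subgroup GQ)
    (hU : (pta_levelsS S).IsOpen U) (hUK : U ≤ (cycloChar p).ker) :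
    ptd_GSemiLocal ((pta_levelsS S).sub U hU) p (ptd_resRep (pta_EMod p hpS).ρJ U)
      (pta_EMod p hpS).ζ
      (fun v : pts_PlacesS S U => (pta_SLlev S v.1).sub (pts_Vv U v) (pts_Vv_isOpen hU v))
      (fun v : pts_PlacesS S U => ptd_resRep (pta_SLrep S v.1) (pts_Vv U v))
      (fun v : pts_PlacesS S U => pts_dcHom (pta_SLr S v.1) U v.2)
      (pts_dcEv (pta_EMod p hpS).ρJ (pta_SLev S) U) :=
  (pta_coindPres (S := S)).toSemiLocal_restrict pta_localH90 U hU p (pta_EMod p hpS).ζ
    (fun g hg a => by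
      have h1 := (pta_EMod p hpS).smul_ζ g a
      have h2 : cycloChar p g = 1 := MonoidHom.mem_ker.mp (hUK hg)
      rw [h2, Units.val_one, one_mul] at h1
      exact h1)

end Fermat.Agent.Lib.PT

end
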