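/-
S55 long haul, (G8) Kummer side, part D: THE SPLIT PROPERTY.  `S ∋ p`, `E ⊆ Q̄` finite, unramified
outside `S`, `μ_p ⊂ E`, `U = Gal(Q̄/E)`.  If `x ∈ Eˣ` is a `p`-th power in all the local fields
`E_σ`, `σ` over `q ∈ S`, then the Kummer character of `x` vanishes on all the local groups
`g⁻¹ · r_q(G_q) · g ∩ U` (`q ∈ S`, `g ∈ G_ℚ`), in particular on the family `pts_PlacesS S U` /
`pts_dcHom` of helper4's `SemiLocModel`.  Counting form: `#Λ_S ≤ #X₀^split`.
-/
import Fermat.Agent.Lib.PT.GModKumA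
import Fermat.Agent.Lib.PT.SemiLocModel

set_option autoImplicit false
set_option linter.unusedVariables false
set_option linter.unusedSectionVars false
set_option linter.style.haveILetI false

noncomputable section

namespace Fermat.Agent.Lib.PT

open IntermediateField ExtCitation

local notation "Qbar" => AlgebraicClosure ℚ
local notation "GQ" => (AlgebraicClosure ℚ ≃ₐ[ℚ] AlgebraicClosure ℚ)

variable {p : ℕ} [Fact p.Prime] {S : Finset Nat.Primes} {E : IntermediateField ℚ Qbar}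

/-- the embedding `e ↦ ι_q (g e)` of `E` -/
def pta_embE (E : IntermediateField ℚ Qbar) (q : Nat.Primes) (g : GQ) : ptj_Emb ↥E q :=
  (pta_iota q).comp (((g : Qbar ≃ₐ[ℚ] Qbar) : Qbar →+* Qbar).comp (algebraMap ↥E Qbar))

@[simp] lemma pta_embE_apply (q : Nat.Primes) (g : GQ) (e : ↥E) :
    pta_embE E q g e = pta_iota q (g (e : Qbar)) := rfl

/-- `x` is a local `p`-th power at all embeddings of `E` over `S` -/
def pta_IsLocPow (p : ℕ) (S : Finset Nat.Primes) (E : IntermediateField ℚ Qbar) (x : (↥E)ˣ) :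
    Prop :=
  ∀ q : Nat.Primes, q ∈ S → ∀ σ : ptj_Emb ↥E q, ∃ a ∈ ptj_Kσ σ, a ^ p = σ (x : ↥E)

/-- **the split property**: the Kummer character of a local `p`-th power vanishes on
`g⁻¹ · r_q(t) · g ∈ U`. -/
theorem pta_kumFun_split (hζ : ∀ x : Qbar, x ^ p = 1 → x ∈ E) {x : (↥E)ˣ}
    (hx : pta_IsLocPow p S E x) {q : Nat.Primes} (hq : q ∈ S) (g : GQ) (t : ptj_Gq q)
    (h : g⁻¹ * localGaloisToGlobal (q : ℕ) t * g ∈ E.fixingSubgroup) :
    pta_kumFun p x ⟨_, h⟩ = 0 := by
  have hp : p.Prime := Fact.out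
  haveI : NeZero p := ⟨hp.ne_zero⟩
  rw [pta_kumFun_eq_zero_iff]
  set y : Qbar := ((pta_kumRoot p (pta_unitE E x) : Qbarˣ) : Qbar) with hy
  have hyp : y ^ p = ((x : ↥E) : Qbar) := by
    rw [hy, ← Units.val_pow_eq_pow_val, pta_kumRoot_pow, pta_unitE_coe]
  set σ : ptj_Emb ↥E q := pta_embE E q g with hσ
  set r := localGaloisToGlobal (q : ℕ) t with hr
  have hcompat : ∀ z : Qbar, pta_iota q (r z) = t (pta_iota q z) :=
    fun z => padicEmbedding_localGaloisToGlobal (q : ℕ) t z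
  -- `r` fixes `g E`
  have hrg : ∀ e ∈ E, r (g e) = g e := by
    intro e he
    have h1 := (IntermediateField.mem_fixingSubgroup_iff E _).1 h e he
    rw [AlgEquiv.mul_apply, AlgEquiv.mul_apply] at h1
    have h2 := congrArg g h1
    have h3 : g (g⁻¹ (r (g e))) = r (g e) := g.apply_symm_apply _
    rw [h3] at h2
    exact h2
  -- `t` fixes `E_σ`
  have htfix : t ∈ (ptj_Kσ σ).fixingSubgroup := by
    rw [← ptj_post_eq_iff]
    ext e
    rw [ptj_post_apply, hσ, pta_embE_apply, ← hcompat, hrg _ e.2]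
  -- `ι (g y) ∈ E_σ`
  obtain ⟨a, haK, hap⟩ := hx q hq σ
  have hσx : σ (x : ↥E) = pta_iota q (g y) ^ p := by
    rw [hσ, pta_embE_apply, ← map_pow, ← map_pow, hyp]
  have ha0 : a ≠ 0 := by
    rintro rfl
    rw [zero_pow hp.ne_zero] at hap
    exact (map_ne_zero σ).2 (Units.ne_zero x) hap.symm
  have hω : (pta_iota q (g y) / a) ^ p = 1 := by
    rw [div_pow, ← hσx, hap, div_self]
    rw [← hap]
    exact pow_ne_zero _ ha0
  have hμ : ∀ w : ptj_Om q, w ^ p = 1 → w ∈ ptj_Kσ σ := by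
    intro w hw
    have h0 := pta_zeta0_spec p
    have h1 : IsPrimitiveRoot (pta_iota q (g (pta_zeta0 p))) p :=
      (h0.map_of_injective g.injective).map_of_injective (pta_iota q).injective
    obtain ⟨i, -, rfl⟩ := h1.eq_pow_of_pow_eq_one hw
    apply pow_mem
    have h2 : pta_zeta0 p ∈ E := hζ _ h0.pow_eq_one
    exact ptj_apply_mem_Kσ σ ⟨pta_zeta0 p, h2⟩
  have hYK : pta_iota q (g y) ∈ ptj_Kσ σ := by
    have h1 : pta_iota q (g y) = a * (pta_iota q (g y) / a) := by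
      rw [mul_div_cancel₀ _ ha0]
    rw [h1]
    exact mul_mem haK (hμ _ hω)
  have htY : t (pta_iota q (g y)) = pta_iota q (g y) :=
    (IntermediateField.mem_fixingSubgroup_iff _ _).1 htfix _ hYK
  have hrY : r (g y) = g y := by
    apply (pta_iota q).injective
    rw [hcompat, htY]
  show (g⁻¹ * r * g) y = y
  rw [AlgEquiv.mul_apply, AlgEquiv.mul_apply, hrY]
  exact g.symm_apply_apply y

variable (p S) in
/-- the split characters of `U` for the family `pts_PlacesS S U` -/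
def pta_splitChars (U : Subgroup GQ) : AddSubgroup (↥U → ZMod p) where
  carrier := {χ | ∀ (v : pts_PlacesS S U) (t : ↥(pts_Vv U v)),
    χ (pts_dcHom (pta_SLr S v.1) U v.2 t) = 0}
  zero_mem' := fun _ _ => rfl
  add_mem' := fun {χ χ'} h h' v t => by
    show χ _ + χ' _ = 0
    rw [h v t, h' v t, add_zero]
  neg_mem' := fun {χ} h v t => by
    show -χ _ = 0
    rw [h v t, neg_zero]

lemma pta_mem_splitChars_iff {U : Subgroup GQ} (χ : ↥U → ZMod p) :
    χ ∈ pta_splitChars p S U ↔ ∀ (v : pts_PlacesS S U) (t : ↥(pts_Vv U v)),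
      χ (pts_dcHom (pta_SLr S v.1) U v.2 t) = 0 := Iff.rfl

/-- the Kummer character of a local `p`-th power is split for `pts_PlacesS S U` -/
theorem pta_kumFun_mem_splitChars (hζ : ∀ x : Qbar, x ^ p = 1 → x ∈ E) {x : (↥E)ˣ}
    (hx : pta_IsLocPow p S E x) : pta_kumFun p x ∈ pta_splitChars p S E.fixingSubgroup := by
  intro v t
  exact pta_kumFun_split hζ hx v.1.2 (pts_dcRep (pta_SLr S v.1) E.fixingSubgroup v.2)
    (t : ptj_Gq v.1.1) t.2

variable (p S E) in
/-- `Λ_S`-part: elements of the Kummer domain which are local `p`-th powers over `S` -/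
def pta_kumSplit : Subgroup (↥E)ˣ where
  carrier := {x | pta_IsKumDom p S E x ∧ pta_IsLocPow p S E x}
  one_mem' := ⟨(pta_kumDom p S E).one_mem, fun q _ σ =>
    ⟨1, one_mem _, by rw [one_pow, Units.val_one, map_one]⟩⟩
  mul_mem' := by
    rintro x x' ⟨hx, hxl⟩ ⟨hx', hxl'⟩
    refine ⟨(pta_kumDom p S E).mul_mem hx hx', fun q hq σ => ?_⟩
    obtain ⟨a, ha, hap⟩ := hxl q hq σ
    obtain ⟨a', ha', hap'⟩ := hxl' q hq σ
    exact ⟨a * a', mul_mem ha ha', by rw [mul_pow, hap, hap', Units.val_mul, map_mul]⟩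
  inv_mem' := by
    rintro x ⟨hx, hxl⟩
    refine ⟨(pta_kumDom p S E).inv_mem hx, fun q hq σ => ?_⟩
    obtain ⟨a, ha, hap⟩ := hxl q hq σ
    exact ⟨a⁻¹, inv_mem ha, by rw [inv_pow, hap, Units.val_inv_eq_inv_val, map_inv₀]⟩

lemma pta_kumSplit_le : pta_kumSplit p S E ≤ pta_kumDom p S E := fun _ hx => hx.1

lemma pta_mem_kumSplit_iff (x : (↥E)ˣ) :
    x ∈ pta_kumSplit p S E ↔ pta_IsKumDom p S E x ∧ pta_IsLocPow p S E x := Iff.rfl

/-- `p`-th powers are in `Λ_S` -/
lemma pta_pows_le_kumSplit : ptk_pows ↥E p ≤ pta_kumSplit p S E := by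
  intro x hx
  refine ⟨pta_pows_le_kumDom hx, ?_⟩
  obtain ⟨z, rfl⟩ := hx
  intro q _ σ
  refine ⟨σ (z : ↥E), ptj_apply_mem_Kσ σ _, ?_⟩
  rw [powMonoidHom_apply, Units.val_pow_eq_pow_val, map_pow]

section Count

variable (hζ : ∀ x : Qbar, x ^ p = 1 → x ∈ E)

/-- the range of the Kummer homomorphism is monotone in the subgroup -/
lemma pta_kumHom_range_mono {O O' : Subgroup (↥E)ˣ} (h : O ≤ O') :
    (pta_kumHom hζ O).range ≤ (pta_kumHom hζ O').range := by
  rintro _ ⟨x, rfl⟩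
  exact ⟨Additive.ofMul ⟨((Additive.toMul x : ↥O) : (↥E)ˣ), h (Additive.toMul x).2⟩, rfl⟩

/-- the cardinality of the range of the Kummer homomorphism -/
lemma pta_card_kumHom_range (O : Subgroup (↥E)ˣ) :
    Nat.card (pta_kumHom hζ O).range = (ptk_pows ↥E p).relIndex O := by
  rw [← AddSubgroup.index_ker, pta_kumHom_ker, Subgroup.index_toAddSubgroup]
  rfl

/-- the Kummer characters of `O ≤ V_S` are `S`-level characters -/
lemma pta_kumHom_range_spec (hpS : pPrime p ∈ S) (hE : E.IsUnramifiedOutside S)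
    (hU : (pta_levelsS S).IsOpen E.fixingSubgroup) {O : Subgroup (↥E)ˣ}
    (hO : O ≤ pta_kumDom p S E) {χ : ↥E.fixingSubgroup → ZMod p}
    (hχ : χ ∈ (pta_kumHom hζ O).range) :
    ptd_IsChar χ ∧ ptd_IsLev₁ ((pta_levelsS S).sub E.fixingSubgroup hU) χ := by
  obtain ⟨x, rfl⟩ := hχ
  exact ⟨pta_kumFun_isChar hζ _, pta_kumFun_isLev₁ hpS hE hζ hU (hO (Additive.toMul x).2)⟩

/-- the Kummer characters of `Λ_S` are split -/
lemma pta_kumHom_range_le_split :
    (pta_kumHom hζ (pta_kumSplit p S E)).range ≤ pta_splitChars p S E.fixingSubgroup := by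
  rintro _ ⟨x, rfl⟩
  exact pta_kumFun_mem_splitChars hζ (Additive.toMul x).2.2

/-- **`#Λ_S ≤ #X₀^split`**, `X₀` = the Kummer characters of `V_S = pta_kumDom p S E`. -/
theorem pta_card_split_le [Finite (pta_kumHom hζ (pta_kumDom p S E)).range] :
    (ptk_pows ↥E p).relIndex (pta_kumSplit p S E) ≤
      Nat.card ↥((pta_kumHom hζ (pta_kumDom p S E)).range ⊓
        pta_splitChars p S E.fixingSubgroup) := by
  rw [← pta_card_kumHom_range hζ]
  have hle : (pta_kumHom hζ (pta_kumSplit p S E)).range ≤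
      (pta_kumHom hζ (pta_kumDom p S E)).range ⊓ pta_splitChars p S E.fixingSubgroup :=
    le_inf (pta_kumHom_range_mono hζ pta_kumSplit_le) (pta_kumHom_range_le_split hζ)
  haveI : Finite ↥((pta_kumHom hζ (pta_kumDom p S E)).range ⊓
      pta_splitChars p S E.fixingSubgroup) :=
    Finite.of_injective (fun χ => (⟨χ.1, χ.2.1⟩ : (pta_kumHom hζ (pta_kumDom p S E)).range))
      (fun a b h => Subtype.ext (by
        have := congrArg (fun z : (pta_kumHom hζ (pta_kumDom p S E)).range => z.1) h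
        exact this))
  exact Nat.card_le_card_of_injective (AddSubgroup.inclusion hle)
    (AddSubgroup.inclusion_injective hle)

end Count

end Fermat.Agent.Lib.PT

end
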