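/-
S55 (Poitou–Tate), local ↔ global bridge, part N: the inputs of the LOCAL CLASS FORMATION over open
subgroups `U ≤ G_q` (hypotheses of helper6's `ptl_F3_local`, `ptl_nondegH2_trivial`,
`ptl_nondegHom_trivial` and of helper4's `pts_nondegH2_of_levelData`).

* `ptg_hilbert90_hom`: Hilbert 90 (cochain form) over ANY group `H` with `j : H → Gal(Ω/k)`;
  `ptg_units_h90_hom`, `ptg_isB1_of_isLZ1_units_sub`: big-model forms for `Ω_qˣ`, in particular
  for nested open subgroups `V ≤ U ≤ G_q` (kernels of characters of `U`);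
* `ptg_units_divisible`: `Ωˣ` is divisible for `Ω` algebraically closed;
* `ptg_cycloKer q p`: the stabiliser of `μ_p(Ω_q)` in `G_q` (kernel of the local cyclotomic
  character): normal, open, of index dividing `p - 1`, fixes the `p`-th roots of unity;
* `ptg_zeta_package`: the `ζ`-hypotheses (`p • ζ = 0`, `ζ ≠ 0`, `ζ` fixed, `C[p] = ⟨ζ⟩`) over any
  `U ≤ ptg_cycloKer q p`.
-/
import Mathlib
import Fermat.Agent.Lib.PT.AdtFull
import Fermat.Agent.Lib.PT.BridgeM

set_option autoImplicit false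
set_option linter.unusedSectionVars false

namespace Fermat.Agent.Lib.PT

open ExtCitation


section H90hom

variable {k Ω : Type*} [Field k] [Field Ω] [Algebra k Ω]

/-- **Hilbert 90 over an arbitrary group mapping to an infinite Galois group**, cochain form:
`H` any group, `j : H → Gal(Ω/k)`; a 1-cocycle `φ : H → Ωˣ` (for the action through `j`) which is
right-invariant under `j⁻¹(Gal(Ω/L))`, `Gal(Ω/L)` of finite index, is a coboundary. -/
theorem ptg_hilbert90_hom {H : Type*} [Group H] (j : H →* (Ω ≃ₐ[k] Ω))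
    (L : IntermediateField k Ω) [L.fixingSubgroup.FiniteIndex] (φ : H → Ωˣ)
    (hφ : ∀ g h : H, φ (g * h) = j g • φ h * φ g)
    (hlev : ∀ g n : H, j n ∈ L.fixingSubgroup → φ (g * n) = φ g) :
    ∃ b : Ωˣ, ∀ g : H, φ g = j g • b / b := by
  classical
  let N' : Subgroup H := L.fixingSubgroup.comap j
  have hN'fi : N'.FiniteIndex := by
    refine ⟨?_⟩
    show (L.fixingSubgroup.comap j).index ≠ 0
    rw [Subgroup.index_comap]
    exact (Subgroup.instFiniteIndex_subgroupOf L.fixingSubgroup j.range).index_ne_zero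
  have hfinq : Finite (H ⧸ N') := Subgroup.finite_quotient_of_finiteIndex
  have := Fintype.ofFinite (H ⧸ N')
  let f : ↥L → H → Ω := fun c h => (φ h : Ω) * j h (c : Ω)
  have hf : ∀ (c : ↥L) (h n : H), n ∈ N' → f c (h * n) = f c h := by
    intro c h n hn
    have hn' : j n ∈ L.fixingSubgroup := hn
    show (φ (h * n) : Ω) * j (h * n) (c : Ω) = (φ h : Ω) * j h (c : Ω)
    rw [hlev h n hn', map_mul]
    congr 1
    show j h (j n (c : Ω)) = _
    rw [(IntermediateField.mem_fixingSubgroup_iff L _).mp hn' (c : Ω) c.2]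
  have hfmk : ∀ (c : ↥L) (h : H), f c (QuotientGroup.mk h : H ⧸ N').out = f c h := by
    intro c h
    obtain ⟨n, hn⟩ := QuotientGroup.mk_out_eq_mul N' h
    rw [hn]
    exact hf c h n n.2
  let S : ↥L → Ω := fun c => ∑ x : H ⧸ N', f c x.out
  have hgf : ∀ (c : ↥L) (g h : H), j g (f c h) = (φ g : Ω)⁻¹ * f c (g * h) := by
    intro c g h
    have h1 : ((φ (g * h) : Ωˣ) : Ω) = j g (φ h : Ω) * (φ g : Ω) := by
      rw [hφ g h, Units.val_mul, AlgEquiv.smul_units_def]
      rfl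
    show j g ((φ h : Ω) * j h (c : Ω)) = (φ g : Ω)⁻¹ * ((φ (g * h) : Ω) * j (g * h) (c : Ω))
    rw [map_mul, h1, map_mul j g h]
    have hne : (φ g : Ω) ≠ 0 := (φ g).ne_zero
    show _ = (φ g : Ω)⁻¹ * (j g (φ h : Ω) * (φ g : Ω) * j g (j h (c : Ω)))
    field_simp
  have hS : ∀ (c : ↥L) (g : H), j g (S c) = (φ g : Ω)⁻¹ * S c := by
    intro c g
    show j g (∑ x : H ⧸ N', f c x.out) = (φ g : Ω)⁻¹ * ∑ x : H ⧸ N', f c x.out
    rw [map_sum, Finset.mul_sum]
    have h2 : ∀ x : H ⧸ N', j g (f c x.out) = (φ g : Ω)⁻¹ * f c (g • x).out := by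
      intro x
      rw [hgf c g x.out, ← hfmk c (g * x.out)]
      congr 3
      conv_rhs => rw [← QuotientGroup.out_eq' x]
      rfl
    rw [Finset.sum_congr rfl fun x _ => h2 x]
    exact (MulAction.bijective g).sum_comp (fun x : H ⧸ N' => (φ g : Ω)⁻¹ * f c x.out)
  have hne : ∃ c : ↥L, S c ≠ 0 := by
    by_contra hall
    have hall' : ∀ c : ↥L, S c = 0 := by
      intro c
      by_contra hc
      exact hall ⟨c, hc⟩
    let χ : H ⧸ N' → (↥L →* Ω) := fun x =>
      { toFun := fun c => j x.out (c : Ω)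
        map_one' := by simp
        map_mul' := fun a b => by simp }
    have hχ : Function.Injective χ := by
      intro x y hxy
      have h1 : ∀ c : ↥L, j x.out (c : Ω) = j y.out (c : Ω) :=
        fun c => DFunLike.congr_fun hxy c
      have h2 : (x.out)⁻¹ * y.out ∈ N' := by
        show j ((x.out)⁻¹ * y.out) ∈ L.fixingSubgroup
        rw [IntermediateField.mem_fixingSubgroup_iff]
        intro c hc
        rw [map_mul, map_inv]
        show (j x.out)⁻¹ (j y.out c) = c
        rw [← h1 ⟨c, hc⟩]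
        exact (j x.out).symm_apply_apply c
      have h3 : (QuotientGroup.mk x.out : H ⧸ N') = QuotientGroup.mk y.out :=
        QuotientGroup.eq.mpr h2
      rwa [QuotientGroup.out_eq', QuotientGroup.out_eq'] at h3
    have hli : LinearIndependent Ω (fun x : H ⧸ N' => ((χ x : ↥L →* Ω) : ↥L → Ω)) :=
      (linearIndependent_monoidHom ↥L Ω).comp χ hχ
    have hsum : ∑ x : H ⧸ N', (φ x.out : Ω) • ((χ x : ↥L →* Ω) : ↥L → Ω) = 0 := by
      funext c
      rw [Finset.sum_apply]
      exact hall' c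
    have h0 := Fintype.linearIndependent_iff.mp hli (fun x => (φ x.out : Ω)) hsum
      (QuotientGroup.mk 1 : H ⧸ N')
    exact (φ (QuotientGroup.mk 1 : H ⧸ N').out).ne_zero h0
  obtain ⟨c, hc⟩ := hne
  refine ⟨(Units.mk0 (S c) hc)⁻¹, fun g => ?_⟩
  apply Units.ext
  rw [Units.val_div_eq_div_val, AlgEquiv.smul_units_def, Units.coe_map, Units.val_inv_eq_inv_val,
    Units.val_mk0]
  show (φ g : Ω) = j g (S c)⁻¹ / (S c)⁻¹
  rw [map_inv₀, hS c g]
  have hne : (φ g : Ω) ≠ 0 := (φ g).ne_zero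
  field_simp

end H90hom

/-- the units of an algebraically closed field are divisible -/
theorem ptg_units_divisible {Ω : Type*} [Field Ω] [IsAlgClosed Ω] {n : ℕ} (hn : 0 < n)
    (c : Additive Ωˣ) : ∃ c' : Additive Ωˣ, n • c' = c := by
  obtain ⟨z, hz⟩ := IsAlgClosed.exists_pow_nat_eq ((Additive.toMul c : Ωˣ) : Ω) hn
  have hz0 : z ≠ 0 := by
    rintro rfl
    rw [zero_pow hn.ne'] at hz
    exact (Additive.toMul c : Ωˣ).ne_zero hz.symm
  refine ⟨Additive.ofMul (Units.mk0 z hz0), ?_⟩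
  rw [← ofMul_pow]
  apply congrArg Additive.ofMul
  apply Units.ext
  rw [Units.val_pow_eq_pow_val, Units.val_mk0, hz]
  rfl


section LocalH90

variable (q : ℕ) [Fact q.Prime]

/-- **Hilbert 90 for `Ω_qˣ` over any group mapping to `G_q`**: a 1-cocycle `φ : H → Ω_qˣ` for the
action through `j : H → G_q` which is right-invariant under `j⁻¹(N)` for a level `N` of `G_q` is a
coboundary. -/
theorem ptg_units_h90_hom {H : Type*} [Group H] (j : H →* (PadicAlgCl q ≃ₐ[ℚ_[q]] PadicAlgCl q))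
    (φ : H → Additive (PadicAlgCl q)ˣ)
    (hφ : ptd_IsZ1 ((ptg_unitsRep q).comp j) φ)
    {N : Subgroup (PadicAlgCl q ≃ₐ[ℚ_[q]] PadicAlgCl q)} (hN : N ∈ (ptg_levels q).lev)
    (hlev : ∀ g n : H, j n ∈ N → φ (g * n) = φ g) :
    ptd_IsB1 ((ptg_unitsRep q).comp j) φ := by
  obtain ⟨F, hF, hst, rfl⟩ := (ptg_mem_levels_iff q N).mp hN
  have := hF
  have hfi : (ptg_loc q F).fixingSubgroup.FiniteIndex := ptg_lev_finiteIndex q F
  obtain ⟨b, hb⟩ := ptg_hilbert90_hom j (ptg_loc q F) (fun g => Additive.toMul (φ g))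
    (fun g h => by
      have h1 := hφ g h
      have h2 := congrArg Additive.toMul h1
      rw [h2]
      rfl)
    (fun g n hn => congrArg Additive.toMul (hlev g n hn))
  refine ⟨Additive.ofMul b, ?_⟩
  funext g
  have h1 := hb g
  show φ g = Additive.ofMul (j g • b) - Additive.ofMul b
  rw [← ofMul_div, ← h1]
  rfl

/-- **local (F1) for nested open subgroups** `V ≤ U ≤ G_q` (as needed for the kernels of characters
of `U`) -/
theorem ptg_isB1_of_isLZ1_units_sub {U : Subgroup (PadicAlgCl q ≃ₐ[ℚ_[q]] PadicAlgCl q)}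
    (hU : (ptg_levels q).IsOpen U) {V : Subgroup ↥U} (hV : ((ptg_levels q).sub U hU).IsOpen V)
    (φ : V → Additive (PadicAlgCl q)ˣ)
    (hφ : ptd_IsLZ1 (((ptg_levels q).sub U hU).sub V hV)
      (ptd_resRep (ptd_resRep (ptg_unitsRep q) U) V) φ) :
    ptd_IsB1 (ptd_resRep (ptd_resRep (ptg_unitsRep q) U) V) φ := by
  obtain ⟨hZ, N'', ⟨N', ⟨N, hN, hNU, rfl⟩, hN'V, rfl⟩, hlev⟩ := hφ
  exact ptg_units_h90_hom q (U.subtype.comp V.subtype) φ hZ hN
    (fun g n hn => hlev g n (Subgroup.mem_subgroupOf.mpr (Subgroup.mem_subgroupOf.mpr hn)))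


end LocalH90

section CycloKer

variable (q p : ℕ) [Fact q.Prime] [Fact p.Prime]



/-- an element of `(ZMod p)ˣ` of `p`-power order is trivial -/
lemma ptg_zmodUnits_eq_one_of_pow {e : (ZMod p)ˣ} {k : ℕ} (h : e ^ p ^ k = 1) : e = 1 := by
  have hp : p.Prime := Fact.out
  have h1 : orderOf e ∣ p ^ k := orderOf_dvd_of_pow_eq_one h
  have h2 : orderOf e ∣ p - 1 := by
    have := orderOf_dvd_card (x := e)
    rwa [ZMod.card_units_eq_totient, Nat.totient_prime hp] at this
  by_cases hp2 : p - 1 = 0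
  · have : p = 1 := by have := hp.one_lt; omega
    exact absurd this hp.ne_one
  have hcop : Nat.Coprime (p ^ k) (p - 1) :=
    Nat.Coprime.pow_left k (Nat.coprime_of_lt_prime hp2 (by have := hp.pos; omega) hp)
  have h3 : orderOf e = 1 := Nat.eq_one_of_dvd_coprimes hcop h1 h2
  exact orderOf_eq_one_iff.mp h3

/-- an element of `G_q` a `p`-power of which fixes the `p`-th roots of unity fixes them -/
theorem ptg_smul_rootOfUnity_eq_of_pow {ζ : (PadicAlgCl q)ˣ} (hζ : IsPrimitiveRoot ζ p)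
    (τ : PadicAlgCl q ≃ₐ[ℚ_[q]] PadicAlgCl q) {k : ℕ} (h : (τ ^ p ^ k) • ζ = ζ) : τ • ζ = ζ := by
  have hp : p.Prime := Fact.out
  have : NeZero p := ⟨hp.ne_zero⟩
  have h1 := ptg_smul_rootOfUnity q p (τ ^ p ^ k) hζ.pow_eq_one
  rw [h, map_pow, map_pow] at h1
  have h2 : ((cycloChar p (localGaloisToGlobal q τ) ^ p ^ k : (ZMod p)ˣ) : ZMod p).val = 1 := by
    have h3 : ζ ^ 1 = ζ ^ ((cycloChar p (localGaloisToGlobal q τ) ^ p ^ k : (ZMod p)ˣ) :
        ZMod p).val := by rw [pow_one]; exact h1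
    exact (hζ.pow_inj hp.one_lt (ZMod.val_lt _) h3).symm
  have h4 : (cycloChar p (localGaloisToGlobal q τ)) ^ p ^ k = 1 := by
    apply Units.ext
    apply ZMod.val_injective
    rw [h2, Units.val_one, ZMod.val_one'' (by have := hp.one_lt; omega)]
  have h5 := ptg_zmodUnits_eq_one_of_pow p h4
  rw [ptg_smul_rootOfUnity q p τ hζ.pow_eq_one, h5, Units.val_one,
    ZMod.val_one'' (by have := hp.one_lt; omega), pow_one]




/-- the restriction to `G_q` of the mod `p` cyclotomic character -/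
noncomputable def ptg_cycloCharLoc : (PadicAlgCl q ≃ₐ[ℚ_[q]] PadicAlgCl q) →* (ZMod p)ˣ :=
  (cycloChar p).comp (localGaloisToGlobal q)

/-- the stabiliser of `μ_p(Ω_q)` in `G_q`: the kernel of the local cyclotomic character -/
noncomputable def ptg_cycloKer : Subgroup (PadicAlgCl q ≃ₐ[ℚ_[q]] PadicAlgCl q) :=
  (ptg_cycloCharLoc q p).ker

instance ptg_cycloKer_normal : (ptg_cycloKer q p).Normal := by
  unfold ptg_cycloKer; infer_instance

lemma ptg_mem_cycloKer_iff (τ : PadicAlgCl q ≃ₐ[ℚ_[q]] PadicAlgCl q) :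
    τ ∈ ptg_cycloKer q p ↔ cycloChar p (localGaloisToGlobal q τ) = 1 := Iff.rfl

/-- `ptg_cycloKer` is open: it is `Gal(Ω_q/ℚ_q(μ_p))` -/
theorem ptg_cycloKer_isOpen : (ptg_levels q).IsOpen (ptg_cycloKer q p) := by
  have h := ptg_isOpen_comap (localGaloisToGlobal q) (pta_cycloField p)
  rw [pta_fixingSubgroup_cycloField] at h
  exact h

/-- `[G_q : ptg_cycloKer]` divides `p - 1`, in particular it is prime to `p` -/
theorem ptg_cycloKer_index_dvd : (ptg_cycloKer q p).index ∣ p - 1 := by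
  have hp : p.Prime := Fact.out
  unfold ptg_cycloKer
  rw [Subgroup.index_ker]
  have h1 : Nat.card (ptg_cycloCharLoc q p).range ∣ Nat.card (ZMod p)ˣ :=
    Subgroup.card_subgroup_dvd_card _
  have h2 : Nat.card (ZMod p)ˣ = p - 1 := by
    rw [Nat.card_eq_fintype_card, ZMod.card_units_eq_totient, Nat.totient_prime hp]
  rwa [h2] at h1

theorem ptg_cycloKer_not_dvd_index : ¬ p ∣ (ptg_cycloKer q p).index := by
  have hp : p.Prime := Fact.out
  intro h
  have h1 := h.trans (ptg_cycloKer_index_dvd q p)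
  have h2 : p ≤ p - 1 := Nat.le_of_dvd (by have := hp.one_lt; omega) h1
  have := hp.pos
  omega

instance ptg_cycloKer_finiteIndex : (ptg_cycloKer q p).FiniteIndex :=
  ptd_Levels.IsOpen.finiteIndex (ptg_levels q) (ptg_cycloKer_isOpen q p)

/-- `ptg_cycloKer` fixes the `p`-th roots of unity -/
theorem ptg_cycloKer_smul {τ : PadicAlgCl q ≃ₐ[ℚ_[q]] PadicAlgCl q} (hτ : τ ∈ ptg_cycloKer q p)
    {u : (PadicAlgCl q)ˣ} (hu : u ^ p = 1) : τ • u = u := by
  have hp : p.Prime := Fact.out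
  rw [ptg_smul_rootOfUnity q p τ hu, (ptg_mem_cycloKer_iff q p τ).mp hτ, Units.val_one,
    ZMod.val_one'' (by have := hp.one_lt; omega), pow_one]

/-- the `ζ`-package of the local class formation over an open `U ≤ ptg_cycloKer`, in the shape of
helper6's `ptl_F3_local` / `ptl_nondegH2_trivial` -/
theorem ptg_zeta_package {ζ : (PadicAlgCl q)ˣ} (hζ : IsPrimitiveRoot ζ p)
    {U : Subgroup (PadicAlgCl q ≃ₐ[ℚ_[q]] PadicAlgCl q)} (hUK : U ≤ ptg_cycloKer q p) :
    p • (Additive.ofMul ζ) = 0 ∧ Additive.ofMul ζ ≠ 0 ∧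
      (∀ g : U, ptd_resRep (ptg_unitsRep q) U g (Additive.ofMul ζ) = Additive.ofMul ζ) ∧
      ∀ c : Additive (PadicAlgCl q)ˣ, p • c = 0 → ∃ k : ℕ, c = k • Additive.ofMul ζ := by
  have hp : p.Prime := Fact.out
  refine ⟨?_, ?_, ?_, ?_⟩
  · rw [← ofMul_pow, hζ.pow_eq_one]; rfl
  · intro h
    have h1 : ζ = 1 := h
    exact hζ.ne_one hp.one_lt h1
  · intro g
    rw [ptd_resRep_apply, Representation.ofMulDistribMulAction_apply_apply, toMul_ofMul,
      ptg_cycloKer_smul q p (hUK g.2) hζ.pow_eq_one]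
  · intro c hc
    obtain ⟨a, ha⟩ := ptg_exists_zetaHom_of_tors p hζ c hc
    refine ⟨a.val, ?_⟩
    rw [← ha, ptg_zetaHom_apply, ofMul_pow]


end CycloKer

end Fermat.Agent.Lib.PT
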