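/-
S55 / L6 bridge, part O (helper7): **hnormidx** for the local class formation over an open subgroup
`U ≤ G_q = Gal(Ω_q/ℚ_q)` (input of helper6's `ptl_F3_local`).

* `ptg_exists_not_norm_generic`: for a finite extension `K/ℚ_q`, `Ω/K` Galois, `W ≤ Gal(Ω/K)` an
  open normal subgroup with `Gal(Ω/K)/W` of prime order `p` generated by `τ`: there is `c ∈ Kˣ`
  which is not of the form `∏_{i<p} τ^i a` with `a ∈ (Ω^W)ˣ` (local norm index theorem
  `pti_local_norm_index_units` of helper9 for the cyclic extension `Ω^W / K`).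
* `ptg_galFixedEquiv`: `Gal(Ω_q / Ω_q^U) ≃* U` for open `U`.
* `ptg_charKer_normal`: kernels of characters are normal.
* `ptg_hnormidx`: the statement in the big-group model over `(U, 𝓛.sub U, Ω_qˣ)`.
-/
import Fermat.Agent.Lib.PT.BridgeN
import Fermat.Agent.Lib.PT.HerbLocalB
import Fermat.Agent.Lib.PT.ClsNorm
set_option autoImplicit false
set_option linter.unusedSectionVars false
namespace Fermat.Agent.Lib.PT

section Generic

variable (q : ℕ) [Fact q.Prime]
variable (K Ω : Type) [Field K] [Algebra ℚ_[q] K] [FiniteDimensional ℚ_[q] K]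
  [Field Ω] [Algebra K Ω] [Algebra ℚ_[q] Ω] [IsScalarTower ℚ_[q] K Ω] [IsGalois K Ω]

include q in
set_option synthInstance.maxHeartbeats 400000 in
/-- In a cyclic extension of prime degree `p` of local fields (given as the fixed field of an open
normal subgroup `W` of `Gal(Ω/K)` with `Gal(Ω/K)/W` generated by `τ`), the norm
`a ↦ ∏_{i<p} τ^i a` from `(Ω^W)ˣ` to `Kˣ` is not surjective. -/
theorem ptg_exists_not_norm_generic (p : ℕ) [Fact p.Prime]
    (W : Subgroup (Ω ≃ₐ[K] Ω)) [W.Normal]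
    (E : IntermediateField K Ω) [FiniteDimensional K E] (hE : E.fixingSubgroup ≤ W)
    (τ : Ω ≃ₐ[K] Ω) (hτ : τ ∉ W) (hτp : τ ^ p ∈ W)
    (hgen : ∀ g : Ω ≃ₐ[K] Ω, ∃ i : ℕ, g⁻¹ * τ ^ i ∈ W) :
    ∃ c : Ωˣ, (∀ g : Ω ≃ₐ[K] Ω, g • c = c) ∧
      ∀ a : Ωˣ, (∀ w ∈ W, w • a = a) → c ≠ ∏ i ∈ Finset.range p, (τ ^ i) • a := by
  classical
  -- `W` is open, hence closed
  have hWo : IsOpen (W : Set (Ω ≃ₐ[K] Ω)) :=
    Subgroup.isOpen_mono hE E.fixingSubgroup_isOpen
  have hWc : IsClosed (W : Set (Ω ≃ₐ[K] Ω)) := Subgroup.isClosed_of_isOpen W hWo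
  set L : IntermediateField K Ω := IntermediateField.fixedField W with hL
  have hfix : L.fixingSubgroup = W :=
    InfiniteGalois.fixingSubgroup_fixedField ⟨W, hWc⟩
  have hLE : L ≤ E := by
    intro x hx
    rw [← InfiniteGalois.fixedField_fixingSubgroup E, IntermediateField.mem_fixedField_iff]
    intro g hg
    exact (IntermediateField.mem_fixedField_iff W x).mp hx g (hE hg)
  have hfdL : FiniteDimensional K L :=
    FiniteDimensional.of_injective (IntermediateField.inclusion hLE).toLinearMap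
      (IntermediateField.inclusion hLE).toRingHom.injective
  have hnorm : L.fixingSubgroup.Normal := by rw [hfix]; infer_instance
  have hgal : IsGalois K L := (InfiniteGalois.normal_iff_isGalois L).mp hnorm
  have hnl : Normal K L := hgal.to_normal
  set res : (Ω ≃ₐ[K] Ω) →* (↥L ≃ₐ[K] ↥L) := AlgEquiv.restrictNormalHom L with hres
  have hsurj : Function.Surjective res := AlgEquiv.restrictNormalHom_surjective Ω
  have hker : res.ker = W := by rw [hres, IntermediateField.restrictNormalHom_ker, hfix]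
  set σ := res τ with hσdef
  have hσ : ∀ g, g ∈ Subgroup.zpowers σ := by
    intro g
    obtain ⟨g', rfl⟩ := hsurj g
    obtain ⟨i, hi⟩ := hgen g'
    have h1 : res (g'⁻¹ * τ ^ i) = 1 := by rw [← MonoidHom.mem_ker, hker]; exact hi
    rw [map_mul, map_inv, map_pow, inv_mul_eq_one] at h1
    rw [h1]
    exact Subgroup.npow_mem_zpowers _ _
  have hσ1 : σ ≠ 1 := by
    intro h
    apply hτ
    rw [← hker]; exact h
  have hσp : σ ^ p = 1 := by
    rw [hσdef, ← map_pow, ← MonoidHom.mem_ker, hker]; exact hτp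
  have hord : orderOf σ = p := orderOf_eq_prime hσp hσ1
  have hcard : Nat.card (↥L ≃ₐ[K] ↥L) = p := by
    rw [← hord]; exact (orderOf_eq_card_of_forall_mem_zpowers hσ).symm
  have hfr : Module.finrank K L = p := by
    rw [← hcard]; exact (IsGalois.card_aut_eq_finrank K L).symm
  have hfdQ : FiniteDimensional ℚ_[q] L := FiniteDimensional.trans ℚ_[q] K L
  have hidx := pti_local_norm_index_units q K L σ hσ
  rw [hfr] at hidx
  have hnot : ¬ (pti_fU (Λ := ↥L) σ).ker ≤ (pti_gU (G := ↥L ≃ₐ[K] ↥L) (Λ := ↥L)).range := by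
    intro hle
    rw [Subgroup.relIndex_eq_one.mpr hle] at hidx
    exact (Fact.out : p.Prime).one_lt.ne hidx
  obtain ⟨u, hu, hun⟩ := SetLike.not_le_iff_exists.mp hnot
  have hσu : σ • u = u := by
    have := (pti_fU_eq_one_iff σ u).mp (MonoidHom.mem_ker.mp hu)
    apply Units.ext
    rw [AlgEquiv.smul_units_def]
    exact this
  refine ⟨ptg_unitsIncl L u, ?_, ?_⟩
  · intro g
    rw [← ptg_unitsIncl_smul L g u]
    congr 1
    obtain ⟨n, hn⟩ := Subgroup.mem_zpowers_iff.mp (hσ (res g))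
    show res g • u = u
    rw [← hn]
    have hst : σ ∈ MulAction.stabilizer (↥L ≃ₐ[K] ↥L) u := hσu
    exact Subgroup.zpow_mem _ hst n
  · intro a ha hc
    obtain ⟨a', rfl⟩ := (ptg_mem_range_unitsIncl_iff_fixed L a).mpr (by rw [hfix]; exact ha)
    apply hun
    refine ⟨a', ?_⟩
    apply ptg_unitsIncl_injective L
    rw [hc]
    have himg := IsCyclic.image_range_orderOf hσ
    rw [hord] at himg
    have hinj : Set.InjOn (fun i : ℕ => σ ^ i) (Finset.range p : Set ℕ) := by
      have := pow_injOn_Iio_orderOf (x := σ)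
      rw [hord] at this
      intro i hi j hj hij
      exact this (by simpa using hi) (by simpa using hj) hij
    have h1 : pti_gU (G := ↥L ≃ₐ[K] ↥L) (Λ := ↥L) a'
        = ∏ i ∈ Finset.range p, (σ ^ i) • a' := by
      unfold pti_gU
      rw [MonoidHom.finsetProd_apply, ← himg, Finset.prod_image hinj]
      refine Finset.prod_congr rfl (fun i _ => ?_)
      apply Units.ext
      rw [AlgEquiv.smul_units_def]
      rfl
    rw [h1, map_prod]
    refine Finset.prod_congr rfl (fun i _ => ?_)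
    rw [← ptg_unitsIncl_smul L (τ ^ i) a', map_pow]

end Generic

section Local

variable (q : ℕ) [Fact q.Prime] (p : ℕ) [Fact p.Prime]

local notation "Gq" => (PadicAlgCl q ≃ₐ[ℚ_[q]] PadicAlgCl q)

/-- `U ≃ Gal(Ω_q / Ω_q^U)` for an open subgroup `U ≤ G_q` -/
noncomputable def ptg_galFixedEquiv {U : Subgroup Gq} (hU : (ptg_levels q).IsOpen U) :
    (PadicAlgCl q ≃ₐ[↥(IntermediateField.fixedField U)] PadicAlgCl q) ≃* ↥U :=
  (IntermediateField.fixingSubgroupEquiv (IntermediateField.fixedField U)).symm.trans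
    (MulEquiv.subgroupCongr (ptg_fixingSubgroup_fixedField_of_isOpen q hU))

lemma ptg_galFixedEquiv_apply {U : Subgroup Gq} (hU : (ptg_levels q).IsOpen U)
    (g : PadicAlgCl q ≃ₐ[↥(IntermediateField.fixedField U)] PadicAlgCl q) (x : PadicAlgCl q) :
    ((ptg_galFixedEquiv q hU g : ↥U) : Gq) x = g x := rfl

lemma ptg_galFixedEquiv_smul {U : Subgroup Gq} (hU : (ptg_levels q).IsOpen U)
    (g : PadicAlgCl q ≃ₐ[↥(IntermediateField.fixedField U)] PadicAlgCl q) (x : (PadicAlgCl q)ˣ) :
    ((ptg_galFixedEquiv q hU g : ↥U) : Gq) • x = g • x := by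
  apply Units.ext
  rw [AlgEquiv.smul_units_def, AlgEquiv.smul_units_def]
  rfl

lemma ptg_charKer_normal {G : Type*} [Group G] {χ : G → ZMod p} (hχ : ptd_IsChar χ) :
    (ptl_charKer hχ).Normal := by
  refine ⟨fun n hn g => ?_⟩
  rw [ptl_mem_charKer] at hn ⊢
  rw [hχ, hχ, ptl_char_inv hχ, hn]
  ring

/-- **hnormidx** for the local class formation over an open `U ≤ G_q`: for a level character
`χ ≠ 0` of `U` with kernel `V` and `χ τ = 1`, the norm `a ↦ ∑_{i<p} τ^i a` from `(Ω^V)ˣ` to
`(Ω^U)ˣ` is not surjective. -/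
theorem ptg_hnormidx {U : Subgroup Gq} (hU : (ptg_levels q).IsOpen U)
    (χ : ↥U → ZMod p) (hχ : ptd_IsChar χ)
    (hlev : ptd_IsLev₁ ((ptg_levels q).sub U hU) χ) (τ : ↥U) (hτ : χ τ = 1) :
    ∃ c : (ptd_resRep (ptg_unitsRep q) U).invariants, ∀ a : Additive (PadicAlgCl q)ˣ,
      (∀ v ∈ ptl_charKer hχ, ptd_resRep (ptg_unitsRep q) U v a = a) →
        (c : Additive (PadicAlgCl q)ˣ) ≠
          ∑ i ∈ Finset.range p, ptd_resRep (ptg_unitsRep q) U (τ ^ i) a := by
  classical
  have hp := (Fact.out : p.Prime)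
  set K := IntermediateField.fixedField U with hK
  have hfdK : FiniteDimensional ℚ_[q] K := ptg_fixedField_finiteDimensional_of_isOpen q hU
  have hgalK : IsGalois K (PadicAlgCl q) := inferInstance
  set r := ptg_galFixedEquiv q hU with hr
  have hkn := ptg_charKer_normal p hχ
  set W : Subgroup (PadicAlgCl q ≃ₐ[K] PadicAlgCl q) :=
    (ptl_charKer hχ).comap r.toMonoidHom with hW
  have hWn : W.Normal := Subgroup.Normal.comap hkn _
  have hmemW : ∀ g, g ∈ W ↔ χ (r g) = 0 := fun g => Iff.rfl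
  obtain ⟨N', ⟨N, hN, hNU, rfl⟩, hNχ⟩ := hlev
  have hKN : K ≤ IntermediateField.fixedField N := by
    intro x hx
    rw [IntermediateField.mem_fixedField_iff] at hx ⊢
    exact fun g hg => hx g (hNU hg)
  set E : IntermediateField K (PadicAlgCl q) := IntermediateField.extendScalars hKN with hEdef
  have hfdN : FiniteDimensional ℚ_[q] (IntermediateField.fixedField N) :=
    ptg_fixedField_finiteDimensional_of_isOpen q ((ptg_levels q).isOpen_of_mem hN)
  have hfdE : FiniteDimensional K E := by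
    have h1 : FiniteDimensional ℚ_[q] E := by
      let f : ↥E →ₗ[ℚ_[q]] ↥(IntermediateField.fixedField N) :=
        { toFun := fun x => ⟨x.1, x.2⟩
          map_add' := fun _ _ => rfl
          map_smul' := fun _ _ => rfl }
      exact FiniteDimensional.of_injective f
        (fun x y h => Subtype.ext (congrArg Subtype.val h))
    exact FiniteDimensional.right ℚ_[q] K E
  have hE : E.fixingSubgroup ≤ W := by
    intro g hg
    rw [hmemW]
    have hgN : ((r g : ↥U) : Gq) ∈ N := by
      rw [← ptg_fixingSubgroup_fixedField_of_isOpen q ((ptg_levels q).isOpen_of_mem hN)]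
      rw [IntermediateField.mem_fixingSubgroup_iff]
      intro x hx
      have := (IntermediateField.mem_fixingSubgroup_iff E g).mp hg x hx
      exact this
    have := hNχ 1 (r g) (Subgroup.mem_subgroupOf.mpr hgN)
    rwa [one_mul, ptl_char_one hχ] at this
  obtain ⟨τ', hτ'⟩ := r.surjective τ
  have hτW : τ' ∉ W := by
    rw [hmemW, hτ', hτ]
    have : Fact (1 < p) := ⟨hp.one_lt⟩
    exact one_ne_zero
  have hτpW : τ' ^ p ∈ W := by
    rw [hmemW, map_pow, hτ', ptl_char_pow hχ, hτ]
    simp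
  have hgen : ∀ g : PadicAlgCl q ≃ₐ[K] PadicAlgCl q, ∃ i : ℕ, g⁻¹ * τ' ^ i ∈ W := by
    intro g
    refine ⟨(χ (r g)).val, ?_⟩
    rw [hmemW, map_mul, map_inv, map_pow, hτ', hχ, ptl_char_inv hχ, ptl_char_pow hχ, hτ]
    have : NeZero p := ⟨hp.ne_zero⟩
    simp
  obtain ⟨c, hc, hcn⟩ := ptg_exists_not_norm_generic q K (PadicAlgCl q) p W E hE τ' hτW hτpW hgen
  refine ⟨⟨Additive.ofMul c, ?_⟩, ?_⟩
  · intro g
    obtain ⟨g', rfl⟩ := r.surjective g
    show Additive.ofMul (((r g' : ↥U) : Gq) • c) = Additive.ofMul c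
    rw [ptg_galFixedEquiv_smul, hc]
  · intro a ha heq
    have hfix : ∀ w ∈ W, w • a.toMul = a.toMul := by
      intro w hw
      have h1 := ha (r w) hw
      rw [← ptg_galFixedEquiv_smul q hU w]
      exact congrArg Additive.toMul h1
    apply hcn a.toMul hfix
    have h2 := congrArg Additive.toMul heq
    rw [toMul_sum] at h2
    refine h2.trans (Finset.prod_congr rfl (fun i _ => ?_))
    rw [← hτ', ← map_pow, ← ptg_galFixedEquiv_smul q hU]
    rfl

end Local
end Fermat.Agent.Lib.PT
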