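/-
S55 (Poitou–Tate long-haul), S-track: change of target of an invariant map.  A `T`-valued
`ptd_Inv` composed with a map `θ : T → ZMod p` which is additive and injective on `T[p]`
is a `ZMod p`-valued `ptd_Inv`, and the nondegeneracy statements `ptd_NondegH2`, `ptd_NondegHom`
transfer (for coefficient modules killed by `p`).  So the producers of the invariant maps may use
any target `T` (`ℚ/ℤ`, `ℤ[1/p]/ℤ`, …) while `S55Skeleton` consumes `T = ZMod p`.
-/
import Mathlib
import Fermat.Agent.Lib.PT.AdtCorE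
import Fermat.Agent.Lib.PT.SeqDPush

set_option autoImplicit false
set_option linter.unusedSectionVars false

namespace Fermat.Agent.Lib.PT

section Conv

variable {G : Type*} [Group G] {𝓛 : ptd_Levels G}
variable {C : Type*} [AddCommGroup C] {ρC : Representation ℤ G C}
variable {T : Type*} [AddCommGroup T] {p : ℕ}

/-- `n • z` has `p`-torsion class if `z` has. -/
lemma ptd_IsLZ2p.nsmul {z : G × G → C} (hz : ptd_IsLZ2p 𝓛 ρC p z) (n : ℕ) :
    ptd_IsLZ2p 𝓛 ρC p (n • z) := by
  refine ⟨hz.1.nsmul n, ?_⟩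
  rw [smul_comm]
  exact hz.2.nsmul n

/-- An invariant map is `ℕ`-homogeneous on cocycles with `p`-torsion class. -/
lemma pts_inv_nsmul (inv : ptd_Inv 𝓛 ρC T p) {z : G × G → C} (hz : ptd_IsLZ2p 𝓛 ρC p z)
    (n : ℕ) : inv (n • z) = n • inv z := by
  induction n with
  | zero => rw [zero_smul, zero_smul]; exact pts_inv_zero 𝓛 inv
  | succ n ih =>
    rw [succ_nsmul, succ_nsmul, inv.map_add' _ _ (hz.nsmul n) hz, ih]

/-- The value of an invariant map on a cocycle with `p`-torsion class is `p`-torsion. -/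
lemma pts_inv_tors (inv : ptd_Inv 𝓛 ρC T p) {z : G × G → C} (hz : ptd_IsLZ2p 𝓛 ρC p z) :
    p • inv z = 0 := by
  rw [← pts_inv_nsmul inv hz p]
  exact inv.map_b2' _ hz.2

variable (θ : T → ZMod p)
  (hθadd : ∀ t t' : T, p • t = 0 → p • t' = 0 → θ (t + t') = θ t + θ t')

include hθadd in
lemma pts_θ_zero : θ 0 = 0 := by
  have := hθadd 0 0 (smul_zero _) (smul_zero _)
  rw [add_zero] at this
  exact left_eq_add.mp this

/-- Composition of an invariant map with `θ`. -/
def ptd_Inv.conv (inv : ptd_Inv 𝓛 ρC T p) : ptd_Inv 𝓛 ρC (ZMod p) p where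
  toFun z := θ (inv z)
  map_add' z z' hz hz' := by
    rw [inv.map_add' z z' hz hz', hθadd _ _ (pts_inv_tors inv hz) (pts_inv_tors inv hz')]
  map_b2' z hz := by
    rw [inv.map_b2' z hz]
    exact pts_θ_zero θ hθadd

@[simp]
lemma ptd_Inv.conv_apply (inv : ptd_Inv 𝓛 ρC T p) (z : G × G → C) :
    (inv.conv θ hθadd) z = θ (inv z) := rfl

variable (hθinj : ∀ t : T, p • t = 0 → θ t = 0 → t = 0)
variable {k : Type*} [CommRing k] {M : Type*} [AddCommGroup M] [Module k M]
variable {ρM : Representation k G M}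

include hθinj in
/-- Transfer of right-nondegeneracy. -/
theorem ptd_NondegH2.conv (hp : ∀ m : M, p • m = 0) {inv : ptd_Inv 𝓛 ρC T p}
    (h : ptd_NondegH2 𝓛 ρC inv ρM) : ptd_NondegH2 𝓛 ρC (inv.conv θ hθadd) ρM := by
  intro z hz hf
  refine h z hz fun f hfe => ?_
  exact hθinj _ (pts_inv_tors inv (pts_isLZ2p_map 𝓛 hp hfe hz)) (hf f hfe)

include hθinj in
/-- Transfer of left-nondegeneracy. -/
theorem ptd_NondegHom.conv (hp : ∀ m : M, p • m = 0) {inv : ptd_Inv 𝓛 ρC T p}
    (h : ptd_NondegHom 𝓛 ρC inv ρM) : ptd_NondegHom 𝓛 ρC (inv.conv θ hθadd) ρM := by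
  intro f hfe hf
  refine h f hfe fun z hz => ?_
  exact hθinj _ (pts_inv_tors inv (pts_isLZ2p_map 𝓛 hp hfe hz)) (hf z hz)

end Conv

end Fermat.Agent.Lib.PT
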