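/-
S55 (Poitou–Tate long haul), bridge "finite levels ⇒ big model", complements:

* `ptn_exists_invU_eq_one_div_p` : if `p ∣ [U : N]` for some level `N ≤ U`, there is a level
  2-cocycle of `U` with `p`-torsion class and invariant `1/p ≠ 0` (the hypothesis `hnz` of
  helper6's `ptl_nondegHom_trivial`).
* `ptn_invU_zmod`, `ptn_invG_zmod` : the `ZMod p`-valued invariant maps (helper4's
  `ptd_Inv.conv` along `ptn_theta`), with `ptn_hcor_zmod` and injectivity.
-/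
import Fermat.Agent.Lib.PT.BrgMain
import Fermat.Agent.Lib.PT.BrgTheta
import Fermat.Agent.Lib.PT.SeqDInvConv

set_option autoImplicit false

namespace Fermat.Agent.Lib.PT

variable {G : Type*} [Group G] {C : Type*} [AddCommGroup C]
variable {𝓛 : ptd_Levels G} {ρC : Representation ℤ G C} {p : ℕ} [hp : Fact p.Prime]
variable (D : ptn_LevelData 𝓛 ρC p) (hd : ptd_IsDiscrete 𝓛 ρC)
variable (U : Subgroup G) (hU : 𝓛.IsOpen U)

/-- **A class of invariant `1/p`**: if `p` divides `[U : N]` for a level `N ≤ U`, the cocycle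
`([U:N]/p) • res_U u_N` has `p`-torsion class and invariant `1/p`. -/
theorem ptn_exists_invU_eq_one_div_p {N : Subgroup G} (hN : N ∈ 𝓛.lev) (hNU : N ≤ U)
    (hpd : p ∣ N.relIndex U) :
    ∃ z₀ : U × U → C, ptd_IsLZ2p (𝓛.sub U hU) (ptd_resRep ρC U) p z₀ ∧
      ptn_invU D hd U hU z₀ = ptn_frac p 1 p := by
  obtain ⟨e, he⟩ := hpd
  have hfinN : N.FiniteIndex := 𝓛.finiteIndex N hN
  have hd0 : N.relIndex U ≠ 0 := fun h0 => hfinN.index_ne_zero (by
    rw [← Subgroup.relIndex_mul_index hNU, h0, zero_mul])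
  have he0 : e ≠ 0 := fun h0 => hd0 (by rw [he, h0, mul_zero])
  have hLZ : ptd_IsLZ2 (𝓛.sub U hU) (ptd_resRep ρC U) (ptd_res₂ U (D.U N)) :=
    ptd_isLZ2_res₂ U hU ρC (D.U_isLZ2 hN)
  refine ⟨e • ptd_res₂ U (D.U N), ⟨hLZ.nsmul e, ?_⟩, ?_⟩
  · have := ptn_tors D U hU hN hNU
    rwa [he, mul_smul] at this
  · have h := ptn_invU_eq D hd hU hN hNU (y := e • ptd_res₂ U (D.U N)) (n := (e : ℤ)) (m := 1)
      (by simpa using hp.out.one_lt.ne') (by
        rw [one_smul, natCast_zsmul, sub_self]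
        exact ptd_isB2_zero)
    rw [h, one_mul, he]
    have := ptn_frac_mul_right (p := p) 1 p e he0
    rwa [one_mul] at this

/-- the hypothesis `hnz` of helper6's `ptl_nondegHom_trivial` -/
theorem ptn_exists_invU_ne_zero {N : Subgroup G} (hN : N ∈ 𝓛.lev) (hNU : N ≤ U)
    (hpd : p ∣ N.relIndex U) :
    ∃ z₀ : U × U → C, ptd_IsLZ2p (𝓛.sub U hU) (ptd_resRep ρC U) p z₀ ∧
      ptn_invU D hd U hU z₀ ≠ 0 := by
  obtain ⟨z₀, hz₀, h⟩ := ptn_exists_invU_eq_one_div_p D hd U hU hN hNU hpd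
  exact ⟨z₀, hz₀, h ▸ ptn_frac_one_ne_zero⟩

/-- the `ZMod p`-valued invariant map of an open subgroup -/
noncomputable def ptn_invU_zmod : ptd_Inv (𝓛.sub U hU) (ptd_resRep ρC U) (ZMod p) p :=
  (ptn_invU D hd U hU).conv (ptn_theta p) ptn_theta_add

/-- the `ZMod p`-valued invariant map of the big group -/
noncomputable def ptn_invG_zmod : ptd_Inv 𝓛 ρC (ZMod p) p :=
  (ptn_invG D hd).conv (ptn_theta p) ptn_theta_add

lemma ptn_invU_zmod_apply (y : U × U → C) :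
    ptn_invU_zmod D hd U hU y = ptn_theta p (ptn_invU D hd U hU y) := rfl

lemma ptn_invG_zmod_apply (z : G × G → C) :
    ptn_invG_zmod D hd z = ptn_theta p (ptn_invG D hd z) := rfl

/-- `hcor` for the `ZMod p`-valued invariants -/
theorem ptn_hcor_zmod [U.FiniteIndex] (y : U × U → C)
    (hy : ptd_IsLZ2p (𝓛.sub U hU) (ptd_resRep ρC U) p y) :
    ptn_invG_zmod D hd (ptd_cor₂ U ρC y) = ptn_invU_zmod D hd U hU y := by
  rw [ptn_invG_zmod_apply, ptn_invU_zmod_apply, ptn_hcor D hd U hU y hy]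

/-- injectivity of the `ZMod p`-valued invariant on classes killed by `p` -/
theorem ptn_invU_zmod_eq_zero_iff {y : U × U → C}
    (hy : ptd_IsLZ2p (𝓛.sub U hU) (ptd_resRep ρC U) p y) :
    ptn_invU_zmod D hd U hU y = 0 ↔ ptd_IsB2 (𝓛.sub U hU) (ptd_resRep ρC U) y := by
  rw [← ptn_invU_eq_zero_iff D hd hU hy, ptn_invU_zmod_apply]
  constructor
  · exact ptn_theta_inj _ (pts_inv_tors _ hy)
  · intro h
    rw [h]
    have := ptn_theta_frac (p := p) 0
    rwa [ptn_frac_zero, Int.cast_zero] at this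

theorem ptn_invG_zmod_eq_zero_iff {z : G × G → C} (hz : ptd_IsLZ2p 𝓛 ρC p z) :
    ptn_invG_zmod D hd z = 0 ↔ ptd_IsB2 𝓛 ρC z := by
  rw [← ptn_invG_eq_zero_iff D hd hz, ptn_invG_zmod_apply]
  constructor
  · exact ptn_theta_inj _ (pts_inv_tors _ hz)
  · intro h
    rw [h]
    have := ptn_theta_frac (p := p) 0
    rwa [ptn_frac_zero, Int.cast_zero] at this

/-- the class of invariant `1` for the `ZMod p`-valued invariant -/
theorem ptn_exists_invU_zmod_eq_one {N : Subgroup G} (hN : N ∈ 𝓛.lev) (hNU : N ≤ U)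
    (hpd : p ∣ N.relIndex U) :
    ∃ z₀ : U × U → C, ptd_IsLZ2p (𝓛.sub U hU) (ptd_resRep ρC U) p z₀ ∧
      ptn_invU_zmod D hd U hU z₀ = 1 := by
  obtain ⟨z₀, hz₀, h⟩ := ptn_exists_invU_eq_one_div_p D hd U hU hN hNU hpd
  refine ⟨z₀, hz₀, ?_⟩
  rw [ptn_invU_zmod_apply, h]
  have := ptn_theta_frac (p := p) 1
  rwa [Int.cast_one] at this

end Fermat.Agent.Lib.PT
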