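import Fermat.Agent.Lib.PT.LocComplete
import Fermat.Agent.Lib.PT.BridgeL
import Fermat.Agent.Lib.PT.ClsKummer

set_option autoImplicit false
set_option linter.unusedSectionVars false

namespace Fermat.Agent.Lib.PT

section Generic

variable {k Ω : Type*} [Field k] [Field Ω] [Algebra k Ω]

/-- `(Ωˣ)^U = (Ω^U)ˣ`, generic version -/
lemma ptl_mem_range_unitsIncl_fixedField_iff (U : Subgroup (Ω ≃ₐ[k] Ω)) (u : Ωˣ) :
    u ∈ (ptg_unitsIncl (IntermediateField.fixedField U)).range ↔ ∀ τ ∈ U, τ • u = u := by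
  rw [ptg_mem_range_unitsIncl_iff, IntermediateField.mem_fixedField_iff]
  constructor
  · intro h τ hτ
    apply Units.ext
    rw [AlgEquiv.smul_units_def]
    exact h τ hτ
  · intro h τ hτ
    have := congrArg (fun w : Ωˣ => (w : Ω)) (h τ hτ)
    simpa using this

/-- the (surjective) map `Additive (Ω^U)ˣ →+ (Ωˣ)^U` -/
noncomputable def ptl_fixedUnits (U : Subgroup (Ω ≃ₐ[k] Ω)) :
    Additive (↥(IntermediateField.fixedField U))ˣ →+
      (ptd_resRep (Representation.ofMulDistribMulAction (Ω ≃ₐ[k] Ω) Ωˣ) U).invariants where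
  toFun a := ⟨Additive.ofMul (ptg_unitsIncl (IntermediateField.fixedField U) (Additive.toMul a)),
    fun u => by
      rw [ptd_resRep_apply, Representation.ofMulDistribMulAction_apply_apply]
      apply congrArg Additive.ofMul
      exact (ptl_mem_range_unitsIncl_fixedField_iff U _).mp ⟨_, rfl⟩ u u.2⟩
  map_zero' := by
    apply Subtype.ext
    simp
  map_add' a b := by
    apply Subtype.ext
    simp

lemma ptl_fixedUnits_surjective (U : Subgroup (Ω ≃ₐ[k] Ω)) :
    Function.Surjective (ptl_fixedUnits U) := by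
  rintro ⟨c, hc⟩
  have h : ∀ τ ∈ U, τ • (Additive.toMul c : Ωˣ) = Additive.toMul c := by
    intro τ hτ
    have := hc ⟨τ, hτ⟩
    rw [ptd_resRep_apply, Representation.ofMulDistribMulAction_apply_apply] at this
    exact congrArg Additive.toMul this
  obtain ⟨v, hv⟩ := (ptl_mem_range_unitsIncl_fixedField_iff U _).mpr h
  refine ⟨Additive.ofMul v, Subtype.ext ?_⟩
  change Additive.ofMul (ptg_unitsIncl _ v) = c
  rw [hv]; rfl

/-- finiteness of `(Ω^U)ˣ/p` gives finiteness of `C^U / p C^U` for `C = Ωˣ` -/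
theorem ptl_pInv_index_ne_zero_of_fixedField (U : Subgroup (Ω ≃ₐ[k] Ω)) (p : ℕ)
    (h : (powMonoidHom p :
      (↥(IntermediateField.fixedField U))ˣ →* (↥(IntermediateField.fixedField U))ˣ).range.index
        ≠ 0) :
    (ptl_pInv (ptd_resRep (Representation.ofMulDistribMulAction (Ω ≃ₐ[k] Ω) Ωˣ) U) p).index
      ≠ 0 := by
  set H : AddSubgroup (Additive (↥(IntermediateField.fixedField U))ˣ) :=
    Subgroup.toAddSubgroup (powMonoidHom p :
      (↥(IntermediateField.fixedField U))ˣ →* (↥(IntermediateField.fixedField U))ˣ).range with hH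
  have hHi : H.index ≠ 0 := by rw [hH, Subgroup.index_toAddSubgroup]; exact h
  have hmap : H.map (ptl_fixedUnits U) ≤ ptl_pInv _ p := by
    rintro _ ⟨a, ⟨b, hb⟩, rfl⟩
    refine ⟨ptl_fixedUnits U (Additive.ofMul b), ?_⟩
    rw [nsmulAddMonoidHom_apply, ← map_nsmul]
    congr 1
  have h1 : (H.map (ptl_fixedUnits U)).index ≠ 0 := by
    have := AddSubgroup.index_map_dvd H (ptl_fixedUnits_surjective U)
    exact fun h0 => hHi (Nat.eq_zero_of_zero_dvd (h0 ▸ this))
  exact fun h0 => h1 (Nat.eq_zero_of_zero_dvd (h0 ▸ AddSubgroup.index_dvd_of_le hmap))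

end Generic

section Local

variable (q : ℕ) [Fact q.Prime]

/-- **hfin for the local F3**: for an open subgroup `U ≤ G_q` and `C = Ω_qˣ`, the group
`C^U / p C^U = K_Uˣ/(K_Uˣ)^p` is finite. -/
theorem ptl_hfin_units {p : ℕ} (hp : p.Prime)
    {U : Subgroup (PadicAlgCl q ≃ₐ[ℚ_[q]] PadicAlgCl q)} (hU : (ptg_levels q).IsOpen U) :
    (ptl_pInv (ptd_resRep (ptg_unitsRep q) U) p).index ≠ 0 := by
  have := ptg_fixedField_finiteDimensional_of_isOpen q hU
  exact ptl_pInv_index_ne_zero_of_fixedField U p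
    (ptl_index_pow_ne_zero q (↥(IntermediateField.fixedField U)) hp)

end Local

end Fermat.Agent.Lib.PT
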