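import Fermat.Agent.Lib.PT.ClsF3
import Fermat.Agent.Lib.PT.ClsHfin
import Fermat.Agent.Lib.PT.BridgeN
import Fermat.Agent.Lib.PT.BrgMore
import Fermat.Agent.Lib.PT.AdtFull

set_option autoImplicit false
set_option linter.unusedSectionVars false

namespace Fermat.Agent.Lib.PT

section LocalOneShot

variable (q : ℕ) [Fact q.Prime] (p : ℕ) [Fact p.Prime]
variable (D : ptn_LevelData (ptg_levels q) (ptg_unitsRep q) p)

/-- the hypothesis `hnormidx` of the local F3 over an open subgroup `U ≤ G_q`: for a nonzero level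
character of `U` with kernel `V`, the norm `C^V → C^U` is not surjective (`C = Ω_qˣ`). -/
def ptl_LocalNormIdx (U : Subgroup (PadicAlgCl q ≃ₐ[ℚ_[q]] PadicAlgCl q))
    (hU : (ptg_levels q).IsOpen U) : Prop :=
  ∀ (χ : U → ZMod p) (hχ : ptd_IsChar χ), ptd_IsLev₁ ((ptg_levels q).sub U hU) χ → χ ≠ 0 →
    ∀ τ : U, χ τ = 1 → ∃ c : (ptd_resRep (ptg_unitsRep q) U).invariants,
      ∀ a : Additive (PadicAlgCl q)ˣ,
        (∀ v ∈ ptl_charKer hχ, ptd_resRep (ptg_unitsRep q) U v a = a) →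
          (c : Additive (PadicAlgCl q)ˣ) ≠
            ∑ i ∈ Finset.range p, ptd_resRep (ptg_unitsRep q) U (τ ^ i) a

variable {q p}

/-- a primitive `p`-th root of unity in `Ω_q` -/
theorem ptl_exists_primitiveRoot_Om : ∃ ζ : (PadicAlgCl q)ˣ, IsPrimitiveRoot ζ p := by
  have hp : p.Prime := Fact.out
  have : NeZero ((p : ℕ) : PadicAlgCl q) := ⟨by
    have : CharZero (PadicAlgCl q) :=
      charZero_of_injective_algebraMap (algebraMap ℚ_[q] (PadicAlgCl q)).injective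
    exact_mod_cast hp.ne_zero⟩
  obtain ⟨z, hz⟩ := HasEnoughRootsOfUnity.exists_primitiveRoot (PadicAlgCl q) p
  have hz0 : z ≠ 0 := hz.ne_zero hp.ne_zero
  refine ⟨Units.mk0 z hz0, ?_⟩
  rw [← IsPrimitiveRoot.coe_units_iff]
  exact hz

/-- **LOCAL F3, one shot**: for every open `U ≤ G_q` fixing `μ_p`, F3 holds for the invariant map
`ptn_invU D hd U hU` of ANY level data `D` on `(G_q, Ω_qˣ)`. -/
theorem ptl_local_F3 (hd : ptd_IsDiscrete (ptg_levels q) (ptg_unitsRep q))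
    (U : Subgroup (PadicAlgCl q ≃ₐ[ℚ_[q]] PadicAlgCl q)) (hU : (ptg_levels q).IsOpen U)
    (hUK : U ≤ ptg_cycloKer q p) (hnormidx : ptl_LocalNormIdx q p U hU) :
    ptd_F3 ((ptg_levels q).sub U hU) (ptd_resRep (ptg_unitsRep q) U) (ptn_invU D hd U hU) := by
  have hp : p.Prime := Fact.out
  obtain ⟨ζ, hζ⟩ := ptl_exists_primitiveRoot_Om (q := q) (p := p)
  obtain ⟨h1, h2, h3, h4⟩ := ptg_zeta_package q p hζ hUK
  obtain ⟨t₀, ht₀, -, ht⟩ := ptn_T_tors_cyclic (p := p)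
  refine ptl_F3_local (ptd_IsDiscrete.resRep U hU hd)
    (fun c => ptg_units_divisible hp.pos c) h1 h2 h3 h4 (ptn_invU D hd U hU)
    ⟨t₀, ht₀, ht⟩ (fun z hz h0 => (ptn_invU_eq_zero_iff D hd hU hz).mp h0)
    (ptl_hfin_units q hp hU) ?_ hnormidx
  intro χ hχ hlev _ φ hφ
  exact ptg_isB1_of_isLZ1_units_sub q hU (ptl_charKer_isOpen hχ hlev) φ hφ

/-- **LOCAL F4 (i), one shot**: right nondegeneracy for trivial coefficients over every open
`U ≤ G_q` fixing `μ_p`. -/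
theorem ptl_local_F4i (hd : ptd_IsDiscrete (ptg_levels q) (ptg_unitsRep q))
    (U : Subgroup (PadicAlgCl q ≃ₐ[ℚ_[q]] PadicAlgCl q)) (hU : (ptg_levels q).IsOpen U)
    (hUK : U ≤ ptg_cycloKer q p) :
    ptd_NondegH2 ((ptg_levels q).sub U hU) (ptd_resRep (ptg_unitsRep q) U)
      (ptn_invU D hd U hU) (Representation.trivial (ZMod p) U (ZMod p)) := by
  have hp : p.Prime := Fact.out
  obtain ⟨ζ, hζ⟩ := ptl_exists_primitiveRoot_Om (q := q) (p := p)
  obtain ⟨h1, h2, h3, h4⟩ := ptg_zeta_package q p hζ hUK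
  refine ptl_nondegH2_trivial (ptd_IsDiscrete.resRep U hU hd)
    (fun c => ptg_units_divisible hp.pos c) h1 h2 h3 h4 ?_ (ptn_invU D hd U hU)
    (fun z hz h0 => (ptn_invU_eq_zero_iff D hd hU hz).mp h0)
  intro φ hφ
  exact ptg_isB1_of_isLZ1_units q hU φ hφ

/-- **LOCAL F4 (ii), one shot**: left nondegeneracy for trivial coefficients over every open
`U ≤ G_q` fixing `μ_p` which contains a level of index divisible by `p`. -/
theorem ptl_local_F4ii (hd : ptd_IsDiscrete (ptg_levels q) (ptg_unitsRep q))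
    (U : Subgroup (PadicAlgCl q ≃ₐ[ℚ_[q]] PadicAlgCl q)) (hU : (ptg_levels q).IsOpen U)
    (hUK : U ≤ ptg_cycloKer q p)
    (hlev : ∃ N ∈ (ptg_levels q).lev, N ≤ U ∧ p ∣ N.relIndex U) :
    ptd_NondegHom ((ptg_levels q).sub U hU) (ptd_resRep (ptg_unitsRep q) U)
      (ptn_invU D hd U hU) (Representation.trivial (ZMod p) U (ZMod p)) := by
  have hp : p.Prime := Fact.out
  obtain ⟨ζ, hζ⟩ := ptl_exists_primitiveRoot_Om (q := q) (p := p)
  obtain ⟨h1, -, -, h4⟩ := ptg_zeta_package q p hζ hUK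
  obtain ⟨N, hN, hNU, hpd⟩ := hlev
  exact ptl_nondegHom_trivial (ptd_IsDiscrete.resRep U hU hd)
    (fun c => ptg_units_divisible hp.pos c) h1 h4 (ptn_invU D hd U hU)
    (ptn_exists_invU_ne_zero D hd U hU hN hNU hpd)

end LocalOneShot

end Fermat.Agent.Lib.PT
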