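/-
S55 (Poitou–Tate long-haul), S-track: THE FORMATION GLUE, abstract form.  Same as `SeqFormation`
but for an arbitrary *system of invariant maps* `(invG, invU)` (any target `T`) with
`invG ∘ cor = invU` and F1 for every open subgroup, instead of the bridge's `ptn_invG`/`ptn_invU`.
-/
import Mathlib
import Fermat.Agent.Lib.PT.SeqFormation

set_option autoImplicit false
set_option linter.unusedSectionVars false

namespace Fermat.Agent.Lib.PT

section FormationGen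

variable {G : Type*} [Group G] {𝓛 : ptd_Levels G} {C : Type*} [AddCommGroup C]
variable {ρC : Representation ℤ G C} {T : Type*} [AddCommGroup T] {p : ℕ} [hp : Fact p.Prime]
variable (hd : ptd_IsDiscrete 𝓛 ρC) (invG : ptd_Inv 𝓛 ρC T p)
variable (invU : ∀ (U : Subgroup G) (hU : 𝓛.IsOpen U),
  ptd_Inv (𝓛.sub U hU) (ptd_resRep ρC U) T p)
variable (hcor : ∀ (U : Subgroup G) (hU : 𝓛.IsOpen U) [U.FiniteIndex] (y : U × U → C),
  ptd_IsLZ2p (𝓛.sub U hU) (ptd_resRep ρC U) p y → invG (ptd_cor₂ U ρC y) = invU U hU y)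
variable (K : Subgroup G) [K.Normal] (hK : 𝓛.IsOpen K) (hKp : ¬ p ∣ K.index)
variable {M : Type*} [AddCommGroup M] [Module (ZMod p) M]
variable (ρM : Representation (ZMod p) G M)

include hd hcor hK hKp in
/-- **(A) for an abstract system of invariant maps.** -/
theorem pts_nondegH2_of_invSystem [Module.Finite (ZMod p) M]
    (hF1 : ∀ (U : Subgroup G) (hU : 𝓛.IsOpen U), U ≤ K →
      ptd_F1 (𝓛.sub U hU) (ptd_resRep ρC U) p)
    (hF3 : ∀ (U : Subgroup G) (hU : 𝓛.IsOpen U), U ≤ K →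
      ptd_F3 (𝓛.sub U hU) (ptd_resRep ρC U) (invU U hU))
    (hF4 : ∀ (U : Subgroup G) (hU : 𝓛.IsOpen U), U ≤ K →
      ptd_NondegH2 (𝓛.sub U hU) (ptd_resRep ρC U) (invU U hU)
        (Representation.trivial (ZMod p) U (ZMod p)))
    (htriv : ptd_IsTrivOnLevel 𝓛 ρM) : ptd_NondegH2 𝓛 ρC invG ρM := by
  obtain ⟨N₀, hN₀, hN₀M⟩ := htriv
  obtain ⟨N, hN, hNN₀, -, U, hNU, hUK, hUidx, hUP⟩ := pts_exists_sylow_open K hK hKp hN₀
  have hU : 𝓛.IsOpen U := ⟨N, hN, hNU⟩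
  have := hU.finiteIndex
  exact ptd_nondegH2 hd invG U hU hUidx (invU U hU) (hcor U hU)
    (hF1 U hU hUK) (hF3 U hU hUK) (hF4 U hU hUK) ρM ⟨N₀, hN₀, hN₀M⟩
    (pts_isPGroup_range ρM U N (fun n hn => hN₀M n (hNN₀ hn)) hUP)

include hcor hK in
/-- **(B') for an abstract system of invariant maps.** -/
theorem pts_nondegHom_of_invSystem
    (hF4' : ∀ (V : Subgroup G) (hV : V ∈ 𝓛.lev), V ≤ K →
      ptd_NondegHom (𝓛.sub V (𝓛.isOpen_of_mem hV)) (ptd_resRep ρC V)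
        (invU V (𝓛.isOpen_of_mem hV)) (Representation.trivial (ZMod p) V (ZMod p)))
    (htriv : ptd_IsTrivOnLevel 𝓛 ρM) : ptd_NondegHom 𝓛 ρC invG ρM := by
  obtain ⟨N₀, hN₀, hN₀M⟩ := htriv
  obtain ⟨N₁, hN₁, hN₁K⟩ := hK
  obtain ⟨V, hV, hle⟩ := 𝓛.directed N₀ hN₀ N₁ hN₁
  have := 𝓛.finiteIndex V hV
  exact ptd_nondegHom invG ρM V hV (fun n hn => hN₀M n (hle hn).1)
    (invU V (𝓛.isOpen_of_mem hV)) (hcor V (𝓛.isOpen_of_mem hV))
    (hF4' V hV ((hle.trans inf_le_right).trans hN₁K))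

end FormationGen

end Fermat.Agent.Lib.PT
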