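/-
S55 (Poitou–Tate long-haul): THE FINAL CONSUMER STATEMENT, third form: the GLOBAL invariant maps
are an abstract system `(invG, invU)` with values in `ℚ/ℤ_(p)` (e.g. the output of the abstract
global class formation theorem), the local ones are the bridge's `ptn_invG` of local level data.
-/
import Mathlib
import Fermat.Agent.Lib.PT.S55Formation
import Fermat.Agent.Lib.PT.SeqFormationGen

set_option autoImplicit false
set_option linter.unusedSectionVars false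

namespace Fermat.Agent.Lib.PT

open CategoryTheory groupCohomology ExtCitation Module

local notation "Qbar" => AlgebraicClosure ℚ
local notation "GQ" => (AlgebraicClosure ℚ ≃ₐ[ℚ] AlgebraicClosure ℚ)

section Top

variable {p : ℕ} [hp : Fact p.Prime]

set_option maxHeartbeats 800000 in
/-- **S55 from a global invariant map and local level data** (T-valued nondegeneracies as
hypotheses). -/
theorem pts_S55_of_invG
    (hp2 : p ≠ 2) (S : Finset Nat.Primes) (hpS : pPrime p ∈ S)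
    (M : Rep (ZMod p) (AlgebraicClosure ℚ ≃ₐ[ℚ] AlgebraicClosure ℚ))
    [FiniteDimensional (ZMod p) M]
    (hsm : ∀ m : M, ∃ F : IntermediateField ℚ (AlgebraicClosure ℚ), FiniteDimensional ℚ F ∧
      ∀ s ∈ F.fixingSubgroup, M.ρ s m = m)
    (hMur : ∀ q : Nat.Primes, q ∉ S → ∀ A : ValuationSubring (AlgebraicClosure ℚ),
      A.LiesOverPrime (q : ℕ) → ∀ g ∈ A.inertiaSubgroupIn ℚ, M.ρ g = 1)
    (𝒢 : pts_EMod p S)
    (invG : ptd_Inv (pta_levelsS S) 𝒢.ρC (ptn_T p) p)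
    (hAG : ptd_NondegH2 (pta_levelsS S) 𝒢.ρC invG M.ρ)
    (hBG : ptd_NondegHom (pta_levelsS S) 𝒢.ρC invG M.ρ)
    (L : ∀ q : ↥S, pts_LocPre 𝒢 q)
    (DL : ∀ q : ↥S, ptn_LevelData (L q).𝓛 (L q).ρ p)
    (hdL : ∀ q : ↥S, ptd_IsDiscrete (L q).𝓛 (L q).ρ)
    (hCL : ∀ q : ↥S, ptd_NondegH2 (L q).𝓛 (L q).ρ (ptn_invG (DL q) (hdL q))
      (pts_LocData.Mq M q).ρ)
    (hLG : ∀ y : GQ × GQ → 𝒢.J, ptd_IsLZ2 (pta_levelsS S) 𝒢.ρJ y → (∀ x, p • y x = 0) →
      invG (fun x => 𝒢.π (y x)) = ∑ q : ↥S, ptn_invG (DL q) (hdL q) (fun x =>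
        (L q).evΩ (y (primeLocalToGlobal q.1 x.1, primeLocalToGlobal q.1 x.2)))) :
    ∃ B : sha₁ S (M.dualTwist (cycloChar p)) →ₗ[ZMod p] sha₂ S M →ₗ[ZMod p] ZMod p,
      (∀ y, (∀ x, B y x = 0) → y = 0) ∧ (∀ x, (∀ y, B y x = 0) → x = 0) := by
  have hpM : ∀ m : M.V, p • m = 0 := fun m => ZModModule.char_nsmul_eq_zero p m
  refine pts_S55_of_producers hp2 S hpS M hsm hMur 𝒢 (pts_invZ invG)
    (pts_nondegH2_invZ hpM hAG) (pts_nondegHom_invZ hpM hBG)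
    (fun q => (L q).toLocData (pts_invZ (ptn_invG (DL q) (hdL q))))
    (fun q => pts_nondegH2_invZ hpM (hCL q)) (fun y hy hyp => ?_)
  change pts_theta p (invG (fun x => 𝒢.π (y x)))
    = ∑ q : ↥S, pts_theta p (ptn_invG (DL q) (hdL q) (fun x =>
        (L q).evΩ (y (primeLocalToGlobal q.1 x.1, primeLocalToGlobal q.1 x.2))))
  rw [hLG y hy hyp, pts_theta_sum]
  exact fun q _ => pts_inv_tors _ ((L q).isLZ2p_evΩ hy hyp)

set_option maxHeartbeats 800000 in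
/-- **S55 from an abstract global system of invariant maps, local level data**, and the
trivial-coefficient inputs F1 (global), F3, F4 for the open subgroups fixing `μ_p`, plus (LG). -/
theorem pts_S55_of_invSystems
    (hp2 : p ≠ 2) (S : Finset Nat.Primes) (hpS : pPrime p ∈ S)
    (M : Rep (ZMod p) (AlgebraicClosure ℚ ≃ₐ[ℚ] AlgebraicClosure ℚ))
    [FiniteDimensional (ZMod p) M]
    (hsm : ∀ m : M, ∃ F : IntermediateField ℚ (AlgebraicClosure ℚ), FiniteDimensional ℚ F ∧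
      ∀ s ∈ F.fixingSubgroup, M.ρ s m = m)
    (hMur : ∀ q : Nat.Primes, q ∉ S → ∀ A : ValuationSubring (AlgebraicClosure ℚ),
      A.LiesOverPrime (q : ℕ) → ∀ g ∈ A.inertiaSubgroupIn ℚ, M.ρ g = 1)
    -- (G1)
    (𝒢 : pts_EMod p S) (hdG : ptd_IsDiscrete (pta_levelsS S) 𝒢.ρC)
    -- (G-INV): the global system of invariant maps
    (invG : ptd_Inv (pta_levelsS S) 𝒢.ρC (ptn_T p) p)
    (invU : ∀ (U : Subgroup GQ) (hU : (pta_levelsS S).IsOpen U),
      ptd_Inv ((pta_levelsS S).sub U hU) (ptd_resRep 𝒢.ρC U) (ptn_T p) p)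
    (hcor : ∀ (U : Subgroup GQ) (hU : (pta_levelsS S).IsOpen U) [U.FiniteIndex] (y : U × U → 𝒢.C),
      ptd_IsLZ2p ((pta_levelsS S).sub U hU) (ptd_resRep 𝒢.ρC U) p y →
      invG (ptd_cor₂ U 𝒢.ρC y) = invU U hU y)
    -- (G-F1), (G-F3), (G-F4), (G-F4')
    (hF1G : ∀ (U : Subgroup GQ) (hU : (pta_levelsS S).IsOpen U), U ≤ (cycloChar p).ker →
      ptd_F1 ((pta_levelsS S).sub U hU) (ptd_resRep 𝒢.ρC U) p)
    (hF3G : ∀ (U : Subgroup GQ) (hU : (pta_levelsS S).IsOpen U), U ≤ (cycloChar p).ker →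
      ptd_F3 ((pta_levelsS S).sub U hU) (ptd_resRep 𝒢.ρC U) (invU U hU))
    (hF4G : ∀ (U : Subgroup GQ) (hU : (pta_levelsS S).IsOpen U), U ≤ (cycloChar p).ker →
      ptd_NondegH2 ((pta_levelsS S).sub U hU) (ptd_resRep 𝒢.ρC U) (invU U hU)
        (Representation.trivial (ZMod p) U (ZMod p)))
    (hF4G' : ∀ (V : Subgroup GQ) (hV : V ∈ (pta_levelsS S).lev), V ≤ (cycloChar p).ker →
      ptd_NondegHom ((pta_levelsS S).sub V ((pta_levelsS S).isOpen_of_mem hV))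
        (ptd_resRep 𝒢.ρC V) (invU V ((pta_levelsS S).isOpen_of_mem hV))
        (Representation.trivial (ZMod p) V (ZMod p)))
    -- (L-pre), (L-FC)
    (L : ∀ q : ↥S, pts_LocPre 𝒢 q)
    (DL : ∀ q : ↥S, ptn_LevelData (L q).𝓛 (L q).ρ p)
    (hdL : ∀ q : ↥S, ptd_IsDiscrete (L q).𝓛 (L q).ρ)
    -- (L-F3), (L-F4)
    (hF3L : ∀ (q : ↥S) (U : Subgroup (primeLocalGaloisGroup q.1)) (hU : (L q).𝓛.IsOpen U),
      U ≤ pts_cycloKerLoc p q.1 → ptd_F3 ((L q).𝓛.sub U hU) (ptd_resRep (L q).ρ U)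
        (ptn_invU (DL q) (hdL q) U hU))
    (hF4L : ∀ (q : ↥S) (U : Subgroup (primeLocalGaloisGroup q.1)) (hU : (L q).𝓛.IsOpen U),
      U ≤ pts_cycloKerLoc p q.1 → ptd_NondegH2 ((L q).𝓛.sub U hU) (ptd_resRep (L q).ρ U)
        (ptn_invU (DL q) (hdL q) U hU) (Representation.trivial (ZMod p) U (ZMod p)))
    -- (LG)
    (hLG : ∀ y : GQ × GQ → 𝒢.J, ptd_IsLZ2 (pta_levelsS S) 𝒢.ρJ y → (∀ x, p • y x = 0) →
      invG (fun x => 𝒢.π (y x)) = ∑ q : ↥S, ptn_invG (DL q) (hdL q) (fun x =>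
        (L q).evΩ (y (primeLocalToGlobal q.1 x.1, primeLocalToGlobal q.1 x.2)))) :
    ∃ B : sha₁ S (M.dualTwist (cycloChar p)) →ₗ[ZMod p] sha₂ S M →ₗ[ZMod p] ZMod p,
      (∀ y, (∀ x, B y x = 0) → y = 0) ∧ (∀ x, (∀ y, B y x = 0) → x = 0) := by
  have htrivG : ptd_IsTrivOnLevel (pta_levelsS S) M.ρ :=
    pta_isTrivOnLevel M (pta_isLevel_kerField (S := S) hsm hMur)
  refine pts_S55_of_invG hp2 S hpS M hsm hMur 𝒢 invG ?_ ?_ L DL hdL (fun q => ?_) hLG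
  · exact pts_nondegH2_of_invSystem hdG invG invU hcor (cycloChar p).ker
      (pts_isOpen_cycloKer hpS) (pts_not_dvd_index_ker _) M.ρ hF1G hF3G hF4G htrivG
  · exact pts_nondegHom_of_invSystem invG invU hcor (cycloChar p).ker
      (pts_isOpen_cycloKer hpS) M.ρ hF4G' htrivG
  · exact pts_nondegH2_of_levelData (DL q) (hdL q) (pts_cycloKerLoc p q.1) (L q).isOpen_K
      (pts_not_dvd_index_cycloKerLoc q.1) (pts_LocData.Mq M q).ρ (hF3L q) (hF4L q)
      ((L q).isTrivOnLevel M hsm)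

end Top

end Fermat.Agent.Lib.PT
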