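/-
S55 (Poitou–Tate long-haul): THE FINAL CONSUMER STATEMENTS with the Hom-side input (F4') in
COFINAL shape: left nondegeneracy with trivial coefficients is only required at a cofinal set of
levels `V ≤ ker χ_cyc` (helper3's global F4(ii) holds deep enough in the cyclotomic tower).
-/
import Mathlib
import Fermat.Agent.Lib.PT.S55FormationGen

set_option autoImplicit false
set_option linter.unusedSectionVars false

namespace Fermat.Agent.Lib.PT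

open CategoryTheory groupCohomology ExtCitation Module

local notation "Qbar" => AlgebraicClosure ℚ
local notation "GQ" => (AlgebraicClosure ℚ ≃ₐ[ℚ] AlgebraicClosure ℚ)

section Cofinal

variable {G : Type*} [Group G] {𝓛 : ptd_Levels G} {C : Type*} [AddCommGroup C]
variable {ρC : Representation ℤ G C} {T : Type*} [AddCommGroup T] {p : ℕ} [hp : Fact p.Prime]
variable (invG : ptd_Inv 𝓛 ρC T p)
variable (invU : ∀ (U : Subgroup G) (hU : 𝓛.IsOpen U),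
  ptd_Inv (𝓛.sub U hU) (ptd_resRep ρC U) T p)
variable (hcor : ∀ (U : Subgroup G) (hU : 𝓛.IsOpen U) [U.FiniteIndex] (y : U × U → C),
  ptd_IsLZ2p (𝓛.sub U hU) (ptd_resRep ρC U) p y → invG (ptd_cor₂ U ρC y) = invU U hU y)
variable (K : Subgroup G) (hK : 𝓛.IsOpen K)
variable {M : Type*} [AddCommGroup M] [Module (ZMod p) M]
variable (ρM : Representation (ZMod p) G M)

include hcor hK in
/-- **(B') for an abstract system of invariant maps, cofinal form.** -/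
theorem pts_nondegHom_of_invSystem_cofinal
    (hF4' : ∀ (V₀ : Subgroup G), V₀ ∈ 𝓛.lev → V₀ ≤ K → ∃ (V : Subgroup G) (hV : V ∈ 𝓛.lev),
      V ≤ V₀ ∧ ptd_NondegHom (𝓛.sub V (𝓛.isOpen_of_mem hV)) (ptd_resRep ρC V)
        (invU V (𝓛.isOpen_of_mem hV)) (Representation.trivial (ZMod p) V (ZMod p)))
    (htriv : ptd_IsTrivOnLevel 𝓛 ρM) : ptd_NondegHom 𝓛 ρC invG ρM := by
  obtain ⟨N₀, hN₀, hN₀M⟩ := htriv
  obtain ⟨N₁, hN₁, hN₁K⟩ := hK
  obtain ⟨V₀, hV₀, hle⟩ := 𝓛.directed N₀ hN₀ N₁ hN₁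
  obtain ⟨V, hV, hVV₀, hnd⟩ := hF4' V₀ hV₀ ((hle.trans inf_le_right).trans hN₁K)
  have := 𝓛.finiteIndex V hV
  exact ptd_nondegHom invG ρM V hV (fun n hn => hN₀M n (hle (hVV₀ hn)).1)
    (invU V (𝓛.isOpen_of_mem hV)) (hcor V (𝓛.isOpen_of_mem hV)) hnd

end Cofinal

section Top

variable {p : ℕ} [hp : Fact p.Prime]

set_option maxHeartbeats 800000 in
/-- **S55 from an abstract global system of invariant maps and local level data**, (F4') in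
cofinal shape. -/
theorem pts_S55_of_invSystems_cofinal
    (hp2 : p ≠ 2) (S : Finset Nat.Primes) (hpS : pPrime p ∈ S)
    (M : Rep (ZMod p) (AlgebraicClosure ℚ ≃ₐ[ℚ] AlgebraicClosure ℚ))
    [FiniteDimensional (ZMod p) M]
    (hsm : ∀ m : M, ∃ F : IntermediateField ℚ (AlgebraicClosure ℚ), FiniteDimensional ℚ F ∧
      ∀ s ∈ F.fixingSubgroup, M.ρ s m = m)
    (hMur : ∀ q : Nat.Primes, q ∉ S → ∀ A : ValuationSubring (AlgebraicClosure ℚ),
      A.LiesOverPrime (q : ℕ) → ∀ g ∈ A.inertiaSubgroupIn ℚ, M.ρ g = 1)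
    -- (G1)
    (𝒢 : pts_EMod p S) (hdG : ptd_IsDiscrete (pta_levelsS S) 𝒢.ρC)
    -- (G-INV): the global system of invariant maps
    (invG : ptd_Inv (pta_levelsS S) 𝒢.ρC (ptn_T p) p)
    (invU : ∀ (U : Subgroup GQ) (hU : (pta_levelsS S).IsOpen U),
      ptd_Inv ((pta_levelsS S).sub U hU) (ptd_resRep 𝒢.ρC U) (ptn_T p) p)
    (hcor : ∀ (U : Subgroup GQ) (hU : (pta_levelsS S).IsOpen U) [U.FiniteIndex] (y : U × U → 𝒢.C),
      ptd_IsLZ2p ((pta_levelsS S).sub U hU) (ptd_resRep 𝒢.ρC U) p y →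
      invG (ptd_cor₂ U 𝒢.ρC y) = invU U hU y)
    -- (G-F1), (G-F3), (G-F4), (G-F4') cofinal
    (hF1G : ∀ (U : Subgroup GQ) (hU : (pta_levelsS S).IsOpen U), U ≤ (cycloChar p).ker →
      ptd_F1 ((pta_levelsS S).sub U hU) (ptd_resRep 𝒢.ρC U) p)
    (hF3G : ∀ (U : Subgroup GQ) (hU : (pta_levelsS S).IsOpen U), U ≤ (cycloChar p).ker →
      ptd_F3 ((pta_levelsS S).sub U hU) (ptd_resRep 𝒢.ρC U) (invU U hU))
    (hF4G : ∀ (U : Subgroup GQ) (hU : (pta_levelsS S).IsOpen U), U ≤ (cycloChar p).ker →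
      ptd_NondegH2 ((pta_levelsS S).sub U hU) (ptd_resRep 𝒢.ρC U) (invU U hU)
        (Representation.trivial (ZMod p) U (ZMod p)))
    (hF4G' : ∀ (V₀ : Subgroup GQ), V₀ ∈ (pta_levelsS S).lev → V₀ ≤ (cycloChar p).ker →
      ∃ (V : Subgroup GQ) (hV : V ∈ (pta_levelsS S).lev), V ≤ V₀ ∧
        ptd_NondegHom ((pta_levelsS S).sub V ((pta_levelsS S).isOpen_of_mem hV))
          (ptd_resRep 𝒢.ρC V) (invU V ((pta_levelsS S).isOpen_of_mem hV))
          (Representation.trivial (ZMod p) V (ZMod p)))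
    -- (L-pre), (L-FC)
    (L : ∀ q : ↥S, pts_LocPre 𝒢 q)
    (DL : ∀ q : ↥S, ptn_LevelData (L q).𝓛 (L q).ρ p)
    (hdL : ∀ q : ↥S, ptd_IsDiscrete (L q).𝓛 (L q).ρ)
    -- (L-F3), (L-F4)
    (hF3L : ∀ (q : ↥S) (U : Subgroup (primeLocalGaloisGroup q.1)) (hU : (L q).𝓛.IsOpen U),
      U ≤ pts_cycloKerLoc p q.1 → ptd_F3 ((L q).𝓛.sub U hU) (ptd_resRep (L q).ρ U)
        (ptn_invU (DL q) (hdL q) U hU))
    (hF4L : ∀ (q : ↥S) (U : Subgroup (primeLocalGaloisGroup q.1)) (hU : (L q).𝓛.IsOpen U),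
      U ≤ pts_cycloKerLoc p q.1 → ptd_NondegH2 ((L q).𝓛.sub U hU) (ptd_resRep (L q).ρ U)
        (ptn_invU (DL q) (hdL q) U hU) (Representation.trivial (ZMod p) U (ZMod p)))
    -- (LG)
    (hLG : ∀ y : GQ × GQ → 𝒢.J, ptd_IsLZ2 (pta_levelsS S) 𝒢.ρJ y → (∀ x, p • y x = 0) →
      invG (fun x => 𝒢.π (y x)) = ∑ q : ↥S, ptn_invG (DL q) (hdL q) (fun x =>
        (L q).evΩ (y (primeLocalToGlobal q.1 x.1, primeLocalToGlobal q.1 x.2)))) :
    ∃ B : sha₁ S (M.dualTwist (cycloChar p)) →ₗ[ZMod p] sha₂ S M →ₗ[ZMod p] ZMod p,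
      (∀ y, (∀ x, B y x = 0) → y = 0) ∧ (∀ x, (∀ y, B y x = 0) → x = 0) := by
  have htrivG : ptd_IsTrivOnLevel (pta_levelsS S) M.ρ :=
    pta_isTrivOnLevel M (pta_isLevel_kerField (S := S) hsm hMur)
  refine pts_S55_of_invG hp2 S hpS M hsm hMur 𝒢 invG ?_ ?_ L DL hdL (fun q => ?_) hLG
  · exact pts_nondegH2_of_invSystem hdG invG invU hcor (cycloChar p).ker
      (pts_isOpen_cycloKer hpS) (pts_not_dvd_index_ker _) M.ρ hF1G hF3G hF4G htrivG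
  · exact pts_nondegHom_of_invSystem_cofinal invG invU hcor (cycloChar p).ker
      (pts_isOpen_cycloKer hpS) M.ρ hF4G' htrivG
  · exact pts_nondegH2_of_levelData (DL q) (hdL q) (pts_cycloKerLoc p q.1) (L q).isOpen_K
      (pts_not_dvd_index_cycloKerLoc q.1) (pts_LocData.Mq M q).ρ (hF3L q) (hF4L q)
      ((L q).isTrivOnLevel M hsm)

set_option maxHeartbeats 800000 in
/-- **S55 from global and local level data**, (F4') in cofinal shape: the global invariant maps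
are the bridge's `ptn_invG DG` / `ptn_invU DG`. -/
theorem pts_S55_of_formations_cofinal
    (hp2 : p ≠ 2) (S : Finset Nat.Primes) (hpS : pPrime p ∈ S)
    (M : Rep (ZMod p) (AlgebraicClosure ℚ ≃ₐ[ℚ] AlgebraicClosure ℚ))
    [FiniteDimensional (ZMod p) M]
    (hsm : ∀ m : M, ∃ F : IntermediateField ℚ (AlgebraicClosure ℚ), FiniteDimensional ℚ F ∧
      ∀ s ∈ F.fixingSubgroup, M.ρ s m = m)
    (hMur : ∀ q : Nat.Primes, q ∉ S → ∀ A : ValuationSubring (AlgebraicClosure ℚ),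
      A.LiesOverPrime (q : ℕ) → ∀ g ∈ A.inertiaSubgroupIn ℚ, M.ρ g = 1)
    (𝒢 : pts_EMod p S)
    (DG : ptn_LevelData (pta_levelsS S) 𝒢.ρC p) (hdG : ptd_IsDiscrete (pta_levelsS S) 𝒢.ρC)
    (hF3G : ∀ (U : Subgroup GQ) (hU : (pta_levelsS S).IsOpen U), U ≤ (cycloChar p).ker →
      ptd_F3 ((pta_levelsS S).sub U hU) (ptd_resRep 𝒢.ρC U) (ptn_invU DG hdG U hU))
    (hF4G : ∀ (U : Subgroup GQ) (hU : (pta_levelsS S).IsOpen U), U ≤ (cycloChar p).ker →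
      ptd_NondegH2 ((pta_levelsS S).sub U hU) (ptd_resRep 𝒢.ρC U) (ptn_invU DG hdG U hU)
        (Representation.trivial (ZMod p) U (ZMod p)))
    (hF4G' : ∀ (V₀ : Subgroup GQ), V₀ ∈ (pta_levelsS S).lev → V₀ ≤ (cycloChar p).ker →
      ∃ (V : Subgroup GQ) (hV : V ∈ (pta_levelsS S).lev), V ≤ V₀ ∧
        ptd_NondegHom ((pta_levelsS S).sub V ((pta_levelsS S).isOpen_of_mem hV))
          (ptd_resRep 𝒢.ρC V) (ptn_invU DG hdG V ((pta_levelsS S).isOpen_of_mem hV))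
          (Representation.trivial (ZMod p) V (ZMod p)))
    (L : ∀ q : ↥S, pts_LocPre 𝒢 q)
    (DL : ∀ q : ↥S, ptn_LevelData (L q).𝓛 (L q).ρ p)
    (hdL : ∀ q : ↥S, ptd_IsDiscrete (L q).𝓛 (L q).ρ)
    (hF3L : ∀ (q : ↥S) (U : Subgroup (primeLocalGaloisGroup q.1)) (hU : (L q).𝓛.IsOpen U),
      U ≤ pts_cycloKerLoc p q.1 → ptd_F3 ((L q).𝓛.sub U hU) (ptd_resRep (L q).ρ U)
        (ptn_invU (DL q) (hdL q) U hU))
    (hF4L : ∀ (q : ↥S) (U : Subgroup (primeLocalGaloisGroup q.1)) (hU : (L q).𝓛.IsOpen U),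
      U ≤ pts_cycloKerLoc p q.1 → ptd_NondegH2 ((L q).𝓛.sub U hU) (ptd_resRep (L q).ρ U)
        (ptn_invU (DL q) (hdL q) U hU) (Representation.trivial (ZMod p) U (ZMod p)))
    (hLG : ∀ y : GQ × GQ → 𝒢.J, ptd_IsLZ2 (pta_levelsS S) 𝒢.ρJ y → (∀ x, p • y x = 0) →
      ptn_invG DG hdG (fun x => 𝒢.π (y x)) = ∑ q : ↥S, ptn_invG (DL q) (hdL q) (fun x =>
        (L q).evΩ (y (primeLocalToGlobal q.1 x.1, primeLocalToGlobal q.1 x.2)))) :
    ∃ B : sha₁ S (M.dualTwist (cycloChar p)) →ₗ[ZMod p] sha₂ S M →ₗ[ZMod p] ZMod p,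
      (∀ y, (∀ x, B y x = 0) → y = 0) ∧ (∀ x, (∀ y, B y x = 0) → x = 0) :=
  pts_S55_of_invSystems_cofinal hp2 S hpS M hsm hMur 𝒢 hdG (ptn_invG DG hdG)
    (fun U hU => ptn_invU DG hdG U hU) (fun U hU _ y hy => ptn_hcor DG hdG U hU y hy)
    (fun U hU _ => ptn_F1 DG hdG U hU) hF3G hF4G hF4G' L DL hdL hF3L hF4L hLG

end Top

end Fermat.Agent.Lib.PT
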