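/-
S55 (Poitou–Tate long-haul): **F3L** (injectivity of the reciprocity map mod `p`, the hypothesis
`hF3L` / `hF3Lloc` of helper3's `ptd_F4i_global` / `ptd_F4ii_global`) from the NORM INDEX
hypothesis `hnormidx` (the norm `C^V → C^G` is not surjective for `V = ker χ`, `χ ≠ 0`: the first
inequality) and the injectivity of the invariant map, where Hilbert 90 on `V` is only required UP TO
A PRIME-TO-`p` MULTIPLE (helper3's `F1''`, helper5's `A.F1_gen`): this is what the global class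
formation provides.  Variant of helper6's `ptl_exists_norm_of_bockSmul_isB2`.
-/
import Mathlib
import Fermat.Agent.Lib.PT.ClsNorm

set_option autoImplicit false
set_option linter.unusedSectionVars false

namespace Fermat.Agent.Lib.PT

section F3L

variable {G : Type*} [Group G] {𝓛 : ptd_Levels G} {p : ℕ} [Fact p.Prime]
variable {C : Type*} [AddCommGroup C] {ρC : Representation ℤ G C}

/-- **Core of the norm criterion**: if `d¹ φ = c · δχ` and `φ|_V = d⁰ a₀` on `V = ker χ`, then `c`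
is the norm of an element of `C^V`. -/
theorem pts_norm_of_d1_eq {χ : G → ZMod p} (hχ : ptd_IsChar χ) {τ : G} (hτ : χ τ = 1) {c : C}
    {φ : G → C} (hd : ∀ g h, ρC g (φ h) - φ (g * h) + φ g = ptd_bock p χ (g, h) • c)
    {a₀ : C} (ha₀ : ∀ v ∈ ptl_charKer hχ, φ v = ρC v a₀ - a₀) :
    ∃ a : C, (∀ v ∈ ptl_charKer hχ, ρC v a = a) ∧
      c = ∑ i ∈ Finset.range p, ρC (τ ^ i) a := by
  set V := ptl_charKer hχ with hV
  set φ' : G → C := φ - ptd_d0 ρC a₀ with hφ'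
  have hd' : ∀ g h, ρC g (φ' h) - φ' (g * h) + φ' g = ptd_bock p χ (g, h) • c := fun g h => by
    have h1 := congrFun (ptd_d1_sub (ρ := ρC) φ (ptd_d0 ρC a₀)) (g, h)
    rw [ptd_d1_d0, sub_zero, ptd_d1_apply, ptd_d1_apply] at h1
    rw [← hd g h]
    exact h1
  have hφ'V : ∀ v ∈ V, φ' v = 0 := fun v hv => by
    simp only [hφ', Pi.sub_apply, ptd_d0_apply, ha₀ v hv, sub_self]
  -- (i) right `V`-invariance
  have hi : ∀ g, ∀ v ∈ V, φ' (g * v) = φ' g := fun g v hv => by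
    have := hd' g v
    rw [ptl_bock_right_ker hχ g hv, zero_smul, hφ'V v hv, map_zero, zero_sub] at this
    have h2 : φ' (g * v) = φ' g - (-φ' (g * v) + φ' g) := by abel
    rw [h2, this, sub_zero]
  -- (ii) values are `V`-invariant
  have hii : ∀ g, ∀ v ∈ V, ρC v (φ' g) = φ' g := fun g v hv => by
    have := hd' v g
    rw [ptl_bock_left_ker hχ g hv, zero_smul, hφ'V v hv, add_zero] at this
    have h3 : v * g = g * (g⁻¹ * v * g) := by group
    rw [h3, hi g _ (ptl_charKer_conj hχ hv g)] at this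
    exact sub_eq_zero.mp this
  refine ⟨φ' τ, hii τ, ?_⟩
  have hsum : ∑ i ∈ Finset.range p, ptd_bock p χ (τ ^ i, τ) • c =
      ∑ i ∈ Finset.range p, ρC (τ ^ i) (φ' τ) := by
    have h1 : ∀ i ∈ Finset.range p, ptd_bock p χ (τ ^ i, τ) • c =
        ρC (τ ^ i) (φ' τ) - (φ' (τ ^ (i + 1)) - φ' (τ ^ i)) := by
      intro i _
      rw [← hd', ← pow_succ]; abel
    rw [Finset.sum_congr rfl h1, Finset.sum_sub_distrib,
      Finset.sum_range_sub (fun i => φ' (τ ^ i))]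
    have hτp : τ ^ p ∈ V := by
      rw [hV, ptl_mem_charKer, ptl_char_pow hχ, hτ]; simp
    rw [hφ'V _ hτp, pow_zero, hφ'V 1 V.one_mem, sub_self, sub_zero]
  rw [← hsum, ← Finset.sum_smul, ptl_sum_bock hχ hτ, one_smul]

/-- **Norm criterion with Hilbert 90 up to a prime-to-`p` multiple**: if `c · δχ` is a level
coboundary, `c ∈ C^G`, and every level 1-cocycle of `V = ker χ` has a prime-to-`p` multiple which is
a coboundary, then `c` is a norm from `C^V`. -/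
theorem pts_exists_norm_of_bockSmul_isB2 {χ : G → ZMod p}
    (hχ : ptd_IsChar χ) (hlev : ptd_IsLev₁ 𝓛 χ)
    (hF1V : ∀ φ : ptl_charKer hχ → C,
      ptd_IsLZ1 (𝓛.sub (ptl_charKer hχ) (ptl_charKer_isOpen hχ hlev))
        (ptd_resRep ρC (ptl_charKer hχ)) φ →
      ∃ m : ℕ, ¬ p ∣ m ∧ ptd_IsB1 (ptd_resRep ρC (ptl_charKer hχ)) (m • φ))
    {τ : G} (hτ : χ τ = 1) {c : C} (hc : ∀ g, ρC g c = c)
    (hB : ptd_IsB2 𝓛 ρC (ptd_bockSmul p χ c)) :
    ∃ a : C, (∀ v ∈ ptl_charKer hχ, ρC v a = a) ∧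
      c = ∑ i ∈ Finset.range p, ρC (τ ^ i) a := by
  have hp : p.Prime := Fact.out
  obtain ⟨φ, hφlev, hφ⟩ := hB
  have hd : ∀ g h, ρC g (φ h) - φ (g * h) + φ g = ptd_bock p χ (g, h) • c := fun g h => by
    have := congrFun hφ (g, h)
    rw [ptl_bockSmul_apply, ptd_d1_apply] at this
    exact this.symm
  set V := ptl_charKer hχ with hV
  have hVo := ptl_charKer_isOpen hχ hlev
  -- restrict to `V`: a level cocycle
  have hφV : ptd_IsLZ1 (𝓛.sub V hVo) (ptd_resRep ρC V) (ptd_res₁ V φ) := by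
    refine ⟨fun v v' => ?_, hφlev.res V hVo⟩
    have := hd v v'
    rw [ptl_bock_right_ker hχ _ v'.2, zero_smul] at this
    simp only [ptd_res₁_apply, ptd_resRep_apply, Subgroup.coe_mul]
    have h2 : φ (↑v * ↑v') = ρC v (φ v') + φ v - (ρC v (φ v') - φ (↑v * ↑v') + φ v) := by abel
    rw [h2, this, sub_zero]
  obtain ⟨m, hm, a₀, ha₀⟩ := hF1V _ hφV
  have ha₀' : ∀ v ∈ V, (m • φ) v = ρC v a₀ - a₀ := fun v hv => by
    have := congrFun ha₀ ⟨v, hv⟩
    simpa using this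
  have hdm : ∀ g h, ρC g ((m • φ) h) - (m • φ) (g * h) + (m • φ) g =
      ptd_bock p χ (g, h) • (m • c) := fun g h => by
    simp only [Pi.smul_apply, map_nsmul]
    rw [← smul_sub, ← smul_add, hd g h, smul_comm]
  obtain ⟨a₁, ha₁, hca₁⟩ := pts_norm_of_d1_eq hχ hτ hdm ha₀'
  -- Bezout
  have hcop : IsCoprime (m : ℤ) (p : ℤ) :=
    Nat.isCoprime_iff_coprime.mpr ((Nat.Coprime.symm ((Nat.Prime.coprime_iff_not_dvd hp).mpr hm)))
  obtain ⟨α, β, hαβ⟩ := hcop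
  refine ⟨α • a₁ + β • c, fun v hv => ?_, ?_⟩
  · rw [map_add, map_zsmul, map_zsmul, ha₁ v hv, hc]
  · have h1 : ∑ i ∈ Finset.range p, ρC (τ ^ i) (α • a₁ + β • c) =
        α • ∑ i ∈ Finset.range p, ρC (τ ^ i) a₁ + β • ∑ i ∈ Finset.range p, ρC (τ ^ i) c := by
      simp only [map_add, map_zsmul, Finset.sum_add_distrib, Finset.smul_sum]
    have h2 : ∑ i ∈ Finset.range p, ρC (τ ^ i) c = (p : ℤ) • c := by
      simp only [hc, Finset.sum_const, Finset.card_range, natCast_zsmul]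
    rw [h1, ← hca₁, h2, ← natCast_zsmul c m, smul_smul, smul_smul, ← add_smul, hαβ, one_smul]

/-- **F3L from the norm index**: if the invariant map is injective on classes killed by `p`,
Hilbert 90 holds up to prime-to-`p` multiples on the kernels of the nonzero level characters, and
the norm `C^{ker χ} → C^G` is not surjective for every nonzero level character `χ`, then a level
character `χ` with `inv (c · δχ) = 0` for all `c ∈ C^G` is zero. -/
theorem pts_F3L_of_normidx {T : Type*} [AddCommGroup T] (inv : ptd_Inv 𝓛 ρC T p)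
    (hinj : ∀ z, ptd_IsLZ2p 𝓛 ρC p z → inv z = 0 → ptd_IsB2 𝓛 ρC z)
    (hF1V : ∀ (χ : G → ZMod p) (hχ : ptd_IsChar χ) (hlev : ptd_IsLev₁ 𝓛 χ), χ ≠ 0 →
      ∀ φ : ptl_charKer hχ → C,
        ptd_IsLZ1 (𝓛.sub (ptl_charKer hχ) (ptl_charKer_isOpen hχ hlev))
          (ptd_resRep ρC (ptl_charKer hχ)) φ →
        ∃ m : ℕ, ¬ p ∣ m ∧ ptd_IsB1 (ptd_resRep ρC (ptl_charKer hχ)) (m • φ))
    (hnormidx : ∀ (χ : G → ZMod p) (hχ : ptd_IsChar χ), ptd_IsLev₁ 𝓛 χ → χ ≠ 0 →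
      ∀ τ : G, χ τ = 1 → ∃ c : ρC.invariants, ∀ a : C,
        (∀ v ∈ ptl_charKer hχ, ρC v a = a) → (c : C) ≠ ∑ i ∈ Finset.range p, ρC (τ ^ i) a)
    (χ : G → ZMod p) (hχ : ptd_IsChar χ) (hlev : ptd_IsLev₁ 𝓛 χ)
    (h0 : ∀ c : C, (∀ g, ρC g c = c) → inv (ptd_bockSmul p χ c) = 0) : χ = 0 := by
  by_contra hne
  obtain ⟨τ, hτ⟩ := ptl_exists_char_eq_one hχ hne
  obtain ⟨c, hcn⟩ := hnormidx χ hχ hlev hne τ hτ
  have hcfix : ∀ g, ρC g (c : C) = c := fun g => c.2 g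
  have hB : ptd_IsB2 𝓛 ρC (ptd_bockSmul p χ (c : C)) :=
    hinj _ (ptl_bockSmul_isLZ2p hχ hlev hcfix) (h0 _ hcfix)
  obtain ⟨a, ha, hca⟩ := pts_exists_norm_of_bockSmul_isB2 hχ hlev (hF1V χ hχ hlev hne) hτ hcfix hB
  exact hcn a ha hca

/-- **F3L from the norm index, with full Hilbert 90** (the local situation). -/
theorem pts_F3L_of_normidx_h90 {T : Type*} [AddCommGroup T] (inv : ptd_Inv 𝓛 ρC T p)
    (hinj : ∀ z, ptd_IsLZ2p 𝓛 ρC p z → inv z = 0 → ptd_IsB2 𝓛 ρC z)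
    (h90V : ∀ (χ : G → ZMod p) (hχ : ptd_IsChar χ) (hlev : ptd_IsLev₁ 𝓛 χ), χ ≠ 0 →
      ∀ φ : ptl_charKer hχ → C,
        ptd_IsLZ1 (𝓛.sub (ptl_charKer hχ) (ptl_charKer_isOpen hχ hlev))
          (ptd_resRep ρC (ptl_charKer hχ)) φ → ptd_IsB1 (ptd_resRep ρC (ptl_charKer hχ)) φ)
    (hnormidx : ∀ (χ : G → ZMod p) (hχ : ptd_IsChar χ), ptd_IsLev₁ 𝓛 χ → χ ≠ 0 →
      ∀ τ : G, χ τ = 1 → ∃ c : ρC.invariants, ∀ a : C,
        (∀ v ∈ ptl_charKer hχ, ρC v a = a) → (c : C) ≠ ∑ i ∈ Finset.range p, ρC (τ ^ i) a)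
    (χ : G → ZMod p) (hχ : ptd_IsChar χ) (hlev : ptd_IsLev₁ 𝓛 χ)
    (h0 : ∀ c : C, (∀ g, ρC g c = c) → inv (ptd_bockSmul p χ c) = 0) : χ = 0 := by
  have hp : p.Prime := Fact.out
  refine pts_F3L_of_normidx inv hinj (fun χ hχ hlev hne φ hφ => ⟨1, ?_, ?_⟩) hnormidx χ hχ hlev h0
  · exact fun h => hp.one_lt.ne' (Nat.dvd_one.mp h)
  · rw [one_smul]; exact h90V χ hχ hlev hne φ hφ

end F3L

end Fermat.Agent.Lib.PT
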