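/-
S55 (Poitou–Tate long-haul): **THE MODEL ASSEMBLY**.  The frozen S55 statement for the big global
modules `pta_EMod p hpS` (helper1) and the local big models `pta_LocPre p hpS q`, reduced to

* a global system of invariant maps `invG`, `invU` on `C = 𝒞_S` with `hcor`, `F1''`, injectivity,
  the existence theorem `F3` and the injectivity `F3L` of the reciprocity map mod `p`
  (outputs of the abstract class formation (ABS) + (G8));
* the cyclotomic input (CYC) in helper1's family-independent form;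
* level data `DL q` for the local class formations at `q ∈ S` (helper9's `pti_localLevelData`,
  twisted at `p`);
* the two local–global formulas (LG) over `G_ℚ` and (LG-U) over the open subgroups of `ker χ_cyc`
  (`pts_LGU`).

Everything else is discharged here: helper3's `ptd_F4i_global` / `ptd_F4ii_global` are
instantiated with (K) = `pta_GKummer`, (SL) = `pts_semiLocal_model`, and the local inputs
(local F3, F4(i), F3L, divisibility, torsion) come from helper6's `ClsLocal`, helper7's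
`ptg_hnormidx` and `SeqF3L`.
-/
import Mathlib
import Fermat.Agent.Lib.PT.SemiLocModel
import Fermat.Agent.Lib.PT.S55FormationCof
import Fermat.Agent.Lib.PT.AdtBaseI
import Fermat.Agent.Lib.PT.AdtBaseII
import Fermat.Agent.Lib.PT.GModEModN
import Fermat.Agent.Lib.PT.ClsLocal
import Fermat.Agent.Lib.PT.BridgeO
import Fermat.Agent.Lib.PT.SeqF3L
import Fermat.Agent.Lib.PT.AbsLift

set_option autoImplicit false
set_option linter.unusedSectionVars false
set_option linter.unusedVariables false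

noncomputable section

namespace Fermat.Agent.Lib.PT

open IntermediateField ExtCitation groupCohomology

local notation "Qbar" => AlgebraicClosure ℚ
local notation "GQ" => (AlgebraicClosure ℚ ≃ₐ[ℚ] AlgebraicClosure ℚ)

variable {p : ℕ} [hp : Fact p.Prime] {S : Finset Nat.Primes}

/-! ### Local inputs -/

section Local

variable (q : ℕ) [Fact q.Prime] (D : ptn_LevelData (ptg_levels q) (ptg_unitsRep q) p)

/-- **local F3L**: injectivity of the local reciprocity map mod `p`, over every open subgroup of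
`G_q`. -/
theorem pts_local_F3L (U : Subgroup (PadicAlgCl q ≃ₐ[ℚ_[q]] PadicAlgCl q))
    (hU : (ptg_levels q).IsOpen U) (χ : U → ZMod p) (hχ : ptd_IsChar χ)
    (hlev : ptd_IsLev₁ ((ptg_levels q).sub U hU) χ)
    (h0 : ∀ a : Additive (PadicAlgCl q)ˣ, (∀ t : U, ptd_resRep (ptg_unitsRep q) U t a = a) →
      ptn_invU D (ptg_isDiscrete_units q) U hU (ptd_bockSmul p χ a) = 0) : χ = 0 :=
  pts_F3L_of_normidx_h90 (ptn_invU D (ptg_isDiscrete_units q) U hU)
    (fun z hz h => (ptn_invU_eq_zero_iff D (ptg_isDiscrete_units q) hU hz).mp h)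
    (fun χ hχ hlev _ φ hφ => ptg_isB1_of_isLZ1_units_sub q hU (ptl_charKer_isOpen hχ hlev) φ hφ)
    (fun χ hχ hlev _ τ hτ => ptg_hnormidx q p hU χ hχ hlev τ hτ) χ hχ hlev h0

end Local

/-! ### The places over `U` -/

section Places

variable (hpS : pPrime p ∈ S)

lemma pts_Vv_le_cycloKer {U : Subgroup GQ} (hUK : U ≤ (cycloChar p).ker) (v : pts_PlacesS S U) :
    pts_Vv U v ≤ ptg_cycloKer (v.1.1 : ℕ) p := by
  intro τ hτ
  have h1 := (pts_mem_dcSub_iff (pta_SLr S v.1) U v.2 τ).mp hτ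
  have h2 : cycloChar p ((pts_dcRep (pta_SLr S v.1) U v.2)⁻¹ * pta_SLr S v.1 τ *
      pts_dcRep (pta_SLr S v.1) U v.2) = 1 := MonoidHom.mem_ker.mp (hUK h1)
  rw [map_mul, map_mul, map_inv, mul_comm, ← mul_assoc, mul_inv_cancel, one_mul] at h2
  exact (ptg_mem_cycloKer_iff (v.1.1 : ℕ) p τ).mpr h2

/-- the local invariant map at the place `v` of the fixed field of `U` -/
abbrev pts_invv (DL : ∀ q : ↥S, ptn_LevelData (ptg_levels (q.1 : ℕ)) (ptg_unitsRep (q.1 : ℕ)) p)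
    {U : Subgroup GQ} (hU : (pta_levelsS S).IsOpen U) (v : pts_PlacesS S U) :
    ptd_Inv ((pta_SLlev S v.1).sub (pts_Vv U v) (pts_Vv_isOpen hU v))
      (ptd_resRep (pta_SLrep S v.1) (pts_Vv U v)) (ptn_T p) p :=
  ptn_invU (DL v.1) (ptg_isDiscrete_units (v.1.1 : ℕ)) (pts_Vv U v) (pts_Vv_isOpen hU v)

/-- **(LG-U) in the model**: the local–global formula over an open `U ≤ ker χ_cyc`, for the family
of places of `SemiLocModel` and the local invariants `pts_invv`. -/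
def pts_LGU (invU : ∀ (U : Subgroup GQ) (hU : (pta_levelsS S).IsOpen U),
      ptd_Inv ((pta_levelsS S).sub U hU) (ptd_resRep (pta_EMod p hpS).ρC U) (ptn_T p) p)
    (DL : ∀ q : ↥S, ptn_LevelData (ptg_levels (q.1 : ℕ)) (ptg_unitsRep (q.1 : ℕ)) p) : Prop :=
  ∀ (U : Subgroup GQ) (hU : (pta_levelsS S).IsOpen U), U ≤ (cycloChar p).ker →
    ∀ [Fintype (pts_PlacesS S U)],
      ptd_GLG ((pta_levelsS S).sub U hU) p (ptd_resRep (pta_EMod p hpS).ρJ U)
        (ptd_resRep (pta_EMod p hpS).ρC U) (pta_EMod p hpS).π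
        (fun v : pts_PlacesS S U => (pta_SLlev S v.1).sub (pts_Vv U v) (pts_Vv_isOpen hU v))
        (fun v : pts_PlacesS S U => ptd_resRep (pta_SLrep S v.1) (pts_Vv U v))
        (fun v : pts_PlacesS S U => pts_dcHom (pta_SLr S v.1) U v.2)
        (pts_dcEv (pta_EMod p hpS).ρJ (pta_SLev S) U) (invU U hU)
        (fun v => pts_invv DL hU v)

end Places

/-! ### Global F4(i) in the model -/

section F4i

variable (hpS : pPrime p ∈ S)

/-- **Global F4(i) in the model**: right nondegeneracy for trivial coefficients over every open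
`U ≤ ker χ_cyc`, from (LG-U), `F1''`, the global existence theorem `F3`, and the level data of the
local class formations. -/
theorem pts_F4i_model
    (hdG : ptd_IsDiscrete (pta_levelsS S) (pta_EMod p hpS).ρC)
    (invU : ∀ (U : Subgroup GQ) (hU : (pta_levelsS S).IsOpen U),
      ptd_Inv ((pta_levelsS S).sub U hU) (ptd_resRep (pta_EMod p hpS).ρC U) (ptn_T p) p)
    (DL : ∀ q : ↥S, ptn_LevelData (ptg_levels (q.1 : ℕ)) (ptg_unitsRep (q.1 : ℕ)) p)
    (hLGU : pts_LGU hpS invU DL)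
    (hF1gen : ∀ (U : Subgroup GQ) (hU : (pta_levelsS S).IsOpen U), U ≤ (cycloChar p).ker →
      ∀ θ : U → (pta_EMod p hpS).C,
        ptd_IsLZ1 ((pta_levelsS S).sub U hU) (ptd_resRep (pta_EMod p hpS).ρC U) θ →
        ∃ m : ℕ, ¬ p ∣ m ∧ ptd_IsB1 (ptd_resRep (pta_EMod p hpS).ρC U) (m • θ))
    (hF3G : ∀ (U : Subgroup GQ) (hU : (pta_levelsS S).IsOpen U), U ≤ (cycloChar p).ker →
      ptd_F3 ((pta_levelsS S).sub U hU) (ptd_resRep (pta_EMod p hpS).ρC U) (invU U hU))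
    (U : Subgroup GQ) (hU : (pta_levelsS S).IsOpen U) (hUK : U ≤ (cycloChar p).ker) :
    ptd_NondegH2 ((pta_levelsS S).sub U hU) (ptd_resRep (pta_EMod p hpS).ρC U) (invU U hU)
      (Representation.trivial (ZMod p) U (ZMod p)) := by
  classical
  have hfi : U.FiniteIndex := ptd_Levels.IsOpen.finiteIndex _ hU
  let _ : Fintype (pts_PlacesS S U) := Fintype.ofFinite _
  obtain ⟨t₀, ht₀, ht₀ne, -⟩ := ptn_T_tors_cyclic (p := p)
  exact ptd_F4i_global (pta_GKummer hpS U hUK) (pts_semiLocal_model hpS U hU hUK)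
    (ptd_IsDiscrete.resRep U hU hdG) (hLGU U hU hUK) (hF1gen U hU hUK) (hF3G U hU hUK)
    ⟨t₀, ht₀ne, ht₀⟩
    (fun v => ptl_local_F4i (DL v.1) (ptg_isDiscrete_units (v.1.1 : ℕ)) (pts_Vv U v)
      (pts_Vv_isOpen hU v) (pts_Vv_le_cycloKer hUK v))
    (fun v χ hχ hlev h0 => pts_local_F3L (v.1.1 : ℕ) (DL v.1) (pts_Vv U v) (pts_Vv_isOpen hU v)
      χ hχ hlev h0)

end F4i

/-! ### Global F4(ii) in the model -/

section F4ii

variable (hpS : pPrime p ∈ S)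

/-- the coordinate at the base embedding of a conjugate of a `p`-th root of unity -/
lemma pts_LocPre.evΩ_smul_ζ {𝒢 : pts_EMod p S} {q : ↥S} (L : pts_LocPre 𝒢 q) (g : GQ)
    (k : ZMod p) : L.evΩ (g • 𝒢.ζ k) = L.ζloc ((cycloChar p g : ZMod p) * k) := by
  rw [𝒢.smul_ζ, L.evΩ_tors _ (𝒢.ζ_tors _), 𝒢.ev_ζ]

lemma pts_dcEv_ζ {U : Subgroup GQ} (v : pts_PlacesS S U) (k : ZMod p) :
    pts_dcEv (pta_EMod p hpS).ρJ (pta_SLev S) U v ((pta_EMod p hpS).ζ k) =
      (pta_LocPre p hpS v.1).ζloc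
        ((cycloChar p (pts_dcRep (pta_SLr S v.1) U v.2) : ZMod p) * k) :=
  (pta_LocPre p hpS v.1).evΩ_smul_ζ (pts_dcRep (pta_SLr S v.1) U v.2) k

/-- **Global F4(ii) in the model** at an open `V ≤ ker χ_cyc` carrying a level character `ψ₀`
which is nontrivial on every decomposition group (helper1's (CYC), family-independent form). -/
theorem pts_F4ii_model
    (hdG : ptd_IsDiscrete (pta_levelsS S) (pta_EMod p hpS).ρC)
    (invU : ∀ (U : Subgroup GQ) (hU : (pta_levelsS S).IsOpen U),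
      ptd_Inv ((pta_levelsS S).sub U hU) (ptd_resRep (pta_EMod p hpS).ρC U) (ptn_T p) p)
    (DL : ∀ q : ↥S, ptn_LevelData (ptg_levels (q.1 : ℕ)) (ptg_unitsRep (q.1 : ℕ)) p)
    (hLGU : pts_LGU hpS invU DL)
    (hF1gen : ∀ (U : Subgroup GQ) (hU : (pta_levelsS S).IsOpen U), U ≤ (cycloChar p).ker →
      ∀ θ : U → (pta_EMod p hpS).C,
        ptd_IsLZ1 ((pta_levelsS S).sub U hU) (ptd_resRep (pta_EMod p hpS).ρC U) θ →
        ∃ m : ℕ, ¬ p ∣ m ∧ ptd_IsB1 (ptd_resRep (pta_EMod p hpS).ρC U) (m • θ))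
    (hinjG : ∀ (U : Subgroup GQ) (hU : (pta_levelsS S).IsOpen U), U ≤ (cycloChar p).ker →
      ∀ y, ptd_IsLZ2p ((pta_levelsS S).sub U hU) (ptd_resRep (pta_EMod p hpS).ρC U) p y →
        invU U hU y = 0 → ptd_IsB2 ((pta_levelsS S).sub U hU) (ptd_resRep (pta_EMod p hpS).ρC U) y)
    (hF3LG : ∀ (U : Subgroup GQ) (hU : (pta_levelsS S).IsOpen U), U ≤ (cycloChar p).ker →
      ∀ χ : U → ZMod p, ptd_IsChar χ → ptd_IsLev₁ ((pta_levelsS S).sub U hU) χ →
        (∀ c : (pta_EMod p hpS).C, (∀ g : U, ptd_resRep (pta_EMod p hpS).ρC U g c = c) →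
          invU U hU (ptd_bockSmul p χ c) = 0) → χ = 0)
    (V : Subgroup GQ) (hV : (pta_levelsS S).IsOpen V) (hVK : V ≤ (cycloChar p).ker)
    (hcyc : ∃ ψ₀ : V → ZMod p, ptd_IsChar ψ₀ ∧ ptd_IsLev₁ ((pta_levelsS S).sub V hV) ψ₀ ∧
      ∀ (q : ↥S) (g : GQ), ∃ t : pta_SLG S q, ∃ h : g⁻¹ * pta_SLr S q t * g ∈ V,
        ψ₀ ⟨g⁻¹ * pta_SLr S q t * g, h⟩ ≠ 0) :
    ptd_NondegHom ((pta_levelsS S).sub V hV) (ptd_resRep (pta_EMod p hpS).ρC V) (invU V hV)
      (Representation.trivial (ZMod p) V (ZMod p)) := by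
  classical
  have hpp : p.Prime := hp.out
  have hfi : V.FiniteIndex := ptd_Levels.IsOpen.finiteIndex _ hV
  let _ : Fintype (pts_PlacesS S V) := Fintype.ofFinite _
  obtain ⟨t₀, ht₀, -, ht₀gen⟩ := ptn_T_tors_cyclic (p := p)
  obtain ⟨ψ₀, hψ₀, hψ₀l, hψ₀ne⟩ := hcyc
  have hunit : ∀ g : GQ, ((cycloChar p g : ZMod p)) * (((cycloChar p g)⁻¹ : (ZMod p)ˣ) : ZMod p)
      = 1 := fun g => by rw [← Units.val_mul, mul_inv_cancel, Units.val_one]
  refine ptd_F4ii_global (pta_GKummer hpS V hVK) (pts_semiLocal_model hpS V hV hVK)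
    (ptd_IsDiscrete.resRep V hV hdG) (hLGU V hV hVK) (hF1gen V hV hVK) (hinjG V hV hVK)
    (hF3LG V hV hVK) ⟨t₀, ht₀, ht₀gen⟩
    (fun v => ptd_IsDiscrete.resRep (pts_Vv V v) (pts_Vv_isOpen hV v)
      (ptg_isDiscrete_units (v.1.1 : ℕ)))
    (fun v a => ptg_units_divisible hpp.pos a) (fun v a ha => ?_) (fun v k k' hkk' => ?_)
    (fun v χ hχ hlev h0 => pts_local_F3L (v.1.1 : ℕ) (DL v.1) (pts_Vv V v) (pts_Vv_isOpen hV v)
      χ hχ hlev h0)
    ⟨ψ₀, hψ₀, hψ₀l, fun v => ?_⟩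
  · -- local torsion is in the image of `ζ`
    obtain ⟨c, hc⟩ := (pta_LocPre p hpS v.1).tors a ha
    refine ⟨(((cycloChar p (pts_dcRep (pta_SLr S v.1) V v.2))⁻¹ : (ZMod p)ˣ) : ZMod p) * c, ?_⟩
    rw [pts_dcEv_ζ hpS v, ← mul_assoc, hunit, one_mul]
    exact hc
  · -- injectivity on `μ_p`
    have h1 : pts_dcEv (pta_EMod p hpS).ρJ (pta_SLev S) V v ((pta_EMod p hpS).ζ k) =
        pts_dcEv (pta_EMod p hpS).ρJ (pta_SLev S) V v ((pta_EMod p hpS).ζ k') := hkk'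
    rw [pts_dcEv_ζ hpS v, pts_dcEv_ζ hpS v] at h1
    have h2 := (pta_LocPre p hpS v.1).ζloc_inj h1
    have h3 := congrArg (fun x => (((cycloChar p (pts_dcRep (pta_SLr S v.1) V v.2))⁻¹ :
      (ZMod p)ˣ) : ZMod p) * x) h2
    simp only [← mul_assoc] at h3
    rwa [mul_comm _ ((cycloChar p _ : (ZMod p)ˣ) : ZMod p), hunit, one_mul, one_mul] at h3
  · -- the cyclotomic character is nontrivial at `v`
    obtain ⟨t, ht, hne⟩ := hψ₀ne v.1 (pts_dcRep (pta_SLr S v.1) V v.2)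
    exact ⟨⟨t, (pts_mem_dcSub_iff (pta_SLr S v.1) V v.2 t).mpr ht⟩, hne⟩

end F4ii

/-! ### The reduction of S55 in the model -/

section Top

/-- `F1''` (a prime-to-`p` multiple of every level 1-cocycle is a coboundary) implies `F1`. -/
lemma pts_F1_of_F1gen {G : Type*} [Group G] {𝓛 : ptd_Levels G} {C : Type*} [AddCommGroup C]
    {ρC : Representation ℤ G C}
    (h : ∀ θ : G → C, ptd_IsLZ1 𝓛 ρC θ → ∃ m : ℕ, ¬ p ∣ m ∧ ptd_IsB1 ρC (m • θ)) :
    ptd_F1 𝓛 ρC p := by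
  intro φ hφ hpφ
  obtain ⟨m, hm, a, ha⟩ := h φ hφ
  have hcop : IsCoprime (m : ℤ) (p : ℤ) :=
    Nat.isCoprime_iff_coprime.mpr ((Nat.Coprime.symm ((Nat.Prime.coprime_iff_not_dvd hp.out).mpr hm)))
  obtain ⟨α, β, hαβ⟩ := hcop
  refine ⟨α • a, funext fun g => ?_⟩
  have h1 : (m : ℤ) • φ g = ρC g a - a := by
    have := congrFun ha g
    simpa using this
  have h2 : (p : ℤ) • φ g = 0 := by rw [natCast_zsmul]; exact hpφ g
  rw [ptd_d0_apply, map_zsmul, ← smul_sub, ← h1, smul_smul]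
  calc φ g = (α * m + β * p) • φ g := by rw [hαβ, one_smul]
    _ = (α * m) • φ g := by rw [add_smul, mul_smul β, h2, smul_zero, add_zero]


/-- **`F1''` for a subgroup of a subgroup**: if every open subgroup `V ≤ U₀` of `G` satisfies `F1''`
(a prime-to-`p` multiple of every level 1-cocycle is a coboundary), then so does every open
subgroup `W` of `↥U` for `U ≤ U₀` open. -/
lemma pts_F1gen_sub {G : Type*} [Group G] {𝓛 : ptd_Levels G} {C : Type*} [AddCommGroup C]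
    {ρC : Representation ℤ G C} {U₀ : Subgroup G}
    (h : ∀ (V : Subgroup G) (hV : 𝓛.IsOpen V), V ≤ U₀ → ∀ θ : V → C,
      ptd_IsLZ1 (𝓛.sub V hV) (ptd_resRep ρC V) θ →
        ∃ m : ℕ, ¬ p ∣ m ∧ ptd_IsB1 (ptd_resRep ρC V) (m • θ))
    (U : Subgroup G) (hU : 𝓛.IsOpen U) (hUU₀ : U ≤ U₀) (W : Subgroup U)
    (hW : (𝓛.sub U hU).IsOpen W) (φ : W → C)
    (hφ : ptd_IsLZ1 ((𝓛.sub U hU).sub W hW) (ptd_resRep (ptd_resRep ρC U) W) φ) :
    ∃ m : ℕ, ¬ p ∣ m ∧ ptd_IsB1 (ptd_resRep (ptd_resRep ρC U) W) (m • φ) := by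
  have hV := ptn_img_isOpen U W hU hW
  have hmem : ∀ x : ptn_img U W, (⟨(x : G), ptn_img_le U W x.2⟩ : U) ∈ W := fun x =>
    ptn_mem_of_coe_mem_img U W x.2
  set φ' : ptn_img U W → C := fun x => φ ⟨⟨(x : G), ptn_img_le U W x.2⟩, hmem x⟩ with hφ'
  have hpull : ∀ w : W, φ' (ptn_toImg U W w) = φ w := fun w => rfl
  have hZ : ptd_IsZ1 (ptd_resRep ρC (ptn_img U W)) φ' := fun a b => by
    have := hφ.1 ⟨⟨(a : G), ptn_img_le U W a.2⟩, hmem a⟩ ⟨⟨(b : G), ptn_img_le U W b.2⟩, hmem b⟩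
    exact this
  have hL : ptd_IsLev₁ (𝓛.sub (ptn_img U W) hV) φ' := by
    obtain ⟨_, ⟨_, ⟨N, hN, hNU, rfl⟩, hNW, rfl⟩, hc⟩ := hφ.2
    have hNV : N ≤ ptn_img U W := fun x hx =>
      ⟨⟨x, hNU hx⟩, hNW (Subgroup.mem_subgroupOf.mpr hx), rfl⟩
    refine ⟨_, ⟨N, hN, hNV, rfl⟩, fun g n hn => ?_⟩
    have hn' : (n : G) ∈ N := Subgroup.mem_subgroupOf.mp hn
    exact hc ⟨⟨(g : G), ptn_img_le U W g.2⟩, hmem g⟩ ⟨⟨(n : G), ptn_img_le U W n.2⟩, hmem n⟩
      (Subgroup.mem_subgroupOf.mpr (Subgroup.mem_subgroupOf.mpr hn'))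
  obtain ⟨m, hm, a, ha⟩ := h (ptn_img U W) hV ((ptn_img_le U W).trans hUU₀) φ' ⟨hZ, hL⟩
  refine ⟨m, hm, a, funext fun w => ?_⟩
  have := congrFun ha (ptn_toImg U W w)
  simp only [Pi.smul_apply, hpull, ptd_d0_apply, ptd_resRep_apply] at this
  simp only [Pi.smul_apply, ptd_d0_apply, ptd_resRep_apply]
  exact this

variable (hpS : pPrime p ∈ S)

/-- **global F3L in the model from the global norm index** (first inequality in the big model),
`F1''` and the injectivity of the invariant maps. -/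
theorem pts_F3LG_of_normidx
    (invU : ∀ (U : Subgroup GQ) (hU : (pta_levelsS S).IsOpen U),
      ptd_Inv ((pta_levelsS S).sub U hU) (ptd_resRep (pta_EMod p hpS).ρC U) (ptn_T p) p)
    (hF1gen : ∀ (U : Subgroup GQ) (hU : (pta_levelsS S).IsOpen U), U ≤ (cycloChar p).ker →
      ∀ θ : U → (pta_EMod p hpS).C,
        ptd_IsLZ1 ((pta_levelsS S).sub U hU) (ptd_resRep (pta_EMod p hpS).ρC U) θ →
        ∃ m : ℕ, ¬ p ∣ m ∧ ptd_IsB1 (ptd_resRep (pta_EMod p hpS).ρC U) (m • θ))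
    (hinjG : ∀ (U : Subgroup GQ) (hU : (pta_levelsS S).IsOpen U), U ≤ (cycloChar p).ker →
      ∀ y, ptd_IsLZ2p ((pta_levelsS S).sub U hU) (ptd_resRep (pta_EMod p hpS).ρC U) p y →
        invU U hU y = 0 → ptd_IsB2 ((pta_levelsS S).sub U hU) (ptd_resRep (pta_EMod p hpS).ρC U) y)
    (U : Subgroup GQ) (hU : (pta_levelsS S).IsOpen U) (hUK : U ≤ (cycloChar p).ker)
    (hnorm : ∀ (χ : U → ZMod p) (hχ : ptd_IsChar χ), ptd_IsLev₁ ((pta_levelsS S).sub U hU) χ →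
      χ ≠ 0 → ∀ τ : U, χ τ = 1 → ∃ c : (ptd_resRep (pta_EMod p hpS).ρC U).invariants,
        ∀ a : (pta_EMod p hpS).C,
          (∀ v ∈ ptl_charKer hχ, ptd_resRep (pta_EMod p hpS).ρC U v a = a) →
            (c : (pta_EMod p hpS).C) ≠
              ∑ i ∈ Finset.range p, ptd_resRep (pta_EMod p hpS).ρC U (τ ^ i) a)
    (χ : U → ZMod p) (hχ : ptd_IsChar χ) (hlev : ptd_IsLev₁ ((pta_levelsS S).sub U hU) χ)
    (h0 : ∀ c : (pta_EMod p hpS).C, (∀ g : U, ptd_resRep (pta_EMod p hpS).ρC U g c = c) →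
      invU U hU (ptd_bockSmul p χ c) = 0) : χ = 0 := by
  refine pts_F3L_of_normidx (invU U hU) (hinjG U hU hUK) (fun χ hχ hlev _ φ hφ => ?_) hnorm χ hχ
    hlev h0
  -- `F1''` over the kernel of `χ`, an open subgroup of `G_ℚ` inside `U`
  exact pts_F1gen_sub hF1gen U hU hUK (ptl_charKer hχ) (ptl_charKer_isOpen hχ hlev) φ hφ

set_option maxHeartbeats 1600000 in
/-- **S55 IN THE MODEL**, reduced to the global class formation over `G_ℚ` (system of invariant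
maps with `hcor`, `F1''`, injectivity, existence theorem `F3`, reciprocity-injectivity `F3L`), the
cyclotomic input (CYC), level data for the local class formations and the two local–global
formulas (LG) over `G_ℚ` and (LG-U) over the open subgroups of `ker χ_cyc`. -/
theorem pts_S55_model (hp2 : p ≠ 2)
    (M : Rep (ZMod p) (AlgebraicClosure ℚ ≃ₐ[ℚ] AlgebraicClosure ℚ))
    [FiniteDimensional (ZMod p) M]
    (hsm : ∀ m : M, ∃ F : IntermediateField ℚ (AlgebraicClosure ℚ), FiniteDimensional ℚ F ∧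
      ∀ s ∈ F.fixingSubgroup, M.ρ s m = m)
    (hMur : ∀ q : Nat.Primes, q ∉ S → ∀ A : ValuationSubring (AlgebraicClosure ℚ),
      A.LiesOverPrime (q : ℕ) → ∀ g ∈ A.inertiaSubgroupIn ℚ, M.ρ g = 1)
    (hdG : ptd_IsDiscrete (pta_levelsS S) (pta_EMod p hpS).ρC)
    (invG : ptd_Inv (pta_levelsS S) (pta_EMod p hpS).ρC (ptn_T p) p)
    (invU : ∀ (U : Subgroup GQ) (hU : (pta_levelsS S).IsOpen U),
      ptd_Inv ((pta_levelsS S).sub U hU) (ptd_resRep (pta_EMod p hpS).ρC U) (ptn_T p) p)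
    (hcor : ∀ (U : Subgroup GQ) (hU : (pta_levelsS S).IsOpen U) [U.FiniteIndex]
      (y : U × U → (pta_EMod p hpS).C),
      ptd_IsLZ2p ((pta_levelsS S).sub U hU) (ptd_resRep (pta_EMod p hpS).ρC U) p y →
      invG (ptd_cor₂ U (pta_EMod p hpS).ρC y) = invU U hU y)
    (hF1gen : ∀ (U : Subgroup GQ) (hU : (pta_levelsS S).IsOpen U), U ≤ (cycloChar p).ker →
      ∀ θ : U → (pta_EMod p hpS).C,
        ptd_IsLZ1 ((pta_levelsS S).sub U hU) (ptd_resRep (pta_EMod p hpS).ρC U) θ →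
        ∃ m : ℕ, ¬ p ∣ m ∧ ptd_IsB1 (ptd_resRep (pta_EMod p hpS).ρC U) (m • θ))
    (hinjG : ∀ (U : Subgroup GQ) (hU : (pta_levelsS S).IsOpen U), U ≤ (cycloChar p).ker →
      ∀ y, ptd_IsLZ2p ((pta_levelsS S).sub U hU) (ptd_resRep (pta_EMod p hpS).ρC U) p y →
        invU U hU y = 0 → ptd_IsB2 ((pta_levelsS S).sub U hU) (ptd_resRep (pta_EMod p hpS).ρC U) y)
    (hF3G : ∀ (U : Subgroup GQ) (hU : (pta_levelsS S).IsOpen U), U ≤ (cycloChar p).ker →
      ptd_F3 ((pta_levelsS S).sub U hU) (ptd_resRep (pta_EMod p hpS).ρC U) (invU U hU))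
    (hF3LG : ∀ (U : Subgroup GQ) (hU : (pta_levelsS S).IsOpen U), U ≤ (cycloChar p).ker →
      ∀ χ : U → ZMod p, ptd_IsChar χ → ptd_IsLev₁ ((pta_levelsS S).sub U hU) χ →
        (∀ c : (pta_EMod p hpS).C, (∀ g : U, ptd_resRep (pta_EMod p hpS).ρC U g c = c) →
          invU U hU (ptd_bockSmul p χ c) = 0) → χ = 0)
    (hcycG : ∀ V₀ : Subgroup GQ, V₀ ∈ (pta_levelsS S).lev → V₀ ≤ (cycloChar p).ker →
      ∃ (V : Subgroup GQ) (hV : V ∈ (pta_levelsS S).lev), V ≤ V₀ ∧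
        ∃ ψ₀ : V → ZMod p, ptd_IsChar ψ₀ ∧
          ptd_IsLev₁ ((pta_levelsS S).sub V ((pta_levelsS S).isOpen_of_mem hV)) ψ₀ ∧
          ∀ (q : ↥S) (g : GQ), ∃ t : pta_SLG S q, ∃ h : g⁻¹ * pta_SLr S q t * g ∈ V,
            ψ₀ ⟨g⁻¹ * pta_SLr S q t * g, h⟩ ≠ 0)
    (DL : ∀ q : ↥S, ptn_LevelData (ptg_levels (q.1 : ℕ)) (ptg_unitsRep (q.1 : ℕ)) p)
    (hLGU : pts_LGU hpS invU DL)
    (hLG : ∀ y : GQ × GQ → (pta_EMod p hpS).J,
      ptd_IsLZ2 (pta_levelsS S) (pta_EMod p hpS).ρJ y → (∀ x, p • y x = 0) →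
      invG (fun x => (pta_EMod p hpS).π (y x)) =
        ∑ q : ↥S, ptn_invG (DL q) (ptg_isDiscrete_units (q.1 : ℕ)) (fun x =>
          pta_evU S q.1 (y (localGaloisToGlobal (q.1 : ℕ) x.1,
            localGaloisToGlobal (q.1 : ℕ) x.2)))) :
    ∃ B : sha₁ S (M.dualTwist (cycloChar p)) →ₗ[ZMod p] sha₂ S M →ₗ[ZMod p] ZMod p,
      (∀ y, (∀ x, B y x = 0) → y = 0) ∧ (∀ x, (∀ y, B y x = 0) → x = 0) := by
  refine pts_S55_of_invSystems_cofinal hp2 S hpS M hsm hMur (pta_EMod p hpS) hdG invG invU hcor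
    (fun U hU hUK => pts_F1_of_F1gen (hF1gen U hU hUK)) hF3G
    (fun U hU hUK => pts_F4i_model hpS hdG invU DL hLGU hF1gen hF3G U hU hUK)
    (fun V₀ hV₀ hV₀K => ?_) (pta_LocPre p hpS) DL (fun q => ptg_isDiscrete_units (q.1 : ℕ))
    (fun q U hU hUK => ptl_local_F3 (DL q) (ptg_isDiscrete_units (q.1 : ℕ)) U hU hUK
      (fun χ hχ hlev _ τ hτ => ptg_hnormidx (q.1 : ℕ) p hU χ hχ hlev τ hτ))
    (fun q U hU hUK => ptl_local_F4i (DL q) (ptg_isDiscrete_units (q.1 : ℕ)) U hU hUK) hLG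
  obtain ⟨V, hV, hVV₀, hcyc⟩ := hcycG V₀ hV₀ hV₀K
  exact ⟨V, hV, hVV₀, pts_F4ii_model hpS hdG invU DL hLGU hF1gen hinjG hF3LG V
    ((pta_levelsS S).isOpen_of_mem hV) (hVV₀.trans hV₀K) hcyc⟩

end Top

end Fermat.Agent.Lib.PT
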