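/-
S55 (Poitou–Tate long-haul): **the surjectivity half (F3) of the global existence theorem in the
model** (`hF3G`), from

* the local–global formula over the open subgroups (`pts_LGU`),
* the Kummer/idele count (`ptj_F3Count`, helper9's `pti_F3_count`),
* the transport (TR1), (TR2) of `GModInvK`,
* helper3's abstract `ptd_card_split_le_global` and `ptd_F3_global`.
-/
import Mathlib
import Fermat.Agent.Lib.PT.GModInvK
import Fermat.Agent.Lib.PT.GModInvC
import Fermat.Agent.Lib.PT.AdtF3D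
import Fermat.Agent.Lib.PT.S55Model
import Fermat.Agent.Lib.PT.GModKumD

set_option autoImplicit false
set_option linter.unusedSectionVars false
set_option linter.unusedVariables false

noncomputable section

namespace Fermat.Agent.Lib.PT

open IntermediateField ExtCitation groupCohomology

local notation "Qbar" => AlgebraicClosure ℚ
local notation "GQ" => (AlgebraicClosure ℚ ≃ₐ[ℚ] AlgebraicClosure ℚ)

variable {p : ℕ} [hp : Fact p.Prime] {S : Finset Nat.Primes}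

/-- **the Kummer/idele count**: over every `S`-unramified field `E ⊇ μ_p` whose fixing subgroup is
open there is a finite group `X₀` of `S`-level characters of `Gal(ℚ̄/E)` with
`[J_E : Eˣ U_S J^p] ≤ p^n · #(X₀ ∩ split)` and `p^n · [J_E : Eˣ J_{E,S} J^p] = #X₀`. -/
def ptj_F3Count (p : ℕ) [Fact p.Prime] (S : Finset Nat.Primes) : Prop :=
  ∀ (E : IntermediateField ℚ Qbar) (hE : E.IsUnramifiedOutside S)
    (hU : (pta_levelsS S).IsOpen E.fixingSubgroup)
    (hEK : E.fixingSubgroup ≤ (cycloChar p).ker),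
    ∃ (X₀ : AddSubgroup (↥E.fixingSubgroup → ZMod p)) (n : ℕ),
      (∀ χ ∈ X₀, ptd_IsChar χ ∧ ptd_IsLev₁ ((pta_levelsS S).sub E.fixingSubgroup hU) χ) ∧
      Finite ↥X₀ ∧
      (ptj_princUT ↥E S ⊔ (powMonoidHom p : ptj_J ↥E →* ptj_J ↥E).range).index ≠ 0 ∧
      (ptj_principal ↥E ⊔ ptj_JT ↥E S ⊔ (powMonoidHom p : ptj_J ↥E →* ptj_J ↥E).range).index ≠ 0 ∧
      (ptj_princUT ↥E S ⊔ (powMonoidHom p : ptj_J ↥E →* ptj_J ↥E).range).index ≤
        p ^ n * Nat.card ↥(X₀ ⊓ pta_splitChars p S E.fixingSubgroup) ∧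
      p ^ n * (ptj_principal ↥E ⊔ ptj_JT ↥E S ⊔
        (powMonoidHom p : ptj_J ↥E →* ptj_J ↥E).range).index = Nat.card ↥X₀

set_option maxHeartbeats 1600000 in
/-- **(F3), surjectivity half, in the model**: for a class formation `A` on
`(G_ℚ, levels_S, 𝒞_S)` with the local–global formula (LG-U), the Kummer/idele count gives the
global existence theorem over every open `U ≤ ker χ_cyc`. -/
theorem ptj_F3G_of_count (hpS : pPrime p ∈ S)
    {J' : Type*} [AddCommGroup J'] {ρJ' : Representation ℤ GQ J'}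
    (A : ptn_AbsK (pta_levelsS S) ρJ' (pta_EMod p hpS).ρC p)
    (hK₀ : (cycloChar p).ker ≤ A.K₀)
    (DL : ∀ q : ↥S, ptn_LevelData (ptg_levels (q.1 : ℕ)) (ptg_unitsRep (q.1 : ℕ)) p)
    (hLGU : pts_LGU hpS (fun U hU => A.inv U hU) DL)
    (hcount : ptj_F3Count p S) :
    ∀ (U : Subgroup GQ) (hU : (pta_levelsS S).IsOpen U), U ≤ (cycloChar p).ker →
      ptd_F3 ((pta_levelsS S).sub U hU) (ptd_resRep (pta_EMod p hpS).ρC U) (A.inv U hU) := by
  classical
  intro U hU hUK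
  have hS : S.Nonempty := ⟨_, hpS⟩
  obtain ⟨E, hE, rfl⟩ : ∃ E : IntermediateField ℚ Qbar, E.IsUnramifiedOutside S ∧
      E.fixingSubgroup = U :=
    ⟨_, ptj_fixedField_isUnramifiedOutside hU, ptj_fixingSubgroup_fixedField hU⟩
  have hfi : E.fixingSubgroup.FiniteIndex := ptd_Levels.IsOpen.finiteIndex _ hU
  let _ : Fintype (pts_PlacesS S E.fixingSubgroup) := Fintype.ofFinite _
  obtain ⟨X₀, n, hX₀, hfinX, hne1, hne3, hle1, heq3⟩ := hcount E hE hU hUK
  have hdvd1 : (ptl_pInv (ptd_resRep (pta_EMod p hpS).ρC E.fixingSubgroup) p).index ∣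
      (ptj_princUT ↥E S ⊔ (powMonoidHom p : ptj_J ↥E →* ptj_J ↥E).range).index :=
    ptj_pInv_index_dvd E hE p hS
  have hdvd3 : (ptd_QSub (ptd_resRep (pta_EMod p hpS).ρJ E.fixingSubgroup)
      (ptd_resRep (pta_EMod p hpS).ρC E.fixingSubgroup) (pta_EMod p hpS).π p).index ∣
      (ptj_principal ↥E ⊔ ptj_JT ↥E S ⊔ (powMonoidHom p : ptj_J ↥E →* ptj_J ↥E).range).index :=
    ptj_QSub_index_dvd E hE p hS
  have hfin : (ptl_pInv (ptd_resRep (pta_EMod p hpS).ρC E.fixingSubgroup) p).index ≠ 0 :=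
    fun h => hne1 (by rw [h] at hdvd1; exact zero_dvd_iff.1 hdvd1)
  have hQne : (ptd_QSub (ptd_resRep (pta_EMod p hpS).ρJ E.fixingSubgroup)
      (ptd_resRep (pta_EMod p hpS).ρC E.fixingSubgroup) (pta_EMod p hpS).π p).index ≠ 0 :=
    fun h => hne3 (by rw [h] at hdvd3; exact zero_dvd_iff.1 hdvd3)
  have hsplit := ptd_card_split_le_global A hU (hUK.trans hK₀)
    (fun g x => (pta_EMod p hpS).π_smul g x) (hLGU E.fixingSubgroup hU hUK) hQne
    ((X₀ ⊓ pta_splitChars p S E.fixingSubgroup : AddSubgroup (↥E.fixingSubgroup → ZMod p)) :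
      Set (↥E.fixingSubgroup → ZMod p))
    (fun χ hχ => ⟨(hX₀ χ hχ.1).1, (hX₀ χ hχ.1).2, fun v t => hχ.2 v t⟩)
  have hsplit2 : Nat.card ↥(X₀ ⊓ pta_splitChars p S E.fixingSubgroup) ≤
      (ptd_QSub (ptd_resRep (pta_EMod p hpS).ρJ E.fixingSubgroup)
      (ptd_resRep (pta_EMod p hpS).ρC E.fixingSubgroup) (pta_EMod p hpS).π p).index := hsplit.2
  refine ptd_F3_global A _ hU (hUK.trans hK₀) hfin (X₀ : Set (↥E.fixingSubgroup → ZMod p))
    (fun χ hχ => hX₀ χ hχ) ?_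
  show _ ≤ Nat.card ↥X₀
  calc (ptl_pInv (ptd_resRep (pta_EMod p hpS).ρC E.fixingSubgroup) p).index
      ≤ (ptj_princUT ↥E S ⊔ (powMonoidHom p : ptj_J ↥E →* ptj_J ↥E).range).index :=
        Nat.le_of_dvd (Nat.pos_of_ne_zero hne1) hdvd1
    _ ≤ p ^ n * Nat.card ↥(X₀ ⊓ pta_splitChars p S E.fixingSubgroup) := hle1
    _ ≤ p ^ n * (ptd_QSub (ptd_resRep (pta_EMod p hpS).ρJ E.fixingSubgroup)
        (ptd_resRep (pta_EMod p hpS).ρC E.fixingSubgroup) (pta_EMod p hpS).π p).index :=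
        Nat.mul_le_mul_left _ hsplit2
    _ ≤ p ^ n * (ptj_principal ↥E ⊔ ptj_JT ↥E S ⊔
        (powMonoidHom p : ptj_J ↥E →* ptj_J ↥E).range).index :=
        Nat.mul_le_mul_left _ (Nat.le_of_dvd (Nat.pos_of_ne_zero hne3) hdvd3)
    _ = Nat.card ↥X₀ := heq3

end Fermat.Agent.Lib.PT

end
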