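/-
K4 in the model, final form: THE SECOND INEQUALITY for cyclic extensions `K/F` of prime degree
`p ≠ 2` of number fields with `ζ_p ∈ F`, in the embedding model of the ideles:
`[J_F : Fˣ · N_{K/F} J_K] ∣ p`, assuming the weak first inequality `Fˣ · N J_{K'} ≠ J_F` for all
cyclic extensions `K'/F` of degree `p`.
-/
import Fermat.Agent.Lib.PT.GPlaceNormC

set_option autoImplicit false
set_option linter.unusedSectionVars false
set_option linter.unusedVariables false

noncomputable section

namespace Fermat.Agent.Lib.PT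

open IsDedekindDomain NumberField Polynomial

universe u

/-- the weak first inequality for all Galois extensions of degree `p` of `F` -/
def ptk_FirstIneq (F : Type u) [Field F] [NumberField F] (p : ℕ) : Prop :=
  ∀ (K' : Type u) [Field K'] [NumberField K'] [Algebra F K'] [FiniteDimensional F K']
    [IsGalois F K'], Module.finrank F K' = p →
      ptj_principal F ⊔ (ptj_norm F (K' ≃ₐ[F] K') : ptj_J K' →* ptj_J F).range ≠ ⊤

variable {F : Type u} [Field F] [NumberField F]

/-- the hypothesis `hfirst` of the abstract second inequality from the weak first inequality -/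
theorem ptk_hfirst_of_firstIneq {p : ℕ} [hp : Fact p.Prime] {ζ : F} (hζ : IsPrimitiveRoot ζ p)
    (hFI : ptk_FirstIneq F p) (b : Fˣ) (hb : b ∉ ptk_pows F p) :
    ∃ Nb : Subgroup (ptj_J F), ptj_principal F ⊔ Nb ≠ ⊤ ∧
      ∀ f, ptk_LocNormLikeM p b f → f ∈ Nb := by
  have hprim : (primitiveRoots p F).Nonempty :=
    ⟨ζ, (mem_primitiveRoots hp.out.pos).mpr hζ⟩
  have hirr : Irreducible (X ^ p - C (b : F)) := by
    apply X_pow_sub_C_irreducible_of_prime hp.out
    intro c hc
    apply hb
    have hc0 : c ≠ 0 := by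
      rintro rfl
      rw [zero_pow hp.out.ne_zero] at hc
      exact b.ne_zero hc.symm
    exact ⟨Units.mk0 c hc0, Units.ext (by simpa using hc)⟩
  haveI : Fact (Irreducible (X ^ p - C (b : F))) := ⟨hirr⟩
  set K' := AdjoinRoot (X ^ p - C (b : F)) with hK'
  haveI : IsSplittingField F K' (X ^ p - C (b : F)) :=
    isSplittingField_AdjoinRoot_X_pow_sub_C hprim hirr
  haveI : FiniteDimensional F K' := IsSplittingField.finiteDimensional K' (X ^ p - C (b : F))
  haveI : NumberField K' := NumberField.of_module_finite F K'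
  haveI : IsGalois F K' := isGalois_of_isSplittingField_X_pow_sub_C hprim hirr K'
  have hfin : Module.finrank F K' = p := finrank_of_isSplittingField_X_pow_sub_C hprim hirr K'
  refine ⟨(ptj_norm F (K' ≃ₐ[F] K') : ptj_J K' →* ptj_J F).range, hFI K' hfin, fun f hf => ?_⟩
  have hcard : Nat.card (K' ≃ₐ[F] K') = p := by rw [IsGalois.card_aut_eq_finrank, hfin]
  have hα : (AdjoinRoot.root (X ^ p - C (b : F))) ^ p = algebraMap F K' (b : F) := by
    have h := AdjoinRoot.eval₂_root (X ^ p - C (b : F))
    rw [eval₂_sub, eval₂_pow, eval₂_X, eval₂_C, sub_eq_zero] at h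
    exact h
  exact ptk_locNormLike_mem_range_norm hcard hζ hα AdjoinRoot.adjoinRoot_eq_top hf

variable {K : Type*} [Field K] [NumberField K] [Algebra F K]
variable {Γ : Type*} [Group Γ] [MulSemiringAction Γ K] [Finite Γ] [IsGaloisGroup Γ F K]

/-- **SECOND INEQUALITY, Kummer form** -/
theorem ptk_second_ineq_kummer {p : ℕ} [hp : Fact p.Prime] (hp2 : p ≠ 2)
    (hcard : Nat.card Γ = p) {ζ : F} (hζ : IsPrimitiveRoot ζ p) (hFI : ptk_FirstIneq F p)
    {a : Fˣ} {α : K} (hα : α ^ p = algebraMap F K (a : F)) (hgen : Algebra.adjoin F {α} = ⊤) :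
    (ptj_principal F ⊔ (ptj_norm F Γ : ptj_J K →* ptj_J F).range).index ∣ p := by
  have ha : a ∉ ptk_pows F p := by
    rintro ⟨c, hc⟩
    have hc' : (c : F) ^ p = (a : F) := by
      have := congrArg (fun u : Fˣ => (u : F)) hc
      simpa using this
    have : NeZero p := ⟨hp.out.ne_zero⟩
    have hc0 : algebraMap F K (c : F) ≠ 0 := by
      rw [Ne, map_eq_zero]; exact c.ne_zero
    have h1 : (α / algebraMap F K (c : F)) ^ p = 1 := by
      rw [div_pow, hα, ← map_pow, hc']
      exact div_self (by rw [Ne, map_eq_zero]; exact a.ne_zero)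
    have hζ' : IsPrimitiveRoot (algebraMap F K ζ) p :=
      hζ.map_of_injective (algebraMap F K).injective
    obtain ⟨k, _, hk⟩ := hζ'.eq_pow_of_pow_eq_one h1
    have h2 : α = algebraMap F K (ζ ^ k * (c : F)) := by
      rw [map_mul, map_pow, hk, div_mul_cancel₀ _ hc0]
    have h3 : Algebra.adjoin F {α} = ⊥ := by
      rw [eq_bot_iff, Algebra.adjoin_le_iff]
      intro x hx
      rw [Set.mem_singleton_iff] at hx
      rw [hx, h2]
      exact Subalgebra.algebraMap_mem _ _
    rw [hgen] at h3
    have h4 : Module.finrank F K = 1 := Subalgebra.bot_eq_top_iff_finrank_eq_one.mp h3.symm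
    have h5 := IsGaloisGroup.card_eq_finrank Γ F K
    rw [hcard, h4] at h5
    exact hp.out.one_lt.ne' h5
  exact ptk_second_ineq_model hp2 hζ (fun b hb => ptk_hfirst_of_firstIneq hζ hFI b hb) ha _
    (fun f hf => ptk_locNormLike_mem_range_norm hcard hζ hα hgen hf)

/-- **SECOND INEQUALITY** for Galois extensions of odd prime degree `p` with `ζ_p` in the base -/
theorem ptk_second_ineq_cyclic [FiniteDimensional F K] [IsGalois F K] {p : ℕ} [hp : Fact p.Prime]
    (hp2 : p ≠ 2) (hdeg : Module.finrank F K = p) {ζ : F} (hζ : IsPrimitiveRoot ζ p)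
    (hFI : ptk_FirstIneq F p) :
    (ptj_principal F ⊔ (ptj_norm F (K ≃ₐ[F] K) : ptj_J K →* ptj_J F).range).index ∣ p := by
  have hcard : Nat.card (K ≃ₐ[F] K) = p := by rw [IsGalois.card_aut_eq_finrank, hdeg]
  haveI : IsCyclic (K ≃ₐ[F] K) := isCyclic_of_prime_card hcard
  have hprim : (primitiveRoots (Module.finrank F K) F).Nonempty := by
    rw [hdeg]
    exact ⟨ζ, (mem_primitiveRoots hp.out.pos).mpr hζ⟩
  obtain ⟨α, ⟨a, haα⟩, hgen⟩ := exists_root_adjoin_eq_top_of_isCyclic F K hprim
  rw [hdeg] at haα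
  have hint : IsAlgebraic F α := IsAlgebraic.of_finite F α
  have hgen' : Algebra.adjoin F {α} = ⊤ := by
    rw [← IntermediateField.adjoin_simple_toSubalgebra_of_isAlgebraic hint, hgen]
    rfl
  have ha0 : a ≠ 0 := by
    rintro rfl
    rw [map_zero] at haα
    have hα0 : α = 0 := by
      by_contra h
      exact pow_ne_zero p h haα.symm
    have h3 : Algebra.adjoin F {α} = ⊥ := by
      rw [eq_bot_iff, Algebra.adjoin_le_iff]
      intro x hx
      rw [Set.mem_singleton_iff] at hx
      rw [hx, hα0]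
      exact Subalgebra.zero_mem _
    rw [hgen'] at h3
    have h4 : Module.finrank F K = 1 := Subalgebra.bot_eq_top_iff_finrank_eq_one.mp h3.symm
    rw [hdeg] at h4
    exact hp.out.one_lt.ne' h4
  exact ptk_second_ineq_kummer (a := Units.mk0 a ha0) hp2 hcard hζ hFI haα.symm hgen'

end Fermat.Agent.Lib.PT

end
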