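/-
S55 long haul, (G8) Kummer side, part E: BRIDGES between the Kummer domain / split part of
`GModKumA/D` (conditions on `q`-adic embeddings) and the finite-level vocabulary of helper2 / helper8
(`HeightOneSpectrum (𝓞 K)`, `ptk_over`, `ptk_ev`, `ptk_lpows`), and the counting statements for
arbitrary subgroups `Λ ≤ O` of `Eˣ`.
-/
import Fermat.Agent.Lib.PT.GModKumD
import Fermat.Agent.Lib.PT.GPlaceNormD

set_option autoImplicit false
set_option linter.unusedVariables false
set_option linter.unusedSectionVars false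
set_option linter.style.haveILetI false

noncomputable section

namespace Fermat.Agent.Lib.PT

open IntermediateField ExtCitation IsDedekindDomain NumberField Fermat.Agent.Lib.CFT

local notation "Qbar" => AlgebraicClosure ℚ
local notation "GQ" => (AlgebraicClosure ℚ ≃ₐ[ℚ] AlgebraicClosure ℚ)

variable {p : ℕ} [Fact p.Prime] {S : Finset Nat.Primes} {E : IntermediateField ℚ Qbar}

section Bridges

variable [NumberField ↥E]

/-- **bridge for `V_S`**: if `v(x) ∈ p · v(Eˣ)` for all primes `v` of `E` not over `S`, then `x` is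
in the Kummer domain. -/
theorem pta_isKumDom_of_valuation {x : (↥E)ˣ}
    (h : ∀ v : HeightOneSpectrum (𝓞 ↥E), v ∉ ptk_over ↥E S →
      ∃ b : (↥E)ˣ, v.valuation ↥E (((x / b ^ p : (↥E)ˣ)) : ↥E) = 1) :
    pta_IsKumDom p S E x := by
  intro q hq σ
  set σE : ptj_Emb ↥E q := σ.comp (algebraMap ↥E Qbar) with hσE
  have hv : cfh_primeOf σE ∉ ptk_over ↥E S := by
    rw [ptk_mem_over, ptk_below_primeOf]
    exact hq
  obtain ⟨b, hb⟩ := h _ hv
  rw [← cfh_norm_eq_one_iff σE] at hb
  refine ⟨((b : ↥E) : Qbar), (b : ↥E).2, ?_, ?_⟩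
  · intro h0
    exact Units.ne_zero b (Subtype.ext h0)
  · have hb0 : ‖σ ((b : ↥E) : Qbar)‖ ≠ 0 := by
      rw [norm_ne_zero_iff]
      refine (map_ne_zero σ).2 ?_
      intro h0
      exact Units.ne_zero b (Subtype.ext h0)
    have h1 : σE (((x / b ^ p : (↥E)ˣ)) : ↥E) =
        σ ((x : ↥E) : Qbar) / σ ((b : ↥E) : Qbar) ^ p := by
      rw [hσE, RingHom.comp_apply, Units.val_div_eq_div_val, Units.val_pow_eq_pow_val, map_div₀,
        map_pow, map_div₀, map_pow]
      rfl
    rw [h1, norm_div, norm_pow, div_eq_one_iff_eq (pow_ne_zero _ hb0)] at hb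
    exact hb

/-- `T`-units in helper8's sense are in the Kummer domain -/
theorem pta_isKumDom_of_sUnit {x : (↥E)ˣ} (h : ptj_diag ↥E x ∈ ptj_JT ↥E S) :
    pta_IsKumDom p S E x := by
  intro q hq σ
  refine ⟨1, one_mem E, one_ne_zero, ?_⟩
  have h1 := h q hq (σ.comp (algebraMap ↥E Qbar))
  rw [map_one, norm_one, one_pow]
  exact h1

/-- **bridge for `Λ_S`**: local `p`-th powers at the chosen embeddings `ptk_sig v`, `v` over `S`
(helper2's vocabulary) are local `p`-th powers at all embeddings over `S`. -/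
theorem pta_isLocPow_of_lpows {x : (↥E)ˣ}
    (h : ∀ v ∈ ptk_over ↥E S, ptk_ev ↥E v (ptj_diag ↥E x) ∈ ptk_lpows (ptk_G ↥E) p v) :
    pta_IsLocPow p S E x := by
  intro q hq σ
  have hv : cfh_primeOf σ ∈ ptk_over ↥E S := by
    rw [ptk_mem_over, ptk_below_primeOf]
    exact hq
  have h1 := h _ hv
  have h2 : ptj_evalAt σ (ptj_diag ↥E x) ∈ (powMonoidHom p : ptj_KσU σ →* ptj_KσU σ).range :=
    ptk_transport (P := fun q σ => ptj_evalAt σ (ptj_diag ↥E x) ∈
        (powMonoidHom p : ptj_KσU σ →* ptj_KσU σ).range)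
      (fun q τ σ hσ => ptk_evalAt_mem_pow_post (ptj_diag ↥E x) p τ σ hσ)
      (ptk_sig (cfh_primeOf σ)) σ (ptk_primeOf_sig _) h1
  obtain ⟨c, hc⟩ := h2
  refine ⟨((c : (ptj_Om q)ˣ) : ptj_Om q), c.2, ?_⟩
  have h3 := congrArg (fun u : ptj_KσU σ => ((u : (ptj_Om q)ˣ) : ptj_Om q)) hc
  simp only [powMonoidHom_apply, Subgroup.coe_pow, Units.val_pow_eq_pow_val] at h3
  rw [h3]
  exact ptk_evalAt_diag σ x

/-- converse bridge: local `p`-th powers at all embeddings are local `p`-th powers in helper2's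
sense -/
theorem pta_lpows_of_isLocPow {x : (↥E)ˣ} (h : pta_IsLocPow p S E x)
    (v : HeightOneSpectrum (𝓞 ↥E)) (hv : v ∈ ptk_over ↥E S) :
    ptk_ev ↥E v (ptj_diag ↥E x) ∈ ptk_lpows (ptk_G ↥E) p v := by
  have hp : p.Prime := Fact.out
  obtain ⟨c, hc, hcx⟩ := h (ptk_below v) (ptk_mem_over.1 hv) (ptk_sig v)
  have hc0 : c ≠ 0 := by
    rintro rfl
    rw [zero_pow hp.ne_zero] at hcx
    exact (map_ne_zero (ptk_sig v)).2 (Units.ne_zero x) hcx.symm
  refine ⟨⟨Units.mk0 c hc0, hc⟩, ?_⟩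
  apply Subtype.ext
  apply Units.ext
  rw [powMonoidHom_apply, Subgroup.coe_pow, Units.val_pow_eq_pow_val, Units.val_mk0, hcx]
  exact (ptk_evalAt_diag (ptk_sig v) x).symm

end Bridges

section Count

variable (hζ : ∀ x : Qbar, x ^ p = 1 → x ∈ E)

/-- **`#(Λ/Λ ∩ Eˣᵖ) ≤ #(X₀ ∩ split)`** for arbitrary subgroups `Λ ≤ O` of `Eˣ`, `Λ` consisting of
local `p`-th powers over `S`, `X₀` the Kummer characters of `O`. -/
theorem pta_card_split_le' {Λ O : Subgroup (↥E)ˣ} (hΛO : Λ ≤ O)
    (hΛ : ∀ x ∈ Λ, pta_IsLocPow p S E x) [Finite (pta_kumHom hζ O).range] :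
    (ptk_pows ↥E p).relIndex Λ ≤
      Nat.card ↥((pta_kumHom hζ O).range ⊓ pta_splitChars p S E.fixingSubgroup) := by
  rw [← pta_card_kumHom_range hζ]
  have hsplit : (pta_kumHom hζ Λ).range ≤ pta_splitChars p S E.fixingSubgroup := by
    rintro _ ⟨x, rfl⟩
    exact pta_kumFun_mem_splitChars hζ (hΛ _ (Additive.toMul x).2)
  have hle : (pta_kumHom hζ Λ).range ≤
      (pta_kumHom hζ O).range ⊓ pta_splitChars p S E.fixingSubgroup :=
    le_inf (pta_kumHom_range_mono hζ hΛO) hsplit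
  haveI : Finite ↥((pta_kumHom hζ O).range ⊓ pta_splitChars p S E.fixingSubgroup) :=
    Finite.of_injective (fun χ => (⟨χ.1, χ.2.1⟩ : (pta_kumHom hζ O).range))
      (fun a b h => Subtype.ext (by
        have := congrArg (fun z : (pta_kumHom hζ O).range => z.1) h
        exact this))
  exact Nat.card_le_card_of_injective (AddSubgroup.inclusion hle)
    (AddSubgroup.inclusion_injective hle)

/-- finiteness of the set of Kummer characters from finiteness of the index -/
lemma pta_finite_kumHom_range {O : Subgroup (↥E)ˣ} (h : (ptk_pows ↥E p).relIndex O ≠ 0) :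
    Finite (pta_kumHom hζ O).range := by
  apply Nat.finite_of_card_ne_zero
  rw [pta_card_kumHom_range hζ]
  exact h

end Count

end Fermat.Agent.Lib.PT

end
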