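/-
S55 (Poitou–Tate), (G8) global F3, number-theoretic counts (helper9, prefix `pti_`), part C:
the counts (NT1), (NT3) in helper1's Kummer vocabulary: for a number field `E ⊆ Q̄` containing
`μ_p` (`p` odd) and a finite set `S ∋ p` of primes, there is a subgroup `Δ₀` of the Kummer domain
`V_S` such that, with `X₀` the Kummer characters of `Δ₀`,
`[J_E : Eˣ · U_S · J_Eᵖ] ≤ p ^ N · #(X₀ ∩ split)` and `p ^ N · [J_E : Eˣ · J_S · J_Eᵖ] = #X₀`.
-/
import Fermat.Agent.Lib.PT.BrauerExB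
import Fermat.Agent.Lib.PT.GModKumE
import Fermat.Agent.Lib.PT.GModInvL

set_option autoImplicit false
set_option linter.unusedSectionVars false
set_option linter.style.haveILetI false

noncomputable section

namespace Fermat.Agent.Lib.PT

open IntermediateField ExtCitation IsDedekindDomain NumberField Fermat.Agent.Lib.CFT

local notation "Qbar" => AlgebraicClosure ℚ
local notation "GQ" => (AlgebraicClosure ℚ ≃ₐ[ℚ] AlgebraicClosure ℚ)

variable {p : ℕ} [hp : Fact p.Prime] {S : Finset Nat.Primes} {E : IntermediateField ℚ Qbar}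

/-- a primitive `p`-th root of unity in `E ⊇ μ_p` -/
theorem pti_exists_primitiveRoot_of_mem (hζ : ∀ x : Qbar, x ^ p = 1 → x ∈ E) :
    ∃ ζ : ↥E, IsPrimitiveRoot ζ p := by
  obtain ⟨ζ, hζ'⟩ := pta_exists_primitiveRoot p
  refine ⟨⟨ζ, hζ ζ hζ'.pow_eq_one⟩, ?_⟩
  exact IsPrimitiveRoot.of_map_of_injective (f := algebraMap ↥E Qbar)
    (hζ' : IsPrimitiveRoot (algebraMap ↥E Qbar ⟨ζ, hζ ζ hζ'.pow_eq_one⟩) p)
    (algebraMap ↥E Qbar).injective

/-- **the counts (NT1) + (K-split bound) + (NT3) in Kummer vocabulary** -/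
theorem pti_F3_count_kummer [NumberField ↥E] (hp2 : p ≠ 2) (hpS : pPrime p ∈ S)
    (hζ : ∀ x : Qbar, x ^ p = 1 → x ∈ E) :
    ∃ (Δ₀ : Subgroup (↥E)ˣ) (N : ℕ), Δ₀ ≤ pta_kumDom p S E ∧
      Finite (pta_kumHom hζ Δ₀).range ∧
      (ptj_principal ↥E ⊔ ptj_UT ↥E S ⊔
        (powMonoidHom p : ptj_J ↥E →* ptj_J ↥E).range).index ≠ 0 ∧
      (ptj_principal ↥E ⊔ ptj_JT ↥E S ⊔
        (powMonoidHom p : ptj_J ↥E →* ptj_J ↥E).range).index ≠ 0 ∧
      (ptj_principal ↥E ⊔ ptj_UT ↥E S ⊔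
        (powMonoidHom p : ptj_J ↥E →* ptj_J ↥E).range).index ≤
        p ^ N * Nat.card ↥((pta_kumHom hζ Δ₀).range ⊓ pta_splitChars p S E.fixingSubgroup) ∧
      p ^ N * (ptj_principal ↥E ⊔ ptj_JT ↥E S ⊔
        (powMonoidHom p : ptj_J ↥E →* ptj_J ↥E).range).index =
        Nat.card (pta_kumHom hζ Δ₀).range := by
  obtain ⟨ζ, hζ'⟩ := pti_exists_primitiveRoot_of_mem hζ
  obtain ⟨Δ, Δ₀, hle, hV, hΛ, h1, h3, hne1, hne3⟩ := pti_NT_model (K := ↥E) hp2 hζ' S hpS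
  have hfin : (ptk_pows ↥E p).relIndex Δ₀ ≠ 0 := by
    rw [← h3]
    exact mul_ne_zero (pow_ne_zero _ hp.out.ne_zero) hne3
  haveI : Finite (pta_kumHom hζ Δ₀).range := pta_finite_kumHom_range hζ hfin
  refine ⟨Δ₀, NumberField.Units.rank ↥E + (ptk_over ↥E S).card + 1,
    fun x hx => pta_isKumDom_of_valuation (hV x hx), inferInstance, hne1, hne3, ?_, ?_⟩
  · rw [h1]
    exact Nat.mul_le_mul_left _
      (pta_card_split_le' hζ hle (fun x hx => pta_isLocPow_of_lpows (hΛ x hx)))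
  · rw [h3, pta_card_kumHom_range hζ]

/-- `μ_p ⊂ E` when `Gal(Q̄/E) ≤ ker χ_cyc` -/
theorem pti_roots_mem_of_le_ker (hEK : E.fixingSubgroup ≤ (cycloChar p).ker) :
    ∀ x : Qbar, x ^ p = 1 → x ∈ E := by
  have h2 : pta_cycloField p ≤ E := by
    have : IntermediateField.fixedField (cycloChar p).ker ≤
        IntermediateField.fixedField E.fixingSubgroup := by
      intro x hx
      rw [IntermediateField.mem_fixedField_iff] at hx ⊢
      exact fun g hg => hx g (hEK hg)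
    rwa [InfiniteGalois.fixedField_fixingSubgroup] at this
  intro x hx
  obtain ⟨ζ, hζ⟩ := pta_exists_primitiveRoot p
  haveI : NeZero p := ⟨hp.out.ne_zero⟩
  obtain ⟨i, -, rfl⟩ := hζ.eq_pow_of_pow_eq_one hx
  exact pow_mem (h2 (pta_mem_cycloField hζ)) i

/-- **(5a)**: the Kummer/idele count, in lead's shape `ptj_F3Count` (input of
`ptj_F3G_of_count`). -/
theorem pti_F3_count (hp2 : p ≠ 2) (hpS : pPrime p ∈ S) : ptj_F3Count p S := by
  intro E hE hU hEK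
  haveI : FiniteDimensional ℚ ↥E := hE.1
  haveI : NumberField ↥E := ⟨⟩
  have hζ : ∀ x : Qbar, x ^ p = 1 → x ∈ E := pti_roots_mem_of_le_ker hEK
  obtain ⟨Δ₀, N, hΔ₀, hfin, hne1, hne3, hle1, heq3⟩ := pti_F3_count_kummer (S := S) hp2 hpS hζ
  exact ⟨(pta_kumHom hζ Δ₀).range, N,
    fun χ hχ => pta_kumHom_range_spec hζ hpS hE hU hΔ₀ hχ, hfin, hne1, hne3, hle1, heq3⟩

end Fermat.Agent.Lib.PT

end
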