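/-
S55 (Poitou–Tate long haul), bridge "finite levels ⇒ big model", part IV: (GEN) — the invariant
maps of level data on ALL level cocycles (no `p`-torsion hypothesis).

* `ptn_gen_all` : every level 2-cocycle `y` of an open subgroup `U` has
  `m • y - n • res_U u_N ∈ B²_lev` with `p ∤ m` (`m` = index of a Sylow subgroup).
* `ptn_invU_add_all`, `ptn_invU_zsmul_all`, `ptn_invU_neg_all`, `ptn_invU_sub_all` : additivity of
  `ptn_invU` on all level cocycles; `ptn_invU_congr_all`.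
* `ptn_invU_eq_zero_iff_all` : injectivity on `p`-primary classes.
* `ptn_hcor_all`, `ptn_invU_res_all`, `ptn_invU_resLe_all` : corestriction and restriction
  formulas for all level cocycles.
* `ptn_invG_add_all`, `ptn_invG_zsmul_all`, `ptn_invG_eq_zero_iff_all`, … : the same for `G`.
-/
import Fermat.Agent.Lib.PT.BrgMain
import Fermat.Agent.Lib.PT.AbsDefs

set_option autoImplicit false
set_option linter.unusedSectionVars false

namespace Fermat.Agent.Lib.PT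

section FundSysAll

variable {G : Type*} [Group G] {C : Type*} [AddCommGroup C]
variable {𝓛 : ptd_Levels G} {ρC : Representation ℤ G C} {p : ℕ} [hp : Fact p.Prime]

/-- additivity of the invariant on related cochains -/
lemma ptn_invFun_add_of_rel {F : ptn_FundSys 𝓛 ρC p} {z z' : G × G → C} {N₁ N₂ : Subgroup G}
    {n₁ n₂ : ℤ} {m₁ m₂ : ℕ} (hr₁ : ptn_Rel F z N₁ n₁ m₁) (hr₂ : ptn_Rel F z' N₂ n₂ m₂) :
    ptn_invFun F (z + z') = ptn_invFun F z + ptn_invFun F z' := by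
  obtain ⟨N, hN, hle⟩ := 𝓛.directed N₁ hr₁.1 N₂ hr₂.1
  obtain ⟨a₁, b₁, hs₁, -⟩ := hr₁.deepen hN (hle.trans inf_le_left)
  obtain ⟨a₂, b₂, hs₂, -⟩ := hr₂.deepen hN (hle.trans inf_le_right)
  rw [ptn_invFun_eq hs₁, ptn_invFun_eq hs₂, ptn_invFun_eq (hs₁.add hs₂), ptn_frac_add]
  have hb₁ : b₁ ≠ 0 := fun h0 => hs₁.2.1 (h0 ▸ dvd_zero p)
  have hb₂ : b₂ ≠ 0 := fun h0 => hs₂.2.1 (h0 ▸ dvd_zero p)
  congr 1
  · have : b₁ * b₂ * N.index = b₁ * N.index * b₂ := by ring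
    rw [this, mul_comm (b₂ : ℤ) a₁]
    exact ptn_frac_mul_right a₁ (b₁ * N.index) b₂ hb₂
  · have : b₁ * b₂ * N.index = b₂ * N.index * b₁ := by ring
    rw [this, mul_comm (b₁ : ℤ) a₂]
    exact ptn_frac_mul_right a₂ (b₂ * N.index) b₁ hb₁

lemma ptn_Rel.zsmul {F : ptn_FundSys 𝓛 ρC p} {z : G × G → C} {N : Subgroup G} {n : ℤ} {m : ℕ}
    (h : ptn_Rel F z N n m) (a : ℤ) : ptn_Rel F (a • z) N (a * n) m := by
  obtain ⟨hN, hm, hB⟩ := h
  refine ⟨hN, hm, ?_⟩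
  have h1 := hB.zsmul a
  have h2 : a • (m • z - n • F.u N) = m • a • z - (a * n) • F.u N := by
    funext x
    simp only [Pi.sub_apply, Pi.smul_apply, smul_sub, mul_smul]
    rw [smul_comm a m]
  rwa [h2] at h1

lemma ptn_invFun_zsmul_of_rel {F : ptn_FundSys 𝓛 ρC p} {z : G × G → C} {N : Subgroup G} {n : ℤ}
    {m : ℕ} (h : ptn_Rel F z N n m) (a : ℤ) : ptn_invFun F (a • z) = a • ptn_invFun F z := by
  rw [ptn_invFun_eq (h.zsmul a), ptn_invFun_eq h, ptn_frac_smul]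

/-- the invariant only depends on the class -/
lemma ptn_invFun_congr_of_rel {F : ptn_FundSys 𝓛 ρC p} {z z' : G × G → C} {N : Subgroup G}
    {n : ℤ} {m : ℕ} (h : ptn_Rel F z N n m) (hzz' : ptd_IsB2 𝓛 ρC (z - z')) :
    ptn_invFun F z = ptn_invFun F z' := by
  obtain ⟨hN, hm, hB⟩ := h
  have h' : ptn_Rel F z' N n m := by
    refine ⟨hN, hm, ?_⟩
    have h1 := hB.sub (hzz'.nsmul m)
    have h2 : m • z - n • F.u N - m • (z - z') = m • z' - n • F.u N := by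
      rw [smul_sub]; abel
    rwa [h2] at h1
  rw [ptn_invFun_eq ⟨hN, hm, hB⟩, ptn_invFun_eq h']

/-- injectivity on `p`-primary related cochains -/
lemma ptn_isB2_of_invFun_eq_zero {F : ptn_FundSys 𝓛 ρC p} {z : G × G → C} {N : Subgroup G}
    {n : ℤ} {m : ℕ} (h : ptn_Rel F z N n m) (e : ℕ) (hze : ptd_IsB2 𝓛 ρC (p ^ e • z))
    (h0 : ptn_invFun F z = 0) : ptd_IsB2 𝓛 ρC z := by
  obtain ⟨hN, hm, hB⟩ := h
  have hm0 : m ≠ 0 := fun h0 => hm (h0 ▸ dvd_zero p)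
  have hidx := ptn_index_ne_zero hN
  rw [ptn_invFun_eq ⟨hN, hm, hB⟩, ptn_frac_eq_zero_iff n (m * N.index) (Nat.mul_ne_zero hm0 hidx),
    Nat.factorization_mul hm0 hidx, Finsupp.add_apply,
    Nat.factorization_eq_zero_of_not_dvd hm, zero_add] at h0
  obtain ⟨j, rfl⟩ := h0
  have hdec : (p ^ N.index.factorization p) * (N.index / p ^ N.index.factorization p) = N.index :=
    Nat.ordProj_mul_ordCompl_eq_self N.index p
  have hnd : ¬ p ∣ N.index / p ^ N.index.factorization p := Nat.not_dvd_ordCompl hp.out hidx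
  have htors := F.tors N hN
  rw [← hdec] at htors
  generalize p ^ N.index.factorization p = P at hB hdec hnd htors
  generalize N.index / P = D at hdec hnd htors
  have h1 : ptd_IsB2 𝓛 ρC ((D * m) • z) := by
    have h2 := (hB.nsmul D).add (htors.zsmul j)
    have h3 : D • (m • z - (((P : ℕ) : ℤ) * j) • F.u N) + j • (P * D) • F.u N = (D * m) • z := by
      funext x
      simp only [Pi.add_apply, Pi.sub_apply, Pi.smul_apply, smul_sub, mul_smul, natCast_zsmul]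
      rw [smul_comm D P, smul_comm D j, smul_comm P j]
      abel
    rwa [h3] at h2
  have hcop : Nat.Coprime (D * m) (p ^ e) := by
    apply Nat.Coprime.pow_right
    apply Nat.Coprime.symm
    rw [Nat.Prime.coprime_iff_not_dvd hp.out]
    intro hd
    rcases (Nat.Prime.dvd_mul hp.out).mp hd with h | h
    · exact hnd h
    · exact hm h
  exact ptn_isB2_of_coprime hcop h1 hze

end FundSysAll

section GenAll

variable {G : Type*} [Group G] {C : Type*} [AddCommGroup C]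
variable {𝓛 : ptd_Levels G} {ρC : Representation ℤ G C} {p : ℕ} [hp : Fact p.Prime]
variable (D : ptn_LevelData 𝓛 ρC p) (hd : ptd_IsDiscrete 𝓛 ρC)
variable (U : Subgroup G) (hU : 𝓛.IsOpen U)

include hd in
/-- **(GEN)**: every level 2-cocycle of an open subgroup `U` is cohomologous, up to a
prime-to-`p` multiple, to a multiple of the restriction of a fundamental cocycle. -/
theorem ptn_gen_all (z : U × U → C) (hz : ptd_IsLZ2 (𝓛.sub U hU) (ptd_resRep ρC U) z) :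
    ∃ N ∈ 𝓛.lev, N ≤ U ∧ ∃ (n : ℤ) (m : ℕ), ¬ p ∣ m ∧
      ptd_IsB2 (𝓛.sub U hU) (ptd_resRep ρC U) (m • z - n • ptd_res₂ U (D.U N)) := by
  obtain ⟨N, hN, hNU, hat⟩ := ptn_exists_at₂ hd hU hz.2
  obtain ⟨P', hNP, hidx, hPp, hP'⟩ := ptn_exists_sylow_over (p := p) U hU hN hNU
  have hfin : P'.FiniteIndex := ⟨fun h => hidx (h ▸ dvd_zero p)⟩
  set L := D.lvl N hN with hL
  have hZ : ptd_IsZ2 (ρC.comp (ptn_jj U P')) (ptd_res₂ P' z) := fun g h j => hz.1 g h j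
  have hfac : ∀ a b a' b' : P', L.π (ptn_jj U P' a) = L.π (ptn_jj U P' a') →
      L.π (ptn_jj U P' b) = L.π (ptn_jj U P' b') →
      ptd_res₂ P' z (a, b) = ptd_res₂ P' z (a', b') := by
    intro a b a' b' ha hb
    rw [ptn_π_jj_eq_iff] at ha hb
    have h1 := hat.1 a b (a⁻¹ * a' : P') (b⁻¹ * b' : P') ha hb
    simp only [ptd_res₂_apply]
    rw [← h1]
    congr 2 <;> simp
  have hinv : ∀ x, ∀ n ∈ N, ρC n (ptd_res₂ P' z x) = ptd_res₂ P' z x := fun x n hn => hat.2 _ n hn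
  obtain ⟨n₀, ψ, hψfac, -, hψ⟩ := L.h2gen (ptn_isPGroup_range L hPp) hZ hfac hinv
  have hz' : ptd_IsLZ2 (𝓛.sub U hU) (ptd_resRep ρC U) (z - n₀ • ptd_res₂ U (D.U N)) :=
    hz.sub (ptn_isLZ2_zsmul (ptd_isLZ2_res₂ U hU ρC (D.U_isLZ2 hN)) n₀)
  have hres : ptd_IsB2 ((𝓛.sub U hU).sub P' hP') (ptd_resRep (ptd_resRep ρC U) P')
      (ptd_res₂ P' (z - n₀ • ptd_res₂ U (D.U N))) := by
    refine ⟨ψ, ⟨_, ⟨N.subgroupOf U, ⟨N, hN, hNU, rfl⟩, hNP, rfl⟩, fun g n hn => ?_⟩, ?_⟩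
    · apply hψfac
      rw [ptn_π_jj_eq_iff]
      have : ((n : U) : G) ∈ N := Subgroup.mem_subgroupOf.mp (Subgroup.mem_subgroupOf.mp hn)
      simpa using this
    · rw [D.U_eq hN]
      exact hψ
  have h1 : ptd_IsB2 (𝓛.sub U hU) (ptd_resRep ρC U)
      (P'.index • (z - n₀ • ptd_res₂ U (D.U N))) := by
    have := (ptd_cor₂_res_sub_isB2 P' hP' (ptd_resRep ρC U) hz').add
      (ptd_isB2_cor₂ P' hP' (ptd_resRep ρC U) hres)
    simpa using this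
  refine ⟨N, hN, hNU, (P'.index : ℤ) * n₀, P'.index, hidx, ?_⟩
  have h2 : P'.index • (z - n₀ • ptd_res₂ U (D.U N)) =
      P'.index • z - ((P'.index : ℤ) * n₀) • ptd_res₂ U (D.U N) := by
    rw [smul_sub, mul_smul, natCast_zsmul]
  rwa [h2] at h1

/-- every level cocycle of `U` is related to a fundamental cocycle -/
lemma ptn_exists_rel (z : U × U → C) (hz : ptd_IsLZ2 (𝓛.sub U hU) (ptd_resRep ρC U) z) :
    ∃ (N' : Subgroup U) (n : ℤ) (m : ℕ), ptn_Rel (ptn_fundSys D hd U hU) z N' n m := by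
  obtain ⟨N, hN, hNU, n, m, hm, hB⟩ := ptn_gen_all D hd U hU z hz
  refine ⟨N.subgroupOf U, n, m, ⟨N, hN, hNU, rfl⟩, hm, ?_⟩
  show ptd_IsB2 _ _ (m • z - n • ptd_res₂ U (D.U ((N.subgroupOf U).map U.subtype)))
  rw [Subgroup.map_subgroupOf_eq_of_le hNU]
  exact hB

variable {U}

/-- **additivity of `inv_U` on all level cocycles** -/
theorem ptn_invU_add_all {z z' : U × U → C}
    (hz : ptd_IsLZ2 (𝓛.sub U hU) (ptd_resRep ρC U) z)
    (hz' : ptd_IsLZ2 (𝓛.sub U hU) (ptd_resRep ρC U) z') :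
    ptn_invU D hd U hU (z + z') = ptn_invU D hd U hU z + ptn_invU D hd U hU z' := by
  obtain ⟨N₁, n₁, m₁, hr₁⟩ := ptn_exists_rel D hd U hU z hz
  obtain ⟨N₂, n₂, m₂, hr₂⟩ := ptn_exists_rel D hd U hU z' hz'
  exact ptn_invFun_add_of_rel hr₁ hr₂

theorem ptn_invU_zsmul_all {z : U × U → C}
    (hz : ptd_IsLZ2 (𝓛.sub U hU) (ptd_resRep ρC U) z) (a : ℤ) :
    ptn_invU D hd U hU (a • z) = a • ptn_invU D hd U hU z := by
  obtain ⟨N₁, n₁, m₁, hr₁⟩ := ptn_exists_rel D hd U hU z hz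
  exact ptn_invFun_zsmul_of_rel hr₁ a

theorem ptn_invU_nsmul_all {z : U × U → C}
    (hz : ptd_IsLZ2 (𝓛.sub U hU) (ptd_resRep ρC U) z) (a : ℕ) :
    ptn_invU D hd U hU (a • z) = a • ptn_invU D hd U hU z := by
  have := ptn_invU_zsmul_all D hd hU hz (a : ℤ)
  rwa [natCast_zsmul, natCast_zsmul] at this

theorem ptn_invU_neg_all {z : U × U → C}
    (hz : ptd_IsLZ2 (𝓛.sub U hU) (ptd_resRep ρC U) z) :
    ptn_invU D hd U hU (-z) = -ptn_invU D hd U hU z := by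
  have := ptn_invU_zsmul_all D hd hU hz (-1)
  simpa using this

theorem ptn_invU_sub_all {z z' : U × U → C}
    (hz : ptd_IsLZ2 (𝓛.sub U hU) (ptd_resRep ρC U) z)
    (hz' : ptd_IsLZ2 (𝓛.sub U hU) (ptd_resRep ρC U) z') :
    ptn_invU D hd U hU (z - z') = ptn_invU D hd U hU z - ptn_invU D hd U hU z' := by
  rw [sub_eq_add_neg, ptn_invU_add_all D hd hU hz hz'.neg, ptn_invU_neg_all D hd hU hz',
    sub_eq_add_neg]

/-- `inv_U` only depends on the class, for all level cocycles -/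
theorem ptn_invU_congr_all {z z' : U × U → C}
    (hz : ptd_IsLZ2 (𝓛.sub U hU) (ptd_resRep ρC U) z)
    (hzz' : ptd_IsB2 (𝓛.sub U hU) (ptd_resRep ρC U) (z - z')) :
    ptn_invU D hd U hU z = ptn_invU D hd U hU z' := by
  obtain ⟨N₁, n₁, m₁, hr₁⟩ := ptn_exists_rel D hd U hU z hz
  exact ptn_invFun_congr_of_rel hr₁ hzz'

/-- **injectivity of `inv_U` on `p`-primary classes** -/
theorem ptn_invU_eq_zero_iff_all {z : U × U → C}
    (hz : ptd_IsLZ2 (𝓛.sub U hU) (ptd_resRep ρC U) z) (e : ℕ)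
    (hze : ptd_IsB2 (𝓛.sub U hU) (ptd_resRep ρC U) (p ^ e • z)) :
    ptn_invU D hd U hU z = 0 ↔ ptd_IsB2 (𝓛.sub U hU) (ptd_resRep ρC U) z := by
  refine ⟨fun h0 => ?_, fun h => (ptn_invU D hd U hU).map_b2' z h⟩
  obtain ⟨N₁, n₁, m₁, hr₁⟩ := ptn_exists_rel D hd U hU z hz
  exact ptn_isB2_of_invFun_eq_zero hr₁ e hze h0

include hd in
/-- (GEN) with the level inside a given open subgroup `V ≤ U` -/
theorem ptn_gen_all_le {V : Subgroup G} (hV : 𝓛.IsOpen V) (z : U × U → C)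
    (hz : ptd_IsLZ2 (𝓛.sub U hU) (ptd_resRep ρC U) z) :
    ∃ N ∈ 𝓛.lev, N ≤ U ∧ N ≤ V ∧ ∃ (n : ℤ) (m : ℕ), ¬ p ∣ m ∧
      ptd_IsB2 (𝓛.sub U hU) (ptd_resRep ρC U) (m • z - n • ptd_res₂ U (D.U N)) := by
  obtain ⟨N₀, hN₀, hN₀U, n₀, m₀, hm₀, hB₀⟩ := ptn_gen_all D hd U hU z hz
  obtain ⟨N₁, hN₁, hN₁V⟩ := hV
  obtain ⟨N, hN, hle⟩ := 𝓛.directed N₀ hN₀ N₁ hN₁
  obtain ⟨m, hm, ψ, hψ1, -, hψ⟩ := D.compat N₀ hN₀ N hN (hle.trans inf_le_left)
  refine ⟨N, hN, (hle.trans inf_le_left).trans hN₀U, (hle.trans inf_le_right).trans hN₁V,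
    n₀ * (m * N.relIndex N₀ : ℕ), m₀ * m, fun hdvd => ?_, ?_⟩
  · rcases (Nat.Prime.dvd_mul hp.out).mp hdvd with h | h
    · exact hm₀ h
    · exact hm h
  have hB : ptd_IsB2 𝓛 ρC (m • (D.U N₀ - N.relIndex N₀ • D.U N)) := by
    rw [D.U_eq hN₀, D.U_eq hN]
    exact ⟨ψ, ⟨N, hN, hψ1⟩, hψ⟩
  have h1 := (hB₀.nsmul m).add ((ptd_isB2_res₂ U hU ρC hB).zsmul n₀)
  have h2 : m • (m₀ • z - n₀ • ptd_res₂ U (D.U N₀)) +
      n₀ • ptd_res₂ U (m • (D.U N₀ - N.relIndex N₀ • D.U N)) =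
      (m₀ * m) • z - (n₀ * (m * N.relIndex N₀ : ℕ)) • ptd_res₂ U (D.U N) := by
    funext x
    simp only [Pi.add_apply, Pi.sub_apply, Pi.smul_apply, ptd_res₂, smul_sub, mul_smul,
      Nat.cast_mul, natCast_zsmul]
    rw [smul_comm m n₀ (D.U N₀ _), smul_comm m m₀]
    abel
  rwa [h2] at h1

/-- **`inv_V ∘ res = [U : V] • inv_U`** for all level cocycles, `V ≤ U` open. -/
theorem ptn_invU_resLe_all {V : Subgroup G} (hV : 𝓛.IsOpen V) (hVU : V ≤ U) {z : U × U → C}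
    (hz : ptd_IsLZ2 (𝓛.sub U hU) (ptd_resRep ρC U) z) :
    ptn_invU D hd V hV (ptn_resLe₂ hVU z) = V.relIndex U • ptn_invU D hd U hU z := by
  obtain ⟨N, hN, hNU, hNV, n, m, hm, hB⟩ := ptn_gen_all_le D hd hU hV z hz
  have hB' := ptn_isB2_resLe ρC hVU hU hV hB
  have h1 : ptn_resLe₂ hVU (m • z - n • ptd_res₂ U (D.U N)) =
      m • ptn_resLe₂ hVU z - n • ptd_res₂ V (D.U N) := rfl
  rw [h1] at hB'
  have hfin : V.FiniteIndex := hV.finiteIndex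
  have hrel : N.relIndex V * V.relIndex U = N.relIndex U :=
    Subgroup.relIndex_mul_relIndex N V U hNV hVU
  have hne : V.relIndex U ≠ 0 := by
    intro h0
    have h2 : V.relIndex U * U.index = V.index := Subgroup.relIndex_mul_index hVU
    rw [h0, zero_mul] at h2
    exact Subgroup.FiniteIndex.index_ne_zero h2.symm
  rw [ptn_invU_eq D hd hV hN hNV hm hB', ptn_invU_eq D hd hU hN hNU hm hB, ← hrel, ← mul_assoc]
  exact (ptn_nsmul_frac n (m * N.relIndex V) (V.relIndex U) hne).symm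

variable (U)

/-- **`inv_G ∘ cor = inv_U`** for all level cocycles of `U`. -/
theorem ptn_hcor_all [U.FiniteIndex] (y : U × U → C)
    (hy : ptd_IsLZ2 (𝓛.sub U hU) (ptd_resRep ρC U) y) :
    ptn_invG D hd (ptd_cor₂ U ρC y) = ptn_invU D hd U hU y := by
  obtain ⟨N, hN, hNU, n, m, hm, hB⟩ := ptn_gen_all D hd U hU y hy
  have h1 : ptn_invU D hd U hU y = ptn_frac p n (m * N.relIndex U) :=
    ptn_invU_eq D hd hU hN hNU hm hB
  have hB1 := ptd_isB2_cor₂ U hU ρC hB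
  rw [ptn_cor₂_sub, ptn_cor₂_zsmul, ptd_cor₂_nsmul] at hB1
  have hB2 := ptd_cor₂_res_sub_isB2 U hU ρC (D.U_isLZ2 hN)
  have hB3 := hB1.sub (hB2.zsmul n)
  have h2 : m • ptd_cor₂ U ρC y - n • ptd_cor₂ U ρC (ptd_res₂ U (D.U N)) -
      n • (U.index • D.U N - ptd_cor₂ U ρC (ptd_res₂ U (D.U N))) =
      m • ptd_cor₂ U ρC y - (n * U.index) • D.U N := by
    funext x
    simp only [Pi.sub_apply, Pi.smul_apply, smul_sub, mul_smul, natCast_zsmul]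
    abel
  rw [h2] at hB3
  rw [ptn_invG_eq D hd hN hm hB3, h1, ← Subgroup.relIndex_mul_index hNU, ← mul_assoc]
  exact ptn_frac_mul_right n (m * N.relIndex U) U.index (Subgroup.FiniteIndex.index_ne_zero)

end GenAll

section GenAllG

variable {G : Type*} [Group G] {C : Type*} [AddCommGroup C]
variable {𝓛 : ptd_Levels G} {ρC : Representation ℤ G C} {p : ℕ} [hp : Fact p.Prime]
variable (D : ptn_LevelData 𝓛 ρC p) (hd : ptd_IsDiscrete 𝓛 ρC)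

lemma ptn_invG_apply (z : G × G → C) :
    ptn_invG D hd z = ptn_invU D hd ⊤ 𝓛.isOpen_top (ptd_res₂ ⊤ z) := rfl

/-- **additivity of `inv_G` on all level cocycles** -/
theorem ptn_invG_add_all {z z' : G × G → C} (hz : ptd_IsLZ2 𝓛 ρC z) (hz' : ptd_IsLZ2 𝓛 ρC z') :
    ptn_invG D hd (z + z') = ptn_invG D hd z + ptn_invG D hd z' :=
  ptn_invU_add_all D hd 𝓛.isOpen_top (ptd_isLZ2_res₂ ⊤ 𝓛.isOpen_top ρC hz)
    (ptd_isLZ2_res₂ ⊤ 𝓛.isOpen_top ρC hz')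

theorem ptn_invG_zsmul_all {z : G × G → C} (hz : ptd_IsLZ2 𝓛 ρC z) (a : ℤ) :
    ptn_invG D hd (a • z) = a • ptn_invG D hd z :=
  ptn_invU_zsmul_all D hd 𝓛.isOpen_top (ptd_isLZ2_res₂ ⊤ 𝓛.isOpen_top ρC hz) a

theorem ptn_invG_nsmul_all {z : G × G → C} (hz : ptd_IsLZ2 𝓛 ρC z) (a : ℕ) :
    ptn_invG D hd (a • z) = a • ptn_invG D hd z :=
  ptn_invU_nsmul_all D hd 𝓛.isOpen_top (ptd_isLZ2_res₂ ⊤ 𝓛.isOpen_top ρC hz) a

theorem ptn_invG_neg_all {z : G × G → C} (hz : ptd_IsLZ2 𝓛 ρC z) :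
    ptn_invG D hd (-z) = -ptn_invG D hd z :=
  ptn_invU_neg_all D hd 𝓛.isOpen_top (ptd_isLZ2_res₂ ⊤ 𝓛.isOpen_top ρC hz)

theorem ptn_invG_sub_all {z z' : G × G → C} (hz : ptd_IsLZ2 𝓛 ρC z) (hz' : ptd_IsLZ2 𝓛 ρC z') :
    ptn_invG D hd (z - z') = ptn_invG D hd z - ptn_invG D hd z' :=
  ptn_invU_sub_all D hd 𝓛.isOpen_top (ptd_isLZ2_res₂ ⊤ 𝓛.isOpen_top ρC hz)
    (ptd_isLZ2_res₂ ⊤ 𝓛.isOpen_top ρC hz')

theorem ptn_invG_congr_all {z z' : G × G → C} (hz : ptd_IsLZ2 𝓛 ρC z)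
    (hzz' : ptd_IsB2 𝓛 ρC (z - z')) : ptn_invG D hd z = ptn_invG D hd z' :=
  ptn_invU_congr_all D hd 𝓛.isOpen_top (ptd_isLZ2_res₂ ⊤ 𝓛.isOpen_top ρC hz)
    (ptd_isB2_res₂ ⊤ 𝓛.isOpen_top ρC hzz')

/-- **injectivity of `inv_G` on `p`-primary classes** -/
theorem ptn_invG_eq_zero_iff_all {z : G × G → C} (hz : ptd_IsLZ2 𝓛 ρC z) (e : ℕ)
    (hze : ptd_IsB2 𝓛 ρC (p ^ e • z)) : ptn_invG D hd z = 0 ↔ ptd_IsB2 𝓛 ρC z :=
  (ptn_invU_eq_zero_iff_all D hd 𝓛.isOpen_top (ptd_isLZ2_res₂ ⊤ 𝓛.isOpen_top ρC hz) e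
    (ptd_isB2_res₂ ⊤ 𝓛.isOpen_top ρC hze)).trans
    ⟨ptn_isB2_of_res₂_top, ptd_isB2_res₂ ⊤ 𝓛.isOpen_top ρC⟩

/-- **`inv_U ∘ res = [G : U] • inv_G`** for all level cocycles of `G`. -/
theorem ptn_invU_res_all (U : Subgroup G) (hU : 𝓛.IsOpen U) {z : G × G → C}
    (hz : ptd_IsLZ2 𝓛 ρC z) :
    ptn_invU D hd U hU (ptd_res₂ U z) = U.index • ptn_invG D hd z := by
  have h := ptn_invU_resLe_all D hd 𝓛.isOpen_top hU le_top
    (ptd_isLZ2_res₂ ⊤ 𝓛.isOpen_top ρC hz)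
  rw [Subgroup.relIndex_top_right] at h
  exact h

end GenAllG

end Fermat.Agent.Lib.PT
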