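/-
**(L-good)**: every `p`-primary level 2-cocycle of `(G_q, Ω_qˣ)` is cohomologous to `a · δχ`,
`a ∈ ℚ_qˣ`, for ANY level character `χ : G_q → ZMod (p^k)` whose image is large enough
(`pti_good`).  Ingredients: the division of a character by the generator of its image
(`pti_charDiv`, same Bockstein cochain), (L-cyc) `pti_invG_cyc_level`, and helper5's (GEN)
additivity / injectivity of `ptn_invG` on all level cocycles.
-/
import Fermat.Agent.Lib.PT.BrauerEvalCyc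
import Fermat.Agent.Lib.PT.BrgGen
import Fermat.Agent.Lib.PT.AbsBock
import Fermat.Agent.Lib.PT.BrgTheta

set_option autoImplicit false
set_option linter.unusedSectionVars false
namespace Fermat.Agent.Lib.PT
open groupCohomology

section CharDiv

variable {G : Type*} [Group G] {n : ℕ} [NeZero n] (d : ℕ)

/-- Division of a character with image `d · ZMod n` by `d`: a character with values in
`ZMod (n / d)`. -/
def pti_charDiv (χ : G → ZMod n) : G → ZMod (n / d) :=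
  fun g => (((χ g).val / d : ℕ) : ZMod (n / d))

variable {d} {χ : G → ZMod n} (hχ : ptd_IsChar χ) (hd : d ∣ n)
  (hdvd : ∀ g, d ∣ (χ g).val)

include hd in
theorem pti_charDiv_d_pos : 0 < d :=
  Nat.pos_of_ne_zero (fun h => NeZero.ne n (by rw [h] at hd; exact Nat.eq_zero_of_zero_dvd hd))

include hd in
theorem pti_charDiv_neZero : NeZero (n / d) :=
  ⟨(Nat.div_pos (Nat.le_of_dvd (Nat.pos_of_ne_zero (NeZero.ne n)) hd)
    (pti_charDiv_d_pos hd)).ne'⟩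

include hd hdvd in
theorem pti_charDiv_lt (g : G) : (χ g).val / d < n / d := by
  have hdpos := pti_charDiv_d_pos hd
  obtain ⟨a, ha⟩ := hdvd g
  obtain ⟨n', hn'⟩ := hd
  have h1 : (χ g).val < n := ZMod.val_lt _
  rw [ha, hn', Nat.mul_div_cancel_left _ hdpos, Nat.mul_div_cancel_left _ hdpos]
  rw [ha, hn'] at h1
  exact lt_of_mul_lt_mul_left h1 (Nat.zero_le d)

include hd hdvd in
theorem pti_charDiv_val (g : G) : (pti_charDiv d χ g).val = (χ g).val / d := by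
  have := pti_charDiv_neZero (n := n) hd
  rw [pti_charDiv, ZMod.val_natCast, Nat.mod_eq_of_lt (pti_charDiv_lt hd hdvd g)]

omit [NeZero n] in
theorem pti_div_mod_aux (n' x y : ℕ) (hd : 0 < d) :
    (d * x + d * y) % (d * n') / d = (x + y) % n' := by
  rw [← Nat.mul_add, Nat.mul_mod_mul_left, Nat.mul_div_cancel_left _ hd]

include hχ hd hdvd in
theorem pti_charDiv_isChar : ptd_IsChar (pti_charDiv d χ) := by
  intro g h
  have hdpos := pti_charDiv_d_pos hd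
  obtain ⟨a, ha⟩ := hdvd g
  obtain ⟨b, hb⟩ := hdvd h
  have hn2 : n = d * (n / d) := (Nat.mul_div_cancel' hd).symm
  have h1 : (χ (g * h)).val = ((χ g).val + (χ h).val) % n := by rw [hχ, ZMod.val_add]
  have h2 : (χ (g * h)).val / d = ((χ g).val / d + (χ h).val / d) % (n / d) := by
    have h3 : ((χ g).val + (χ h).val) % n = (d * a + d * b) % (d * (n / d)) := by
      rw [← hn2, ← ha, ← hb]
    rw [h1, h3, pti_div_mod_aux _ _ _ hdpos, ha, hb, Nat.mul_div_cancel_left _ hdpos,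
      Nat.mul_div_cancel_left _ hdpos]
  simp only [pti_charDiv]
  rw [h2, ZMod.natCast_mod, Nat.cast_add]

include hχ hd hdvd in
/-- The Bockstein cochains of `χ` and `χ / d` coincide. -/
theorem pti_bock_charDiv (x : G × G) : ptd_bock (n / d) (pti_charDiv d χ) x = ptd_bock n χ x := by
  obtain ⟨g, h⟩ := x
  have hdpos := pti_charDiv_d_pos hd
  have hχ' := pti_charDiv_isChar hχ hd hdvd
  have := pti_charDiv_neZero (n := n) hd
  have hn : (n : ℤ) ≠ 0 := by exact_mod_cast (NeZero.ne n)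
  apply mul_left_cancel₀ hn
  rw [pti_mul_bock hχ]
  have h2 := pti_mul_bock hχ' g h
  rw [pti_charDiv_val hd hdvd, pti_charDiv_val hd hdvd, pti_charDiv_val hd hdvd] at h2
  obtain ⟨a, ha⟩ := hdvd g
  obtain ⟨b, hb⟩ := hdvd h
  obtain ⟨c, hc⟩ := hdvd (g * h)
  have hnZ : (n : ℤ) = (d : ℤ) * ((n / d : ℕ) : ℤ) := by
    exact_mod_cast (Nat.mul_div_cancel' hd).symm
  rw [ha, hb, hc, Nat.mul_div_cancel_left _ hdpos, Nat.mul_div_cancel_left _ hdpos,
    Nat.mul_div_cancel_left _ hdpos] at h2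
  rw [ha, hb, hc, hnZ]
  simp only [Nat.cast_mul]
  linear_combination (d : ℤ) * h2

include hd hdvd in
theorem pti_charDiv_eq_zero_iff (g : G) : pti_charDiv d χ g = 0 ↔ χ g = 0 := by
  have hdpos := pti_charDiv_d_pos hd
  have := pti_charDiv_neZero (n := n) hd
  rw [← ZMod.val_eq_zero, pti_charDiv_val hd hdvd, ← ZMod.val_eq_zero (χ g)]
  obtain ⟨a, ha⟩ := hdvd g
  rw [ha, Nat.mul_div_cancel_left _ hdpos]
  constructor
  · intro h; rw [h, mul_zero]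
  · intro h
    rcases Nat.mul_eq_zero.mp h with h | h
    · omega
    · exact h

include hd hdvd in
theorem pti_charDiv_eq_one {g₀ : G} (hg₀ : (χ g₀).val = d) :
    pti_charDiv d χ g₀ = 1 := by
  have hdpos := pti_charDiv_d_pos hd
  rw [pti_charDiv, hg₀, Nat.div_self hdpos, Nat.cast_one]

end CharDiv

section ImageGen

variable {G : Type*} [Group G] {n : ℕ} [NeZero n] {χ : G → ZMod n}

/-- If the image of the character `χ` is generated by `χ g₁ ≠ 0`, it is `d · ZMod n` with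
`d = gcd n (χ g₁).val`, and `d` itself is a value of `χ`. -/
theorem pti_exists_image_gen (hχ : ptd_IsChar χ) (g₁ : G)
    (hgen : ∀ g, ∃ i : ℕ, χ g = i • χ g₁) (ht : χ g₁ ≠ 0) :
    ∃ g₀, (χ g₀).val = Nat.gcd n (χ g₁).val ∧ ∀ g, Nat.gcd n (χ g₁).val ∣ (χ g).val := by
  have hv0 : (χ g₁).val ≠ 0 := fun h => ht ((ZMod.val_eq_zero _).mp h)
  have hvn : (χ g₁).val < n := ZMod.val_lt _
  have hdle : Nat.gcd n (χ g₁).val ≤ (χ g₁).val :=
    Nat.le_of_dvd (Nat.pos_of_ne_zero hv0) (Nat.gcd_dvd_right _ _)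
  have hbez := Nat.gcd_eq_gcd_ab n (χ g₁).val
  have hcast : ((Nat.gcd n (χ g₁).val : ℕ) : ZMod n) =
      χ g₁ * ((Nat.gcdB n (χ g₁).val : ℤ) : ZMod n) := by
    have h := congrArg (fun x : ℤ => (x : ZMod n)) hbez
    simp only [Int.cast_add, Int.cast_mul, Int.cast_natCast, ZMod.natCast_self, zero_mul,
      zero_add, ZMod.natCast_zmod_val] at h
    exact h
  refine ⟨g₁ ^ (((Nat.gcdB n (χ g₁).val : ℤ) : ZMod n)).val, ?_, ?_⟩
  · rw [pti_isChar_pow hχ, nsmul_eq_mul, ZMod.natCast_zmod_val, mul_comm, ← hcast,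
      ZMod.val_natCast, Nat.mod_eq_of_lt (lt_of_le_of_lt hdle hvn)]
  · intro g
    obtain ⟨i, hi⟩ := hgen g
    rw [hi, nsmul_eq_mul]
    have h1 : ((i : ZMod n) * χ g₁).val = (i * (χ g₁).val) % n := by
      conv_lhs => rw [← ZMod.natCast_zmod_val (χ g₁), ← Nat.cast_mul, ZMod.val_natCast]
    rw [h1, Nat.dvd_mod_iff (Nat.gcd_dvd_left _ _)]
    exact Dvd.dvd.mul_left (Nat.gcd_dvd_right _ _) i

theorem pti_addOrderOf_eq (t : ZMod n) : addOrderOf t = n / Nat.gcd n t.val := by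
  conv_lhs => rw [← ZMod.natCast_zmod_val t]
  exact ZMod.addOrderOf_coe t.val (NeZero.ne n)

end ImageGen

section Tors

variable {p : ℕ} [hp : Fact p.Prime]

theorem pti_frac_eq_of_dvd_sub (x x' : ℤ) (n : ℕ) (hn : n ≠ 0) (h : (n : ℤ) ∣ x - x') :
    ptn_frac p x n = ptn_frac p x' n := by
  rw [← sub_eq_zero, ← ptn_frac_sub, ptn_frac_eq_zero_iff _ _ hn]
  exact dvd_trans (by exact_mod_cast Nat.ordProj_dvd n p) h

/-- Every `p^e`-torsion element of `ℚ / ℤ_(p)` is `k / p^e`. -/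
theorem pti_exists_frac_of_pow_tors (t : ptn_T p) (e : ℕ) (ht : p ^ e • t = 0) :
    ∃ k : ℤ, t = ptn_frac p k (p ^ e) := by
  obtain ⟨r, rfl⟩ := QuotientAddGroup.mk_surjective t
  rw [← QuotientAddGroup.mk_nsmul, QuotientAddGroup.eq_zero_iff] at ht
  obtain ⟨m, hm, j, hj⟩ := ht
  have hpe : p ^ e ≠ 0 := pow_ne_zero e hp.out.ne_zero
  have hm0 : (m : ℚ) ≠ 0 := by
    have : m ≠ 0 := fun h0 => hm (h0 ▸ dvd_zero p)
    exact_mod_cast this
  have hpeQ : ((p ^ e : ℕ) : ℚ) ≠ 0 := by exact_mod_cast hpe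
  have hr : (QuotientAddGroup.mk r : ptn_T p) = ptn_frac p j (m * p ^ e) := by
    unfold ptn_frac
    congr 1
    rw [nsmul_eq_mul] at hj
    push_cast at hj hpeQ ⊢
    field_simp
    linear_combination hj
  have hcop : IsCoprime (m : ℤ) ((p ^ e : ℕ) : ℤ) := by
    rw [Int.isCoprime_iff_gcd_eq_one, Int.gcd_natCast_natCast]
    exact Nat.Coprime.pow_right _ ((Nat.Prime.coprime_iff_not_dvd hp.out).mpr hm).symm
  obtain ⟨u, v, huv⟩ := hcop
  refine ⟨u * j, ?_⟩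
  rw [hr]
  have h1 := ptn_frac_eq_of_dvd (p := p) j (u * j) m 1 (p ^ e) hpe hm
    (by simpa using hp.out.one_lt.ne') ?_
  · rwa [one_mul] at h1
  · rw [Nat.Prime.factorization_pow hp.out, Finsupp.single_eq_same]
    refine ⟨v * j, ?_⟩
    push_cast at huv ⊢
    linear_combination (-j) * huv

end Tors

section Good

variable (q : ℕ) [Fact q.Prime] (p : ℕ) [hp : Fact p.Prime]

theorem pti_unitsRep_algebraMap (g : PadicAlgCl q ≃ₐ[ℚ_[q]] PadicAlgCl q) (a : ℚ_[q]ˣ) :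
    ptg_unitsRep q g (Additive.ofMul
      (Units.map (algebraMap ℚ_[q] (PadicAlgCl q) : ℚ_[q] →* PadicAlgCl q) a)) =
    Additive.ofMul (Units.map (algebraMap ℚ_[q] (PadicAlgCl q) : ℚ_[q] →* PadicAlgCl q) a) := by
  apply congrArg Additive.ofMul
  exact Units.ext (g.commutes (a : ℚ_[q]))

/-- **(L-good)**: a level 2-cocycle `z` of `(G_q, Ω_qˣ)` with `p^e • z ∼ 0` is cohomologous to
`a · δχ`, `a ∈ ℚ_qˣ`, for any level character `χ : G_q → ZMod (p^k)` with image `d · ZMod (p^k)`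
of order `p^k / d` divisible by `p^e`. -/
theorem pti_good (k e : ℕ) {χ : (PadicAlgCl q ≃ₐ[ℚ_[q]] PadicAlgCl q) → ZMod (p ^ k)}
    (hχ : ptd_IsChar χ) (hlev : ptd_IsLev₁ (ptg_levels q) χ) {d : ℕ} (hd : d ∣ p ^ k)
    (hdvd : ∀ g, d ∣ (χ g).val) {g₀ : PadicAlgCl q ≃ₐ[ℚ_[q]] PadicAlgCl q}
    (hg₀ : (χ g₀).val = d) (he : p ^ e ∣ p ^ k / d)
    {z : (PadicAlgCl q ≃ₐ[ℚ_[q]] PadicAlgCl q) × (PadicAlgCl q ≃ₐ[ℚ_[q]] PadicAlgCl q) →
      Additive (PadicAlgCl q)ˣ}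
    (hz : ptd_IsLZ2 (ptg_levels q) (ptg_unitsRep q) z)
    (hze : ptd_IsB2 (ptg_levels q) (ptg_unitsRep q) (p ^ e • z)) :
    ∃ a : ℚ_[q]ˣ, ptd_IsB2 (ptg_levels q) (ptg_unitsRep q)
      (z - ptd_bockSmul (p ^ k) χ (Additive.ofMul
        (Units.map (algebraMap ℚ_[q] (PadicAlgCl q) : ℚ_[q] →* PadicAlgCl q) a))) := by
  have hn0 : NeZero (p ^ k) := ⟨pow_ne_zero k hp.out.ne_zero⟩
  have hn'0 : NeZero (p ^ k / d) := pti_charDiv_neZero hd
  have hdpos := pti_charDiv_d_pos hd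
  have hχ' := pti_charDiv_isChar hχ hd hdvd
  have hlev' : ptd_IsLev₁ (ptg_levels q) (pti_charDiv d χ) :=
    hlev.comp (fun x : ZMod (p ^ k) => (((x.val / d : ℕ)) : ZMod (p ^ k / d)))
  have hbs : ∀ c : Additive (PadicAlgCl q)ˣ,
      ptd_bockSmul (p ^ k) χ c = ptd_bockSmul (p ^ k / d) (pti_charDiv d χ) c := by
    intro c
    funext x
    show ptd_bock (p ^ k) χ x • c = ptd_bock (p ^ k / d) (pti_charDiv d χ) x • c
    rw [pti_bock_charDiv hχ hd hdvd]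
  by_cases h1 : p ^ k / d = 1
  · -- trivial image: `e = 0`
    rw [h1, Nat.dvd_one] at he
    rw [he, one_smul] at hze
    refine ⟨1, ?_⟩
    have : ptd_bockSmul (p ^ k) χ (Additive.ofMul
        (Units.map (algebraMap ℚ_[q] (PadicAlgCl q) : ℚ_[q] →* PadicAlgCl q) 1)) = 0 := by
      funext x
      show ptd_bock (p ^ k) χ x • Additive.ofMul _ = 0
      rw [map_one, ofMul_one, smul_zero]
    rw [this, sub_zero]
    exact hze
  have h1' : 1 < p ^ k / d := by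
    have := Nat.pos_of_ne_zero (NeZero.ne (p ^ k / d))
    omega
  have hone : pti_charDiv d χ g₀ = 1 := pti_charDiv_eq_one hd hdvd hg₀
  have hsurj : Function.Surjective (pti_charDiv d χ) := by
    intro y
    refine ⟨g₀ ^ y.val, ?_⟩
    rw [pti_isChar_pow hχ', hone, nsmul_eq_mul, mul_one, ZMod.natCast_zmod_val]
  obtain ⟨κ, hκsurj, -, hκ⟩ := pti_invG_cyc_level q p hχ' hlev' hsurj
  -- the invariant of `z`
  have ht : p ^ e • ptn_invG (pti_localLevelData q p) (ptg_isDiscrete_units q) z = 0 := by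
    rw [← ptn_invG_nsmul_all _ _ hz]
    exact (ptn_invG (pti_localLevelData q p) (ptg_isDiscrete_units q)).map_b2' _ hze
  obtain ⟨k₁, hk₁⟩ := pti_exists_frac_of_pow_tors _ e ht
  obtain ⟨m', hm'⟩ := he
  have hm'0 : m' ≠ 0 := by
    rintro rfl
    rw [mul_zero] at hm'
    exact (NeZero.ne _) hm'
  obtain ⟨a, ha⟩ := hκsurj (Multiplicative.ofAdd (((k₁ * m' : ℤ)) : ZMod (p ^ k / d)))
  refine ⟨a, ?_⟩
  have hfix := pti_unitsRep_algebraMap q
  have hw : ptd_IsLZ2 (ptg_levels q) (ptg_unitsRep q) (ptd_bockSmul (p ^ k / d) (pti_charDiv d χ)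
      (Additive.ofMul (Units.map (algebraMap ℚ_[q] (PadicAlgCl q) : ℚ_[q] →* PadicAlgCl q) a))) :=
    ⟨ptn_isZ2_bockSmul hχ' (fun g => hfix g a), ptn_isLev₂_bockSmul hlev' _⟩
  rw [hbs]
  have hinv0 : ptn_invG (pti_localLevelData q p) (ptg_isDiscrete_units q)
      (z - ptd_bockSmul (p ^ k / d) (pti_charDiv d χ)
        (Additive.ofMul (Units.map (algebraMap ℚ_[q] (PadicAlgCl q) : ℚ_[q] →* PadicAlgCl q) a))) =
      0 := by
    rw [ptn_invG_sub_all _ _ hz hw, hκ a, ha, hk₁, sub_eq_zero, hm',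
      ← ptn_frac_mul_right k₁ (p ^ e) m' hm'0]
    apply pti_frac_eq_of_dvd_sub
    · exact mul_ne_zero (pow_ne_zero e hp.out.ne_zero) hm'0
    · rw [toAdd_ofAdd, ← hm', ZMod.val_intCast]
      exact ⟨(k₁ * m') / ((p ^ k / d : ℕ) : ℤ), by
        have := Int.mul_ediv_add_emod (k₁ * (m' : ℤ)) ((p ^ k / d : ℕ) : ℤ)
        linarith⟩
  refine (ptn_invG_eq_zero_iff_all (pti_localLevelData q p) (ptg_isDiscrete_units q)
    (hz.sub hw) (e + k) ?_).mp hinv0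
  have hB1 := hze.nsmul (p ^ k)
  have hB2 := (ptn_isB2_nsmul_bockSmul (𝓛 := ptg_levels q) hχ' hlev'
    (fun g => hfix g a)).nsmul (p ^ e * d)
  have hB := hB1.sub hB2
  convert hB using 1
  have e1 : p ^ (e + k) = p ^ k * p ^ e := by rw [pow_add, mul_comm]
  have e2 : p ^ (e + k) = p ^ e * d * (p ^ k / d) := by
    rw [mul_assoc, Nat.mul_div_cancel' hd, pow_add]
  rw [nsmul_sub, ← mul_nsmul', ← mul_nsmul', ← e1, ← e2]

/-- **(L-good)** when the image of `χ` is generated by `χ g₁` of additive order divisible by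
`p^e`. -/
theorem pti_good_of_gen (k e : ℕ) {χ : (PadicAlgCl q ≃ₐ[ℚ_[q]] PadicAlgCl q) → ZMod (p ^ k)}
    (hχ : ptd_IsChar χ) (hlev : ptd_IsLev₁ (ptg_levels q) χ)
    (g₁ : PadicAlgCl q ≃ₐ[ℚ_[q]] PadicAlgCl q) (hgen : ∀ g, ∃ i : ℕ, χ g = i • χ g₁)
    (he : p ^ e ∣ addOrderOf (χ g₁))
    {z : (PadicAlgCl q ≃ₐ[ℚ_[q]] PadicAlgCl q) × (PadicAlgCl q ≃ₐ[ℚ_[q]] PadicAlgCl q) →
      Additive (PadicAlgCl q)ˣ}
    (hz : ptd_IsLZ2 (ptg_levels q) (ptg_unitsRep q) z)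
    (hze : ptd_IsB2 (ptg_levels q) (ptg_unitsRep q) (p ^ e • z)) :
    ∃ a : ℚ_[q]ˣ, ptd_IsB2 (ptg_levels q) (ptg_unitsRep q)
      (z - ptd_bockSmul (p ^ k) χ (Additive.ofMul
        (Units.map (algebraMap ℚ_[q] (PadicAlgCl q) : ℚ_[q] →* PadicAlgCl q) a))) := by
  have hn0 : NeZero (p ^ k) := ⟨pow_ne_zero k hp.out.ne_zero⟩
  by_cases ht : χ g₁ = 0
  · rw [ht, addOrderOf_zero, Nat.dvd_one] at he
    rw [he, one_smul] at hze
    refine ⟨1, ?_⟩
    have : ptd_bockSmul (p ^ k) χ (Additive.ofMul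
        (Units.map (algebraMap ℚ_[q] (PadicAlgCl q) : ℚ_[q] →* PadicAlgCl q) 1)) = 0 := by
      funext x
      show ptd_bock (p ^ k) χ x • Additive.ofMul _ = 0
      rw [map_one, ofMul_one, smul_zero]
    rw [this, sub_zero]
    exact hze
  · obtain ⟨g₀, hg₀, hdvd⟩ := pti_exists_image_gen hχ g₁ hgen ht
    rw [pti_addOrderOf_eq] at he
    exact pti_good q p k e hχ hlev (Nat.gcd_dvd_left _ _) hdvd hg₀ he hz hze

/-- **(L-good)** for a surjective level character `χ : G_q → ZMod (p^k)`, `e ≤ k`. -/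
theorem pti_good_surj (k e : ℕ) (hek : e ≤ k)
    {χ : (PadicAlgCl q ≃ₐ[ℚ_[q]] PadicAlgCl q) → ZMod (p ^ k)}
    (hχ : ptd_IsChar χ) (hlev : ptd_IsLev₁ (ptg_levels q) χ) (hsurj : Function.Surjective χ)
    {z : (PadicAlgCl q ≃ₐ[ℚ_[q]] PadicAlgCl q) × (PadicAlgCl q ≃ₐ[ℚ_[q]] PadicAlgCl q) →
      Additive (PadicAlgCl q)ˣ}
    (hz : ptd_IsLZ2 (ptg_levels q) (ptg_unitsRep q) z)
    (hze : ptd_IsB2 (ptg_levels q) (ptg_unitsRep q) (p ^ e • z)) :
    ∃ a : ℚ_[q]ˣ, ptd_IsB2 (ptg_levels q) (ptg_unitsRep q)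
      (z - ptd_bockSmul (p ^ k) χ (Additive.ofMul
        (Units.map (algebraMap ℚ_[q] (PadicAlgCl q) : ℚ_[q] →* PadicAlgCl q) a))) := by
  have hn0 : NeZero (p ^ k) := ⟨pow_ne_zero k hp.out.ne_zero⟩
  obtain ⟨g₁, hg₁⟩ := hsurj 1
  refine pti_good_of_gen q p k e hχ hlev g₁ (fun g => ⟨(χ g).val, ?_⟩) ?_ hz hze
  · rw [hg₁, nsmul_eq_mul, mul_one, ZMod.natCast_zmod_val]
  · rw [hg₁, ZMod.addOrderOf_one]
    exact pow_dvd_pow p hek

section Unr

variable (L : IntermediateField ℚ_[q] (PadicAlgCl q)) [FiniteDimensional ℚ_[q] L]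
  [IsGalois ℚ_[q] L] (hinj : Function.Injective (ptl_galRes q ℚ_[q] L))

attribute [local instance] pti_isScalarTower_top pti_finiteDimensional_L

/-- An unramified character is determined by its value on a Frobenius lift. -/
theorem pti_unr_char_gen {n : ℕ} [NeZero n]
    {χ : (PadicAlgCl q ≃ₐ[ℚ_[q]] PadicAlgCl q) → ZMod n} (hχ : ptd_IsChar χ)
    (hχL : ∀ g ∈ L.fixingSubgroup, χ g = 0) (φ : PadicAlgCl q ≃ₐ[ℚ_[q]] PadicAlgCl q)
    (hφ : AlgEquiv.restrictNormalHom (F := ℚ_[q]) ↥L φ = ptl_frob q ℚ_[q] L hinj)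
    (g : PadicAlgCl q ≃ₐ[ℚ_[q]] PadicAlgCl q) : ∃ i : ℕ, χ g = i • χ φ := by
  obtain ⟨i, -, hi⟩ := ptl_exists_pow_eq (ptl_frob_generates q ℚ_[q] L hinj)
    (ptl_orderOf_frob_pos q ℚ_[q] L hinj) (AlgEquiv.restrictNormalHom (F := ℚ_[q]) ↥L g)
  refine ⟨i, ?_⟩
  have h1 : (φ ^ i)⁻¹ * g ∈ L.fixingSubgroup := by
    rw [← IntermediateField.restrictNormalHom_ker L, MonoidHom.mem_ker, map_mul, map_inv, map_pow,
      hφ, hi, inv_mul_cancel]
  have h2 := hχL _ h1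
  rw [hχ, pti_isChar_inv hχ, pti_isChar_pow hχ] at h2
  rw [← sub_eq_zero, ← h2]
  abel

/-- **(L-good)** for an unramified character `χ` (trivial on `Gal(Ω_q/L)`, `L/ℚ_q` unramified)
whose value on a Frobenius lift `φ` has additive order divisible by `p^e`. -/
theorem pti_good_unr (k e : ℕ) {χ : (PadicAlgCl q ≃ₐ[ℚ_[q]] PadicAlgCl q) → ZMod (p ^ k)}
    (hχ : ptd_IsChar χ) (hχL : ∀ g ∈ L.fixingSubgroup, χ g = 0)
    (φ : PadicAlgCl q ≃ₐ[ℚ_[q]] PadicAlgCl q)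
    (hφ : AlgEquiv.restrictNormalHom (F := ℚ_[q]) ↥L φ = ptl_frob q ℚ_[q] L hinj)
    (he : p ^ e ∣ addOrderOf (χ φ))
    {z : (PadicAlgCl q ≃ₐ[ℚ_[q]] PadicAlgCl q) × (PadicAlgCl q ≃ₐ[ℚ_[q]] PadicAlgCl q) →
      Additive (PadicAlgCl q)ˣ}
    (hz : ptd_IsLZ2 (ptg_levels q) (ptg_unitsRep q) z)
    (hze : ptd_IsB2 (ptg_levels q) (ptg_unitsRep q) (p ^ e • z)) :
    ∃ a : ℚ_[q]ˣ, ptd_IsB2 (ptg_levels q) (ptg_unitsRep q)
      (z - ptd_bockSmul (p ^ k) χ (Additive.ofMul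
        (Units.map (algebraMap ℚ_[q] (PadicAlgCl q) : ℚ_[q] →* PadicAlgCl q) a))) := by
  have hn0 : NeZero (p ^ k) := ⟨pow_ne_zero k hp.out.ne_zero⟩
  have hlev : ptd_IsLev₁ (ptg_levels q) χ := by
    obtain ⟨N, hN, hNL⟩ := ptg_isOpen_fixingSubgroup q L
    refine ⟨N, hN, fun g n hn => ?_⟩
    rw [hχ, hχL n (hNL hn), add_zero]
  exact pti_good_of_gen q p k e hχ hlev φ (pti_unr_char_gen q L hinj hχ hχL φ hφ) he hz hze

end Unr

end Good

end Fermat.Agent.Lib.PT
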