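/-
`p`-primary (more generally `t`-primary) injectivity of inflation in degree 2: if every 1-cocycle
`z` of `ker π` has `z ^ t` a coboundary, then a 2-cocycle `φ` of `Q` whose inflation to `G`
splits has `φ ^ t` split (`pti_mul_inf_injective_pow`).  Cochain-level core
`pti_inf_injective_core'` (the kernel cocycle `s ↦ y s - ι (φ (1,1))` only has to be a
coboundary) and `pti_ker_cocycle`.
-/
import Fermat.Agent.Lib.PT.BrauerMul
import Fermat.Agent.Lib.PT.LocCycCoh

set_option autoImplicit false
set_option linter.unusedSectionVars false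

namespace Fermat.Agent.Lib.PT

open groupCohomology

section Core

variable {k G Q V W : Type*} [CommRing k] [Group G] [Group Q] [AddCommGroup V] [Module k V]
  [AddCommGroup W] [Module k W] {ρ : Representation k G V} {ρQ : Representation k Q W}

/-- If `inf φ = d y`, then `s ↦ y s - ι (φ (1,1))` is a 1-cocycle on `ker π`. -/
theorem pti_ker_cocycle (π : G →* Q) (ι : W →ₗ[k] V)
    (hcomm : ∀ g w, ι (ρQ (π g) w) = ρ g (ι w))
    {φ : Q × Q → W} (y : G → V)
    (hy : ∀ g h, ι (φ (π g, π h)) = pti_dOne ρ y (g, h)) (s t : π.ker) :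
    y ((s * t : π.ker) : G) - ι (φ (1, 1)) =
      ρ s (y (t : G) - ι (φ (1, 1))) + (y (s : G) - ι (φ (1, 1))) := by
  have hker : ∀ s ∈ π.ker, π s = 1 := fun s hs => hs
  have hcinv : ∀ s ∈ π.ker, ρ s (ι (φ (1, 1))) = ι (φ (1, 1)) := by
    intro s hs
    rw [← hcomm, hker s hs, map_one, Module.End.one_apply]
  have h1 := hy s t
  rw [hker s s.2, hker t t.2, pti_dOne_apply] at h1
  simp only [Subgroup.coe_mul, map_sub, hcinv s s.2]
  have : y ((s : G) * (t : G)) = ρ s (y t) + y s - ι (φ (1, 1)) := by rw [h1]; abel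
  rw [this]; abel

/-- Injectivity of inflation in degree 2, cochain level: it suffices that the single kernel
cocycle `s ↦ y s - ι (φ (1,1))` is a coboundary. -/
theorem pti_inf_injective_core' (π : G →* Q) (hπ : Function.Surjective π) (ι : W →ₗ[k] V)
    (hι : Function.Injective ι) (hcomm : ∀ g w, ι (ρQ (π g) w) = ρ g (ι w))
    (hrange : ∀ v : V, (∀ s ∈ π.ker, ρ s v = v) → ∃ w, ι w = v)
    {φ : Q × Q → W} (hφ : pti_IsCoc₂ ρQ φ) (y : G → V)
    (hy : ∀ g h, ι (φ (π g, π h)) = pti_dOne ρ y (g, h))
    (hzb : ∃ b : V, ∀ s : π.ker, y (s : G) - ι (φ (1, 1)) = ρ s b - b) :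
    ∃ w : Q → W, φ = pti_dOne ρQ w := by
  -- normalisations of `φ`
  have hφ1 : ∀ q, φ (1, q) = φ (1, 1) := by
    intro q
    have := hφ 1 1 q
    simp only [one_mul, map_one, Module.End.one_apply] at this
    exact (add_left_cancel this).symm
  have hφ2 : ∀ q, φ (q, 1) = ρQ q (φ (1, 1)) := by
    intro q
    have := hφ q 1 1
    simp only [mul_one] at this
    exact add_right_cancel this
  set c : V := ι (φ (1, 1)) with hc
  have hker : ∀ s ∈ π.ker, π s = 1 := fun s hs => hs
  have hcinv : ∀ s ∈ π.ker, ρ s c = c := by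
    intro s hs
    rw [hc, ← hcomm, hker s hs, map_one, Module.End.one_apply]
  obtain ⟨b, hb⟩ := hzb
  obtain ⟨y', hy'def⟩ : ∃ y' : G → V, y' = fun g => y g - (ρ g b - b) := ⟨_, rfl⟩
  have hy' : ∀ g h, ι (φ (π g, π h)) = pti_dOne ρ y' (g, h) := by
    intro g h
    rw [hy g h]
    simp only [pti_dOne_apply, hy'def, map_sub, map_mul, Module.End.mul_apply]
    abel
  have hy's : ∀ s ∈ π.ker, y' s = c := by
    intro s hs
    have := hb ⟨s, hs⟩
    simp only at this
    simp only [hy'def]
    rw [← this]; abel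
  have hright : ∀ g, ∀ s ∈ π.ker, y' (g * s) = y' g := by
    intro g s hs
    have h1 := hy' g s
    rw [hker s hs, hφ2, hcomm, ← hc, pti_dOne_apply, hy's s hs] at h1
    have : y' (g * s) = y' g + (ρ g c - (ρ g c - y' (g * s) + y' g)) := by abel
    rw [this, ← h1]; abel
  have hinv : ∀ g, ∀ s ∈ π.ker, ρ s (y' g) = y' g := by
    intro g s hs
    have h1 := hy' s g
    rw [hker s hs, hφ1, ← hc, pti_dOne_apply, hy's s hs] at h1
    have h2 : y' (s * g) = y' g := by
      have e : s * g = g * (g⁻¹ * s * g) := by group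
      have hc' : g⁻¹ * s * g ∈ π.ker := by
        have := Subgroup.Normal.conj_mem (inferInstance : π.ker.Normal) s hs g⁻¹
        simpa using this
      rw [e, hright g _ hc']
    rw [h2] at h1
    have : ρ s (y' g) = (ρ s (y' g) - y' g + c) + (y' g - c) := by abel
    rw [this, ← h1]; abel
  have hdep : ∀ g g' : G, π g = π g' → y' g = y' g' := by
    intro g g' hg
    have h1 : g⁻¹ * g' ∈ π.ker := by
      rw [MonoidHom.mem_ker, map_mul, map_inv, hg, inv_mul_cancel]
    have e1 : g' = g * (g⁻¹ * g') := by group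
    rw [e1, hright _ _ h1]
  have hex : ∀ q : Q, ∃ w : W, ι w = y' (Function.surjInv hπ q) := fun q => hrange _ (hinv _)
  choose w hw using hex
  have hw' : ∀ g, ι (w (π g)) = y' g := by
    intro g
    rw [hw]
    exact hdep _ _ (Function.surjInv_eq hπ _)
  refine ⟨w, ?_⟩
  funext ⟨q, q'⟩
  obtain ⟨g, rfl⟩ := hπ q
  obtain ⟨h, rfl⟩ := hπ q'
  apply hι
  rw [hy' g h, pti_dOne_apply, pti_dOne_apply, map_add, map_sub, hcomm, ← map_mul, hw', hw', hw']


end Core

section Mul

variable {G Q : Type*} [Group G] [Group Q] {A B : Type*} [CommGroup A] [CommGroup B]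
  [MulDistribMulAction G A] [MulDistribMulAction Q B]
  (π : G →* Q) (hπ : Function.Surjective π) (ι : B →* A) (hι : Function.Injective ι)
  (hcomm : ∀ g b, ι (π g • b) = g • ι b)
  (hrange : ∀ a : A, (∀ s ∈ π.ker, s • a = a) → ∃ b, ι b = a)

include hπ hι hcomm hrange

/-- **`t`-primary injectivity of inflation in degree 2**: if `z ^ t` is a coboundary for every
1-cocycle `z` of `ker π`, and the inflation of the 2-cocycle `φ` splits, then `φ ^ t` splits. -/
theorem pti_mul_inf_injective_pow (t : ℕ)
    (hS : ∀ z : π.ker → A, IsMulCocycle₁ z → IsMulCoboundary₁ (z ^ t))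
    {φ : Q × Q → B} (hφ : IsMulCocycle₂ φ)
    (h : IsMulCoboundary₂ (fun p : G × G => ι (φ (π p.1, π p.2)))) :
    IsMulCoboundary₂ (φ ^ t) := by
  obtain ⟨x, hx⟩ := h
  -- additive data
  have hcommA : ∀ (g : G) (b : Additive B), ι.toAdditive.toIntLinearMap
      (Representation.ofMulDistribMulAction Q B (π g) b) =
      Representation.ofMulDistribMulAction G A g (ι.toAdditive.toIntLinearMap b) :=
    fun g b => congrArg Additive.ofMul (hcomm g (Additive.toMul b))
  have hy : ∀ g h, ι.toAdditive.toIntLinearMap ((fun p => Additive.ofMul (φ p)) (π g, π h)) =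
      pti_dOne (Representation.ofMulDistribMulAction G A) (fun g => Additive.ofMul (x g)) (g, h) :=
    fun g h => (congrArg Additive.ofMul (hx g h)).symm
  -- the kernel cocycle
  have hz : IsMulCocycle₁ (fun s : π.ker => x (s : G) / ι (φ (1, 1))) := by
    intro s s'
    exact congrArg Additive.toMul (pti_ker_cocycle
      (ρ := Representation.ofMulDistribMulAction G A)
      (ρQ := Representation.ofMulDistribMulAction Q B) π ι.toAdditive.toIntLinearMap hcommA
      (φ := fun p => Additive.ofMul (φ p)) (fun g => Additive.ofMul (x g)) hy s s')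
  obtain ⟨b, hb⟩ := hS _ hz
  -- apply the core to `t • φ`, `t • y`
  have hφt : pti_IsCoc₂ (Representation.ofMulDistribMulAction Q B)
      (fun p => Additive.ofMul ((φ ^ t) p)) := pti_isCoc₂_ofMul (ptl_isMulCocycle₂_pow hφ t)
  obtain ⟨w, hw⟩ := pti_inf_injective_core'
    (ρ := Representation.ofMulDistribMulAction G A)
    (ρQ := Representation.ofMulDistribMulAction Q B) π hπ ι.toAdditive.toIntLinearMap
    (fun a b hab => hι hab) hcommA
    (fun a ha => by
      obtain ⟨b, hb⟩ := hrange (Additive.toMul a)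
        (fun s hs => congrArg Additive.toMul (ha s hs))
      exact ⟨Additive.ofMul b, congrArg Additive.ofMul hb⟩)
    hφt (fun g => Additive.ofMul (x g ^ t))
    (fun g h => by
      have hx' : g • x h / x (g * h) * x g = ι (φ (π g, π h)) := hx g h
      show Additive.ofMul (ι (φ (π g, π h) ^ t)) =
        Additive.ofMul (g • (x h ^ t) / x (g * h) ^ t * x g ^ t)
      rw [map_pow, ← hx', mul_pow, div_pow, smul_pow'])
    ⟨Additive.ofMul b, fun s => by
      have := hb s
      show Additive.ofMul (x (s : G) ^ t / ι ((φ ^ t) (1, 1))) = Additive.ofMul ((s : G) • b / b)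
      rw [Pi.pow_apply, map_pow, ← div_pow]
      exact congrArg Additive.ofMul this.symm⟩
  exact ⟨fun q => Additive.toMul (w q), fun q q' =>
    (congrArg Additive.toMul (congrFun hw (q, q'))).symm⟩

end Mul

end Fermat.Agent.Lib.PT
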