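/-
S55 (Poitou–Tate), local Brauer side (helper9, prefix `pti_`): **(C1) LOCAL RAMIFICATION
CRITERION** (lead ruling (G8.C)).  If, for a level character `χ : V → ZMod p` of an open subgroup
`V ≤ G_q = Gal(Ω_q/ℚ_q)`, `q ≠ p`, all cocycles `u · δχ` with `u` a `V`-invariant UNIT of `Ω_q`
are level coboundaries, then `χ` kills every element of `V` acting trivially on the residue
field (i.e. the fixed field of `ker χ` is unramified over `Ω_q^V`).

* finite level: `pti_f_eq_one_of_trivial` (trivial action on the residue field and degree prime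
  to `q` ⇒ `f = 1`), `pti_exists_unit_not_norm` (cyclic, `f = 1`, degree `> 1` ⇒ some unit of `K`
  is not a norm);
* generic big form `pti_exists_unit_not_norm_generic`, local big model
  `pti_exists_unit_not_norm_model`;
* `pti_char_eq_zero_of_units_isB2`: the criterion.
-/
import Fermat.Agent.Lib.PT.BridgeO
import Fermat.Agent.Lib.PT.ClsLocal
import Fermat.Agent.Lib.PT.LocUnr

set_option autoImplicit false
set_option linter.unusedSectionVars false

namespace Fermat.Agent.Lib.PT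

section FiniteLevel

variable (q : ℕ) [Fact q.Prime]
variable (K L : Type*) [Field K] [Algebra ℚ_[q] K] [FiniteDimensional ℚ_[q] K]
  [Field L] [Algebra ℚ_[q] L] [FiniteDimensional ℚ_[q] L] [Algebra K L]
  [IsScalarTower ℚ_[q] K L]

variable {K L} in
/-- an automorphism acts trivially on the residue field iff it moves integers by less than `1` -/
theorem pti_galRes_eq_one_iff (σ : L ≃ₐ[K] L) :
    ptl_galRes q K L σ = 1 ↔
      ∀ x : L, ptl_abs q L x ≤ 1 → ptl_abs q L (σ x - x) < 1 := by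
  constructor
  · intro h x hx
    have h1 := congrArg (fun φ => φ (IsLocalRing.residue (ptl_O q L) ⟨x, hx⟩)) h
    simp only [ptl_galRes_residue, AlgEquiv.one_apply] at h1
    rw [← sub_eq_zero, ← map_sub, IsLocalRing.residue_eq_zero_iff, ptl_mem_maximalIdeal] at h1
    exact h1
  · intro h
    ext xb
    obtain ⟨x, rfl⟩ := IsLocalRing.residue_surjective xb
    rw [ptl_galRes_residue, AlgEquiv.one_apply, ← sub_eq_zero, ← map_sub,
      IsLocalRing.residue_eq_zero_iff, ptl_mem_maximalIdeal]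
    exact h (x : L) x.2

/-- If `Gal(L/K)` acts trivially on the residue field of `L` and `[L:K]` is prime to `q`, then
the residue field extension is trivial: `f = 1`. -/
theorem pti_f_eq_one_of_trivial [FiniteDimensional K L] [IsGalois K L]
    (hn : Nat.Coprime (Module.finrank K L) q)
    (htriv : ∀ σ : L ≃ₐ[K] L, ∀ x : L, ptl_abs q L x ≤ 1 → ptl_abs q L (σ x - x) < 1) :
    ptl_f q K L = 1 := by
  classical
  set n := Module.finrank K L with hndef
  have hcard : Fintype.card (L ≃ₐ[K] L) = n :=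
    Fintype.card_eq_nat_card.trans (IsGalois.card_aut_eq_finrank K L)
  -- `n` is a unit of `O_K`
  have hnO : ((n : ℕ) : K) ∈ ptl_O q K := by
    rw [ptl_mem_O]; exact ptl_abs_natCast_le_one q n
  have hnunit : IsUnit (⟨((n : ℕ) : K), hnO⟩ : ptl_O q K) := by
    rw [ptl_isUnit_iff]
    exact ptl_abs_natCast_of_coprime q hn
  have hsurj : Function.Surjective (algebraMap (ptl_k q K) (ptl_k q L)) := by
    intro xb
    obtain ⟨x, rfl⟩ := IsLocalRing.residue_surjective xb
    set t := ptl_traceO q K L x with ht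
    have h1 := ptl_algebraMap_traceO q K L x
    -- `∑ σ x - n x ∈ m_L`
    have h2 : algebraMap (ptl_O q K) (ptl_O q L) t - (n : ℕ) • x ∈
        IsLocalRing.maximalIdeal (ptl_O q L) := by
      rw [h1]
      have h3 : (∑ σ : L ≃ₐ[K] L, ptl_galO q σ x) - (n : ℕ) • x =
          ∑ σ : L ≃ₐ[K] L, (ptl_galO q σ x - x) := by
        rw [Finset.sum_sub_distrib, Finset.sum_const, Finset.card_univ, hcard]
      rw [h3]
      refine Ideal.sum_mem _ (fun σ _ => ?_)
      rw [ptl_mem_maximalIdeal]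
      exact htriv σ (x : L) x.2
    have h4 : IsLocalRing.residue (ptl_O q L) (algebraMap (ptl_O q K) (ptl_O q L) t) =
        IsLocalRing.residue (ptl_O q L) ((n : ℕ) • x) := by
      rw [← sub_eq_zero, ← map_sub, IsLocalRing.residue_eq_zero_iff]
      exact h2
    obtain ⟨u, hu⟩ := hnunit
    refine ⟨IsLocalRing.residue (ptl_O q K) (((u⁻¹ : (ptl_O q K)ˣ) : ptl_O q K) * t), ?_⟩
    rw [ptl_algebraMap_k_residue, map_mul, map_mul, h4]
    have h5 : (n : ℕ) • x = algebraMap (ptl_O q K) (ptl_O q L) (u : ptl_O q K) * x := by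
      rw [hu, nsmul_eq_mul]
      congr 1
      ext
      rw [ptl_coe_algebraMap_O]
      simp
    have h6 : algebraMap (ptl_O q K) (ptl_O q L) ((u⁻¹ : (ptl_O q K)ˣ) : ptl_O q K) *
        algebraMap (ptl_O q K) (ptl_O q L) (u : ptl_O q K) = 1 := by
      rw [← map_mul, Units.inv_mul, map_one]
    rw [h5, ← map_mul, ← mul_assoc, h6, one_mul]
  -- a surjective `algebraMap` of fields has `finrank = 1`
  have hbij : Function.Bijective (Algebra.linearMap (ptl_k q K) (ptl_k q L)) :=
    ⟨(algebraMap (ptl_k q K) (ptl_k q L)).injective, hsurj⟩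
  have := (LinearEquiv.ofBijective (Algebra.linearMap (ptl_k q K) (ptl_k q L)) hbij).finrank_eq
  rw [Module.finrank_self] at this
  exact this.symm

end FiniteLevel

section FiniteLevel0

variable (q : ℕ) [Fact q.Prime]
variable (K L : Type) [Field K] [Algebra ℚ_[q] K] [FiniteDimensional ℚ_[q] K]
  [Field L] [Algebra ℚ_[q] L] [FiniteDimensional ℚ_[q] L] [Algebra K L]
  [IsScalarTower ℚ_[q] K L]

/-- In a cyclic extension `L/K` of degree `> 1` with trivial residue field extension (`f = 1`)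
some unit of `K` is not a norm. -/
theorem pti_exists_unit_not_norm [FiniteDimensional K L] [IsGalois K L]
    (σ : L ≃ₐ[K] L) (hσ : ∀ g, g ∈ Subgroup.zpowers σ) (hf : ptl_f q K L = 1)
    (hdeg : 1 < Module.finrank K L) :
    ∃ c : Kˣ, ptl_abs q K (c : K) = 1 ∧ c ∉ (pti_normU K L).range := by
  by_contra hcon
  push Not at hcon
  have hidx := pti_local_norm_index q K L σ hσ
  have htop : (pti_normU K L).range = ⊤ := by
    rw [eq_top_iff]
    intro c _
    -- the norm of a uniformizer of `L` is a uniformizer of `K`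
    set ϖL : Lˣ := Units.mk0 (ptl_unif q L) (ptl_unif_ne_zero q L) with hϖL
    set ϖ : Kˣ := pti_normU K L ϖL with hϖ
    have hordϖ : ptl_ordZ q K (ϖ : K) = 1 := by
      rw [hϖ, pti_normU_val, ptl_ordZ_norm, hf, hϖL, Units.val_mk0, ptl_ordZ_unif]
      simp
    set m := ptl_ordZ q K (c : K) with hm
    have hu : ptl_abs q K ((c * ϖ ^ (-m) : Kˣ) : K) = 1 := by
      rw [← ptl_ordZ_eq_zero_iff q (Units.ne_zero _), Units.val_mul,
        ptl_ordZ_mul q (Units.ne_zero _) (Units.ne_zero _), Units.val_zpow_eq_zpow_val,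
        ptl_ordZ_zpow, hordϖ, ← hm]
      ring
    obtain ⟨y, hy⟩ := hcon _ hu
    refine ⟨y * ϖL ^ m, ?_⟩
    rw [map_mul, map_zpow, hy, ← hϖ, mul_assoc, ← zpow_add]
    simp
  rw [htop, Subgroup.index_top] at hidx
  omega

end FiniteLevel0

section Generic

variable (q : ℕ) [Fact q.Prime]
variable (K Ω : Type) [Field K] [Algebra ℚ_[q] K] [FiniteDimensional ℚ_[q] K]
  [Field Ω] [Algebra K Ω] [Algebra ℚ_[q] Ω] [IsScalarTower ℚ_[q] K Ω] [IsGalois K Ω]
  [Algebra.IsAlgebraic ℚ_[q] Ω]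

include q in
set_option synthInstance.maxHeartbeats 400000 in
set_option maxHeartbeats 1600000 in
/-- In a cyclic extension of prime degree `p ≠ q` of local fields (given as the fixed field `L` of
an open normal subgroup `W` of `Gal(Ω/K)` with `Gal(Ω/K)/W` generated by `τ`), if some `g₀ ∉ W`
acts trivially on the residue field of `L`, then some UNIT of `K` is not a norm
`∏_{i<p} τ^i a` with `a ∈ (Ω^W)ˣ`. -/
theorem pti_exists_unit_not_norm_generic (p : ℕ) [Fact p.Prime] (hqp : q ≠ p)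
    (W : Subgroup (Ω ≃ₐ[K] Ω)) [W.Normal]
    (E : IntermediateField K Ω) [FiniteDimensional K E] (hE : E.fixingSubgroup ≤ W)
    (τ : Ω ≃ₐ[K] Ω) (hτ : τ ∉ W) (hτp : τ ^ p ∈ W)
    (hgen : ∀ g : Ω ≃ₐ[K] Ω, ∃ i : ℕ, g⁻¹ * τ ^ i ∈ W)
    (g₀ : Ω ≃ₐ[K] Ω) (hg₀ : g₀ ∉ W)
    (htriv : ∀ x : Ω, (∀ w ∈ W, w x = x) → ptl_abs q Ω x ≤ 1 → ptl_abs q Ω (g₀ x - x) < 1) :
    ∃ c : Ωˣ, (∀ g : Ω ≃ₐ[K] Ω, g • c = c) ∧ ptl_abs q Ω (c : Ω) = 1 ∧
      ∀ a : Ωˣ, (∀ w ∈ W, w • a = a) → c ≠ ∏ i ∈ Finset.range p, (τ ^ i) • a := by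
  classical
  have hp : p.Prime := Fact.out
  have hWo : IsOpen (W : Set (Ω ≃ₐ[K] Ω)) :=
    Subgroup.isOpen_mono hE E.fixingSubgroup_isOpen
  have hWc : IsClosed (W : Set (Ω ≃ₐ[K] Ω)) := Subgroup.isClosed_of_isOpen W hWo
  set L : IntermediateField K Ω := IntermediateField.fixedField W with hL
  have hfix : L.fixingSubgroup = W :=
    InfiniteGalois.fixingSubgroup_fixedField ⟨W, hWc⟩
  have hLE : L ≤ E := by
    intro x hx
    rw [← InfiniteGalois.fixedField_fixingSubgroup E, IntermediateField.mem_fixedField_iff]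
    intro g hg
    exact (IntermediateField.mem_fixedField_iff W x).mp hx g (hE hg)
  have hfdL : FiniteDimensional K L :=
    FiniteDimensional.of_injective (IntermediateField.inclusion hLE).toLinearMap
      (IntermediateField.inclusion hLE).toRingHom.injective
  have hnorm : L.fixingSubgroup.Normal := by rw [hfix]; infer_instance
  have hgal : IsGalois K L := (InfiniteGalois.normal_iff_isGalois L).mp hnorm
  have hnl : Normal K L := hgal.to_normal
  set res : (Ω ≃ₐ[K] Ω) →* (↥L ≃ₐ[K] ↥L) := AlgEquiv.restrictNormalHom L with hres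
  have hsurj : Function.Surjective res := AlgEquiv.restrictNormalHom_surjective Ω
  have hker : res.ker = W := by rw [hres, IntermediateField.restrictNormalHom_ker, hfix]
  set σ := res τ with hσdef
  have hσ : ∀ g, g ∈ Subgroup.zpowers σ := by
    intro g
    obtain ⟨g', rfl⟩ := hsurj g
    obtain ⟨i, hi⟩ := hgen g'
    have h1 : res (g'⁻¹ * τ ^ i) = 1 := by rw [← MonoidHom.mem_ker, hker]; exact hi
    rw [map_mul, map_inv, map_pow, inv_mul_eq_one] at h1
    rw [h1]
    exact Subgroup.npow_mem_zpowers _ _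
  have hσ1 : σ ≠ 1 := by
    intro h
    apply hτ
    rw [← hker]; exact h
  have hσp : σ ^ p = 1 := by
    rw [hσdef, ← map_pow, ← MonoidHom.mem_ker, hker]; exact hτp
  have hord : orderOf σ = p := orderOf_eq_prime hσp hσ1
  have hcard : Nat.card (↥L ≃ₐ[K] ↥L) = p := by
    rw [← hord]; exact (orderOf_eq_card_of_forall_mem_zpowers hσ).symm
  have hfr : Module.finrank K L = p := by
    rw [← hcard]; exact (IsGalois.card_aut_eq_finrank K L).symm
  have hfdQ : FiniteDimensional ℚ_[q] L := FiniteDimensional.trans ℚ_[q] K L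
  have hst : IsScalarTower ℚ_[q] (↥L) Ω := IsScalarTower.of_algebraMap_eq (fun _ => rfl)
  -- `res g₀` generates the Galois group and acts trivially on the residue field
  set γ := res g₀ with hγdef
  have hγ1 : γ ≠ 1 := by
    intro h
    apply hg₀
    rw [← hker]; exact h
  have hγtriv : ptl_galRes q K ↥L γ = 1 := by
    rw [pti_galRes_eq_one_iff]
    intro x hx
    have hcomm : ((γ x : ↥L) : Ω) = g₀ (x : Ω) :=
      AlgEquiv.restrictNormal_commutes g₀ ↥L x
    have h1 : ptl_abs q ↥L (γ x - x) = ptl_abs q Ω (g₀ (x : Ω) - (x : Ω)) := by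
      rw [← ptl_abs_tower q (K := ↥L) (L := Ω)]
      congr 1
      rw [← hcomm]
      rfl
    rw [h1]
    refine htriv (x : Ω) (fun w hw => ?_) ?_
    · exact (IntermediateField.mem_fixedField_iff W (x : Ω)).mp x.2 w hw
    · have h2 := ptl_abs_tower q (K := ↥L) (L := Ω) x
      exact h2.le.trans hx
  have hall : ∀ g : ↥L ≃ₐ[K] ↥L, ptl_galRes q K ↥L g = 1 := by
    intro g
    -- the group has prime order, so `γ` generates it
    have hγord : orderOf γ = p := by
      have h1 : orderOf γ ∣ p := by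
        rw [← hcard]; exact orderOf_dvd_natCard γ
      rcases (Nat.dvd_prime hp).mp h1 with h | h
      · exact absurd (orderOf_eq_one_iff.mp h) hγ1
      · exact h
    have hγgen : ∀ g : ↥L ≃ₐ[K] ↥L, g ∈ Subgroup.zpowers γ := by
      have h2 : Nat.card (Subgroup.zpowers γ) = Nat.card (↥L ≃ₐ[K] ↥L) := by
        rw [Nat.card_zpowers, hγord, hcard]
      have h3 : Subgroup.zpowers γ = ⊤ := Subgroup.eq_top_of_card_eq _ h2
      intro g; rw [h3]; exact Subgroup.mem_top g
    obtain ⟨k, rfl⟩ := Subgroup.mem_zpowers_iff.mp (hγgen g)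
    rw [map_zpow, hγtriv, one_zpow]
  have hf : ptl_f q K ↥L = 1 := by
    refine pti_f_eq_one_of_trivial q K ↥L ?_ ?_
    · rw [hfr]
      exact (Nat.coprime_primes hp (Fact.out : q.Prime)).mpr (Ne.symm hqp)
    · intro g
      exact (pti_galRes_eq_one_iff q g).mp (hall g)
  obtain ⟨c, hc1, hcn⟩ := pti_exists_unit_not_norm q K ↥L σ hσ hf (by rw [hfr]; exact hp.one_lt)
  refine ⟨ptg_unitsIncl L (pti_inclU K ↥L c), ?_, ?_, ?_⟩
  · intro g
    rw [← ptg_unitsIncl_smul L g]
    congr 1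
    apply Units.ext
    rw [AlgEquiv.smul_units_def, pti_inclU_val]
    exact AlgEquiv.commutes _ _
  · rw [ptg_unitsIncl_coe, pti_inclU_val]
    have h1 := ptl_abs_tower q (K := ↥L) (L := Ω) (algebraMap K ↥L (c : K))
    rw [ptl_abs_tower q (K := K) (L := ↥L)] at h1
    rw [← hc1, ← h1]
    rfl
  · intro a ha hc
    obtain ⟨a', rfl⟩ := (ptg_mem_range_unitsIncl_iff_fixed L a).mpr (by rw [hfix]; exact ha)
    apply hcn
    refine ⟨a', ?_⟩
    apply pti_inclU_injective K ↥L
    apply ptg_unitsIncl_injective L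
    rw [hc]
    have himg := IsCyclic.image_range_orderOf hσ
    rw [hord] at himg
    have hinj : Set.InjOn (fun i : ℕ => σ ^ i) (Finset.range p : Set ℕ) := by
      have := pow_injOn_Iio_orderOf (x := σ)
      rw [hord] at this
      intro i hi j hj hij
      exact this (by simpa using hi) (by simpa using hj) hij
    have h0 : pti_inclU K ↥L (pti_normU K ↥L a') = pti_gU (G := ↥L ≃ₐ[K] ↥L) (Λ := ↥L) a' := by
      rw [pti_gU_eq_comp K ↥L]; rfl
    have h1 : pti_gU (G := ↥L ≃ₐ[K] ↥L) (Λ := ↥L) a'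
        = ∏ i ∈ Finset.range p, (σ ^ i) • a' := by
      unfold pti_gU
      rw [MonoidHom.finsetProd_apply, ← himg, Finset.prod_image hinj]
      refine Finset.prod_congr rfl (fun i _ => ?_)
      apply Units.ext
      rw [AlgEquiv.smul_units_def]
      rfl
    rw [h0, h1, map_prod]
    refine Finset.prod_congr rfl (fun i _ => ?_)
    rw [← ptg_unitsIncl_smul L (τ ^ i) a', map_pow]

end Generic

section Local

variable (q : ℕ) [Fact q.Prime] (p : ℕ) [Fact p.Prime]

local notation "Gq" => (PadicAlgCl q ≃ₐ[ℚ_[q]] PadicAlgCl q)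

/-- **unit version of hnormidx**: for a level character `χ` of an open `U ≤ G_q` (`q ≠ p`) with
`χ τ = 1`, if some `g₀ ∈ U` with `χ g₀ ≠ 0` acts trivially on the residue field of the fixed field
of `ker χ`, then some `U`-invariant UNIT is not a norm `∑_{i<p} τ^i a` from `(Ω^{ker χ})ˣ`. -/
theorem pti_exists_unit_not_norm_model (hqp : q ≠ p) {U : Subgroup Gq}
    (hU : (ptg_levels q).IsOpen U)
    (χ : ↥U → ZMod p) (hχ : ptd_IsChar χ)
    (hlev : ptd_IsLev₁ ((ptg_levels q).sub U hU) χ) (τ : ↥U) (hτ : χ τ = 1)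
    (g₀ : ↥U) (hg₀ : χ g₀ ≠ 0)
    (htriv : ∀ x : PadicAlgCl q, (∀ w : ↥U, χ w = 0 → (w : Gq) x = x) → ‖x‖ ≤ 1 →
      ‖(g₀ : Gq) x - x‖ < 1) :
    ∃ c : (ptd_resRep (ptg_unitsRep q) U).invariants,
      ‖((Additive.toMul (c : Additive (PadicAlgCl q)ˣ) : (PadicAlgCl q)ˣ) : PadicAlgCl q)‖ = 1 ∧
      ∀ a : Additive (PadicAlgCl q)ˣ,
        (∀ v ∈ ptl_charKer hχ, ptd_resRep (ptg_unitsRep q) U v a = a) →
          (c : Additive (PadicAlgCl q)ˣ) ≠
            ∑ i ∈ Finset.range p, ptd_resRep (ptg_unitsRep q) U (τ ^ i) a := by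
  classical
  have hp := (Fact.out : p.Prime)
  set K := IntermediateField.fixedField U with hK
  have hfdK : FiniteDimensional ℚ_[q] K := ptg_fixedField_finiteDimensional_of_isOpen q hU
  have hgalK : IsGalois K (PadicAlgCl q) := inferInstance
  set r := ptg_galFixedEquiv q hU with hr
  have hkn := ptg_charKer_normal p hχ
  set W : Subgroup (PadicAlgCl q ≃ₐ[K] PadicAlgCl q) :=
    (ptl_charKer hχ).comap r.toMonoidHom with hW
  have hWn : W.Normal := Subgroup.Normal.comap hkn _
  have hmemW : ∀ g, g ∈ W ↔ χ (r g) = 0 := fun g => Iff.rfl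
  obtain ⟨N', ⟨N, hN, hNU, rfl⟩, hNχ⟩ := hlev
  have hKN : K ≤ IntermediateField.fixedField N := by
    intro x hx
    rw [IntermediateField.mem_fixedField_iff] at hx ⊢
    exact fun g hg => hx g (hNU hg)
  set E : IntermediateField K (PadicAlgCl q) := IntermediateField.extendScalars hKN with hEdef
  have hfdN : FiniteDimensional ℚ_[q] (IntermediateField.fixedField N) :=
    ptg_fixedField_finiteDimensional_of_isOpen q ((ptg_levels q).isOpen_of_mem hN)
  have hfdE : FiniteDimensional K E := by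
    have h1 : FiniteDimensional ℚ_[q] E := by
      let f : ↥E →ₗ[ℚ_[q]] ↥(IntermediateField.fixedField N) :=
        { toFun := fun x => ⟨x.1, x.2⟩
          map_add' := fun _ _ => rfl
          map_smul' := fun _ _ => rfl }
      exact FiniteDimensional.of_injective f
        (fun x y h => Subtype.ext (congrArg Subtype.val h))
    exact FiniteDimensional.right ℚ_[q] K E
  have hE : E.fixingSubgroup ≤ W := by
    intro g hg
    rw [hmemW]
    have hgN : ((r g : ↥U) : Gq) ∈ N := by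
      rw [← ptg_fixingSubgroup_fixedField_of_isOpen q ((ptg_levels q).isOpen_of_mem hN)]
      rw [IntermediateField.mem_fixingSubgroup_iff]
      intro x hx
      have := (IntermediateField.mem_fixingSubgroup_iff E g).mp hg x hx
      exact this
    have := hNχ 1 (r g) (Subgroup.mem_subgroupOf.mpr hgN)
    rwa [one_mul, ptl_char_one hχ] at this
  obtain ⟨τ', hτ'⟩ := r.surjective τ
  have hτW : τ' ∉ W := by
    rw [hmemW, hτ', hτ]
    have : Fact (1 < p) := ⟨hp.one_lt⟩
    exact one_ne_zero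
  have hτpW : τ' ^ p ∈ W := by
    rw [hmemW, map_pow, hτ', ptl_char_pow hχ, hτ]
    simp
  have hgen : ∀ g : PadicAlgCl q ≃ₐ[K] PadicAlgCl q, ∃ i : ℕ, g⁻¹ * τ' ^ i ∈ W := by
    intro g
    refine ⟨(χ (r g)).val, ?_⟩
    rw [hmemW, map_mul, map_inv, map_pow, hτ', hχ, ptl_char_inv hχ, ptl_char_pow hχ, hτ]
    have : NeZero p := ⟨hp.ne_zero⟩
    simp
  obtain ⟨g₀', hg₀'⟩ := r.surjective g₀
  have hg₀W : g₀' ∉ W := by
    rw [hmemW, hg₀']; exact hg₀
  have htriv' : ∀ x : PadicAlgCl q, (∀ w ∈ W, w x = x) →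
      ptl_abs q (PadicAlgCl q) x ≤ 1 → ptl_abs q (PadicAlgCl q) (g₀' x - x) < 1 := by
    intro x hx hx1
    have h1 : g₀' x = (g₀ : Gq) x := by
      rw [← hg₀']; exact (ptg_galFixedEquiv_apply q hU g₀' x).symm
    rw [h1]
    refine htriv x (fun w hw => ?_) hx1
    obtain ⟨w', rfl⟩ := r.surjective w
    rw [ptg_galFixedEquiv_apply q hU w' x]
    exact hx w' ((hmemW w').mpr hw)
  obtain ⟨c, hc, hc1, hcn⟩ := pti_exists_unit_not_norm_generic q K (PadicAlgCl q) p hqp W E hE τ'
    hτW hτpW hgen g₀' hg₀W htriv'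
  refine ⟨⟨Additive.ofMul c, ?_⟩, hc1, ?_⟩
  · intro g
    obtain ⟨g', rfl⟩ := r.surjective g
    show Additive.ofMul (((r g' : ↥U) : Gq) • c) = Additive.ofMul c
    rw [ptg_galFixedEquiv_smul, hc]
  · intro a ha heq
    have hfix : ∀ w ∈ W, w • a.toMul = a.toMul := by
      intro w hw
      have h1 := ha (r w) hw
      rw [← ptg_galFixedEquiv_smul q hU w]
      exact congrArg Additive.toMul h1
    apply hcn a.toMul hfix
    have h2 := congrArg Additive.toMul heq
    rw [toMul_sum] at h2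
    refine h2.trans (Finset.prod_congr rfl (fun i _ => ?_))
    rw [← hτ', ← map_pow, ← ptg_galFixedEquiv_smul q hU]
    rfl

/-- **(C1) LOCAL RAMIFICATION CRITERION**, `q ≠ p`: let `χ : V → ZMod p` be a level character of
an open subgroup `V ≤ G_q`.  If `u · δχ` is a level coboundary for EVERY `V`-invariant unit `u`
of `Ω_q`, then `χ g = 0` for every `g ∈ V` acting trivially on the residue field of the fixed
field of `ker χ` (a fortiori for every `g` in the inertia group): the cyclic extension cut out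
by `χ` is unramified. -/
theorem pti_char_eq_zero_of_units_isB2' (hqp : q ≠ p) {V : Subgroup Gq}
    (hV : (ptg_levels q).IsOpen V)
    (χ : ↥V → ZMod p) (hχ : ptd_IsChar χ)
    (hlev : ptd_IsLev₁ ((ptg_levels q).sub V hV) χ)
    (hB : ∀ u : Additive (PadicAlgCl q)ˣ, (∀ v : ↥V, ptd_resRep (ptg_unitsRep q) V v u = u) →
      ‖((Additive.toMul u : (PadicAlgCl q)ˣ) : PadicAlgCl q)‖ = 1 →
      ptd_IsB2 ((ptg_levels q).sub V hV) (ptd_resRep (ptg_unitsRep q) V) (ptd_bockSmul p χ u))
    (g : ↥V)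
    (hg : ∀ x : PadicAlgCl q, (∀ w : ↥V, χ w = 0 → (w : Gq) x = x) → ‖x‖ ≤ 1 →
      ‖(g : Gq) x - x‖ < 1) :
    χ g = 0 := by
  by_contra hne
  have h0 : χ ≠ 0 := fun h => hne (by rw [h]; rfl)
  obtain ⟨τ, hτ⟩ := ptl_exists_char_eq_one hχ h0
  obtain ⟨c, hc1, hcn⟩ := pti_exists_unit_not_norm_model q p hqp hV χ hχ hlev τ hτ g hne hg
  have hBc := hB (c : Additive (PadicAlgCl q)ˣ) (fun v => c.2 v) hc1
  obtain ⟨a, ha, hca⟩ := ptl_exists_norm_of_bockSmul_isB2 hχ hlev
    (fun φ hφ => ptg_isB1_of_isLZ1_units_sub q hV (ptl_charKer_isOpen hχ hlev) φ hφ) hτ hBc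
  exact hcn a ha hca

/-- **(C1)**, inertia form: `g` moves every integer of `Ω_q` by less than `1`. -/
theorem pti_char_eq_zero_of_units_isB2 (hqp : q ≠ p) {V : Subgroup Gq}
    (hV : (ptg_levels q).IsOpen V)
    (χ : ↥V → ZMod p) (hχ : ptd_IsChar χ)
    (hlev : ptd_IsLev₁ ((ptg_levels q).sub V hV) χ)
    (hB : ∀ u : Additive (PadicAlgCl q)ˣ, (∀ v : ↥V, ptd_resRep (ptg_unitsRep q) V v u = u) →
      ‖((Additive.toMul u : (PadicAlgCl q)ˣ) : PadicAlgCl q)‖ = 1 →
      ptd_IsB2 ((ptg_levels q).sub V hV) (ptd_resRep (ptg_unitsRep q) V) (ptd_bockSmul p χ u))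
    (g : ↥V) (hg : ∀ x : PadicAlgCl q, ‖x‖ ≤ 1 → ‖(g : Gq) x - x‖ < 1) :
    χ g = 0 :=
  pti_char_eq_zero_of_units_isB2' q p hqp hV χ hχ hlev hB g (fun x _ hx => hg x hx)

end Local

end Fermat.Agent.Lib.PT
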