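/-
S55 (Poitou–Tate long haul), bridge: TWIST of class modules and presented levels by an integer
prime to the relevant group orders (`u ↦ e • u`).  All class-module axioms are insensitive to
such a twist:
* `ptc_ClassModuleOn.twist` : `u ↦ e • u` for `e` coprime to `#U`, `U ∈ 𝒰` (finite `Γ`);
* `ptn_PLevel.twist`        : the same for a presented level, `bigU ↦ e • bigU`.
-/
import Fermat.Agent.Lib.PT.BrgFin

set_option autoImplicit false

namespace Fermat.Agent.Lib.PT

open groupCohomology Rep

section ClassModule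

variable {Γ : Type} [Group Γ] {𝒰 : Set (Subgroup Γ)} {C : Rep.{0} ℤ Γ}

lemma ptn_res₂_zsmul (U : Subgroup Γ) (e : ℤ) (u : Γ × Γ → C) :
    (ptc_res₂ U (e • u) : U × U → (res U.subtype C)) =
      e • (ptc_res₂ U u : U × U → (res U.subtype C)) := rfl

/-- **Twist of a class module**: the fundamental cocycle may be multiplied by any integer which
is coprime to the orders of the subgroups of the family. -/
noncomputable def ptc_ClassModuleOn.twist [Finite Γ] (c : ptc_ClassModuleOn 𝒰 C) (e : ℤ)
    (he : ∀ U ∈ 𝒰, IsCoprime e (Nat.card U : ℤ)) : ptc_ClassModuleOn 𝒰 C where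
  u := e • c.u
  hu := zsmul_mem c.hu e
  h1 := c.h1
  h2gen U hU f hf := by
    classical
    have : Fintype U := Fintype.ofFinite U
    obtain ⟨n, hn⟩ := c.h2gen U hU f hf
    obtain ⟨a, b, hab⟩ := he U hU
    have hcard := ptc_card_smul_mem_coboundaries₂ (res U.subtype C)
      (ptc_res₂ U c.u : U × U → (res U.subtype C)) (ptc_res₂_mem_cocycles₂ U C c.hu)
    rw [← natCast_zsmul] at hcard
    refine ⟨n * a, ?_⟩
    have h2 := add_mem hn (zsmul_mem hcard (n * b))
    convert h2 using 1
    have h4 : (Nat.card U : ℤ) = (Fintype.card U : ℤ) := by rw [Nat.card_eq_fintype_card]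
    rw [h4] at hab
    have key : ∀ y : (res U.subtype C),
        n • y = (n * a) • (e • y) + (n * b) • ((Fintype.card U : ℤ) • y) := by
      intro y
      rw [smul_smul, smul_smul, ← add_smul]
      congr 1
      linear_combination (-n) * hab
    funext x
    rw [ptn_res₂_zsmul]
    simp only [Pi.sub_apply, Pi.add_apply, Pi.smul_apply]
    rw [key (ptc_res₂ U c.u x)]
    abel
  h2ord U hU n hn := by
    rw [ptn_res₂_zsmul, smul_smul] at hn
    have := c.h2ord U hU (n * e) hn
    exact (he U hU).symm.dvd_of_dvd_mul_right this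

@[simp] lemma ptc_ClassModuleOn.twist_u [Finite Γ] (c : ptc_ClassModuleOn 𝒰 C) (e : ℤ)
    (he : ∀ U ∈ 𝒰, IsCoprime e (Nat.card U : ℤ)) : (c.twist e he).u = e • c.u := rfl

end ClassModule

section PLevel

variable {G : Type*} [Group G] {C : Type*} [AddCommGroup C]
variable {ρC : Representation ℤ G C} {p : ℕ} {N : Subgroup G}

lemma ptn_PLevel.finite_Γ (L : ptn_PLevel ρC p N) [N.FiniteIndex] : Finite L.Γ := by
  have e : G ⧸ L.π.ker ≃* L.Γ := QuotientGroup.quotientKerEquivOfSurjective L.π L.surj
  have h1 : Finite (G ⧸ L.π.ker) := by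
    rw [L.ker_eq]
    exact Subgroup.finite_quotient_of_finiteIndex
  exact Finite.of_equiv _ e.toEquiv

lemma ptn_PLevel.card_Γ (L : ptn_PLevel ρC p N) : Nat.card L.Γ = N.index := by
  have e : G ⧸ L.π.ker ≃* L.Γ := QuotientGroup.quotientKerEquivOfSurjective L.π L.surj
  rw [← Nat.card_congr e.toEquiv, L.ker_eq]
  rfl

/-- **Twist of a presented level** by an integer coprime to the orders of the `p`-subgroups of the
quotient. -/
noncomputable def ptn_PLevel.twist (L : ptn_PLevel ρC p N) [N.FiniteIndex] (e : ℤ)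
    (he : ∀ U : Subgroup L.Γ, IsPGroup p U → IsCoprime e (Nat.card U : ℤ)) :
    ptn_PLevel ρC p N where
  Γ := L.Γ
  π := L.π
  surj := L.surj
  ker_eq := L.ker_eq
  CN := L.CN
  ι := L.ι
  inj := L.inj
  equiv := L.equiv
  range := L.range
  cm := by
    have := L.finite_Γ
    exact L.cm.twist e he

lemma ptn_PLevel.twist_bigU (L : ptn_PLevel ρC p N) [N.FiniteIndex] (e : ℤ)
    (he : ∀ U : Subgroup L.Γ, IsPGroup p U → IsCoprime e (Nat.card U : ℤ)) :
    (L.twist e he).bigU = e • L.bigU := by
  funext x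
  show L.ι (e • L.cm.u (L.π x.1, L.π x.2)) = e • L.ι (L.cm.u (L.π x.1, L.π x.2))
  exact map_zsmul L.ι e _

end PLevel

end Fermat.Agent.Lib.PT
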