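/-
S55 (Poitou–Tate long haul), bridge: **TWIST of level data by a `p`-adic unit** (lead's D2).

* `ptn_UnitSys p` : a compatible system of units `e k` mod `p ^ k` (`e (k+1) ≡ e k mod p ^ k`),
  i.e. a `p`-adic unit;
* `ptn_LevelData.twist D E` : the level data with fundamental cocycles `u_N ↦ e_{a(N)} • u_N`,
  `a(N) = v_p [G : N]`;
* `ptn_invU_twist` : `e_k • inv'_U y = inv_U y` on level cocycles `y` with `p ^ k • inv_U y = 0`;
* `ptn_UnitSys.inv` : the inverse system, and `ptn_invU_twist_inv` :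
  `inv'_U y = c_k • inv_U y` for the twist by the inverse of the system `c`
  (same for `ptn_invG`).
-/
import Fermat.Agent.Lib.PT.BrgTwistA
import Fermat.Agent.Lib.PT.BrgGen

set_option autoImplicit false
set_option linter.unusedSectionVars false

namespace Fermat.Agent.Lib.PT

/-- a compatible system of units mod `p ^ k`, i.e. a `p`-adic unit -/
structure ptn_UnitSys (p : ℕ) where
  /-- the unit mod `p ^ k` -/
  e : ℕ → ℤ
  coprime : ∀ k, IsCoprime (e k) ((p : ℤ) ^ k)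
  compat : ∀ k, ((p : ℤ) ^ k) ∣ e (k + 1) - e k

namespace ptn_UnitSys

variable {p : ℕ} (E : ptn_UnitSys p)

lemma dvd_sub_of_le {j k : ℕ} (h : j ≤ k) : ((p : ℤ) ^ j) ∣ E.e k - E.e j := by
  induction k, h using Nat.le_induction with
  | base => simp
  | succ k hjk ih =>
    have h1 : ((p : ℤ) ^ j) ∣ E.e (k + 1) - E.e k :=
      (pow_dvd_pow (p : ℤ) hjk).trans (E.compat k)
    have h2 : E.e (k + 1) - E.e j = (E.e (k + 1) - E.e k) + (E.e k - E.e j) := by ring
    rw [h2]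
    exact dvd_add h1 ih

lemma dvd_sub_min (j k : ℕ) : ((p : ℤ) ^ (min j k)) ∣ E.e j - E.e k := by
  rcases le_total j k with h | h
  · rw [min_eq_left h, ← neg_sub, dvd_neg]
    exact E.dvd_sub_of_le h
  · rw [min_eq_right h]
    exact E.dvd_sub_of_le h

/-- an inverse of `e k` mod `p ^ k` -/
noncomputable def invAt (k : ℕ) : ℤ := (E.coprime k).choose

lemma invAt_spec (k : ℕ) : ((p : ℤ) ^ k) ∣ E.invAt k * E.e k - 1 := by
  obtain ⟨b, hb⟩ := (E.coprime k).choose_spec
  exact ⟨-b, by unfold invAt; linear_combination hb⟩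

/-- **The inverse system.** -/
noncomputable def inv : ptn_UnitSys p where
  e := E.invAt
  coprime k := by
    obtain ⟨b, hb⟩ := (E.coprime k).choose_spec
    exact ⟨E.e k, b, by unfold invAt; linear_combination hb⟩
  compat k := by
    -- `i' - i ≡ i' (1 - e i) ≡ i' (e' - e) i ≡ 0` mod `p ^ k`
    obtain ⟨w, hw⟩ := E.invAt_spec k
    obtain ⟨w', hw'⟩ := (pow_dvd_pow (p : ℤ) (Nat.le_succ k)).trans (E.invAt_spec (k + 1))
    obtain ⟨t, ht⟩ := E.compat k
    refine ⟨w' * E.invAt k - w * E.invAt (k + 1) - E.invAt (k + 1) * E.invAt k * t, ?_⟩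
    linear_combination (E.invAt k) * hw' - (E.invAt (k + 1)) * hw -
      (E.invAt (k + 1) * E.invAt k) * ht

lemma inv_e (k : ℕ) : E.inv.e k = E.invAt k := rfl

lemma inv_mul (k : ℕ) : ((p : ℤ) ^ k) ∣ E.inv.e k * E.e k - 1 := E.invAt_spec k

end ptn_UnitSys

section Twist

variable {G : Type*} [Group G] {C : Type*} [AddCommGroup C]
variable {𝓛 : ptd_Levels G} {ρC : Representation ℤ G C} {p : ℕ} [hp : Fact p.Prime]

/-- the exponent of `p` in the index of a level -/
noncomputable abbrev ptn_lexp (p : ℕ) (N : Subgroup G) : ℕ := N.index.factorization p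

lemma ptn_pow_lexp_dvd (N : Subgroup G) : p ^ ptn_lexp p N ∣ N.index := Nat.ordProj_dvd _ _

lemma ptn_lexp_mono {N N' : Subgroup G} (h : N' ≤ N) (hN' : N'.index ≠ 0) :
    ptn_lexp p N ≤ ptn_lexp p N' := by
  have hdvd : N.index ∣ N'.index := Subgroup.index_dvd_of_le h
  have hN : N.index ≠ 0 := fun h0 => hN' (by rw [h0] at hdvd; exact Nat.eq_zero_of_zero_dvd hdvd)
  exact (Nat.factorization_le_iff_dvd hN hN').mpr hdvd p

/-- coprimality of `e_{a(N)}` with the orders of the `p`-subgroups of the quotient -/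
lemma ptn_unitSys_coprime_card (E : ptn_UnitSys p) {N : Subgroup G} [N.FiniteIndex]
    (L : ptn_PLevel ρC p N) (U : Subgroup L.Γ) (hU : IsPGroup p U) :
    IsCoprime (E.e (ptn_lexp p N)) (Nat.card U : ℤ) := by
  have := L.finite_Γ
  obtain ⟨b, hb⟩ := hU.exists_card_eq
  have h1 : Nat.card U ∣ N.index := by
    rw [← L.card_Γ]
    exact Subgroup.card_subgroup_dvd_card U
  have hidx : N.index ≠ 0 := Subgroup.FiniteIndex.index_ne_zero
  have h2 : b ≤ ptn_lexp p N := by
    rw [hb] at h1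
    exact (Nat.Prime.pow_dvd_iff_le_factorization hp.out hidx).mp h1
  rw [hb]
  push_cast
  exact (E.coprime (ptn_lexp p N)).of_isCoprime_of_dvd_right (pow_dvd_pow (p : ℤ) h2)

/-- `[G : N] • u_N` is the coboundary of a 1-cochain living at `N` -/
lemma ptn_PLevel.index_smul_bigU {N : Subgroup G} [hNn : N.Normal] [hNf : N.FiniteIndex]
    (L : ptn_PLevel ρC p N) :
    ∃ ψ : G → C, (∀ g, ∀ n ∈ N, ψ (g * n) = ψ g) ∧ (∀ g, ∀ n ∈ N, ρC n (ψ g) = ψ g) ∧
      N.index • L.bigU = ptd_d1 ρC ψ := by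
  classical
  have h := ptn_index_smul_eq_d1 ρC N L.bigU_isZ2
    (fun g h n hn => L.bigU_mul_right g h (one_mem N) hn |> fun h' => by simpa using h')
  refine ⟨_, fun g n hn => ?_, fun g n hn => ?_, h⟩
  · refine Finset.sum_congr rfl fun q _ => ?_
    have := L.bigU_mul_right g (Quotient.out q) hn (one_mem N)
    simpa using this
  · rw [map_sum]
    exact Finset.sum_congr rfl fun q _ => L.bigU_inv _ hn

/-- **The twist of level data by a `p`-adic unit**: `u_N ↦ e_{a(N)} • u_N`,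
`a(N) = v_p [G : N]`. -/
noncomputable def ptn_LevelData.twist (D : ptn_LevelData 𝓛 ρC p) (E : ptn_UnitSys p) :
    ptn_LevelData 𝓛 ρC p where
  lvl N hN :=
    haveI := 𝓛.finiteIndex N hN
    (D.lvl N hN).twist (E.e (ptn_lexp p N))
      (fun U hU => ptn_unitSys_coprime_card E (D.lvl N hN) U hU)
  compat N hN N' hN' hle := by
    have hNf := 𝓛.finiteIndex N hN
    have hN'f := 𝓛.finiteIndex N' hN'
    have hN'n := 𝓛.normal N' hN'
    obtain ⟨m₁, hm₁, ψ₁, hψ₁a, hψ₁b, hψ₁⟩ := D.compat N hN N' hN' hle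
    obtain ⟨ψ₂, hψ₂a, hψ₂b, hψ₂⟩ := (D.lvl N' hN').index_smul_bigU
    have hidx : N.index ≠ 0 := Subgroup.FiniteIndex.index_ne_zero
    have hidx' : N'.index ≠ 0 := Subgroup.FiniteIndex.index_ne_zero
    obtain ⟨t, ht⟩ := E.dvd_sub_of_le (ptn_lexp_mono (p := p) hle hidx')
    -- `[G : N] = p ^ a * m₀`
    obtain ⟨m₀, hm₀def⟩ : ∃ m₀ : ℕ, m₀ = N.index / p ^ ptn_lexp p N := ⟨_, rfl⟩
    have hdec : p ^ ptn_lexp p N * m₀ = N.index := by
      rw [hm₀def]; exact Nat.ordProj_mul_ordCompl_eq_self N.index p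
    have hm₀ : ¬ p ∣ m₀ := by rw [hm₀def]; exact Nat.not_dvd_ordCompl hp.out hidx
    have hrel : N'.relIndex N * N.index = N'.index := Subgroup.relIndex_mul_index hle
    refine ⟨m₁ * m₀, fun hd => ?_,
      (m₀ : ℤ) • (E.e (ptn_lexp p N) • ψ₁) - ((m₁ : ℤ) * t) • ψ₂,
      fun g n hn => ?_, fun g n hn => ?_, ?_⟩
    · rcases (Nat.Prime.dvd_mul hp.out).mp hd with h | h
      · exact hm₁ h
      · exact hm₀ h
    · simp only [Pi.sub_apply, Pi.smul_apply, hψ₁a g n hn, hψ₂a g n hn]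
    · simp only [Pi.sub_apply, Pi.smul_apply, map_sub, map_zsmul, hψ₁b g n hn, hψ₂b g n hn]
    · rw [ptd_d1_sub, ptd_d1_zsmul, ptd_d1_zsmul, ptd_d1_zsmul, ← hψ₁, ← hψ₂,
        ptn_PLevel.twist_bigU, ptn_PLevel.twist_bigU]
      funext x
      simp only [Pi.sub_apply, Pi.smul_apply]
      set a := (D.lvl N hN).bigU x with ha
      set b := (D.lvl N' hN').bigU x with hb
      rw [← natCast_zsmul (_ - _) (m₁ * m₀),
        ← natCast_zsmul (a - _) m₁, ← natCast_zsmul b (N'.index),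
        ← natCast_zsmul (_ • b) (N'.relIndex N), ← natCast_zsmul b (N'.relIndex N)]
      have h1 : ((N'.index : ℕ) : ℤ) = (N'.relIndex N : ℤ) * ((p : ℤ) ^ ptn_lexp p N *
          (m₀ : ℤ)) := by
        have e1 : ((N'.index : ℕ) : ℤ) = (N'.relIndex N : ℤ) * ((N.index : ℕ) : ℤ) := by
          exact_mod_cast hrel.symm
        have e2 : ((N.index : ℕ) : ℤ) = (p : ℤ) ^ ptn_lexp p N * (m₀ : ℤ) := by
          exact_mod_cast hdec.symm
        rw [e1, e2]
      rw [h1]
      have h2 : E.e (ptn_lexp p N') = E.e (ptn_lexp p N) + (p : ℤ) ^ ptn_lexp p N * t := by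
        linear_combination ht
      rw [h2]
      push_cast
      module

lemma ptn_LevelData.twist_U (D : ptn_LevelData 𝓛 ρC p) (E : ptn_UnitSys p) {N : Subgroup G}
    (hN : N ∈ 𝓛.lev) : (D.twist E).U N = E.e (ptn_lexp p N) • D.U N := by
  rw [ptn_LevelData.U_eq _ hN, D.U_eq hN]
  have := 𝓛.finiteIndex N hN
  exact ptn_PLevel.twist_bigU _ _ _

end Twist

end Fermat.Agent.Lib.PT
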