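/-
S55 (Poitou–Tate long haul), bridge: the invariant maps of the TWISTED level data
(`ptn_LevelData.twist`, BrgTwistB).  For a `p`-adic unit `E = (e_k)` and a level cocycle `y` of an
open subgroup `U`:
* `ptn_invU_twist_core` : `inv'_U y = ei • inv_U y` with `ei e_a ≡ 1 mod p ^ a`, `p ^ a • inv_U y = 0`;
* `ptn_invU_twist`      : `e_k • inv'_U y = inv_U y` if `p ^ k • inv_U y = 0`;
* `ptn_invU_twist_inv`  : for the twist by the INVERSE system of `c`:
  `inv'_U y = c_k • inv_U y` if `p ^ k • inv_U y = 0`;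
* `ptn_invG_twist`, `ptn_invG_twist_inv` : the same for the big group.
-/
import Fermat.Agent.Lib.PT.BrgTwistB
import Fermat.Agent.Lib.PT.AdtT

set_option autoImplicit false
set_option linter.unusedSectionVars false

namespace Fermat.Agent.Lib.PT

section Tors

variable {p : ℕ} [hp : Fact p.Prime]

/-- integers congruent mod `p ^ j` act in the same way on the `p ^ j`-torsion -/
lemma ptn_zsmul_congr {T : Type*} [AddCommGroup T] {x y : ℤ} {j : ℕ} {t : T}
    (h : ((p : ℤ) ^ j) ∣ x - y) (ht : p ^ j • t = 0) : x • t = y • t := by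
  obtain ⟨w, hw⟩ := h
  have hx : x = y + w * (p : ℤ) ^ j := by linear_combination hw
  rw [hx, add_smul, mul_smul]
  have : ((p : ℤ) ^ j) • t = 0 := by
    have h1 : ((p : ℤ) ^ j) = ((p ^ j : ℕ) : ℤ) := by push_cast; rfl
    rw [h1, natCast_zsmul, ht]
  rw [this, smul_zero, add_zero]

end Tors

section Inv

variable {G : Type*} [Group G] {C : Type*} [AddCommGroup C]
variable {𝓛 : ptd_Levels G} {ρC : Representation ℤ G C} {p : ℕ} [hp : Fact p.Prime]
variable (D : ptn_LevelData 𝓛 ρC p) (hd : ptd_IsDiscrete 𝓛 ρC) (E : ptn_UnitSys p)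
variable {U : Subgroup G} (hU : 𝓛.IsOpen U)

/-- **Core comparison**: the twisted invariant is `ei` times the invariant, `ei` an inverse of
`e_a` mod `p ^ a`, where `p ^ a` kills the invariant. -/
theorem ptn_invU_twist_core {y : U × U → C}
    (hy : ptd_IsLZ2 (𝓛.sub U hU) (ptd_resRep ρC U) y) :
    ∃ (a : ℕ) (ei : ℤ), ((p : ℤ) ^ a) ∣ ei * E.e a - 1 ∧
      p ^ a • ptn_invU D hd U hU y = 0 ∧
      ptn_invU (D.twist E) hd U hU y = ei • ptn_invU D hd U hU y := by
  obtain ⟨N, hN, hNU, n, m, hm, hB⟩ := ptn_gen_all D hd U hU y hy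
  have hNf := 𝓛.finiteIndex N hN
  have hidx : N.index ≠ 0 := Subgroup.FiniteIndex.index_ne_zero
  obtain ⟨m₀, hm₀def⟩ : ∃ m₀ : ℕ, m₀ = N.index / p ^ ptn_lexp p N := ⟨_, rfl⟩
  have hdec : p ^ ptn_lexp p N * m₀ = N.index := by
    rw [hm₀def]; exact Nat.ordProj_mul_ordCompl_eq_self N.index p
  have hm₀ : ¬ p ∣ m₀ := by rw [hm₀def]; exact Nat.not_dvd_ordCompl hp.out hidx
  have hm₀0 : m₀ ≠ 0 := fun h => hm₀ (h ▸ dvd_zero p)
  have hrel : N.relIndex U * U.index = N.index := Subgroup.relIndex_mul_index hNU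
  have hr0 : N.relIndex U ≠ 0 := fun h => hidx (by rw [← hrel, h, zero_mul])
  obtain ⟨ei, bi, hcop⟩ := E.coprime (ptn_lexp p N)
  have hinv : ptn_invU D hd U hU y = ptn_frac p n (m * N.relIndex U) :=
    ptn_invU_eq D hd hU hN hNU hm hB
  have htors := ptn_tors D U hU hN hNU
  have hm' : ¬ p ∣ m₀ * m := fun hd' => by
    rcases (Nat.Prime.dvd_mul hp.out).mp hd' with h | h
    · exact hm₀ h
    · exact hm h
  -- the relation for the twisted data
  have hB' : ptd_IsB2 (𝓛.sub U hU) (ptd_resRep ρC U)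
      ((m₀ * m : ℕ) • y - ((m₀ : ℤ) * n * ei) • ptd_res₂ U ((D.twist E).U N)) := by
    have h1 := (hB.zsmul (m₀ : ℤ)).add (htors.zsmul (n * bi * (U.index : ℤ)))
    convert h1 using 1
    rw [D.twist_U E hN]
    funext x
    simp only [Pi.sub_apply, Pi.add_apply, Pi.smul_apply, ptd_res₂]
    set v := D.U N (↑x.1, ↑x.2) with hv
    have e1 : ((N.index : ℕ) : ℤ) = (N.relIndex U : ℤ) * (U.index : ℤ) := by
      exact_mod_cast hrel.symm
    have e2 : ((N.index : ℕ) : ℤ) = (p : ℤ) ^ ptn_lexp p N * (m₀ : ℤ) := by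
      exact_mod_cast hdec.symm
    have key : ((m₀ : ℤ) * n) • v = ((m₀ : ℤ) * n * ei * E.e (ptn_lexp p N)) • v +
        (n * bi * (U.index : ℤ) * (N.relIndex U : ℤ)) • v := by
      rw [← add_smul]
      congr 1
      linear_combination (-((m₀ : ℤ) * n)) * hcop - (n * bi) * e2 + (n * bi) * e1
    rw [← natCast_zsmul (y x) (m₀ * m), ← natCast_zsmul (y x) m, ← natCast_zsmul v (N.relIndex U),
      smul_sub, smul_smul, smul_smul, smul_smul, smul_smul, key]
    push_cast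
    abel
  have hinv' : ptn_invU (D.twist E) hd U hU y =
      ptn_frac p ((m₀ : ℤ) * n * ei) (m₀ * m * N.relIndex U) :=
    ptn_invU_eq (D.twist E) hd hU hN hNU hm' hB'
  refine ⟨ptn_lexp p N, ei, ⟨-bi, by linear_combination hcop⟩, ?_, ?_⟩
  · -- `p ^ a` kills the invariant
    have hm0 : m ≠ 0 := fun h => hm (h ▸ dvd_zero p)
    rw [hinv, ← natCast_zsmul, ← ptn_frac_smul,
      ptn_frac_eq_zero_iff _ _ (Nat.mul_ne_zero hm0 hr0)]
    have hle : (m * N.relIndex U).factorization p ≤ ptn_lexp p N := by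
      rw [Nat.factorization_mul hm0 hr0, Finsupp.add_apply,
        Nat.factorization_eq_zero_of_not_dvd hm, zero_add]
      exact (Nat.factorization_le_iff_dvd hr0 hidx).mpr (Dvd.intro _ hrel) p
    push_cast
    exact Dvd.dvd.mul_right (pow_dvd_pow (p : ℤ) hle) n
  · rw [hinv', hinv, ← ptn_frac_smul]
    have h4 : (m₀ : ℤ) * n * ei = (ei * n) * (m₀ : ℕ) := by ring
    have h5 : m₀ * m * N.relIndex U = (m * N.relIndex U) * m₀ := by ring
    rw [h4, h5, ptn_frac_mul_right _ _ _ hm₀0]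

/-- **The twisted invariant**: `e_k • inv'_U y = inv_U y` on level cocycles `y` of `U` with
`p ^ k • inv_U y = 0`. -/
theorem ptn_invU_twist {y : U × U → C} (hy : ptd_IsLZ2 (𝓛.sub U hU) (ptd_resRep ρC U) y)
    (k : ℕ) (hk : p ^ k • ptn_invU D hd U hU y = 0) :
    E.e k • ptn_invU (D.twist E) hd U hU y = ptn_invU D hd U hU y := by
  obtain ⟨a, ei, hei, ha, hinv'⟩ := ptn_invU_twist_core D hd E hU hy
  rw [hinv', smul_smul]
  have hmin : p ^ (min k a) • ptn_invU D hd U hU y = 0 := by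
    rcases le_total k a with h | h
    · rw [min_eq_left h]; exact hk
    · rw [min_eq_right h]; exact ha
  have h1 : ((p : ℤ) ^ (min k a)) ∣ E.e k * ei - 1 := by
    have h2 := E.dvd_sub_min k a
    have h3 : ((p : ℤ) ^ (min k a)) ∣ ei * E.e a - 1 :=
      (pow_dvd_pow (p : ℤ) (min_le_right k a)).trans hei
    have h4 : E.e k * ei - 1 = (E.e k - E.e a) * ei + (ei * E.e a - 1) := by ring
    rw [h4]
    exact dvd_add (Dvd.dvd.mul_right h2 ei) h3
  rw [ptn_zsmul_congr h1 hmin, one_smul]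

/-- **The twist by the inverse system**: `inv'_U y = c_k • inv_U y` on level cocycles `y` of `U`
with `p ^ k • inv_U y = 0`, for the level data twisted by the inverse of the `p`-adic unit `c`. -/
theorem ptn_invU_twist_inv (c : ptn_UnitSys p) {y : U × U → C}
    (hy : ptd_IsLZ2 (𝓛.sub U hU) (ptd_resRep ρC U) y)
    (k : ℕ) (hk : p ^ k • ptn_invU D hd U hU y = 0) :
    ptn_invU (D.twist c.inv) hd U hU y = c.e k • ptn_invU D hd U hU y := by
  obtain ⟨a, ei, hei, ha, hinv'⟩ := ptn_invU_twist_core D hd c.inv hU hy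
  rw [hinv']
  have hmin : p ^ (min k a) • ptn_invU D hd U hU y = 0 := by
    rcases le_total k a with h | h
    · rw [min_eq_left h]; exact hk
    · rw [min_eq_right h]; exact ha
  refine ptn_zsmul_congr (j := min k a) ?_ hmin
  -- `ei ≡ c_a ≡ c_k`
  have h2 := c.dvd_sub_min k a
  have h3 : ((p : ℤ) ^ (min k a)) ∣ ei * c.inv.e a - 1 :=
    (pow_dvd_pow (p : ℤ) (min_le_right k a)).trans hei
  have h5 : ((p : ℤ) ^ (min k a)) ∣ c.inv.e a * c.e a - 1 :=
    (pow_dvd_pow (p : ℤ) (min_le_right k a)).trans (c.inv_mul a)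
  have h4 : ei - c.e k = (ei * c.inv.e a - 1) * c.e a - ei * (c.inv.e a * c.e a - 1) -
      (c.e k - c.e a) := by ring
  rw [h4]
  exact dvd_sub (dvd_sub (Dvd.dvd.mul_right h3 _) (Dvd.dvd.mul_left h5 _)) h2

/-- the twisted invariant of the big group -/
theorem ptn_invG_twist {z : G × G → C} (hz : ptd_IsLZ2 𝓛 ρC z) (k : ℕ)
    (hk : p ^ k • ptn_invG D hd z = 0) :
    E.e k • ptn_invG (D.twist E) hd z = ptn_invG D hd z :=
  ptn_invU_twist D hd E 𝓛.isOpen_top (ptd_isLZ2_res₂ ⊤ 𝓛.isOpen_top ρC hz) k hk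

/-- the invariant of the big group for the twist by the inverse system -/
theorem ptn_invG_twist_inv (c : ptn_UnitSys p) {z : G × G → C} (hz : ptd_IsLZ2 𝓛 ρC z) (k : ℕ)
    (hk : p ^ k • ptn_invG D hd z = 0) :
    ptn_invG (D.twist c.inv) hd z = c.e k • ptn_invG D hd z :=
  ptn_invU_twist_inv D hd 𝓛.isOpen_top c (ptd_isLZ2_res₂ ⊤ 𝓛.isOpen_top ρC hz) k hk

end Inv

section Constructors

variable {p : ℕ} [hp : Fact p.Prime]

/-- the trivial unit system -/
def ptn_UnitSys.one (p : ℕ) : ptn_UnitSys p where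
  e _ := 1
  coprime _ := isCoprime_one_left
  compat _ := by simp

/-- a unit system from a compatible family of units of `ZMod (p ^ k)` -/
noncomputable def ptn_UnitSys.ofZMod (c : ∀ k : ℕ, (ZMod (p ^ k))ˣ)
    (hc : ∀ k : ℕ, ZMod.castHom (pow_dvd_pow p (Nat.le_succ k)) (ZMod (p ^ k))
      ((c (k + 1) : ZMod (p ^ (k + 1)))) = (c k : ZMod (p ^ k))) : ptn_UnitSys p where
  e k := (((c k : ZMod (p ^ k)).val : ℕ) : ℤ)
  coprime k := by
    have h := ZMod.val_coe_unit_coprime (c k)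
    have h2 : IsCoprime ((((c k : ZMod (p ^ k)).val : ℕ) : ℤ)) ((p ^ k : ℕ) : ℤ) :=
      Nat.isCoprime_iff_coprime.mpr h
    simpa using h2
  compat k := by
    have hne : NeZero (p ^ (k + 1)) := ⟨pow_ne_zero _ hp.out.ne_zero⟩
    have hne' : NeZero (p ^ k) := ⟨pow_ne_zero _ hp.out.ne_zero⟩
    have h1 := hc k
    rw [ZMod.castHom_apply, ← ZMod.natCast_val, ← ZMod.natCast_zmod_val (c k : ZMod (p ^ k))] at h1
    have h2 : (((((c (k + 1) : ZMod (p ^ (k + 1))).val : ℕ) : ℤ) : ZMod (p ^ k))) =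
        (((((c k : ZMod (p ^ k)).val : ℕ) : ℤ) : ZMod (p ^ k))) := by
      push_cast
      exact h1
    have h3 := (ZMod.intCast_eq_intCast_iff_dvd_sub _ _ _).mp h2.symm
    simpa using h3

lemma ptn_UnitSys.ofZMod_e (c : ∀ k : ℕ, (ZMod (p ^ k))ˣ)
    (hc : ∀ k : ℕ, ZMod.castHom (pow_dvd_pow p (Nat.le_succ k)) (ZMod (p ^ k))
      ((c (k + 1) : ZMod (p ^ (k + 1)))) = (c k : ZMod (p ^ k))) (k : ℕ) :
    (((ptn_UnitSys.ofZMod c hc).e k : ℤ) : ZMod (p ^ k)) = (c k : ZMod (p ^ k)) := by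
  have hne' : NeZero (p ^ k) := ⟨pow_ne_zero _ hp.out.ne_zero⟩
  show ((((c k : ZMod (p ^ k)).val : ℕ) : ℤ) : ZMod (p ^ k)) = _
  push_cast
  exact ZMod.natCast_zmod_val _

end Constructors

end Fermat.Agent.Lib.PT
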