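/-
G7a (global invariant for the S55 long-haul), part 4: THE GLOBAL INVARIANT IN THE MODEL.

Inputs: abstract local invariant functions `ptj_LocInv T` (one for every prime `q`, additive on
level cocycles of `(G_q, Ω_qˣ)`, zero on level coboundaries) and the hypothesis
`ptj_UnitCocycleHyp S` (unit-valued cocycles at levels coming from `S`-unramified fields are
coboundaries, for `q ∉ S`).  Output: the localisation family `ptj_locFam` over all primes, the
global invariant `ptj_INV`, and its evaluation on cocycles with values in the `S`-supported ideles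
as a sum over `q ∈ S`.
-/
import Fermat.Agent.Lib.PT.GModInvC
import Fermat.Agent.Lib.PT.BrgLevA

set_option autoImplicit false
set_option linter.unusedVariables false
set_option linter.unusedSectionVars false
set_option linter.style.haveILetI false

noncomputable section

namespace Fermat.Agent.Lib.PT

open IntermediateField

local notation "Qbar" => AlgebraicClosure ℚ
local notation "GQ" => (AlgebraicClosure ℚ ≃ₐ[ℚ] AlgebraicClosure ℚ)

/-- Local invariant functions for all primes. -/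
structure ptj_LocInv (T : Type*) [AddCommGroup T] where
  /-- the local invariant at `q` -/
  inv : ∀ q : Nat.Primes, (ptj_Gq q × ptj_Gq q → Additive (ptj_Om q)ˣ) → T
  inv_add : ∀ (q : Nat.Primes) z z', ptd_IsLZ2 (ptg_levels (q : ℕ)) (ptg_unitsRep (q : ℕ)) z →
    ptd_IsLZ2 (ptg_levels (q : ℕ)) (ptg_unitsRep (q : ℕ)) z' → inv q (z + z') = inv q z + inv q z'
  inv_b2 : ∀ (q : Nat.Primes) z, ptd_IsB2 (ptg_levels (q : ℕ)) (ptg_unitsRep (q : ℕ)) z → inv q z = 0

variable (S : Finset Nat.Primes)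

/-- **(L-unit)**: for `q ∉ S`, a unit-valued 2-cocycle of `G_q` in `Ω_qˣ` which is right-invariant
under the level of a stable field unramified outside `S` is a level coboundary. -/
def ptj_UnitCocycleHyp : Prop :=
  ∀ q : Nat.Primes, q ∉ S → ∀ F : IntermediateField ℚ Qbar, F.IsUnramifiedOutside S →
    (∀ σ : GQ, ∀ x ∈ F, σ x ∈ F) →
    ∀ z : ptj_Gq q × ptj_Gq q → Additive (ptj_Om q)ˣ, ptd_IsZ2 (ptg_unitsRep (q : ℕ)) z →
      (∀ g h : ptj_Gq q, ∀ n ∈ F.fixingSubgroup.comap (localGaloisToGlobal (q : ℕ)),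
        ∀ n' ∈ F.fixingSubgroup.comap (localGaloisToGlobal (q : ℕ)),
          z (g * n, h * n') = z (g, h)) →
      (∀ x, ‖((Additive.toMul (z x) : (ptj_Om q)ˣ) : ptj_Om q)‖ = 1) →
      ptd_IsB2 (ptg_levels (q : ℕ)) (ptg_unitsRep (q : ℕ)) z

variable {S}

/-- the localisation at `q` of a level cocycle with unit values at `q ∉ S` is a coboundary -/
lemma ptj_loc_isB2_of_unitAt (hUC : ptj_UnitCocycleHyp S) {y : GQ × GQ → ptj_AJ S}
    (hy : ptd_IsLZ2 (pta_levelsS S) (ptj_JSrep S) y) {q : Nat.Primes} (hq : q ∉ S)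
    (hu : ∀ x, ptj_IsUnitAt (((Additive.toMul (y x) : ptj_JS S) : ptj_J Qbar) : ptj_Amb Qbar) q) :
    ptd_IsB2 (ptg_levels (q : ℕ)) (ptg_unitsRep (q : ℕ))
      (ptd_loc₂ (localGaloisToGlobal (q : ℕ)) (ptj_evq S q) y) := by
  obtain ⟨hZ, _, ⟨F, hF, hst, rfl⟩, hlev⟩ := hy
  refine hUC q hq F hF hst _ (hZ.loc (ptj_evq S q) (ptj_evq_equiv S q)) ?_ ?_
  · intro g h n hn n' hn'
    simp only [ptd_loc₂_apply, map_mul]
    rw [hlev _ _ _ hn _ hn']
  · rintro ⟨g, h⟩
    exact hu _ (pta_iota q)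

/-- **finiteness**: a level cocycle localises to a coboundary at almost all primes -/
theorem ptj_loc_finite (hUC : ptj_UnitCocycleHyp S) {y : GQ × GQ → ptj_AJ S}
    (hy : ptd_IsLZ2 (pta_levelsS S) (ptj_JSrep S) y) :
    {q : Nat.Primes | ¬ ptd_IsB2 (ptg_levels (q : ℕ)) (ptg_unitsRep (q : ℕ))
      (ptd_loc₂ (localGaloisToGlobal (q : ℕ)) (ptj_evq S q) y)}.Finite := by
  have hfin := ptn_isLev₂_finite_range hy.2
  -- the bad primes of the finitely many values
  have hbad : ∀ v ∈ Set.range y, {q : Nat.Primes |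
      ¬ ptj_IsUnitAt (((Additive.toMul v : ptj_JS S) : ptj_J Qbar) : ptj_Amb Qbar) q}.Finite := by
    intro v _
    have h := ((Additive.toMul v : ptj_JS S) : ptj_J Qbar).2.2
    rwa [Filter.eventually_cofinite] at h
  have hB := (hfin.biUnion hbad).union S.finite_toSet
  refine hB.subset fun q hq => ?_
  by_contra hcon
  rw [Set.mem_union, not_or] at hcon
  obtain ⟨h1, h2⟩ := hcon
  refine hq (ptj_loc_isB2_of_unitAt hUC hy (by simpa using h2) fun x => ?_)
  by_contra hx
  exact h1 (Set.mem_biUnion (Set.mem_range_self x) hx)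

variable {T : Type*} [AddCommGroup T]

/-- **The localisation family of the model**, over all primes. -/
def ptj_locFam (I : ptj_LocInv T) (hUC : ptj_UnitCocycleHyp S) :
    ptj_LocFam (pta_levelsS S) (ptj_JSrep S) T Nat.Primes where
  H q := ptj_Gq q
  lev q := ptg_levels (q : ℕ)
  r q := localGaloisToGlobal (q : ℕ)
  r_cont q := ptj_isLevCont_local S q
  A q := Additive (ptj_Om q)ˣ
  ρ q := ptg_unitsRep (q : ℕ)
  ev q := ptj_evq S q
  ev_equiv q := ptj_evq_equiv S q
  inv := I.inv
  inv_add := I.inv_add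
  inv_b2 := I.inv_b2
  fin y hy := ptj_loc_finite hUC hy

/-- **The global invariant** on `𝒥_S`-valued 2-cochains of `G_ℚ`. -/
def ptj_INV (I : ptj_LocInv T) (hUC : ptj_UnitCocycleHyp S) (y : GQ × GQ → ptj_AJ S) : T :=
  (ptj_locFam I hUC).INV y

lemma ptj_INV_def (I : ptj_LocInv T) (hUC : ptj_UnitCocycleHyp S) (y : GQ × GQ → ptj_AJ S) :
    ptj_INV I hUC y = ∑ᶠ q : Nat.Primes,
      I.inv q (ptd_loc₂ (localGaloisToGlobal (q : ℕ)) (ptj_evq S q) y) := rfl

/-- For a cochain with values in the ideles supported in `S`, the global invariant is the sum of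
the local invariants over `q ∈ S`. -/
theorem ptj_INV_eq_sum_of_supported (I : ptj_LocInv T) (hUC : ptj_UnitCocycleHyp S)
    (y : GQ × GQ → ptj_AJ S)
    (hsupp : ∀ x, ∀ q, q ∉ S →
      (((Additive.toMul (y x) : ptj_JS S) : ptj_J Qbar) : ptj_Amb Qbar) q = 1) :
    ptj_INV I hUC y = ∑ q ∈ S,
      I.inv q (ptd_loc₂ (localGaloisToGlobal (q : ℕ)) (ptj_evq S q) y) := by
  refine (ptj_locFam I hUC).INV_eq_sum S fun q hq => ?_
  have h0 : (ptj_locFam I hUC).loc q y = 0 := by
    funext x
    show ptj_evq S q (y _) = 0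
    rw [ptj_evq_apply, hsupp _ q hq]
    rfl
  rw [h0]
  exact ptd_isB2_zero

end Fermat.Agent.Lib.PT

end
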