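/-
S55 long haul, (H-INV) part E: the global invariant of the model, concretely.

* `ptj_unitCocycleHyp`   : **(L-unit)** holds in the model (from the local toolkit: unit-valued
  cocycles at unramified levels are coboundaries, and `S`-unramified fields localise to unramified
  extensions at `q ∉ S`);
* `ptj_locInvOf`         : the local invariants of a family of level data;
* `ptj_INV_bockSmul_ker` : **(I-b2)** over `G_ℚ`: for a character `χ` satisfying cyclotomic
  reciprocity, the invariant of `z · δχ` vanishes for every `G_ℚ`-invariant `z ∈ ker π`;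
* `ptj_INVU_bockSmul_ker`: **(b2)** the same over every open subgroup `V` (via the projection
  formula for corestriction).
-/
import Fermat.Agent.Lib.PT.GModInvD
import Fermat.Agent.Lib.PT.BrauerDescend
import Fermat.Agent.Lib.PT.BrauerLevel
import Fermat.Agent.Lib.PT.BridgeI
import Fermat.Agent.Lib.PT.BrgGen
import Fermat.Agent.Lib.PT.AbsBock
import Fermat.Agent.Lib.PT.AdtCorF

set_option autoImplicit false
set_option linter.unusedVariables false
set_option linter.unusedSectionVars false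
set_option linter.style.haveILetI false

noncomputable section

namespace Fermat.Agent.Lib.PT

open IntermediateField

local notation "Qbar" => AlgebraicClosure ℚ
local notation "GQ" => (AlgebraicClosure ℚ ≃ₐ[ℚ] AlgebraicClosure ℚ)

variable (S : Finset Nat.Primes)

/-- **(L-unit)** holds in the model. -/
theorem ptj_unitCocycleHyp : ptj_UnitCocycleHyp S := by
  intro q hq F hF hst z hz hinv hunit
  haveI := hF.1
  haveI : IsGalois ℚ_[(q : ℕ)] ↥(ptg_loc (q : ℕ) F) := ptg_loc_isGalois (q : ℕ) hst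
  have hinj : Function.Injective (ptl_galRes (q : ℕ) ℚ_[(q : ℕ)] ↥(ptg_loc (q : ℕ) F)) :=
    ptg_galRes_injective_of_isUnramifiedOutside hF hst hq
  refine pti_unit_isB2 (q : ℕ) (ptg_loc (q : ℕ) F) hinj hz ?_ hunit
  intro g h n hn n' hn'
  exact hinv g h n ((ptg_mem_fixingSubgroup_loc_iff F n).mp hn) n'
    ((ptg_mem_fixingSubgroup_loc_iff F n').mp hn')

/-! ### The local invariants of a family of level data -/

/-- the local invariants of a family of level data (one for each prime) -/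
def ptj_locInvOf (p : ℕ) [Fact p.Prime]
    (DL : ∀ q : Nat.Primes, ptn_LevelData (ptg_levels (q : ℕ)) (ptg_unitsRep (q : ℕ)) p) :
    ptj_LocInv (ptn_T p) where
  inv q := ptn_invG (DL q) (ptg_isDiscrete_units (q : ℕ))
  inv_add q z z' hz hz' := ptn_invG_add_all (DL q) (ptg_isDiscrete_units (q : ℕ)) hz hz'
  inv_b2 q z hz := (ptn_invG (DL q) (ptg_isDiscrete_units (q : ℕ))).map_b2' z hz

/-! ### Rational principal ideles -/

/-- the principal idele of a rational number, as an element of `𝒥_S` (additively) -/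
def ptj_ratIdele (a : ℚˣ) : ptj_AJ S :=
  Additive.ofMul ⟨ptj_diag Qbar (Units.map (algebraMap ℚ Qbar : ℚ →* Qbar) a),
    ptj_diag_mem_JS ⟨⊥, IntermediateField.isUnramifiedOutside_bot S,
      (⊥ : IntermediateField ℚ Qbar).algebraMap_mem (a : ℚ)⟩⟩

lemma ptj_ratIdele_coe (a : ℚˣ) :
    ((Additive.toMul (ptj_ratIdele S a) : ptj_JS S) : ptj_J Qbar) =
      ptj_diag Qbar (Units.map (algebraMap ℚ Qbar : ℚ →* Qbar) a) := rfl

lemma ptj_ratIdele_invariant (a : ℚˣ) (g : GQ) :
    ptj_JSrep S g (ptj_ratIdele S a) = ptj_ratIdele S a := by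
  rw [ptj_JSrep_apply]
  apply congrArg Additive.ofMul
  apply Subtype.ext
  show g • ptj_diag Qbar (Units.map (algebraMap ℚ Qbar : ℚ →* Qbar) a) = _
  rw [ptj_smul_diag_Qbar]
  congr 1
  apply Units.ext
  exact g.commutes (a : ℚ)

lemma ptj_evq_ratIdele (q : Nat.Primes) (a : ℚˣ) :
    ptj_evq S q (ptj_ratIdele S a) =
      Additive.ofMul (Units.map (algebraMap ℚ (ptj_Om q) : ℚ →* ptj_Om q) a) := by
  rw [ptj_evq_apply]
  apply congrArg Additive.ofMul
  apply Units.ext
  show (pta_iota q) (algebraMap ℚ Qbar (a : ℚ)) = algebraMap ℚ (ptj_Om q) (a : ℚ)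
  rw [eq_ratCast, eq_ratCast, map_ratCast]

/-! ### Localisation of `z · δχ` -/

variable {S}

lemma ptj_loc₂_bockSmul {n : ℕ} (χ : GQ → ZMod n) (q : Nat.Primes) (z : ptj_AJ S) :
    ptd_loc₂ (localGaloisToGlobal (q : ℕ)) (ptj_evq S q) (ptd_bockSmul n χ z) =
      ptd_bockSmul n (fun τ : ptj_Gq q => χ (localGaloisToGlobal (q : ℕ) τ)) (ptj_evq S q z) := by
  funext ⟨g, h⟩
  show ptj_evq S q (ptd_bock n χ (localGaloisToGlobal (q : ℕ) g, localGaloisToGlobal (q : ℕ) h) • z)
    = ptd_bock n (fun τ : ptj_Gq q => χ (localGaloisToGlobal (q : ℕ) τ)) (g, h) • ptj_evq S q z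
  rw [map_zsmul]
  congr 1
  simp only [ptd_bock, map_mul]

variable {T : Type*} [AddCommGroup T] (I : ptj_LocInv T)

/-- **Cyclotomic reciprocity** for the character `χ`, in local-sum form: for every rational `a`,
the local invariants of `a · δ(χ|G_q)` sum to zero. -/
def ptj_RecipFor (n : ℕ) (χ : GQ → ZMod n) : Prop :=
  ∀ a : ℚˣ, ∑ᶠ q : Nat.Primes,
    I.inv q (ptd_bockSmul n (fun τ : ptj_Gq q => χ (localGaloisToGlobal (q : ℕ) τ))
      (Additive.ofMul (Units.map (algebraMap ℚ (ptj_Om q) : ℚ →* ptj_Om q) a))) = 0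

variable {n : ℕ} [NeZero n] {χ : GQ → ZMod n}

lemma ptj_isLZ2_bockSmul (hχ : ptd_IsChar χ) (hlev : ptd_IsLev₁ (pta_levelsS S) χ)
    {z : ptj_AJ S} (hz : ∀ g : GQ, ptj_JSrep S g z = z) :
    ptd_IsLZ2 (pta_levelsS S) (ptj_JSrep S) (ptd_bockSmul n χ z) :=
  ⟨ptn_isZ2_bockSmul hχ hz, ptn_isLev₂_bockSmul hlev z⟩

/-- the invariant of `a · δχ` for a rational principal idele `a` vanishes, by reciprocity -/
theorem ptj_INV_bockSmul_rat (hR : ptj_RecipFor I n χ) (a : ℚˣ) :
    ptj_INV I (ptj_unitCocycleHyp S) (ptd_bockSmul n χ (ptj_ratIdele S a)) = 0 := by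
  rw [ptj_INV_def]
  rw [finsum_congr fun q => by rw [ptj_loc₂_bockSmul, ptj_evq_ratIdele]]
  exact hR a

lemma ptj_isUnitAt_zpow {K : Type*} [Field K] {f : ptj_Amb K} {q : Nat.Primes}
    (hf : ptj_IsUnitAt f q) (k : ℤ) : ptj_IsUnitAt (f ^ k) q := fun σ => by
  simp only [Pi.pow_apply, Units.val_zpow_eq_zpow_val, norm_zpow, hf σ, one_zpow]

/-- the invariant of `u · δχ` for a `G_ℚ`-invariant unit idele supported outside `S` vanishes -/
theorem ptj_INV_bockSmul_unit (hχ : ptd_IsChar χ) (hlev : ptd_IsLev₁ (pta_levelsS S) χ)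
    (u : ptj_AJ S) (hu : ((Additive.toMul u : ptj_JS S) : ptj_J Qbar) ∈ ptj_US S)
    (hinv : ∀ g : GQ, ptj_JSrep S g u = u) :
    ptj_INV I (ptj_unitCocycleHyp S) (ptd_bockSmul n χ u) = 0 := by
  have hy := ptj_isLZ2_bockSmul hχ hlev hinv
  have h := (ptj_locFam I (ptj_unitCocycleHyp S)).INV_eq_sum (y := ptd_bockSmul n χ u) ∅ ?_
  · rw [Finset.sum_empty] at h
    exact h
  intro q _
  by_cases hq : q ∈ S
  · have h0 : (ptj_locFam I (ptj_unitCocycleHyp S)).loc q (ptd_bockSmul n χ u) = 0 := by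
      show ptd_loc₂ (localGaloisToGlobal (q : ℕ)) (ptj_evq S q) (ptd_bockSmul n χ u) = 0
      rw [ptj_loc₂_bockSmul]
      have : ptj_evq S q u = 0 := by
        rw [ptj_evq_apply, hu.1.1 q hq]
        rfl
      rw [this]
      funext x
      simp only [ptn_bockSmul_apply, smul_zero, Pi.zero_apply]
    rw [h0]
    exact ptd_isB2_zero
  · refine ptj_loc_isB2_of_unitAt (ptj_unitCocycleHyp S) hy hq fun x => ?_
    have hx : ((Additive.toMul (ptd_bockSmul n χ u x) : ptj_JS S) : ptj_J Qbar) =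
        ((Additive.toMul u : ptj_JS S) : ptj_J Qbar) ^ (ptd_bock n χ x) := rfl
    rw [hx]
    exact ptj_isUnitAt_zpow (hu.1.2 q hq) _

/-- **(I-b2)** over `G_ℚ`: for a level character `χ` satisfying reciprocity, the invariant of
`z · δχ` vanishes for every `G_ℚ`-invariant `z ∈ ker π`. -/
theorem ptj_INV_bockSmul_ker (hS : S.Nonempty) (hχ : ptd_IsChar χ)
    (hlev : ptd_IsLev₁ (pta_levelsS S) χ) (hR : ptj_RecipFor I n χ) (z : ptj_AJ S)
    (hz : ∀ g : GQ, ptj_JSrep S g z = z) (hπ : ptj_piJ S z = 0) :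
    ptj_INV I (ptj_unitCocycleHyp S) (ptd_bockSmul n χ z) = 0 := by
  obtain ⟨a, u, hu, hug, hzu⟩ := ptj_ker_invariant_decomp hS z hz hπ
  set û : ptj_AJ S := Additive.ofMul ⟨u, ptj_US_le_JS hu⟩ with hû
  have hz' : z = ptj_ratIdele S a + û := by
    apply Additive.toMul.injective
    apply Subtype.ext
    exact hzu
  have hûinv : ∀ g : GQ, ptj_JSrep S g û = û := by
    intro g
    rw [ptj_JSrep_apply]
    apply congrArg Additive.ofMul
    apply Subtype.ext
    exact hug g
  rw [hz', ptn_bockSmul_add]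
  unfold ptj_INV
  rw [(ptj_locFam I (ptj_unitCocycleHyp S)).INV_add
    (ptj_isLZ2_bockSmul hχ hlev (ptj_ratIdele_invariant S a)) (ptj_isLZ2_bockSmul hχ hlev hûinv)]
  have h1 := ptj_INV_bockSmul_rat (S := S) I hR a
  have h2 := ptj_INV_bockSmul_unit I hχ hlev û hu hûinv
  unfold ptj_INV at h1 h2
  rw [h1, h2, add_zero]

attribute [local instance] Subgroup.fintypeQuotientOfFiniteIndex

/-- **(b2)** over an open subgroup `V`: for a level character `χ` of `G_ℚ` satisfying reciprocity,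
the invariant `INV_V = INV ∘ cor` of `z · δ(χ|V)` vanishes for every `V`-invariant `z ∈ ker π`. -/
theorem ptj_INVU_bockSmul_ker (hS : S.Nonempty) (hχ : ptd_IsChar χ)
    (hlev : ptd_IsLev₁ (pta_levelsS S) χ) (hR : ptj_RecipFor I n χ) (V : Subgroup GQ)
    (hV : (pta_levelsS S).IsOpen V) (z : ptj_AJ S)
    (hz : ∀ v ∈ V, ptj_JSrep S v z = z) (hπ : ptj_piJ S z = 0) :
    (ptj_locFam I (ptj_unitCocycleHyp S)).INVU V hV (ptd_bockSmul n (fun v : V => χ v) z) = 0 := by
  haveI := hV.finiteIndex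
  have hB := ptd_cor₂_bockSmul_sub_isB2 V (ptj_JSrep S) hV hχ hlev hz
  have hNinv : ∀ g : GQ, ptj_JSrep S g (∑ q : GQ ⧸ V, ptj_JSrep S q.out z) =
      ∑ q : GQ ⧸ V, ptj_JSrep S q.out z := by
    intro g
    rw [map_sum]
    have key := ptd_sum_out_mul V (fun t => ptj_JSrep S t z) (fun t u hu => by
      show ptj_JSrep S (t * u) z = ptj_JSrep S t z
      rw [map_mul, Module.End.mul_apply, hz u hu]) g
    simp only [map_mul, Module.End.mul_apply] at key
    exact key
  have hNπ : ptj_piJ S (∑ q : GQ ⧸ V, ptj_JSrep S q.out z) = 0 := by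
    rw [map_sum]
    refine Finset.sum_eq_zero fun q _ => ?_
    rw [ptj_piJ_equiv, hπ, map_zero]
  have hyV : ptd_IsLZ2 ((pta_levelsS S).sub V hV) (ptd_resRep (ptj_JSrep S) V)
      (ptd_bockSmul n (fun v : V => χ v) z) :=
    ⟨ptn_isZ2_bockSmul (ρ := ptd_resRep (ptj_JSrep S) V) (ptn_isChar_res hχ V)
        (fun v : V => hz (v : GQ) v.2), ptn_isLev₂_bockSmul (hlev.res V hV) z⟩
  have hcong := (ptj_locFam I (ptj_unitCocycleHyp S)).INV_congr (ptj_isDiscrete_JS S)
    (ptd_isLZ2_cor₂ V hV (ptj_JSrep S) hyV) hB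
  show (ptj_locFam I (ptj_unitCocycleHyp S)).INV
    (ptd_cor₂ V (ptj_JSrep S) (ptd_bockSmul n (fun v : V => χ v) z)) = 0
  rw [← hcong]
  exact ptj_INV_bockSmul_ker I hS hχ hlev hR _ hNinv hNπ

end Fermat.Agent.Lib.PT

end
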