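/-
S55 (Poitou–Tate long haul), G-track, (CR) (helper6, prefix `ptl_`): **(P2) SHARP HENSEL**.
For `p` odd, every `v ∈ ℤ_p` with `v ≡ 1 mod p^(m+1)` is a `p^m`-th power in `ℤ_p`
(`ptl_exists_padicInt_pow_eq`).  Proof: `(ℤ/p^(2m+1))ˣ ⊇ ker(mod p) = ⟨1+p⟩` is cyclic of order `p^(2m)`
(RcpTower), so `v ≡ a^(p^m) mod p^(2m+1)` for an integer `a`; then Mathlib's `hensels_lemma` for
`X^(p^m) - v` at `a` (`‖F a‖ ≤ p^-(2m+1) < p^(-2m) = ‖F' a‖²`).
-/
import Fermat.Agent.Lib.PT.RcpTower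

set_option autoImplicit false
set_option linter.unusedSectionVars false

namespace Fermat.Agent.Lib.PT

open Polynomial

section Hensel

variable {p : ℕ} [hp : Fact p.Prime]

lemma ptl_isUnit_of_toZModPow_eq_one {k : ℕ} (hk : 0 < k) {v : ℤ_[p]}
    (hv : PadicInt.toZModPow k v = 1) : IsUnit v := by
  have hv1 : v - 1 ∈ Ideal.span {(p : ℤ_[p]) ^ k} := by
    rw [← PadicInt.ker_toZModPow, RingHom.mem_ker, map_sub, hv, map_one, sub_self]
  have h2 : 1 - v ∈ nonunits ℤ_[p] := by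
    rw [PadicInt.mem_nonunits]
    have h3 : ‖v - 1‖ ≤ (p : ℝ) ^ (-(k : ℤ)) := (PadicInt.norm_le_pow_iff_mem_span_pow _ _).mpr hv1
    have h4 : (p : ℝ) ^ (-(k : ℤ)) < 1 := by
      rw [zpow_neg, zpow_natCast]
      apply inv_lt_one_of_one_lt₀
      exact one_lt_pow₀ (by exact_mod_cast hp.out.one_lt) hk.ne'
    rw [← norm_neg, neg_sub]
    exact lt_of_le_of_lt h3 h4
  have := IsLocalRing.isUnit_one_sub_self_of_mem_nonunits _ h2
  simpa using this

/-- **(P2), sharp Hensel**: for `p` odd, every `v ≡ 1 mod p^(m+1)` in `ℤ_p` is a `p^m`-th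
power. -/
theorem ptl_exists_padicInt_pow_eq (hp2 : p ≠ 2) (m : ℕ) (v : ℤ_[p])
    (hv : PadicInt.toZModPow (m + 1) v = 1) : ∃ z : ℤ_[p], z ^ p ^ m = v := by
  set n := 2 * m with hn
  have hmn : m + 1 ≤ n + 1 := by omega
  have hvu : IsUnit v := ptl_isUnit_of_toZModPow_eq_one (Nat.succ_pos m) hv
  -- the class of `v` modulo `p^(n+1)`
  set vb : (ZMod (p ^ (n + 1)))ˣ := (hvu.map (PadicInt.toZModPow (n + 1))).unit with hvb
  have hvb_coe : (vb : ZMod (p ^ (n + 1))) = PadicInt.toZModPow (n + 1) v := rfl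
  have hc2 : ZMod.castHom (pow_dvd_pow p hmn) (ZMod (p ^ (m + 1))) (vb : ZMod (p ^ (n + 1))) = 1 := by
    rw [hvb_coe, ← RingHom.comp_apply, PadicInt.zmod_cast_comp_toZModPow _ _ hmn, hv]
  -- `vb ∈ ker (mod p)`
  have hker : vb ∈ (ptl_redP p n).ker := by
    rw [MonoidHom.mem_ker]
    apply Units.ext
    unfold ptl_redP
    rw [ZMod.unitsMap_def, Units.coe_map, MonoidHom.coe_coe, Units.val_one]
    have hcomp : ZMod.castHom (dvd_pow_self p (Nat.succ_ne_zero n)) (ZMod p) =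
        (ZMod.castHom (dvd_pow_self p (Nat.succ_ne_zero m)) (ZMod p)).comp
          (ZMod.castHom (pow_dvd_pow p hmn) (ZMod (p ^ (m + 1)))) := Subsingleton.elim _ _
    rw [hcomp, RingHom.comp_apply, hc2, map_one]
  rw [← ptl_zpowers_onePlusP n hp2, ← mem_powers_iff_mem_zpowers, Submonoid.mem_powers_iff] at hker
  obtain ⟨j, hj⟩ := hker
  -- reduce mod `p^(m+1)`: `p^m ∣ j`
  have hred : ZMod.unitsMap (pow_dvd_pow p hmn) (ptl_onePlusP p n) = ptl_onePlusP p m := by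
    apply Units.ext
    rw [ZMod.unitsMap_def, Units.coe_map, MonoidHom.coe_coe, ptl_onePlusP_coe, ptl_onePlusP_coe,
      map_add, map_one, map_natCast]
  have hred2 : ZMod.unitsMap (pow_dvd_pow p hmn) vb = 1 := by
    apply Units.ext
    rw [ZMod.unitsMap_def, Units.coe_map, MonoidHom.coe_coe, hc2, Units.val_one]
  have hj2 : ptl_onePlusP p m ^ j = 1 := by
    rw [← hred, ← map_pow, hj, hred2]
  have hdvd : p ^ m ∣ j := by
    rw [← ptl_orderOf_onePlusP m hp2]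
    exact orderOf_dvd_of_pow_eq_one hj2
  obtain ⟨j', rfl⟩ := hdvd
  -- the approximation
  set a : ℤ_[p] := ((1 + p : ℕ) : ℤ_[p]) ^ j' with ha
  have ha1 : ‖((1 + p : ℕ) : ℤ_[p])‖ = 1 := by
    apply le_antisymm (PadicInt.norm_le_one _)
    by_contra hlt
    rw [not_le, PadicInt.norm_natCast_lt_one_iff] at hlt
    have : p ∣ 1 := (Nat.dvd_add_left (dvd_refl p)).mp hlt
    exact hp.out.one_lt.ne' (Nat.dvd_one.mp this)
  have hanorm : ‖a‖ = 1 := by rw [ha, norm_pow, ha1, one_pow]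
  have hmap : PadicInt.toZModPow (n + 1) (a ^ p ^ m) = PadicInt.toZModPow (n + 1) v := by
    rw [← hvb_coe, ← hj, ha, map_pow, map_pow, map_natCast, Units.val_pow_eq_pow_val,
      ptl_onePlusP_coe, ← pow_mul, mul_comm j' (p ^ m)]
    push_cast
    rfl
  have hclose : ‖a ^ p ^ m - v‖ ≤ (p : ℝ) ^ (-((n + 1 : ℕ) : ℤ)) := by
    rw [PadicInt.norm_le_pow_iff_mem_span_pow, ← PadicInt.ker_toZModPow, RingHom.mem_ker, map_sub,
      hmap, sub_self]
  -- Hensel
  set F : Polynomial ℤ_[p] := X ^ p ^ m - C v with hF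
  have hFa : F.aeval a = a ^ p ^ m - v := by simp [hF]
  have hF'a : F.derivative.aeval a = ((p ^ m : ℕ) : ℤ_[p]) * a ^ (p ^ m - 1) := by
    simp [hF, derivative_X_pow]
  have hF'norm : ‖F.derivative.aeval a‖ = (p : ℝ) ^ (-(m : ℤ)) := by
    rw [hF'a, norm_mul, norm_pow, hanorm, one_pow, mul_one]
    push_cast
    exact PadicInt.norm_p_pow m
  have hnorm : ‖F.aeval a‖ < ‖F.derivative.aeval a‖ ^ 2 := by
    rw [hFa, hF'norm]
    refine lt_of_le_of_lt hclose ?_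
    rw [← zpow_natCast, ← zpow_mul]
    apply zpow_lt_zpow_right₀ (by exact_mod_cast hp.out.one_lt)
    push_cast
    omega
  obtain ⟨z, hz, -⟩ := hensels_lemma hnorm
  refine ⟨z, ?_⟩
  have : F.aeval z = z ^ p ^ m - v := by simp [hF]
  rw [this] at hz
  exact sub_eq_zero.mp hz

end Hensel

end Fermat.Agent.Lib.PT
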