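/-
S55 (Poitou–Tate long haul), G-track, (CR) (helper6, prefix `ptl_`): THE KEY LOCAL STATEMENT AT `p`.
* `ptl_emb q a`, `ptl_locInv q p χ a := ptn_invG (pti_localLevelData q p) _ (a · δχ)` for
  `a ∈ ℚ_qˣ`, `χ : G_q → ZMod n` a level character: a homomorphism in `a` (`ptl_locInvHom`,
  `ptl_locInv_mul/_pow/_zpow/_inv`), killed by `n`, trivial on `n`-th powers and on coboundaries;
* `ptl_exists_frac_of_tors`, `ptl_frac_pow_eq_iff` : the `p^m`-torsion of `ℚ/ℤ_(p)`;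
* `ptl_intUnit : ℤ_pˣ →* ℚ_pˣ`, `ptl_redUnit`, `ptl_natUnit`, `ptl_exists_unit_decomp`
  (`a = p^v u`);
* **`ptl_keyP`** : `∃ k₀` prime to `p` with
  `inv_p(u · δ(χ_m ∘ r_p)) = k₀ · λ_m(u mod p^(m+1)) / p^m` for all `u ∈ ℤ_pˣ`
  (from (P1) `p` is a norm, (P2) sharp Hensel, (P4) surjectivity, helper9's (L-cyc));
* compatibility in `m`: `ptl_locInv_chiLoc_succ` (`δχ_m = p · δχ_{m+1}`), `ptl_LamP_succ`.
-/
import Fermat.Agent.Lib.PT.RcpLocP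
import Fermat.Agent.Lib.PT.RcpHensel
import Fermat.Agent.Lib.PT.BrauerEvalCyc
import Fermat.Agent.Lib.PT.BrgGen
import Fermat.Agent.Lib.PT.BrgMore

set_option autoImplicit false
set_option linter.unusedSectionVars false

namespace Fermat.Agent.Lib.PT

open ExtCitation

section Frac

variable {p : ℕ} [hp : Fact p.Prime]

/-- `n / p^m = n' / p^m` in `ℚ/ℤ_(p)` iff `p^m ∣ n - n'` -/
lemma ptl_frac_pow_eq_iff (m : ℕ) (k k' : ℤ) :
    ptn_frac p k (p ^ m) = ptn_frac p k' (p ^ m) ↔ ((p ^ m : ℕ) : ℤ) ∣ k - k' := by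
  rw [← sub_eq_zero, ← ptn_frac_sub, ptn_frac_eq_zero_iff _ _ (pow_ne_zero m hp.out.ne_zero),
    Nat.Prime.factorization_pow hp.out]
  simp

lemma ptl_frac_aux (j d P a b : ℚ) (hd : d ≠ 0) (hP : P ≠ 0) (hbez : d * a + P * b = 1) :
    d * (-(j / (d * P)) + j * a / P) = -(j * b) := by
  have h1 : d * (-(j / (d * P)) + j * a / P) = (j * (d * a - 1)) / P := by
    field_simp
    ring
  rw [h1, div_eq_iff hP]
  linear_combination j * hbez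

/-- every `p^m`-torsion element of `ℚ/ℤ_(p)` is `k / p^m` -/
lemma ptl_exists_frac_of_tors (m : ℕ) (t : ptn_T p) (ht : p ^ m • t = 0) :
    ∃ k : ℕ, t = ptn_frac p k (p ^ m) := by
  obtain ⟨q, rfl⟩ := QuotientAddGroup.mk_surjective t
  rw [← QuotientAddGroup.mk_nsmul, QuotientAddGroup.eq_zero_iff] at ht
  obtain ⟨d, hd, j, hj⟩ := ht
  have hcop : Nat.Coprime d (p ^ m) :=
    Nat.Coprime.pow_right m ((Nat.Prime.coprime_iff_not_dvd hp.out).mpr hd).symm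
  have hbez : (d : ℤ) * Nat.gcdA d (p ^ m) + ((p ^ m : ℕ) : ℤ) * Nat.gcdB d (p ^ m) = 1 := by
    have := Nat.gcd_eq_gcd_ab d (p ^ m)
    rw [hcop.gcd_eq_one] at this
    rw [← this]; simp
  have hd0 : (d : ℚ) ≠ 0 := by
    have : d ≠ 0 := fun h0 => hd (h0 ▸ dvd_zero p)
    exact_mod_cast this
  have hp0 : ((p ^ m : ℕ) : ℚ) ≠ 0 := by exact_mod_cast pow_ne_zero m hp.out.ne_zero
  have key : (QuotientAddGroup.mk q : ptn_T p) = ptn_frac p (j * Nat.gcdA d (p ^ m)) (p ^ m) := by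
    unfold ptn_frac
    rw [QuotientAddGroup.eq]
    refine ⟨d, hd, -(j * Nat.gcdB d (p ^ m)), ?_⟩
    have hbezQ : (d : ℚ) * ((Nat.gcdA d (p ^ m) : ℤ) : ℚ) +
        ((p ^ m : ℕ) : ℚ) * ((Nat.gcdB d (p ^ m) : ℤ) : ℚ) = 1 := by
      exact_mod_cast hbez
    rw [nsmul_eq_mul] at hj
    have hq : q = (j : ℚ) / (d * ((p ^ m : ℕ) : ℚ)) := by
      field_simp
      linear_combination hj
    rw [hq]
    have := ptl_frac_aux (j : ℚ) d ((p ^ m : ℕ) : ℚ) ((Nat.gcdA d (p ^ m) : ℤ) : ℚ)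
      ((Nat.gcdB d (p ^ m) : ℤ) : ℚ) hd0 hp0 hbezQ
    push_cast at this ⊢
    exact this
  have hmod : ((p ^ m : ℕ) : ℤ) ∣ j * Nat.gcdA d (p ^ m) - ((j * Nat.gcdA d (p ^ m)) % ((p ^ m : ℕ) : ℤ)) :=
    Int.dvd_self_sub_emod
  have hnn : 0 ≤ (j * Nat.gcdA d (p ^ m)) % ((p ^ m : ℕ) : ℤ) :=
    Int.emod_nonneg _ (by exact_mod_cast pow_ne_zero m hp.out.ne_zero)
  refine ⟨((j * Nat.gcdA d (p ^ m)) % ((p ^ m : ℕ) : ℤ)).toNat, ?_⟩
  rw [key, Int.toNat_of_nonneg hnn, ptl_frac_pow_eq_iff]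
  exact hmod

end Frac


section LocInv

variable (q : ℕ) [Fact q.Prime] (p : ℕ) [hp : Fact p.Prime]

local notation "Gq" => (PadicAlgCl q ≃ₐ[ℚ_[q]] PadicAlgCl q)

/-- `a ∈ ℚ_qˣ` as an element of `Additive Ω_qˣ` -/
noncomputable def ptl_emb (a : ℚ_[q]ˣ) : Additive (PadicAlgCl q)ˣ :=
  Additive.ofMul (Units.map (algebraMap ℚ_[q] (PadicAlgCl q) : ℚ_[q] →* PadicAlgCl q) a)

lemma ptl_emb_mul (a b : ℚ_[q]ˣ) : ptl_emb q (a * b) = ptl_emb q a + ptl_emb q b := by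
  unfold ptl_emb; rw [map_mul, ofMul_mul]

lemma ptl_emb_pow (a : ℚ_[q]ˣ) (k : ℕ) : ptl_emb q (a ^ k) = k • ptl_emb q a := by
  unfold ptl_emb; rw [map_pow, ofMul_pow]

lemma ptl_emb_fixed (σ : Gq) (a : ℚ_[q]ˣ) : ptg_unitsRep q σ (ptl_emb q a) = ptl_emb q a := by
  unfold ptl_emb
  rw [ptl_unitsRep_apply]
  apply congrArg Additive.ofMul
  apply Units.ext
  simp only [Units.coe_map, MonoidHom.coe_coe]
  exact σ.commutes _

variable {n : ℕ} [NeZero n]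

/-- the local invariant of `a · δχ`, `a ∈ ℚ_qˣ` -/
noncomputable def ptl_locInv (χ : Gq → ZMod n) (a : ℚ_[q]ˣ) : ptn_T p :=
  ptn_invG (pti_localLevelData q p) (ptg_isDiscrete_units q) (ptd_bockSmul n χ (ptl_emb q a))

variable {χ : (PadicAlgCl q ≃ₐ[ℚ_[q]] PadicAlgCl q) → ZMod n} (hχ : ptd_IsChar χ)
  (hlev : ptd_IsLev₁ (ptg_levels q) χ)

include hχ hlev in
lemma ptl_bockSmul_emb_isLZ2 (a : ℚ_[q]ˣ) :
    ptd_IsLZ2 (ptg_levels q) (ptg_unitsRep q) (ptd_bockSmul n χ (ptl_emb q a)) :=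
  ptl_bockSmulN_isLZ2 hχ hlev (fun g => ptl_emb_fixed q g a)

include hχ hlev in
lemma ptl_locInv_mul (a b : ℚ_[q]ˣ) :
    ptl_locInv q p χ (a * b) = ptl_locInv q p χ a + ptl_locInv q p χ b := by
  unfold ptl_locInv
  rw [ptl_emb_mul, ptl_bockSmulN_add, ptn_invG_add_all _ _ (ptl_bockSmul_emb_isLZ2 q hχ hlev a)
    (ptl_bockSmul_emb_isLZ2 q hχ hlev b)]

/-- the local invariant `a ↦ inv_q(a · δχ)` as a homomorphism -/
noncomputable def ptl_locInvHom : ℚ_[q]ˣ →* Multiplicative (ptn_T p) :=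
  MonoidHom.mk' (fun a => Multiplicative.ofAdd (ptl_locInv q p χ a))
    (fun a b => by rw [ptl_locInv_mul q p hχ hlev]; rfl)

lemma ptl_locInvHom_apply (a : ℚ_[q]ˣ) :
    ptl_locInvHom q p hχ hlev a = Multiplicative.ofAdd (ptl_locInv q p χ a) := rfl

include hχ hlev in
lemma ptl_locInv_one : ptl_locInv q p χ 1 = 0 := by
  have := map_one (ptl_locInvHom q p hχ hlev)
  rw [ptl_locInvHom_apply] at this
  exact this

include hχ hlev in
lemma ptl_locInv_inv (a : ℚ_[q]ˣ) : ptl_locInv q p χ a⁻¹ = -ptl_locInv q p χ a := by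
  have := map_inv (ptl_locInvHom q p hχ hlev) a
  rw [ptl_locInvHom_apply, ptl_locInvHom_apply] at this
  exact this

include hχ hlev in
lemma ptl_locInv_pow (a : ℚ_[q]ˣ) (k : ℕ) : ptl_locInv q p χ (a ^ k) = k • ptl_locInv q p χ a := by
  have := map_pow (ptl_locInvHom q p hχ hlev) a k
  rw [ptl_locInvHom_apply, ptl_locInvHom_apply] at this
  exact this

include hχ hlev in
lemma ptl_locInv_zpow (a : ℚ_[q]ˣ) (k : ℤ) : ptl_locInv q p χ (a ^ k) = k • ptl_locInv q p χ a := by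
  have := map_zpow (ptl_locInvHom q p hχ hlev) a k
  rw [ptl_locInvHom_apply, ptl_locInvHom_apply] at this
  exact this

include hχ hlev in
/-- `n`-th powers have trivial invariant -/
lemma ptl_locInv_pow_self (a : ℚ_[q]ˣ) : ptl_locInv q p χ (a ^ n) = 0 := by
  unfold ptl_locInv
  rw [ptl_emb_pow]
  exact (ptn_invG (pti_localLevelData q p) (ptg_isDiscrete_units q)).map_b2' _
    (ptl_bockSmulN_nsmul_isB2 hχ hlev (fun g => ptl_emb_fixed q g a))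

include hχ hlev in
lemma ptl_nsmul_locInv (a : ℚ_[q]ˣ) : n • ptl_locInv q p χ a = 0 := by
  rw [← ptl_locInv_pow q p hχ hlev, ptl_locInv_pow_self q p hχ hlev]

include hχ hlev in
lemma ptl_locInv_of_isB2 {a : ℚ_[q]ˣ}
    (h : ptd_IsB2 (ptg_levels q) (ptg_unitsRep q) (ptd_bockSmul n χ (ptl_emb q a))) :
    ptl_locInv q p χ a = 0 :=
  (ptn_invG (pti_localLevelData q p) (ptg_isDiscrete_units q)).map_b2' _ h

end LocInv


section PadicUnits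

variable (p : ℕ) [hp : Fact p.Prime]

/-- `ℤ_pˣ → ℚ_pˣ` -/
noncomputable def ptl_intUnit : ℤ_[p]ˣ →* ℚ_[p]ˣ :=
  Units.map ((PadicInt.Coe.ringHom : ℤ_[p] →+* ℚ_[p]) : ℤ_[p] →* ℚ_[p])

lemma ptl_intUnit_coe (u : ℤ_[p]ˣ) : ((ptl_intUnit p u : ℚ_[p]ˣ) : ℚ_[p]) = ((u : ℤ_[p]) : ℚ_[p]) :=
  rfl

/-- reduction `ℤ_pˣ → (ℤ/p^k)ˣ` -/
noncomputable def ptl_redUnit (k : ℕ) : ℤ_[p]ˣ →* (ZMod (p ^ k))ˣ :=
  Units.map ((PadicInt.toZModPow k : ℤ_[p] →+* ZMod (p ^ k)) : ℤ_[p] →* ZMod (p ^ k))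

lemma ptl_redUnit_coe (k : ℕ) (u : ℤ_[p]ˣ) :
    ((ptl_redUnit p k u : (ZMod (p ^ k))ˣ) : ZMod (p ^ k)) = PadicInt.toZModPow k (u : ℤ_[p]) := rfl

lemma ptl_isUnit_natCast {k : ℕ} (hk : ¬ p ∣ k) : IsUnit (k : ℤ_[p]) := by
  rw [PadicInt.isUnit_iff]
  apply le_antisymm (PadicInt.norm_le_one _)
  by_contra hlt
  rw [not_le, PadicInt.norm_natCast_lt_one_iff] at hlt
  exact hk hlt

/-- a natural number prime to `p` as a unit of `ℤ_p` -/
noncomputable def ptl_natUnit (k : ℕ) (hk : ¬ p ∣ k) : ℤ_[p]ˣ := (ptl_isUnit_natCast p hk).unit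

lemma ptl_natUnit_coe (k : ℕ) (hk : ¬ p ∣ k) : ((ptl_natUnit p k hk : ℤ_[p]ˣ) : ℤ_[p]) = k := rfl

lemma ptl_redUnit_natUnit (n k : ℕ) (hk : ¬ p ∣ k) :
    ((ptl_redUnit p n (ptl_natUnit p k hk) : (ZMod (p ^ n))ˣ) : ZMod (p ^ n)) = (k : ZMod (p ^ n)) := by
  rw [ptl_redUnit_coe, ptl_natUnit_coe, map_natCast]

/-- every `a ∈ ℚ_pˣ` is `p^v · u` with `u ∈ ℤ_pˣ` -/
lemma ptl_exists_unit_decomp (a : ℚ_[p]ˣ) :
    ∃ (v : ℤ) (u : ℤ_[p]ˣ), a = ptl_pUnit p ^ v * ptl_intUnit p u := by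
  have ha0 : (a : ℚ_[p]) ≠ 0 := a.ne_zero
  have hp0 : (p : ℚ_[p]) ≠ 0 := by exact_mod_cast hp.out.ne_zero
  have hpR : (p : ℝ) ≠ 0 := by exact_mod_cast hp.out.ne_zero
  set v := (a : ℚ_[p]).valuation with hv
  have hx : ‖(a : ℚ_[p]) * (p : ℚ_[p]) ^ (-v)‖ = 1 := by
    rw [norm_mul, norm_zpow, Padic.norm_p, Padic.norm_eq_zpow_neg_valuation ha0, ← hv, inv_zpow,
      zpow_neg, inv_inv, inv_mul_cancel₀ (zpow_ne_zero _ hpR)]
  refine ⟨v, PadicInt.mkUnits hx, ?_⟩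
  apply Units.ext
  rw [Units.val_mul, ptl_intUnit_coe, PadicInt.mkUnits_eq, Units.val_zpow_eq_zpow_val]
  unfold ptl_pUnit
  rw [Units.val_mk0, mul_comm, mul_assoc, ← zpow_add₀ hp0, neg_add_cancel, zpow_zero, mul_one]

end PadicUnits

section Coprime

lemma ptl_eq_zero_of_coprime_nsmul {A : Type*} [AddCommGroup A] {x y : ℕ} (h : Nat.Coprime x y)
    {t : A} (hx : x • t = 0) (hy : y • t = 0) : t = 0 := by
  have h1 := addOrderOf_dvd_of_nsmul_eq_zero hx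
  have h2 := addOrderOf_dvd_of_nsmul_eq_zero hy
  have h3 := Nat.dvd_gcd h1 h2
  rw [h.gcd_eq_one, Nat.dvd_one] at h3
  exact AddMonoid.addOrderOf_eq_one_iff.mp h3

end Coprime


section KeyP

variable {p : ℕ} [hp : Fact p.Prime] (hp2 : p ≠ 2) (m : ℕ)

/-- the local invariant at `p` of `a · δ(χ_m ∘ r_p)` -/
noncomputable abbrev ptl_invP (a : ℚ_[p]ˣ) : ptn_T p := ptl_locInv p p (ptl_chiLoc p p m hp2) a

/-- `Λ_m u = λ_m (u mod p^(m+1))` for `u ∈ ℤ_pˣ` -/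
noncomputable def ptl_LamP (u : ℤ_[p]ˣ) : ZMod (p ^ m) := ptl_lam p m hp2 (ptl_redUnit p (m + 1) u)

lemma ptl_LamP_mul (u v : ℤ_[p]ˣ) : ptl_LamP hp2 m (u * v) = ptl_LamP hp2 m u + ptl_LamP hp2 m v := by
  unfold ptl_LamP; rw [map_mul, ptl_lam_mul]

lemma ptl_LamP_pow (u : ℤ_[p]ˣ) (k : ℕ) : ptl_LamP hp2 m (u ^ k) = k • ptl_LamP hp2 m u := by
  unfold ptl_LamP; rw [map_pow, ptl_lam_pow]

lemma ptl_LamP_inv (u : ℤ_[p]ˣ) : ptl_LamP hp2 m u⁻¹ = -ptl_LamP hp2 m u := by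
  unfold ptl_LamP; rw [map_inv, ptl_lam_inv]

/-- `ker Λ_m ⊆ ker A_m`: units which are `(p-1)`-th roots of unity mod `p^(m+1)` have trivial
invariant (sharp Hensel + `p-1` prime to `p`) -/
lemma ptl_invP_of_LamP_eq_zero (u : ℤ_[p]ˣ) (h : ptl_LamP hp2 m u = 0) :
    ptl_invP hp2 m (ptl_intUnit p u) = 0 := by
  have hχ := ptl_chiLoc_isChar (q := p) (p := p) (m := m) hp2
  have hlev := ptl_chiLoc_isLev₁ (q := p) (p := p) (m := m) hp2
  unfold ptl_LamP at h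
  rw [ptl_lam_eq_zero_iff] at h
  have h1 : PadicInt.toZModPow (m + 1) ((u : ℤ_[p]) ^ (p - 1)) = 1 := by
    have := congrArg (fun w : (ZMod (p ^ (m + 1)))ˣ => (w : ZMod (p ^ (m + 1)))) h
    simp only [Units.val_pow_eq_pow_val, Units.val_one, ptl_redUnit_coe] at this
    rw [map_pow]; exact this
  obtain ⟨z, hz⟩ := ptl_exists_padicInt_pow_eq hp2 m _ h1
  have hpm : p ^ m ≠ 0 := pow_ne_zero m hp.out.ne_zero
  have hzu : IsUnit z := by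
    rw [← isUnit_pow_iff hpm, hz]
    exact (u ^ (p - 1)).isUnit
  have hzu' : hzu.unit ^ p ^ m = u ^ (p - 1) := by
    apply Units.ext
    rw [Units.val_pow_eq_pow_val, Units.val_pow_eq_pow_val, IsUnit.unit_spec, hz]
  have h2 : (p - 1) • ptl_invP hp2 m (ptl_intUnit p u) = 0 := by
    rw [← ptl_locInv_pow p p hχ hlev, ← map_pow, ← hzu', map_pow, ptl_locInv_pow_self p p hχ hlev]
  have h3 : p ^ m • ptl_invP hp2 m (ptl_intUnit p u) = 0 := ptl_nsmul_locInv p p hχ hlev _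
  have hcop : Nat.Coprime (p - 1) (p ^ m) := by
    apply Nat.Coprime.pow_right
    rw [Nat.coprime_comm, Nat.Prime.coprime_iff_not_dvd hp.out]
    intro hd
    have h1 := hp.out.one_lt
    have := Nat.le_of_dvd (by omega) hd
    omega
  exact ptl_eq_zero_of_coprime_nsmul hcop h2 h3

/-- `Λ_m` takes the value `1` -/
lemma ptl_exists_LamP_eq_one : ∃ g : ℤ_[p]ˣ, ptl_LamP hp2 m g = 1 := by
  obtain ⟨w, hw⟩ := ptl_lam_surjective (p := p) (m := m) hp2 1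
  have hcop : (w : ZMod (p ^ (m + 1))).val.Coprime (p ^ (m + 1)) := ZMod.val_coe_unit_coprime w
  have hk : ¬ p ∣ (w : ZMod (p ^ (m + 1))).val := by
    intro hd
    have h1 : p ∣ Nat.gcd (w : ZMod (p ^ (m + 1))).val (p ^ (m + 1)) :=
      Nat.dvd_gcd hd (dvd_pow_self p (Nat.succ_ne_zero m))
    rw [hcop.gcd_eq_one, Nat.dvd_one] at h1
    exact hp.out.one_lt.ne' h1
  refine ⟨ptl_natUnit p _ hk, ?_⟩
  unfold ptl_LamP
  have : ptl_redUnit p (m + 1) (ptl_natUnit p _ hk) = w := by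
    apply Units.ext
    rw [ptl_redUnit_natUnit, ZMod.natCast_zmod_val]
  rw [this, hw]

/-- `A_m` on `ℤ_pˣ` factors through `Λ_m` -/
lemma ptl_invP_intUnit {g : ℤ_[p]ˣ} (hg : ptl_LamP hp2 m g = 1) (u : ℤ_[p]ˣ) :
    ptl_invP hp2 m (ptl_intUnit p u) =
      (ptl_LamP hp2 m u).val • ptl_invP hp2 m (ptl_intUnit p g) := by
  have hχ := ptl_chiLoc_isChar (q := p) (p := p) (m := m) hp2
  have hlev := ptl_chiLoc_isLev₁ (q := p) (p := p) (m := m) hp2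
  set k := (ptl_LamP hp2 m u).val with hk
  have h0 : ptl_LamP hp2 m (u * (g ^ k)⁻¹) = 0 := by
    rw [ptl_LamP_mul, ptl_LamP_inv, ptl_LamP_pow, hg, nsmul_eq_mul, mul_one, hk,
      ZMod.natCast_zmod_val, add_neg_cancel]
  have h1 := ptl_invP_of_LamP_eq_zero hp2 m _ h0
  have h2 : ptl_intUnit p u = ptl_intUnit p (u * (g ^ k)⁻¹) * ptl_intUnit p g ^ k := by
    rw [← map_pow, ← map_mul, inv_mul_cancel_right]
  unfold ptl_invP at h1 ⊢
  rw [h2, ptl_locInv_mul p p hχ hlev, h1, zero_add, ptl_locInv_pow p p hχ hlev]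

/-- **KEY LOCAL STATEMENT AT `p`**: there is a `p`-adic unit `k₀` (mod `p^m`) with
`inv_p(u · δ(χ_m ∘ r_p)) = k₀ · λ_m(u mod p^(m+1)) / p^m` for all `u ∈ ℤ_pˣ`. -/
theorem ptl_keyP : ∃ k₀ : ℕ, ¬ p ∣ k₀ ∧ ∀ u : ℤ_[p]ˣ,
    ptl_invP hp2 m (ptl_intUnit p u) =
      ptn_frac p ((k₀ * (ptl_LamP hp2 m u).val : ℕ) : ℤ) (p ^ m) := by
  have hχ := ptl_chiLoc_isChar (q := p) (p := p) (m := m) hp2
  have hlev := ptl_chiLoc_isLev₁ (q := p) (p := p) (m := m) hp2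
  rcases Nat.eq_zero_or_pos m with hm | hm
  · subst hm
    refine ⟨1, by simpa using hp.out.one_lt.ne', fun u => ?_⟩
    have h1 := ptl_nsmul_locInv p p hχ hlev (ptl_intUnit p u)
    unfold ptl_invP
    generalize ptl_locInv p p (ptl_chiLoc p p 0 hp2) (ptl_intUnit p u) = t at h1 ⊢
    generalize (((1 * (ptl_LamP hp2 0 u).val : ℕ) : ℤ)) = x
    rw [pow_zero, one_nsmul] at h1
    have h2 := ptn_smul_frac (p := p) x 1 one_ne_zero
    rw [one_nsmul] at h2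
    rw [pow_zero, h2, h1]
  obtain ⟨g, hg⟩ := ptl_exists_LamP_eq_one hp2 m
  obtain ⟨k₀, hk₀⟩ := ptl_exists_frac_of_tors m _
    (ptl_nsmul_locInv p p hχ hlev (ptl_intUnit p g))
  have hform : ∀ u : ℤ_[p]ˣ, ptl_invP hp2 m (ptl_intUnit p u) =
      ptn_frac p ((k₀ * (ptl_LamP hp2 m u).val : ℕ) : ℤ) (p ^ m) := by
    intro u
    rw [ptl_invP_intUnit hp2 m hg u]
    unfold ptl_invP
    rw [hk₀, ← natCast_zsmul, ← ptn_frac_smul]
    congr 1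
    push_cast; ring
  refine ⟨k₀, ?_, hform⟩
  -- `k₀` is prime to `p`: the invariant takes the value `1 / p^m`
  have hn : 1 < p ^ m := Nat.one_lt_pow hm.ne' hp.out.one_lt
  obtain ⟨a₀, ha₀⟩ := pti_exists_invG_cyc_eq_one p p hn hχ hlev (ptl_chi_local_surjective hp2 m)
  have ha₀' : ptl_invP hp2 m a₀ = ptn_frac p 1 (p ^ m) := ha₀
  obtain ⟨v, u, rfl⟩ := ptl_exists_unit_decomp p a₀
  have hP1 : ptl_invP hp2 m (ptl_pUnit p) = 0 :=
    ptl_locInv_of_isB2 p p hχ hlev (ptl_bockSmul_p_isB2 hp2 m)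
  have hform' := hform u
  unfold ptl_invP at ha₀' hP1 hform'
  rw [ptl_locInv_mul p p hχ hlev, ptl_locInv_zpow p p hχ hlev, hP1, smul_zero, zero_add, hform',
    ptl_frac_pow_eq_iff] at ha₀'
  intro hd
  have h1 : (p : ℤ) ∣ ((k₀ * (ptl_LamP hp2 m u).val : ℕ) : ℤ) - 1 :=
    (Int.natCast_dvd_natCast.mpr (dvd_pow_self p hm.ne')).trans ha₀'
  have h2 : (p : ℤ) ∣ ((k₀ * (ptl_LamP hp2 m u).val : ℕ) : ℤ) := by
    push_cast
    exact Dvd.dvd.mul_right (Int.natCast_dvd_natCast.mpr hd) _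
  have h3 : (p : ℤ) ∣ 1 := by
    have := dvd_sub h2 h1
    rwa [sub_sub_cancel] at this
  have h4 : p ∣ 1 := by exact_mod_cast h3
  exact hp.out.one_lt.ne' (Nat.dvd_one.mp h4)

end KeyP


section Compat

variable (q : ℕ) [Fact q.Prime] {p : ℕ} [hp : Fact p.Prime] (hp2 : p ≠ 2) (m : ℕ)

/-- `δχ_m = p · δχ_{m+1}` on invariants -/
lemma ptl_locInv_chiLoc_succ (a : ℚ_[q]ˣ) :
    ptl_locInv q p (ptl_chiLoc q p m hp2) a = p • ptl_locInv q p (ptl_chiLoc q p (m + 1) hp2) a := by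
  have hχ := ptl_chiLoc_isChar (q := q) (p := p) (m := m) hp2
  have hχ' := ptl_chiLoc_isChar (q := q) (p := p) (m := m + 1) hp2
  have hlev' := ptl_chiLoc_isLev₁ (q := q) (p := p) (m := m + 1) hp2
  have hcast : ∀ g, (((ptl_chiLoc q p (m + 1) hp2 g).val : ℕ) : ZMod (p ^ m)) =
      ptl_chiLoc q p m hp2 g := by
    intro g
    rw [ZMod.natCast_val]
    have := ptl_chi_compat (p := p) (m := m) hp2 (localGaloisToGlobal q g)
    rw [ZMod.castHom_apply] at this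
    exact this
  have hB := ptl_bockSmulN_cast_isB2 (𝓛 := ptg_levels q) (ρC := ptg_unitsRep q) p (pow_succ p m)
    hχ' hlev' hχ hcast (fun g => ptl_emb_fixed q g a)
  unfold ptl_locInv
  rw [← ptn_invG_nsmul_all _ _ (ptl_bockSmul_emb_isLZ2 q hχ' hlev' a)]
  exact (ptn_invG_congr_all _ _ ((ptl_bockSmul_emb_isLZ2 q hχ' hlev' a).nsmul p) hB).symm

/-- compatibility of `Λ_m` -/
lemma ptl_LamP_succ (u : ℤ_[p]ˣ) :
    ZMod.castHom (pow_dvd_pow p (Nat.le_succ m)) (ZMod (p ^ m)) (ptl_LamP hp2 (m + 1) u) =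
      ptl_LamP hp2 m u := by
  unfold ptl_LamP
  rw [← ptl_lam_redPow]
  congr 1
  apply Units.ext
  rw [ptl_redPow_coe, ptl_redUnit_coe, ptl_redUnit_coe, ← RingHom.comp_apply,
    PadicInt.zmod_cast_comp_toZModPow _ _ (Nat.le_succ (m + 1))]

end Compat

end Fermat.Agent.Lib.PT
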