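/-
S55 (Poitou–Tate long haul), G-track, (CR) (helper6, prefix `ptl_`): THE UNRAMIFIED LOCAL TERMS.
* base-field facts: `ptl_abs_base`, `ptl_abs_unif_base`, `ptl_ordZ_base` (`ptl_ordZ q ℚ_q = ` the
  `q`-adic valuation), `ptl_card_k_base` (`#k(ℚ_q) = q`);
* `ptl_chiLoc_eq_zero_of_mem_fixing`, `ptl_chiLoc_frob` : `χ_m ∘ r_q` factors through
  `Gal(ℚ_q(μ_{p^(m+1)})/ℚ_q)` (unramified for `q ≠ p`) and takes the value `λ_m(q mod p^(m+1))` on
  Frobenius lifts;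
* **`ptl_locInv_unr`** : for `q ≠ p`, `a ∈ ℚ_qˣ`:
  `inv_q(a · δ(χ_m ∘ r_q)) = v_q(a) · λ_m(q mod p^(m+1)) / p^m` (from helper9's `pti_invG_unr`).
-/
import Fermat.Agent.Lib.PT.RcpKey
import Fermat.Agent.Lib.PT.LocComp

set_option autoImplicit false
set_option linter.unusedSectionVars false

namespace Fermat.Agent.Lib.PT

open ExtCitation

section Base

variable (q : ℕ) [hq : Fact q.Prime]

lemma ptl_abs_base (x : ℚ_[q]) : ptl_abs q ℚ_[q] x = ‖x‖ := by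
  have := ptl_abs_algebraMap q (K := ℚ_[q]) x
  simpa using this

lemma ptl_abs_unif_base : ptl_abs q ℚ_[q] (ptl_unif q ℚ_[q]) = (q : ℝ)⁻¹ := by
  apply le_antisymm
  · have h1 := ptl_unif_lt_one q ℚ_[q]
    rw [ptl_abs_base] at h1 ⊢
    have := (Padic.norm_le_pow_iff_norm_lt_pow_add_one (ptl_unif q ℚ_[q]) (-1)).mpr
      (by simpa using h1)
    simpa using this
  · have h1 : ptl_abs q ℚ_[q] ((q : ℕ) : ℚ_[q]) < 1 := ptl_abs_q_lt_one q
    have h2 := ptl_abs_le_unif q h1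
    rwa [ptl_abs_q] at h2

lemma ptl_ordZ_base {x : ℚ_[q]} (hx : x ≠ 0) : ptl_ordZ q ℚ_[q] x = x.valuation := by
  apply ptl_ordZ_eq_of_abs
  rw [ptl_abs_base, ptl_abs_unif_base, Padic.norm_eq_zpow_neg_valuation hx, inv_zpow, zpow_neg]

/-- `ℤ_q` is the ring of integers of `ℚ_q` -/
noncomputable def ptl_padicIntEquiv : ℤ_[q] ≃+* ptl_O q ℚ_[q] where
  toFun x := ⟨(x : ℚ_[q]), by rw [ptl_mem_O, ptl_abs_base]; exact x.2⟩
  invFun y := ⟨(y : ℚ_[q]), by have := y.2; rw [ptl_mem_O, ptl_abs_base] at this; exact this⟩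
  left_inv x := rfl
  right_inv y := rfl
  map_mul' x y := rfl
  map_add' x y := rfl

lemma ptl_card_k_base : Nat.card (ptl_k q ℚ_[q]) = q := by
  have e1 : IsLocalRing.ResidueField ℤ_[q] ≃+* ptl_k q ℚ_[q] :=
    IsLocalRing.ResidueField.mapEquiv (ptl_padicIntEquiv q)
  rw [← Nat.card_congr e1.toEquiv, Nat.card_congr (PadicInt.residueField (p := q)).toEquiv,
    Nat.card_eq_fintype_card, ZMod.card]

end Base


section Unr

variable (q : ℕ) [hq : Fact q.Prime] {p : ℕ} [hp : Fact p.Prime] (hp2 : p ≠ 2) (m : ℕ)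

local notation "Gq" => (PadicAlgCl q ≃ₐ[ℚ_[q]] PadicAlgCl q)

/-- the image in `Ω_q` of helper4's `p^n`-th root of unity -/
noncomputable def ptl_zetaLocQ (p : ℕ) [Fact p.Prime] (n : ℕ) : PadicAlgCl q :=
  padicEmbedding q (pts_zetaPow p n)

lemma ptl_zetaLocQ_spec (n : ℕ) : IsPrimitiveRoot (ptl_zetaLocQ q p n) (p ^ n) :=
  (pts_zetaPow_spec p n).map_of_injective (padicEmbedding q).injective

lemma ptl_zetaLocQ_smul (n : ℕ) (σ : Gq) :
    σ (ptl_zetaLocQ q p n) =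
      ptl_zetaLocQ q p n ^ ((pts_cycloPow p n (localGaloisToGlobal q σ) : ZMod (p ^ n))).val := by
  unfold ptl_zetaLocQ
  rw [← padicEmbedding_localGaloisToGlobal, ← pts_cycloPow_spec, map_pow]

/-- the unit `q mod p^(m+1)` for `q ≠ p` -/
noncomputable def ptl_qUnit (hqp : q ≠ p) : (ZMod (p ^ (m + 1)))ˣ :=
  ZMod.unitOfCoprime q (Nat.Coprime.pow_right _ ((Nat.coprime_primes hq.out hp.out).mpr hqp))

lemma ptl_qUnit_coe (hqp : q ≠ p) :
    ((ptl_qUnit q m hqp : (ZMod (p ^ (m + 1)))ˣ) : ZMod (p ^ (m + 1))) = (q : ZMod (p ^ (m + 1))) :=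
  ZMod.coe_unitOfCoprime _ _

/-- the local character is trivial on `Gal(Ω_q / ℚ_q(μ_{p^(m+1)}))` -/
lemma ptl_chiLoc_eq_zero_of_mem_fixing (g : Gq)
    (hg : g ∈ (ptl_cycField ℚ_[q] (PadicAlgCl q) (p ^ (m + 1))).fixingSubgroup) :
    ptl_chiLoc q p m hp2 g = 0 := by
  have hN : p ^ (m + 1) ≠ 0 := pow_ne_zero _ hp.out.ne_zero
  have hmem : ptl_zetaLocQ q p (m + 1) ∈ ptl_cycField ℚ_[q] (PadicAlgCl q) (p ^ (m + 1)) :=
    ptl_root_mem_cycField _ _ hN (ptl_zetaLocQ_spec q (m + 1)).pow_eq_one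
  have h1 : g (ptl_zetaLocQ q p (m + 1)) = ptl_zetaLocQ q p (m + 1) :=
    (IntermediateField.mem_fixingSubgroup_iff _ g).mp hg _ hmem
  have h2 : localGaloisToGlobal q g (pts_zetaPow p (m + 1)) = pts_zetaPow p (m + 1) := by
    have hinj : Function.Injective (⇑(padicEmbedding q)) := (padicEmbedding q).injective
    apply hinj
    rw [padicEmbedding_localGaloisToGlobal]
    exact h1
  show ptl_chi p m hp2 (localGaloisToGlobal q g) = 0
  unfold ptl_chi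
  rw [(pts_cycloPow_eq_one_iff _).mpr h2, ptl_lam_one]

/-- a lift of the Frobenius of `ℚ_q(μ_{p^(m+1)})` raises the roots of unity to the power `q`,
hence `χ_m (r_q φ) = λ_m (q mod p^(m+1))` -/
lemma ptl_chiLoc_frob (hqp : q ≠ p) (φ : Gq)
    (hφ : AlgEquiv.restrictNormalHom (F := ℚ_[q]) ↥(ptl_cycField ℚ_[q] (PadicAlgCl q) (p ^ (m + 1))) φ =
      ptl_frob q ℚ_[q] (ptl_cycField ℚ_[q] (PadicAlgCl q) (p ^ (m + 1)))
        (ptl_cycField_injective q ℚ_[q] (PadicAlgCl q)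
          (Nat.Coprime.pow_left _ ((Nat.coprime_primes hp.out hq.out).mpr (Ne.symm hqp))))) :
    ptl_chiLoc q p m hp2 φ = ptl_lam p m hp2 (ptl_qUnit q m hqp) := by
  have hN : p ^ (m + 1) ≠ 0 := pow_ne_zero _ hp.out.ne_zero
  have hcop : Nat.Coprime (p ^ (m + 1)) q :=
    Nat.Coprime.pow_left _ ((Nat.coprime_primes hp.out hq.out).mpr (Ne.symm hqp))
  set L := ptl_cycField ℚ_[q] (PadicAlgCl q) (p ^ (m + 1)) with hL
  have hζ := ptl_zetaLocQ_spec (p := p) q (m + 1)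
  have hmem : ptl_zetaLocQ q p (m + 1) ∈ L := ptl_root_mem_cycField _ _ hN hζ.pow_eq_one
  -- `φ ζ = ζ ^ q`
  have h1 : φ (ptl_zetaLocQ q p (m + 1)) = ptl_zetaLocQ q p (m + 1) ^ q := by
    have h2 := AlgEquiv.restrictNormal_commutes φ L ⟨_, hmem⟩
    have h3 : (AlgEquiv.restrictNormalHom (F := ℚ_[q]) ↥L φ) ⟨_, hmem⟩ =
        (⟨_, hmem⟩ : L) ^ Nat.card (ptl_k q ℚ_[q]) := by
      rw [hφ]
      exact ptl_frob_root q ℚ_[q] L _ hcop (Subtype.ext (by simpa using hζ.pow_eq_one))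
    rw [ptl_card_k_base] at h3
    have h4 : φ.restrictNormal L ⟨_, hmem⟩ = (⟨_, hmem⟩ : L) ^ q := h3
    rw [h4] at h2
    simpa using h2.symm
  -- transport to `Q̄`
  have h5 : localGaloisToGlobal q φ (pts_zetaPow p (m + 1)) =
      pts_zetaPow p (m + 1) ^ ((ptl_qUnit q m hqp : (ZMod (p ^ (m + 1)))ˣ) : ZMod (p ^ (m + 1))).val := by
    have hinj : Function.Injective (⇑(padicEmbedding q)) := (padicEmbedding q).injective
    apply hinj
    rw [padicEmbedding_localGaloisToGlobal, map_pow, ptl_qUnit_coe, ZMod.val_natCast]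
    show φ (ptl_zetaLocQ q p (m + 1)) = ptl_zetaLocQ q p (m + 1) ^ (q % p ^ (m + 1))
    rw [h1, ← pow_eq_pow_mod _ hζ.pow_eq_one]
  exact ptl_chi_eq_lam_of_pow hp2 _ _ h5

/-- **unramified evaluation at `q ≠ p`**:
`inv_q(a · δ(χ_m ∘ r_q)) = v_q(a) · λ_m(q mod p^(m+1)) / p^m` -/
theorem ptl_locInv_unr (hqp : q ≠ p) (a : ℚ_[q]ˣ) :
    ptl_locInv q p (ptl_chiLoc q p m hp2) a =
      ptn_frac p ((a : ℚ_[q]).valuation * ((ptl_lam p m hp2 (ptl_qUnit q m hqp)).val : ℤ))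
        (p ^ m) := by
  have hcop : Nat.Coprime (p ^ (m + 1)) q :=
    Nat.Coprime.pow_left _ ((Nat.coprime_primes hp.out hq.out).mpr (Ne.symm hqp))
  have hinj := ptl_cycField_injective q ℚ_[q] (PadicAlgCl q) hcop
  have : Normal ℚ_[q] (PadicAlgCl q) := IsAlgClosure.normal ℚ_[q] (PadicAlgCl q)
  obtain ⟨φ, hφ⟩ := AlgEquiv.restrictNormalHom_surjective (F := ℚ_[q])
    (K₁ := ↥(ptl_cycField ℚ_[q] (PadicAlgCl q) (p ^ (m + 1)))) (PadicAlgCl q)
    (ptl_frob q ℚ_[q] (ptl_cycField ℚ_[q] (PadicAlgCl q) (p ^ (m + 1))) hinj)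
  have h1 := pti_invG_unr q p (ptl_cycField ℚ_[q] (PadicAlgCl q) (p ^ (m + 1))) hinj
    (ptl_chiLoc_isChar (q := q) (p := p) (m := m) hp2)
    (ptl_chiLoc_eq_zero_of_mem_fixing q hp2 m) φ hφ a
  unfold ptl_locInv ptl_emb
  rw [h1, ptl_chiLoc_frob q hp2 m hqp φ hφ, ptl_ordZ_base q a.ne_zero]

end Unr

end Fermat.Agent.Lib.PT
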