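/-
S55 (Poitou–Tate long haul), G-track, **(CR): CYCLOTOMIC RECIPROCITY OVER `ℚ` WITH TWIST**
(helper6, prefix `ptl_`).
* `ptl_ratUnits_induction` : `ℚˣ` is generated by `-1` and the primes;
* `ptl_twistK hp2 m` (= the unit `k₀(m)` of `ptl_keyP`), **`ptl_twistUnit hp2 m`** (= `c_m`, with
  `c_m k₀(m) ≡ -1 mod p^m`): `ptl_twistUnit_not_dvd` (`p ∤ c_m`), **`ptl_twistUnit_succ`**
  (`c_{m+1} ≡ c_m mod p^m`);
* `ptl_term hp2 q m a := inv_q(a · δ(χ_m ∘ r_q))` for `a ∈ ℚˣ` (invariant of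
  `pti_localLevelData q p`), `ptl_termTw` := the same with the factor `c_m` at `q = p`;
* **`ptl_cyclotomic_reciprocity_tw hp2 m a : ∑ᶠ q, ptl_termTw hp2 q m a = 0`**;
* **`ptl_recipFor`**, **`ptl_recipFor_locInvOf`** : the statement in lead's shape
  `∀ k, ptj_RecipFor I (p ^ k) (ptl_chi p k hp2)`.
Proof: both sides are homomorphisms in `a`; check `-1` (2-torsion and `p^m`-torsion, `p` odd),
`p` ((P1): `p` is a local norm), and primes `ℓ ≠ p` (unramified evaluation at `ℓ` (RcpUnr) against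
the key local statement at `p` (RcpKey)).
-/
import Fermat.Agent.Lib.PT.RcpUnr
import Fermat.Agent.Lib.PT.GModInvE

set_option autoImplicit false
set_option linter.unusedSectionVars false

namespace Fermat.Agent.Lib.PT

open ExtCitation

section RatInduction

/-- `ℚˣ` is generated by `-1` and the primes -/
lemma ptl_ratUnits_induction {P : ℚˣ → Prop} (hneg : P (-1))
    (hprime : ∀ (ℓ : ℕ) (hℓ : ℓ.Prime), P (Units.mk0 (ℓ : ℚ) (by exact_mod_cast hℓ.ne_zero)))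
    (hmul : ∀ a b, P a → P b → P (a * b)) (hinv : ∀ a, P a → P a⁻¹) : ∀ a, P a := by
  have h1 : P 1 := by
    have := hmul _ _ hneg hneg
    simpa using this
  have hnat : ∀ n : ℕ, ∀ hn : n ≠ 0, P (Units.mk0 (n : ℚ) (Nat.cast_ne_zero.mpr hn)) := by
    intro n
    induction n using Nat.recOnMul with
    | zero => intro h; exact absurd rfl h
    | one =>
      intro _
      have : Units.mk0 ((1 : ℕ) : ℚ) (Nat.cast_ne_zero.mpr one_ne_zero) = 1 := by
        apply Units.ext; simp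
      rw [this]; exact h1
    | prime ℓ hℓ => intro _; exact hprime ℓ hℓ
    | mul a b ha hb =>
      intro hab
      have ha0 : a ≠ 0 := fun h => hab (by rw [h, zero_mul])
      have hb0 : b ≠ 0 := fun h => hab (by rw [h, mul_zero])
      have := hmul _ _ (ha ha0) (hb hb0)
      have e : Units.mk0 ((a * b : ℕ) : ℚ) (Nat.cast_ne_zero.mpr hab) =
          Units.mk0 (a : ℚ) (Nat.cast_ne_zero.mpr ha0) * Units.mk0 (b : ℚ) (Nat.cast_ne_zero.mpr hb0) := by
        apply Units.ext; simp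
      rw [e]; exact this
  have hpos : ∀ a : ℚˣ, 0 < (a : ℚ) → P a := by
    intro a ha
    have hnum : 0 < (a : ℚ).num := Rat.num_pos.mpr ha
    have hn0 : (a : ℚ).num.natAbs ≠ 0 := Int.natAbs_ne_zero.mpr hnum.ne'
    have hd0 : (a : ℚ).den ≠ 0 := (a : ℚ).den_nz
    have e : a = Units.mk0 (((a : ℚ).num.natAbs : ℕ) : ℚ) (Nat.cast_ne_zero.mpr hn0) *
        (Units.mk0 (((a : ℚ).den : ℕ) : ℚ) (Nat.cast_ne_zero.mpr hd0))⁻¹ := by
      apply Units.ext
      rw [Units.val_mul, Units.val_inv_eq_inv_val, Units.val_mk0, Units.val_mk0, ← div_eq_mul_inv]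
      have h2 : (((a : ℚ).num.natAbs : ℕ) : ℚ) = (((a : ℚ).num : ℤ) : ℚ) := by
        rw [← Int.cast_natCast, Int.natAbs_of_nonneg hnum.le]
      rw [h2, Rat.num_div_den]
    rw [e]
    exact hmul _ _ (hnat _ hn0) (hinv _ (hnat _ hd0))
  intro a
  rcases lt_or_gt_of_ne (a.ne_zero) with h | h
  · have h2 : 0 < ((-a : ℚˣ) : ℚ) := by rw [Units.val_neg]; linarith
    have := hmul _ _ hneg (hpos _ h2)
    simpa using this
  · exact hpos a h

end RatInduction

section Support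

/-- the primes dividing a nonzero natural number -/
lemma ptl_finite_primes_dvd {n : ℕ} (hn : n ≠ 0) : {q : Nat.Primes | (q : ℕ) ∣ n}.Finite := by
  have : {q : Nat.Primes | (q : ℕ) ∣ n} ⊆ (fun q : Nat.Primes => (q : ℕ)) ⁻¹' (n.primeFactors : Set ℕ) := by
    intro q hq
    simp only [Set.mem_preimage, Finset.mem_coe, Nat.mem_primeFactors]
    exact ⟨q.2, hq, hn⟩
  exact (Set.Finite.preimage (Set.injOn_of_injective Nat.Primes.coe_nat_injective)
    (Finset.finite_toSet _)).subset this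

/-- only finitely many primes have nonzero valuation at a nonzero rational -/
lemma ptl_finite_padicValRat_ne_zero (a : ℚˣ) :
    {q : Nat.Primes | padicValRat (q : ℕ) (a : ℚ) ≠ 0}.Finite := by
  have hn0 : (a : ℚ).num.natAbs ≠ 0 := Int.natAbs_ne_zero.mpr (Rat.num_ne_zero.mpr a.ne_zero)
  have hd0 : (a : ℚ).den ≠ 0 := (a : ℚ).den_nz
  refine ((ptl_finite_primes_dvd hn0).union (ptl_finite_primes_dvd hd0)).subset ?_
  intro q hq
  by_contra hcon
  simp only [Set.mem_union, Set.mem_ofPred_eq, not_or] at hcon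
  apply hq
  rw [padicValRat_def]
  have h1 : padicValInt (q : ℕ) (a : ℚ).num = 0 := by
    rw [padicValInt]
    exact padicValNat.eq_zero_of_not_dvd hcon.1
  have h2 : padicValNat (q : ℕ) (a : ℚ).den = 0 := padicValNat.eq_zero_of_not_dvd hcon.2
  rw [h1, h2]; simp

end Support


section Twist

variable {p : ℕ} [hp : Fact p.Prime] (hp2 : p ≠ 2)

/-- the unit `k₀(m)` of `ptl_keyP` -/
noncomputable def ptl_twistK (m : ℕ) : ℕ := Classical.choose (ptl_keyP hp2 m)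

lemma ptl_twistK_not_dvd (m : ℕ) : ¬ p ∣ ptl_twistK hp2 m :=
  (Classical.choose_spec (ptl_keyP hp2 m)).1

lemma ptl_twistK_spec (m : ℕ) (u : ℤ_[p]ˣ) :
    ptl_invP hp2 m (ptl_intUnit p u) =
      ptn_frac p ((ptl_twistK hp2 m * (ptl_LamP hp2 m u).val : ℕ) : ℤ) (p ^ m) :=
  (Classical.choose_spec (ptl_keyP hp2 m)).2 u

lemma ptl_twistK_coprime (m : ℕ) : Nat.Coprime (ptl_twistK hp2 m) (p ^ m) :=
  Nat.Coprime.pow_right m
    ((Nat.Prime.coprime_iff_not_dvd hp.out).mpr (ptl_twistK_not_dvd hp2 m)).symm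

/-- compatibility of the `k₀(m)` -/
lemma ptl_twistK_succ (m : ℕ) :
    ((ptl_twistK hp2 (m + 1) : ℕ) : ZMod (p ^ m)) = ((ptl_twistK hp2 m : ℕ) : ZMod (p ^ m)) := by
  rcases Nat.eq_zero_or_pos m with hm | hm
  · subst hm
    have : Subsingleton (ZMod (p ^ 0)) := by rw [pow_zero]; infer_instance
    exact Subsingleton.elim _ _
  have hn1 : p ^ m ≠ 1 := (Nat.one_lt_pow hm.ne' hp.out.one_lt).ne'
  have hn2 : p ^ (m + 1) ≠ 1 := (Nat.one_lt_pow (Nat.succ_ne_zero m) hp.out.one_lt).ne'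
  obtain ⟨g, hg⟩ := ptl_exists_LamP_eq_one hp2 (m + 1)
  have hg' : ptl_LamP hp2 m g = 1 := by rw [← ptl_LamP_succ, hg, map_one]
  have e1 := ptl_twistK_spec hp2 m g
  have e2 := ptl_twistK_spec hp2 (m + 1) g
  rw [hg', ZMod.val_one'' hn1, mul_one] at e1
  rw [hg, ZMod.val_one'' hn2, mul_one] at e2
  have e3 := ptl_locInv_chiLoc_succ p hp2 m (ptl_intUnit p g)
  unfold ptl_invP at e1 e2
  rw [e1, e2, pow_succ, ptn_nsmul_frac _ _ _ hp.out.ne_zero, ptl_frac_pow_eq_iff] at e3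
  have e4 := (ZMod.intCast_zmod_eq_zero_iff_dvd _ _).mpr e3
  push_cast at e4
  exact (sub_eq_zero.mp e4).symm

lemma ptl_exists_twistUnit (m : ℕ) :
    ∃ c : ℕ, ¬ p ∣ c ∧ ((c * ptl_twistK hp2 m + 1 : ℕ) : ZMod (p ^ m)) = 0 := by
  rcases Nat.eq_zero_or_pos m with hm | hm
  · subst hm
    have : Subsingleton (ZMod (p ^ 0)) := by rw [pow_zero]; infer_instance
    exact ⟨1, by simpa using hp.out.one_lt.ne', Subsingleton.elim _ _⟩
  have hcop := ptl_twistK_coprime hp2 m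
  set k := ptl_twistK hp2 m with hk
  refine ⟨(-((k : ZMod (p ^ m)))⁻¹).val, ?_, ?_⟩
  · intro hd
    have h1 : ((((-((k : ZMod (p ^ m)))⁻¹).val * k + 1 : ℕ)) : ZMod (p ^ m)) = 0 := by
      push_cast
      rw [ZMod.natCast_zmod_val, neg_mul, ZMod.inv_mul_of_unit _ ((ZMod.isUnit_iff_coprime _ _).mpr hcop)]
      ring
    rw [ZMod.natCast_eq_zero_iff] at h1
    have h2 : p ∣ (-((k : ZMod (p ^ m)))⁻¹).val * k + 1 := (dvd_pow_self p hm.ne').trans h1
    have h3 : p ∣ 1 := (Nat.dvd_add_right (Dvd.dvd.mul_right hd k)).mp h2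
    exact hp.out.one_lt.ne' (Nat.dvd_one.mp h3)
  · push_cast
    rw [ZMod.natCast_zmod_val, neg_mul, ZMod.inv_mul_of_unit _ ((ZMod.isUnit_iff_coprime _ _).mpr hcop)]
    ring

/-- **the twisting units** `c_m`: `c_m k₀(m) ≡ -1 mod p^m` -/
noncomputable def ptl_twistUnit (m : ℕ) : ℕ := Classical.choose (ptl_exists_twistUnit hp2 m)

lemma ptl_twistUnit_not_dvd (m : ℕ) : ¬ p ∣ ptl_twistUnit hp2 m :=
  (Classical.choose_spec (ptl_exists_twistUnit hp2 m)).1

lemma ptl_twistUnit_spec (m : ℕ) :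
    ((ptl_twistUnit hp2 m * ptl_twistK hp2 m + 1 : ℕ) : ZMod (p ^ m)) = 0 :=
  (Classical.choose_spec (ptl_exists_twistUnit hp2 m)).2

/-- **compatibility of the twisting units** -/
lemma ptl_twistUnit_succ (m : ℕ) :
    ptl_twistUnit hp2 (m + 1) ≡ ptl_twistUnit hp2 m [MOD p ^ m] := by
  rw [← ZMod.natCast_eq_natCast_iff]
  have h1 := ptl_twistUnit_spec hp2 m
  have h2 := ptl_twistUnit_spec hp2 (m + 1)
  rw [ZMod.natCast_eq_zero_iff] at h2
  have h3 : ((ptl_twistUnit hp2 (m + 1) * ptl_twistK hp2 (m + 1) + 1 : ℕ) : ZMod (p ^ m)) = 0 := by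
    rw [ZMod.natCast_eq_zero_iff]
    exact (pow_dvd_pow p (Nat.le_succ m)).trans h2
  push_cast at h1 h3
  rw [ptl_twistK_succ] at h3
  have hu : IsUnit ((ptl_twistK hp2 m : ℕ) : ZMod (p ^ m)) :=
    (ZMod.isUnit_iff_coprime _ _).mpr (ptl_twistK_coprime hp2 m)
  have h4 : ((ptl_twistUnit hp2 (m + 1) : ℕ) : ZMod (p ^ m)) * ((ptl_twistK hp2 m : ℕ) : ZMod (p ^ m)) =
      ((ptl_twistUnit hp2 m : ℕ) : ZMod (p ^ m)) * ((ptl_twistK hp2 m : ℕ) : ZMod (p ^ m)) := by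
    have := h3.trans h1.symm
    exact add_right_cancel this
  exact hu.mul_left_injective h4

end Twist


section Terms

variable {p : ℕ} [hp : Fact p.Prime] (hp2 : p ≠ 2)

/-- `ℚˣ → ℚ_qˣ` -/
noncomputable def ptl_ratToPadic (q : ℕ) [Fact q.Prime] : ℚˣ →* ℚ_[q]ˣ :=
  Units.map ((algebraMap ℚ ℚ_[q] : ℚ →+* ℚ_[q]) : ℚ →* ℚ_[q])

lemma ptl_ratToPadic_coe (q : ℕ) [Fact q.Prime] (a : ℚˣ) :
    ((ptl_ratToPadic q a : ℚ_[q]ˣ) : ℚ_[q]) = ((a : ℚ) : ℚ_[q]) := by
  simp [ptl_ratToPadic]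

/-- the local component of a rational number, in the shape of `ptj_RecipFor` -/
lemma ptl_emb_ratToPadic (q : ℕ) [Fact q.Prime] (a : ℚˣ) :
    ptl_emb q (ptl_ratToPadic q a) =
      Additive.ofMul (Units.map (algebraMap ℚ (PadicAlgCl q) : ℚ →* PadicAlgCl q) a) := by
  unfold ptl_emb
  apply congrArg Additive.ofMul
  apply Units.ext
  simp only [Units.coe_map, MonoidHom.coe_coe, ptl_ratToPadic_coe]
  simp

/-- the (untwisted) local term of (CR) at `q` -/
noncomputable def ptl_term (q : Nat.Primes) (m : ℕ) (a : ℚˣ) : ptn_T p :=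
  ptl_locInv (q : ℕ) p (ptl_chiLoc (q : ℕ) p m hp2) (ptl_ratToPadic (q : ℕ) a)

/-- the twisted local term: multiplied by `c_m` at `q = p` -/
noncomputable def ptl_termTw (q : Nat.Primes) (m : ℕ) (a : ℚˣ) : ptn_T p :=
  if q = pPrime p then ptl_twistUnit hp2 m • ptl_term hp2 q m a else ptl_term hp2 q m a

lemma ptl_term_p (m : ℕ) (a : ℚˣ) :
    ptl_term hp2 (pPrime p) m a = ptl_invP hp2 m (ptl_ratToPadic p a) := rfl

lemma ptl_term_mul (q : Nat.Primes) (m : ℕ) (a b : ℚˣ) :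
    ptl_term hp2 q m (a * b) = ptl_term hp2 q m a + ptl_term hp2 q m b := by
  unfold ptl_term
  rw [map_mul, ptl_locInv_mul (q : ℕ) p (ptl_chiLoc_isChar hp2) (ptl_chiLoc_isLev₁ hp2)]

lemma ptl_term_inv (q : Nat.Primes) (m : ℕ) (a : ℚˣ) :
    ptl_term hp2 q m a⁻¹ = -ptl_term hp2 q m a := by
  unfold ptl_term
  rw [map_inv, ptl_locInv_inv (q : ℕ) p (ptl_chiLoc_isChar hp2) (ptl_chiLoc_isLev₁ hp2)]

lemma ptl_termTw_mul (q : Nat.Primes) (m : ℕ) (a b : ℚˣ) :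
    ptl_termTw hp2 q m (a * b) = ptl_termTw hp2 q m a + ptl_termTw hp2 q m b := by
  unfold ptl_termTw
  split_ifs
  · rw [ptl_term_mul, smul_add]
  · rw [ptl_term_mul]

lemma ptl_termTw_inv (q : Nat.Primes) (m : ℕ) (a : ℚˣ) :
    ptl_termTw hp2 q m a⁻¹ = -ptl_termTw hp2 q m a := by
  unfold ptl_termTw
  split_ifs
  · rw [ptl_term_inv, smul_neg]
  · rw [ptl_term_inv]

/-- the unramified terms -/
lemma ptl_term_unr (q : Nat.Primes) (hq : q ≠ pPrime p) (m : ℕ) (a : ℚˣ) :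
    ptl_term hp2 q m a = ptn_frac p (padicValRat (q : ℕ) (a : ℚ) *
      ((ptl_lam p m hp2 (ptl_qUnit (q : ℕ) m (fun h => hq (Subtype.ext h)))).val : ℤ)) (p ^ m) := by
  unfold ptl_term
  rw [ptl_locInv_unr (q : ℕ) hp2 m (fun h => hq (Subtype.ext h)), ptl_ratToPadic_coe,
    Padic.valuation_ratCast]

lemma ptl_term_eq_zero_of_val (q : Nat.Primes) (hq : q ≠ pPrime p) (m : ℕ) (a : ℚˣ)
    (hv : padicValRat (q : ℕ) (a : ℚ) = 0) : ptl_term hp2 q m a = 0 := by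
  rw [ptl_term_unr hp2 q hq, hv, zero_mul, ptn_frac_zero]

lemma ptl_termTw_support_finite (m : ℕ) (a : ℚˣ) :
    (Function.support fun q : Nat.Primes => ptl_termTw hp2 q m a).Finite := by
  refine ((Set.finite_singleton (pPrime p)).union (ptl_finite_padicValRat_ne_zero a)).subset ?_
  intro q hq
  by_contra hcon
  simp only [Set.mem_union, Set.mem_singleton_iff, Set.mem_ofPred_eq, not_or, not_not] at hcon
  apply hq
  show ptl_termTw hp2 q m a = 0
  unfold ptl_termTw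
  rw [if_neg hcon.1]
  exact ptl_term_eq_zero_of_val hp2 q hcon.1 m a hcon.2

end Terms


section Main

variable {p : ℕ} [hp : Fact p.Prime] (hp2 : p ≠ 2)

lemma ptl_sum_termTw_mul (m : ℕ) (a b : ℚˣ) :
    ∑ᶠ q : Nat.Primes, ptl_termTw hp2 q m (a * b) =
      ∑ᶠ q : Nat.Primes, ptl_termTw hp2 q m a + ∑ᶠ q : Nat.Primes, ptl_termTw hp2 q m b := by
  rw [← finsum_add_distrib (ptl_termTw_support_finite hp2 m a) (ptl_termTw_support_finite hp2 m b)]
  exact finsum_congr fun q => ptl_termTw_mul hp2 q m a b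

lemma ptl_sum_termTw_inv (m : ℕ) (a : ℚˣ) :
    ∑ᶠ q : Nat.Primes, ptl_termTw hp2 q m a⁻¹ = -∑ᶠ q : Nat.Primes, ptl_termTw hp2 q m a := by
  rw [← finsum_neg_distrib]
  exact finsum_congr fun q => ptl_termTw_inv hp2 q m a

/-- the terms at `-1` vanish (`p` odd) -/
lemma ptl_term_neg_one (q : Nat.Primes) (m : ℕ) : ptl_term hp2 q m (-1) = 0 := by
  have hχ := ptl_chiLoc_isChar (q := (q : ℕ)) (p := p) (m := m) hp2
  have hlev := ptl_chiLoc_isLev₁ (q := (q : ℕ)) (p := p) (m := m) hp2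
  have h1 : 2 • ptl_term hp2 q m (-1) = 0 := by
    rw [two_nsmul, ← ptl_term_mul]
    unfold ptl_term
    rw [neg_one_mul, neg_neg, map_one, ptl_locInv_one (q : ℕ) p hχ hlev]
  have h2 : p ^ m • ptl_term hp2 q m (-1) = 0 := ptl_nsmul_locInv (q : ℕ) p hχ hlev _
  have hcop : Nat.Coprime 2 (p ^ m) := by
    apply Nat.Coprime.pow_right
    rw [Nat.coprime_primes Nat.prime_two hp.out]
    exact Ne.symm hp2
  exact ptl_eq_zero_of_coprime_nsmul hcop h1 h2

/-- the terms at `p` vanish -/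
lemma ptl_termTw_p (q : Nat.Primes) (m : ℕ) :
    ptl_termTw hp2 q m (Units.mk0 (p : ℚ) (by exact_mod_cast hp.out.ne_zero)) = 0 := by
  unfold ptl_termTw
  by_cases hq : q = pPrime p
  · subst hq
    rw [if_pos rfl, ptl_term_p]
    have e : ptl_ratToPadic p (Units.mk0 (p : ℚ) (by exact_mod_cast hp.out.ne_zero)) = ptl_pUnit p := by
      apply Units.ext
      rw [ptl_ratToPadic_coe]
      unfold ptl_pUnit
      simp
    have hP1 : ptl_invP hp2 m (ptl_pUnit p) = 0 :=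
      ptl_locInv_of_isB2 p p (ptl_chiLoc_isChar hp2) (ptl_chiLoc_isLev₁ hp2)
        (ptl_bockSmul_p_isB2 hp2 m)
    rw [e, hP1, smul_zero]
  · rw [if_neg hq]
    apply ptl_term_eq_zero_of_val hp2 q hq
    have hne : (q : ℕ) ≠ p := fun h => hq (Subtype.ext h)
    rw [Units.val_mk0, ← padicValRat_of_nat, padicValNat_primes hne, Nat.cast_zero]

/-- (CR) at a prime `ℓ ≠ p` -/
lemma ptl_sum_termTw_prime (m : ℕ) (ℓ' : Nat.Primes) (hne : ℓ' ≠ pPrime p) :
    ∑ᶠ q : Nat.Primes, ptl_termTw hp2 q m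
      (Units.mk0 ((ℓ' : ℕ) : ℚ) (by exact_mod_cast ℓ'.2.ne_zero)) = 0 := by
  set aℓ : ℚˣ := Units.mk0 ((ℓ' : ℕ) : ℚ) (by exact_mod_cast ℓ'.2.ne_zero) with haℓ
  have hℓp : (ℓ' : ℕ) ≠ p := fun h => hne (Subtype.ext h)
  have hsupp : (Function.support fun q : Nat.Primes => ptl_termTw hp2 q m aℓ) ⊆
      ↑({ℓ', pPrime p} : Finset Nat.Primes) := by
    intro q hq
    by_contra hcon
    simp only [Finset.coe_insert, Finset.coe_singleton, Set.mem_insert_iff,
      Set.mem_singleton_iff, not_or] at hcon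
    apply hq
    show ptl_termTw hp2 q m aℓ = 0
    unfold ptl_termTw
    rw [if_neg hcon.2]
    apply ptl_term_eq_zero_of_val hp2 q hcon.2
    have hqℓ : (q : ℕ) ≠ (ℓ' : ℕ) := fun h => hcon.1 (Subtype.ext h)
    rw [haℓ, Units.val_mk0, ← padicValRat_of_nat, padicValNat_primes hqℓ, Nat.cast_zero]
  rw [finsum_eq_sum_of_support_subset _ hsupp, Finset.sum_pair hne]
  -- the term at `ℓ`
  have hℓndvd : ¬ p ∣ (ℓ' : ℕ) :=
    fun h => hℓp ((Nat.prime_dvd_prime_iff_eq hp.out ℓ'.2).mp h).symm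
  set v := (ptl_lam p m hp2 (ptl_qUnit (ℓ' : ℕ) m hℓp)).val with hv
  have e1 : ptl_termTw hp2 ℓ' m aℓ = ptn_frac p ((v : ℕ) : ℤ) (p ^ m) := by
    unfold ptl_termTw
    rw [if_neg hne, ptl_term_unr hp2 ℓ' hne]
    have : padicValRat (ℓ' : ℕ) ((aℓ : ℚˣ) : ℚ) = 1 := by
      rw [haℓ, Units.val_mk0]
      exact padicValRat.self ℓ'.2.one_lt
    rw [this, one_mul]
  -- the term at `p`
  have e2 : ptl_termTw hp2 (pPrime p) m aℓ =
      ptn_frac p (((ptl_twistUnit hp2 m * (ptl_twistK hp2 m * v) : ℕ)) : ℤ) (p ^ m) := by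
    unfold ptl_termTw
    rw [if_pos rfl, ptl_term_p]
    have e : ptl_ratToPadic p aℓ = ptl_intUnit p (ptl_natUnit p (ℓ' : ℕ) hℓndvd) := by
      apply Units.ext
      rw [ptl_ratToPadic_coe, ptl_intUnit_coe, ptl_natUnit_coe, haℓ, Units.val_mk0]
      simp
    have e' : ptl_LamP hp2 m (ptl_natUnit p (ℓ' : ℕ) hℓndvd) =
        ptl_lam p m hp2 (ptl_qUnit (ℓ' : ℕ) m hℓp) := by
      unfold ptl_LamP
      congr 1
      apply Units.ext
      rw [ptl_redUnit_natUnit, ptl_qUnit_coe]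
    rw [e, ptl_twistK_spec, e', ← hv, ← natCast_zsmul, ← ptn_frac_smul]
    congr 1
  rw [e1, e2, ← ptn_frac_add]
  have h0 : ptn_frac p 0 (p ^ m) = 0 := ptn_frac_zero _
  rw [← h0, ptl_frac_pow_eq_iff, sub_zero]
  have h3 := ptl_twistUnit_spec hp2 m
  rw [ZMod.natCast_eq_zero_iff] at h3
  have h4 : ((v : ℕ) : ℤ) + ((ptl_twistUnit hp2 m * (ptl_twistK hp2 m * v) : ℕ) : ℤ) =
      ((ptl_twistUnit hp2 m * ptl_twistK hp2 m + 1 : ℕ) : ℤ) * (v : ℤ) := by
    push_cast; ring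
  rw [h4]
  exact Dvd.dvd.mul_right (Int.natCast_dvd_natCast.mpr h3) _

/-- **CYCLOTOMIC RECIPROCITY OVER `ℚ` WITH TWIST**: for all `m` and `a ∈ ℚˣ`,
`∑_{q ≠ p} inv_q(a · δ(χ_m ∘ r_q)) + c_m • inv_p(a · δ(χ_m ∘ r_p)) = 0`. -/
theorem ptl_cyclotomic_reciprocity_tw (m : ℕ) (a : ℚˣ) :
    ∑ᶠ q : Nat.Primes, ptl_termTw hp2 q m a = 0 := by
  refine ptl_ratUnits_induction (P := fun a => ∑ᶠ q : Nat.Primes, ptl_termTw hp2 q m a = 0)
    ?_ ?_ ?_ ?_ a
  · have : ∀ q : Nat.Primes, ptl_termTw hp2 q m (-1) = 0 := by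
      intro q
      unfold ptl_termTw
      rw [ptl_term_neg_one]
      split_ifs <;> simp
    rw [finsum_congr this, finsum_zero]
  · intro ℓ hℓ
    by_cases hℓp : ℓ = p
    · subst hℓp
      rw [finsum_congr fun q => ptl_termTw_p hp2 q m, finsum_zero]
    · exact ptl_sum_termTw_prime hp2 m ⟨ℓ, hℓ⟩ (fun h => hℓp (congrArg Subtype.val h))
  · intro a b ha hb
    show ∑ᶠ q : Nat.Primes, ptl_termTw hp2 q m (a * b) = 0
    rw [ptl_sum_termTw_mul, ha, hb, add_zero]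
  · intro a ha
    show ∑ᶠ q : Nat.Primes, ptl_termTw hp2 q m a⁻¹ = 0
    rw [ptl_sum_termTw_inv, ha, neg_zero]

end Main


section Consumer

variable {p : ℕ} [hp : Fact p.Prime] (hp2 : p ≠ 2)

/-- **(CR) in the shape consumed by the global invariant** (`ptj_RecipFor`): for a family of local
invariant functions `I` which agrees with the invariants of `pti_localLevelData q p` at `q ≠ p` and
with their `c`-twist (`c = ptl_twistUnit hp2`) at `q = p` on the cocycles `a · δ(χ_m ∘ r_q)`,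
cyclotomic reciprocity holds for every tower character `χ_k`. -/
theorem ptl_recipFor (I : ptj_LocInv (ptn_T p))
    (hunr : ∀ q : Nat.Primes, q ≠ pPrime p → ∀ (m : ℕ) (a : ℚ_[(q : ℕ)]ˣ),
      I.inv q (ptd_bockSmul (p ^ m) (ptl_chiLoc (q : ℕ) p m hp2) (ptl_emb (q : ℕ) a)) =
        ptl_locInv (q : ℕ) p (ptl_chiLoc (q : ℕ) p m hp2) a)
    (htw : ∀ (m : ℕ) (a : ℚ_[p]ˣ),
      I.inv (pPrime p) (ptd_bockSmul (p ^ m) (ptl_chiLoc p p m hp2) (ptl_emb p a)) =
        ptl_twistUnit hp2 m • ptl_locInv p p (ptl_chiLoc p p m hp2) a) :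
    ∀ k : ℕ, ptj_RecipFor I (p ^ k) (ptl_chi p k hp2) := by
  intro k a
  rw [← ptl_cyclotomic_reciprocity_tw hp2 k a]
  refine finsum_congr fun q => ?_
  unfold ptl_termTw ptl_term
  by_cases hq : q = pPrime p
  · subst hq
    rw [if_pos rfl]
    have := htw k (ptl_ratToPadic p a)
    rw [ptl_emb_ratToPadic] at this
    exact this
  · rw [if_neg hq]
    have := hunr q hq k (ptl_ratToPadic (q : ℕ) a)
    rw [ptl_emb_ratToPadic] at this
    exact this

/-- (CR) for the local invariants of a family of level data `DL` which is `pti_localLevelData q p`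
at `q ≠ p` and whose invariant at `p` is the `c`-twist on `p^m`-torsion classes. -/
theorem ptl_recipFor_locInvOf
    (DL : ∀ q : Nat.Primes, ptn_LevelData (ptg_levels (q : ℕ)) (ptg_unitsRep (q : ℕ)) p)
    (hDL : ∀ q : Nat.Primes, q ≠ pPrime p → DL q = pti_localLevelData (q : ℕ) p)
    (htw : ∀ (m : ℕ) (z : (PadicAlgCl p ≃ₐ[ℚ_[p]] PadicAlgCl p) ×
        (PadicAlgCl p ≃ₐ[ℚ_[p]] PadicAlgCl p) → Additive (PadicAlgCl p)ˣ),
      ptd_IsLZ2 (ptg_levels p) (ptg_unitsRep p) z →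
      ptd_IsB2 (ptg_levels p) (ptg_unitsRep p) (p ^ m • z) →
      ptn_invG (DL (pPrime p)) (ptg_isDiscrete_units p) z =
        ptl_twistUnit hp2 m • ptn_invG (pti_localLevelData p p) (ptg_isDiscrete_units p) z) :
    ∀ k : ℕ, ptj_RecipFor (ptj_locInvOf p DL) (p ^ k) (ptl_chi p k hp2) := by
  refine ptl_recipFor hp2 (ptj_locInvOf p DL) ?_ ?_
  · intro q hq m a
    show ptn_invG (DL q) (ptg_isDiscrete_units (q : ℕ)) _ = _
    rw [hDL q hq]
    rfl
  · intro m a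
    have hχ := ptl_chiLoc_isChar (q := p) (p := p) (m := m) hp2
    have hlev := ptl_chiLoc_isLev₁ (q := p) (p := p) (m := m) hp2
    exact htw m _ (ptl_bockSmul_emb_isLZ2 p hχ hlev a)
      (ptl_nsmul_bockSmulN_isB2 hχ hlev (fun g => ptl_emb_fixed p g a))

end Consumer

end Fermat.Agent.Lib.PT
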