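/-
S55 (Poitou–Tate long haul): **THE LOCAL LEVEL DATA OF THE MODEL** (input (1) of the final
consumer) and cyclotomic reciprocity for them (input (2)).

* `ptn_twistSys hp2`   : helper6's twisting units `ptl_twistUnit hp2 m` as a `p`-adic unit;
* `ptn_localDL hp2 q`  : `pti_localLevelData q p` for `q ≠ p`, and its twist by the INVERSE of
  `ptn_twistSys hp2`... so that `inv'_p = c_m • inv_p` on classes killed by `p ^ m` (`ptn_localDL_htw`);
* `ptn_localDL_recip`  : `∀ k, ptj_RecipFor (ptj_locInvOf p (ptn_localDL hp2)) (p ^ k) (ptl_chi p k hp2)`.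
-/
import Fermat.Agent.Lib.PT.BrgTwistC
import Fermat.Agent.Lib.PT.RcpMain

set_option autoImplicit false
set_option linter.unusedSectionVars false

namespace Fermat.Agent.Lib.PT

open ExtCitation

section Model

variable {p : ℕ} [hp : Fact p.Prime] (hp2 : p ≠ 2)

/-- helper6's twisting units as a `p`-adic unit -/
noncomputable def ptn_twistSys : ptn_UnitSys p where
  e k := (ptl_twistUnit hp2 k : ℤ)
  coprime k := by
    have h1 : Nat.Coprime (ptl_twistUnit hp2 k) p :=
      ((Nat.Prime.coprime_iff_not_dvd hp.out).mpr (ptl_twistUnit_not_dvd hp2 k)).symm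
    have h2 : IsCoprime ((ptl_twistUnit hp2 k : ℕ) : ℤ) ((p ^ k : ℕ) : ℤ) :=
      Nat.isCoprime_iff_coprime.mpr (Nat.Coprime.pow_right k h1)
    simpa using h2
  compat k := by
    have h := (Nat.modEq_iff_dvd.mp (ptl_twistUnit_succ hp2 k).symm)
    simpa using h

lemma ptn_twistSys_e (k : ℕ) : (ptn_twistSys hp2).e k = (ptl_twistUnit hp2 k : ℤ) := rfl

/-- **The local level data of the model**: the level data of local class field theory at the
primes `q ≠ p`, and their twist by the inverse of helper6's `p`-adic unit at `p`. -/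
noncomputable def ptn_localDL (q : Nat.Primes) :
    ptn_LevelData (ptg_levels (q : ℕ)) (ptg_unitsRep (q : ℕ)) p :=
  if h : q = pPrime p then
    h ▸ ((pti_localLevelData p p).twist (ptn_twistSys hp2).inv :
      ptn_LevelData (ptg_levels ((pPrime p : Nat.Primes) : ℕ))
        (ptg_unitsRep ((pPrime p : Nat.Primes) : ℕ)) p)
  else pti_localLevelData (q : ℕ) p

lemma ptn_localDL_of_ne (q : Nat.Primes) (hq : q ≠ pPrime p) :
    ptn_localDL hp2 q = pti_localLevelData (q : ℕ) p := dif_neg hq

lemma ptn_localDL_p :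
    ptn_localDL hp2 (pPrime p) = (pti_localLevelData p p).twist (ptn_twistSys hp2).inv :=
  dif_pos rfl

/-- **`htw`**: the invariant of the twisted level data at `p` is `c_m` times the invariant of local
class field theory, on the classes killed by `p ^ m`. -/
theorem ptn_localDL_htw (m : ℕ) (z : (PadicAlgCl p ≃ₐ[ℚ_[p]] PadicAlgCl p) ×
      (PadicAlgCl p ≃ₐ[ℚ_[p]] PadicAlgCl p) → Additive (PadicAlgCl p)ˣ)
    (hz : ptd_IsLZ2 (ptg_levels p) (ptg_unitsRep p) z)
    (hB : ptd_IsB2 (ptg_levels p) (ptg_unitsRep p) (p ^ m • z)) :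
    ptn_invG (ptn_localDL hp2 (pPrime p)) (ptg_isDiscrete_units p) z =
      ptl_twistUnit hp2 m • ptn_invG (pti_localLevelData p p) (ptg_isDiscrete_units p) z := by
  have hk : p ^ m • ptn_invG (pti_localLevelData p p) (ptg_isDiscrete_units p) z = 0 := by
    rw [← ptn_invG_nsmul_all _ _ hz]
    exact (ptn_invG (pti_localLevelData p p) (ptg_isDiscrete_units p)).map_b2' _ hB
  have h1 := ptn_invG_twist_inv (pti_localLevelData p p) (ptg_isDiscrete_units p)
    (ptn_twistSys hp2) hz m hk
  rw [ptn_twistSys_e, natCast_zsmul] at h1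
  rw [ptn_localDL_p]
  exact h1

/-- **Cyclotomic reciprocity for the local level data of the model** (input `hR` of the final
consumer). -/
theorem ptn_localDL_recip :
    ∀ k : ℕ, ptj_RecipFor (ptj_locInvOf p (ptn_localDL hp2)) (p ^ k) (ptl_chi p k hp2) :=
  ptl_recipFor_locInvOf hp2 (ptn_localDL hp2) (ptn_localDL_of_ne hp2) (ptn_localDL_htw hp2)

end Model

end Fermat.Agent.Lib.PT
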