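/-
S55 (Poitou–Tate), local ↔ global bridge, part J: the FINITE-LEVEL DICTIONARY for the Prelude's
`r`-level cohomology `continuousH1 r M`, `continuousH2 r M` of an arbitrary group `G` with a
homomorphism `r : G → Gal(Q̄/ℚ)` (the local twin of the global `GLevel*` files; for
`r = localGaloisToGlobal q` the levels are the subgroups `Gal(Ω_q/K_F)`).
*Levels* `ptg_IsLevel r M F`: finite stable `F ⊆ Q̄` with `r⁻¹(Fix F)` acting trivially on `M`.
*Presented levels* `L : ptg_Lev r M`: a level field, a group `L.Γ` with a surjection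
`L.π : G → L.Γ` of kernel `r⁻¹(Fix L.F)` and a model `L.rep` of `M` over `L.Γ`.
Inflation maps `H¹(L.Γ, L.rep) → H¹(G, M)` (injective, values in `continuousH1 r M`) and
`H²(L.Γ, L.rep) → continuousH2 r M`, transitions, exhaustion, kernel.
-/
import Mathlib
import Fermat.Prelude.Def_GroupCohomology_ContinuousH1
import Fermat.Agent.Lib.PT.GLevelField
import Fermat.Agent.Lib.PT.GLevelInf
import Fermat.Agent.Lib.PT.BridgeG
import Fermat.Agent.Lib.PT.BridgeH

set_option autoImplicit false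
set_option linter.unusedSectionVars false

namespace Fermat.Agent.Lib.PT

open groupCohomology CategoryTheory

variable {k : Type} [CommRing k] {G : Type} [Group G]
  (r : G →* (AlgebraicClosure ℚ ≃ₐ[ℚ] AlgebraicClosure ℚ)) (M : Rep.{0} k G)

/-- An `r`-*level* for `M`: a finite stable subfield `F ⊆ Q̄` such that `r⁻¹(Fix F)` acts
trivially on `M`. -/
structure ptg_IsLevel (F : IntermediateField ℚ (AlgebraicClosure ℚ)) : Prop where
  fin : FiniteDimensional ℚ F
  stable : ptg_IsStable F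
  triv : F.fixingSubgroup.comap r ≤ M.ρ.ker

variable {r M}

lemma ptg_IsLevel.normal {F : IntermediateField ℚ (AlgebraicClosure ℚ)}
    (hF : ptg_IsLevel r M F) : (F.fixingSubgroup.comap r).Normal := by
  have := ptg_fixingSubgroup_normal hF.stable
  exact Subgroup.Normal.comap this r

lemma ptg_IsLevel.finiteIndex {F : IntermediateField ℚ (AlgebraicClosure ℚ)}
    (hF : ptg_IsLevel r M F) : (F.fixingSubgroup.comap r).FiniteIndex := by
  have := hF.fin
  have := ptg_fixingSubgroup_normal hF.stable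
  refine ⟨?_⟩
  rw [Subgroup.index_comap]
  intro h0
  have hdvd : F.fixingSubgroup.relIndex r.range ∣ F.fixingSubgroup.index :=
    Subgroup.relIndex_dvd_index_of_normal _ _
  rw [h0, zero_dvd_iff] at hdvd
  exact Subgroup.FiniteIndex.index_ne_zero hdvd

lemma ptg_IsLevel.sup_of_stable {F F' : IntermediateField ℚ (AlgebraicClosure ℚ)}
    (hF : ptg_IsLevel r M F) [FiniteDimensional ℚ F'] (hst : ptg_IsStable F') :
    ptg_IsLevel r M (F ⊔ F') where
  fin := by
    have := hF.fin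
    exact IntermediateField.finiteDimensional_sup F F'
  stable := pta_stable_sup hF.stable hst
  triv := (Subgroup.comap_mono (IntermediateField.fixingSubgroup_antitone le_sup_left)).trans
    hF.triv

lemma ptg_IsLevel.sup {F F' : IntermediateField ℚ (AlgebraicClosure ℚ)}
    (hF : ptg_IsLevel r M F) (hF' : ptg_IsLevel r M F') : ptg_IsLevel r M (F ⊔ F') := by
  have := hF'.fin
  exact hF.sup_of_stable hF'.stable

lemma ptg_IsLevel.sup_galClosure {F F' : IntermediateField ℚ (AlgebraicClosure ℚ)}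
    (hF : ptg_IsLevel r M F) [FiniteDimensional ℚ F'] :
    ptg_IsLevel r M (F ⊔ pta_galClosure F') :=
  hF.sup_of_stable (pta_galClosure_stable F')

/-- A level for `M` is a level for any representation on which the level subgroup acts
trivially. -/
lemma ptg_IsLevel.of_triv {k' : Type} [CommRing k'] {M' : Rep.{0} k' G}
    {F : IntermediateField ℚ (AlgebraicClosure ℚ)} (hF : ptg_IsLevel r M F)
    (h : F.fixingSubgroup.comap r ≤ M'.ρ.ker) : ptg_IsLevel r M' F :=
  ⟨hF.fin, hF.stable, h⟩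

/-- Every `r`-level-constant 1-cochain is right-invariant modulo a level (containing any given
level). -/
theorem ptg_levelConstant₁_iff {X : Type*} {F₀ : IntermediateField ℚ (AlgebraicClosure ℚ)}
    (h₀ : ptg_IsLevel r M F₀) (f : G → X) :
    IsLevelConstant₁ r f ↔ ∃ F, ptg_IsLevel r M F ∧ F₀ ≤ F ∧
      ∀ g s, r s ∈ F.fixingSubgroup → f (g * s) = f g := by
  constructor
  · rintro ⟨F', hF', h⟩
    have := hF'
    refine ⟨F₀ ⊔ pta_galClosure F', h₀.sup_galClosure, le_sup_left, fun g s hs => ?_⟩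
    exact h g s (IntermediateField.fixingSubgroup_antitone (pta_le_sup_galClosure F₀ F') hs)
  · rintro ⟨F, hF, -, h⟩
    exact ⟨F, hF.fin, h⟩

/-- Every `r`-level-constant 2-cochain is right-invariant modulo a level (containing any given
level). -/
theorem ptg_levelConstant₂_iff {X : Type*} {F₀ : IntermediateField ℚ (AlgebraicClosure ℚ)}
    (h₀ : ptg_IsLevel r M F₀) (f : G × G → X) :
    IsLevelConstant₂ r f ↔ ∃ F, ptg_IsLevel r M F ∧ F₀ ≤ F ∧
      ∀ g g' s s', r s ∈ F.fixingSubgroup → r s' ∈ F.fixingSubgroup →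
        f (g * s, g' * s') = f (g, g') := by
  constructor
  · rintro ⟨F', hF', h⟩
    have := hF'
    refine ⟨F₀ ⊔ pta_galClosure F', h₀.sup_galClosure, le_sup_left,
      fun g g' s s' hs hs' => ?_⟩
    exact h g g' s s'
      (IntermediateField.fixingSubgroup_antitone (pta_le_sup_galClosure F₀ F') hs)
      (IntermediateField.fixingSubgroup_antitone (pta_le_sup_galClosure F₀ F') hs')
  · rintro ⟨F, hF, -, h⟩
    exact ⟨F, hF.fin, h⟩

variable (r M)

/-- A *presented `r`-level* for `M`. -/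
structure ptg_Lev where
  /-- the level field -/
  F : IntermediateField ℚ (AlgebraicClosure ℚ)
  isLevel : ptg_IsLevel r M F
  /-- the finite quotient group, in any presentation -/
  Γ : Type
  [grp : Group Γ]
  /-- the projection -/
  π : G →* Γ
  surj : Function.Surjective π
  ker_eq : π.ker = F.fixingSubgroup.comap r
  /-- a model of `M` as a representation of `Γ` -/
  rep : Rep.{0} k Γ
  /-- comparison of carriers -/
  e : rep.V ≃ₗ[k] M.V
  comm : ∀ (g : G) (n : rep.V), e (rep.ρ (π g) n) = M.ρ g (e n)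

attribute [instance] ptg_Lev.grp

variable {r M}

namespace ptg_Lev

variable (L L' L'' : ptg_Lev r M)

lemma mem_ker_iff (s : G) : s ∈ L.π.ker ↔ r s ∈ L.F.fixingSubgroup := by
  rw [L.ker_eq]
  rfl

lemma triv (s : G) (hs : s ∈ L.π.ker) : M.ρ s = 1 := by
  rw [L.ker_eq] at hs
  exact MonoidHom.mem_ker.mp (L.isLevel.triv hs)

lemma finite : Finite L.Γ := by
  have := L.isLevel.finiteIndex
  have h1 : Finite (G ⧸ L.π.ker) := by
    rw [L.ker_eq]
    exact Subgroup.finite_quotient_of_finiteIndex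
  exact Finite.of_equiv _ (QuotientGroup.quotientKerEquivOfSurjective L.π L.surj).toEquiv

/-- `ker π`-invariance is invariance under the level subgroup. -/
lemma rightInv₁_iff {X : Type*} (f : G → X) :
    pta_RightInv₁ L.π f ↔ ∀ g s, r s ∈ L.F.fixingSubgroup → f (g * s) = f g := by
  unfold pta_RightInv₁
  rw [L.ker_eq]
  rfl

lemma rightInv₂_iff {X : Type*} (f : G × G → X) :
    pta_RightInv₂ L.π f ↔ ∀ g g' s s', r s ∈ L.F.fixingSubgroup → r s' ∈ L.F.fixingSubgroup →
      f (g * s, g' * s') = f (g, g') := by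
  unfold pta_RightInv₂
  rw [L.ker_eq]
  rfl

/-! ### Inflation to the Prelude's `r`-level-constant cochains -/

/-- inflation of 1-cochains from the level `L` -/
noncomputable abbrev inf₁ : (L.Γ → L.rep.V) →ₗ[k] (G → M.V) := pta_inf₁ L.π L.e

/-- inflation of 2-cochains from the level `L` -/
noncomputable abbrev inf₂ : (L.Γ × L.Γ → L.rep.V) →ₗ[k] (G × G → M.V) := pta_inf₂ L.π L.e

lemma isLevelConstant₁_inf₁ (x : L.Γ → L.rep.V) : IsLevelConstant₁ r (L.inf₁ x) :=
  ⟨L.F, L.isLevel.fin, (L.rightInv₁_iff _).1 (pta_rightInv₁_inf L.π L.e x)⟩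

lemma isLevelConstant₂_inf₂ (x : L.Γ × L.Γ → L.rep.V) : IsLevelConstant₂ r (L.inf₂ x) :=
  ⟨L.F, L.isLevel.fin, (L.rightInv₂_iff _).1 (pta_rightInv₂_inf L.π L.e x)⟩

/-- inflation on 1-cocycles -/
noncomputable abbrev infZ1 : cocycles₁ L.rep →ₗ[k] cocycles₁ M := pta_infZ1 L.π L.e L.comm

/-- inflation on `H¹` -/
noncomputable abbrev infH1 : H1 L.rep →ₗ[k] H1 M := pta_infH1 L.π L.e L.comm

lemma infH1_π (x : cocycles₁ L.rep) :
    L.infH1 ((H1π L.rep).hom x) = (H1π M).hom (L.infZ1 x) := pta_infH1_π L.π L.e L.comm x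

theorem infH1_injective : Function.Injective L.infH1 :=
  pta_infH1_injective L.π L.surj L.e L.comm

theorem infH1_mem (y : H1 L.rep) : L.infH1 y ∈ continuousH1 r M := by
  obtain ⟨x, rfl⟩ := pta_H1π_surjective L.rep y
  rw [infH1_π]
  exact (mem_continuousH1_iff r M _).2 ⟨L.infZ1 x, L.isLevelConstant₁_inf₁ x, rfl⟩

/-- inflation on 2-cocycles, with values in the Prelude's `r`-level cocycles -/
noncomputable def infZ2 : cocycles₂ L.rep →ₗ[k] levelCocycles₂ r M :=
  ((L.inf₂).comp (cocycles₂ L.rep).subtype).codRestrict (levelCocycles₂ r M) (fun x =>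
    ⟨cochainsPullPush₂_mem_cocycles₂ L.π (L.e : L.rep.V →ₗ[k] M.V) L.comm x.2,
      L.isLevelConstant₂_inf₂ x⟩)

lemma infZ2_coe (x : cocycles₂ L.rep) :
    ((L.infZ2 x : levelCocycles₂ r M) : G × G → M.V) = L.inf₂ (x : L.Γ × L.Γ → L.rep.V) := rfl

/-- inflation `H²(Γ_L, M_L) → continuousH2 r M` -/
noncomputable def infH2 : H2 L.rep →ₗ[k] continuousH2 r M :=
  pta_H2desc L.rep ((continuousH2π r M) ∘ₗ L.infZ2) (fun x hx => by
    obtain ⟨y, hy⟩ := hx
    rw [LinearMap.comp_apply, continuousH2π_eq_zero_iff, mem_levelCoboundaries₂_iff]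
    refine ⟨L.inf₁ y, L.isLevelConstant₁_inf₁ y, ?_⟩
    rw [infZ2_coe, ← hy]
    exact (pta_inf₂_d₁₂ L.π L.e L.comm y).symm)

lemma infH2_π (x : cocycles₂ L.rep) :
    L.infH2 ((H2π L.rep).hom x) = continuousH2π r M (L.infZ2 x) :=
  pta_H2desc_π L.rep _ _ x

/-- composing with the Prelude's map to the abstract `H²` gives the abstract inflation -/
lemma continuousH2ToH2_infH2 (y : H2 L.rep) :
    continuousH2ToH2 r M (L.infH2 y) = pta_infH2 L.π L.e L.comm y := by
  obtain ⟨x, rfl⟩ := pta_H2π_surjective L.rep y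
  rw [infH2_π, pta_infH2_π]
  rfl

/-! ### Transition maps between levels -/

variable {L L' L''}

/-- the transition map `Γ_{L'} → Γ_L` for `L.F ≤ L'.F` -/
noncomputable def trans (h : L.F ≤ L'.F) : L'.Γ →* L.Γ :=
  L'.π.liftOfSurjective L'.surj ⟨L.π, by
    rw [L.ker_eq, L'.ker_eq]
    exact Subgroup.comap_mono (IntermediateField.fixingSubgroup_antitone h)⟩

@[simp] lemma trans_π (h : L.F ≤ L'.F) (g : G) : trans h (L'.π g) = L.π g :=
  MonoidHom.liftOfRightInverse_comp_apply _ _ _ _ g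

lemma trans_surjective (h : L.F ≤ L'.F) : Function.Surjective (trans h) := by
  intro γ
  obtain ⟨g, rfl⟩ := L.surj γ
  exact ⟨L'.π g, trans_π h g⟩

lemma trans_trans (h : L.F ≤ L'.F) (h' : L'.F ≤ L''.F) (γ : L''.Γ) :
    trans h (trans h' γ) = trans (h.trans h') γ := by
  obtain ⟨g, rfl⟩ := L''.surj γ
  simp

/-- comparison of the models of `M` at two levels -/
noncomputable def transE (L L' : ptg_Lev r M) : L.rep.V ≃ₗ[k] L'.rep.V := L.e.trans L'.e.symm

@[simp] lemma e_transE (L L' : ptg_Lev r M) (n : L.rep.V) : L'.e (transE L L' n) = L.e n := by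
  simp [transE]

lemma transE_comm (h : L.F ≤ L'.F) (γ : L'.Γ) (n : L.rep.V) :
    transE L L' (L.rep.ρ (trans h γ) n) = L'.rep.ρ γ (transE L L' n) := by
  obtain ⟨g, rfl⟩ := L'.surj γ
  apply L'.e.injective
  rw [trans_π, e_transE, L.comm, L'.comm, e_transE]

/-- inflation of 1-cochains from level `L` to level `L'` -/
noncomputable abbrev infTo₁ (h : L.F ≤ L'.F) : (L.Γ → L.rep.V) →ₗ[k] (L'.Γ → L'.rep.V) :=
  pta_inf₁ (trans h) (transE L L')

/-- inflation of 2-cochains from level `L` to level `L'` -/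
noncomputable abbrev infTo₂ (h : L.F ≤ L'.F) :
    (L.Γ × L.Γ → L.rep.V) →ₗ[k] (L'.Γ × L'.Γ → L'.rep.V) :=
  pta_inf₂ (trans h) (transE L L')

lemma inf₁_infTo₁ (h : L.F ≤ L'.F) (x : L.Γ → L.rep.V) : L'.inf₁ (infTo₁ h x) = L.inf₁ x := by
  funext g
  simp [pta_inf₁_apply]

lemma inf₂_infTo₂ (h : L.F ≤ L'.F) (x : L.Γ × L.Γ → L.rep.V) :
    L'.inf₂ (infTo₂ h x) = L.inf₂ x := by
  funext ⟨g, g'⟩
  simp [pta_inf₂_apply]

/-- inflation on 1-cocycles between levels -/
noncomputable abbrev infToZ1 (h : L.F ≤ L'.F) : cocycles₁ L.rep →ₗ[k] cocycles₁ L'.rep :=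
  pta_infZ1 (trans h) (transE L L') (transE_comm h)

/-- inflation on 2-cocycles between levels -/
noncomputable abbrev infToZ2 (h : L.F ≤ L'.F) : cocycles₂ L.rep →ₗ[k] cocycles₂ L'.rep :=
  pta_infZ2 (trans h) (transE L L') (transE_comm h)

/-- inflation `H¹(Γ_L, M_L) → H¹(Γ_{L'}, M_{L'})` -/
noncomputable abbrev infToH1 (h : L.F ≤ L'.F) : H1 L.rep →ₗ[k] H1 L'.rep :=
  pta_infH1 (trans h) (transE L L') (transE_comm h)

/-- inflation `H²(Γ_L, M_L) → H²(Γ_{L'}, M_{L'})` -/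
noncomputable abbrev infToH2 (h : L.F ≤ L'.F) : H2 L.rep →ₗ[k] H2 L'.rep :=
  pta_infH2 (trans h) (transE L L') (transE_comm h)

lemma infToH1_π (h : L.F ≤ L'.F) (x : cocycles₁ L.rep) :
    infToH1 h ((H1π L.rep).hom x) = (H1π L'.rep).hom (infToZ1 h x) :=
  pta_infH1_π _ _ _ x

lemma infToH2_π (h : L.F ≤ L'.F) (x : cocycles₂ L.rep) :
    infToH2 h ((H2π L.rep).hom x) = (H2π L'.rep).hom (infToZ2 h x) :=
  pta_infH2_π _ _ _ x

theorem infToH1_injective (h : L.F ≤ L'.F) : Function.Injective (infToH1 h) :=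
  pta_infH1_injective (trans h) (trans_surjective h) (transE L L') (transE_comm h)

lemma infZ1_infToZ1 (h : L.F ≤ L'.F) (x : cocycles₁ L.rep) :
    L'.infZ1 (infToZ1 h x) = L.infZ1 x :=
  Subtype.ext (inf₁_infTo₁ h (x : L.Γ → L.rep.V))

lemma infZ2_infToZ2 (h : L.F ≤ L'.F) (x : cocycles₂ L.rep) :
    L'.infZ2 (infToZ2 h x) = L.infZ2 x :=
  Subtype.ext (inf₂_infTo₂ h (x : L.Γ × L.Γ → L.rep.V))

/-- compatibility of the inflations on `H¹` -/
theorem infH1_infToH1 (h : L.F ≤ L'.F) (y : H1 L.rep) : L'.infH1 (infToH1 h y) = L.infH1 y := by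
  obtain ⟨x, rfl⟩ := pta_H1π_surjective L.rep y
  rw [infToH1_π, infH1_π, infH1_π, infZ1_infToZ1]

/-- compatibility of the inflations on `H²` -/
theorem infH2_infToH2 (h : L.F ≤ L'.F) (y : H2 L.rep) : L'.infH2 (infToH2 h y) = L.infH2 y := by
  obtain ⟨x, rfl⟩ := pta_H2π_surjective L.rep y
  rw [infToH2_π, infH2_π, infH2_π, infZ2_infToZ2]

theorem infToH1_infToH1 (h : L.F ≤ L'.F) (h' : L'.F ≤ L''.F) (y : H1 L.rep) :
    infToH1 h' (infToH1 h y) = infToH1 (h.trans h') y :=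
  L''.infH1_injective (by rw [infH1_infToH1, infH1_infToH1, infH1_infToH1])

theorem infToH2_infToH2 (h : L.F ≤ L'.F) (h' : L'.F ≤ L''.F) (y : H2 L.rep) :
    infToH2 h' (infToH2 h y) = infToH2 (h.trans h') y := by
  obtain ⟨x, rfl⟩ := pta_H2π_surjective L.rep y
  rw [infToH2_π, infToH2_π, infToH2_π]
  congr 1
  apply Subtype.ext
  funext ⟨γ, δ⟩
  show transE L' L'' (transE L L' ((x : L.Γ × L.Γ → L.rep.V) (trans h (trans h' γ),
    trans h (trans h' δ)))) = transE L L'' ((x : L.Γ × L.Γ → L.rep.V) (trans (h.trans h') γ,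
    trans (h.trans h') δ))
  rw [trans_trans, trans_trans]
  simp [transE]

end ptg_Lev

section constructors

/-- The presented level attached to a level field `F` and any surjection `π` from `G` with kernel
`r⁻¹(Fix F)`; the model of `M` is `M` itself with the pushed-forward action (`pta_pushRep`). -/
noncomputable def ptg_Lev.ofSurj {F : IntermediateField ℚ (AlgebraicClosure ℚ)}
    (hF : ptg_IsLevel r M F)
    {Γ : Type} [Group Γ] (π : G →* Γ) (hπ : Function.Surjective π)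
    (hker : π.ker = F.fixingSubgroup.comap r) : ptg_Lev r M where
  F := F
  isLevel := hF
  Γ := Γ
  π := π
  surj := hπ
  ker_eq := hker
  rep := pta_pushRep π hπ M (fun s hs => MonoidHom.mem_ker.mp (hF.triv (hker ▸ hs)))
  e := LinearEquiv.refl k M.V
  comm g n := pta_pushRep_rho_apply π hπ M _ g n

@[simp] lemma ptg_Lev.ofSurj_F {F : IntermediateField ℚ (AlgebraicClosure ℚ)}
    (hF : ptg_IsLevel r M F)
    {Γ : Type} [Group Γ] (π : G →* Γ) (hπ : Function.Surjective π)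
    (hker : π.ker = F.fixingSubgroup.comap r) : (ptg_Lev.ofSurj hF π hπ hker).F = F := rfl

/-- The canonical presented level of a level field: `Γ = G ⧸ r⁻¹(Fix F)`. -/
noncomputable def ptg_Lev.canon {F : IntermediateField ℚ (AlgebraicClosure ℚ)}
    (hF : ptg_IsLevel r M F) : ptg_Lev r M :=
  letI := hF.normal
  ptg_Lev.ofSurj hF (QuotientGroup.mk' (F.fixingSubgroup.comap r)) (QuotientGroup.mk'_surjective _)
    (QuotientGroup.ker_mk' _)

@[simp] lemma ptg_Lev.canon_F {F : IntermediateField ℚ (AlgebraicClosure ℚ)}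
    (hF : ptg_IsLevel r M F) : (ptg_Lev.canon hF).F = F := rfl

end constructors

section exhaust

/-- Every `r`-level-constant 1-cocycle is inflated from every sufficiently large presented
level. -/
theorem ptg_exists_level_cocycle₁ {F₀ : IntermediateField ℚ (AlgebraicClosure ℚ)}
    (h₀ : ptg_IsLevel r M F₀)
    (c : cocycles₁ M) (hc : IsLevelConstant₁ r (c : G → M.V)) :
    ∃ F, ptg_IsLevel r M F ∧ F₀ ≤ F ∧ ∀ L : ptg_Lev r M, F ≤ L.F →
      ∃ x : cocycles₁ L.rep, L.infZ1 x = c := by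
  obtain ⟨F, hF, hF₀, hinv⟩ := (ptg_levelConstant₁_iff h₀ _).1 hc
  refine ⟨F, hF, hF₀, fun L hL => ?_⟩
  have hinv' : pta_RightInv₁ L.π (c : G → M.V) := (L.rightInv₁_iff _).2 fun g s hs =>
    hinv g s (IntermediateField.fixingSubgroup_antitone hL hs)
  obtain ⟨x, hx⟩ := hinv'.exists_inf L.π L.surj L.e
  have hx' : x ∈ cocycles₁ L.rep := by
    rw [← pta_inf₁_mem_cocycles₁_iff L.π L.surj L.e L.comm, hx]
    exact c.2
  exact ⟨⟨x, hx'⟩, Subtype.ext hx⟩

/-- Every `r`-level-constant 2-cocycle is inflated from every sufficiently large presented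
level. -/
theorem ptg_exists_level_cocycle₂ {F₀ : IntermediateField ℚ (AlgebraicClosure ℚ)}
    (h₀ : ptg_IsLevel r M F₀) (c : levelCocycles₂ r M) :
    ∃ F, ptg_IsLevel r M F ∧ F₀ ≤ F ∧ ∀ L : ptg_Lev r M, F ≤ L.F →
      ∃ x : cocycles₂ L.rep, L.infZ2 x = c := by
  obtain ⟨F, hF, hF₀, hinv⟩ := (ptg_levelConstant₂_iff h₀ _).1 c.2.2
  refine ⟨F, hF, hF₀, fun L hL => ?_⟩
  have hinv' : pta_RightInv₂ L.π (c : G × G → M.V) := (L.rightInv₂_iff _).2
    fun g g' s s' hs hs' => hinv g g' s s'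
      (IntermediateField.fixingSubgroup_antitone hL hs)
      (IntermediateField.fixingSubgroup_antitone hL hs')
  obtain ⟨x, hx⟩ := hinv'.exists_inf L.π L.surj L.e
  have hx' : x ∈ cocycles₂ L.rep := by
    rw [← pta_inf₂_mem_cocycles₂_iff L.π L.surj L.e L.comm, hx]
    exact c.2.1
  exact ⟨⟨x, hx'⟩, Subtype.ext hx⟩

/-- every class of `continuousH1 r M` is inflated from every sufficiently large presented
level. -/
theorem ptg_exists_level_H1 {F₀ : IntermediateField ℚ (AlgebraicClosure ℚ)}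
    (h₀ : ptg_IsLevel r M F₀) (x : H1 M) (hx : x ∈ continuousH1 r M) :
    ∃ F, ptg_IsLevel r M F ∧ F₀ ≤ F ∧ ∀ L : ptg_Lev r M, F ≤ L.F →
      ∃ y : H1 L.rep, L.infH1 y = x := by
  obtain ⟨c, hc, rfl⟩ := (mem_continuousH1_iff r M x).1 hx
  obtain ⟨F, hF, hF₀, h⟩ := ptg_exists_level_cocycle₁ h₀ c hc
  refine ⟨F, hF, hF₀, fun L hL => ?_⟩
  obtain ⟨z, hz⟩ := h L hL
  exact ⟨(H1π L.rep).hom z, by rw [ptg_Lev.infH1_π, hz]⟩

/-- every class of `continuousH2 r M` is inflated from every sufficiently large presented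
level. -/
theorem ptg_exists_level_H2 {F₀ : IntermediateField ℚ (AlgebraicClosure ℚ)}
    (h₀ : ptg_IsLevel r M F₀) (x : continuousH2 r M) :
    ∃ F, ptg_IsLevel r M F ∧ F₀ ≤ F ∧ ∀ L : ptg_Lev r M, F ≤ L.F →
      ∃ y : H2 L.rep, L.infH2 y = x := by
  obtain ⟨c, rfl⟩ := Submodule.mkQ_surjective _ x
  obtain ⟨F, hF, hF₀, h⟩ := ptg_exists_level_cocycle₂ h₀ c
  refine ⟨F, hF, hF₀, fun L hL => ?_⟩
  obtain ⟨z, hz⟩ := h L hL
  exact ⟨(H2π L.rep).hom z, by rw [ptg_Lev.infH2_π, hz]⟩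

end exhaust

section kernel

/-- A class of `H²(Γ_L, M_L)` dying in `continuousH2 r M` dies at every sufficiently large
presented level. -/
theorem ptg_Lev.infToH2_eq_zero_of_infH2_eq_zero (L : ptg_Lev r M) (y : H2 L.rep)
    (hy : L.infH2 y = 0) :
    ∃ F, ptg_IsLevel r M F ∧ L.F ≤ F ∧ ∀ (L' : ptg_Lev r M) (h : L.F ≤ L'.F), F ≤ L'.F →
      ptg_Lev.infToH2 h y = 0 := by
  obtain ⟨x, rfl⟩ := pta_H2π_surjective L.rep y
  rw [ptg_Lev.infH2_π, continuousH2π_eq_zero_iff, mem_levelCoboundaries₂_iff] at hy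
  obtain ⟨f, hf, hfx⟩ := hy
  obtain ⟨F, hF, hLF, hinv⟩ := (ptg_levelConstant₁_iff L.isLevel f).1 hf
  refine ⟨F, hF, hLF, fun L' h hFL' => ?_⟩
  rw [ptg_Lev.infToH2_π, H2π_eq_zero_iff]
  rw [pta_mem_coboundaries₂_iff L'.π L'.surj L'.e L'.comm]
  refine ⟨f, (L'.rightInv₁_iff _).2 fun g s hs =>
    hinv g s (IntermediateField.fixingSubgroup_antitone hFL' hs), ?_⟩
  rw [hfx, ptg_Lev.infZ2_coe]
  exact (ptg_Lev.inf₂_infTo₂ h _).symm

/-- A class of `H²(Γ_L, M_L)` dying at a larger level dies in `continuousH2 r M`. -/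
theorem ptg_Lev.infH2_eq_zero_of_infToH2_eq_zero {L L' : ptg_Lev r M} (h : L.F ≤ L'.F)
    (y : H2 L.rep) (hy : ptg_Lev.infToH2 h y = 0) : L.infH2 y = 0 := by
  rw [← ptg_Lev.infH2_infToH2 h, hy, map_zero]

end kernel

end Fermat.Agent.Lib.PT
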