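/-
S55 (Poitou–Tate), local ↔ global bridge, part K: the dictionary between the Prelude's `r`-level
cochains (`IsLevelConstant₁/₂ r`, `levelCocycles₂ r M`, `levelCoboundaries₂ r M`,
`continuousH1/2 r M`) and the BIG-GROUP MODEL of `AdtLevels`/`AdtDefs` (`ptd_Levels`,
`ptd_IsLev₁/₂`, `ptd_IsLZ2`, `ptd_IsB2`, …).

For any group `G` with `r : G → Gal(Q̄/ℚ)`: the level structure `ptg_levelsOf r` whose levels are
the subgroups `r⁻¹(Fix F)`, `F ⊆ Q̄` finite and stable.  Then level-constant cochains, level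
cocycles and level coboundaries in the two vocabularies coincide, `continuousH2 r M` is
`{level cocycles} / {level coboundaries}` and `continuousH1 r M` is
`{level 1-cocycles} / {coboundaries}` of the big model.
-/
import Mathlib
import Fermat.Prelude.Def_GroupCohomology_ContinuousH1
import Fermat.Agent.Lib.PT.AdtDefs
import Fermat.Agent.Lib.PT.BridgeJ

set_option autoImplicit false
set_option linter.unusedSectionVars false

namespace Fermat.Agent.Lib.PT

open groupCohomology CategoryTheory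

section Generic

universe u

variable {G : Type u} [Group G] (r : G →* (AlgebraicClosure ℚ ≃ₐ[ℚ] AlgebraicClosure ℚ))

/-- The level structure of `(G, r)`: the subgroups `r⁻¹(Fix F)` for `F ⊆ Q̄` finite and stable. -/
def ptg_levelsOf : ptd_Levels G where
  lev := {N | ∃ F : IntermediateField ℚ (AlgebraicClosure ℚ), FiniteDimensional ℚ F ∧
    ptg_IsStable F ∧ N = F.fixingSubgroup.comap r}
  nonempty := by
    refine ⟨_, ⊥, inferInstance, ?_, rfl⟩
    intro g x hx
    rw [IntermediateField.mem_bot] at hx ⊢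
    obtain ⟨c, rfl⟩ := hx
    exact ⟨c, (g.commutes c).symm⟩
  normal := by
    rintro _ ⟨F, -, hst, rfl⟩
    have := ptg_fixingSubgroup_normal hst
    exact Subgroup.Normal.comap this r
  finiteIndex := by
    rintro _ ⟨F, hF, hst, rfl⟩
    have := ptg_fixingSubgroup_normal hst
    refine ⟨?_⟩
    rw [Subgroup.index_comap]
    intro h0
    have hdvd : F.fixingSubgroup.relIndex r.range ∣ F.fixingSubgroup.index :=
      Subgroup.relIndex_dvd_index_of_normal _ _
    rw [h0, zero_dvd_iff] at hdvd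
    exact Subgroup.FiniteIndex.index_ne_zero hdvd
  directed := by
    rintro _ ⟨F, hF, hst, rfl⟩ _ ⟨F', hF', hst', rfl⟩
    refine ⟨_, ⟨F ⊔ F', IntermediateField.finiteDimensional_sup F F', pta_stable_sup hst hst',
      rfl⟩, ?_⟩
    exact le_inf (Subgroup.comap_mono (IntermediateField.fixingSubgroup_antitone le_sup_left))
      (Subgroup.comap_mono (IntermediateField.fixingSubgroup_antitone le_sup_right))

lemma ptg_mem_levelsOf_iff (N : Subgroup G) :
    N ∈ (ptg_levelsOf r).lev ↔ ∃ F : IntermediateField ℚ (AlgebraicClosure ℚ),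
      FiniteDimensional ℚ F ∧ ptg_IsStable F ∧ N = F.fixingSubgroup.comap r := Iff.rfl

lemma ptg_comap_mem_levelsOf {F : IntermediateField ℚ (AlgebraicClosure ℚ)}
    [FiniteDimensional ℚ F] (hst : ptg_IsStable F) :
    F.fixingSubgroup.comap r ∈ (ptg_levelsOf r).lev := ⟨F, inferInstance, hst, rfl⟩

/-- every finite subfield of `Q̄` gives an OPEN subgroup -/
lemma ptg_isOpen_comap (F : IntermediateField ℚ (AlgebraicClosure ℚ)) [FiniteDimensional ℚ F] :
    (ptg_levelsOf r).IsOpen (F.fixingSubgroup.comap r) :=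
  ⟨_, ptg_comap_mem_levelsOf r (pta_galClosure_stable F),
    Subgroup.comap_mono (IntermediateField.fixingSubgroup_antitone (pta_le_galClosure F))⟩

/-- **(K)** level-constant 1-cochains: the Prelude's notion is the big model's. -/
theorem ptg_isLev₁_iff {X : Type*} (f : G → X) :
    ptd_IsLev₁ (ptg_levelsOf r) f ↔ IsLevelConstant₁ r f := by
  constructor
  · rintro ⟨_, ⟨F, hF, -, rfl⟩, h⟩
    exact ⟨F, hF, fun g s hs => h g s hs⟩
  · rintro ⟨F, hF, h⟩
    have := hF
    refine ⟨_, ptg_comap_mem_levelsOf r (pta_galClosure_stable F), fun g n hn => ?_⟩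
    exact h g n (IntermediateField.fixingSubgroup_antitone (pta_le_galClosure F) hn)

/-- **(K)** level-constant 2-cochains: the Prelude's notion is the big model's. -/
theorem ptg_isLev₂_iff {X : Type*} (f : G × G → X) :
    ptd_IsLev₂ (ptg_levelsOf r) f ↔ IsLevelConstant₂ r f := by
  constructor
  · rintro ⟨_, ⟨F, hF, -, rfl⟩, h⟩
    exact ⟨F, hF, fun g g' s s' hs hs' => h g g' s hs s' hs'⟩
  · rintro ⟨F, hF, h⟩
    have := hF
    refine ⟨_, ptg_comap_mem_levelsOf r (pta_galClosure_stable F), fun g g' n hn n' hn' => ?_⟩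
    exact h g g' n n' (IntermediateField.fixingSubgroup_antitone (pta_le_galClosure F) hn)
      (IntermediateField.fixingSubgroup_antitone (pta_le_galClosure F) hn')

variable {k : Type u} [CommRing k] (M : Rep k G)

lemma ptg_isZ1_iff (φ : G → M) : ptd_IsZ1 M.ρ φ ↔ φ ∈ cocycles₁ M := by
  rw [mem_cocycles₁_iff]; rfl

lemma ptg_isZ2_iff (z : G × G → M) : ptd_IsZ2 M.ρ z ↔ z ∈ cocycles₂ M := by
  rw [mem_cocycles₂_iff]; rfl

lemma ptg_d1_eq (φ : G → M) : ptd_d1 M.ρ φ = (d₁₂ M).hom φ := by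
  funext ⟨g, h⟩
  rw [d₁₂_hom_apply]
  rfl

lemma ptg_d0_eq (a : M) : ptd_d0 M.ρ a = (d₀₁ M).hom a := by
  funext g
  rw [d₀₁_hom_apply]
  rfl

lemma ptg_isB1_iff (φ : G → M) : ptd_IsB1 M.ρ φ ↔ φ ∈ coboundaries₁ M := by
  constructor
  · rintro ⟨a, rfl⟩
    exact ⟨a, (ptg_d0_eq M a).symm⟩
  · rintro ⟨a, rfl⟩
    exact ⟨a, (ptg_d0_eq M a).symm⟩

/-- **(K)** level 1-cocycles -/
theorem ptg_isLZ1_iff (φ : G → M) :
    ptd_IsLZ1 (ptg_levelsOf r) M.ρ φ ↔ φ ∈ cocycles₁ M ∧ IsLevelConstant₁ r φ := by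
  unfold ptd_IsLZ1
  rw [ptg_isZ1_iff, ptg_isLev₁_iff]

/-- **(K)** level 2-cocycles: the Prelude's `levelCocycles₂ r M` is the big model's `ptd_IsLZ2`. -/
theorem ptg_isLZ2_iff (z : G × G → M) :
    ptd_IsLZ2 (ptg_levelsOf r) M.ρ z ↔ z ∈ levelCocycles₂ r M := by
  unfold ptd_IsLZ2
  rw [ptg_isZ2_iff, ptg_isLev₂_iff, mem_levelCocycles₂_iff]

/-- **(K)** level 2-coboundaries: the Prelude's `levelCoboundaries₂ r M` is the big model's
`ptd_IsB2`. -/
theorem ptg_isB2_iff (z : G × G → M) :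
    ptd_IsB2 (ptg_levelsOf r) M.ρ z ↔ z ∈ levelCoboundaries₂ r M := by
  rw [mem_levelCoboundaries₂_iff]
  constructor
  · rintro ⟨φ, hφ, rfl⟩
    exact ⟨φ, (ptg_isLev₁_iff r φ).mp hφ, (ptg_d1_eq M φ).symm⟩
  · rintro ⟨φ, hφ, rfl⟩
    exact ⟨φ, (ptg_isLev₁_iff r φ).mpr hφ, (ptg_d1_eq M φ).symm⟩

/-- the class in `continuousH2 r M` of a big-model level 2-cocycle -/
noncomputable def ptg_classH2 (z : G × G → M) (hz : ptd_IsLZ2 (ptg_levelsOf r) M.ρ z) :
    continuousH2 r M :=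
  continuousH2π r M ⟨z, (ptg_isLZ2_iff r M z).mp hz⟩

/-- **(K)** every class of `continuousH2 r M` is the class of a big-model level 2-cocycle -/
theorem ptg_classH2_surjective (x : continuousH2 r M) :
    ∃ z hz, ptg_classH2 r M z hz = x := by
  obtain ⟨⟨z, hz⟩, rfl⟩ := Submodule.Quotient.mk_surjective _ x
  exact ⟨z, (ptg_isLZ2_iff r M z).mpr hz, rfl⟩

/-- **(K)** two big-model level 2-cocycles have the same class in `continuousH2 r M` iff they
differ by a big-model level coboundary -/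
theorem ptg_classH2_eq_iff (z z' : G × G → M) (hz : ptd_IsLZ2 (ptg_levelsOf r) M.ρ z)
    (hz' : ptd_IsLZ2 (ptg_levelsOf r) M.ρ z') :
    ptg_classH2 r M z hz = ptg_classH2 r M z' hz' ↔ ptd_IsB2 (ptg_levelsOf r) M.ρ (z - z') := by
  unfold ptg_classH2
  rw [← sub_eq_zero, ← map_sub, continuousH2π_eq_zero_iff, ptg_isB2_iff]
  rfl

theorem ptg_classH2_eq_zero_iff (z : G × G → M) (hz : ptd_IsLZ2 (ptg_levelsOf r) M.ρ z) :
    ptg_classH2 r M z hz = 0 ↔ ptd_IsB2 (ptg_levelsOf r) M.ρ z := by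
  unfold ptg_classH2
  rw [continuousH2π_eq_zero_iff, ptg_isB2_iff]

theorem ptg_classH2_add (z z' : G × G → M) (hz : ptd_IsLZ2 (ptg_levelsOf r) M.ρ z)
    (hz' : ptd_IsLZ2 (ptg_levelsOf r) M.ρ z') :
    ptg_classH2 r M (z + z') (hz.add hz') = ptg_classH2 r M z hz + ptg_classH2 r M z' hz' := by
  unfold ptg_classH2
  rw [← map_add]
  rfl

/-- **(K)** `continuousH1 r M` consists of the classes of big-model level 1-cocycles -/
theorem ptg_mem_continuousH1_iff (x : H1 M) :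
    x ∈ continuousH1 r M ↔ ∃ (φ : G → M) (hφ : ptd_IsLZ1 (ptg_levelsOf r) M.ρ φ),
      H1π M ⟨φ, ((ptg_isLZ1_iff r M φ).mp hφ).1⟩ = x := by
  rw [mem_continuousH1_iff]
  constructor
  · rintro ⟨c, hc, rfl⟩
    exact ⟨c, (ptg_isLZ1_iff r M c).mpr ⟨c.2, hc⟩, rfl⟩
  · rintro ⟨φ, hφ, rfl⟩
    exact ⟨⟨φ, ((ptg_isLZ1_iff r M φ).mp hφ).1⟩, ((ptg_isLZ1_iff r M φ).mp hφ).2, rfl⟩

/-- **(K)** a big-model 1-cocycle has trivial class in `H1 M` iff it is a big-model coboundary -/
theorem ptg_H1π_eq_zero_iff (φ : G → M) (hφ : φ ∈ cocycles₁ M) :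
    H1π M ⟨φ, hφ⟩ = 0 ↔ ptd_IsB1 M.ρ φ := by
  rw [H1π_eq_zero_iff]
  exact (ptg_isB1_iff M φ).symm

/-- a finitely generated `G_ℚ`-module all of whose vectors are fixed by an open subgroup is, after
restriction along `r`, trivial on a level (in particular discrete) -/
theorem ptg_isTrivOnLevel_res {k : Type} [CommRing k]
    (M : Rep k (AlgebraicClosure ℚ ≃ₐ[ℚ] AlgebraicClosure ℚ)) [Module.Finite k M]
    (hsm : ∀ m : M, ∃ F : IntermediateField ℚ (AlgebraicClosure ℚ), FiniteDimensional ℚ F ∧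
      ∀ s ∈ F.fixingSubgroup, M.ρ s m = m) :
    ptd_IsTrivOnLevel (ptg_levelsOf r) (Rep.res r M).ρ := by
  obtain ⟨F, hF, hle⟩ := pta_exists_finite_triv hsm
  have := hF
  refine ⟨_, ptg_comap_mem_levelsOf r (pta_galClosure_stable F), fun n hn => ?_⟩
  have h1 : r n ∈ F.fixingSubgroup :=
    IntermediateField.fixingSubgroup_antitone (pta_le_galClosure F) hn
  exact hle h1

end Generic

end Fermat.Agent.Lib.PT
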