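/-
S55 / (G5) DÉVISSAGE, part 1 (helper7): abstract big-model machinery.

For a group `G` acting on `C` (`ρ : Representation ℤ G C`) and a *section* `(U, N)` of `G`
(`N ≤ U` subgroups, `N` normal in `U`) we use helper5's cochains of `U` *at* `N`
(`ptn_At₁`, `ptn_At₂`: right-`N`-invariant with `N`-fixed values), i.e. cochains of `U/N` with
values in `C^N`, without ever forming the quotient.

* `ptg_infres_at` : inflation–restriction in degree 2 at the cochain level for sections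
  `N ≤ M ≤ H` (from helper9's `pti_infres_core` through the quotient `H ⧸ N`);
* `ptg_relIndex_dvd_of_exact` : counting along a three-term exact sequence of subquotients;
* `ptg_H1At`, `ptg_Z2At`, `ptg_B2At` : `H¹ = 0`, 2-cocycles and 2-coboundaries of a section.
-/
import Fermat.Agent.Lib.PT.BrauerBound
import Fermat.Agent.Lib.PT.BrgLevA

set_option autoImplicit false
set_option linter.unusedSectionVars false

namespace Fermat.Agent.Lib.PT

section InfResAt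

variable {k H V : Type*} [CommRing k] [Group H] [AddCommGroup V] [Module k V]
  (ρ : Representation k H V)

/-- **Inflation–restriction in degree 2 "at `N`"** (cochain level): `N ≤ M` normal subgroups of
`H`; if every 1-cocycle of `M` at `N` (right-`N`-invariant, with `N`-fixed values) is a
coboundary, then a 2-cocycle `z` of `H` at `N` whose restriction to `M` is the coboundary of a
1-cochain at `N` is `z = z' + d x` with `x` at `N` and `z'` a 2-cocycle at `M`. -/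
theorem ptg_infres_at (N M : Subgroup H) [hN : N.Normal] [hM : M.Normal] (hNM : N ≤ M)
    (h1 : ∀ ζ : M → V, (∀ s t : M, ζ (s * t) = ρ s (ζ t) + ζ s) →
      (∀ s n : M, (n : H) ∈ N → ζ (s * n) = ζ s) → (∀ s : M, ∀ n ∈ N, ρ n (ζ s) = ζ s) →
      ∃ b : V, ∀ s : M, ζ s = ρ s b - b)
    {z : H × H → V} (hz : pti_IsCoc₂ ρ z)
    (hzR : ∀ g h, ∀ n ∈ N, ∀ n' ∈ N, z (g * n, h * n') = z (g, h))
    (hzI : ∀ x, ∀ n ∈ N, ρ n (z x) = z x)
    (ψ₀ : M → V) (hψR : ∀ s n : M, (n : H) ∈ N → ψ₀ (s * n) = ψ₀ s)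
    (hψI : ∀ s : M, ∀ n ∈ N, ρ n (ψ₀ s) = ψ₀ s)
    (hzψ : ∀ s t : M, z ((s : H), (t : H)) = ρ s (ψ₀ t) - ψ₀ (s * t) + ψ₀ s) :
    ∃ (x : H → V) (z' : H × H → V), pti_IsCoc₂ ρ z' ∧ z = z' + pti_dOne ρ x ∧
      (∀ g, ∀ n ∈ N, x (g * n) = x g) ∧ (∀ g, ∀ n ∈ N, ρ n (x g) = x g) ∧
      (∀ g h, ∀ m ∈ M, ∀ m' ∈ M, z' (g * m, h * m') = z' (g, h)) ∧
      (∀ x, ∀ m ∈ M, ρ m (z' x) = z' x) := by
  classical
  -- the quotient data
  set π : H →* H ⧸ N := QuotientGroup.mk' N with hπdef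
  have hπ : Function.Surjective π := QuotientGroup.mk'_surjective N
  have hker : π.ker = N := QuotientGroup.ker_mk' N
  have hπN : ∀ n ∈ N, π n = 1 := fun n hn => by
    rw [← MonoidHom.mem_ker, hker]; exact hn
  have hπeq : ∀ g g' : H, π g = π g' → ∃ n ∈ N, g' = g * n := by
    intro g g' h
    refine ⟨g⁻¹ * g', ?_, by group⟩
    rw [← hker, MonoidHom.mem_ker, map_mul, map_inv, h, inv_mul_cancel]
  set W := Representation.invariants (ρ.comp N.subtype) with hW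
  set ρQ : Representation k (H ⧸ N) W := ρ.quotientToInvariants N with hρQ
  set ι : W →ₗ[k] V := W.subtype with hι
  have hιinj : Function.Injective ι := Subtype.val_injective
  have hcomm : ∀ g w, ι (ρQ (π g) w) = ρ g (ι w) := fun g w => rfl
  have hWinv : ∀ (w : W), ∀ n ∈ N, ρ n (ι w) = ι w := fun w n hn => w.2 ⟨n, hn⟩
  have hrange : ∀ v : V, (∀ s ∈ π.ker, ρ s v = v) → ∃ w, ι w = v := by
    intro v hv
    exact ⟨⟨v, fun s => hv s.1 (by rw [hker]; exact s.2)⟩, rfl⟩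
  have hrange' : ∀ v : V, (∀ n ∈ N, ρ n v = v) → ∃ w, ι w = v := by
    intro v hv
    exact hrange v (fun s hs => hv s (by rwa [hker] at hs))
  -- descend `z`
  obtain ⟨φ, hφ, hφz⟩ := pti_descent (ρ := ρ) (ρQ := ρQ) π hπ ι hιinj hcomm hrange hz
    (fun g h s hs => by
      have := hzR g h s (by rwa [hker] at hs) 1 N.one_mem
      rwa [mul_one] at this)
    (fun g h s hs => by
      have := hzR g h 1 N.one_mem s (by rwa [hker] at hs)
      rwa [mul_one] at this)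
    (fun g h s hs => hzI (g, h) s (by rwa [hker] at hs))
  -- the image of `M`
  set S : Subgroup (H ⧸ N) := M.map π with hS
  have hSn : S.Normal := Subgroup.Normal.map hM π hπ
  have hmemS : ∀ m : M, π (m : H) ∈ S := fun m => Subgroup.mem_map_of_mem π m.2
  -- descend `ψ₀`
  have hψdep : ∀ m m' : M, π (m : H) = π (m' : H) → ψ₀ m = ψ₀ m' := by
    intro m m' h
    obtain ⟨n, hn, e⟩ := hπeq _ _ h
    have : m' = m * ⟨n, hNM hn⟩ := Subtype.ext e
    rw [this, hψR m ⟨n, hNM hn⟩ hn]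
  have hy₀ex : ∀ s : S, ∃ w : W, ∀ m : M, π (m : H) = s → ι w = ψ₀ m := by
    intro s
    obtain ⟨m₀, hm₀, hs⟩ := s.2
    obtain ⟨w, hw⟩ := hrange' (ψ₀ ⟨m₀, hm₀⟩) (hψI _)
    exact ⟨w, fun m hm => by rw [hw]; exact hψdep _ _ (by rw [hm]; exact hs)⟩
  choose y₀ hy₀ using hy₀ex
  have hy₀' : ∀ m : M, ι (y₀ ⟨π (m : H), hmemS m⟩) = ψ₀ m := fun m => hy₀ _ m rfl
  have hφy : ∀ s t : S, φ ((s : H ⧸ N), (t : H ⧸ N)) = ρQ s (y₀ t) - y₀ (s * t) + y₀ s := by
    intro s t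
    obtain ⟨m, hm, hs⟩ := s.2
    obtain ⟨m', hm', ht⟩ := t.2
    apply hιinj
    have h1 : ι (y₀ s) = ψ₀ ⟨m, hm⟩ := hy₀ s ⟨m, hm⟩ hs
    have h2 : ι (y₀ t) = ψ₀ ⟨m', hm'⟩ := hy₀ t ⟨m', hm'⟩ ht
    have h3 : ι (y₀ (s * t)) = ψ₀ (⟨m, hm⟩ * ⟨m', hm'⟩) :=
      hy₀ (s * t) (⟨m, hm⟩ * ⟨m', hm'⟩) (by
        show π (m * m') = (s : H ⧸ N) * (t : H ⧸ N)
        rw [map_mul, hs, ht])
    have h4 : ι (ρQ s (y₀ t)) = ρ m (ι (y₀ t)) := by
      rw [← hs]; exact hcomm m (y₀ t)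
    rw [map_add, map_sub, h1, h3, h4, h2, ← hs, ← ht, hφz]
    exact hzψ ⟨m, hm⟩ ⟨m', hm'⟩
  -- `H¹(S, W) = 0`
  have hS1 : ∀ ζ : S → W, (∀ s t : S, ζ (s * t) = ρQ s (ζ t) + ζ s) →
      ∃ b : W, ∀ s : S, ζ s = ρQ s b - b := by
    intro ζ hζ
    have hζ1 : ζ 1 = 0 := by
      have := hζ 1 1
      rw [mul_one, OneMemClass.coe_one, map_one, Module.End.one_apply] at this
      exact (add_eq_left.mp this.symm)
    let ζ' : M → V := fun m => ι (ζ ⟨π (m : H), hmemS m⟩)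
    have hmul : ∀ m m' : M, (⟨π ((m * m' : M) : H), hmemS _⟩ : S) =
        ⟨π (m : H), hmemS m⟩ * ⟨π (m' : H), hmemS m'⟩ := fun m m' =>
      Subtype.ext (by simp [map_mul])
    obtain ⟨b, hb⟩ := h1 ζ'
      (fun m m' => by
        show ι (ζ ⟨π ((m * m' : M) : H), hmemS _⟩) = ρ m (ι (ζ _)) + ι (ζ _)
        rw [hmul, hζ, map_add]
        rfl)
      (fun m n hn => by
        show ι (ζ ⟨π ((m * n : M) : H), hmemS _⟩) = ι (ζ _)
        congr 2
        apply Subtype.ext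
        show π ((m : H) * (n : H)) = π m
        rw [map_mul, hπN _ hn, mul_one])
      (fun m n hn => hWinv _ n hn)
    have hbN : ∀ n ∈ N, ρ n b = b := by
      intro n hn
      have h2 := hb ⟨n, hNM hn⟩
      have h3 : ζ' ⟨n, hNM hn⟩ = 0 := by
        show ι (ζ ⟨π n, _⟩) = 0
        have : (⟨π n, hmemS ⟨n, hNM hn⟩⟩ : S) = 1 := Subtype.ext (hπN n hn)
        rw [this, hζ1, map_zero]
      rw [h3] at h2
      exact (sub_eq_zero.mp h2.symm)
    obtain ⟨w, hw⟩ := hrange' b hbN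
    refine ⟨w, fun s => ?_⟩
    obtain ⟨m, hm, hs⟩ := s.2
    apply hιinj
    have e1 : s = ⟨π m, hmemS ⟨m, hm⟩⟩ := Subtype.ext hs.symm
    have h4 : ι (ρQ s w) = ρ m (ι w) := by
      rw [← hs]; exact hcomm m w
    rw [map_sub, h4, hw, e1]
    exact hb ⟨m, hm⟩
  obtain ⟨x', f', hf', hff', R1, R2, -, -, hinv⟩ := pti_infres_core (ρ := ρQ) S hφ hS1 y₀ hφy
  refine ⟨fun g => ι (x' (π g)), fun y => ι (f' (π y.1, π y.2)), ?_, ?_, ?_, ?_, ?_, ?_⟩
  · intro g h j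
    have := congrArg ι (hf' (π g) (π h) (π j))
    rw [map_add, map_add, hcomm, ← map_mul, ← map_mul] at this
    exact this
  · funext ⟨g, h⟩
    rw [← hφz, hff']
    simp only [Pi.add_apply, pti_dOne_apply, map_add, map_sub, hcomm, map_mul]
  · intro g n hn
    show ι (x' (π (g * n))) = ι (x' (π g))
    rw [map_mul, hπN n hn, mul_one]
  · intro g n hn
    exact hWinv _ n hn
  · intro g h m hm m' hm'
    show ι (f' (π (g * m), π (h * m'))) = ι (f' (π g, π h))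
    rw [map_mul, map_mul, R1 _ _ _ (hmemS ⟨m, hm⟩), R2 _ _ _ (hmemS ⟨m', hm'⟩)]
  · intro y m hm
    show ρ m (ι (f' (π y.1, π y.2))) = ι (f' (π y.1, π y.2))
    rw [← hcomm, hinv _ _ _ (hmemS ⟨m, hm⟩)]

end InfResAt

section Exact

/-- a three-term exactness count in terms of relative indices -/
theorem ptg_relIndex_dvd_of_exact {X Y : Type*} [AddCommGroup X] [AddCommGroup Y]
    (A B A' B' : AddSubgroup X) (A'' B'' : AddSubgroup Y) (r : X →+ Y)
    (hA'A : A' ≤ A) (hB'B : B' ≤ B)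
    (hrA : ∀ a ∈ A, r a ∈ A'') (hrB : ∀ b ∈ B, r b ∈ B'')
    (hex : ∀ a ∈ A, r a ∈ B'' → ∃ a' ∈ A', a - a' ∈ B) :
    B.relIndex A ∣ B'.relIndex A' * B''.relIndex A'' := by
  let f : ↥A' ⧸ B'.addSubgroupOf A' →+ ↥A ⧸ B.addSubgroupOf A :=
    QuotientAddGroup.map _ _ (AddSubgroup.inclusion hA'A) (fun x hx => hB'B hx)
  let r' : ↥A →+ ↥A'' := (r.comp A.subtype).codRestrict A'' (fun a => hrA a a.2)
  let g : ↥A ⧸ B.addSubgroupOf A →+ ↥A'' ⧸ B''.addSubgroupOf A'' :=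
    QuotientAddGroup.map _ _ r' (fun x hx => hrB x hx)
  have h := pti_card_dvd_of_exact f g (by
    intro b hb
    induction b using QuotientAddGroup.induction_on with
    | H a =>
      have h1 : r a ∈ B'' := by
        have : g (QuotientAddGroup.mk a) = QuotientAddGroup.mk (r' a) := rfl
        rw [this, QuotientAddGroup.eq_zero_iff] at hb
        exact hb
      obtain ⟨a', ha', hd⟩ := hex a a.2 h1
      refine ⟨QuotientAddGroup.mk ⟨a', ha'⟩, ?_⟩
      show (QuotientAddGroup.mk (AddSubgroup.inclusion hA'A ⟨a', ha'⟩) :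
        ↥A ⧸ B.addSubgroupOf A) = QuotientAddGroup.mk a
      rw [QuotientAddGroup.eq]
      show -(a' : X) + (a : X) ∈ B
      rw [neg_add_eq_sub]
      exact hd)
  rw [AddSubgroup.relIndex, AddSubgroup.relIndex, AddSubgroup.relIndex,
    AddSubgroup.index_eq_card, AddSubgroup.index_eq_card, AddSubgroup.index_eq_card]
  exact h

end Exact

section Defs

variable {G : Type*} [Group G] {C : Type*} [AddCommGroup C] (ρ : Representation ℤ G C)

/-- `H¹` of the section `(U, N)` vanishes: every 1-cocycle of `U` at `N` is a coboundary -/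
def ptg_H1At (U N : Subgroup G) : Prop :=
  ∀ φ : U → C, ptd_IsZ1 (ptd_resRep ρ U) φ → ptn_At₁ U N ρ φ → ptd_IsB1 (ptd_resRep ρ U) φ

/-- 2-cocycles of `U` at `N` -/
def ptg_Z2At (U N : Subgroup G) : AddSubgroup (U × U → C) where
  carrier := {z | ptd_IsZ2 (ptd_resRep ρ U) z ∧ ptn_At₂ U N ρ z}
  zero_mem' := ⟨ptd_isZ2_zero, fun _ _ _ _ _ _ => rfl, fun _ _ _ => map_zero _⟩
  add_mem' := fun {z z'} hz hz' => ⟨hz.1.add hz'.1,
    fun a b n n' hn hn' => by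
      simp only [Pi.add_apply, hz.2.1 a b n n' hn hn', hz'.2.1 a b n n' hn hn'],
    fun x n hn => by simp only [Pi.add_apply, map_add, hz.2.2 x n hn, hz'.2.2 x n hn]⟩
  neg_mem' := fun {z} hz => ⟨hz.1.neg,
    fun a b n n' hn hn' => by simp only [Pi.neg_apply, hz.2.1 a b n n' hn hn'],
    fun x n hn => by simp only [Pi.neg_apply, map_neg, hz.2.2 x n hn]⟩

/-- 2-coboundaries of `U` at `N` -/
def ptg_B2At (U N : Subgroup G) : AddSubgroup (U × U → C) where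
  carrier := {z | ∃ ψ : U → C, ptn_At₁ U N ρ ψ ∧ z = ptd_d1 (ptd_resRep ρ U) ψ}
  zero_mem' := ⟨0, ⟨fun _ _ _ => rfl, fun _ _ _ => map_zero _⟩, ptd_d1_zero.symm⟩
  add_mem' := by
    rintro _ _ ⟨ψ, hψ, rfl⟩ ⟨ψ', hψ', rfl⟩
    refine ⟨ψ + ψ', ⟨fun a n hn => ?_, fun x n hn => ?_⟩, (ptd_d1_add ψ ψ').symm⟩
    · simp only [Pi.add_apply, hψ.1 a n hn, hψ'.1 a n hn]
    · simp only [Pi.add_apply, map_add, hψ.2 x n hn, hψ'.2 x n hn]
  neg_mem' := by
    rintro _ ⟨ψ, hψ, rfl⟩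
    refine ⟨-ψ, ⟨fun a n hn => ?_, fun x n hn => ?_⟩, (ptd_d1_neg ψ).symm⟩
    · simp only [Pi.neg_apply, hψ.1 a n hn]
    · simp only [Pi.neg_apply, map_neg, hψ.2 x n hn]

variable {ρ}

lemma ptg_mem_Z2At {U N : Subgroup G} {z : U × U → C} :
    z ∈ ptg_Z2At ρ U N ↔ ptd_IsZ2 (ptd_resRep ρ U) z ∧ ptn_At₂ U N ρ z := Iff.rfl

lemma ptg_mem_B2At {U N : Subgroup G} {z : U × U → C} :
    z ∈ ptg_B2At ρ U N ↔ ∃ ψ : U → C, ptn_At₁ U N ρ ψ ∧ z = ptd_d1 (ptd_resRep ρ U) ψ := Iff.rfl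

end Defs

end Fermat.Agent.Lib.PT
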