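/-
S55 / (G5) DÉVISSAGE, part 2 (helper7): the induction.

* `ptg_Z2At_infres` : exactness of `H²(U at Z) → H²(U at N) → H²(Z at N)` when `H¹(Z at N) = 0`;
* `ptg_H1At_step`   : `H¹(Z at N) = 0` and `H¹(U at Z) = 0` give `H¹(U at N) = 0`;
* `ptg_exists_mid`  : a `p`-section has a normal intermediate subgroup with `[Z : N] = p`;
* `ptg_devissage`   : `H¹ = 0` and `#H² ∣ p^k` for all sections of index `p^k`, from the layers of
  index `p`;
* `ptg_H2At_generated`, `ptg_G5` : the result in helper5's shape (G5-1)/(G5-2).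
-/
import Fermat.Agent.Lib.PT.BridgeP

set_option autoImplicit false
set_option linter.unusedSectionVars false

namespace Fermat.Agent.Lib.PT

section Mid

variable {G : Type*} [Group G]

/-- a section `(U, N)` of order `p^(k+1)` has an intermediate subgroup `Z`, normal in `U`, with
`[Z : N] = p` and `[U : Z] = p^k` -/
lemma ptg_exists_mid (p : ℕ) [Fact p.Prime] {U N : Subgroup G} (hNU : N ≤ U)
    (hN : (N.subgroupOf U).Normal) {k : ℕ} (hidx : N.relIndex U = p ^ (k + 1)) :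
    ∃ Z : Subgroup G, N ≤ Z ∧ Z ≤ U ∧ (Z.subgroupOf U).Normal ∧ N.relIndex Z = p ∧
      Z.relIndex U = p ^ k := by
  have hp := (Fact.out : p.Prime)
  have hcard : Nat.card (↥U ⧸ N.subgroupOf U) = p ^ (k + 1) := by
    rw [← Subgroup.index_eq_card]; exact hidx
  have hfin : Finite (↥U ⧸ N.subgroupOf U) :=
    Nat.finite_of_card_ne_zero (by rw [hcard]; exact pow_ne_zero _ hp.ne_zero)
  have hpg : IsPGroup p (↥U ⧸ N.subgroupOf U) := IsPGroup.of_card hcard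
  have hnt : Nontrivial (↥U ⧸ N.subgroupOf U) := by
    rw [← Finite.one_lt_card_iff_nontrivial, hcard]
    exact Nat.one_lt_pow (Nat.succ_ne_zero k) hp.one_lt
  obtain ⟨Zb, hZbn, hZbc⟩ := pti_exists_normal_card_prime hpg
  set Z₀ : Subgroup ↥U := Zb.comap (QuotientGroup.mk' (N.subgroupOf U)) with hZ₀
  have hZ₀n : Z₀.Normal := Subgroup.Normal.comap hZbn _
  have hsub : (Z₀.map U.subtype).subgroupOf U = Z₀ :=
    Subgroup.comap_map_eq_self_of_injective U.subtype_injective Z₀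
  have hZU : Z₀.map U.subtype ≤ U := Subgroup.map_subtype_le Z₀
  have hNZ : N ≤ Z₀.map U.subtype := by
    intro n hn
    refine ⟨⟨n, hNU hn⟩, ?_, rfl⟩
    show QuotientGroup.mk' (N.subgroupOf U) ⟨n, hNU hn⟩ ∈ Zb
    have : QuotientGroup.mk' (N.subgroupOf U) ⟨n, hNU hn⟩ = 1 := by
      rw [QuotientGroup.mk'_apply, QuotientGroup.eq_one_iff]
      exact Subgroup.mem_subgroupOf.mpr hn
    rw [this]; exact Zb.one_mem
  have hidxZ : (Z₀.map U.subtype).relIndex U = p ^ k := by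
    rw [Subgroup.relIndex, hsub, hZ₀,
      Subgroup.index_comap_of_surjective _ (QuotientGroup.mk'_surjective _)]
    have h1 := Subgroup.card_mul_index Zb
    rw [hZbc, hcard, pow_succ'] at h1
    exact Nat.eq_of_mul_eq_mul_left hp.pos h1
  refine ⟨Z₀.map U.subtype, hNZ, hZU, by rw [hsub]; exact hZ₀n, ?_, hidxZ⟩
  have h2 := Subgroup.relIndex_mul_relIndex N (Z₀.map U.subtype) U hNZ hZU
  rw [hidx, hidxZ, pow_succ'] at h2
  exact Nat.eq_of_mul_eq_mul_right (pow_pos hp.pos k) h2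


end Mid

section Step

variable {G : Type*} [Group G] {C : Type*} [AddCommGroup C] {ρ : Representation ℤ G C}

/-- `N` normal in `U` (as `N.subgroupOf U`): conjugation by elements of `U` preserves `N` -/
lemma ptg_conj_mem {U N : Subgroup G} (hNU : N ≤ U) (h : (N.subgroupOf U).Normal) {u n : G}
    (hu : u ∈ U) (hn : n ∈ N) : u * n * u⁻¹ ∈ N := by
  have := h.conj_mem ⟨n, hNU hn⟩ (Subgroup.mem_subgroupOf.mpr hn) ⟨u, hu⟩
  exact Subgroup.mem_subgroupOf.mp this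

lemma ptg_conj_mem' {U N : Subgroup G} (hNU : N ≤ U) (h : (N.subgroupOf U).Normal) {u n : G}
    (hu : u ∈ U) (hn : n ∈ N) : u⁻¹ * n * u ∈ N := by
  have := ptg_conj_mem hNU h (U.inv_mem hu) hn
  rwa [inv_inv] at this

/-- restriction of 2-cochains from `U` to `Z ≤ U` -/
def ptg_resTo {U Z : Subgroup G} (hZU : Z ≤ U) : (U × U → C) →+ (Z × Z → C) where
  toFun z := fun x => z (Subgroup.inclusion hZU x.1, Subgroup.inclusion hZU x.2)
  map_zero' := rfl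
  map_add' _ _ := rfl

@[simp] lemma ptg_resTo_apply {U Z : Subgroup G} (hZU : Z ≤ U) (z : U × U → C) (a b : Z) :
    ptg_resTo hZU z (a, b) = z (Subgroup.inclusion hZU a, Subgroup.inclusion hZU b) := rfl

lemma ptg_resTo_mem_Z2At {U Z N : Subgroup G} (hZU : Z ≤ U) {z : U × U → C}
    (hz : z ∈ ptg_Z2At ρ U N) : ptg_resTo hZU z ∈ ptg_Z2At ρ Z N := by
  refine ⟨fun g h j => hz.1 (Subgroup.inclusion hZU g) (Subgroup.inclusion hZU h)
    (Subgroup.inclusion hZU j), fun a b n n' hn hn' => ?_, fun x n hn => hz.2.2 _ n hn⟩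
  exact hz.2.1 (Subgroup.inclusion hZU a) (Subgroup.inclusion hZU b) (Subgroup.inclusion hZU n)
    (Subgroup.inclusion hZU n') hn hn'

lemma ptg_resTo_mem_B2At {U Z N : Subgroup G} (hZU : Z ≤ U) {z : U × U → C}
    (hz : z ∈ ptg_B2At ρ U N) : ptg_resTo hZU z ∈ ptg_B2At ρ Z N := by
  obtain ⟨ψ, hψ, rfl⟩ := hz
  refine ⟨fun a => ψ (Subgroup.inclusion hZU a), ⟨fun a n hn => ?_, fun x n hn => hψ.2 _ n hn⟩, ?_⟩
  · exact hψ.1 (Subgroup.inclusion hZU a) (Subgroup.inclusion hZU n) hn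
  · funext ⟨a, b⟩
    rfl

lemma ptg_Z2At_mono {U N Z : Subgroup G} (hNZ : N ≤ Z) : ptg_Z2At ρ U Z ≤ ptg_Z2At ρ U N :=
  fun _ hz => ⟨hz.1, hz.2.mono hNZ⟩

lemma ptg_B2At_mono {U N Z : Subgroup G} (hNZ : N ≤ Z) : ptg_B2At ρ U Z ≤ ptg_B2At ρ U N := by
  rintro _ ⟨ψ, hψ, rfl⟩
  exact ⟨ψ, hψ.mono hNZ, rfl⟩

/-- the exactness input of the dévissage: inflation–restriction for the sections
`(U, Z)`, `(U, N)`, `(Z, N)` -/
theorem ptg_Z2At_infres {U Z N : Subgroup G} (hNZ : N ≤ Z) (hZU : Z ≤ U)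
    (hN : (N.subgroupOf U).Normal) (hZ : (Z.subgroupOf U).Normal)
    (h1 : ptg_H1At ρ Z N) {z : U × U → C} (hz : z ∈ ptg_Z2At ρ U N)
    (hres : ptg_resTo hZU z ∈ ptg_B2At ρ Z N) :
    ∃ z' ∈ ptg_Z2At ρ U Z, z - z' ∈ ptg_B2At ρ U N := by
  obtain ⟨ψ, hψ, hzψ⟩ := hres
  have hNU : N ≤ U := hNZ.trans hZU
  let e := Subgroup.subgroupOfEquivOfLe hZU
  obtain ⟨x, z', hz', hzz', hxR, hxI, hz'R, hz'I⟩ := ptg_infres_at (ptd_resRep ρ U)
    (N.subgroupOf U) (Z.subgroupOf U) (Subgroup.subgroupOf_mono U hNZ)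
    (fun ζ hζ hζR hζI => by
      obtain ⟨b, hb⟩ := h1 (fun a => ζ (e.symm a))
        (fun a b => by
          show ζ (e.symm (a * b)) = _
          rw [map_mul, hζ]
          rfl)
        ⟨fun a n hn => by
          show ζ (e.symm (a * n)) = ζ (e.symm a)
          rw [map_mul]
          exact hζR _ _ hn,
         fun a n hn => hζI (e.symm a) ⟨n, hNU hn⟩ hn⟩
      refine ⟨b, fun s => ?_⟩
      have := congrFun hb (e s)
      simp only [MulEquiv.symm_apply_apply] at this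
      exact this)
    hz.1
    (fun g h n hn n' hn' => hz.2.1 g h n n' hn hn')
    (fun y n hn => hz.2.2 y n hn)
    (fun s => ψ (e s))
    (fun s n hn => by
      show ψ (e (s * n)) = ψ (e s)
      rw [map_mul]
      exact hψ.1 _ _ hn)
    (fun s n hn => hψ.2 _ n hn)
    (fun s t => by
      have := congrFun hzψ (e s, e t)
      exact this)
  refine ⟨z', ⟨hz', fun a b m m' hm hm' => hz'R a b m hm m' hm', fun y m hm =>
    hz'I y ⟨m, hZU hm⟩ hm⟩, x, ⟨fun a n hn => hxR a n hn, fun a n hn => hxI a ⟨n, hNU hn⟩ hn⟩, ?_⟩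
  rw [hzz']
  simp only [add_sub_cancel_left]
  rfl


/-- 1-cocycles vanish at `1` -/
lemma ptg_isZ1_one {H : Type*} [Group H] {ρH : Representation ℤ H C} {φ : H → C}
    (hφ : ptd_IsZ1 ρH φ) : φ 1 = 0 := by
  have := hφ 1 1
  rw [mul_one, map_one, Module.End.one_apply] at this
  exact add_eq_left.mp this.symm

/-- dévissage of `H¹` along `N ≤ Z ≤ U` -/
theorem ptg_H1At_step {U Z N : Subgroup G} (hNZ : N ≤ Z) (hZU : Z ≤ U)
    (hZ : (Z.subgroupOf U).Normal) (h1 : ptg_H1At ρ Z N) (h2 : ptg_H1At ρ U Z) :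
    ptg_H1At ρ U N := by
  intro φ hφ hat
  -- restrict to `Z`
  obtain ⟨c, hc⟩ := h1 (fun a => φ (Subgroup.inclusion hZU a))
    (fun a b => hφ (Subgroup.inclusion hZU a) (Subgroup.inclusion hZU b))
    ⟨fun a n hn => hat.1 (Subgroup.inclusion hZU a) (Subgroup.inclusion hZU n) hn,
      fun a n hn => hat.2 _ n hn⟩
  have hcZ : ∀ s : U, (s : G) ∈ Z → φ s = ρ (s : G) c - c := by
    intro s hs
    exact congrFun hc ⟨s, hs⟩
  set φ' : U → C := φ - ptd_d0 (ptd_resRep ρ U) c with hφ'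
  have hφ'Z : ptd_IsZ1 (ptd_resRep ρ U) φ' := by
    intro g h
    have := ptd_isZ1_d0 (ρ := ptd_resRep ρ U) c g h
    simp only [hφ', Pi.sub_apply, hφ g h, this, map_sub]
    abel
  have hφ'0 : ∀ s : U, (s : G) ∈ Z → φ' s = 0 := by
    intro s hs
    simp only [hφ', Pi.sub_apply, hcZ s hs, ptd_d0_apply, ptd_resRep_apply, sub_self]
  have hatZ : ptn_At₁ U Z ρ φ' := by
    have hR : ∀ a s : U, (s : G) ∈ Z → φ' (a * s) = φ' a := by
      intro a s hs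
      rw [hφ'Z a s, hφ'0 s hs, map_zero, zero_add]
    refine ⟨hR, fun a s hs => ?_⟩
    have e : (⟨s, hZU hs⟩ : U) * a = a * ⟨(a : G)⁻¹ * s * a, U.mul_mem (U.mul_mem (U.inv_mem a.2)
        (hZU hs)) a.2⟩ := by
      apply Subtype.ext
      simp only [Subgroup.coe_mul]
      group
    have h3 := hφ'Z ⟨s, hZU hs⟩ a
    rw [hφ'0 ⟨s, hZU hs⟩ hs, add_zero, e, hR a _ (ptg_conj_mem' hZU hZ a.2 hs)] at h3
    exact h3.symm
  obtain ⟨c', hc'⟩ := h2 φ' hφ'Z hatZ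
  refine ⟨c + c', ?_⟩
  funext u
  have := congrFun hc' u
  simp only [hφ', Pi.sub_apply, ptd_d0_apply, ptd_resRep_apply] at this
  simp only [ptd_d0_apply, ptd_resRep_apply, map_add]
  rw [sub_eq_iff_eq_add] at this
  rw [this]
  abel

/-- base case of the dévissage: `U ≤ N` -/
theorem ptg_H1At_of_le {U N : Subgroup G} (hUN : U ≤ N) : ptg_H1At ρ U N := by
  intro φ hφ hat
  refine ⟨0, ?_⟩
  funext u
  have h1 := hat.1 1 u (hUN u.2)
  rw [one_mul, ptg_isZ1_one hφ] at h1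
  simp [h1]

theorem ptg_Z2At_le_B2At_of_le {U N : Subgroup G} (hUN : U ≤ N) :
    ptg_Z2At ρ U N ≤ ptg_B2At ρ U N := by
  intro z hz
  have hconst : ∀ a b : U, z (a, b) = z (1, 1) := by
    intro a b
    have := hz.2.1 1 1 a b (hUN a.2) (hUN b.2)
    rwa [one_mul, one_mul] at this
  refine ⟨fun _ => z (1, 1), ⟨fun _ _ _ => rfl, fun _ n hn => hz.2.2 _ n hn⟩, ?_⟩
  funext ⟨a, b⟩
  simp only [ptd_d1_apply, ptd_resRep_apply, hconst a b, hz.2.2 (1, 1) a (hUN a.2)]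
  abel


/-- **`H²` of a section is generated by any class of exact order `m`, if its order divides `m`**
(helper5's shape (G5-2)). -/
theorem ptg_H2At_generated {U N : Subgroup G} {m : ℕ} (hm : m ≠ 0)
    (hcard : (ptg_B2At ρ U N).relIndex (ptg_Z2At ρ U N) ∣ m)
    {w : U × U → C} (hw : ptd_IsZ2 (ptd_resRep ρ U) w) (hwat : ptn_At₂ U N ρ w)
    (hord : ∀ k : ℤ, ∀ ψ : U → C, ptn_At₁ U N ρ ψ → k • w = ptd_d1 (ptd_resRep ρ U) ψ →
      (m : ℤ) ∣ k)
    {z : U × U → C} (hz : ptd_IsZ2 (ptd_resRep ρ U) z) (hzat : ptn_At₂ U N ρ z) :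
    ∃ (n : ℤ) (ψ : U → C), ptn_At₁ U N ρ ψ ∧ z - n • w = ptd_d1 (ptd_resRep ρ U) ψ := by
  set A := ptg_Z2At ρ U N with hA
  set B := ptg_B2At ρ U N with hB
  let x : ↥A ⧸ B.addSubgroupOf A := QuotientAddGroup.mk ⟨w, hw, hwat⟩
  have hc : Nat.card (↥A ⧸ B.addSubgroupOf A) ∣ m := by
    rw [← AddSubgroup.index_eq_card]; exact hcard
  have hx : ∀ n : ℤ, n • x = 0 → (m : ℤ) ∣ n := by
    intro n hn
    have h1 : n • x = QuotientAddGroup.mk (n • (⟨w, hw, hwat⟩ : ↥A)) := rfl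
    rw [h1, QuotientAddGroup.eq_zero_iff] at hn
    obtain ⟨ψ, hψ, e⟩ := (AddSubgroup.mem_addSubgroupOf.mp hn : ((n • (⟨w, hw, hwat⟩ : ↥A) : ↥A) :
      U × U → C) ∈ B)
    exact hord n ψ hψ e
  obtain ⟨n, hn⟩ := pti_gen_of_card_dvd x m hm hc hx (QuotientAddGroup.mk ⟨z, hz, hzat⟩)
  have h1 : n • x = QuotientAddGroup.mk (n • (⟨w, hw, hwat⟩ : ↥A)) := rfl
  rw [h1, eq_comm, QuotientAddGroup.eq] at hn
  obtain ⟨ψ, hψ, e⟩ := (AddSubgroup.mem_addSubgroupOf.mp hn)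
  refine ⟨n, ψ, hψ, ?_⟩
  rw [← e]
  show z - n • w = -(n • w) + z
  abel


/-- `N` normal in `U` and `Z ≤ U`: `N` is normal in `Z` -/
lemma ptg_normal_subgroupOf_of_le {U Z N : Subgroup G} (hNU : N ≤ U) (hZU : Z ≤ U)
    (hN : (N.subgroupOf U).Normal) : (N.subgroupOf Z).Normal := by
  refine ⟨fun n hn g => ?_⟩
  exact Subgroup.mem_subgroupOf.mpr
    (ptg_conj_mem hNU hN (hZU g.2) (Subgroup.mem_subgroupOf.mp hn))

/-- **(G5) DÉVISSAGE, abstract big-model form.**  Let `N₀ ≤ U₀` be subgroups of `G`.  Assume that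
for every section `(U, N)` between them with `N` normal of index `p` in `U` (cyclic layers) we
have `H¹ = 0` and at most `p` classes in `H²` (cochains at `N`).  Then for every section `(U, N)`
between them with `N` normal of index `p^k` in `U`: `H¹ = 0` and `#H² ∣ p^k`. -/
theorem ptg_devissage (p : ℕ) [Fact p.Prime] (U₀ N₀ : Subgroup G)
    (hcyc : ∀ U N : Subgroup G, N₀ ≤ N → N ≤ U → U ≤ U₀ → (N.subgroupOf U).Normal →
      N.relIndex U = p →
      ptg_H1At ρ U N ∧ (ptg_B2At ρ U N).relIndex (ptg_Z2At ρ U N) ∣ p) :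
    ∀ (k : ℕ) (U N : Subgroup G), N₀ ≤ N → N ≤ U → U ≤ U₀ → (N.subgroupOf U).Normal →
      N.relIndex U = p ^ k →
      ptg_H1At ρ U N ∧ (ptg_B2At ρ U N).relIndex (ptg_Z2At ρ U N) ∣ p ^ k := by
  intro k
  induction k with
  | zero =>
    intro U N _ _ _ _ hidx
    rw [pow_zero, Subgroup.relIndex_eq_one] at hidx
    refine ⟨ptg_H1At_of_le hidx, ?_⟩
    rw [pow_zero, Nat.dvd_one, AddSubgroup.relIndex_eq_one]
    exact ptg_Z2At_le_B2At_of_le hidx
  | succ k ih =>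
    intro U N h0 hNU hU hn hidx
    obtain ⟨Z, hNZ, hZU, hZn, hNZidx, hZUidx⟩ := ptg_exists_mid p hNU hn hidx
    have hnZ : (N.subgroupOf Z).Normal := ptg_normal_subgroupOf_of_le hNU hZU hn
    obtain ⟨c1, c2⟩ := hcyc Z N h0 hNZ (hZU.trans hU) hnZ hNZidx
    obtain ⟨i1, i2⟩ := ih U Z (h0.trans hNZ) hZU hU hZn hZUidx
    refine ⟨ptg_H1At_step hNZ hZU hZn c1 i1, ?_⟩
    have h := ptg_relIndex_dvd_of_exact (ptg_Z2At ρ U N) (ptg_B2At ρ U N) (ptg_Z2At ρ U Z)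
      (ptg_B2At ρ U Z) (ptg_Z2At ρ Z N) (ptg_B2At ρ Z N) (ptg_resTo hZU) (ptg_Z2At_mono hNZ)
      (ptg_B2At_mono hNZ) (fun a ha => ptg_resTo_mem_Z2At hZU ha)
      (fun b hb => ptg_resTo_mem_B2At hZU hb)
      (fun a ha hr => ptg_Z2At_infres hNZ hZU hn hZn c1 ha hr)
    exact h.trans (by rw [pow_succ]; exact Nat.mul_dvd_mul i2 c2)

/-- a section `(U, N)` of finite index in which every element of `U` has `p`-power order modulo
`N` has `p`-power index -/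
lemma ptg_relIndex_eq_pow (p : ℕ) [Fact p.Prime] {U N : Subgroup G}
    (hN : (N.subgroupOf U).Normal) (hfin : N.relIndex U ≠ 0)
    (hp : ∀ x ∈ U, ∃ j : ℕ, x ^ p ^ j ∈ N) : ∃ k : ℕ, N.relIndex U = p ^ k := by
  have hcard : Nat.card (↥U ⧸ N.subgroupOf U) = N.relIndex U := by
    rw [← Subgroup.index_eq_card]; rfl
  have hfinQ : Finite (↥U ⧸ N.subgroupOf U) :=
    Nat.finite_of_card_ne_zero (by rw [hcard]; exact hfin)
  have hpg : IsPGroup p (↥U ⧸ N.subgroupOf U) := by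
    intro x
    induction x using QuotientGroup.induction_on with
    | H u =>
      obtain ⟨j, hj⟩ := hp u u.2
      refine ⟨j, ?_⟩
      rw [← QuotientGroup.mk_pow, QuotientGroup.eq_one_iff]
      exact Subgroup.mem_subgroupOf.mpr (by simpa using hj)
  obtain ⟨k, hk⟩ := (IsPGroup.iff_card).mp hpg
  exact ⟨k, by rw [← hcard, hk]⟩

/-- **(G5) in helper5's pair shape** `(G5-1) ∧ (G5-2)`, for every section `(U, N)` of `p`-power
index between `N₀` and `U₀`, from the cyclic layers. -/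
theorem ptg_G5 (p : ℕ) [Fact p.Prime] (U₀ N₀ : Subgroup G)
    (hcyc : ∀ U N : Subgroup G, N₀ ≤ N → N ≤ U → U ≤ U₀ → (N.subgroupOf U).Normal →
      N.relIndex U = p →
      ptg_H1At ρ U N ∧ (ptg_B2At ρ U N).relIndex (ptg_Z2At ρ U N) ∣ p)
    (U N : Subgroup G) (h0 : N₀ ≤ N) (hNU : N ≤ U) (hU : U ≤ U₀) (hN : (N.subgroupOf U).Normal)
    (hfin : N.relIndex U ≠ 0) (hp : ∀ x ∈ U, ∃ j : ℕ, x ^ p ^ j ∈ N) :
    (∀ φ : U → C, ptd_IsZ1 (ptd_resRep ρ U) φ → ptn_At₁ U N ρ φ →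
        ptd_IsB1 (ptd_resRep ρ U) φ) ∧
    (∀ w : U × U → C, ptd_IsZ2 (ptd_resRep ρ U) w → ptn_At₂ U N ρ w →
      (∀ k : ℤ, ∀ ψ : U → C, ptn_At₁ U N ρ ψ → k • w = ptd_d1 (ptd_resRep ρ U) ψ →
        ((N.relIndex U : ℕ) : ℤ) ∣ k) →
      ∀ z : U × U → C, ptd_IsZ2 (ptd_resRep ρ U) z → ptn_At₂ U N ρ z →
        ∃ (n : ℤ) (ψ : U → C), ptn_At₁ U N ρ ψ ∧ z - n • w = ptd_d1 (ptd_resRep ρ U) ψ) := by
  obtain ⟨k, hk⟩ := ptg_relIndex_eq_pow p hN hfin hp
  obtain ⟨h1, h2⟩ := ptg_devissage p U₀ N₀ hcyc k U N h0 hNU hU hN hk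
  refine ⟨h1, fun w hw hwat hord z hz hzat => ?_⟩
  rw [← hk] at h2
  exact ptg_H2At_generated hfin h2 hw hwat hord hz hzat

end Step

end Fermat.Agent.Lib.PT
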