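/-
S55 / (G5) DÉVISSAGE, part 3 (helper7): TRANSPORT from finite presentations and final adapters.

* `ptg_Z2`, `ptg_B2` : all 2-cocycles / 2-coboundaries of a group `Γ` in a module `A`
  (any coefficient ring, any module structure), `ptg_relIndex_eq_card_H2` : their relative index is
  `Nat.card (groupCohomology A 2)` for `A : Rep ℤ Γ`; `ptg_H1_of_mul` : Mathlib's multiplicative
  `H¹ = 0` in the additive vocabulary.
* PRESENTED SECTIONS: for a section `(U, N)` of `G`, a surjection `π : U → Γ` with kernel `N`, a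
  `Γ`-module `A` and an injective equivariant `ι : A → C` onto the `N`-invariants:
  `ptg_H1At_of_presented`, `ptg_relIndex_of_presented`, `ptg_hcyc_of_presented` transport
  `H¹ = 0` and `#H²` from `(Γ, A)` to the cochains of `U` at `N`.
* `ptg_le_of_pSection`, `ptg_G5_of_G4` : (G5) in the shape of helper5's `ptn_Abs.G5_1/G5_2`
  (restricted to `N ≤ K₀`, `K₀` normal of index prime to `p`) from (G4) for the cyclic layers
  inside `K₀`.
-/
import Fermat.Agent.Lib.PT.BridgeQ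

set_option autoImplicit false
set_option linter.unusedSectionVars false

namespace Fermat.Agent.Lib.PT
open groupCohomology

section Plain

variable {Γ : Type*} [Group Γ] {k' : Type*} [CommRing k'] {A : Type*} [AddCommGroup A]
  {mA : Module k' A} (ρA : Representation k' Γ A)

/-- all 2-cocycles of `Γ` in `A` -/
def ptg_Z2 : AddSubgroup (Γ × Γ → A) where
  carrier := {z | ptd_IsZ2 ρA z}
  zero_mem' := ptd_isZ2_zero
  add_mem' := fun hz hz' => hz.add hz'
  neg_mem' := fun hz => hz.neg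

/-- all 2-coboundaries of `Γ` in `A` -/
def ptg_B2 : AddSubgroup (Γ × Γ → A) where
  carrier := {z | ∃ ψ : Γ → A, z = ptd_d1 ρA ψ}
  zero_mem' := ⟨0, ptd_d1_zero.symm⟩
  add_mem' := by
    rintro _ _ ⟨ψ, rfl⟩ ⟨ψ', rfl⟩
    exact ⟨ψ + ψ', (ptd_d1_add ψ ψ').symm⟩
  neg_mem' := by
    rintro _ ⟨ψ, rfl⟩
    exact ⟨-ψ, (ptd_d1_neg ψ).symm⟩

end Plain

section Presented

variable {G : Type*} [Group G] {C : Type*} [AddCommGroup C] {ρ : Representation ℤ G C}
  {U N : Subgroup G} {Γ : Type*} [Group Γ] {k' : Type*} [CommRing k'] {A : Type*}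
  [AddCommGroup A] {mA : Module k' A} {ρA : Representation k' Γ A}
  (π : ↥U →* Γ) (hπ : Function.Surjective π) (hker : π.ker = N.subgroupOf U)
  (ι : A →+ C) (hι : Function.Injective ι)
  (hequiv : ∀ (u : U) (a : A), ι (ρA (π u) a) = ρ (u : G) (ι a))
  (hrange : ∀ c : C, (∀ n ∈ N, ρ n c = c) → ∃ a : A, ι a = c)

include hker in
lemma ptg_pres_π_eq_one (hNU : N ≤ U) {n : G} (hn : n ∈ N) : π ⟨n, hNU hn⟩ = 1 := by
  rw [← MonoidHom.mem_ker, hker]; exact Subgroup.mem_subgroupOf.mpr hn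

include hker in
lemma ptg_pres_π_eq (u u' : U) (h : π u = π u') : ∃ n : U, (n : G) ∈ N ∧ u' = u * n := by
  refine ⟨u⁻¹ * u', ?_, by group⟩
  have : u⁻¹ * u' ∈ π.ker := by
    rw [MonoidHom.mem_ker, map_mul, map_inv, h, inv_mul_cancel]
  rw [hker] at this
  exact Subgroup.mem_subgroupOf.mp this

include hker hequiv in
lemma ptg_pres_ι_fixed (hNU : N ≤ U) (a : A) {n : G} (hn : n ∈ N) : ρ n (ι a) = ι a := by
  have := hequiv ⟨n, hNU hn⟩ a
  rw [ptg_pres_π_eq_one π hker hNU hn, map_one] at this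
  exact this.symm

include hπ hker hι hrange in
/-- descent of a 1-cochain at `N` along a presentation -/
lemma ptg_pres_desc₁ {ψ : U → C} (hψ : ptn_At₁ U N ρ ψ) :
    ∃ ψb : Γ → A, ∀ u : U, ι (ψb (π u)) = ψ u := by
  have hdep : ∀ u u' : U, π u = π u' → ψ u = ψ u' := by
    intro u u' h
    obtain ⟨n, hn, rfl⟩ := ptg_pres_π_eq π hker u u' h
    exact (hψ.1 u n hn).symm
  have hex : ∀ γ : Γ, ∃ a : A, ι a = ψ (Function.surjInv hπ γ) := fun γ => hrange _ (hψ.2 _)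
  choose ψb hψb using hex
  exact ⟨ψb, fun u => by rw [hψb]; exact hdep _ _ (Function.surjInv_eq hπ _)⟩

include hπ hker hι hequiv hrange in
/-- **transport of `H¹ = 0`** along a presentation `(Γ, A)` of the section `(U, N)` -/
theorem ptg_H1At_of_presented
    (h : ∀ f : Γ → A, ptd_IsZ1 ρA f → ptd_IsB1 ρA f) : ptg_H1At ρ U N := by
  intro φ hφ hat
  obtain ⟨f, hf⟩ := ptg_pres_desc₁ π hπ hker ι hι hrange hat
  have hfZ : ptd_IsZ1 ρA f := by
    intro γ γ'
    obtain ⟨u, rfl⟩ := hπ γ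
    obtain ⟨u', rfl⟩ := hπ γ'
    apply hι
    rw [← map_mul, hf, map_add, hequiv, hf, hf]
    exact hφ u u'
  obtain ⟨a, ha⟩ := h f hfZ
  refine ⟨ι a, ?_⟩
  funext u
  rw [← hf, ha]
  simp only [ptd_d0_apply, map_sub, hequiv, ptd_resRep_apply]

/-- pull-back of 2-cochains along a presentation -/
def ptg_presPull : (Γ × Γ → A) →+ (U × U → C) where
  toFun z := fun x => ι (z (π x.1, π x.2))
  map_zero' := by funext x; simp
  map_add' z z' := by funext x; simp

include hπ hι in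
lemma ptg_presPull_injective : Function.Injective (ptg_presPull π ι) := by
  intro z z' h
  funext ⟨γ, γ'⟩
  obtain ⟨u, rfl⟩ := hπ γ
  obtain ⟨u', rfl⟩ := hπ γ'
  exact hι (congrFun h (u, u'))

include hπ hker hι hequiv hrange in
lemma ptg_presPull_map_Z2 (hNU : N ≤ U) :
    (ptg_Z2 ρA).map (ptg_presPull π ι) = ptg_Z2At ρ U N := by
  ext z
  constructor
  · rintro ⟨zb, hzb, rfl⟩
    refine ⟨fun g h j => ?_, fun a b n n' hn hn' => ?_, fun x n hn => ?_⟩
    · have := congrArg ι (hzb (π g) (π h) (π j))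
      rw [map_add, map_add, hequiv, ← map_mul, ← map_mul] at this
      exact this
    · show ι (zb (π (a * n), π (b * n'))) = ι (zb (π a, π b))
      have h1 : π n = 1 := ptg_pres_π_eq_one π hker hNU hn
      have h2 : π n' = 1 := ptg_pres_π_eq_one π hker hNU hn'
      rw [map_mul, map_mul]
      have e1 : n = ⟨(n : G), hNU hn⟩ := rfl
      have e2 : n' = ⟨(n' : G), hNU hn'⟩ := rfl
      rw [e1, e2, h1, h2, mul_one, mul_one]
    · exact ptg_pres_ι_fixed π hker ι hequiv hNU _ hn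
  · intro hz
    have hdep : ∀ g g' h h' : U, π g = π g' → π h = π h' → z (g, h) = z (g', h') := by
      intro g g' h h' hg hh
      obtain ⟨n, hn, rfl⟩ := ptg_pres_π_eq π hker g g' hg
      obtain ⟨n', hn', rfl⟩ := ptg_pres_π_eq π hker h h' hh
      exact (hz.2.1 g h n n' hn hn').symm
    have hex : ∀ x : Γ × Γ, ∃ a : A,
        ι a = z (Function.surjInv hπ x.1, Function.surjInv hπ x.2) :=
      fun x => hrange _ (hz.2.2 _)
    choose zb hzb using hex
    have hzb' : ∀ g h : U, ι (zb (π g, π h)) = z (g, h) := by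
      intro g h
      rw [hzb]
      exact hdep _ _ _ _ (Function.surjInv_eq hπ _) (Function.surjInv_eq hπ _)
    refine ⟨zb, ?_, funext fun ⟨g, h⟩ => hzb' g h⟩
    intro γ γ' γ''
    obtain ⟨g, rfl⟩ := hπ γ
    obtain ⟨h, rfl⟩ := hπ γ'
    obtain ⟨j, rfl⟩ := hπ γ''
    apply hι
    rw [map_add, map_add, hequiv, ← map_mul, ← map_mul, hzb', hzb', hzb', hzb']
    exact hz.1 g h j

include hπ hker hι hequiv hrange in
lemma ptg_presPull_map_B2 (hNU : N ≤ U) :
    (ptg_B2 ρA).map (ptg_presPull π ι) = ptg_B2At ρ U N := by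
  ext z
  constructor
  · rintro ⟨_, ⟨ψb, rfl⟩, rfl⟩
    refine ⟨fun u => ι (ψb (π u)), ⟨fun a n hn => ?_, fun x n hn => ?_⟩, ?_⟩
    · show ι (ψb (π (a * n))) = ι (ψb (π a))
      have e1 : n = ⟨(n : G), hNU hn⟩ := rfl
      rw [map_mul, e1, ptg_pres_π_eq_one π hker hNU hn, mul_one]
    · exact ptg_pres_ι_fixed π hker ι hequiv hNU _ hn
    · funext ⟨g, h⟩
      show ι (ρA (π g) (ψb (π h)) - ψb (π g * π h) + ψb (π g)) = _
      simp only [map_add, map_sub, hequiv, ptd_d1_apply, ptd_resRep_apply, map_mul]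
  · rintro ⟨ψ, hψ, rfl⟩
    obtain ⟨ψb, hψb⟩ := ptg_pres_desc₁ π hπ hker ι hι hrange hψ
    refine ⟨ptd_d1 ρA ψb, ⟨ψb, rfl⟩, ?_⟩
    funext ⟨g, h⟩
    show ι (ρA (π g) (ψb (π h)) - ψb (π g * π h) + ψb (π g)) = _
    simp only [map_add, map_sub, hequiv, ptd_d1_apply, ptd_resRep_apply, ← map_mul, hψb]

include hπ hker hι hequiv hrange in
/-- **transport of `#H²`** along a presentation `(Γ, A)` of the section `(U, N)` -/
theorem ptg_relIndex_of_presented (hNU : N ≤ U) :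
    (ptg_B2At ρ U N).relIndex (ptg_Z2At ρ U N) = (ptg_B2 ρA).relIndex (ptg_Z2 ρA) := by
  rw [← ptg_presPull_map_Z2 π hπ hker ι hι hequiv hrange hNU,
    ← ptg_presPull_map_B2 π hπ hker ι hι hequiv hrange hNU]
  exact AddSubgroup.relIndex_map_map_of_injective _ _ (ptg_presPull_injective π hπ ι hι)

include hπ hker hι hequiv hrange in
/-- a presented layer with `H¹ = 0` and `#H² ∣ m` gives the hypotheses of `ptg_devissage` -/
theorem ptg_hcyc_of_presented (hNU : N ≤ U) {m : ℕ}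
    (h1 : ∀ f : Γ → A, ptd_IsZ1 ρA f → ptd_IsB1 ρA f)
    (h2 : (ptg_B2 ρA).relIndex (ptg_Z2 ρA) ∣ m) :
    ptg_H1At ρ U N ∧ (ptg_B2At ρ U N).relIndex (ptg_Z2At ρ U N) ∣ m :=
  ⟨ptg_H1At_of_presented π hπ hker ι hι hequiv hrange h1,
    by rw [ptg_relIndex_of_presented π hπ hker ι hι hequiv hrange hNU]; exact h2⟩

end Presented

section Mathlib

variable {Γ : Type} [Group Γ] (A : Rep ℤ Γ)

/-- `#H²` in the sense of Mathlib is the relative index of coboundaries in cocycles -/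
theorem ptg_relIndex_eq_card_H2 :
    (ptg_B2 A.ρ).relIndex (ptg_Z2 A.ρ) = Nat.card (groupCohomology A 2) := by
  have hmem : ∀ z : ↥(ptg_Z2 A.ρ), (z : Γ × Γ → A) ∈ cocycles₂ A := fun z =>
    (mem_cocycles₂_iff _).mpr z.2
  let f : ↥(ptg_Z2 A.ρ) →+ H2 A :=
    { toFun := fun z => H2π A ⟨z, hmem z⟩
      map_zero' := by
        have : (⟨((0 : ↥(ptg_Z2 A.ρ)) : Γ × Γ → A), hmem 0⟩ : cocycles₂ A) = 0 := rfl
        rw [this, map_zero]
      map_add' := fun z z' => by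
        have : (⟨((z + z' : ↥(ptg_Z2 A.ρ)) : Γ × Γ → A), hmem _⟩ : cocycles₂ A) =
            ⟨z, hmem z⟩ + ⟨z', hmem z'⟩ := rfl
        rw [this, map_add] }
  have hsurj : Function.Surjective f := by
    intro x
    induction x using H2_induction_on with
    | h y => exact ⟨⟨y, (mem_cocycles₂_iff _).mp y.2⟩, rfl⟩
  have hker : f.ker = (ptg_B2 A.ρ).addSubgroupOf (ptg_Z2 A.ρ) := by
    ext z
    rw [AddMonoidHom.mem_ker, AddSubgroup.mem_addSubgroupOf]
    show H2π A ⟨z, hmem z⟩ = 0 ↔ _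
    rw [H2π_eq_zero_iff]
    constructor
    · rintro ⟨ψ, hψ⟩
      refine ⟨ψ, ?_⟩
      have h2 : (z : Γ × Γ → A) = (d₁₂ A).hom ψ := hψ.symm
      rw [h2]
      funext ⟨g, h⟩
      rfl
    · rintro ⟨ψ, hψ⟩
      refine ⟨ψ, ?_⟩
      show (d₁₂ A).hom ψ = (z : Γ × Γ → A)
      rw [hψ]
      funext ⟨g, h⟩
      rfl
  rw [AddSubgroup.relIndex, ← hker, AddSubgroup.index_ker,
    AddMonoidHom.range_eq_top.mpr hsurj]
  exact Nat.card_congr (Equiv.Set.univ _)

end Mathlib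

section Mul

variable {Γ : Type*} [Group Γ] {M : Type*} [CommGroup M] [MulDistribMulAction Γ M]

/-- Mathlib's multiplicative `H¹ = 0` in the additive vocabulary of the big model -/
theorem ptg_H1_of_mul (h : ∀ f : Γ → M, IsMulCocycle₁ f → IsMulCoboundary₁ f)
    (f : Γ → Additive M) (hf : ptd_IsZ1 (Representation.ofMulDistribMulAction Γ M) f) :
    ptd_IsB1 (Representation.ofMulDistribMulAction Γ M) f := by
  obtain ⟨x, hx⟩ := h (fun γ => (f γ).toMul) (fun g g' => congrArg Additive.toMul (hf g g'))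
  refine ⟨Additive.ofMul x, ?_⟩
  funext γ
  exact (congrArg Additive.ofMul (hx γ)).symm

end Mul

section Final

variable {G : Type*} [Group G] {C : Type*} [AddCommGroup C] {ρ : Representation ℤ G C}

/-- a `p`-section `(U, N)` with `N` inside a normal subgroup `K₀` of index prime to `p` lies
entirely inside `K₀` -/
lemma ptg_le_of_pSection (p : ℕ) [Fact p.Prime] {K₀ U N : Subgroup G} [K₀.Normal]
    (hK₀ : ¬ p ∣ K₀.index) (hNK : N ≤ K₀) (hp : ∀ x ∈ U, ∃ j : ℕ, x ^ p ^ j ∈ N) : U ≤ K₀ := by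
  have hidx : K₀.index ≠ 0 := fun h => hK₀ (by rw [h]; exact dvd_zero p)
  have hfin : Finite (G ⧸ K₀) := by
    have : K₀.FiniteIndex := ⟨hidx⟩
    exact Subgroup.finite_quotient_of_finiteIndex
  intro x hx
  obtain ⟨j, hj⟩ := hp x hx
  rw [← QuotientGroup.eq_one_iff (N := K₀), ← orderOf_eq_one_iff]
  have h1 : orderOf (x : G ⧸ K₀) ∣ p ^ j := by
    apply orderOf_dvd_of_pow_eq_one
    rw [← QuotientGroup.mk_pow, QuotientGroup.eq_one_iff]
    exact hNK hj
  have h2 : orderOf (x : G ⧸ K₀) ∣ K₀.index := by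
    rw [Subgroup.index_eq_card]; exact orderOf_dvd_natCard _
  have hcop : Nat.Coprime (p ^ j) K₀.index :=
    Nat.Coprime.pow_left j ((Nat.Prime.coprime_iff_not_dvd (Fact.out : p.Prime)).mpr hK₀)
  exact Nat.Coprime.eq_one_of_dvd (Nat.Coprime.coprime_dvd_left h1 hcop) h2

/-- **(G5) from (G4)**, in the shape of helper5's `ptn_Abs.G5_1 / G5_2` restricted to `N ≤ K₀`
(`K₀` normal of index prime to `p`, e.g. the kernel of the mod `p` cyclotomic character): the
cyclic layers are only needed inside `K₀`. -/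
theorem ptg_G5_of_G4 (p : ℕ) [Fact p.Prime] (𝓛 : ptd_Levels G) (K₀ : Subgroup G) [K₀.Normal]
    (hK₀ : ¬ p ∣ K₀.index)
    (hG4 : ∀ U' N' : Subgroup G, 𝓛.IsOpen N' → N' ≤ U' → U' ≤ K₀ → (N'.subgroupOf U').Normal →
      N'.relIndex U' = p →
      ptg_H1At ρ U' N' ∧ (ptg_B2At ρ U' N').relIndex (ptg_Z2At ρ U' N') ∣ p)
    (U N : Subgroup G) (hNo : 𝓛.IsOpen N) (hNK : N ≤ K₀) (hNU : N ≤ U)
    (hN : (N.subgroupOf U).Normal) (hp : ∀ x ∈ U, ∃ j : ℕ, x ^ p ^ j ∈ N) :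
    (∀ φ : U → C, ptd_IsZ1 (ptd_resRep ρ U) φ → ptn_At₁ U N ρ φ →
        ptd_IsB1 (ptd_resRep ρ U) φ) ∧
    (∀ w : U × U → C, ptd_IsZ2 (ptd_resRep ρ U) w → ptn_At₂ U N ρ w →
      (∀ k : ℤ, ∀ ψ : U → C, ptn_At₁ U N ρ ψ → k • w = ptd_d1 (ptd_resRep ρ U) ψ →
        ((N.relIndex U : ℕ) : ℤ) ∣ k) →
      ∀ z : U × U → C, ptd_IsZ2 (ptd_resRep ρ U) z → ptn_At₂ U N ρ z →
        ∃ (n : ℤ) (ψ : U → C), ptn_At₁ U N ρ ψ ∧ z - n • w = ptd_d1 (ptd_resRep ρ U) ψ) := by
  have hUK : U ≤ K₀ := ptg_le_of_pSection p hK₀ hNK hp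
  have hfin : N.relIndex U ≠ 0 := by
    have := hNo.finiteIndex
    intro h
    have h2 := Subgroup.relIndex_dvd_index_of_le hNU
    rw [h, zero_dvd_iff] at h2
    exact this.index_ne_zero h2
  refine ptg_G5 p U N (fun U' N' h0 hNU' hU' hn hidx => ?_) U N le_rfl hNU le_rfl hN hfin hp
  obtain ⟨N₁, hN₁, hle⟩ := hNo
  exact hG4 U' N' ⟨N₁, hN₁, hle.trans h0⟩ hNU' (hU'.trans hUK) hn hidx

end Final

end Fermat.Agent.Lib.PT
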