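/-
S55 / (G5) DÉVISSAGE, part 4 (helper7): the PRIME-TO-`p` BASE CHANGE.

`ptg_G5_of_G4` (BridgeR) gives helper5's `G5_1 / G5_2` only for sections `(U, N)` with `N ≤ K₀`,
`K₀` a normal subgroup of index prime to `p` inside which the cyclic layers satisfy (G4)
(`K₀` = the kernel of the mod `p` cyclotomic character: (G4) needs `μ_p` in the base field).
Here the restriction is removed: for an arbitrary section `(U, N)` of `p`-power index,
`(U₁, N₁) := (U ⊓ K₀, N ⊓ K₀)` is a section inside `K₀` with `U₁/N₁ ≅ U/N`, and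
`H^i(U/N, C^N) → H^i(U₁/N₁, C^{N₁})` is injective for `i = 1, 2`: the norm
`C^{N₁} → C^N` is a retraction up to the factor `[N : N₁]` (prime to `p`), and `H^i(U/N, -)` is
killed by `[U : N]` (a power of `p`).

* `ptg_cosetSum_reindex`, `ptg_nm` (+ `_of_fixed`, `_fixed`, `_equiv`) : coset sums and norms;
* `ptg_relIndex_nsmul_mem_B2At`, `ptg_relIndex_nsmul_isB1` : `H²`, `H¹` of a finite section are
  killed by its order (cochains at `N`);
* `ptg_mem_B2At_of_primeTo`, `ptg_H1At_of_primeTo` : the base change;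
* `ptg_G5_full` : helper5's `ptn_AbsC.G5_1 / G5_2` VERBATIM from (G4) inside `K₀`.
-/
import Fermat.Agent.Lib.PT.BridgeR

set_option autoImplicit false
set_option linter.unusedSectionVars false

namespace Fermat.Agent.Lib.PT

open scoped BigOperators

section CosetSum

variable {G : Type*} [Group G] {C : Type*} [AddCommGroup C]

/-- **Reindexing of coset sums.**  `f` a function on `N`, right-invariant under `N₁`; `σ : N → N`
a map inducing an injection on `N / N₁`.  Then `∑_t f (σ t̃) = ∑_t f t̃`. -/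
lemma ptg_cosetSum_reindex (N₁ N : Subgroup G) [Finite (↥N ⧸ N₁.subgroupOf N)]
    (f : ↥N → C) (hf : ∀ a n : ↥N, (n : G) ∈ N₁ → f (a * n) = f a)
    (σ : ↥N → ↥N)
    (hσ : ∀ a b : ↥N, (((σ a)⁻¹ * σ b : ↥N) : G) ∈ N₁ → ((a⁻¹ * b : ↥N) : G) ∈ N₁) :
    ∑ᶠ t : ↥N ⧸ N₁.subgroupOf N, f (σ (Quotient.out t)) =
      ∑ᶠ t : ↥N ⧸ N₁.subgroupOf N, f (Quotient.out t) := by
  classical
  have := Fintype.ofFinite (↥N ⧸ N₁.subgroupOf N)
  rw [finsum_eq_sum_of_fintype, finsum_eq_sum_of_fintype]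
  let e : ↥N ⧸ N₁.subgroupOf N → ↥N ⧸ N₁.subgroupOf N := fun t =>
    QuotientGroup.mk (σ (Quotient.out t))
  have hinj : Function.Injective e := by
    intro a b h
    have h1 := QuotientGroup.eq.mp h
    have h2 := hσ _ _ (Subgroup.mem_subgroupOf.mp h1)
    have h3 : (QuotientGroup.mk (Quotient.out a) : ↥N ⧸ N₁.subgroupOf N) =
        QuotientGroup.mk (Quotient.out b) :=
      QuotientGroup.eq.mpr (Subgroup.mem_subgroupOf.mpr h2)
    rwa [QuotientGroup.out_eq', QuotientGroup.out_eq'] at h3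
  have hbij := Finite.injective_iff_bijective.mp hinj
  have key : ∀ t, f (σ (Quotient.out t)) = f (Quotient.out (e t)) := by
    intro t
    have h1 : (QuotientGroup.mk (Quotient.out (e t)) : ↥N ⧸ N₁.subgroupOf N) =
        QuotientGroup.mk (σ (Quotient.out t)) := QuotientGroup.out_eq' _
    have h2 := Subgroup.mem_subgroupOf.mp (QuotientGroup.eq.mp h1)
    have h3 : σ (Quotient.out t) =
        Quotient.out (e t) * ((Quotient.out (e t))⁻¹ * σ (Quotient.out t)) := by group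
    rw [h3, hf _ _ h2]
  calc ∑ t, f (σ (Quotient.out t)) = ∑ t, f (Quotient.out (e t)) :=
        Finset.sum_congr rfl (fun t _ => key t)
    _ = ∑ t, f (Quotient.out t) :=
        (Equiv.ofBijective e hbij).sum_comp (fun t => f (Quotient.out t))

variable (ρ : Representation ℤ G C)

/-- the norm `C^{N₁} → C^N`, `c ↦ ∑_{t ∈ N/N₁} t̃ c` -/
noncomputable def ptg_nm (N₁ N : Subgroup G) [Finite (↥N ⧸ N₁.subgroupOf N)] : C →+ C where
  toFun c := ∑ᶠ t : ↥N ⧸ N₁.subgroupOf N, ρ ((Quotient.out t : ↥N) : G) c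
  map_zero' := by simp
  map_add' a b := by
    classical
    have := Fintype.ofFinite (↥N ⧸ N₁.subgroupOf N)
    simp only [finsum_eq_sum_of_fintype, map_add, Finset.sum_add_distrib]

variable {ρ}

lemma ptg_nm_apply (N₁ N : Subgroup G) [Finite (↥N ⧸ N₁.subgroupOf N)] (c : C) :
    ptg_nm ρ N₁ N c = ∑ᶠ t : ↥N ⧸ N₁.subgroupOf N, ρ ((Quotient.out t : ↥N) : G) c := rfl

/-- on `C^N` the norm is multiplication by the index -/
lemma ptg_nm_of_fixed (N₁ N : Subgroup G) [Finite (↥N ⧸ N₁.subgroupOf N)] {c : C}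
    (hc : ∀ n ∈ N, ρ n c = c) : ptg_nm ρ N₁ N c = N₁.relIndex N • c := by
  classical
  have := Fintype.ofFinite (↥N ⧸ N₁.subgroupOf N)
  rw [ptg_nm_apply, finsum_eq_sum_of_fintype]
  rw [Finset.sum_congr rfl (fun t _ => hc _ (Quotient.out t).2), Finset.sum_const,
    Finset.card_univ, Subgroup.relIndex, Subgroup.index_eq_card, Nat.card_eq_fintype_card]

/-- the norm of an `N₁`-fixed element is `N`-fixed -/
lemma ptg_nm_fixed (N₁ N : Subgroup G) [Finite (↥N ⧸ N₁.subgroupOf N)] {c : C}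
    (hc : ∀ n ∈ N₁, ρ n c = c) {n : G} (hn : n ∈ N) :
    ρ n (ptg_nm ρ N₁ N c) = ptg_nm ρ N₁ N c := by
  classical
  have := Fintype.ofFinite (↥N ⧸ N₁.subgroupOf N)
  have hf : ∀ a m : ↥N, (m : G) ∈ N₁ → ρ ((a * m : ↥N) : G) c = ρ (a : G) c := by
    intro a m hm
    rw [Subgroup.coe_mul, map_mul, Module.End.mul_apply, hc _ hm]
  have h := ptg_cosetSum_reindex N₁ N (fun a : ↥N => ρ (a : G) c) hf (fun a => ⟨n, hn⟩ * a)
    (fun a b hab => by
      have : ((⟨n, hn⟩ * a : ↥N)⁻¹ * (⟨n, hn⟩ * b)) = a⁻¹ * b := by group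
      rwa [this] at hab)
  conv_rhs => rw [ptg_nm_apply (ρ := ρ) N₁ N c, ← h, finsum_eq_sum_of_fintype]
  rw [ptg_nm_apply (ρ := ρ) N₁ N c, finsum_eq_sum_of_fintype, map_sum]
  refine Finset.sum_congr rfl (fun t _ => ?_)
  rw [Subgroup.coe_mul, map_mul, Module.End.mul_apply]

/-- equivariance of the norm under an element normalising `N` and `N₁` -/
lemma ptg_nm_equiv (N₁ N : Subgroup G) [Finite (↥N ⧸ N₁.subgroupOf N)] {c : C}
    (hc : ∀ n ∈ N₁, ρ n c = c) {u : G} (hu : ∀ n ∈ N, u * n * u⁻¹ ∈ N)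
    (hu₁' : ∀ n ∈ N₁, u⁻¹ * n * u ∈ N₁) :
    ρ u (ptg_nm ρ N₁ N c) = ptg_nm ρ N₁ N (ρ u c) := by
  classical
  have := Fintype.ofFinite (↥N ⧸ N₁.subgroupOf N)
  have hc' : ∀ n ∈ N₁, ρ n (ρ u c) = ρ u c := by
    intro n hn
    have : n * u = u * (u⁻¹ * n * u) := by group
    rw [← Module.End.mul_apply, ← map_mul, this, map_mul, Module.End.mul_apply, hc _ (hu₁' n hn)]
  have hf : ∀ a m : ↥N, (m : G) ∈ N₁ → ρ ((a * m : ↥N) : G) (ρ u c) = ρ (a : G) (ρ u c) := by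
    intro a m hm
    rw [Subgroup.coe_mul, map_mul, Module.End.mul_apply, hc' _ hm]
  have h := ptg_cosetSum_reindex N₁ N (fun a : ↥N => ρ (a : G) (ρ u c)) hf
    (fun a => ⟨u * a * u⁻¹, hu a a.2⟩)
    (fun a b hab => by
      have h1 : (((⟨u * a * u⁻¹, hu a a.2⟩ : ↥N)⁻¹ * ⟨u * b * u⁻¹, hu b b.2⟩ : ↥N) : G) =
          u * ((a⁻¹ * b : ↥N) : G) * u⁻¹ := by
        simp only [Subgroup.coe_mul, Subgroup.coe_inv]
        group
      rw [h1] at hab
      have h2 := hu₁' _ hab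
      have h3 : u⁻¹ * (u * ((a⁻¹ * b : ↥N) : G) * u⁻¹) * u = ((a⁻¹ * b : ↥N) : G) := by group
      rwa [h3] at h2)
  conv_rhs => rw [ptg_nm_apply (ρ := ρ) N₁ N (ρ u c), ← h, finsum_eq_sum_of_fintype]
  rw [ptg_nm_apply (ρ := ρ) N₁ N c, finsum_eq_sum_of_fintype, map_sum]
  refine Finset.sum_congr rfl (fun t _ => ?_)
  show ρ u (ρ _ c) = ρ (u * _ * u⁻¹) (ρ u c)
  simp only [← Module.End.mul_apply, ← map_mul]
  congr 2
  group

end CosetSum

section Torsion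

variable {G : Type*} [Group G] {C : Type*} [AddCommGroup C] {ρ : Representation ℤ G C}

/-- **`H²` of a finite section is killed by its order** (cochain level, at `N`). -/
theorem ptg_relIndex_nsmul_mem_B2At {U N : Subgroup G} (hfin : N.relIndex U ≠ 0)
    {z : U × U → C} (hz : z ∈ ptg_Z2At ρ U N) : N.relIndex U • z ∈ ptg_B2At ρ U N := by
  classical
  have hcard : Nat.card (↥U ⧸ N.subgroupOf U) = N.relIndex U := by
    rw [← Subgroup.index_eq_card]; rfl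
  have hfinQ : Finite (↥U ⧸ N.subgroupOf U) :=
    Nat.finite_of_card_ne_zero (by rw [hcard]; exact hfin)
  have := Fintype.ofFinite (↥U ⧸ N.subgroupOf U)
  obtain ⟨hcoc, hR, hI⟩ := hz
  refine ⟨fun a => ∑ᶠ t : ↥U ⧸ N.subgroupOf U, z (a, Quotient.out t), ⟨fun a n hn => ?_,
    fun a n hn => ?_⟩, ?_⟩
  · show ∑ᶠ t : ↥U ⧸ N.subgroupOf U, z (a * n, Quotient.out t) =
      ∑ᶠ t : ↥U ⧸ N.subgroupOf U, z (a, Quotient.out t)
    refine finsum_congr (fun t => ?_)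
    have := hR a (Quotient.out t) n 1 hn N.one_mem
    rwa [mul_one] at this
  · show ρ n (∑ᶠ t : ↥U ⧸ N.subgroupOf U, z (a, Quotient.out t)) =
      ∑ᶠ t : ↥U ⧸ N.subgroupOf U, z (a, Quotient.out t)
    rw [finsum_eq_sum_of_fintype, map_sum]
    exact Finset.sum_congr rfl (fun t _ => hI _ n hn)
  · funext ⟨g, h⟩
    have hre := ptg_cosetSum_reindex N U (fun a : ↥U => z (g, a))
      (fun a n hn => by
        have := hR g a 1 n N.one_mem hn
        rwa [mul_one] at this)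
      (fun a => h * a)
      (fun a b hab => by
        have : ((h * a)⁻¹ * (h * b)) = a⁻¹ * b := by group
        rwa [this] at hab)
    simp only [ptd_d1_apply, ptd_resRep_apply, Pi.smul_apply]
    rw [← hre]
    simp only [finsum_eq_sum_of_fintype, map_sum]
    have hsum : ∑ t : ↥U ⧸ N.subgroupOf U, (z (g * h, Quotient.out t) + z (g, h)) =
        ∑ t : ↥U ⧸ N.subgroupOf U, (ρ (g : G) (z (h, Quotient.out t)) +
          z (g, h * Quotient.out t)) :=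
      Finset.sum_congr rfl (fun t _ => hcoc g h (Quotient.out t))
    rw [Finset.sum_add_distrib, Finset.sum_add_distrib, Finset.sum_const, Finset.card_univ,
      ← Nat.card_eq_fintype_card, hcard] at hsum
    rw [eq_sub_of_add_eq' hsum]
    abel

/-- **`H¹` of a finite section is killed by its order.** -/
theorem ptg_relIndex_nsmul_isB1 {U N : Subgroup G} (hfin : N.relIndex U ≠ 0)
    {φ : U → C} (hφ : ptd_IsZ1 (ptd_resRep ρ U) φ) (hat : ptn_At₁ U N ρ φ) :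
    ptd_IsB1 (ptd_resRep ρ U) (N.relIndex U • φ) := by
  classical
  have hcard : Nat.card (↥U ⧸ N.subgroupOf U) = N.relIndex U := by
    rw [← Subgroup.index_eq_card]; rfl
  have hfinQ : Finite (↥U ⧸ N.subgroupOf U) :=
    Nat.finite_of_card_ne_zero (by rw [hcard]; exact hfin)
  have := Fintype.ofFinite (↥U ⧸ N.subgroupOf U)
  refine ⟨-∑ᶠ t : ↥U ⧸ N.subgroupOf U, φ (Quotient.out t), ?_⟩
  funext g
  have hre := ptg_cosetSum_reindex N U φ (fun a n hn => hat.1 a n hn) (fun a => g * a)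
    (fun a b hab => by
      have : ((g * a)⁻¹ * (g * b)) = a⁻¹ * b := by group
      rwa [this] at hab)
  simp only [ptd_d0_apply, ptd_resRep_apply, Pi.smul_apply, map_neg]
  have hsum : ∑ t : ↥U ⧸ N.subgroupOf U, φ (g * Quotient.out t) =
      ∑ t : ↥U ⧸ N.subgroupOf U, (ρ (g : G) (φ (Quotient.out t)) + φ g) :=
    Finset.sum_congr rfl (fun t _ => hφ g (Quotient.out t))
  rw [Finset.sum_add_distrib, Finset.sum_const, Finset.card_univ,
    ← Nat.card_eq_fintype_card, hcard] at hsum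
  simp only [finsum_eq_sum_of_fintype] at hre ⊢
  rw [hre] at hsum
  rw [map_sum]
  rw [hsum]
  abel

end Torsion

section PrimeTo

variable {G : Type*} [Group G] {C : Type*} [AddCommGroup C] {ρ : Representation ℤ G C}

/-- coprime multiples in an additive subgroup -/
lemma ptg_mem_of_coprime_nsmul {X : Type*} [AddCommGroup X] (B : AddSubgroup X) {a b : ℕ}
    (hab : Nat.Coprime a b) {x : X} (ha : a • x ∈ B) (hb : b • x ∈ B) : x ∈ B := by
  have h1 : ((a.gcdA b * a + a.gcdB b * b : ℤ)) • x ∈ B := by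
    rw [add_smul, mul_smul, mul_smul, natCast_zsmul, natCast_zsmul]
    exact B.add_mem (B.zsmul_mem ha _) (B.zsmul_mem hb _)
  have h2 : (a.gcdA b * a + a.gcdB b * b : ℤ) = 1 := by
    have := Nat.gcd_eq_gcd_ab a b
    rw [hab.gcd_eq_one] at this
    rw [mul_comm (a.gcdA b), mul_comm (a.gcdB b)]
    exact_mod_cast this.symm
  rwa [h2, one_smul] at h1

variable {U N K₀ : Subgroup G} [hK₀ : K₀.Normal]

/-- **Prime-to-`p` base change, `H²`.**  `(U, N)` a section of `p`-power index, `K₀` a normal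
subgroup such that `U = (U ⊓ K₀) N` and `[N : N ⊓ K₀]` is finite and prime to `p`: a 2-cocycle
at `N` whose restriction to `U ⊓ K₀` is a coboundary at `N ⊓ K₀` is a coboundary at `N`. -/
theorem ptg_mem_B2At_of_primeTo (p : ℕ) (hNU : N ≤ U) (hN : (N.subgroupOf U).Normal)
    {k : ℕ} (hk : N.relIndex U = p ^ k) (hp : p ≠ 0)
    (hm : (N ⊓ K₀).relIndex N ≠ 0) (hcop : Nat.Coprime ((N ⊓ K₀).relIndex N) p)
    (hdec : ∀ u : ↥U, ∃ (u₁ : ↥(U ⊓ K₀)) (n : G), n ∈ N ∧ (u : G) = (u₁ : G) * n)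
    {z : U × U → C} (hz : z ∈ ptg_Z2At ρ U N)
    (hres : ptg_resTo (inf_le_left : U ⊓ K₀ ≤ U) z ∈ ptg_B2At ρ (U ⊓ K₀) (N ⊓ K₀)) :
    z ∈ ptg_B2At ρ U N := by
  classical
  have hfin : N.relIndex U ≠ 0 := by rw [hk]; exact pow_ne_zero k hp
  have hcardQ : Nat.card (↥N ⧸ (N ⊓ K₀).subgroupOf N) = (N ⊓ K₀).relIndex N := by
    rw [← Subgroup.index_eq_card]; rfl
  have hfinQ : Finite (↥N ⧸ (N ⊓ K₀).subgroupOf N) :=
    Nat.finite_of_card_ne_zero (by rw [hcardQ]; exact hm)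
  refine ptg_mem_of_coprime_nsmul _ (hcop.pow_right k) ?_
    (by rw [← hk]; exact ptg_relIndex_nsmul_mem_B2At hfin hz)
  obtain ⟨ψ₁, hψ₁, e⟩ := hres
  obtain ⟨hcoc, hR, hI⟩ := hz
  choose d n hn hdn using hdec
  set nm := ptg_nm ρ (N ⊓ K₀) N with hnm
  -- conjugation facts
  have hconjN : ∀ u : G, u ∈ U → ∀ x ∈ N, u * x * u⁻¹ ∈ N := fun u hu x hx =>
    ptg_conj_mem hNU hN hu hx
  have hconjN' : ∀ u : G, u ∈ U → ∀ x ∈ N, u⁻¹ * x * u ∈ N := fun u hu x hx =>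
    ptg_conj_mem' hNU hN hu hx
  have hconj₁' : ∀ u : G, u ∈ U → ∀ x ∈ N ⊓ K₀, u⁻¹ * x * u ∈ N ⊓ K₀ := fun u hu x hx =>
    ⟨hconjN' u hu x hx.1, by
      have := hK₀.conj_mem x hx.2 u⁻¹
      rwa [inv_inv] at this⟩
  -- key independence
  have hind : ∀ (u : ↥U) (a : ↥(U ⊓ K₀)) (x : G), x ∈ N → (u : G) = (a : G) * x →
      ψ₁ a = ψ₁ (d u) := by
    intro u a x hx hux
    have h1 : (d u : G)⁻¹ * (a : G) = n u * x⁻¹ := by
      have := hdn u
      rw [hux] at this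
      calc (d u : G)⁻¹ * (a : G) = (d u : G)⁻¹ * ((a : G) * x) * x⁻¹ := by group
        _ = (d u : G)⁻¹ * ((d u : G) * n u) * x⁻¹ := by rw [this]
        _ = n u * x⁻¹ := by group
    have h2 : (((d u)⁻¹ * a : ↥(U ⊓ K₀)) : G) ∈ N ⊓ K₀ := by
      refine ⟨?_, ((d u)⁻¹ * a).2.2⟩
      rw [Subgroup.coe_mul, Subgroup.coe_inv, h1]
      exact N.mul_mem (hn u) (N.inv_mem hx)
    have h3 : a = d u * ((d u)⁻¹ * a) := by group
    rw [h3, hψ₁.1 _ _ h2]
  -- the new cochain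
  refine ⟨fun u => nm (ψ₁ (d u)), ⟨fun u x hx => ?_, fun u x hx => ?_⟩, ?_⟩
  · show nm (ψ₁ (d (u * x))) = nm (ψ₁ (d u))
    congr 1
    refine (hind (u * x) (d u) (n u * x) (N.mul_mem (hn u) hx) ?_).symm
    rw [Subgroup.coe_mul, hdn u, mul_assoc]
  · exact ptg_nm_fixed _ _ (fun y hy => hψ₁.2 _ y hy) hx
  · funext ⟨u, v⟩
    have hzuv : z (u, v) = z (Subgroup.inclusion inf_le_left (d u),
        Subgroup.inclusion inf_le_left (d v)) := by
      have hu : u = Subgroup.inclusion inf_le_left (d u) * ⟨n u, hNU (hn u)⟩ :=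
        Subtype.ext (hdn u)
      have hv : v = Subgroup.inclusion inf_le_left (d v) * ⟨n v, hNU (hn v)⟩ :=
        Subtype.ext (hdn v)
      conv_lhs => rw [hu, hv]
      exact hR _ _ _ _ (hn u) (hn v)
    have he := congrFun e (d u, d v)
    simp only [ptg_resTo_apply, ptd_d1_apply, ptd_resRep_apply] at he
    have h1 : ψ₁ (d (u * v)) = ψ₁ (d u * d v) := by
      refine (hind (u * v) (d u * d v) ((d v : G)⁻¹ * n u * (d v : G) * n v)
        (N.mul_mem (hconjN' _ (d v).2.1 _ (hn u)) (hn v)) ?_).symm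
      rw [Subgroup.coe_mul, Subgroup.coe_mul, hdn u, hdn v]
      group
    have h2 : ρ (u : G) (nm (ψ₁ (d v))) = nm (ρ (d u : G) (ψ₁ (d v))) := by
      rw [hdn u, map_mul, Module.End.mul_apply,
        ptg_nm_fixed _ _ (fun y hy => hψ₁.2 _ y hy) (hn u)]
      exact ptg_nm_equiv _ _ (fun y hy => hψ₁.2 _ y hy) (hconjN _ (d u).2.1)
        (hconj₁' _ (d u).2.1)
    simp only [Pi.smul_apply, ptd_d1_apply, ptd_resRep_apply]
    rw [h1, h2, hzuv, ← ptg_nm_of_fixed (ρ := ρ) (N ⊓ K₀) N (fun y hy => hI _ y hy), he,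
      map_add, map_sub]


/-- 1-coboundaries as an additive subgroup -/
def ptg_B1 {H : Type*} [Group H] (ρH : Representation ℤ H C) : AddSubgroup (H → C) where
  carrier := {φ | ptd_IsB1 ρH φ}
  zero_mem' := ⟨0, by funext g; simp⟩
  add_mem' := by
    rintro _ _ ⟨a, rfl⟩ ⟨b, rfl⟩
    exact ⟨a + b, by funext g; simp only [Pi.add_apply, ptd_d0_apply, map_add]; abel⟩
  neg_mem' := by
    rintro _ ⟨a, rfl⟩
    exact ⟨-a, by funext g; simp only [Pi.neg_apply, ptd_d0_apply, map_neg]; abel⟩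

/-- **Prime-to-`p` base change, `H¹`.** -/
theorem ptg_H1At_of_primeTo (p : ℕ) (hNU : N ≤ U) (hN : (N.subgroupOf U).Normal)
    {k : ℕ} (hk : N.relIndex U = p ^ k) (hp : p ≠ 0)
    (hm : (N ⊓ K₀).relIndex N ≠ 0) (hcop : Nat.Coprime ((N ⊓ K₀).relIndex N) p)
    (hdec : ∀ u : ↥U, ∃ (u₁ : ↥(U ⊓ K₀)) (n : G), n ∈ N ∧ (u : G) = (u₁ : G) * n)
    (h1 : ptg_H1At ρ (U ⊓ K₀) (N ⊓ K₀)) : ptg_H1At ρ U N := by
  classical
  intro φ hφ hat
  have hfin : N.relIndex U ≠ 0 := by rw [hk]; exact pow_ne_zero k hp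
  have hcardQ : Nat.card (↥N ⧸ (N ⊓ K₀).subgroupOf N) = (N ⊓ K₀).relIndex N := by
    rw [← Subgroup.index_eq_card]; rfl
  have hfinQ : Finite (↥N ⧸ (N ⊓ K₀).subgroupOf N) :=
    Nat.finite_of_card_ne_zero (by rw [hcardQ]; exact hm)
  show φ ∈ ptg_B1 (ptd_resRep ρ U)
  refine ptg_mem_of_coprime_nsmul _ (hcop.pow_right k) ?_
    (by rw [← hk]; exact ptg_relIndex_nsmul_isB1 hfin hφ hat)
  -- restrict to `U ⊓ K₀`
  obtain ⟨c, hc⟩ := h1 (fun a => φ (Subgroup.inclusion inf_le_left a))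
    (fun a b => by
      show φ (Subgroup.inclusion inf_le_left (a * b)) = _
      rw [map_mul]
      exact hφ _ _)
    ⟨fun a x hx => by
        show φ (Subgroup.inclusion inf_le_left (a * x)) = φ (Subgroup.inclusion inf_le_left a)
        rw [map_mul]
        exact hat.1 _ (Subgroup.inclusion inf_le_left x) hx.1,
      fun a x hx => hat.2 _ x hx.1⟩
  have hc' : ∀ a : ↥(U ⊓ K₀), φ (Subgroup.inclusion inf_le_left a) = ρ (a : G) c - c :=
    fun a => congrFun hc a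
  choose d n hn hdn using hdec
  have hcfix : ∀ x ∈ N ⊓ K₀, ρ x c = c := by
    intro x hx
    have h2 := hc' ⟨x, hNU hx.1, hx.2⟩
    have h3 : φ (Subgroup.inclusion inf_le_left (⟨x, hNU hx.1, hx.2⟩ : ↥(U ⊓ K₀))) = 0 := by
      have := hat.1 1 ⟨x, hNU hx.1⟩ hx.1
      rw [one_mul, ptg_isZ1_one hφ] at this
      exact this
    rw [h3] at h2
    exact (sub_eq_zero.mp h2.symm)
  have hconjN : ∀ u : G, u ∈ U → ∀ x ∈ N, u * x * u⁻¹ ∈ N := fun u hu x hx =>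
    ptg_conj_mem hNU hN hu hx
  have hconjN' : ∀ u : G, u ∈ U → ∀ x ∈ N, u⁻¹ * x * u ∈ N := fun u hu x hx =>
    ptg_conj_mem' hNU hN hu hx
  have hconj₁' : ∀ u : G, u ∈ U → ∀ x ∈ N ⊓ K₀, u⁻¹ * x * u ∈ N ⊓ K₀ := fun u hu x hx =>
    ⟨hconjN' u hu x hx.1, by
      have := hK₀.conj_mem x hx.2 u⁻¹
      rwa [inv_inv] at this⟩
  refine ⟨ptg_nm ρ (N ⊓ K₀) N c, ?_⟩
  funext u
  have hu : u = Subgroup.inclusion inf_le_left (d u) * ⟨n u, hNU (hn u)⟩ :=
    Subtype.ext (hdn u)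
  have h2 : φ u = φ (Subgroup.inclusion inf_le_left (d u)) := by
    conv_lhs => rw [hu]
    exact hat.1 _ _ (hn u)
  simp only [Pi.smul_apply, ptd_d0_apply, ptd_resRep_apply]
  rw [h2, ← ptg_nm_of_fixed (ρ := ρ) (N ⊓ K₀) N (fun y hy => hat.2 _ y hy), hc', map_sub,
    hdn u, map_mul, Module.End.mul_apply, ptg_nm_fixed _ _ hcfix (hn u),
    ptg_nm_equiv _ _ hcfix (hconjN _ (d u).2.1) (hconj₁' _ (d u).2.1)]


/-- `U = (U ⊓ K₀) N` for a section of `p`-power exponent and `K₀` normal of index prime to `p` -/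
lemma ptg_exists_dec (p : ℕ) [Fact p.Prime] (hidx : ¬ p ∣ K₀.index)
    (hpow : ∀ x ∈ U, ∃ j : ℕ, x ^ p ^ j ∈ N) (u : ↥U) :
    ∃ (u₁ : ↥(U ⊓ K₀)) (n : G), n ∈ N ∧ (u : G) = (u₁ : G) * n := by
  obtain ⟨j, hj⟩ := hpow u u.2
  have hcop : Nat.Coprime K₀.index (p ^ j) :=
    Nat.Coprime.pow_right j ((Nat.Prime.coprime_iff_not_dvd Fact.out).mpr hidx).symm
  have hb := Nat.gcd_eq_gcd_ab K₀.index (p ^ j)
  rw [hcop.gcd_eq_one] at hb
  have h1 : (u : G) ^ K₀.index ∈ K₀ := Subgroup.pow_index_mem K₀ _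
  refine ⟨⟨((u : G) ^ K₀.index) ^ (K₀.index.gcdA (p ^ j)),
    U.zpow_mem (U.pow_mem u.2 _) _, K₀.zpow_mem h1 _⟩,
    ((u : G) ^ p ^ j) ^ ((K₀.index).gcdB (p ^ j)), N.zpow_mem hj _, ?_⟩
  show (u : G) = ((u : G) ^ K₀.index) ^ (K₀.index.gcdA (p ^ j)) *
    ((u : G) ^ p ^ j) ^ ((K₀.index).gcdB (p ^ j))
  rw [← zpow_natCast, ← zpow_natCast (u : G) (p ^ j), ← zpow_mul, ← zpow_mul, ← zpow_add,
    ← hb]
  simp

/-- **(G5) from (G4) with the cyclic layers only inside `K₀`**, unrestricted sections: the shape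
of helper5's `ptn_AbsC.G5_1 / G5_2` verbatim.  `K₀` is an open normal subgroup of index prime to
`p` (the kernel of the mod `p` cyclotomic character). -/
theorem ptg_G5_full (p : ℕ) [Fact p.Prime] (𝓛 : ptd_Levels G)
    (hidx : ¬ p ∣ K₀.index) (hK₀o : 𝓛.IsOpen K₀)
    (hG4 : ∀ U' N' : Subgroup G, 𝓛.IsOpen N' → N' ≤ U' → U' ≤ K₀ → (N'.subgroupOf U').Normal →
      N'.relIndex U' = p →
      ptg_H1At ρ U' N' ∧ (ptg_B2At ρ U' N').relIndex (ptg_Z2At ρ U' N') ∣ p)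
    (U N : Subgroup G) (hNo : 𝓛.IsOpen N) (hNU : N ≤ U)
    (hN : (N.subgroupOf U).Normal) (hpow : ∀ x ∈ U, ∃ j : ℕ, x ^ p ^ j ∈ N) :
    (∀ φ : U → C, ptd_IsZ1 (ptd_resRep ρ U) φ → ptn_At₁ U N ρ φ →
        ptd_IsB1 (ptd_resRep ρ U) φ) ∧
    (∀ w : U × U → C, ptd_IsZ2 (ptd_resRep ρ U) w → ptn_At₂ U N ρ w →
      (∀ k : ℤ, ∀ ψ : U → C, ptn_At₁ U N ρ ψ → k • w = ptd_d1 (ptd_resRep ρ U) ψ →
        ((N.relIndex U : ℕ) : ℤ) ∣ k) →
      ∀ z : U × U → C, ptd_IsZ2 (ptd_resRep ρ U) z → ptn_At₂ U N ρ z →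
        ∃ (n : ℤ) (ψ : U → C), ptn_At₁ U N ρ ψ ∧ z - n • w = ptd_d1 (ptd_resRep ρ U) ψ) := by
  have hpp : p.Prime := Fact.out
  have hfin : N.relIndex U ≠ 0 := by
    have := hNo.finiteIndex
    intro h
    have h2 := Subgroup.relIndex_dvd_index_of_le hNU
    rw [h, zero_dvd_iff] at h2
    exact this.index_ne_zero h2
  obtain ⟨k, hk⟩ := ptg_relIndex_eq_pow p hN hfin hpow
  -- the section inside `K₀`
  have hN₁o : 𝓛.IsOpen (N ⊓ K₀) := by
    obtain ⟨L, hL, hLN⟩ := hNo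
    obtain ⟨L', hL', hL'K⟩ := hK₀o
    obtain ⟨L'', hL'', hle⟩ := 𝓛.directed L hL L' hL'
    exact ⟨L'', hL'', fun x hx => ⟨hLN (hle hx).1, hL'K (hle hx).2⟩⟩
  have hopen_of_le : ∀ N' : Subgroup G, N ⊓ K₀ ≤ N' → 𝓛.IsOpen N' := by
    intro N' h0
    obtain ⟨L, hL, h⟩ := hN₁o
    exact ⟨L, hL, h.trans h0⟩
  have hN₁U₁ : N ⊓ K₀ ≤ U ⊓ K₀ := inf_le_inf_right K₀ hNU
  have hN₁n : ((N ⊓ K₀).subgroupOf (U ⊓ K₀)).Normal := by
    refine ⟨fun x hx g => ?_⟩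
    have hx' := Subgroup.mem_subgroupOf.mp hx
    refine Subgroup.mem_subgroupOf.mpr ⟨?_, ?_⟩
    · have := ptg_conj_mem hNU hN g.2.1 hx'.1
      simpa using this
    · have := hK₀.conj_mem _ hx'.2 (g : G)
      simpa using this
  have hpow₁ : ∀ x ∈ U ⊓ K₀, ∃ j : ℕ, x ^ p ^ j ∈ N ⊓ K₀ := by
    intro x hx
    obtain ⟨j, hj⟩ := hpow x hx.1
    exact ⟨j, hj, K₀.pow_mem hx.2 _⟩
  have hfin₁ : (N ⊓ K₀).relIndex (U ⊓ K₀) ≠ 0 := by
    have := hN₁o.finiteIndex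
    intro h
    have h2 := Subgroup.relIndex_dvd_index_of_le hN₁U₁
    rw [h, zero_dvd_iff] at h2
    exact this.index_ne_zero h2
  obtain ⟨k₁, hk₁⟩ := ptg_relIndex_eq_pow p hN₁n hfin₁ hpow₁
  obtain ⟨a1, a2⟩ := ptg_devissage (ρ := ρ) p (U ⊓ K₀) (N ⊓ K₀)
    (fun U' N' h0 hNU' hU' hn hi => hG4 U' N' (hopen_of_le N' h0) hNU'
      (hU'.trans inf_le_right) hn hi) k₁ (U ⊓ K₀) (N ⊓ K₀) le_rfl hN₁U₁ le_rfl hN₁n hk₁
  -- the index `[N : N ⊓ K₀]`
  have hm_dvd : (N ⊓ K₀).relIndex N ∣ K₀.index := by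
    rw [Subgroup.inf_relIndex_left]
    exact Subgroup.relIndex_dvd_index_of_normal K₀ N
  have hK₀idx : K₀.index ≠ 0 := fun h => hidx (by rw [h]; exact dvd_zero p)
  have hm : (N ⊓ K₀).relIndex N ≠ 0 := fun h => hK₀idx (by
    rw [h, zero_dvd_iff] at hm_dvd; exact hm_dvd)
  have hcop : Nat.Coprime ((N ⊓ K₀).relIndex N) p :=
    Nat.Coprime.coprime_dvd_left hm_dvd
      ((Nat.Prime.coprime_iff_not_dvd hpp).mpr hidx).symm
  have hdec := ptg_exists_dec (U := U) (N := N) (K₀ := K₀) p hidx hpow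
  -- `p^k₁ ∣ p^k`
  have hkk : p ^ k₁ ∣ p ^ k := by
    have e1 := Subgroup.relIndex_mul_relIndex (N ⊓ K₀) N U inf_le_left hNU
    have e2 := Subgroup.relIndex_mul_relIndex (N ⊓ K₀) (U ⊓ K₀) U hN₁U₁ inf_le_left
    rw [hk₁] at e2
    rw [hk, ← e2] at e1
    have h3 : p ^ k₁ ∣ (N ⊓ K₀).relIndex N * p ^ k := ⟨_, e1⟩
    exact (Nat.Coprime.pow_left k₁ hcop.symm).dvd_of_dvd_mul_left h3
  -- `#H²`
  have hcard : (ptg_B2At ρ U N).relIndex (ptg_Z2At ρ U N) ∣ N.relIndex U := by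
    have h := ptg_relIndex_dvd_of_exact (ptg_Z2At ρ U N) (ptg_B2At ρ U N) ⊥ ⊥
      (ptg_Z2At ρ (U ⊓ K₀) (N ⊓ K₀)) (ptg_B2At ρ (U ⊓ K₀) (N ⊓ K₀))
      (ptg_resTo (inf_le_left : U ⊓ K₀ ≤ U)) bot_le bot_le
      (fun a ha => ptg_Z2At_mono inf_le_left (ptg_resTo_mem_Z2At inf_le_left ha))
      (fun b hb => ptg_B2At_mono inf_le_left (ptg_resTo_mem_B2At inf_le_left hb))
      (fun a ha hr => ⟨0, AddSubgroup.zero_mem _, by
        rw [sub_zero]
        exact ptg_mem_B2At_of_primeTo p hNU hN hk hpp.ne_zero hm hcop hdec ha hr⟩)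
    rw [AddSubgroup.relIndex_self, one_mul] at h
    rw [hk]
    exact (h.trans a2).trans hkk
  refine ⟨ptg_H1At_of_primeTo p hNU hN hk hpp.ne_zero hm hcop hdec a1,
    fun w hw hwat hord z hz hzat => ptg_H2At_generated hfin hcard hw hwat hord hz hzat⟩

end PrimeTo

end Fermat.Agent.Lib.PT
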