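/-
S55 / (UN) for NON-STABLE tops (helper7; lead's ruling on the G-track, "lower-part tower lemma").

helper1's (UN)(b) (`GModUnrB/C`: `ptj_UnitsAreNorms`, `ptj_UnitsH90` at the places outside `S`)
needs the top field to be stable under `Gal(Q̄/ℚ)`.  The cyclic layers `K/E` of the dévissage
(`E = Q̄^{U'}`, `K = Q̄^{N'}`) are NOT Galois over `ℚ`; they only lie inside a stable finite
`S`-unramified level field `M`.  This file removes the stability hypothesis:

* `ptg_galRes_injective_lower` : LOWER part of a tower: `E/K` unramified (faithful residue action),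
  `K ⊆ L ⊆ E`, `L/K` normal  ⇒  `L/K` unramified (lift, then use that `Gal(E/L) → Gal(k_E/k_L)` is
  onto);
* `ptg_galRes_injective_lower_IF` : the same for subfields `A ≤ B ≤ D` of `Ω_q`;
* `ptg_exists_unramified_hull`, `ptg_galRes_injective_Krel_of_hull`, `ptg_galRes_injective_of_le`,
  `ptg_unitsAreNorms_of_le`, `ptg_unitsH90_of_le` : `K ≤ M ⊆ Q̄`, `M` stable finite unramified
  outside `S`, `q ∉ S`, `K/F` Galois with group `Γ`;
* `ptg_galRes_injective_tower`, `ptg_unitsH90_tower`, `ptg_unitsAreNorms_tower` : the towers of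
  `GModBigB` (`L : IntermediateField E Q̄` finite Galois over `E`, `L.restrictScalars ℚ ≤ M`).
-/
import Fermat.Agent.Lib.PT.GModUnrC
import Fermat.Agent.Lib.PT.BrauerUnr
import Fermat.Agent.Lib.PT.LocUnr

set_option autoImplicit false
set_option linter.unusedSectionVars false

namespace Fermat.Agent.Lib.PT

section Lower

variable (q : ℕ) [Fact q.Prime]

variable (K L E : Type*) [Field K] [Algebra ℚ_[q] K] [FiniteDimensional ℚ_[q] K]
  [Field L] [Algebra ℚ_[q] L] [FiniteDimensional ℚ_[q] L]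
  [Field E] [Algebra ℚ_[q] E] [FiniteDimensional ℚ_[q] E]
  [Algebra K L] [Algebra L E] [Algebra K E]
  [IsScalarTower ℚ_[q] K L] [IsScalarTower ℚ_[q] K E] [IsScalarTower ℚ_[q] L E]
  [IsScalarTower K L E] [Normal K L] [Normal K E] [IsGalois L E]

/-- **Unramified in towers, LOWER part**: if `E/K` is unramified (faithful residue action),
`K ⊆ L ⊆ E` with `L/K` normal, then `L/K` is unramified. -/
theorem ptg_galRes_injective_lower (h : Function.Injective (ptl_galRes q K E)) :
    Function.Injective (ptl_galRes q K L) := by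
  rw [injective_iff_map_eq_one]
  intro s hs
  obtain ⟨s', rfl⟩ := AlgEquiv.restrictNormalHom_surjective (F := K) (K₁ := L) E s
  -- the residue action of `s'` fixes `k_L`
  have hfix : ∀ y : ptl_k q L, ptl_galRes q K E s' (algebraMap (ptl_k q L) (ptl_k q E) y) =
      algebraMap (ptl_k q L) (ptl_k q E) y := by
    intro y
    obtain ⟨x, rfl⟩ := IsLocalRing.residue_surjective y
    rw [← pti_galRes_restrictNormal, hs]
    rfl
  let g' : ptl_k q E ≃ₐ[ptl_k q L] ptl_k q E :=
    { (ptl_galRes q K E s').toRingEquiv with commutes' := hfix }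
  have hinj₁ : Function.Injective (ptl_galRes q L E) := ptl_galRes_injective_of_tower q K L E h
  obtain ⟨t, ht⟩ := (ptl_galRes_bijective_of_injective q L E hinj₁).2 g'
  have hts : t.restrictScalars K = s' := by
    apply h
    ext x
    rw [ptl_galRes_restrictScalars q K L E t x, ht]
    rfl
  ext x
  apply (algebraMap L E).injective
  have h1 : algebraMap L E ((AlgEquiv.restrictNormalHom L s') x) = s' (algebraMap L E x) :=
    AlgEquiv.restrictNormal_commutes s' L x
  rw [h1, ← hts]
  show t (algebraMap L E x) = _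
  rw [t.commutes]
  rfl

end Lower

section LowerIF

variable (q : ℕ) [Fact q.Prime]

theorem ptg_isAlgebraic_extendScalars {A B : IntermediateField ℚ_[q] (PadicAlgCl q)}
    (hAB : A ≤ B) : Algebra.IsAlgebraic ℚ_[q] ↥(IntermediateField.extendScalars hAB) := by
  show Algebra.IsAlgebraic ℚ_[q] ↥B
  infer_instance

attribute [local instance] ptg_isAlgebraic_extendScalars

/-- the lower-part tower lemma for subfields of `Ω_q` -/
theorem ptg_galRes_injective_lower_IF {A B D : IntermediateField ℚ_[q] (PadicAlgCl q)}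
    (hAB : A ≤ B) (hBD : B ≤ D) [FiniteDimensional ℚ_[q] ↥D] [IsGalois ℚ_[q] ↥D]
    [IsGalois ↥A ↥(IntermediateField.extendScalars hAB)]
    (hD : Function.Injective (ptl_galRes q ℚ_[q] ↥D)) :
    Function.Injective (ptl_galRes q ↥A ↥(IntermediateField.extendScalars hAB)) := by
  have hAD : A ≤ D := hAB.trans hBD
  have fA : FiniteDimensional ℚ_[q] ↥A :=
    FiniteDimensional.of_injective (IntermediateField.inclusion hAD).toLinearMap
      (IntermediateField.inclusion hAD).injective
  have fB : FiniteDimensional ℚ_[q] ↥B :=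
    FiniteDimensional.of_injective (IntermediateField.inclusion hBD).toLinearMap
      (IntermediateField.inclusion hBD).injective
  have fBrel : FiniteDimensional ℚ_[q] ↥(IntermediateField.extendScalars hAB) := fB
  have fDrel : FiniteDimensional ℚ_[q] ↥(IntermediateField.extendScalars hAD) :=
    (inferInstance : FiniteDimensional ℚ_[q] ↥D)
  have hle : IntermediateField.extendScalars hAB ≤ IntermediateField.extendScalars hAD :=
    fun x hx => hBD hx
  let alg : Algebra ↥(IntermediateField.extendScalars hAB) ↥(IntermediateField.extendScalars hAD) :=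
    (IntermediateField.inclusion hle).toRingHom.toAlgebra
  have t1 : IsScalarTower ↥A ↥(IntermediateField.extendScalars hAB)
      ↥(IntermediateField.extendScalars hAD) := IsScalarTower.of_algebraMap_eq (fun _ => rfl)
  have t2 : IsScalarTower ℚ_[q] ↥(IntermediateField.extendScalars hAB)
      ↥(IntermediateField.extendScalars hAD) := IsScalarTower.of_algebraMap_eq (fun _ => rfl)
  have gD : IsGalois ℚ_[q] ↥(IntermediateField.extendScalars hAD) :=
    (inferInstance : IsGalois ℚ_[q] ↥D)
  have gAD : IsGalois ↥A ↥(IntermediateField.extendScalars hAD) :=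
    IsGalois.tower_top_of_isGalois ℚ_[q] ↥A ↥(IntermediateField.extendScalars hAD)
  have gBD : IsGalois ↥(IntermediateField.extendScalars hAB)
      ↥(IntermediateField.extendScalars hAD) :=
    IsGalois.tower_top_of_isGalois ↥A ↥(IntermediateField.extendScalars hAB)
      ↥(IntermediateField.extendScalars hAD)
  have hD0 : Function.Injective (ptl_galRes q ℚ_[q] ↥(IntermediateField.extendScalars hAD)) := hD
  have hD1 : Function.Injective (ptl_galRes q ↥A ↥(IntermediateField.extendScalars hAD)) :=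
    pta_galRes_injective_tower q ℚ_[q] ↥A ↥(IntermediateField.extendScalars hAD) hD0
  exact ptg_galRes_injective_lower q ↥A ↥(IntermediateField.extendScalars hAB)
    ↥(IntermediateField.extendScalars hAD) hD1

end LowerIF

section Hull

variable {q : Nat.Primes}
variable {F K' : Type*} [Field F] [Field K'] [Algebra F K']

/-- If the local field `K_σ` lies in a finite Galois unramified extension `D/ℚ_q`, then `K_σ/F_φ`
is unramified (for `K'/F` Galois with group `Γ`). -/
theorem ptg_galRes_injective_Krel_of_hull (Γ : Type*) [Group Γ] [MulSemiringAction Γ K']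
    [Finite Γ] [IsGaloisGroup Γ F K'] (σ : ptj_Emb K' q)
    (D : IntermediateField ℚ_[(q : ℕ)] (ptj_Om q)) (hBD : ptj_Kσ σ ≤ D)
    [FiniteDimensional ℚ_[(q : ℕ)] ↥D] [IsGalois ℚ_[(q : ℕ)] ↥D]
    (hD : Function.Injective (ptl_galRes (q : ℕ) ℚ_[(q : ℕ)] ↥D)) :
    Function.Injective
      (ptl_galRes (q : ℕ) ↥(ptj_Kσ (ptj_resEmb (F := F) σ)) ↥(ptj_Krel F σ)) := by
  have gB : IsGalois ↥(ptj_Kσ (ptj_resEmb (F := F) σ))
      ↥(IntermediateField.extendScalars (ptj_Kσ_resEmb_le (F := F) σ)) :=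
    ptj_isGalois_Krel (F := F) Γ σ
  exact ptg_galRes_injective_lower_IF (q : ℕ) (ptj_Kσ_resEmb_le (F := F) σ) hBD hD

end Hull

section Global

local notation "Qbar" => AlgebraicClosure ℚ

variable {S : Finset Nat.Primes} {q : Nat.Primes} {K M : IntermediateField ℚ Qbar}

/-- every `q`-adic embedding of `K ⊆ M` extends to `M` -/
lemma ptg_exists_extend_emb (hKM : K ≤ M) (σ : ptj_Emb ↥K q) :
    ∃ σ' : ptj_Emb ↥M q, ∀ x : ↥K, σ' ⟨(x : Qbar), hKM x.2⟩ = σ x := by
  have halg : Algebra.IsAlgebraic ℚ Qbar := AlgebraicClosure.isAlgebraic ℚ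
  have : Algebra.IsAlgebraic ↥K Qbar := Algebra.IsAlgebraic.tower_top (K := ℚ) ↥K
  obtain ⟨σt, hσt⟩ := ptj_resEmb_surjective (F := ↥K) (K := Qbar) (q := q) σ
  refine ⟨σt.comp (algebraMap ↥M Qbar), fun x => ?_⟩
  have := congrArg (fun τ : ptj_Emb ↥K q => τ x) hσt
  exact this

/-- **The unramified hull.**  `K ⊆ M ⊆ Q̄`, `M` finite, stable and unramified outside `S`,
`q ∉ S`: for every `σ : ↥K →+* Ω_q` the local field `K_σ` lies in a finite Galois extension
`D/ℚ_q` (the local field of `M`) which is unramified. -/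
theorem ptg_exists_unramified_hull (hKM : K ≤ M) (hun : M.IsUnramifiedOutside S)
    (hst : ptg_IsStable M) (hq : q ∉ S) (σ : ptj_Emb ↥K q) :
    ∃ D : IntermediateField ℚ_[(q : ℕ)] (ptj_Om q), ptj_Kσ σ ≤ D ∧
      FiniteDimensional ℚ_[(q : ℕ)] ↥D ∧ IsGalois ℚ_[(q : ℕ)] ↥D ∧
      Function.Injective (ptl_galRes (q : ℕ) ℚ_[(q : ℕ)] ↥D) := by
  obtain ⟨σ', hσ'⟩ := ptg_exists_extend_emb hKM σ
  have hBD : ptj_Kσ σ ≤ ptj_Kσ σ' := by
    rw [ptj_Kσ, IntermediateField.adjoin_le_iff]
    rintro _ ⟨x, rfl⟩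
    rw [← hσ' x]
    exact ptj_apply_mem_Kσ σ' _
  have fD : FiniteDimensional ℚ_[(q : ℕ)] ↥(ptj_Kσ σ') :=
    pta_finiteDimensional_Kσ_of_isUnramifiedOutside hun σ'
  have hDeq : ptj_Kσ σ' = ptg_loc (q : ℕ) M := ptg_locEmb_eq_loc hst σ'
  have gD : IsGalois ℚ_[(q : ℕ)] ↥(ptj_Kσ σ') := by
    rw [hDeq]
    exact ptg_loc_isGalois (q : ℕ) hst
  exact ⟨ptj_Kσ σ', hBD, fD, gD, pta_galRes_injective_Kσ hun hst hq σ'⟩

/-- the local fields of a subfield of a finite `M ⊆ Q̄` are finite over `ℚ_q` -/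
lemma ptg_finiteDimensional_Kσ_of_le (hKM : K ≤ M) (hun : M.IsUnramifiedOutside S)
    (σ : ptj_Emb ↥K q) : FiniteDimensional ℚ_[(q : ℕ)] ↥(ptj_Kσ σ) := by
  have := hun.1
  have : FiniteDimensional ℚ ↥K :=
    FiniteDimensional.of_injective (IntermediateField.inclusion hKM).toLinearMap
      (IntermediateField.inclusion hKM).injective
  exact ptg_locEmb_finiteDimensional (q : ℕ) σ

variable {F : Type*} [Field F] [Algebra F ↥K]
variable {Γ : Type*} [Group Γ] [MulSemiringAction Γ ↥K] [Finite Γ] [IsGaloisGroup Γ F ↥K]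

/-- **(UN), non-stable tops.**  `K ⊆ M ⊆ Q̄`, `M` finite, stable and unramified outside `S`,
`q ∉ S`, `K/F` Galois with group `Γ`: for every `σ : ↥K →+* Ω_q` the local extension `K_σ/F_φ`
is unramified. -/
theorem ptg_galRes_injective_of_le (hKM : K ≤ M) (hun : M.IsUnramifiedOutside S)
    (hst : ptg_IsStable M) (hq : q ∉ S) (Γ : Type*) [Group Γ] [MulSemiringAction Γ ↥K]
    [Finite Γ] [IsGaloisGroup Γ F ↥K] (σ : ptj_Emb ↥K q) :
    Function.Injective
      (ptl_galRes (q : ℕ) ↥(ptj_Kσ (ptj_resEmb (F := F) σ)) ↥(ptj_Krel F σ)) := by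
  obtain ⟨D, hBD, fD, gD, hD⟩ := ptg_exists_unramified_hull hKM hun hst hq σ
  exact ptg_galRes_injective_Krel_of_hull Γ σ D hBD hD

/-- **(UN1), non-stable tops**: units are norms at every place of `K` over `q ∉ S`. -/
theorem ptg_unitsAreNorms_of_le (hKM : K ≤ M) (hun : M.IsUnramifiedOutside S)
    (hst : ptg_IsStable M) (hq : q ∉ S) (σ : ptj_Emb ↥K q) : ptj_UnitsAreNorms F Γ σ := by
  have := ptg_finiteDimensional_Kσ_of_le hKM hun σ
  exact pta_unitsAreNorms_of_injective σ (ptg_galRes_injective_of_le hKM hun hst hq Γ σ)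

/-- **(UN2), non-stable tops**: Hilbert 90 for units at every place of `K` over `q ∉ S`. -/
theorem ptg_unitsH90_of_le (F : Type*) [Field F] [Algebra F ↥K] [IsGaloisGroup Γ F ↥K]
    (hKM : K ≤ M) (hun : M.IsUnramifiedOutside S)
    (hst : ptg_IsStable M) (hq : q ∉ S) (σ : ptj_Emb ↥K q) : ptj_UnitsH90 Γ σ := by
  have := ptg_finiteDimensional_Kσ_of_le hKM hun σ
  exact pta_unitsH90_of_injective (F := F) σ (ptg_galRes_injective_of_le hKM hun hst hq Γ σ)

end Global

section Tower

local notation "Qbar" => AlgebraicClosure ℚ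

variable {S : Finset Nat.Primes} {E : Type*} [Field E] [CharZero E] [Algebra E Qbar]

/-- `K_σ/E_φ` is unramified for ALL levels of the towers of `GModBigB`: `L/E` finite Galois inside
`Q̄`, `L` contained in a finite stable `M` unramified outside `S`, `q ∉ S`. -/
theorem ptg_galRes_injective_tower (L : IntermediateField E Qbar) [FiniteDimensional E L]
    [IsGalois E L] (M : IntermediateField ℚ Qbar) (hLM : L.restrictScalars ℚ ≤ M)
    (hun : M.IsUnramifiedOutside S) (hst : ptg_IsStable M)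
    {q : Nat.Primes} (hq : q ∉ S) (σ : ptj_Emb ↥L q) :
    Function.Injective
      (ptl_galRes (q : ℕ) ↥(ptj_Kσ (ptj_resEmb (F := E) σ)) ↥(ptj_Krel E σ)) := by
  obtain ⟨D, hBD, fD, gD, hD⟩ :=
    ptg_exists_unramified_hull (K := L.restrictScalars ℚ) hLM hun hst hq σ
  exact ptg_galRes_injective_Krel_of_hull (↥L ≃ₐ[E] ↥L) σ D hBD hD

/-- `K_σ` is finite over `ℚ_q` -/
theorem ptg_finiteDimensional_Kσ_tower (L : IntermediateField E Qbar)
    (M : IntermediateField ℚ Qbar) (hLM : L.restrictScalars ℚ ≤ M)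
    (hun : M.IsUnramifiedOutside S) {q : Nat.Primes} (σ : ptj_Emb ↥L q) :
    FiniteDimensional ℚ_[(q : ℕ)] ↥(ptj_Kσ σ) :=
  ptg_finiteDimensional_Kσ_of_le (K := L.restrictScalars ℚ) hLM hun σ

/-- **(UN2) for ALL levels of the towers of `GModBigB`**. -/
theorem ptg_unitsH90_tower (L : IntermediateField E Qbar) [FiniteDimensional E L] [IsGalois E L]
    (M : IntermediateField ℚ Qbar) (hLM : L.restrictScalars ℚ ≤ M)
    (hun : M.IsUnramifiedOutside S) (hst : ptg_IsStable M)
    {q : Nat.Primes} (hq : q ∉ S) (σ : ptj_Emb ↥L q) :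
    ptj_UnitsH90 (↥L ≃ₐ[E] ↥L) σ := by
  have := ptg_finiteDimensional_Kσ_tower L M hLM hun σ
  exact pta_unitsH90_of_injective (F := E) σ (ptg_galRes_injective_tower L M hLM hun hst hq σ)

/-- **(UN1) for ALL levels of the towers of `GModBigB`**. -/
theorem ptg_unitsAreNorms_tower (L : IntermediateField E Qbar) [FiniteDimensional E L]
    [IsGalois E L] (M : IntermediateField ℚ Qbar) (hLM : L.restrictScalars ℚ ≤ M)
    (hun : M.IsUnramifiedOutside S) (hst : ptg_IsStable M)
    {q : Nat.Primes} (hq : q ∉ S) (σ : ptj_Emb ↥L q) :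
    ptj_UnitsAreNorms E (↥L ≃ₐ[E] ↥L) σ := by
  have := ptg_finiteDimensional_Kσ_tower L M hLM hun σ
  exact pta_unitsAreNorms_of_injective σ (ptg_galRes_injective_tower L M hLM hun hst hq σ)

end Tower

end Fermat.Agent.Lib.PT
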