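/-
S55 / (H-G5) IN THE MODEL (helper7; lead's ruling R1): the (G4) INSTANCE.

For the big-group model `(G_ℚ, pta_levelsS S, 𝒞_S = ptj_CS S, ptj_CSrep S)` the cyclic layers
`(U', N')` of the dévissage (`N'` open, normal of index `p` in `U'`) are PRESENTED by the finite
level `E = Q̄^{U'} ⊆ L = Q̄^{N'}`:
* `ptg_galFixedEquivQ : Gal(Q̄/E) ≃* U'`, `ptg_layer hNU : IntermediateField ↥E Q̄` (`= Q̄^{N'}`),
  `ptg_layer_isGalois`, `ptg_layer_finiteDimensional`, `ptg_layer_finrank` (`[L:E] = [U':N']`);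
* `ptg_layerHom : U' →* Gal(L/E)` (restriction; `_surjective`, `_ker = N'`, `_commutes`);
* `ptg_layerIota : Additive (ptj_CT ↥L S) →+ ptj_CS S` (lead's `ptj_iota`; `_injective`, `_equiv`,
  `_range` = the `N'`-invariants);
* **`ptg_hG4_model`** (`ptg_hG4_model'` with Mathlib's `#H²`): the hypothesis `hG4` of
  `ptg_G5_of_G4 / ptg_G5_full` from the finite-level statement
  `H¹(Gal(L/E), C_S(L)) = 1 ∧ #H²(Gal(L/E), C_S(L)) ∣ p` for `L/E` cyclic of degree `p` inside `Q̄`,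
  `L` unramified outside `S`, `Gal(Q̄/E) ≤ K₀`;
* **`ptg_G5_model`** : helper5's `ptn_AbsK.G5_1 / G5_2` for the model from that statement.
-/
import Fermat.Agent.Lib.PT.BridgeS
import Fermat.Agent.Lib.PT.GModInvC
import Fermat.Agent.Lib.PT.GModBigD

set_option autoImplicit false
set_option linter.unusedSectionVars false
set_option linter.unusedVariables false

noncomputable section

namespace Fermat.Agent.Lib.PT

open IntermediateField groupCohomology

local notation "Qbar" => AlgebraicClosure ℚ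
local notation "GQ" => (AlgebraicClosure ℚ ≃ₐ[ℚ] AlgebraicClosure ℚ)

variable {S : Finset Nat.Primes}

section Pres

variable {U N : Subgroup GQ}

/-- `U ≃ Gal(Q̄ / Q̄^U)` for an open subgroup `U ≤ G_ℚ` -/
def ptg_galFixedEquivQ (hU : (pta_levelsS S).IsOpen U) :
    (Qbar ≃ₐ[↥(IntermediateField.fixedField U)] Qbar) ≃* ↥U :=
  (IntermediateField.fixingSubgroupEquiv (IntermediateField.fixedField U)).symm.trans
    (MulEquiv.subgroupCongr (ptj_fixingSubgroup_fixedField hU))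

lemma ptg_galFixedEquivQ_apply (hU : (pta_levelsS S).IsOpen U)
    (g : Qbar ≃ₐ[↥(IntermediateField.fixedField U)] Qbar) (x : Qbar) :
    ((ptg_galFixedEquivQ hU g : ↥U) : GQ) x = g x := rfl

lemma ptg_fixedField_mono (hNU : N ≤ U) :
    IntermediateField.fixedField U ≤ IntermediateField.fixedField N := by
  intro x hx
  rw [IntermediateField.mem_fixedField_iff] at hx ⊢
  exact fun g hg => hx g (hNU hg)

/-- the layer field `Q̄^N` over `Q̄^U` -/
def ptg_layer (hNU : N ≤ U) : IntermediateField ↥(IntermediateField.fixedField U) Qbar :=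
  IntermediateField.extendScalars (ptg_fixedField_mono hNU)

lemma ptg_layer_restrictScalars (hNU : N ≤ U) :
    (ptg_layer hNU).restrictScalars ℚ = IntermediateField.fixedField N := rfl

lemma ptg_mem_layer_fixingSubgroup_iff (hU : (pta_levelsS S).IsOpen U)
    (hN : (pta_levelsS S).IsOpen N) (hNU : N ≤ U)
    (g : Qbar ≃ₐ[↥(IntermediateField.fixedField U)] Qbar) :
    g ∈ (ptg_layer hNU).fixingSubgroup ↔ ((ptg_galFixedEquivQ hU g : ↥U) : GQ) ∈ N := by
  have h1 : ((ptg_galFixedEquivQ hU g : ↥U) : GQ) ∈ N ↔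
      ((ptg_galFixedEquivQ hU g : ↥U) : GQ) ∈ (IntermediateField.fixedField N).fixingSubgroup := by
    rw [ptj_fixingSubgroup_fixedField hN]
  rw [h1, IntermediateField.mem_fixingSubgroup_iff, IntermediateField.mem_fixingSubgroup_iff]
  rfl

lemma ptg_layer_fixingSubgroup_normal (hU : (pta_levelsS S).IsOpen U)
    (hN : (pta_levelsS S).IsOpen N) (hNU : N ≤ U) (hn : (N.subgroupOf U).Normal) :
    (ptg_layer hNU).fixingSubgroup.Normal := by
  refine ⟨fun g hg h => ?_⟩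
  rw [ptg_mem_layer_fixingSubgroup_iff hU hN hNU] at hg ⊢
  rw [map_mul, map_mul, map_inv]
  have := hn.conj_mem ⟨_, (ptg_galFixedEquivQ hU g).2⟩ (Subgroup.mem_subgroupOf.mpr hg)
    (ptg_galFixedEquivQ hU h)
  exact Subgroup.mem_subgroupOf.mp this


lemma ptg_layer_isGalois (hU : (pta_levelsS S).IsOpen U)
    (hN : (pta_levelsS S).IsOpen N) (hNU : N ≤ U) (hn : (N.subgroupOf U).Normal) :
    IsGalois ↥(IntermediateField.fixedField U) ↥(ptg_layer hNU) := by
  have : IsAlgClosure ℚ Qbar := ⟨inferInstance, AlgebraicClosure.isAlgebraic ℚ⟩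
  have : IsGalois ℚ Qbar := IsAlgClosure.isGalois ℚ Qbar
  have : IsGalois ↥(IntermediateField.fixedField U) Qbar :=
    IsGalois.tower_top_of_isGalois ℚ ↥(IntermediateField.fixedField U) Qbar
  exact (InfiniteGalois.normal_iff_isGalois (ptg_layer hNU)).mp
    (ptg_layer_fixingSubgroup_normal hU hN hNU hn)

lemma ptg_layer_finiteDimensional (hN : (pta_levelsS S).IsOpen N) (hNU : N ≤ U) :
    FiniteDimensional ↥(IntermediateField.fixedField U) ↥(ptg_layer hNU) := by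
  have h1 : FiniteDimensional ℚ ↥(IntermediateField.fixedField N) :=
    (ptj_fixedField_isUnramifiedOutside hN).1
  have h2 : FiniteDimensional ℚ ↥(ptg_layer hNU) := h1
  exact FiniteDimensional.right ℚ ↥(IntermediateField.fixedField U) ↥(ptg_layer hNU)

/-- the presentation `U → Gal(Q̄^N / Q̄^U)` -/
def ptg_layerHom (hU : (pta_levelsS S).IsOpen U) (hNU : N ≤ U)
    [Normal ↥(IntermediateField.fixedField U) ↥(ptg_layer hNU)] :
    ↥U →* (↥(ptg_layer hNU) ≃ₐ[↥(IntermediateField.fixedField U)] ↥(ptg_layer hNU)) :=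
  (AlgEquiv.restrictNormalHom ↥(ptg_layer hNU)).comp (ptg_galFixedEquivQ hU).symm.toMonoidHom

lemma ptg_layerHom_commutes (hU : (pta_levelsS S).IsOpen U) (hNU : N ≤ U)
    [Normal ↥(IntermediateField.fixedField U) ↥(ptg_layer hNU)] (u : ↥U) (x : ↥(ptg_layer hNU)) :
    algebraMap ↥(ptg_layer hNU) Qbar (ptg_layerHom hU hNU u x) =
      (u : GQ) (algebraMap ↥(ptg_layer hNU) Qbar x) := by
  have h1 := AlgEquiv.restrictNormal_commutes ((ptg_galFixedEquivQ hU).symm u) ↥(ptg_layer hNU) x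
  have h2 : ((ptg_galFixedEquivQ hU).symm u) (algebraMap ↥(ptg_layer hNU) Qbar x) =
      (u : GQ) (algebraMap ↥(ptg_layer hNU) Qbar x) := by
    rw [← ptg_galFixedEquivQ_apply hU, MulEquiv.apply_symm_apply]
  rw [← h2]
  exact h1

lemma ptg_layerHom_surjective (hU : (pta_levelsS S).IsOpen U) (hNU : N ≤ U)
    [Normal ↥(IntermediateField.fixedField U) ↥(ptg_layer hNU)] :
    Function.Surjective (ptg_layerHom hU hNU) := by
  have : IsAlgClosure ℚ Qbar := ⟨inferInstance, AlgebraicClosure.isAlgebraic ℚ⟩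
  have : IsGalois ℚ Qbar := IsAlgClosure.isGalois ℚ Qbar
  have : IsGalois ↥(IntermediateField.fixedField U) Qbar :=
    IsGalois.tower_top_of_isGalois ℚ ↥(IntermediateField.fixedField U) Qbar
  intro γ
  obtain ⟨g, hg⟩ := AlgEquiv.restrictNormalHom_surjective
    (F := ↥(IntermediateField.fixedField U)) (K₁ := ↥(ptg_layer hNU)) Qbar γ
  exact ⟨ptg_galFixedEquivQ hU g, by
    show AlgEquiv.restrictNormalHom _ ((ptg_galFixedEquivQ hU).symm (ptg_galFixedEquivQ hU g)) = γ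
    rw [MulEquiv.symm_apply_apply, hg]⟩

lemma ptg_layerHom_ker (hU : (pta_levelsS S).IsOpen U) (hN : (pta_levelsS S).IsOpen N)
    (hNU : N ≤ U) [Normal ↥(IntermediateField.fixedField U) ↥(ptg_layer hNU)] :
    (ptg_layerHom hU hNU).ker = N.subgroupOf U := by
  ext u
  rw [MonoidHom.mem_ker, Subgroup.mem_subgroupOf]
  have h1 : ptg_layerHom hU hNU u = 1 ↔
      (ptg_galFixedEquivQ hU).symm u ∈ (AlgEquiv.restrictNormalHom ↥(ptg_layer hNU)).ker :=
    Iff.rfl
  rw [h1, IntermediateField.restrictNormalHom_ker,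
    ptg_mem_layer_fixingSubgroup_iff hU hN hNU, MulEquiv.apply_symm_apply]


lemma ptg_layer_isUnrE (hN : (pta_levelsS S).IsOpen N) (hNU : N ≤ U) :
    ptj_IsUnrE S ↥(ptg_layer hNU) := by
  rw [ptj_IsUnrE, ptj_imField_interm]
  exact ptj_fixedField_isUnramifiedOutside hN

/-- `ι : C_S(Q̄^N) → 𝒞_S`, additively -/
def ptg_layerIota (hN : (pta_levelsS S).IsOpen N) (hNU : N ≤ U) :
    Additive (ptj_CT ↥(ptg_layer hNU) S) →+ ptj_CS S :=
  MonoidHom.toAdditive (ptj_iota S ↥(ptg_layer hNU) (ptg_layer_isUnrE hN hNU))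

lemma ptg_layerIota_apply (hN : (pta_levelsS S).IsOpen N) (hNU : N ≤ U)
    (a : Additive (ptj_CT ↥(ptg_layer hNU) S)) :
    ptg_layerIota hN hNU a =
      ptj_CSof (ptj_iota S ↥(ptg_layer hNU) (ptg_layer_isUnrE hN hNU) a.toMul) := rfl

lemma ptg_layerIota_injective (hS : S.Nonempty) (hN : (pta_levelsS S).IsOpen N) (hNU : N ≤ U) :
    Function.Injective (ptg_layerIota hN hNU) := by
  intro a b h
  have h2 : ptj_CSof (ptj_iota S ↥(ptg_layer hNU) (ptg_layer_isUnrE hN hNU) a.toMul) =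
      ptj_CSof (ptj_iota S ↥(ptg_layer hNU) (ptg_layer_isUnrE hN hNU) b.toMul) := h
  have h1 := ptj_iota_injective hS (ptg_layer_isUnrE hN hNU) (ptj_CSof.injective h2)
  exact Additive.toMul.injective h1

lemma ptg_layerIota_equiv (hU : (pta_levelsS S).IsOpen U) (hN : (pta_levelsS S).IsOpen N)
    (hNU : N ≤ U) [Normal ↥(IntermediateField.fixedField U) ↥(ptg_layer hNU)]
    (u : ↥U) (a : Additive (ptj_CT ↥(ptg_layer hNU) S)) :
    ptg_layerIota hN hNU (Representation.ofMulDistribMulAction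
      (↥(ptg_layer hNU) ≃ₐ[↥(IntermediateField.fixedField U)] ↥(ptg_layer hNU))
      (ptj_CT ↥(ptg_layer hNU) S) (ptg_layerHom hU hNU u) a) =
    ptj_CSrep S (u : GQ) (ptg_layerIota hN hNU a) := by
  obtain ⟨c, rfl⟩ := Additive.ofMul.surjective a
  induction c using QuotientGroup.induction_on with
  | H g =>
    rw [ptg_layerIota_apply, ptg_layerIota_apply, ptj_CSrep_apply]
    apply congrArg ptj_CSof
    show ptj_iota S _ _ ((ptg_layerHom hU hNU u) • (QuotientGroup.mk g : ptj_CT _ S)) = _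
    rw [ptj_CT_smul_mk]
    show ptj_iota S _ _ (QuotientGroup.mk _) = (u : GQ) • ptj_iota S _ _ (QuotientGroup.mk g)
    rw [ptj_iota_mk, ptj_iota_mk, ← ptj_CSmk_smul]
    congr 1
    apply Subtype.ext
    exact ptj_up_smul_compat (ptg_layerHom hU hNU u) (u : GQ)
      (fun x => ptg_layerHom_commutes hU hNU u x) g

lemma ptg_layerIota_range (hS : S.Nonempty) (hN : (pta_levelsS S).IsOpen N) (hNU : N ≤ U)
    (c : ptj_CS S) (hc : ∀ n ∈ N, ptj_CSrep S n c = c) :
    ∃ a : Additive (ptj_CT ↥(ptg_layer hNU) S), ptg_layerIota hN hNU a = c := by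
  have h1 : ptj_CSof.symm c ∈ (ptj_iota S ↥(ptg_layer hNU) (ptg_layer_isUnrE hN hNU)).range := by
    rw [ptj_mem_range_iota_iff_invariant hS, ptj_imField_interm, ptg_layer_restrictScalars,
      ptj_fixingSubgroup_fixedField hN]
    intro γ hγ
    exact congrArg ptj_CSof.symm (hc γ hγ)
  obtain ⟨a, ha⟩ := h1
  exact ⟨Additive.ofMul a, by rw [ptg_layerIota_apply, toMul_ofMul, ha]; rfl⟩


lemma ptg_layer_finrank (hU : (pta_levelsS S).IsOpen U) (hN : (pta_levelsS S).IsOpen N)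
    (hNU : N ≤ U) [FiniteDimensional ↥(IntermediateField.fixedField U) ↥(ptg_layer hNU)]
    [IsGalois ↥(IntermediateField.fixedField U) ↥(ptg_layer hNU)] :
    Module.finrank ↥(IntermediateField.fixedField U) ↥(ptg_layer hNU) = N.relIndex U := by
  rw [← IsGalois.card_aut_eq_finrank, Subgroup.relIndex, Subgroup.index_eq_card,
    ← ptg_layerHom_ker hU hN hNU]
  exact (Nat.card_congr (QuotientGroup.quotientKerEquivOfSurjective (ptg_layerHom hU hNU)
    (ptg_layerHom_surjective hU hNU)).toEquiv).symm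

end Pres


section Final

/-- **The (G4) instance in the model** (lead's ruling R1): the cyclic layers `(U', N')` of the
dévissage for `(G_ℚ, 𝒞_S)` are presented by `E = Q̄^{U'} ⊆ L = Q̄^{N'}`, `Γ = Gal(L/E)`,
`M = C_S(L) = ptj_CT ↥L S`, `ι = ptj_iota`.  Hence the hypothesis `hG4` of `ptg_G5_of_G4` /
`ptg_G5_full` follows from the finite-level statement `hfin`: for `L/E` cyclic of degree `p`
inside `Q̄`, unramified outside `S`, with `Gal(Q̄/E) ≤ K₀`: `H¹(Γ, C_S(L)) = 1` and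
`#H²(Γ, C_S(L)) ∣ p`. -/
theorem ptg_hG4_model (hS : S.Nonempty) (p : ℕ) (K₀ : Subgroup GQ)
    (hfin : ∀ (E : IntermediateField ℚ Qbar) (L : IntermediateField ↥E Qbar)
      [FiniteDimensional ↥E ↥L] [IsGalois ↥E ↥L], Module.finrank ↥E ↥L = p →
      (L.restrictScalars ℚ).IsUnramifiedOutside S → E.fixingSubgroup ≤ K₀ →
      (∀ f : (↥L ≃ₐ[↥E] ↥L) → ptj_CT ↥L S, IsMulCocycle₁ f → IsMulCoboundary₁ f) ∧
      (ptg_B2 (Representation.ofMulDistribMulAction (↥L ≃ₐ[↥E] ↥L) (ptj_CT ↥L S))).relIndex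
        (ptg_Z2 (Representation.ofMulDistribMulAction (↥L ≃ₐ[↥E] ↥L) (ptj_CT ↥L S))) ∣ p)
    (U' N' : Subgroup GQ) (hN : (pta_levelsS S).IsOpen N') (hNU : N' ≤ U') (hUK : U' ≤ K₀)
    (hn : (N'.subgroupOf U').Normal) (hidx : N'.relIndex U' = p) :
    ptg_H1At (ptj_CSrep S) U' N' ∧
      (ptg_B2At (ptj_CSrep S) U' N').relIndex (ptg_Z2At (ptj_CSrep S) U' N') ∣ p := by
  have hU : (pta_levelsS S).IsOpen U' := by
    obtain ⟨L, hL, h⟩ := hN
    exact ⟨L, hL, h.trans hNU⟩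
  have hgal := ptg_layer_isGalois hU hN hNU hn
  have hfd := ptg_layer_finiteDimensional (U := U') hN hNU
  obtain ⟨h1, h2⟩ := hfin (IntermediateField.fixedField U') (ptg_layer hNU)
    (by rw [ptg_layer_finrank hU hN hNU, hidx])
    (by rw [ptg_layer_restrictScalars]; exact ptj_fixedField_isUnramifiedOutside hN)
    (by rw [ptj_fixingSubgroup_fixedField hU]; exact hUK)
  exact ptg_hcyc_of_presented (ρ := ptj_CSrep S)
    (ρA := Representation.ofMulDistribMulAction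
      (↥(ptg_layer hNU) ≃ₐ[↥(IntermediateField.fixedField U')] ↥(ptg_layer hNU))
      (ptj_CT ↥(ptg_layer hNU) S))
    (ptg_layerHom hU hNU) (ptg_layerHom_surjective hU hNU) (ptg_layerHom_ker hU hN hNU)
    (ptg_layerIota hN hNU) (ptg_layerIota_injective hS hN hNU)
    (fun u a => ptg_layerIota_equiv hU hN hNU u a)
    (fun c hc => ptg_layerIota_range hS hN hNU c hc) hNU
    (ptg_H1_of_mul h1) h2


/-- the same with `#H²` in Mathlib's form -/
theorem ptg_hG4_model' (hS : S.Nonempty) (p : ℕ) (K₀ : Subgroup GQ)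
    (hfin : ∀ (E : IntermediateField ℚ Qbar) (L : IntermediateField ↥E Qbar)
      [FiniteDimensional ↥E ↥L] [IsGalois ↥E ↥L], Module.finrank ↥E ↥L = p →
      (L.restrictScalars ℚ).IsUnramifiedOutside S → E.fixingSubgroup ≤ K₀ →
      (∀ f : (↥L ≃ₐ[↥E] ↥L) → ptj_CT ↥L S, IsMulCocycle₁ f → IsMulCoboundary₁ f) ∧
      Nat.card (groupCohomology (Rep.ofMulDistribMulAction (↥L ≃ₐ[↥E] ↥L) (ptj_CT ↥L S)) 2) ∣ p)
    (U' N' : Subgroup GQ) (hN : (pta_levelsS S).IsOpen N') (hNU : N' ≤ U') (hUK : U' ≤ K₀)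
    (hn : (N'.subgroupOf U').Normal) (hidx : N'.relIndex U' = p) :
    ptg_H1At (ptj_CSrep S) U' N' ∧
      (ptg_B2At (ptj_CSrep S) U' N').relIndex (ptg_Z2At (ptj_CSrep S) U' N') ∣ p := by
  refine ptg_hG4_model hS p K₀ (fun E L _ _ hdeg hun hK => ?_) U' N' hN hNU hUK hn hidx
  obtain ⟨h1, h2⟩ := hfin E L hdeg hun hK
  refine ⟨h1, ?_⟩
  rw [← ptg_relIndex_eq_card_H2] at h2
  exact h2


/-- **(H-G5) in the model**: helper5's `ptn_AbsK.G5_1 / G5_2` (sections below `K₀`) for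
`(G_ℚ, pta_levelsS S, ptj_CSrep S)` from the finite-level (G4) statement `hfin`. -/
theorem ptg_G5_model (hS : S.Nonempty) (p : ℕ) [Fact p.Prime] (K₀ : Subgroup GQ) [K₀.Normal]
    (hK₀ : ¬ p ∣ K₀.index)
    (hfin : ∀ (E : IntermediateField ℚ Qbar) (L : IntermediateField ↥E Qbar)
      [FiniteDimensional ↥E ↥L] [IsGalois ↥E ↥L], Module.finrank ↥E ↥L = p →
      (L.restrictScalars ℚ).IsUnramifiedOutside S → E.fixingSubgroup ≤ K₀ →
      (∀ f : (↥L ≃ₐ[↥E] ↥L) → ptj_CT ↥L S, IsMulCocycle₁ f → IsMulCoboundary₁ f) ∧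
      (ptg_B2 (Representation.ofMulDistribMulAction (↥L ≃ₐ[↥E] ↥L) (ptj_CT ↥L S))).relIndex
        (ptg_Z2 (Representation.ofMulDistribMulAction (↥L ≃ₐ[↥E] ↥L) (ptj_CT ↥L S))) ∣ p)
    (U N : Subgroup GQ) (hNo : (pta_levelsS S).IsOpen N) (hNK : N ≤ K₀) (hNU : N ≤ U)
    (hN : (N.subgroupOf U).Normal) (hp : ∀ x ∈ U, ∃ j : ℕ, x ^ p ^ j ∈ N) :
    (∀ φ : U → ptj_CS S, ptd_IsZ1 (ptd_resRep (ptj_CSrep S) U) φ → ptn_At₁ U N (ptj_CSrep S) φ →
        ptd_IsB1 (ptd_resRep (ptj_CSrep S) U) φ) ∧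
    (∀ w : U × U → ptj_CS S, ptd_IsZ2 (ptd_resRep (ptj_CSrep S) U) w →
      ptn_At₂ U N (ptj_CSrep S) w →
      (∀ k : ℤ, ∀ ψ : U → ptj_CS S, ptn_At₁ U N (ptj_CSrep S) ψ →
        k • w = ptd_d1 (ptd_resRep (ptj_CSrep S) U) ψ → ((N.relIndex U : ℕ) : ℤ) ∣ k) →
      ∀ z : U × U → ptj_CS S, ptd_IsZ2 (ptd_resRep (ptj_CSrep S) U) z →
        ptn_At₂ U N (ptj_CSrep S) z →
        ∃ (n : ℤ) (ψ : U → ptj_CS S), ptn_At₁ U N (ptj_CSrep S) ψ ∧
          z - n • w = ptd_d1 (ptd_resRep (ptj_CSrep S) U) ψ) :=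
  ptg_G5_of_G4 (ρ := ptj_CSrep S) p (pta_levelsS S) K₀ hK₀ (ptg_hG4_model hS p K₀ hfin)
    U N hNo hNK hNU hN hp

end Final

end Fermat.Agent.Lib.PT
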