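/-
S55 / input (3) `hG4` of the final consumer (helper7): ADAPTER from the finite-level (G4) for
abstract number fields (helper1's `pta_G4_finite` shape) to `hG4` of `pts_S55_of_inputs`.

* `ptg_exists_stable_hull` : an `S`-unramified field lies in a stable `S`-unramified one;
* `ptg_unitsAreNorms_layer`, `ptg_unitsH90_layer` : (UN1), (UN2) at the places outside `S` for every
  `S`-unramified finite Galois layer `L/E` inside `Q̄` (no stability needed; `BridgeT`);
* `ptg_numberField_top/_base`, `ptg_exists_primitiveRoot_base` (`μ_p ⊂ E` if `Gal(Q̄/E) ≤ ker χ_cyc`);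
* **`ptg_hG4_of_finite`** : `hG4` (with `K₀ = (cycloChar p).ker`) from the finite-level statement.
-/
import Fermat.Agent.Lib.PT.BridgeT
import Fermat.Agent.Lib.PT.BridgeU
import Fermat.Agent.Lib.PT.GLevelTwist

set_option autoImplicit false
set_option linter.unusedSectionVars false
set_option linter.unusedVariables false

noncomputable section

namespace Fermat.Agent.Lib.PT

open IntermediateField groupCohomology ExtCitation

local notation "Qbar" => AlgebraicClosure ℚ
local notation "GQ" => (AlgebraicClosure ℚ ≃ₐ[ℚ] AlgebraicClosure ℚ)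

variable {S : Finset Nat.Primes}

section Inputs

variable {E : IntermediateField ℚ Qbar} (L : IntermediateField ↥E Qbar)

/-- an `S`-unramified field lies in a stable `S`-unramified field -/
lemma ptg_exists_stable_hull {K : IntermediateField ℚ Qbar} (hK : K.IsUnramifiedOutside S) :
    ∃ M : IntermediateField ℚ Qbar, K ≤ M ∧ M.IsUnramifiedOutside S ∧ ptg_IsStable M :=
  ⟨pta_galClosure K, pta_le_galClosure K, pta_isUnramifiedOutside_galClosure hK,
    fun σ x hx => pta_galClosure_stable K σ x hx⟩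

/-- **(UN1)** for every `S`-unramified finite Galois layer `L/E` inside `Q̄` -/
theorem ptg_unitsAreNorms_layer [FiniteDimensional ↥E ↥L] [IsGalois ↥E ↥L]
    (hun : (L.restrictScalars ℚ).IsUnramifiedOutside S) {q : Nat.Primes} (hq : q ∉ S)
    (σ : ptj_Emb ↥L q) : ptj_UnitsAreNorms ↥E (↥L ≃ₐ[↥E] ↥L) σ := by
  obtain ⟨M, hLM, hM, hst⟩ := ptg_exists_stable_hull hun
  exact ptg_unitsAreNorms_tower L M hLM hM hst hq σ

/-- **(UN2)** for every `S`-unramified finite Galois layer `L/E` inside `Q̄` -/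
theorem ptg_unitsH90_layer [FiniteDimensional ↥E ↥L] [IsGalois ↥E ↥L]
    (hun : (L.restrictScalars ℚ).IsUnramifiedOutside S) {q : Nat.Primes} (hq : q ∉ S)
    (σ : ptj_Emb ↥L q) : ptj_UnitsH90 (↥L ≃ₐ[↥E] ↥L) σ := by
  obtain ⟨M, hLM, hM, hst⟩ := ptg_exists_stable_hull hun
  exact ptg_unitsH90_tower L M hLM hM hst hq σ

/-- number field instances -/
lemma ptg_numberField_top (hun : (L.restrictScalars ℚ).IsUnramifiedOutside S) :
    NumberField ↥L := by
  have h1 : FiniteDimensional ℚ ↥(L.restrictScalars ℚ) := hun.1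
  have h2 : FiniteDimensional ℚ ↥L := h1
  exact ⟨⟩

lemma ptg_numberField_base (hun : (L.restrictScalars ℚ).IsUnramifiedOutside S) :
    NumberField ↥E := by
  have h1 : FiniteDimensional ℚ ↥(L.restrictScalars ℚ) := hun.1
  have hle : E ≤ L.restrictScalars ℚ := by
    intro x hx
    exact L.algebraMap_mem ⟨x, hx⟩
  have : FiniteDimensional ℚ ↥E :=
    FiniteDimensional.of_injective (IntermediateField.inclusion hle).toLinearMap
      (IntermediateField.inclusion hle).injective
  exact ⟨⟩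

/-- `μ_p ⊂ E` when `Gal(Q̄/E) ≤ ker χ_cyc` -/
lemma ptg_exists_primitiveRoot_base (p : ℕ) [Fact p.Prime]
    (hE : E.fixingSubgroup ≤ (cycloChar p).ker) : ∃ ζ : ↥E, IsPrimitiveRoot ζ p := by
  have : IsAlgClosure ℚ Qbar := ⟨inferInstance, AlgebraicClosure.isAlgebraic ℚ⟩
  have : IsGalois ℚ Qbar := IsAlgClosure.isGalois ℚ Qbar
  obtain ⟨ζ, hζ⟩ := pta_exists_primitiveRoot p
  have h1 : ζ ∈ pta_cycloField p := pta_mem_cycloField hζ
  have h2 : pta_cycloField p ≤ E := by
    have : IntermediateField.fixedField (cycloChar p).ker ≤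
        IntermediateField.fixedField E.fixingSubgroup := by
      intro x hx
      rw [IntermediateField.mem_fixedField_iff] at hx ⊢
      exact fun g hg => hx g (hE hg)
    rwa [InfiniteGalois.fixedField_fixingSubgroup] at this
  refine ⟨⟨ζ, h2 h1⟩, ?_⟩
  exact IsPrimitiveRoot.of_map_of_injective (f := algebraMap ↥E Qbar)
    (hζ : IsPrimitiveRoot (algebraMap ↥E Qbar ⟨ζ, h2 h1⟩) p) (algebraMap ↥E Qbar).injective


end Inputs

section Adapter

/-- **The hypothesis `hG4` of `pts_S55_of_inputs` from the finite-level (G4) statement for abstract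
number fields** (helper1's `pta_G4_finite` shape): `hG4fin` is applied to `F := ↥E = Q̄^{U'}`,
`K := ↥L = Q̄^{N'}`, with `ζ_p ∈ E` from `U' ≤ ker χ_cyc` and (UN1), (UN2) at the places outside
`S` from `BridgeT`. -/
theorem ptg_hG4_of_finite (hS : S.Nonempty) (p : ℕ) [Fact p.Prime]
    (hG4fin : ∀ {F K : Type} [Field F] [NumberField F] [Field K] [NumberField K] [Algebra F K]
      [IsGalois F K], Module.finrank F K = p → ∀ {ζ : F}, IsPrimitiveRoot ζ p →
      (∀ q ∉ S, ∀ σ : ptj_Emb K q, ptj_UnitsAreNorms F (K ≃ₐ[F] K) σ) →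
      (∀ q ∉ S, ∀ σ : ptj_Emb K q, ptj_UnitsH90 (K ≃ₐ[F] K) σ) →
      (∀ f : (K ≃ₐ[F] K) → ptj_CT K S, IsMulCocycle₁ f → IsMulCoboundary₁ f) ∧
      Nat.card (groupCohomology (Rep.ofMulDistribMulAction (K ≃ₐ[F] K) (ptj_CT K S)) 2) ∣ p)
    (U' N' : Subgroup GQ) (hN : (pta_levelsS S).IsOpen N') (hNU : N' ≤ U')
    (hUK : U' ≤ (cycloChar p).ker) (hn : (N'.subgroupOf U').Normal)
    (hidx : N'.relIndex U' = p) :
    ptg_H1At (ptj_CSrep S) U' N' ∧
      (ptg_B2At (ptj_CSrep S) U' N').relIndex (ptg_Z2At (ptj_CSrep S) U' N') ∣ p := by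
  refine ptg_hG4_model' hS p (cycloChar p).ker (fun E L _ _ hdeg hun hE => ?_) U' N' hN hNU hUK
    hn hidx
  have nfL := ptg_numberField_top L hun
  have nfE := ptg_numberField_base L hun
  obtain ⟨ζ, hζ⟩ := ptg_exists_primitiveRoot_base p hE
  exact hG4fin hdeg hζ (fun q hq σ => ptg_unitsAreNorms_layer L hun hq σ)
    (fun q hq σ => ptg_unitsH90_layer L hun hq σ)

end Adapter

end Fermat.Agent.Lib.PT
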