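/-
Abstract Herbrand toolkit (multiplicative, plain `relIndex` language).

`A` a commutative group, `f g : A →* A` with `f ∘ g = g ∘ f = 1` (think `f x = σ x / x`,
`g = N`).  The two "cohomology orders" are `[ker f : im g] = g.range.relIndex f.ker` and
`[ker g : im f] = f.range.relIndex g.ker`.

Main result (`cfh_hex_subgroup`): the exact hexagon for a stable subgroup `B ≤ A`, in index
form, with two-out-of-three finiteness.
-/
import Mathlib

set_option autoImplicit false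

namespace Fermat.Agent.Lib.PT

section Hexagon

variable {A : Type*} [CommGroup A]

/-- `[K ⊔ H : K] = [H : K ⊓ H]` (second isomorphism theorem, index form). -/
theorem cfh_relIndex_sup_eq (K H : Subgroup A) :
    K.relIndex (K ⊔ H) = (K ⊓ H).relIndex H := by
  rw [Subgroup.relIndex_sup_left, Subgroup.inf_relIndex_right]

/-- `[f⁻¹ B : ker f ⊔ B] = [B ⊓ f A : f B]`. -/
theorem cfh_relIndex_comap_eq (f : A →* A) (B : Subgroup A) :
    (f.ker ⊔ B).relIndex (B.comap f) = (B.map f).relIndex (B ⊓ f.range) := by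
  have h := Subgroup.relIndex_comap (B.map f) f (B.comap f)
  rw [Subgroup.comap_map_eq, Subgroup.map_comap_eq] at h
  rw [sup_comm, h, inf_comm]

variable (f g : A →* A)

/-- The six elementary indices of the hexagon attached to a stable subgroup `B`. -/
theorem cfh_hex_alpha (hfg : ∀ x, f (g x) = 1) (B : Subgroup A) :
    g.range.relIndex (g.range ⊔ (f.ker ⊓ B)) = (B ⊓ g.range).relIndex (f.ker ⊓ B) := by
  rw [cfh_relIndex_sup_eq]
  congr 1
  have hle : g.range ≤ f.ker := by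
    rintro _ ⟨x, rfl⟩
    exact hfg x
  rw [← inf_assoc, inf_eq_left.mpr hle, inf_comm]

theorem cfh_hex_beta (hfg : ∀ x, f (g x) = 1) (B : Subgroup A) :
    (g.range ⊔ B).relIndex (f.ker ⊔ B) = (g.range ⊔ (f.ker ⊓ B)).relIndex f.ker := by
  have hle : g.range ≤ f.ker := by
    rintro _ ⟨x, rfl⟩
    exact hfg x
  have e1 : f.ker ⊔ B = (g.range ⊔ B) ⊔ f.ker := by
    rw [sup_comm (g.range ⊔ B), ← sup_assoc, sup_eq_left.mpr hle]
  rw [e1, cfh_relIndex_sup_eq]
  congr 1
  -- modular law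
  rw [sup_inf_assoc_of_le B hle, inf_comm B]

/-- **Hexagon lemma, factorised form.**  For a stable subgroup `B` of `A` the six Herbrand
indices of `A`, `B` and `A / B` are pairwise products of six numbers `α β γ` (the orders of
the images of the six maps of the exact hexagon). -/
theorem cfh_hex_factor (hfg : ∀ x, f (g x) = 1) (hgf : ∀ x, g (f x) = 1) (B : Subgroup A)
    (hfB : B.map f ≤ B) (hgB : B.map g ≤ B) :
    ∃ af bf cf ag bg cg : ℕ,
      g.range.relIndex f.ker = af * bf ∧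
      (B.map g).relIndex (f.ker ⊓ B) = cg * af ∧
      (g.range ⊔ B).relIndex (B.comap f) = bf * cf ∧
      f.range.relIndex g.ker = ag * bg ∧
      (B.map f).relIndex (g.ker ⊓ B) = cf * ag ∧
      (f.range ⊔ B).relIndex (B.comap g) = bg * cg := by
  have key : ∀ (f g : A →* A), (∀ x, f (g x) = 1) → B.map f ≤ B → B.map g ≤ B →
      g.range.relIndex f.ker =
        (B ⊓ g.range).relIndex (f.ker ⊓ B) * (g.range ⊔ (f.ker ⊓ B)).relIndex f.ker ∧
      (B.map g).relIndex (f.ker ⊓ B) =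
        (B.map g).relIndex (B ⊓ g.range) * (B ⊓ g.range).relIndex (f.ker ⊓ B) ∧
      (g.range ⊔ B).relIndex (B.comap f) =
        (g.range ⊔ (f.ker ⊓ B)).relIndex f.ker * (B.map f).relIndex (B ⊓ f.range) := by
    intro f g hfg hfB hgB
    have hle : g.range ≤ f.ker := by
      rintro _ ⟨x, rfl⟩
      exact hfg x
    refine ⟨?_, ?_, ?_⟩
    · rw [← cfh_hex_alpha f g hfg B]
      exact (Subgroup.relIndex_mul_relIndex _ _ _ le_sup_left
        (sup_le hle inf_le_left)).symm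
    · refine (Subgroup.relIndex_mul_relIndex _ _ _ (le_inf hgB ?_) (le_inf ?_ inf_le_left)).symm
      · rintro _ ⟨x, -, rfl⟩
        exact ⟨x, rfl⟩
      · exact inf_le_right.trans hle
    · rw [← cfh_hex_beta f g hfg B, ← cfh_relIndex_comap_eq f B]
      refine (Subgroup.relIndex_mul_relIndex _ _ _ (sup_le_sup_right hle B)
        (sup_le ?_ ?_)).symm
      · intro x hx
        rw [Subgroup.mem_comap, MonoidHom.mem_ker.1 hx]
        exact B.one_mem
      · intro x hx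
        exact hfB ⟨x, hx, rfl⟩
  obtain ⟨h1, h2, h3⟩ := key f g hfg hfB hgB
  obtain ⟨h4, h5, h6⟩ := key g f hgf hgB hfB
  exact ⟨_, _, _, _, _, _, h1, h2, h3, h4, h5, h6⟩

/-- **Hexagon lemma** (multiplicativity of the Herbrand quotient), subgroup form. -/
theorem cfh_hex_eq (hfg : ∀ x, f (g x) = 1) (hgf : ∀ x, g (f x) = 1) (B : Subgroup A)
    (hfB : B.map f ≤ B) (hgB : B.map g ≤ B) :
    g.range.relIndex f.ker * (B.map f).relIndex (g.ker ⊓ B) *
        (f.range ⊔ B).relIndex (B.comap g) =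
      f.range.relIndex g.ker * (B.map g).relIndex (f.ker ⊓ B) *
        (g.range ⊔ B).relIndex (B.comap f) := by
  obtain ⟨af, bf, cf, ag, bg, cg, h1, h2, h3, h4, h5, h6⟩ :=
    cfh_hex_factor f g hfg hgf B hfB hgB
  rw [h1, h2, h3, h4, h5, h6]
  ring

/-- Finiteness of the Herbrand indices of `A` and `B` implies that of `A / B`. -/
theorem cfh_hex_ne_zero_quot (hfg : ∀ x, f (g x) = 1) (hgf : ∀ x, g (f x) = 1)
    (B : Subgroup A) (hfB : B.map f ≤ B) (hgB : B.map g ≤ B)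
    (h1 : g.range.relIndex f.ker ≠ 0) (h2 : f.range.relIndex g.ker ≠ 0)
    (h3 : (B.map g).relIndex (f.ker ⊓ B) ≠ 0) (h4 : (B.map f).relIndex (g.ker ⊓ B) ≠ 0) :
    (g.range ⊔ B).relIndex (B.comap f) ≠ 0 ∧ (f.range ⊔ B).relIndex (B.comap g) ≠ 0 := by
  obtain ⟨af, bf, cf, ag, bg, cg, e1, e2, e3, e4, e5, e6⟩ :=
    cfh_hex_factor f g hfg hgf B hfB hgB
  rw [e1] at h1; rw [e4] at h2; rw [e2] at h3; rw [e5] at h4
  rw [e3, e6]
  exact ⟨mul_ne_zero (right_ne_zero_of_mul h1) (left_ne_zero_of_mul h4),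
    mul_ne_zero (right_ne_zero_of_mul h2) (left_ne_zero_of_mul h3)⟩

/-- Finiteness of the Herbrand indices of `B` and `A / B` implies that of `A`. -/
theorem cfh_hex_ne_zero_top (hfg : ∀ x, f (g x) = 1) (hgf : ∀ x, g (f x) = 1)
    (B : Subgroup A) (hfB : B.map f ≤ B) (hgB : B.map g ≤ B)
    (h1 : (g.range ⊔ B).relIndex (B.comap f) ≠ 0) (h2 : (f.range ⊔ B).relIndex (B.comap g) ≠ 0)
    (h3 : (B.map g).relIndex (f.ker ⊓ B) ≠ 0) (h4 : (B.map f).relIndex (g.ker ⊓ B) ≠ 0) :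
    g.range.relIndex f.ker ≠ 0 ∧ f.range.relIndex g.ker ≠ 0 := by
  obtain ⟨af, bf, cf, ag, bg, cg, e1, e2, e3, e4, e5, e6⟩ :=
    cfh_hex_factor f g hfg hgf B hfB hgB
  rw [e3] at h1; rw [e6] at h2; rw [e2] at h3; rw [e5] at h4
  rw [e1, e4]
  exact ⟨mul_ne_zero (right_ne_zero_of_mul h3) (left_ne_zero_of_mul h1),
    mul_ne_zero (right_ne_zero_of_mul h4) (left_ne_zero_of_mul h2)⟩

/-- Finiteness of the Herbrand indices of `A` and `A / B` implies that of `B`. -/
theorem cfh_hex_ne_zero_sub (hfg : ∀ x, f (g x) = 1) (hgf : ∀ x, g (f x) = 1)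
    (B : Subgroup A) (hfB : B.map f ≤ B) (hgB : B.map g ≤ B)
    (h1 : g.range.relIndex f.ker ≠ 0) (h2 : f.range.relIndex g.ker ≠ 0)
    (h3 : (g.range ⊔ B).relIndex (B.comap f) ≠ 0) (h4 : (f.range ⊔ B).relIndex (B.comap g) ≠ 0) :
    (B.map g).relIndex (f.ker ⊓ B) ≠ 0 ∧ (B.map f).relIndex (g.ker ⊓ B) ≠ 0 := by
  obtain ⟨af, bf, cf, ag, bg, cg, e1, e2, e3, e4, e5, e6⟩ :=
    cfh_hex_factor f g hfg hgf B hfB hgB
  rw [e1] at h1; rw [e4] at h2; rw [e3] at h3; rw [e6] at h4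
  rw [e2, e5]
  exact ⟨mul_ne_zero (right_ne_zero_of_mul h4) (left_ne_zero_of_mul h1),
    mul_ne_zero (right_ne_zero_of_mul h3) (left_ne_zero_of_mul h2)⟩

end Hexagon

section ExactSeq

variable {A' A A'' : Type*} [CommGroup A'] [CommGroup A] [CommGroup A'']

/-- A short exact sequence `1 → A' → A → A'' → 1` of commutative groups with compatible
pairs of endomorphisms `(f', g')`, `(f, g)`, `(f'', g'')`, `f ∘ g = g ∘ f = 1`. -/
structure cfh_HexSeq (i : A' →* A) (π : A →* A'') (f' g' : A' →* A') (f g : A →* A)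
    (f'' g'' : A'' →* A'') : Prop where
  inj : Function.Injective i
  surj : Function.Surjective π
  exact : i.range = π.ker
  i_f : ∀ x, i (f' x) = f (i x)
  i_g : ∀ x, i (g' x) = g (i x)
  π_f : ∀ x, π (f x) = f'' (π x)
  π_g : ∀ x, π (g x) = g'' (π x)
  fg : ∀ x, f (g x) = 1
  gf : ∀ x, g (f x) = 1

variable {i : A' →* A} {π : A →* A''} {f' g' : A' →* A'} {f g : A →* A}
  {f'' g'' : A'' →* A''}

theorem cfh_HexSeq.symm (h : cfh_HexSeq i π f' g' f g f'' g'') :
    cfh_HexSeq i π g' f' g f g'' f'' :=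
  ⟨h.inj, h.surj, h.exact, h.i_g, h.i_f, h.π_g, h.π_f, h.gf, h.fg⟩

theorem cfh_HexSeq.map_f_le (h : cfh_HexSeq i π f' g' f g f'' g'') :
    i.range.map f ≤ i.range := by
  rintro _ ⟨_, ⟨x, rfl⟩, rfl⟩
  exact ⟨f' x, h.i_f x⟩

/-- The Herbrand index of the sub in terms of the subgroup `i.range`. -/
theorem cfh_HexSeq.sub_eq (h : cfh_HexSeq i π f' g' f g f'' g'') :
    (i.range.map g).relIndex (f.ker ⊓ i.range) = g'.range.relIndex f'.ker := by
  have e1 : i.range.map g = g'.range.map i := by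
    ext y
    constructor
    · rintro ⟨_, ⟨x, rfl⟩, rfl⟩
      exact ⟨g' x, ⟨x, rfl⟩, h.i_g x⟩
    · rintro ⟨_, ⟨x, rfl⟩, rfl⟩
      exact ⟨i x, ⟨x, rfl⟩, (h.i_g x).symm⟩
  have e2 : f.ker ⊓ i.range = f'.ker.map i := by
    ext y
    constructor
    · rintro ⟨hy, ⟨x, rfl⟩⟩
      refine ⟨x, ?_, rfl⟩
      show f' x = 1
      apply h.inj
      rw [h.i_f, map_one]
      exact hy
    · rintro ⟨x, hx, rfl⟩
      refine ⟨?_, ⟨x, rfl⟩⟩
      show f (i x) = 1
      rw [← h.i_f, MonoidHom.mem_ker.1 hx, map_one]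
  rw [e1, e2, Subgroup.relIndex_map_map_of_injective _ _ h.inj]

/-- The Herbrand index of the quotient in terms of the subgroup `π.ker`. -/
theorem cfh_HexSeq.quot_eq (h : cfh_HexSeq i π f' g' f g f'' g'') :
    (g.range ⊔ i.range).relIndex (i.range.comap f) = g''.range.relIndex f''.ker := by
  have e1 : g''.range.comap π = g.range ⊔ i.range := by
    have : g''.range = g.range.map π := by
      ext y
      constructor
      · rintro ⟨z, rfl⟩
        obtain ⟨x, rfl⟩ := h.surj z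
        exact ⟨g x, ⟨x, rfl⟩, h.π_g x⟩
      · rintro ⟨_, ⟨x, rfl⟩, rfl⟩
        exact ⟨π x, (h.π_g x).symm⟩
    rw [this, Subgroup.comap_map_eq, h.exact]
  have e2 : f''.ker.comap π = i.range.comap f := by
    ext x
    rw [Subgroup.mem_comap, Subgroup.mem_comap, MonoidHom.mem_ker, h.exact, MonoidHom.mem_ker,
      h.π_f]
  have e3 := Subgroup.relIndex_comap g''.range π (f''.ker.comap π)
  rw [Subgroup.map_comap_eq, MonoidHom.range_eq_top.2 h.surj, top_inf_eq, e1, e2] at e3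
  exact e3

/-- **Hexagon lemma** for a short exact sequence: multiplicativity of the Herbrand quotient,
`q_f(A) q_g(A') q_g(A'') = q_g(A) q_f(A') q_f(A'')`, `q_f(X) = [ker f : im g]`. -/
theorem cfh_HexSeq.eq (h : cfh_HexSeq i π f' g' f g f'' g'') :
    g.range.relIndex f.ker * f'.range.relIndex g'.ker * f''.range.relIndex g''.ker =
      f.range.relIndex g.ker * g'.range.relIndex f'.ker * g''.range.relIndex f''.ker := by
  have key := cfh_hex_eq f g h.fg h.gf i.range h.map_f_le h.symm.map_f_le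
  rw [h.sub_eq, h.symm.sub_eq, h.quot_eq, h.symm.quot_eq] at key
  exact key

theorem cfh_HexSeq.ne_zero_quot (h : cfh_HexSeq i π f' g' f g f'' g'')
    (h1 : g.range.relIndex f.ker ≠ 0) (h2 : f.range.relIndex g.ker ≠ 0)
    (h3 : g'.range.relIndex f'.ker ≠ 0) (h4 : f'.range.relIndex g'.ker ≠ 0) :
    g''.range.relIndex f''.ker ≠ 0 ∧ f''.range.relIndex g''.ker ≠ 0 := by
  have key := cfh_hex_ne_zero_quot f g h.fg h.gf i.range h.map_f_le h.symm.map_f_le h1 h2
  rw [h.sub_eq, h.symm.sub_eq, h.quot_eq, h.symm.quot_eq] at key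
  exact key h3 h4

theorem cfh_HexSeq.ne_zero_top (h : cfh_HexSeq i π f' g' f g f'' g'')
    (h1 : g''.range.relIndex f''.ker ≠ 0) (h2 : f''.range.relIndex g''.ker ≠ 0)
    (h3 : g'.range.relIndex f'.ker ≠ 0) (h4 : f'.range.relIndex g'.ker ≠ 0) :
    g.range.relIndex f.ker ≠ 0 ∧ f.range.relIndex g.ker ≠ 0 := by
  have key := cfh_hex_ne_zero_top f g h.fg h.gf i.range h.map_f_le h.symm.map_f_le
  rw [h.sub_eq, h.symm.sub_eq, h.quot_eq, h.symm.quot_eq] at key
  exact key h1 h2 h3 h4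

theorem cfh_HexSeq.ne_zero_sub (h : cfh_HexSeq i π f' g' f g f'' g'')
    (h1 : g.range.relIndex f.ker ≠ 0) (h2 : f.range.relIndex g.ker ≠ 0)
    (h3 : g''.range.relIndex f''.ker ≠ 0) (h4 : f''.range.relIndex g''.ker ≠ 0) :
    g'.range.relIndex f'.ker ≠ 0 ∧ f'.range.relIndex g'.ker ≠ 0 := by
  have key := cfh_hex_ne_zero_sub f g h.fg h.gf i.range h.map_f_le h.symm.map_f_le h1 h2
  rw [h.sub_eq, h.symm.sub_eq, h.quot_eq, h.symm.quot_eq] at key
  exact key h3 h4

end ExactSeq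

end Fermat.Agent.Lib.PT
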