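/-
Abstract Herbrand toolkit, part 2: internal direct products, transport along isomorphisms,
trivial cases.  (`cfh_q f g B = [ker f ⊓ B : g B]`.)
-/
import Fermat.Agent.Lib.PT.HexA

set_option autoImplicit false

namespace Fermat.Agent.Lib.PT

section Prod

variable {A : Type*} [CommGroup A]

/-- `cfh_q f g B = [ker f ⊓ B : g B]` (the Herbrand index of a `g`-stable subgroup). -/
noncomputable def cfh_q (f g : A →* A) (B : Subgroup A) : ℕ :=
  (B.map g).relIndex (f.ker ⊓ B)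

theorem cfh_q_top (f g : A →* A) : cfh_q f g ⊤ = g.range.relIndex f.ker := by
  rw [cfh_q, inf_top_eq, MonoidHom.range_eq_map]

theorem cfh_q_bot (f g : A →* A) : cfh_q f g ⊥ = 1 := by
  rw [cfh_q, Subgroup.relIndex_eq_one, Subgroup.map_bot]
  exact inf_le_right

/-- Index of a "product" subgroup inside an internal direct product. -/
theorem cfh_relIndex_sup_sup {B₁ B₂ H₁ K₁ H₂ K₂ : Subgroup A} (hB : B₁ ⊓ B₂ = ⊥)
    (hH₁ : H₁ ≤ K₁) (hK₁ : K₁ ≤ B₁) (hH₂ : H₂ ≤ K₂) (hK₂ : K₂ ≤ B₂) :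
    (H₁ ⊔ H₂).relIndex (K₁ ⊔ K₂) = H₁.relIndex K₁ * H₂.relIndex K₂ := by
  have s1 : (H₁ ⊔ H₂).relIndex (K₁ ⊔ H₂) = H₁.relIndex K₁ := by
    have e : K₁ ⊔ H₂ = (H₁ ⊔ H₂) ⊔ K₁ := by
      rw [sup_comm (H₁ ⊔ H₂), ← sup_assoc, sup_eq_left.mpr hH₁]
    rw [e, cfh_relIndex_sup_eq, sup_inf_assoc_of_le H₂ hH₁]
    have hbot : H₂ ⊓ K₁ = ⊥ := by
      apply le_bot_iff.1
      rw [← hB, inf_comm B₁]
      exact inf_le_inf (hH₂.trans hK₂) hK₁
    rw [hbot, sup_bot_eq]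
  have s2 : (K₁ ⊔ H₂).relIndex (K₁ ⊔ K₂) = H₂.relIndex K₂ := by
    have e : K₁ ⊔ K₂ = (K₁ ⊔ H₂) ⊔ K₂ := by
      rw [sup_assoc, sup_eq_right.mpr hH₂]
    rw [e, cfh_relIndex_sup_eq, sup_comm K₁ H₂, sup_inf_assoc_of_le K₁ hH₂]
    have hbot : K₁ ⊓ K₂ = ⊥ := by
      apply le_bot_iff.1
      rw [← hB]
      exact inf_le_inf hK₁ hK₂
    rw [hbot, sup_bot_eq]
  rw [← s1, ← s2]
  exact (Subgroup.relIndex_mul_relIndex _ _ _ (sup_le_sup_right hH₁ H₂)
    (sup_le_sup_left hH₂ K₁)).symm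

variable (f g : A →* A)

/-- The kernel of `f` on an internal direct product of `f`-stable subgroups. -/
theorem cfh_ker_inf_sup {B₁ B₂ : Subgroup A} (hB : B₁ ⊓ B₂ = ⊥) (h1 : B₁.map f ≤ B₁)
    (h2 : B₂.map f ≤ B₂) : f.ker ⊓ (B₁ ⊔ B₂) = (f.ker ⊓ B₁) ⊔ (f.ker ⊓ B₂) := by
  apply le_antisymm
  · rintro x ⟨hx, hx'⟩
    obtain ⟨a, ha, b, hb, rfl⟩ := Subgroup.mem_sup.1 hx'
    have hfa : f a ∈ B₁ := h1 ⟨a, ha, rfl⟩
    have hfb : f b ∈ B₂ := h2 ⟨b, hb, rfl⟩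
    have hmul : f a * f b = 1 := by
      rw [← map_mul]
      exact hx
    have hfa' : f a ∈ B₁ ⊓ B₂ := by
      refine ⟨hfa, ?_⟩
      rw [eq_inv_of_mul_eq_one_left hmul]
      exact B₂.inv_mem hfb
    rw [hB, Subgroup.mem_bot] at hfa'
    have hfb' : f b = 1 := by
      rw [hfa', one_mul] at hmul
      exact hmul
    exact Subgroup.mem_sup.2 ⟨a, ⟨hfa', ha⟩, b, ⟨hfb', hb⟩, rfl⟩
  · exact sup_le (inf_le_inf_left _ le_sup_left) (inf_le_inf_left _ le_sup_right)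

/-- Herbrand indices are multiplicative on internal direct products of stable subgroups. -/
theorem cfh_q_sup {B₁ B₂ : Subgroup A} (hB : B₁ ⊓ B₂ = ⊥) (hf1 : B₁.map f ≤ B₁)
    (hf2 : B₂.map f ≤ B₂) (hg1 : B₁.map g ≤ B₁) (hg2 : B₂.map g ≤ B₂)
    (hfg : ∀ x, f (g x) = 1) :
    cfh_q f g (B₁ ⊔ B₂) = cfh_q f g B₁ * cfh_q f g B₂ := by
  unfold cfh_q
  rw [cfh_ker_inf_sup f hB hf1 hf2, Subgroup.map_sup]
  refine cfh_relIndex_sup_sup hB (le_inf ?_ hg1) inf_le_right (le_inf ?_ hg2) inf_le_right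
  · rintro _ ⟨x, -, rfl⟩
    exact hfg x
  · rintro _ ⟨x, -, rfl⟩
    exact hfg x

/-- Finite internal direct products. -/
theorem cfh_q_finset_sup {ι : Type*} (s : Finset ι) (B : ι → Subgroup A)
    (hind : ∀ (t : Finset ι) (v : ι), v ∉ t → B v ⊓ (t.sup B) = ⊥)
    (hf : ∀ v, (B v).map f ≤ B v) (hg : ∀ v, (B v).map g ≤ B v)
    (hfg : ∀ x, f (g x) = 1) :
    cfh_q f g (s.sup B) = ∏ v ∈ s, cfh_q f g (B v) := by
  classical
  induction s using Finset.induction_on with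
  | empty => rw [Finset.sup_empty, Finset.prod_empty, cfh_q_bot]
  | insert v t hv ih =>
    rw [Finset.sup_insert, Finset.prod_insert hv, ← ih]
    have stab : ∀ φ : A →* A, (∀ w, (B w).map φ ≤ B w) → (t.sup B).map φ ≤ t.sup B := by
      intro φ hφ
      rw [Subgroup.map_le_iff_le_comap]
      refine Finset.sup_le fun w hw => ?_
      rw [← Subgroup.map_le_iff_le_comap]
      exact (hφ w).trans (Finset.le_sup hw)
    exact cfh_q_sup f g (hind t v hv) (hf v) (stab f hf) (hg v) (stab g hg) hfg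

end Prod

section Transport

variable {A A' : Type*} [CommGroup A] [CommGroup A']

/-- Transport of Herbrand indices along an injective homomorphism. -/
theorem cfh_q_map_of_injective {e : A →* A'} (he : Function.Injective e) {f g : A →* A}
    {f' g' : A' →* A'} (hf : ∀ x, e (f x) = f' (e x)) (hg : ∀ x, e (g x) = g' (e x))
    (B : Subgroup A) : cfh_q f' g' (B.map e) = cfh_q f g B := by
  unfold cfh_q
  have e1 : (B.map e).map g' = (B.map g).map e := by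
    ext y
    constructor
    · rintro ⟨_, ⟨x, hx, rfl⟩, rfl⟩
      exact ⟨g x, ⟨x, hx, rfl⟩, hg x⟩
    · rintro ⟨_, ⟨x, hx, rfl⟩, rfl⟩
      exact ⟨e x, ⟨x, hx, rfl⟩, (hg x).symm⟩
  have e2 : f'.ker ⊓ B.map e = (f.ker ⊓ B).map e := by
    ext y
    constructor
    · rintro ⟨hy, ⟨x, hx, rfl⟩⟩
      refine ⟨x, ⟨?_, hx⟩, rfl⟩
      show f x = 1
      apply he
      rw [hf, map_one]
      exact hy
    · rintro ⟨x, ⟨hx, hxB⟩, rfl⟩
      refine ⟨?_, ⟨x, hxB, rfl⟩⟩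
      show f' (e x) = 1
      rw [← hf, MonoidHom.mem_ker.1 hx, map_one]
  rw [e1, e2, Subgroup.relIndex_map_map_of_injective _ _ he]

/-- Transport of Herbrand indices along an isomorphism. -/
theorem cfh_hq_congr (e : A ≃* A') {f g : A →* A} {f' g' : A' →* A'}
    (hf : ∀ x, e (f x) = f' (e x)) (hg : ∀ x, e (g x) = g' (e x)) :
    g'.range.relIndex f'.ker = g.range.relIndex f.ker := by
  have h := cfh_q_map_of_injective (e := e.toMonoidHom) e.injective hf hg ⊤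
  rw [← cfh_q_top, ← cfh_q_top, ← h]
  congr 1
  ext y
  simp only [Subgroup.mem_top, Subgroup.mem_map, true_and, true_iff]
  exact ⟨e.symm y, e.apply_symm_apply y⟩

end Transport

end Fermat.Agent.Lib.PT
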