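/-
Abstract Herbrand toolkit, part 3: the cyclic pair `(D, N)` attached to an endomorphism `s`
of a commutative group with `s^p = 1`:  `D x = s x / x`,  `N x = ∏_{i<p} s^i x`.
-/
import Fermat.Agent.Lib.PT.HexB

set_option autoImplicit false

namespace Fermat.Agent.Lib.PT

section Cyclic

variable {A A' : Type*} [CommGroup A] [CommGroup A']

/-- `D x = s x / x`. -/
def cfh_D (s : A →* A) : A →* A where
  toFun x := s x / x
  map_one' := by simp
  map_mul' x y := by rw [map_mul, mul_div_mul_comm]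

/-- `N x = ∏_{i<p} s^i x`. -/
def cfh_N (s : A →* A) (p : ℕ) : A →* A where
  toFun x := ∏ i ∈ Finset.range p, (⇑s)^[i] x
  map_one' := by
    refine Finset.prod_eq_one fun i _ => ?_
    exact iterate_map_one s i
  map_mul' x y := by
    rw [← Finset.prod_mul_distrib]
    refine Finset.prod_congr rfl fun i _ => ?_
    exact iterate_map_mul s i x y

@[simp] theorem cfh_D_apply (s : A →* A) (x : A) : cfh_D s x = s x / x := rfl

@[simp] theorem cfh_N_apply (s : A →* A) (p : ℕ) (x : A) :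
    cfh_N s p x = ∏ i ∈ Finset.range p, (⇑s)^[i] x := rfl

theorem cfh_mem_ker_D {s : A →* A} {x : A} : x ∈ (cfh_D s).ker ↔ s x = x := by
  rw [MonoidHom.mem_ker, cfh_D_apply, div_eq_one]

theorem cfh_N_of_fixed {s : A →* A} {x : A} (hx : s x = x) (p : ℕ) : cfh_N s p x = x ^ p := by
  rw [cfh_N_apply]
  have : ∀ i, (⇑s)^[i] x = x := fun i => Function.iterate_fixed hx i
  simp only [this, Finset.prod_const, Finset.card_range]

theorem cfh_s_N (s : A →* A) (p : ℕ) (x : A) :
    s (cfh_N s p x) = ∏ i ∈ Finset.range p, (⇑s)^[i + 1] x := by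
  rw [cfh_N_apply, map_prod]
  refine Finset.prod_congr rfl fun i _ => ?_
  rw [Function.iterate_succ_apply']

theorem cfh_prod_iterate_succ {s : A →* A} {p : ℕ} (hs : ∀ x, (⇑s)^[p] x = x) (x : A) :
    ∏ i ∈ Finset.range p, (⇑s)^[i + 1] x = ∏ i ∈ Finset.range p, (⇑s)^[i] x := by
  have h1 := Finset.prod_range_succ' (fun i => (⇑s)^[i] x) p
  have h2 := Finset.prod_range_succ (fun i => (⇑s)^[i] x) p
  rw [h1] at h2
  simp only [Function.iterate_zero, id_eq, hs] at h2
  exact mul_right_cancel h2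

theorem cfh_D_N {s : A →* A} {p : ℕ} (hs : ∀ x, (⇑s)^[p] x = x) (x : A) :
    cfh_D s (cfh_N s p x) = 1 := by
  rw [cfh_D_apply, div_eq_one, cfh_s_N, cfh_N_apply]
  exact cfh_prod_iterate_succ hs x

theorem cfh_N_D {s : A →* A} {p : ℕ} (hs : ∀ x, (⇑s)^[p] x = x) (x : A) :
    cfh_N s p (cfh_D s x) = 1 := by
  rw [cfh_N_apply]
  have h1 : ∀ i, (⇑s)^[i] (cfh_D s x) = (⇑s)^[i + 1] x / (⇑s)^[i] x := by
    intro i
    rw [cfh_D_apply, iterate_map_div, ← Function.iterate_succ_apply]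
  simp only [h1, Finset.prod_div_distrib]
  rw [div_eq_one]
  exact cfh_prod_iterate_succ hs x

/-- Naturality of `D`. -/
theorem cfh_D_natural {e : A →* A'} {s : A →* A} {s' : A' →* A'}
    (h : ∀ x, e (s x) = s' (e x)) (x : A) : e (cfh_D s x) = cfh_D s' (e x) := by
  rw [cfh_D_apply, cfh_D_apply, map_div, h]

theorem cfh_iterate_natural {e : A →* A'} {s : A →* A} {s' : A' →* A'}
    (h : ∀ x, e (s x) = s' (e x)) (i : ℕ) (x : A) : e ((⇑s)^[i] x) = (⇑s')^[i] (e x) := by
  induction i generalizing x with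
  | zero => rfl
  | succ i ih => rw [Function.iterate_succ_apply, Function.iterate_succ_apply, ih, h]

/-- Naturality of `N`. -/
theorem cfh_N_natural {e : A →* A'} {s : A →* A} {s' : A' →* A'}
    (h : ∀ x, e (s x) = s' (e x)) (p : ℕ) (x : A) : e (cfh_N s p x) = cfh_N s' p (e x) := by
  rw [cfh_N_apply, cfh_N_apply, map_prod]
  exact Finset.prod_congr rfl fun i _ => cfh_iterate_natural h i x

/-- A subgroup stable under `s` is stable under `D` and `N`. -/
theorem cfh_map_D_le {s : A →* A} {B : Subgroup A} (h : B.map s ≤ B) : B.map (cfh_D s) ≤ B := by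
  rintro _ ⟨x, hx, rfl⟩
  exact B.div_mem (h ⟨x, hx, rfl⟩) hx

theorem cfh_iterate_mem {s : A →* A} {B : Subgroup A} (h : B.map s ≤ B) (i : ℕ) {x : A}
    (hx : x ∈ B) : (⇑s)^[i] x ∈ B := by
  induction i generalizing x with
  | zero => exact hx
  | succ i ih => rw [Function.iterate_succ_apply]; exact ih (h ⟨x, hx, rfl⟩)

theorem cfh_map_N_le {s : A →* A} {B : Subgroup A} (h : B.map s ≤ B) (p : ℕ) :
    B.map (cfh_N s p) ≤ B := by
  rintro _ ⟨x, hx, rfl⟩
  rw [cfh_N_apply]
  exact B.prod_mem fun i _ => cfh_iterate_mem h i hx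

end Cyclic

end Fermat.Agent.Lib.PT
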