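/-
S55 / (G4): ABSTRACT CYCLIC ADAPTERS (helper6), in the endomorphism vocabulary of `HexC`
(`s : A →* A` with `s^n = 1`, `D x = s x / x = cfh_D s x`, `N x = ∏_{i<n} s^i x = cfh_N s n x`).

* `ptl_cyc_numeric`, `ptl_cyc_of_first_second` : first inequality `#Ĥ⁰ = p · #Ĥ⁻¹` (both finite) and
  second inequality `#Ĥ⁰ ∣ p` give `Ĥ⁻¹ = 1` (`N.ker ≤ D.range`) and `#Ĥ⁰ = p`.
* COHOMOLOGICALLY TRIVIAL KERNEL: `q : A →* A''` surjective and equivariant, `Ĥ⁰(ker q) = 1`,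
  `Ĥ⁻¹(ker q) = 1`: `ptl_cyc_hm1_quot` / `ptl_cyc_hm1_of_quot` (`Ĥ⁻¹(A) = 1 ↔ Ĥ⁻¹(A'') = 1`) and
  `ptl_cyc_h0_quot` (`[A''^s : N A''] = [A^s : N A]`), with the elementwise lemmas
  `ptl_cyc_map_ker_D`, `ptl_cyc_comap_range_N`.
* `ptl_mulH1_of_cyclic` : for a cyclic group `Γ = ⟨γ⟩`, `γ ^ n = 1`, acting on a commutative group `M`,
  `Ĥ⁻¹ = 1` (`∏_{i<n} γ^i • m = 1 → m = γ • b / b`) implies `H¹ = 1`
  (`IsMulCocycle₁ f → IsMulCoboundary₁ f`).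
-/
import Fermat.Agent.Lib.PT.HexC

set_option autoImplicit false
set_option linter.unusedSectionVars false

namespace Fermat.Agent.Lib.PT

open groupCohomology

section Numeric

/-- `a = p · b`, `a ∣ p`, `a, b ≠ 0` force `a = p` and `b = 1`. -/
theorem ptl_cyc_numeric {a b p : ℕ} (hp : p.Prime) (_hb : b ≠ 0) (hab : a = p * b)
    (hdvd : a ∣ p) : a = p ∧ b = 1 := by
  have hpa : p ∣ a := ⟨b, hab⟩
  have hap : a = p := Nat.dvd_antisymm hdvd hpa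
  refine ⟨hap, ?_⟩
  have h2 : p * b = p * 1 := by rw [← hab, hap, mul_one]
  exact Nat.eq_of_mul_eq_mul_left hp.pos h2

variable {A : Type*} [CommGroup A]

/-- FIRST + SECOND inequality: `#Ĥ⁰ = p · #Ĥ⁻¹` (with `#Ĥ⁻¹ ≠ 0`) and `#Ĥ⁰ ∣ p` give
`Ĥ⁻¹ = 1` and `#Ĥ⁰ = p`. -/
theorem ptl_cyc_of_first_second {p : ℕ} (hp : p.Prime) (N D : A →* A)
    (h1 : D.range.relIndex N.ker ≠ 0)
    (hfirst : N.range.relIndex D.ker = p * D.range.relIndex N.ker)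
    (hsecond : N.range.relIndex D.ker ∣ p) :
    N.ker ≤ D.range ∧ N.range.relIndex D.ker = p := by
  obtain ⟨ha, hb⟩ := ptl_cyc_numeric hp h1 hfirst hsecond
  exact ⟨Subgroup.relIndex_eq_one.mp hb, ha⟩

end Numeric

section Quot

variable {A A'' : Type*} [CommGroup A] [CommGroup A''] {s : A →* A} {s'' : A'' →* A''}
  {q : A →* A''} (hq : Function.Surjective q) (hqs : ∀ x, q (s x) = s'' (q x))
  {n : ℕ} (hs : ∀ x, (⇑s)^[n] x = x)

include hqs in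
lemma ptl_cyc_q_D (x : A) : q (cfh_D s x) = cfh_D s'' (q x) := cfh_D_natural hqs x

include hqs in
lemma ptl_cyc_q_N (x : A) : q (cfh_N s n x) = cfh_N s'' n (q x) := cfh_N_natural hqs n x

include hqs in
lemma ptl_cyc_s_ker {x : A} (hx : x ∈ q.ker) : s x ∈ q.ker := by
  rw [MonoidHom.mem_ker] at hx ⊢
  rw [hqs, hx, map_one]

include hq hqs hs in
/-- `s''^n = 1` on the quotient. -/
lemma ptl_cyc_hs'' (y : A'') : (⇑s'')^[n] y = y := by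
  obtain ⟨x, rfl⟩ := hq y
  rw [← cfh_iterate_natural hqs n x, hs]

include hq hqs hs in
/-- `Ĥ⁻¹(ker q) = 1` ⇒ every `s''`-fixed element of `A''` lifts to an `s`-fixed element of `A`. -/
theorem ptl_cyc_map_ker_D (h1' : (cfh_N s n).ker ⊓ q.ker ≤ q.ker.map (cfh_D s)) :
    (cfh_D s).ker.map q = (cfh_D s'').ker := by
  apply le_antisymm
  · rintro _ ⟨x, (hx : x ∈ (cfh_D s).ker), rfl⟩
    rw [MonoidHom.mem_ker] at hx ⊢
    rw [← ptl_cyc_q_D hqs, hx, map_one]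
  · intro y hy
    obtain ⟨x, rfl⟩ := hq y
    rw [MonoidHom.mem_ker, ← ptl_cyc_q_D hqs] at hy
    have hmem : cfh_D s x ∈ (cfh_N s n).ker ⊓ q.ker :=
      Subgroup.mem_inf.2 ⟨MonoidHom.mem_ker.2 (cfh_N_D hs x), MonoidHom.mem_ker.2 hy⟩
    obtain ⟨a, (ha : a ∈ q.ker), hax⟩ := h1' hmem
    refine ⟨x / a, ?_, ?_⟩
    · show x / a ∈ (cfh_D s).ker
      rw [MonoidHom.mem_ker, map_div, hax, div_self']
    · rw [map_div, (MonoidHom.mem_ker).1 ha, div_one]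

include hq hqs hs in
/-- `Ĥ⁰(ker q) = 1` ⇒ an `s`-fixed element of `A` which is a norm in `A''` is a norm in `A`. -/
theorem ptl_cyc_comap_range_N (h0' : (cfh_D s).ker ⊓ q.ker ≤ q.ker.map (cfh_N s n)) :
    (cfh_N s'' n).range.comap q ⊓ (cfh_D s).ker = (cfh_N s n).range := by
  apply le_antisymm
  · rintro x ⟨(hx1 : x ∈ (cfh_N s'' n).range.comap q), (hx2 : x ∈ (cfh_D s).ker)⟩
    rw [Subgroup.mem_comap] at hx1
    obtain ⟨y'', hy''⟩ := hx1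
    obtain ⟨y, rfl⟩ := hq y''
    rw [← ptl_cyc_q_N hqs] at hy''
    have hmem : x / cfh_N s n y ∈ (cfh_D s).ker ⊓ q.ker := by
      refine Subgroup.mem_inf.2 ⟨?_, ?_⟩
      · rw [MonoidHom.mem_ker, map_div, (MonoidHom.mem_ker).1 hx2, cfh_D_N hs, div_one]
      · rw [MonoidHom.mem_ker, map_div, hy'', div_self']
    obtain ⟨a, _, ha⟩ := h0' hmem
    refine ⟨a * y, ?_⟩
    rw [map_mul, ha, div_mul_cancel]
  · rintro _ ⟨y, rfl⟩
    refine Subgroup.mem_inf.2 ⟨?_, ?_⟩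
    · rw [Subgroup.mem_comap]
      exact ⟨q y, (ptl_cyc_q_N hqs y).symm⟩
    · rw [MonoidHom.mem_ker]
      exact cfh_D_N hs y

include hq hqs hs in
/-- **`#Ĥ⁰` is unchanged by a cohomologically trivial kernel**: `[A''^s : N A''] = [A^s : N A]`. -/
theorem ptl_cyc_h0_quot (h0' : (cfh_D s).ker ⊓ q.ker ≤ q.ker.map (cfh_N s n))
    (h1' : (cfh_N s n).ker ⊓ q.ker ≤ q.ker.map (cfh_D s)) :
    (cfh_N s'' n).range.relIndex (cfh_D s'').ker = (cfh_N s n).range.relIndex (cfh_D s).ker := by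
  rw [← ptl_cyc_map_ker_D hq hqs hs h1', ← Subgroup.relIndex_comap,
    ← Subgroup.inf_relIndex_right, ptl_cyc_comap_range_N hq hqs hs h0']

include hq hqs hs in
/-- `Ĥ⁰(ker q) = 1` and `Ĥ⁻¹(A) = 1` ⇒ `Ĥ⁻¹(A'') = 1`. -/
theorem ptl_cyc_hm1_quot (h0' : (cfh_D s).ker ⊓ q.ker ≤ q.ker.map (cfh_N s n))
    (h : (cfh_N s n).ker ≤ (cfh_D s).range) : (cfh_N s'' n).ker ≤ (cfh_D s'').range := by
  intro y hy
  obtain ⟨x, rfl⟩ := hq y
  rw [MonoidHom.mem_ker, ← ptl_cyc_q_N hqs] at hy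
  have hmem : cfh_N s n x ∈ (cfh_D s).ker ⊓ q.ker :=
    Subgroup.mem_inf.2 ⟨MonoidHom.mem_ker.2 (cfh_D_N hs x), MonoidHom.mem_ker.2 hy⟩
  obtain ⟨a, (ha : a ∈ q.ker), hax⟩ := h0' hmem
  have hxa : x / a ∈ (cfh_N s n).ker := by
    rw [MonoidHom.mem_ker, map_div, hax, div_self']
  obtain ⟨b, hb⟩ := h hxa
  refine ⟨q b, ?_⟩
  rw [← ptl_cyc_q_D hqs, hb, map_div, (MonoidHom.mem_ker).1 ha, div_one]

include hq hqs hs in
/-- `Ĥ⁻¹(ker q) = 1` and `Ĥ⁻¹(A'') = 1` ⇒ `Ĥ⁻¹(A) = 1`. -/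
theorem ptl_cyc_hm1_of_quot (h1' : (cfh_N s n).ker ⊓ q.ker ≤ q.ker.map (cfh_D s))
    (h : (cfh_N s'' n).ker ≤ (cfh_D s'').range) : (cfh_N s n).ker ≤ (cfh_D s).range := by
  intro x hx
  have hqx : q x ∈ (cfh_N s'' n).ker := by
    rw [MonoidHom.mem_ker, ← ptl_cyc_q_N hqs, (MonoidHom.mem_ker).1 hx, map_one]
  obtain ⟨y'', hy''⟩ := h hqx
  obtain ⟨y, rfl⟩ := hq y''
  rw [← ptl_cyc_q_D hqs] at hy''
  have hmem : x / cfh_D s y ∈ (cfh_N s n).ker ⊓ q.ker := by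
    refine Subgroup.mem_inf.2 ⟨?_, ?_⟩
    · rw [MonoidHom.mem_ker, map_div, (MonoidHom.mem_ker).1 hx, cfh_N_D hs, div_one]
    · rw [MonoidHom.mem_ker, map_div, hy'', div_self']
  obtain ⟨a, _, ha⟩ := h1' hmem
  refine ⟨a * y, ?_⟩
  rw [map_mul, ha, div_mul_cancel]

end Quot

section H1

variable {Γ : Type*} [Group Γ] {M : Type*} [CommGroup M] [MulDistribMulAction Γ M]

/-- the value of a 1-cocycle at a power of `γ` -/
lemma ptl_mulCocycle_pow {f : Γ → M} (hf : IsMulCocycle₁ f) (γ : Γ) (i : ℕ) :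
    f (γ ^ i) = ∏ j ∈ Finset.range i, γ ^ j • f γ := by
  induction i with
  | zero =>
    rw [pow_zero, Finset.prod_range_zero]
    have h := hf 1 1
    rw [one_mul, one_smul] at h
    exact (mul_eq_left (a := f 1)).mp h.symm ▸ rfl
  | succ i ih =>
    rw [pow_succ, hf, ih, Finset.prod_range_succ, mul_comm]

/-- **`Ĥ⁻¹ = 1 ⇒ H¹ = 1` for a cyclic group** `Γ = ⟨γ⟩` with `γ ^ n = 1`. -/
theorem ptl_mulH1_of_cyclic (γ : Γ) (hγ : ∀ g : Γ, g ∈ Subgroup.zpowers γ) {n : ℕ}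
    (hn : γ ^ n = 1) (hn0 : n ≠ 0)
    (h : ∀ m : M, (∏ i ∈ Finset.range n, γ ^ i • m) = 1 → ∃ b : M, m = γ • b / b)
    (f : Γ → M) (hf : IsMulCocycle₁ f) : IsMulCoboundary₁ f := by
  have h1 : (∏ i ∈ Finset.range n, γ ^ i • f γ) = 1 := by
    rw [← ptl_mulCocycle_pow hf, hn]
    have := ptl_mulCocycle_pow hf γ 0
    rwa [pow_zero, Finset.prod_range_zero] at this
  obtain ⟨b, hb⟩ := h (f γ) h1
  refine ⟨b, ?_⟩
  have hpow : ∀ i : ℕ, γ ^ i • b / b = f (γ ^ i) := by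
    intro i
    induction i with
    | zero =>
      have := ptl_mulCocycle_pow hf γ 0
      rw [Finset.prod_range_zero] at this
      rw [this, pow_zero, one_smul, div_self']
    | succ i ih =>
      rw [pow_succ, hf, ← ih, hb, smul_div', smul_smul, ← pow_succ, div_mul_div_cancel]
  intro g
  have hfin : IsOfFinOrder γ := isOfFinOrder_iff_pow_eq_one.mpr ⟨n, Nat.pos_of_ne_zero hn0, hn⟩
  obtain ⟨i, rfl⟩ := (hfin.mem_powers_iff_mem_zpowers).mpr (hγ g)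
  exact hpow i

/-- the same with `Ĥ⁻¹ = 1` in the `N.ker ≤ D.range` form, for any homs `N D : M →* M` computing
the norm and `γ - 1`. -/
theorem ptl_mulH1_of_cyclic' (γ : Γ) (hγ : ∀ g : Γ, g ∈ Subgroup.zpowers γ) {n : ℕ}
    (hn : γ ^ n = 1) (hn0 : n ≠ 0) (N D : M →* M)
    (hN : ∀ m, N m = ∏ i ∈ Finset.range n, γ ^ i • m) (hD : ∀ m, D m = γ • m / m)
    (h : N.ker ≤ D.range) (f : Γ → M) (hf : IsMulCocycle₁ f) : IsMulCoboundary₁ f := by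
  refine ptl_mulH1_of_cyclic γ hγ hn hn0 (fun m hm => ?_) f hf
  have : m ∈ N.ker := by rw [MonoidHom.mem_ker, hN, hm]
  obtain ⟨b, hb⟩ := h this
  exact ⟨b, by rw [← hb, hD]⟩

end H1

end Fermat.Agent.Lib.PT
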