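/-
S55 / (G4): the abstract cyclic statement (helper6).  For a finite cyclic group `Γ = ⟨γ⟩` of prime
order `p` acting on a commutative group `M`: the FIRST inequality `#Ĥ⁰ = p · #Ĥ⁻¹` (finite) and
the SECOND inequality `#Ĥ⁰ ∣ p` give `H¹(Γ, M) = 1` and `#H²(Γ, M) = p`
(`ptl_G4_of_inequalities`), via `CycPer` and helper9's `pti_card_H2_cyclic`.
-/
import Fermat.Agent.Lib.PT.CycPer
import Fermat.Agent.Lib.PT.BrauerCyc

set_option autoImplicit false
set_option linter.unusedSectionVars false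

namespace Fermat.Agent.Lib.PT

open groupCohomology

section

variable {Γ : Type} [Group Γ] [Fintype Γ] {M : Type} [CommGroup M] [MulDistribMulAction Γ M]

/-- the product over a cyclic group as a product over the powers of a generator -/
theorem ptl_prod_univ_eq_prod_range {β : Type*} [CommMonoid β] (γ : Γ)
    (hγ : ∀ g : Γ, g ∈ Subgroup.zpowers γ) (F : Γ → β) :
    ∏ g : Γ, F g = ∏ i ∈ Finset.range (orderOf γ), F (γ ^ i) := by
  classical
  rw [← IsCyclic.image_range_orderOf hγ, Finset.prod_image]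
  intro i hi j hj hij
  exact pow_injOn_Iio_orderOf (by simpa using hi) (by simpa using hj) hij

theorem ptl_gA_eq (γ : Γ) (hγ : ∀ g : Γ, g ∈ Subgroup.zpowers γ) (N : M →* M)
    (hN : ∀ m, N m = ∏ i ∈ Finset.range (orderOf γ), γ ^ i • m) : pti_gA Γ (A := M) = N := by
  ext m
  rw [pti_gA_apply, hN, ptl_prod_univ_eq_prod_range γ hγ]

theorem ptl_fA_eq (γ : Γ) (D : M →* M) (hD : ∀ m, D m = γ • m / m) : pti_fA (A := M) γ = D := by
  ext m
  rw [pti_fA_apply, hD]

/-- `#H²(Γ, M) = [M^Γ : N M]` for a cyclic group, with `N`, `D` any homs computing the norm and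
`γ - 1`. -/
theorem ptl_card_H2_cyclic (γ : Γ) (hγ : ∀ g : Γ, g ∈ Subgroup.zpowers γ) (N D : M →* M)
    (hN : ∀ m, N m = ∏ i ∈ Finset.range (orderOf γ), γ ^ i • m) (hD : ∀ m, D m = γ • m / m) :
    Nat.card (groupCohomology (Rep.ofMulDistribMulAction Γ M) 2) = N.range.relIndex D.ker := by
  rw [pti_card_H2_cyclic γ hγ, ptl_gA_eq γ hγ N hN, ptl_fA_eq γ D hD]

/-- **(G4), abstract form**: first + second inequality ⇒ `H¹ = 1` and `#H² = p`. -/
theorem ptl_G4_of_inequalities {p : ℕ} (hp : p.Prime) (γ : Γ)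
    (hγ : ∀ g : Γ, g ∈ Subgroup.zpowers γ) (hcard : Nat.card Γ = p) (N D : M →* M)
    (hN : ∀ m, N m = ∏ i ∈ Finset.range p, γ ^ i • m) (hD : ∀ m, D m = γ • m / m)
    (h1 : D.range.relIndex N.ker ≠ 0)
    (hfirst : N.range.relIndex D.ker = p * D.range.relIndex N.ker)
    (hsecond : N.range.relIndex D.ker ∣ p) :
    (∀ f : Γ → M, IsMulCocycle₁ f → IsMulCoboundary₁ f) ∧
      Nat.card (groupCohomology (Rep.ofMulDistribMulAction Γ M) 2) = p := by
  have hord : orderOf γ = p := by rw [orderOf_eq_card_of_forall_mem_zpowers hγ, hcard]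
  obtain ⟨hm1, h0⟩ := ptl_cyc_of_first_second hp N D h1 hfirst hsecond
  refine ⟨ptl_mulH1_of_cyclic' γ hγ (n := p) (by rw [← hord]; exact pow_orderOf_eq_one γ)
    hp.ne_zero N D hN hD hm1, ?_⟩
  rw [ptl_card_H2_cyclic γ hγ N D (by rw [hord]; exact hN) hD, h0]

/-- variant: only `Ĥ⁻¹ = 1` and `#Ĥ⁰ ∣ m` are known. -/
theorem ptl_G4_of_hm1_h0 {n m : ℕ} (γ : Γ)
    (hγ : ∀ g : Γ, g ∈ Subgroup.zpowers γ) (hcard : Nat.card Γ = n) (hn0 : n ≠ 0) (N D : M →* M)
    (hN : ∀ m, N m = ∏ i ∈ Finset.range n, γ ^ i • m) (hD : ∀ m, D m = γ • m / m)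
    (hm1 : N.ker ≤ D.range) (h0 : N.range.relIndex D.ker ∣ m) :
    (∀ f : Γ → M, IsMulCocycle₁ f → IsMulCoboundary₁ f) ∧
      Nat.card (groupCohomology (Rep.ofMulDistribMulAction Γ M) 2) ∣ m := by
  have hord : orderOf γ = n := by rw [orderOf_eq_card_of_forall_mem_zpowers hγ, hcard]
  refine ⟨ptl_mulH1_of_cyclic' γ hγ (n := n) (by rw [← hord]; exact pow_orderOf_eq_one γ)
    hn0 N D hN hD hm1, ?_⟩
  rw [ptl_card_H2_cyclic γ hγ N D (by rw [hord]; exact hN) hD]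
  exact h0

end

end Fermat.Agent.Lib.PT
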