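/-
Abstract Herbrand toolkit, part 4: decomposition along orthogonal idempotents, and the
"induced module" lemma (trivial cohomology) for a cyclic pair `(D, N)`.
-/
import Fermat.Agent.Lib.PT.HexC

set_option autoImplicit false

namespace Fermat.Agent.Lib.PT

section Idem

variable {A : Type*} [CommGroup A] (f g : A →* A)

/-- Finite internal direct products (version with hypotheses only inside the finset). -/
theorem cfh_q_finset_sup' {ι : Type*} (s : Finset ι) (B : ι → Subgroup A)
    (hind : ∀ t : Finset ι, t ⊆ s → ∀ v ∈ s, v ∉ t → B v ⊓ (t.sup B) = ⊥)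
    (hf : ∀ v ∈ s, (B v).map f ≤ B v) (hg : ∀ v ∈ s, (B v).map g ≤ B v)
    (hfg : ∀ x, f (g x) = 1) :
    cfh_q f g (s.sup B) = ∏ v ∈ s, cfh_q f g (B v) := by
  classical
  have key : ∀ t : Finset ι, t ⊆ s → cfh_q f g (t.sup B) = ∏ v ∈ t, cfh_q f g (B v) := by
    intro t
    induction t using Finset.induction_on with
    | empty => intro _; rw [Finset.sup_empty, Finset.prod_empty, cfh_q_bot]
    | insert v t hv ih =>
      intro hts
      have hvs : v ∈ s := hts (Finset.mem_insert_self v t)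
      have hts' : t ⊆ s := fun w hw => hts (Finset.mem_insert_of_mem hw)
      rw [Finset.sup_insert, Finset.prod_insert hv, ← ih hts']
      have stab : ∀ φ : A →* A, (∀ w ∈ s, (B w).map φ ≤ B w) → (t.sup B).map φ ≤ t.sup B := by
        intro φ hφ
        rw [Subgroup.map_le_iff_le_comap]
        refine Finset.sup_le fun w hw => ?_
        rw [← Subgroup.map_le_iff_le_comap]
        exact (hφ w (hts' hw)).trans (Finset.le_sup hw)
      exact cfh_q_sup f g (hind t hts' v hvs hv) (hf v hvs) (stab f hf) (hg v hvs) (stab g hg) hfg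
  exact key s (Finset.Subset.refl s)

/-- **Decomposition along orthogonal idempotents.**  If `e i` (`i ∈ s`) are pairwise orthogonal
idempotent endomorphisms with product the identity, commuting with `f` and `g`, and `B` is a
subgroup stable under everything, then the Herbrand index of `B` is the product of those of the
pieces `e i B`. -/
theorem cfh_q_of_idempotents {ι : Type*} (s : Finset ι) (e : ι → A →* A)
    (horth : ∀ i ∈ s, ∀ j ∈ s, i ≠ j → ∀ x, e i (e j x) = 1)
    (hidem : ∀ i ∈ s, ∀ x, e i (e i x) = e i x)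
    (hprod : ∀ x, ∏ i ∈ s, e i x = x)
    (hef : ∀ i ∈ s, ∀ x, e i (f x) = f (e i x)) (heg : ∀ i ∈ s, ∀ x, e i (g x) = g (e i x))
    (hfg : ∀ x, f (g x) = 1)
    (B : Subgroup A) (heB : ∀ i ∈ s, B.map (e i) ≤ B) (hfB : B.map f ≤ B) (hgB : B.map g ≤ B) :
    cfh_q f g B = ∏ i ∈ s, cfh_q f g (B.map (e i)) := by
  classical
  have hB : B = s.sup (fun i => B.map (e i)) := by
    apply le_antisymm
    · intro x hx
      rw [← hprod x]
      refine Subgroup.prod_mem _ fun i hi => ?_
      exact (Finset.le_sup (f := fun i => B.map (e i)) hi) ⟨x, hx, rfl⟩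
    · exact Finset.sup_le fun i hi => heB i hi
  have hkill : ∀ i ∈ s, ∀ t : Finset ι, t ⊆ s → i ∉ t →
      ∀ x ∈ t.sup (fun j => B.map (e j)), e i x = 1 := by
    intro i hi t hts hit
    have hle : t.sup (fun j => B.map (e j)) ≤ (e i).ker := by
      refine Finset.sup_le fun j hj => ?_
      rintro _ ⟨y, -, rfl⟩
      rw [MonoidHom.mem_ker]
      exact horth i hi j (hts hj) (fun h => hit (h ▸ hj)) y
    exact fun x hx => hle hx
  conv_lhs => rw [hB]
  refine cfh_q_finset_sup' f g s (fun i => B.map (e i)) ?_ ?_ ?_ hfg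
  · intro t hts v hv hvt
    rw [eq_bot_iff]
    rintro x ⟨⟨y, -, rfl⟩, hx2⟩
    rw [Subgroup.mem_bot, ← hidem v hv y]
    exact hkill v hv t hts hvt _ hx2
  · intro v hv
    rintro _ ⟨_, ⟨y, hy, rfl⟩, rfl⟩
    exact ⟨f y, hfB ⟨y, hy, rfl⟩, hef v hv y⟩
  · intro v hv
    rintro _ ⟨_, ⟨y, hy, rfl⟩, rfl⟩
    exact ⟨g y, hgB ⟨y, hy, rfl⟩, heg v hv y⟩

end Idem

section Induced

variable {A : Type*} [CommGroup A] (s : A →* A)

theorem cfh_N_s {p : ℕ} (hs : ∀ x, (⇑s)^[p] x = x) (x : A) :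
    cfh_N s p (s x) = cfh_N s p x := by
  rw [cfh_N_apply, cfh_N_apply]
  have : ∀ i, (⇑s)^[i] (s x) = (⇑s)^[i + 1] x := fun i => by
    rw [Function.iterate_succ_apply]
  simp only [this]
  exact cfh_prod_iterate_succ hs x

theorem cfh_N_iterate {p : ℕ} (hs : ∀ x, (⇑s)^[p] x = x) (i : ℕ) (x : A) :
    cfh_N s p ((⇑s)^[i] x) = cfh_N s p x := by
  induction i with
  | zero => rfl
  | succ i ih => rw [Function.iterate_succ_apply', cfh_N_s s hs, ih]

/-- `s^i y / y = D (∏_{j<i} s^j y)`. -/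
theorem cfh_iterate_div_eq_D (i : ℕ) (y : A) :
    (⇑s)^[i] y / y = cfh_D s (∏ j ∈ Finset.range i, (⇑s)^[j] y) := by
  rw [cfh_D_apply, map_prod, ← Finset.prod_div_distrib]
  have h := Finset.prod_range_div (fun j => (⇑s)^[j] y) i
  simp only [Function.iterate_zero, id_eq] at h
  rw [← h]
  refine Finset.prod_congr rfl fun j _ => ?_
  rw [Function.iterate_succ_apply']

variable (n : ℕ) (hs : ∀ x, (⇑s)^[n + 1] x = x) (B₀ : Subgroup A)
  (hind : ∀ b : ℕ → A, (∀ i, b i ∈ B₀) →
    ∏ i ∈ Finset.range (n + 1), (⇑s)^[i] (b i) = 1 → ∀ i < n + 1, b i = 1)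

include hs hind in
/-- **Induced modules, degree 0**: a fixed element of `⨁_{i ≤ n} s^i B₀` is a norm from `B₀`. -/
theorem cfh_induced_H0 {x : A} (b : ℕ → A) (hb : ∀ i, b i ∈ B₀)
    (hx : x = ∏ i ∈ Finset.range (n + 1), (⇑s)^[i] (b i)) (hsx : s x = x) :
    x = cfh_N s (n + 1) (b 0) := by
  -- the shifted family
  let b' : ℕ → A := fun i => if i = 0 then b n else b (i - 1)
  have hb' : ∀ i, b' i ∈ B₀ := fun i => by
    simp only [b']
    split_ifs
    · exact hb n
    · exact hb (i - 1)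
  have hsx' : s x = ∏ i ∈ Finset.range (n + 1), (⇑s)^[i] (b' i) := by
    rw [hx, map_prod, Finset.prod_range_succ, Finset.prod_range_succ']
    have h1 : ∀ i, s ((⇑s)^[i] (b i)) = (⇑s)^[i + 1] (b i) := fun i => by
      rw [Function.iterate_succ_apply']
    have h2 : ∀ i, b' (i + 1) = b i := fun i => by simp [b']
    have h3 : b' 0 = b n := by simp [b']
    simp only [h1, h2, h3, hs, Function.iterate_zero, id_eq]
  have hc : ∏ i ∈ Finset.range (n + 1), (⇑s)^[i] (b i / b' i) = 1 := by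
    have : ∀ i, (⇑s)^[i] (b i / b' i) = (⇑s)^[i] (b i) / (⇑s)^[i] (b' i) := fun i =>
      iterate_map_div s i _ _
    simp only [this]
    rw [Finset.prod_div_distrib, ← hx, ← hsx', hsx, div_self']
  have hc' := hind (fun i => b i / b' i) (fun i => B₀.div_mem (hb i) (hb' i)) hc
  have hconst : ∀ i, i < n + 1 → b i = b 0 := by
    intro i
    induction i with
    | zero => intro _; rfl
    | succ i ih =>
      intro hi
      have h1 := hc' (i + 1) hi
      simp only [b', div_eq_one] at h1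
      rw [if_neg (Nat.succ_ne_zero i), Nat.add_sub_cancel] at h1
      rw [h1]
      exact ih (Nat.lt_of_succ_lt hi)
  rw [hx, cfh_N_apply]
  refine Finset.prod_congr rfl fun i hi => ?_
  rw [hconst i (Finset.mem_range.1 hi)]

include hs hind in
/-- **Induced modules, degree -1**: an element of norm one in `⨁_{i ≤ n} s^i B₀` lies in the
image of `D`. -/
theorem cfh_induced_Hm1 {x : A} (b : ℕ → A) (hb : ∀ i, b i ∈ B₀)
    (hx : x = ∏ i ∈ Finset.range (n + 1), (⇑s)^[i] (b i)) (hNx : cfh_N s (n + 1) x = 1)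
    (B' : Subgroup A) (hB' : B₀ ≤ B') (hsB' : B'.map s ≤ B') :
    ∃ y ∈ B', cfh_D s y = x := by
  set c : A := ∏ i ∈ Finset.range (n + 1), b i with hcdef
  have hcB : c ∈ B₀ := B₀.prod_mem fun i _ => hb i
  have hNc : cfh_N s (n + 1) c = 1 := by
    rw [hcdef, map_prod, ← hNx, hx, map_prod]
    exact Finset.prod_congr rfl fun i _ => (cfh_N_iterate s hs i (b i)).symm
  have hc1 : c = 1 := by
    rw [cfh_N_apply] at hNc
    exact hind (fun _ => c) (fun _ => hcB) hNc 0 (Nat.succ_pos n)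
  refine ⟨∏ i ∈ Finset.range (n + 1), ∏ j ∈ Finset.range i, (⇑s)^[j] (b i), ?_, ?_⟩
  · refine B'.prod_mem fun i _ => B'.prod_mem fun j _ => ?_
    exact cfh_iterate_mem hsB' j (hB' (hb i))
  · rw [map_prod]
    have : ∀ i, cfh_D s (∏ j ∈ Finset.range i, (⇑s)^[j] (b i)) = (⇑s)^[i] (b i) / b i :=
      fun i => (cfh_iterate_div_eq_D s i (b i)).symm
    simp only [this]
    rw [Finset.prod_div_distrib, ← hx, ← hcdef, hc1, div_one]

end Induced

end Fermat.Agent.Lib.PT
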