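/-
G3 (first inequality), part A: abstract lemmas.
* the `1`-cocycle of a cyclic group attached to an element of norm one;
* the index of a subgroup cut out by local conditions, `[H : M] = ∏ᵢ [Aᵢ : Nᵢ]`;
* restriction of a cyclic pair to a stable subgroup.
-/
import Fermat.Agent.Lib.PT.HexD
import Fermat.Agent.Lib.PT.LocCycCoh

set_option autoImplicit false

namespace Fermat.Agent.Lib.PT

open groupCohomology

section CycCocycle

variable {Γ : Type*} [Group Γ] {A : Type*} [CommGroup A] [MulDistribMulAction Γ A] {γ : Γ}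

/-- Partial norms `∏_{j<m} γ^j • x`. -/
noncomputable def cfh_partNorm (γ : Γ) (x : A) (m : ℕ) : A := ∏ j ∈ Finset.range m, γ ^ j • x

theorem cfh_partNorm_add (x : A) (m k : ℕ) :
    cfh_partNorm γ x (m + k) = cfh_partNorm γ x m * γ ^ m • cfh_partNorm γ x k := by
  unfold cfh_partNorm
  rw [Finset.prod_range_add, Finset.smul_prod']
  congr 1
  refine Finset.prod_congr rfl fun j _ => ?_
  rw [smul_smul, ← pow_add]

theorem cfh_partNorm_mod {x : A} (hx : cfh_partNorm γ x (orderOf γ) = 1) (m : ℕ) :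
    cfh_partNorm γ x m = cfh_partNorm γ x (m % orderOf γ) := by
  induction m using Nat.strong_induction_on with
  | _ m ih =>
    by_cases hm : m < orderOf γ
    · rw [Nat.mod_eq_of_lt hm]
    · rw [not_lt] at hm
      obtain ⟨k, rfl⟩ := Nat.exists_eq_add_of_le hm
      by_cases hn : orderOf γ = 0
      · rw [hn, Nat.mod_zero]
      · rw [cfh_partNorm_add, hx, one_mul, pow_orderOf_eq_one, one_smul, Nat.add_mod_left]
        exact ih k (by omega)

variable (hγ : ∀ g : Γ, g ∈ Subgroup.zpowers γ) (hn : 0 < orderOf γ)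
include hγ hn

/-- The `1`-cocycle `γ^i ↦ ∏_{j<i} γ^j • x` attached to an element `x` of norm one. -/
theorem cfh_isMulCocycle₁_partNorm {x : A} (hx : cfh_partNorm γ x (orderOf γ) = 1) :
    IsMulCocycle₁ (fun g : Γ => cfh_partNorm γ x (ptl_clog γ g)) := by
  intro g h
  show cfh_partNorm γ x (ptl_clog γ (g * h)) =
    g • cfh_partNorm γ x (ptl_clog γ h) * cfh_partNorm γ x (ptl_clog γ g)
  rw [ptl_clog_mul hγ hn, ← cfh_partNorm_mod hx, cfh_partNorm_add, ptl_pow_clog hγ hn, mul_comm]

omit hγ in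
theorem cfh_partNorm_clog_self {x : A} (hx : cfh_partNorm γ x (orderOf γ) = 1) :
    cfh_partNorm γ x (ptl_clog γ γ) = x := by
  have h1 : ptl_clog γ γ = 1 % orderOf γ := by
    have := ptl_clog_pow hn 1 (τ := γ)
    rwa [pow_one] at this
  rw [h1, ← cfh_partNorm_mod hx]
  simp [cfh_partNorm]

/-- For a cyclic group, `H¹ = 0` (in cocycle form, on a subgroup `B` of the module) gives
`ker N ≤ im D`. -/
theorem cfh_exists_div_of_H1 (B : Subgroup A) (hB : ∀ (g : Γ) (b : A), b ∈ B → g • b ∈ B)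
    (hH1 : ∀ z : Γ → A, IsMulCocycle₁ z → (∀ g, z g ∈ B) → ∃ b ∈ B, ∀ g, g • b / b = z g)
    {x : A} (hxB : x ∈ B) (hx : cfh_partNorm γ x (orderOf γ) = 1) :
    ∃ b ∈ B, γ • b / b = x := by
  obtain ⟨b, hb, hbz⟩ := hH1 _ (cfh_isMulCocycle₁_partNorm hγ hn hx) (fun g => by
    unfold cfh_partNorm
    exact B.prod_mem fun j _ => hB _ _ hxB)
  refine ⟨b, hb, ?_⟩
  rw [hbz γ, cfh_partNorm_clog_self hn hx]

end CycCocycle

section LocalIndex

variable {G : Type*} [CommGroup G] {ι : Type*} [Fintype ι] {A : ι → Type*}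
  [∀ i, CommGroup (A i)]

/-- **Index of a subgroup cut out by local conditions.**  If `ev i : G → A i` have sections
`loc i` landing in `H`, with `ev j ∘ loc i` trivial for `i ≠ j`, then
`[H : {g ∈ H | ∀ i, ev i g ∈ N i}] = ∏ i, [A i : N i]`. -/
theorem cfh_relIndex_eq_prod_index (ev : ∀ i, G →* A i) (loc : ∀ i, A i →* G)
    (Nn : ∀ i, Subgroup (A i)) (H M : Subgroup G)
    (hev : ∀ i a, ev i (loc i a) = a) (hne : ∀ i j, i ≠ j → ∀ a, ev j (loc i a) = 1)
    (hloc : ∀ i a, loc i a ∈ H)
    (hM : ∀ g, g ∈ M ↔ g ∈ H ∧ ∀ i, ev i g ∈ Nn i) :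
    M.relIndex H = ∏ i, (Nn i).index := by
  classical
  -- the evaluation map
  let Ψ : H →* (∀ i, A i ⧸ Nn i) :=
    { toFun := fun g i => QuotientGroup.mk (ev i (g : G))
      map_one' := by funext i; simp
      map_mul' := fun g h => by funext i; simp }
  have hΨ : ∀ (g : H) i, Ψ g i = QuotientGroup.mk (ev i (g : G)) := fun _ _ => rfl
  have hsurj : Function.Surjective Ψ := by
    intro y
    choose a ha using fun i => QuotientGroup.mk_surjective (y i)
    refine ⟨⟨∏ i, loc i (a i), H.prod_mem fun i _ => hloc i (a i)⟩, ?_⟩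
    funext j
    rw [hΨ]
    show QuotientGroup.mk (ev j (∏ i, loc i (a i))) = y j
    rw [map_prod, Finset.prod_eq_single j, hev, ha]
    · intro i _ hij
      exact hne i j hij (a i)
    · intro h; exact absurd (Finset.mem_univ j) h
  have hker : Ψ.ker = M.subgroupOf H := by
    ext g
    rw [MonoidHom.mem_ker, Subgroup.mem_subgroupOf, hM]
    constructor
    · intro h
      refine ⟨g.2, fun i => ?_⟩
      have := congrFun h i
      rw [hΨ] at this
      exact (QuotientGroup.eq_one_iff _).1 this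
    · rintro ⟨-, h⟩
      funext i
      rw [hΨ]
      exact (QuotientGroup.eq_one_iff _).2 (h i)
  rw [Subgroup.relIndex, ← hker, Subgroup.index_ker, MonoidHom.range_eq_top.2 hsurj,
    Nat.card_congr (Subgroup.topEquiv (G := ∀ i, A i ⧸ Nn i)).toEquiv, Nat.card_pi]
  rfl

end LocalIndex

section Restrict

variable {A : Type*} [CommGroup A]

/-- Restriction of an endomorphism to a stable subgroup. -/
def cfh_resEnd (s : A →* A) (B : Subgroup A) (hB : B.map s ≤ B) : B →* B where
  toFun b := ⟨s (b : A), hB ⟨(b : A), b.2, rfl⟩⟩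
  map_one' := Subtype.ext (map_one s)
  map_mul' a b := Subtype.ext (map_mul s (a : A) (b : A))

@[simp] theorem cfh_resEnd_coe (s : A →* A) (B : Subgroup A) (hB : B.map s ≤ B) (b : B) :
    ((cfh_resEnd s B hB b : B) : A) = s (b : A) := rfl

/-- The Herbrand index of a stable subgroup, computed intrinsically. -/
theorem cfh_q_resEnd (s : A →* A) (p : ℕ) (B : Subgroup A) (hB : B.map s ≤ B) :
    (cfh_N (cfh_resEnd s B hB) p).range.relIndex (cfh_D (cfh_resEnd s B hB)).ker =
      cfh_q (cfh_D s) (cfh_N s p) B := by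
  have h := cfh_q_map_of_injective (e := B.subtype) B.subtype_injective
    (f := cfh_D (cfh_resEnd s B hB)) (g := cfh_N (cfh_resEnd s B hB) p)
    (f' := cfh_D s) (g' := cfh_N s p)
    (fun x => cfh_D_natural (e := B.subtype) (fun y => rfl) x)
    (fun x => cfh_N_natural (e := B.subtype) (fun y => rfl) p x) ⊤
  rw [← cfh_q_top, ← h, ← MonoidHom.range_eq_map, Subgroup.range_subtype]

theorem cfh_q_resEnd' (s : A →* A) (p : ℕ) (B : Subgroup A) (hB : B.map s ≤ B) :
    (cfh_D (cfh_resEnd s B hB)).range.relIndex (cfh_N (cfh_resEnd s B hB) p).ker =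
      cfh_q (cfh_N s p) (cfh_D s) B := by
  have h := cfh_q_map_of_injective (e := B.subtype) B.subtype_injective
    (g := cfh_D (cfh_resEnd s B hB)) (f := cfh_N (cfh_resEnd s B hB) p)
    (g' := cfh_D s) (f' := cfh_N s p)
    (fun x => cfh_N_natural (e := B.subtype) (fun y => rfl) p x)
    (fun x => cfh_D_natural (e := B.subtype) (fun y => rfl) x) ⊤
  rw [← cfh_q_top, ← h, ← MonoidHom.range_eq_map, Subgroup.range_subtype]

end Restrict

end Fermat.Agent.Lib.PT
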