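/-
G3 (first inequality), part B: the cyclic pair `(D, N)` on the idele group of the embedding
model, fixed points and norms of `T`-ideles.
-/
import Fermat.Agent.Lib.PT.FirstA
import Fermat.Agent.Lib.PT.GModDescent

set_option autoImplicit false
set_option linter.unusedSectionVars false
set_option linter.unusedVariables false
set_option linter.style.haveILetI false

noncomputable section

namespace Fermat.Agent.Lib.PT

open groupCohomology

variable {F K : Type*} [Field F] [Field K] [Algebra F K]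
variable {Γ : Type*} [Group Γ] [MulSemiringAction Γ K]

variable (K) in
/-- The action of `γ` on the idele group, as a homomorphism. -/
def cfh_sJ (γ : Γ) : ptj_J K →* ptj_J K := MulDistribMulAction.toMonoidHom (ptj_J K) γ

@[simp] theorem cfh_sJ_apply (γ : Γ) (f : ptj_J K) : cfh_sJ K γ f = γ • f := rfl

theorem cfh_sJ_iterate (γ : Γ) (i : ℕ) (f : ptj_J K) : (⇑(cfh_sJ K γ))^[i] f = γ ^ i • f := by
  induction i with
  | zero => simp
  | succ i ih => rw [Function.iterate_succ_apply', ih, cfh_sJ_apply, smul_smul, ← pow_succ']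

theorem cfh_N_sJ (γ : Γ) (n : ℕ) (f : ptj_J K) :
    cfh_N (cfh_sJ K γ) n f = cfh_partNorm γ f n := by
  rw [cfh_N_apply, cfh_partNorm]
  exact Finset.prod_congr rfl fun i _ => cfh_sJ_iterate γ i f

theorem cfh_sJ_iterate_orderOf (γ : Γ) (f : ptj_J K) :
    (⇑(cfh_sJ K γ))^[orderOf γ] f = f := by
  rw [cfh_sJ_iterate, pow_orderOf_eq_one, one_smul]

theorem cfh_map_sJ_JT (γ : Γ) (T : Finset Nat.Primes) :
    (ptj_JT K T).map (cfh_sJ K γ) ≤ ptj_JT K T := by
  rintro _ ⟨f, hf, rfl⟩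
  exact ptj_smul_mem_JT γ hf

theorem cfh_map_sJ_UT (γ : Γ) (T : Finset Nat.Primes) :
    (ptj_UT K T).map (cfh_sJ K γ) ≤ ptj_UT K T := by
  rintro _ ⟨f, hf, rfl⟩
  exact ptj_smul_mem_UT γ hf

/-- An element fixed by a generator is fixed by everything. -/
theorem cfh_smul_eq_of_generator {γ : Γ} (hγ : ∀ g : Γ, g ∈ Subgroup.zpowers γ) {f : ptj_J K}
    (hf : γ • f = f) (g : Γ) : g • f = f := by
  have hle : Subgroup.zpowers γ ≤ MulAction.stabilizer Γ f := by
    rw [Subgroup.zpowers_le, MulAction.mem_stabilizer_iff]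
    exact hf
  exact MulAction.mem_stabilizer_iff.1 (hle (hγ g))

variable [Finite Γ] [IsGaloisGroup Γ F K]

/-- `N = up ∘ norm` for a generator of a finite cyclic group. -/
theorem cfh_N_sJ_eq_up_norm {γ : Γ} (hγ : ∀ g : Γ, g ∈ Subgroup.zpowers γ) (f : ptj_J K) :
    cfh_N (cfh_sJ K γ) (orderOf γ) f = ptj_up F K (ptj_norm F Γ f) := by
  classical
  haveI : Fintype Γ := Fintype.ofFinite Γ
  have hn : 0 < orderOf γ := orderOf_pos γ
  rw [ptj_up_norm, ptj_normJ_apply, finprod_eq_prod_of_fintype, cfh_N_sJ,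
    ← ptl_cycNorm_eq_prod hγ hn f]
  rfl

/-- The fixed `T`-ideles are the `T`-ideles of the base field. -/
theorem cfh_ker_D_inf_JT {γ : Γ} (hγ : ∀ g : Γ, g ∈ Subgroup.zpowers γ)
    (T : Finset Nat.Primes) :
    (cfh_D (cfh_sJ K γ)).ker ⊓ ptj_JT K T = (ptj_JT F T).map (ptj_up F K) := by
  haveI : FiniteDimensional F K := IsGaloisGroup.finiteDimensional Γ F K
  ext f
  constructor
  · rintro ⟨h1, h2⟩
    have hfix : γ • f = f := cfh_mem_ker_D.1 h1
    obtain ⟨g, rfl⟩ := (ptj_mem_range_up_iff (F := F) (Γ := Γ) f).2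
      (cfh_smul_eq_of_generator hγ hfix)
    exact ⟨g, ptj_up_mem_JT_iff.1 h2, rfl⟩
  · rintro ⟨g, hg, rfl⟩
    refine ⟨cfh_mem_ker_D.2 ?_, ptj_up_mem_JT hg⟩
    exact ptj_smul_up γ g

theorem cfh_map_N_JT {γ : Γ} (hγ : ∀ g : Γ, g ∈ Subgroup.zpowers γ) (B : Subgroup (ptj_J K)) :
    B.map (cfh_N (cfh_sJ K γ) (orderOf γ)) = (B.map (ptj_norm F Γ)).map (ptj_up F K) := by
  ext f
  constructor
  · rintro ⟨x, hx, rfl⟩
    exact ⟨ptj_norm F Γ x, ⟨x, hx, rfl⟩, (cfh_N_sJ_eq_up_norm hγ x).symm⟩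
  · rintro ⟨_, ⟨x, hx, rfl⟩, rfl⟩
    exact ⟨x, hx, cfh_N_sJ_eq_up_norm hγ x⟩

/-- `Ĥ⁰(Γ, J_{K,T}) = J_{F,T} / N J_{K,T}` in index form. -/
theorem cfh_q_D_N_JT {γ : Γ} (hγ : ∀ g : Γ, g ∈ Subgroup.zpowers γ) (T : Finset Nat.Primes) :
    cfh_q (cfh_D (cfh_sJ K γ)) (cfh_N (cfh_sJ K γ) (orderOf γ)) (ptj_JT K T) =
      ((ptj_JT K T).map (ptj_norm F Γ)).relIndex (ptj_JT F T) := by
  haveI : FiniteDimensional F K := IsGaloisGroup.finiteDimensional Γ F K
  rw [cfh_q, cfh_ker_D_inf_JT (F := F) hγ, cfh_map_N_JT (F := F) hγ,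
    Subgroup.relIndex_map_map_of_injective _ _ (ptj_up_injective (F := F) (K := K))]

end Fermat.Agent.Lib.PT

end
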