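/-
G3 (first inequality), part C: the cohomologically trivial pieces.
* `Ĥ⁻¹(Γ, J_{K,T}) = 1` and `Ĥ⁻¹(Γ, U_{K,T}) = 1` in index form (from `H¹ = 0`);
* `Ĥ⁰(Γ, U_{K,T}) = 1` in index form (from the norm theorem), through the operator killing the
  `T`-components of an idele.
-/
import Fermat.Agent.Lib.PT.FirstB
import Fermat.Agent.Lib.PT.GModH1
import Fermat.Agent.Lib.PT.GModNorm

set_option autoImplicit false
set_option linter.unusedSectionVars false
set_option linter.unusedVariables false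
set_option linter.style.haveILetI false

noncomputable section

namespace Fermat.Agent.Lib.PT

open groupCohomology

section Kill

variable {K : Type*} [Field K]

open Classical in
/-- Kill the components of an idele at the primes of `T`. -/
def cfh_killAmb (T : Finset Nat.Primes) (f : ptj_Amb K) : ptj_Amb K :=
  fun q => if q ∈ T then 1 else f q

theorem cfh_killAmb_of_mem {T : Finset Nat.Primes} (f : ptj_Amb K) {q : Nat.Primes} (hq : q ∈ T) :
    cfh_killAmb T f q = 1 := by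
  unfold cfh_killAmb
  rw [if_pos hq]

theorem cfh_killAmb_of_notMem {T : Finset Nat.Primes} (f : ptj_Amb K) {q : Nat.Primes}
    (hq : q ∉ T) : cfh_killAmb T f q = f q := by
  unfold cfh_killAmb
  rw [if_neg hq]

theorem cfh_killAmb_mem_J (T : Finset Nat.Primes) {f : ptj_Amb K} (hf : f ∈ ptj_J K) :
    cfh_killAmb T f ∈ ptj_J K := by
  refine ⟨fun q => ?_, hf.2.mono fun q hq => ?_⟩
  · by_cases h : q ∈ T
    · rw [cfh_killAmb_of_mem f h]
      exact (ptj_Jq K q).one_mem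
    · rw [cfh_killAmb_of_notMem f h]
      exact hf.1 q
  · by_cases h : q ∈ T
    · intro σ
      rw [cfh_killAmb_of_mem f h]
      simp
    · intro σ
      rw [cfh_killAmb_of_notMem f h]
      exact hq σ

variable (K) in
/-- Kill the `T`-components, as an endomorphism of the idele group. -/
def cfh_killT (T : Finset Nat.Primes) : ptj_J K →* ptj_J K where
  toFun f := ⟨cfh_killAmb T (f : ptj_Amb K), cfh_killAmb_mem_J T f.2⟩
  map_one' := by
    apply Subtype.ext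
    funext q
    by_cases h : q ∈ T
    · exact cfh_killAmb_of_mem _ h
    · exact cfh_killAmb_of_notMem _ h
  map_mul' f g := by
    apply Subtype.ext
    funext q
    by_cases h : q ∈ T
    · show cfh_killAmb T _ q = cfh_killAmb T _ q * cfh_killAmb T _ q
      rw [cfh_killAmb_of_mem _ h, cfh_killAmb_of_mem _ h, cfh_killAmb_of_mem _ h, mul_one]
    · show cfh_killAmb T _ q = cfh_killAmb T _ q * cfh_killAmb T _ q
      rw [cfh_killAmb_of_notMem _ h, cfh_killAmb_of_notMem _ h, cfh_killAmb_of_notMem _ h]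
      rfl

theorem cfh_killT_coe (T : Finset Nat.Primes) (f : ptj_J K) :
    ((cfh_killT K T f : ptj_J K) : ptj_Amb K) = cfh_killAmb T (f : ptj_Amb K) := rfl

theorem cfh_killT_mem_UT {T : Finset Nat.Primes} {f : ptj_J K} (hf : f ∈ ptj_JT K T) :
    cfh_killT K T f ∈ ptj_UT K T := by
  refine ⟨fun q hq => ?_, fun q hq σ => ?_⟩
  · rw [cfh_killT_coe, cfh_killAmb_of_mem _ hq]
  · rw [cfh_killT_coe, cfh_killAmb_of_notMem _ hq]
    exact hf q hq σ

theorem cfh_killT_of_mem_UT {T : Finset Nat.Primes} {f : ptj_J K} (hf : f ∈ ptj_UT K T) :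
    cfh_killT K T f = f := by
  apply Subtype.ext
  funext q
  by_cases h : q ∈ T
  · rw [cfh_killT_coe, cfh_killAmb_of_mem _ h, hf.1 q h]
  · rw [cfh_killT_coe, cfh_killAmb_of_notMem _ h]

variable {Γ : Type*} [Group Γ] [MulSemiringAction Γ K]

theorem cfh_killT_smul (T : Finset Nat.Primes) (γ : Γ) (f : ptj_J K) :
    cfh_killT K T (γ • f) = γ • cfh_killT K T f := by
  apply Subtype.ext
  funext q σ
  by_cases h : q ∈ T
  · show cfh_killAmb T ((γ • f : ptj_J K) : ptj_Amb K) q σ =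
      cfh_killAmb T (f : ptj_Amb K) q (ptj_pre γ σ)
    rw [cfh_killAmb_of_mem _ h, cfh_killAmb_of_mem _ h]
    rfl
  · show cfh_killAmb T ((γ • f : ptj_J K) : ptj_Amb K) q σ =
      cfh_killAmb T (f : ptj_Amb K) q (ptj_pre γ σ)
    rw [cfh_killAmb_of_notMem _ h, cfh_killAmb_of_notMem _ h]
    rfl

theorem cfh_killT_sJ (T : Finset Nat.Primes) (γ : Γ) (f : ptj_J K) :
    cfh_killT K T (cfh_sJ K γ f) = cfh_sJ K γ (cfh_killT K T f) := by
  rw [cfh_sJ_apply, cfh_sJ_apply]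
  exact cfh_killT_smul T γ f

theorem cfh_killT_N (T : Finset Nat.Primes) (γ : Γ) (n : ℕ) (f : ptj_J K) :
    cfh_killT K T (cfh_N (cfh_sJ K γ) n f) = cfh_N (cfh_sJ K γ) n (cfh_killT K T f) :=
  cfh_N_natural (e := cfh_killT K T) (s := cfh_sJ K γ) (s' := cfh_sJ K γ)
    (cfh_killT_sJ (K := K) T γ) n f

end Kill

variable {K : Type*} [Field K]
variable {Γ : Type*} [Group Γ] [MulSemiringAction Γ K] [Finite Γ]

/-- `Ĥ⁻¹(Γ, J_{K,T}) = 1`, in index form. -/
theorem cfh_q_N_D_JT (F : Type*) [Field F] [Algebra F K] [IsGaloisGroup Γ F K] {γ : Γ} (hγ : ∀ g : Γ, g ∈ Subgroup.zpowers γ) (T : Finset Nat.Primes)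
    (hunr : ∀ q, q ∉ T → ∀ σ : ptj_Emb K q, ptj_UnitsH90 Γ σ) :
    cfh_q (cfh_N (cfh_sJ K γ) (orderOf γ)) (cfh_D (cfh_sJ K γ)) (ptj_JT K T) = 1 := by
  rw [cfh_q, Subgroup.relIndex_eq_one]
  rintro x ⟨hx1, hx2⟩
  have hn : 0 < orderOf γ := orderOf_pos γ
  have hx : cfh_partNorm γ x (orderOf γ) = 1 := by
    rw [← cfh_N_sJ]
    exact hx1
  obtain ⟨b, hb, hbx⟩ := cfh_exists_div_of_H1 hγ hn (ptj_JT K T)
    (fun g b hb => ptj_smul_mem_JT g hb)
    (fun z hz hzT => ptj_H1_JT F T hunr hz hzT) hx2 hx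
  exact ⟨b, hb, hbx⟩

/-- `Ĥ⁻¹(Γ, U_{K,T}) = 1`, in index form. -/
theorem cfh_q_N_D_UT (F : Type*) [Field F] [Algebra F K] [IsGaloisGroup Γ F K] {γ : Γ} (hγ : ∀ g : Γ, g ∈ Subgroup.zpowers γ) (T : Finset Nat.Primes)
    (hunr : ∀ q, q ∉ T → ∀ σ : ptj_Emb K q, ptj_UnitsH90 Γ σ) :
    cfh_q (cfh_N (cfh_sJ K γ) (orderOf γ)) (cfh_D (cfh_sJ K γ)) (ptj_UT K T) = 1 := by
  rw [cfh_q, Subgroup.relIndex_eq_one]
  rintro x ⟨hx1, hx2⟩
  have hn : 0 < orderOf γ := orderOf_pos γ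
  have hx : cfh_partNorm γ x (orderOf γ) = 1 := by
    rw [← cfh_N_sJ]
    exact hx1
  obtain ⟨b, hb, hbx⟩ := cfh_exists_div_of_H1 hγ hn (ptj_UT K T)
    (fun g b hb => ptj_smul_mem_UT g hb)
    (fun z hz hzT => ptj_H1_UT F T hunr hz hzT) hx2 hx
  exact ⟨b, hb, hbx⟩

/-- An invariant element of `U_{K,T}` comes from `U_{F,T}` (no characteristic hypotheses). -/
theorem cfh_exists_up_UT (F : Type*) [Field F] [Algebra F K] [IsGaloisGroup Γ F K]
    {T : Finset Nat.Primes} {u : ptj_J K} (hu : u ∈ ptj_UT K T)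
    (hinv : ∀ γ : Γ, γ • u = u) : ∃ v : ptj_J F, v ∈ ptj_UT F T ∧ ptj_up F K v = u := by
  haveI : FiniteDimensional F K := IsGaloisGroup.finiteDimensional Γ F K
  obtain ⟨v, rfl⟩ := (ptj_mem_range_up_iff (F := F) (Γ := Γ) _).2 hinv
  refine ⟨v, ⟨fun q hq => ?_, fun q hq φ => ?_⟩, rfl⟩
  · funext φ
    obtain ⟨σ, rfl⟩ := ptj_resEmb_surjective (K := K) φ
    exact congrFun (hu.1 q hq) σ
  · obtain ⟨σ, rfl⟩ := ptj_resEmb_surjective (K := K) φ
    exact hu.2 q hq σ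

/-- `Ĥ⁰(Γ, U_{K,T}) = 1`, in index form. -/
theorem cfh_q_D_N_UT (F : Type*) [Field F] [Algebra F K] [IsGaloisGroup Γ F K]
    [∀ q, Finite (ptj_Emb F q)] {γ : Γ}
    (hγ : ∀ g : Γ, g ∈ Subgroup.zpowers γ) (T : Finset Nat.Primes)
    (hunr : ∀ q ∉ T, ∀ σ : ptj_Emb K q, ptj_UnitsAreNorms F Γ σ) :
    cfh_q (cfh_D (cfh_sJ K γ)) (cfh_N (cfh_sJ K γ) (orderOf γ)) (ptj_UT K T) = 1 := by
  rw [cfh_q, Subgroup.relIndex_eq_one]
  rintro x ⟨hx1, hx2⟩
  have hfix : γ • x = x := cfh_mem_ker_D.1 hx1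
  obtain ⟨g, hg, rfl⟩ := cfh_exists_up_UT (Γ := Γ) F hx2
    (cfh_smul_eq_of_generator hγ hfix)
  have hloc : ∀ q ∈ T, ∀ σ : ptj_Emb K q,
      ptj_evalAt (ptj_resEmb (F := F) σ) g ∈ (ptj_locNorm F Γ σ).range := by
    intro q hq σ
    have : ptj_evalAt (ptj_resEmb (F := F) σ) g = 1 := by
      apply Subtype.ext
      rw [ptj_evalAt_coe, hg.1 q hq]
      rfl
    rw [this]
    exact Subgroup.one_mem _
  obtain ⟨f, hf, hfg⟩ := ptj_exists_norm_eq (Γ := Γ) T (ptj_UT_le_JT T hg) hloc hunr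
  refine ⟨cfh_killT K T f, cfh_killT_mem_UT hf, ?_⟩
  rw [← cfh_killT_N (K := K), cfh_N_sJ_eq_up_norm (F := F) hγ, hfg]
  exact cfh_killT_of_mem_UT (ptj_up_mem_UT hg)

end Fermat.Agent.Lib.PT

end
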