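/-
Dictionary (P), part C: relative situation `F ⊂ K`: restriction of embeddings and the prime
below, the Galois action on embeddings and on primes, decomposition groups vs. splitting.
-/
import Fermat.Agent.Lib.PT.PlaceB
import Fermat.Agent.Lib.PT.GModGal

set_option autoImplicit false
set_option linter.unusedSectionVars false

noncomputable section

namespace Fermat.Agent.Lib.PT

open IsDedekindDomain NumberField

variable {F K : Type*} [Field F] [NumberField F] [Field K] [NumberField K] [Algebra F K]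

/-- The prime of the restricted embedding is the prime below. -/
theorem cfh_primeOf_resEmb {q : Nat.Primes} (σ : ptj_Emb K q) :
    cfh_primeOf (ptj_resEmb (F := F) σ) = cfh_under F (cfh_primeOf σ) := by
  apply HeightOneSpectrum.ext
  ext x
  rw [cfh_mem_primeOf]
  show _ ↔ x ∈ (cfh_primeOf σ).asIdeal.under (𝓞 F)
  rw [Ideal.under_def, Ideal.mem_comap, cfh_mem_primeOf]
  rfl

/-- The Galois action on embeddings versus the Galois action on primes. -/
theorem cfh_primeOf_pre {q : Nat.Primes} (γ : K ≃ₐ[F] K) (σ : ptj_Emb K q) :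
    cfh_primeOf (ptj_pre γ σ) = cfh_mapPrime (cfh_galO γ).symm (cfh_primeOf σ) := by
  apply HeightOneSpectrum.ext
  ext x
  rw [cfh_mem_primeOf]
  show _ ↔ (cfh_galO γ).symm.symm x ∈ (cfh_primeOf σ).asIdeal
  rw [RingEquiv.symm_symm, cfh_mem_primeOf]
  rfl

theorem cfh_resEmb_pre {q : Nat.Primes} (γ : K ≃ₐ[F] K) (σ : ptj_Emb K q) :
    ptj_resEmb (F := F) (ptj_pre γ σ) = ptj_resEmb σ := by
  ext x
  show σ (γ • (algebraMap F K x)) = σ (algebraMap F K x)
  rw [AlgEquiv.smul_def, AlgEquiv.commutes]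

/-- If there is only one prime above `v`, the decomposition group is everything. -/
theorem cfh_mem_decomp_of_ncard_eq_one {q : Nat.Primes} (σ : ptj_Emb K q)
    (h : (cfh_above F K (cfh_primeOf (ptj_resEmb (F := F) σ))).ncard = 1) (γ : K ≃ₐ[F] K) :
    γ ∈ ptj_decomp (K ≃ₐ[F] K) σ := by
  obtain ⟨w, hw⟩ := Set.ncard_eq_one.1 h
  have h1 : cfh_primeOf σ ∈ cfh_above F K (cfh_primeOf (ptj_resEmb (F := F) σ)) := by
    rw [cfh_primeOf_resEmb]
    exact cfh_liesOver_under F _
  have h2 : cfh_primeOf (ptj_pre γ σ) ∈ cfh_above F K (cfh_primeOf (ptj_resEmb (F := F) σ)) := by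
    rw [← cfh_resEmb_pre γ σ, cfh_primeOf_resEmb]
    exact cfh_liesOver_under F _
  rw [hw, Set.mem_singleton_iff] at h1 h2
  obtain ⟨τ, hτ⟩ := cfh_exists_post_eq_of_primeOf_eq (h2.trans h1.symm)
  exact ⟨τ, hτ.symm⟩

/-- If the decomposition group of `σ` is everything, there is only one prime above the prime
of `σ|F`. -/
theorem cfh_ncard_eq_one_of_decomp_eq_top [IsGalois F K] {q : Nat.Primes} (σ : ptj_Emb K q)
    (h : ∀ γ : K ≃ₐ[F] K, γ ∈ ptj_decomp (K ≃ₐ[F] K) σ) :
    (cfh_above F K (cfh_primeOf (ptj_resEmb (F := F) σ))).ncard = 1 := by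
  rw [Set.ncard_eq_one]
  refine ⟨cfh_primeOf σ, ?_⟩
  ext w
  rw [Set.mem_singleton_iff]
  constructor
  · intro hw
    have hG : IsGaloisGroup Gal(K/F) (𝓞 F) (𝓞 K) :=
      IsGaloisGroup.of_isFractionRing Gal(K/F) (𝓞 F) (𝓞 K) F K
    have hw' : w.asIdeal.LiesOver (cfh_primeOf (ptj_resEmb (F := F) σ)).asIdeal := hw
    have h1 : (cfh_primeOf σ).asIdeal.LiesOver (cfh_primeOf (ptj_resEmb (F := F) σ)).asIdeal := by
      rw [cfh_primeOf_resEmb]
      exact cfh_liesOver_under F _
    obtain ⟨g, hg⟩ := Ideal.exists_smul_eq_of_isGaloisGroup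
      (cfh_primeOf (ptj_resEmb (F := F) σ)).asIdeal (cfh_primeOf σ).asIdeal w.asIdeal Gal(K/F)
    -- `g⁻¹` is in the decomposition group, so it fixes the prime of `σ`
    obtain ⟨τ, hτ⟩ := h g⁻¹
    have h2 : cfh_primeOf (ptj_pre g⁻¹ σ) = cfh_primeOf σ := by
      rw [hτ, cfh_primeOf_post]
    apply HeightOneSpectrum.ext
    rw [← hg]
    ext x
    rw [Ideal.mem_pointwise_smul_iff_inv_smul_mem]
    conv_rhs => rw [← h2]
    rw [cfh_mem_primeOf, cfh_mem_primeOf]
    rfl
  · rintro rfl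
    show (cfh_primeOf σ).asIdeal.LiesOver (cfh_primeOf (ptj_resEmb (F := F) σ)).asIdeal
    rw [cfh_primeOf_resEmb]
    exact cfh_liesOver_under F _

end Fermat.Agent.Lib.PT

end
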