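/-
Dictionary (P), part D: the primes of `𝓞 K` over a finite set `T` of rational primes, and the
identification of the `T`-units of the embedding model with Mathlib's `S`-units.
-/
import Fermat.Agent.Lib.PT.PlaceC

set_option autoImplicit false
set_option linter.unusedSectionVars false

noncomputable section

namespace Fermat.Agent.Lib.PT

open IsDedekindDomain NumberField

variable {K : Type*} [Field K] [NumberField K]

/-- If a positive integer lies in a prime ideal, so does one of its prime factors. -/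
theorem cfh_exists_prime_dvd_mem (v : HeightOneSpectrum (𝓞 K)) :
    ∀ n : ℕ, n ≠ 0 → ((n : ℕ) : 𝓞 K) ∈ v.asIdeal →
      ∃ q : Nat.Primes, (q : ℕ) ∣ n ∧ ((q : ℕ) : 𝓞 K) ∈ v.asIdeal := by
  intro n
  induction n using Nat.strong_induction_on with
  | _ n ih =>
    intro hn0 hn
    by_cases hn1 : n = 1
    · subst hn1
      rw [Nat.cast_one] at hn
      exact absurd ((Ideal.eq_top_iff_one _).2 hn) v.isPrime.ne_top
    · have hq : (Nat.minFac n).Prime := Nat.minFac_prime hn1
      obtain ⟨m, hm⟩ := Nat.minFac_dvd n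
      have hm0 : m ≠ 0 := by
        rintro rfl
        exact hn0 (by rw [hm, mul_zero])
      have hmn : m < n := by
        have h2 : 2 ≤ Nat.minFac n := hq.two_le
        have hmpos : 0 < m := Nat.pos_of_ne_zero hm0
        calc m = 1 * m := (one_mul m).symm
          _ < Nat.minFac n * m := Nat.mul_lt_mul_of_pos_right (by omega) hmpos
          _ = n := hm.symm
      have hprod : ((Nat.minFac n : ℕ) : 𝓞 K) * ((m : ℕ) : 𝓞 K) ∈ v.asIdeal := by
        rw [← Nat.cast_mul, ← hm]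
        exact hn
      rcases v.isPrime.mem_or_mem hprod with h | h
      · exact ⟨⟨Nat.minFac n, hq⟩, Nat.minFac_dvd n, h⟩
      · obtain ⟨q, hqm, hqv⟩ := ih m hmn hm0 h
        exact ⟨q, hqm.trans (Dvd.intro_left _ hm.symm), hqv⟩

/-- Every prime of `𝓞 K` contains a rational prime. -/
theorem cfh_exists_natPrime_mem (v : HeightOneSpectrum (𝓞 K)) :
    ∃ q : Nat.Primes, ((q : ℕ) : 𝓞 K) ∈ v.asIdeal := by
  have h0 : Ideal.absNorm v.asIdeal ≠ 0 := by
    rw [Ne, Ideal.absNorm_eq_zero_iff]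
    exact v.ne_bot
  obtain ⟨q, -, hq⟩ := cfh_exists_prime_dvd_mem v _ h0 (Ideal.absNorm_mem v.asIdeal)
  exact ⟨q, hq⟩

/-- A prime of `𝓞 K` contains only one rational prime. -/
theorem cfh_natPrime_unique (v : HeightOneSpectrum (𝓞 K)) {q q' : Nat.Primes}
    (hq : ((q : ℕ) : 𝓞 K) ∈ v.asIdeal) (hq' : ((q' : ℕ) : 𝓞 K) ∈ v.asIdeal) : q = q' := by
  by_contra hne
  have hcop : Nat.Coprime (q : ℕ) (q' : ℕ) :=
    (Nat.coprime_primes q.2 q'.2).2 fun h => hne (Subtype.ext h)
  have hb := Nat.Coprime.isCoprime hcop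
  obtain ⟨a, b, hab⟩ := hb
  have h1 : ((a : ℤ) : 𝓞 K) * (((q : ℕ) : ℤ) : 𝓞 K) + ((b : ℤ) : 𝓞 K) * (((q' : ℕ) : ℤ) : 𝓞 K) = 1 := by
    have := congrArg (fun z : ℤ => (z : 𝓞 K)) hab
    simpa using this
  have h2 : (1 : 𝓞 K) ∈ v.asIdeal := by
    rw [← h1]
    refine v.asIdeal.add_mem (v.asIdeal.mul_mem_left _ ?_) (v.asIdeal.mul_mem_left _ ?_)
    · simpa using hq
    · simpa using hq'
  exact v.isPrime.ne_top ((Ideal.eq_top_iff_one _).2 h2)

variable (K) in
open scoped Classical in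
/-- The primes of `𝓞 K` lying over the rational primes in `T`. -/
def cfh_primesOver (T : Finset Nat.Primes) : Finset (HeightOneSpectrum (𝓞 K)) :=
  T.biUnion fun q => Finset.univ.image (fun σ : ptj_Emb K q => cfh_primeOf σ)

theorem cfh_mem_primesOver {T : Finset Nat.Primes} {v : HeightOneSpectrum (𝓞 K)} :
    v ∈ cfh_primesOver K T ↔ ∃ q ∈ T, ((q : ℕ) : 𝓞 K) ∈ v.asIdeal := by
  classical
  simp only [cfh_primesOver, Finset.mem_biUnion, Finset.mem_image, Finset.mem_univ, true_and]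
  constructor
  · rintro ⟨q, hq, σ, rfl⟩
    exact ⟨q, hq, cfh_natCast_mem_primeOf σ⟩
  · rintro ⟨q, hq, hv⟩
    exact ⟨q, hq, cfh_exists_primeOf_eq q v hv⟩

theorem cfh_primeOf_mem_primesOver {T : Finset Nat.Primes} {q : Nat.Primes} (σ : ptj_Emb K q) :
    cfh_primeOf σ ∈ cfh_primesOver K T ↔ q ∈ T := by
  rw [cfh_mem_primesOver]
  constructor
  · rintro ⟨q', hq', h⟩
    rwa [cfh_natPrime_unique _ (cfh_natCast_mem_primeOf σ) h]
  · intro h
    exact ⟨q, h, cfh_natCast_mem_primeOf σ⟩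

/-- **`T`-units**: the `T`-units of the embedding model are Mathlib's `S`-units for
`S = ` primes over `T`. -/
theorem cfh_diag_mem_JT_iff (T : Finset Nat.Primes) (x : Kˣ) :
    ptj_diag K x ∈ ptj_JT K T ↔ x ∈ cfh_SUnit K (cfh_primesOver K T) := by
  constructor
  · intro h v hv
    obtain ⟨q, hq⟩ := cfh_exists_natPrime_mem v
    obtain ⟨σ, rfl⟩ := cfh_exists_primeOf_eq q v hq
    have hqT : q ∉ T := fun hqT => hv ((cfh_primeOf_mem_primesOver σ).2 hqT)
    rw [← cfh_norm_eq_one_iff]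
    exact h q hqT σ
  · intro h q hq σ
    show ‖σ (x : K)‖ = 1
    rw [cfh_norm_eq_one_iff]
    exact h _ fun hmem => hq ((cfh_primeOf_mem_primesOver σ).1 hmem)

/-- The primes over `T` in an extension are the primes above the primes over `T`. -/
theorem cfh_aboveSet_primesOver {F : Type*} [Field F] [NumberField F] [Algebra F K]
    (T : Finset Nat.Primes) : cfh_aboveSet F K (cfh_primesOver F T) = cfh_primesOver K T := by
  ext w
  rw [cfh_mem_aboveSet_iff_under, cfh_mem_primesOver, cfh_mem_primesOver]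
  have key : ∀ q : Nat.Primes, ((q : ℕ) : 𝓞 F) ∈ (cfh_under F w).asIdeal ↔
      ((q : ℕ) : 𝓞 K) ∈ w.asIdeal := by
    intro q
    show ((q : ℕ) : 𝓞 F) ∈ w.asIdeal.under (𝓞 F) ↔ _
    rw [Ideal.under_def, Ideal.mem_comap, map_natCast]
  constructor
  · rintro ⟨q, hq, h⟩
    exact ⟨q, hq, (key q).1 h⟩
  · rintro ⟨q, hq, h⟩
    exact ⟨q, hq, (key q).2 h⟩

end Fermat.Agent.Lib.PT

end
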