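/-
G3 (first inequality), part D: the norm index of the `T`-ideles,
`[J_{F,T} : N J_{K,T}] = ∏_{v ∈ T_F} [F_v^× : N K_w^×]`.
-/
import Fermat.Agent.Lib.PT.FirstC
import Fermat.Agent.Lib.PT.PlaceD

set_option autoImplicit false
set_option linter.unusedSectionVars false
set_option linter.unusedVariables false
set_option linter.style.haveILetI false

noncomputable section

namespace Fermat.Agent.Lib.PT

open IsDedekindDomain NumberField

section Sections

variable {F : Type*} [Field F] [NumberField F]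

/-- Local sections at different primes do not interact. -/
theorem cfh_evalAt_locIncl_of_ne {q q' : Nat.Primes} (φ : ptj_Emb F q) (φ' : ptj_Emb F q')
    (h : cfh_primeOf φ ≠ cfh_primeOf φ') (a : ptj_KσU φ) :
    ptj_evalAt φ' (ptj_locIncl φ a) = 1 := by
  apply Subtype.ext
  rw [ptj_evalAt_coe]
  by_cases hq : q' = q
  · subst hq
    rw [ptj_locIncl_apply_self]
    apply ptj_locFun_of_not
    rintro ⟨τ, rfl⟩
    exact h (cfh_primeOf_post τ φ).symm
  · rw [ptj_locIncl_apply_of_ne _ _ hq]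
    rfl

theorem cfh_locIncl_mem_JT {q : Nat.Primes} {T : Finset Nat.Primes} (hq : q ∈ T)
    (φ : ptj_Emb F q) (a : ptj_KσU φ) : ptj_locIncl φ a ∈ ptj_JT F T := by
  intro q' hq' σ
  have hne : q' ≠ q := fun h => hq' (h ▸ hq)
  rw [ptj_locIncl_apply_of_ne _ _ hne]
  simp

end Sections

variable {F K : Type*} [Field F] [NumberField F] [Field K] [NumberField K] [Algebra F K]
variable {Γ : Type*} [Group Γ] [MulSemiringAction Γ K] [Finite Γ] [IsGaloisGroup Γ F K]

/-- Being a local norm at `σ`, in terms of idele norms. -/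
theorem cfh_mem_range_locNorm_iff {q : Nat.Primes} (g : ptj_J F) (σ : ptj_Emb K q) :
    ptj_evalAt (ptj_resEmb (F := F) σ) g ∈ (ptj_locNorm F Γ σ).range ↔
      ∃ f : ptj_J K, (ptj_norm F Γ f : ptj_Amb F) q (ptj_resEmb σ) =
        (g : ptj_Amb F) q (ptj_resEmb σ) := by
  constructor
  · rintro ⟨a, ha⟩
    refine ⟨ptj_locIncl σ a, ?_⟩
    have := congrArg (fun x : ptj_KσU (ptj_resEmb (F := F) σ) => (x : (ptj_Om q)ˣ)) ha
    exact this
  · rintro ⟨f, hf⟩
    have h1 := ptj_evalAt_norm_mem_range (F := F) (Γ := Γ) f σ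
    have h2 : ptj_evalAt (ptj_resEmb (F := F) σ) (ptj_norm F Γ f) =
        ptj_evalAt (ptj_resEmb (F := F) σ) g := Subtype.ext hf
    rwa [h2] at h1

/-- Being a local norm only depends on the prime of `F` below. -/
theorem cfh_mem_range_locNorm_of_primeOf_eq {q q' : Nat.Primes} (σ : ptj_Emb K q)
    (σ' : ptj_Emb K q')
    (h : cfh_primeOf (ptj_resEmb (F := F) σ) = cfh_primeOf (ptj_resEmb (F := F) σ'))
    (g : ptj_J F) (hg : ptj_evalAt (ptj_resEmb (F := F) σ) g ∈ (ptj_locNorm F Γ σ).range) :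
    ptj_evalAt (ptj_resEmb (F := F) σ') g ∈ (ptj_locNorm F Γ σ').range := by
  have hq : q = q' := by
    apply cfh_natPrime_unique (cfh_primeOf (ptj_resEmb (F := F) σ))
      (cfh_natCast_mem_primeOf _)
    rw [h]
    exact cfh_natCast_mem_primeOf _
  subst hq
  obtain ⟨τ, hτ⟩ := cfh_primeOf_eq_iff.1 h.symm
  obtain ⟨f, hf⟩ := (cfh_mem_range_locNorm_iff (Γ := Γ) g σ).1 hg
  refine (cfh_mem_range_locNorm_iff (Γ := Γ) g σ').2 ⟨f, ?_⟩
  rw [← hτ, (ptj_norm F Γ f).2.1 q τ _, g.2.1 q τ _, hf]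

/-- **The norm index of the `T`-ideles is the product of the local norm indices.**  The local
norm index at `σ` is assumed to be given by a function `d` of the prime of `F` below `σ`. -/
theorem cfh_relIndex_norm_JT (T : Finset Nat.Primes)
    (hunr : ∀ q ∉ T, ∀ σ : ptj_Emb K q, ptj_UnitsAreNorms F Γ σ)
    (d : HeightOneSpectrum (𝓞 F) → ℕ)
    (hd : ∀ (q : Nat.Primes) (σ : ptj_Emb K q),
      (ptj_locNorm F Γ σ).range.index = d (cfh_primeOf (ptj_resEmb (F := F) σ))) :
    ((ptj_JT K T).map (ptj_norm F Γ)).relIndex (ptj_JT F T) =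
      ∏ v ∈ cfh_primesOver F T, d v := by
  classical
  haveI : FiniteDimensional F K := IsGaloisGroup.finiteDimensional Γ F K
  have hex : ∀ v : ↥(cfh_primesOver F T), ∃ (q : Nat.Primes) (_ : q ∈ T) (σ : ptj_Emb K q),
      cfh_primeOf (ptj_resEmb (F := F) σ) = v.1 := by
    intro v
    obtain ⟨q, hq, hv⟩ := cfh_mem_primesOver.1 v.2
    obtain ⟨φ, hφ⟩ := cfh_exists_primeOf_eq q v.1 hv
    obtain ⟨σ, rfl⟩ := ptj_resEmb_surjective (K := K) φ
    exact ⟨q, hq, σ, hφ⟩
  choose q hq σ hσ using hex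
  have key := cfh_relIndex_eq_prod_index (G := ptj_J F) (ι := ↥(cfh_primesOver F T))
    (A := fun v => ptj_KσU (ptj_resEmb (F := F) (σ v)))
    (fun v => ptj_evalAt (ptj_resEmb (F := F) (σ v)))
    (fun v => ptj_locIncl (ptj_resEmb (F := F) (σ v)))
    (fun v => (ptj_locNorm F Γ (σ v)).range) (ptj_JT F T) ((ptj_JT K T).map (ptj_norm F Γ))
    (fun v a => ptj_evalAt_locIncl _ a)
    (fun v w hvw a => cfh_evalAt_locIncl_of_ne _ _ (by
      rw [hσ v, hσ w]
      exact fun h => hvw (Subtype.ext h)) a)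
    (fun v a => cfh_locIncl_mem_JT (hq v) _ a)
    (fun g => by
      constructor
      · rintro ⟨f, hf, rfl⟩
        exact ⟨ptj_norm_mem_JT hf, fun v => ptj_evalAt_norm_mem_range f (σ v)⟩
      · rintro ⟨hg, hloc⟩
        obtain ⟨f, hf, hfg⟩ := ptj_exists_norm_eq (Γ := Γ) T hg (fun q' hq' σ' => by
          have hv : cfh_primeOf (ptj_resEmb (F := F) σ') ∈ cfh_primesOver F T :=
            (cfh_primeOf_mem_primesOver _).2 hq'
          exact cfh_mem_range_locNorm_of_primeOf_eq (σ ⟨_, hv⟩) σ' (hσ ⟨_, hv⟩) g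
            (hloc ⟨_, hv⟩)) hunr
        exact ⟨f, hf, hfg⟩)
  rw [key, ← Finset.prod_coe_sort (cfh_primesOver F T) d]
  refine Finset.prod_congr rfl fun v _ => ?_
  rw [hd, hσ]

end Fermat.Agent.Lib.PT

end
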