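/-
G3 (first inequality), part E: the `T`-units inside the idele group.
* conversion between the additive cyclic pair `(σ - 1, ∑ σ^i)` on `Additive A` and the
  multiplicative pair `(cfh_D s, cfh_N s p)`;
* `E = Kˣ ∩ J_{K,T}` is the image of the `T`-units, with Herbrand indices given by
  `cfh_sUnit_herbrand`.
-/
import Fermat.Agent.Lib.PT.FirstD
import Fermat.Agent.Lib.PT.SUnitE
import Fermat.Agent.Lib.PT.PlaceD

set_option autoImplicit false
set_option linter.unusedSectionVars false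
set_option linter.unusedVariables false
set_option linter.style.haveILetI false

noncomputable section

namespace Fermat.Agent.Lib.PT

open IsDedekindDomain NumberField

section Additive

variable {A : Type*} [CommGroup A]

/-- An endomorphism of `A`, as an element of the endomorphism ring of `Additive A`. -/
def cfh_addEnd (s : A →* A) : AddMonoid.End (Additive A) := MonoidHom.toAdditive s

theorem cfh_addEnd_apply (s : A →* A) (x : Additive A) :
    cfh_addEnd s x = Additive.ofMul (s x.toMul) := rfl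

theorem cfh_addEnd_sub_one (s : A →* A) :
    (cfh_addEnd s - 1 : AddMonoid.End (Additive A)) = MonoidHom.toAdditive (cfh_D s) :=
  DFunLike.ext _ _ fun x => rfl

theorem cfh_addEnd_pow_apply (s : A →* A) (i : ℕ) (x : Additive A) :
    (cfh_addEnd s ^ i) x = Additive.ofMul ((⇑s)^[i] x.toMul) := by
  induction i with
  | zero => rfl
  | succ i ih =>
    rw [pow_succ']
    change cfh_addEnd s ((cfh_addEnd s ^ i) x) = _
    rw [ih, Function.iterate_succ_apply']
    rfl

theorem cfh_addEnd_sum_pow (s : A →* A) (p : ℕ) :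
    (∑ i ∈ Finset.range p, cfh_addEnd s ^ i : AddMonoid.End (Additive A)) =
      MonoidHom.toAdditive (cfh_N s p) := by
  refine DFunLike.ext _ _ fun x => ?_
  have h1 : ((∑ i ∈ Finset.range p, cfh_addEnd s ^ i : AddMonoid.End (Additive A)) :
      Additive A →+ Additive A) x = ∑ i ∈ Finset.range p, (cfh_addEnd s ^ i) x :=
    AddMonoidHom.finsetSum_apply _ _ _
  rw [h1]
  simp only [cfh_addEnd_pow_apply]
  show _ = Additive.ofMul (cfh_N s p x.toMul)
  rw [cfh_N_apply, ofMul_prod]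

theorem cfh_relIndex_toAdditive (f g : A →* A) :
    (AddMonoidHom.range (MonoidHom.toAdditive g)).relIndex
      (AddMonoidHom.ker (MonoidHom.toAdditive f)) = g.range.relIndex f.ker := rfl

end Additive

section Units

variable {F K : Type*} [Field F] [NumberField F] [Field K] [NumberField K] [Algebra F K]

variable (K) in
/-- `E_T = Kˣ ∩ J_{K,T}`, the `T`-units inside the idele group. -/
def cfh_ET (T : Finset Nat.Primes) : Subgroup (ptj_J K) := ptj_principal K ⊓ ptj_JT K T

variable (F K) in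
/-- The diagonal embedding of the `T`-units (in the form used by `cfh_sUnit_herbrand`). -/
def cfh_sUnitDiag (T : Finset Nat.Primes) :
    cfh_SUnit K (cfh_aboveSet F K (cfh_primesOver F T)) →* ptj_J K :=
  (ptj_diag K).comp (Subgroup.subtype _)

theorem cfh_sUnitDiag_apply (T : Finset Nat.Primes)
    (x : cfh_SUnit K (cfh_aboveSet F K (cfh_primesOver F T))) :
    cfh_sUnitDiag F K T x = ptj_diag K (x : Kˣ) := rfl

theorem cfh_sUnitDiag_injective (T : Finset Nat.Primes) :
    Function.Injective (cfh_sUnitDiag F K T) := fun x y h =>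
  Subtype.ext (ptj_diag_injective h)

theorem cfh_sUnitDiag_range (T : Finset Nat.Primes) :
    (cfh_sUnitDiag F K T).range = cfh_ET K T := by
  ext f
  constructor
  · rintro ⟨x, rfl⟩
    refine ⟨⟨(x : Kˣ), rfl⟩, ?_⟩
    show ptj_diag K (x : Kˣ) ∈ ptj_JT K T
    rw [cfh_diag_mem_JT_iff, ← cfh_aboveSet_primesOver (F := F)]
    exact x.2
  · rintro ⟨⟨x, rfl⟩, h2⟩
    have h2' : ptj_diag K x ∈ ptj_JT K T := h2
    rw [cfh_diag_mem_JT_iff, ← cfh_aboveSet_primesOver (F := F)] at h2'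
    exact ⟨⟨x, h2'⟩, rfl⟩

theorem cfh_sUnitDiag_act (T : Finset Nat.Primes) (γ : K ≃ₐ[F] K)
    (x : cfh_SUnit K (cfh_aboveSet F K (cfh_primesOver F T))) :
    cfh_sUnitDiag F K T (cfh_sUnitAct (cfh_primesOver F T) γ x) =
      cfh_sJ K γ (cfh_sUnitDiag F K T x) := by
  rw [cfh_sUnitDiag_apply, cfh_sUnitDiag_apply, cfh_sJ_apply, ← ptj_diag_smul]
  congr 1

theorem cfh_map_sJ_ET (T : Finset Nat.Primes) {Γ : Type*} [Group Γ] [MulSemiringAction Γ K]
    (γ : Γ) : (cfh_ET K T).map (cfh_sJ K γ) ≤ cfh_ET K T := by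
  rintro _ ⟨f, ⟨hf1, hf2⟩, rfl⟩
  exact ⟨ptj_smul_mem_principal γ hf1, ptj_smul_mem_JT γ hf2⟩

open scoped Classical in
/-- **Herbrand indices of the `T`-units inside the idele group** (cyclic extension of odd prime
degree `p`). -/
theorem cfh_ET_herbrand [IsGalois F K] {p : ℕ} (hp : p.Prime) (hp2 : p ≠ 2)
    (γ : K ≃ₐ[F] K) (hγ : ∀ τ : K ≃ₐ[F] K, τ ∈ Subgroup.zpowers γ)
    (hdeg : Module.finrank F K = p) (T : Finset Nat.Primes) :
    cfh_q (cfh_D (cfh_sJ K γ)) (cfh_N (cfh_sJ K γ) p) (cfh_ET K T) ≠ 0 ∧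
    cfh_q (cfh_N (cfh_sJ K γ) p) (cfh_D (cfh_sJ K γ)) (cfh_ET K T) ≠ 0 ∧
    cfh_q (cfh_N (cfh_sJ K γ) p) (cfh_D (cfh_sJ K γ)) (cfh_ET K T) *
        p ^ ((cfh_primesOver F T).filter fun v => (cfh_above F K v).ncard = 1).card =
      cfh_q (cfh_D (cfh_sJ K γ)) (cfh_N (cfh_sJ K γ) p) (cfh_ET K T) * p := by
  have h := cfh_sUnit_herbrand hp hp2 γ hγ hdeg (cfh_primesOver F T)
  set sS := cfh_sUnitAct (cfh_primesOver F T) γ with hsS
  have e1 : cfh_sigmaM (cfh_primesOver F T) γ = cfh_addEnd sS := rfl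
  simp only [e1, cfh_addEnd_sub_one, cfh_addEnd_sum_pow] at h
  rw [cfh_relIndex_toAdditive, cfh_relIndex_toAdditive] at h
  have hD : ∀ x, cfh_sUnitDiag F K T (cfh_D sS x) = cfh_D (cfh_sJ K γ) (cfh_sUnitDiag F K T x) :=
    fun x => cfh_D_natural (e := cfh_sUnitDiag F K T) (s := sS) (s' := cfh_sJ K γ)
      (cfh_sUnitDiag_act T γ) x
  have hN : ∀ x, cfh_sUnitDiag F K T (cfh_N sS p x) =
      cfh_N (cfh_sJ K γ) p (cfh_sUnitDiag F K T x) :=
    fun x => cfh_N_natural (e := cfh_sUnitDiag F K T) (s := sS) (s' := cfh_sJ K γ)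
      (cfh_sUnitDiag_act T γ) p x
  have k1 := cfh_q_map_of_injective (cfh_sUnitDiag_injective (F := F) (K := K) T) hD hN ⊤
  have k2 := cfh_q_map_of_injective (cfh_sUnitDiag_injective (F := F) (K := K) T) hN hD ⊤
  rw [← MonoidHom.range_eq_map, cfh_sUnitDiag_range, cfh_q_top] at k1 k2
  rw [k1, k2]
  exact h

end Units

end Fermat.Agent.Lib.PT

end
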