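/-
G3 (first inequality), part F: the abstract exact sequence
`1 → B ⊓ Q → B → A ⧸ Q → 1` (when `Q ⊔ B = ⊤`) and its Herbrand indices.
-/
import Fermat.Agent.Lib.PT.FirstA

set_option autoImplicit false
set_option linter.unusedSectionVars false
set_option linter.unusedVariables false

noncomputable section

namespace Fermat.Agent.Lib.PT

section AbstractSeq

variable {A : Type*} [CommGroup A] (s : A →* A) (p : ℕ) (B Q : Subgroup A)

theorem cfh_map_inf_le (hB : B.map s ≤ B) (hQ : Q.map s ≤ Q) : (B ⊓ Q).map s ≤ B ⊓ Q :=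
  (Subgroup.map_inf_le B Q s).trans (inf_le_inf hB hQ)

/-- The endomorphism induced on a quotient by a stable subgroup. -/
def cfh_quotEnd (hQ : Q.map s ≤ Q) : A ⧸ Q →* A ⧸ Q :=
  QuotientGroup.map Q Q s (Subgroup.map_le_iff_le_comap.1 hQ)

@[simp] theorem cfh_quotEnd_mk (hQ : Q.map s ≤ Q) (x : A) :
    cfh_quotEnd s Q hQ (QuotientGroup.mk x) = QuotientGroup.mk (s x) := rfl

theorem cfh_resEnd_iterate (hB : B.map s ≤ B) (i : ℕ) (x : B) :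
    (((⇑(cfh_resEnd s B hB))^[i] x : B) : A) = (⇑s)^[i] (x : A) :=
  cfh_iterate_natural (e := B.subtype) (s := cfh_resEnd s B hB) (s' := s) (fun y => rfl) i x

variable {s p B Q}

/-- The exact sequence `1 → B ⊓ Q → B → A ⧸ Q → 1` with its cyclic pairs. -/
theorem cfh_hexSeq_quot (hB : B.map s ≤ B) (hQ : Q.map s ≤ Q) (hs : ∀ x, (⇑s)^[p] x = x)
    (hcl : Q ⊔ B = ⊤) :
    cfh_HexSeq (Subgroup.inclusion (inf_le_left : B ⊓ Q ≤ B))
      ((QuotientGroup.mk' Q).comp B.subtype)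
      (cfh_D (cfh_resEnd s (B ⊓ Q) (cfh_map_inf_le s B Q hB hQ)))
      (cfh_N (cfh_resEnd s (B ⊓ Q) (cfh_map_inf_le s B Q hB hQ)) p)
      (cfh_D (cfh_resEnd s B hB)) (cfh_N (cfh_resEnd s B hB) p)
      (cfh_D (cfh_quotEnd s Q hQ)) (cfh_N (cfh_quotEnd s Q hQ) p) := by
  have hsB : ∀ x : B, (⇑(cfh_resEnd s B hB))^[p] x = x := fun x =>
    Subtype.ext (by rw [cfh_resEnd_iterate, hs])
  refine ⟨Subgroup.inclusion_injective _, ?_, ?_, ?_, ?_, ?_, ?_, cfh_D_N hsB, cfh_N_D hsB⟩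
  · intro c
    obtain ⟨x, rfl⟩ := QuotientGroup.mk_surjective c
    have hx : x ∈ Q ⊔ B := by rw [hcl]; trivial
    obtain ⟨a, ha, b, hb, rfl⟩ := Subgroup.mem_sup.1 hx
    refine ⟨⟨b, hb⟩, ?_⟩
    show (QuotientGroup.mk b : A ⧸ Q) = QuotientGroup.mk (a * b)
    rw [QuotientGroup.eq]
    have : b⁻¹ * (a * b) = a := by
      rw [mul_comm a b, inv_mul_cancel_left]
    rw [this]
    exact ha
  · ext x
    rw [MonoidHom.mem_ker]
    show _ ↔ (QuotientGroup.mk (x : A) : A ⧸ Q) = 1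
    rw [QuotientGroup.eq_one_iff]
    constructor
    · rintro ⟨y, rfl⟩
      exact y.2.2
    · intro hx
      exact ⟨⟨(x : A), ⟨x.2, hx⟩⟩, Subtype.ext rfl⟩
  · exact fun x => cfh_D_natural (e := Subgroup.inclusion (inf_le_left : B ⊓ Q ≤ B))
      (s := cfh_resEnd s (B ⊓ Q) (cfh_map_inf_le s B Q hB hQ)) (s' := cfh_resEnd s B hB)
      (fun y => rfl) x
  · exact fun x => cfh_N_natural (e := Subgroup.inclusion (inf_le_left : B ⊓ Q ≤ B))
      (s := cfh_resEnd s (B ⊓ Q) (cfh_map_inf_le s B Q hB hQ)) (s' := cfh_resEnd s B hB)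
      (fun y => rfl) p x
  · exact fun x => cfh_D_natural (e := (QuotientGroup.mk' Q).comp B.subtype)
      (s := cfh_resEnd s B hB) (s' := cfh_quotEnd s Q hQ) (fun y => rfl) x
  · exact fun x => cfh_N_natural (e := (QuotientGroup.mk' Q).comp B.subtype)
      (s := cfh_resEnd s B hB) (s' := cfh_quotEnd s Q hQ) (fun y => rfl) p x

/-- Multiplicativity of Herbrand indices along `1 → B ⊓ Q → B → A ⧸ Q → 1`. -/
theorem cfh_hex_quot_eq (hB : B.map s ≤ B) (hQ : Q.map s ≤ Q) (hs : ∀ x, (⇑s)^[p] x = x)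
    (hcl : Q ⊔ B = ⊤) :
    cfh_q (cfh_D s) (cfh_N s p) B * cfh_q (cfh_N s p) (cfh_D s) (B ⊓ Q) *
        (cfh_D (cfh_quotEnd s Q hQ)).range.relIndex (cfh_N (cfh_quotEnd s Q hQ) p).ker =
      cfh_q (cfh_N s p) (cfh_D s) B * cfh_q (cfh_D s) (cfh_N s p) (B ⊓ Q) *
        (cfh_N (cfh_quotEnd s Q hQ) p).range.relIndex (cfh_D (cfh_quotEnd s Q hQ)).ker := by
  have h := (cfh_hexSeq_quot hB hQ hs hcl).eq
  rw [cfh_q_resEnd, cfh_q_resEnd', cfh_q_resEnd, cfh_q_resEnd'] at h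
  exact h

theorem cfh_hex_quot_ne_zero (hB : B.map s ≤ B) (hQ : Q.map s ≤ Q)
    (hs : ∀ x, (⇑s)^[p] x = x) (hcl : Q ⊔ B = ⊤)
    (h1 : cfh_q (cfh_D s) (cfh_N s p) B ≠ 0) (h2 : cfh_q (cfh_N s p) (cfh_D s) B ≠ 0)
    (h3 : cfh_q (cfh_D s) (cfh_N s p) (B ⊓ Q) ≠ 0)
    (h4 : cfh_q (cfh_N s p) (cfh_D s) (B ⊓ Q) ≠ 0) :
    (cfh_N (cfh_quotEnd s Q hQ) p).range.relIndex (cfh_D (cfh_quotEnd s Q hQ)).ker ≠ 0 ∧
      (cfh_D (cfh_quotEnd s Q hQ)).range.relIndex (cfh_N (cfh_quotEnd s Q hQ) p).ker ≠ 0 := by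
  have h := (cfh_hexSeq_quot hB hQ hs hcl).ne_zero_quot
  rw [cfh_q_resEnd, cfh_q_resEnd', cfh_q_resEnd, cfh_q_resEnd'] at h
  exact h h1 h2 h3 h4

end AbstractSeq

end Fermat.Agent.Lib.PT

end
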