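/-
G3 (first inequality), part G: the Herbrand quotient of `C_T(K) = J_K / (Kˣ · U_{K,T})` for a
cyclic extension `K/F` of odd prime degree `p` is `p`.
-/
import Fermat.Agent.Lib.PT.FirstE
import Fermat.Agent.Lib.PT.FirstF
import Fermat.Agent.Lib.PT.PlaceC

set_option autoImplicit false
set_option linter.unusedSectionVars false
set_option linter.unusedVariables false
set_option linter.style.haveILetI false

noncomputable section

namespace Fermat.Agent.Lib.PT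

open IsDedekindDomain NumberField

section Lattice

variable {K : Type*} [Field K] [NumberField K]

/-- The kernel of `J_{K,T} → C_T(K)`. -/
theorem cfh_JT_inf_princUT (T : Finset Nat.Primes) :
    ptj_JT K T ⊓ ptj_princUT K T = cfh_ET K T ⊔ ptj_UT K T := by
  apply le_antisymm
  · rintro f ⟨hf1, hf2⟩
    obtain ⟨a, ha, u, hu, rfl⟩ := Subgroup.mem_sup.1 hf2
    refine Subgroup.mem_sup.2 ⟨a, ⟨ha, ?_⟩, u, hu, rfl⟩
    have h1 : a = a * u * u⁻¹ := by rw [mul_inv_cancel_right]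
    have h2 : a * u ∈ ptj_JT K T := hf1
    show a ∈ ptj_JT K T
    rw [h1]
    exact (ptj_JT K T).mul_mem h2 ((ptj_JT K T).inv_mem (ptj_UT_le_JT T hu))
  · refine sup_le (fun f hf => ⟨hf.2, Subgroup.mem_sup_left hf.1⟩) (fun f hf => ?_)
    exact ⟨ptj_UT_le_JT T hf, Subgroup.mem_sup_right hf⟩

theorem cfh_ET_inf_UT {T : Finset Nat.Primes} (hT : T.Nonempty) :
    cfh_ET K T ⊓ ptj_UT K T = ⊥ := by
  rw [eq_bot_iff]
  rintro f ⟨⟨⟨x, rfl⟩, -⟩, h2⟩
  have hx : x = 1 := ptj_principal_inf_UT hT h2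
  rw [hx, map_one]
  exact Subgroup.mem_bot.2 rfl

variable {Γ : Type*} [Group Γ] [MulSemiringAction Γ K]

theorem cfh_map_sJ_princUT (γ : Γ) (T : Finset Nat.Primes) :
    (ptj_princUT K T).map (cfh_sJ K γ) ≤ ptj_princUT K T := by
  rintro _ ⟨f, hf, rfl⟩
  exact ptj_smul_mem_princUT γ hf

variable (K) in
/-- The action of `γ` on `C_T(K)`, as an endomorphism. -/
def cfh_sCT (T : Finset Nat.Primes) (γ : Γ) : ptj_CT K T →* ptj_CT K T :=
  cfh_quotEnd (cfh_sJ K γ) (ptj_princUT K T) (cfh_map_sJ_princUT γ T)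

theorem cfh_sCT_mk (T : Finset Nat.Primes) (γ : Γ) (f : ptj_J K) :
    cfh_sCT K T γ (QuotientGroup.mk f) = QuotientGroup.mk (γ • f) := rfl

theorem cfh_sCT_apply (T : Finset Nat.Primes) (γ : Γ) (c : ptj_CT K T) :
    cfh_sCT K T γ c = γ • c := by
  obtain ⟨f, rfl⟩ := QuotientGroup.mk_surjective c
  rfl

theorem cfh_sCT_iterate (T : Finset Nat.Primes) (γ : Γ) (i : ℕ) (c : ptj_CT K T) :
    (⇑(cfh_sCT K T γ))^[i] c = γ ^ i • c := by
  induction i with
  | zero => simp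
  | succ i ih => rw [Function.iterate_succ_apply', ih, cfh_sCT_apply, smul_smul, ← pow_succ']

variable (K) in
/-- `D = γ - 1` on `C_T(K)` (multiplicatively, `c ↦ γ c / c`). -/
def cfh_DCT (T : Finset Nat.Primes) (γ : Γ) : ptj_CT K T →* ptj_CT K T :=
  cfh_D (A := ptj_CT K T) (cfh_sCT K T γ)

variable (K) in
/-- `N = 1 + γ + ... + γ^(p-1)` on `C_T(K)` (multiplicatively). -/
def cfh_NCT (T : Finset Nat.Primes) (γ : Γ) (p : ℕ) : ptj_CT K T →* ptj_CT K T :=
  cfh_N (A := ptj_CT K T) (cfh_sCT K T γ) p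

theorem cfh_DCT_apply (T : Finset Nat.Primes) (γ : Γ) (c : ptj_CT K T) :
    cfh_DCT K T γ c = γ • c / c := by
  rw [← cfh_sCT_apply]
  rfl

theorem cfh_NCT_apply (T : Finset Nat.Primes) (γ : Γ) (p : ℕ) (c : ptj_CT K T) :
    cfh_NCT K T γ p c = ∏ i ∈ Finset.range p, γ ^ i • c := by
  have h : cfh_NCT K T γ p c = ∏ i ∈ Finset.range p, (⇑(cfh_sCT K T γ))^[i] c := rfl
  rw [h]
  exact Finset.prod_congr rfl fun i _ => cfh_sCT_iterate T γ i c

theorem cfh_DCT_eq (T : Finset Nat.Primes) (γ : Γ) :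
    cfh_D (A := ptj_CT K T)
      (cfh_quotEnd (cfh_sJ K γ) (ptj_princUT K T) (cfh_map_sJ_princUT γ T)) =
      cfh_DCT K T γ := rfl

theorem cfh_NCT_eq (T : Finset Nat.Primes) (γ : Γ) (p : ℕ) :
    cfh_N (A := ptj_CT K T)
      (cfh_quotEnd (cfh_sJ K γ) (ptj_princUT K T) (cfh_map_sJ_princUT γ T)) p =
      cfh_NCT K T γ p := rfl

/-- Herbrand indices of the kernel `E_T · U_T`: only the `T`-units contribute. -/
theorem cfh_q_ker_eq {T : Finset Nat.Primes} (hT : T.Nonempty) (γ : Γ) {p : ℕ}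
    (f g : ptj_J K →* ptj_J K)
    (hfE : (cfh_ET K T).map f ≤ cfh_ET K T) (hfU : (ptj_UT K T).map f ≤ ptj_UT K T)
    (hgE : (cfh_ET K T).map g ≤ cfh_ET K T) (hgU : (ptj_UT K T).map g ≤ ptj_UT K T)
    (hfg : ∀ x, f (g x) = 1) (hU : cfh_q f g (ptj_UT K T) = 1) :
    cfh_q f g (ptj_JT K T ⊓ ptj_princUT K T) = cfh_q f g (cfh_ET K T) := by
  rw [cfh_JT_inf_princUT, cfh_q_sup f g (cfh_ET_inf_UT hT) hfE hfU hgE hgU hfg, hU, mul_one]

end Lattice

section Main

variable {F K : Type*} [Field F] [NumberField F] [Field K] [NumberField K] [Algebra F K]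

open scoped Classical in
/-- The local norm indices, as a function of the prime of `F`. -/
theorem cfh_locNorm_index_eq [IsGalois F K] {p : ℕ} (hp : p.Prime)
    (hdeg : Module.finrank F K = p)
    (hloc : ∀ (q : Nat.Primes) (σ : ptj_Emb K q),
      (ptj_locNorm F (K ≃ₐ[F] K) σ).range.index = Nat.card (ptj_decomp (K ≃ₐ[F] K) σ))
    (q : Nat.Primes) (σ : ptj_Emb K q) :
    (ptj_locNorm F (K ≃ₐ[F] K) σ).range.index =
      if (cfh_above F K (cfh_primeOf (ptj_resEmb (F := F) σ))).ncard = 1 then p else 1 := by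
  have hcard : Nat.card (K ≃ₐ[F] K) = p := by rw [IsGalois.card_aut_eq_finrank, hdeg]
  rw [hloc]
  by_cases h1 : (cfh_above F K (cfh_primeOf (ptj_resEmb (F := F) σ))).ncard = 1
  · rw [if_pos h1]
    have htop : ptj_decomp (K ≃ₐ[F] K) σ = ⊤ :=
      eq_top_iff.2 fun γ _ => cfh_mem_decomp_of_ncard_eq_one σ h1 γ
    rw [htop, Subgroup.card_top, hcard]
  · rw [if_neg h1]
    have hdvd : Nat.card (ptj_decomp (K ≃ₐ[F] K) σ) ∣ p := by
      rw [← hcard]
      exact Subgroup.card_subgroup_dvd_card _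
    rcases (Nat.dvd_prime hp).1 hdvd with h | h
    · exact h
    · exfalso
      apply h1
      have htop : ptj_decomp (K ≃ₐ[F] K) σ = ⊤ :=
        (Subgroup.card_eq_iff_eq_top _).1 (h.trans hcard.symm)
      exact cfh_ncard_eq_one_of_decomp_eq_top σ fun γ => by rw [htop]; trivial

open scoped Classical in
/-- **First inequality** (Herbrand quotient of `C_T`): for a cyclic extension `K/F` of odd prime
degree `p`, and `T` nonempty with `J_K = Kˣ · J_{K,T}`, units being norms and satisfying Hilbert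
90 outside `T`, and the local norm index theorem: `[C_T^Γ : N C_T] = p · [ker N : D C_T]`, both
finite. -/
theorem cfh_first_inequality [IsGalois F K] {p : ℕ} (hp : p.Prime) (hp2 : p ≠ 2)
    (hdeg : Module.finrank F K = p) (γ : K ≃ₐ[F] K)
    (hγ : ∀ τ : K ≃ₐ[F] K, τ ∈ Subgroup.zpowers γ)
    (T : Finset Nat.Primes) (hT : T.Nonempty)
    (hcl : ptj_principal K ⊔ ptj_JT K T = ⊤)
    (hunrN : ∀ q ∉ T, ∀ σ : ptj_Emb K q, ptj_UnitsAreNorms F (K ≃ₐ[F] K) σ)
    (hunrH : ∀ q, q ∉ T → ∀ σ : ptj_Emb K q, ptj_UnitsH90 (K ≃ₐ[F] K) σ)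
    (hloc : ∀ (q : Nat.Primes) (σ : ptj_Emb K q),
      (ptj_locNorm F (K ≃ₐ[F] K) σ).range.index = Nat.card (ptj_decomp (K ≃ₐ[F] K) σ)) :
    (cfh_NCT K T γ p).range.relIndex (cfh_DCT K T γ).ker ≠ 0 ∧
    (cfh_DCT K T γ).range.relIndex (cfh_NCT K T γ p).ker ≠ 0 ∧
    (cfh_NCT K T γ p).range.relIndex (cfh_DCT K T γ).ker =
      p * (cfh_DCT K T γ).range.relIndex (cfh_NCT K T γ p).ker := by
  have hcard : Nat.card (K ≃ₐ[F] K) = p := by rw [IsGalois.card_aut_eq_finrank, hdeg]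
  have hord : orderOf γ = p := by
    rw [orderOf_eq_card_of_forall_mem_zpowers hγ, hcard]
  have hs : ∀ x : ptj_J K, (⇑(cfh_sJ K γ))^[p] x = x := by
    intro x
    rw [← hord]
    exact cfh_sJ_iterate_orderOf γ x
  have hJT := cfh_map_sJ_JT (K := K) γ T
  have hUT := cfh_map_sJ_UT (K := K) γ T
  have hET := cfh_map_sJ_ET (K := K) T γ
  have hQ := cfh_map_sJ_princUT (K := K) γ T
  -- the idele pieces
  have a1 := cfh_q_N_D_JT (K := K) F hγ T hunrH
  have a0 := cfh_q_D_N_JT (F := F) (K := K) hγ T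
  have u1 := cfh_q_N_D_UT (K := K) F hγ T hunrH
  have u0 := cfh_q_D_N_UT (K := K) F hγ T hunrN
  rw [hord] at a1 a0 u1 u0
  have a0' := cfh_relIndex_norm_JT (Γ := K ≃ₐ[F] K) T hunrN
    (fun v => if (cfh_above F K v).ncard = 1 then p else 1)
    (cfh_locNorm_index_eq hp hdeg hloc)
  rw [Finset.prod_ite, Finset.prod_const, Finset.prod_const_one, mul_one] at a0'
  rw [a0'] at a0
  -- the kernel
  have b0 := cfh_q_ker_eq hT γ (p := p) (cfh_D (cfh_sJ K γ)) (cfh_N (cfh_sJ K γ) p)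
    (cfh_map_D_le hET) (cfh_map_D_le hUT) (cfh_map_N_le hET p) (cfh_map_N_le hUT p)
    (cfh_D_N hs) u0
  have b1 := cfh_q_ker_eq hT γ (p := p) (cfh_N (cfh_sJ K γ) p) (cfh_D (cfh_sJ K γ))
    (cfh_map_N_le hET p) (cfh_map_N_le hUT p) (cfh_map_D_le hET) (cfh_map_D_le hUT)
    (cfh_N_D hs) u1
  obtain ⟨e0, e1, eeq⟩ := cfh_ET_herbrand hp hp2 γ hγ hdeg T
  -- the hexagon
  have hcl' : ptj_princUT K T ⊔ ptj_JT K T = ⊤ := by
    rw [eq_top_iff, ← hcl]
    exact sup_le_sup_right le_sup_left _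
  have key := cfh_hex_quot_eq hJT hQ hs hcl'
  have kne := cfh_hex_quot_ne_zero hJT hQ hs hcl'
  rw [cfh_DCT_eq, cfh_NCT_eq, a0, a1, b0, b1] at key kne
  have hpk : p ^ ((cfh_primesOver F T).filter fun v => (cfh_above F K v).ncard = 1).card ≠ 0 :=
    pow_ne_zero _ hp.ne_zero
  obtain ⟨n0, n1⟩ := kne hpk one_ne_zero e0 e1
  refine ⟨n0, n1, ?_⟩
  rw [one_mul] at key
  apply Nat.eq_of_mul_eq_mul_left (Nat.pos_of_ne_zero e0)
  rw [← key, ← mul_assoc, ← eeq]
  ring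

end Main

end Fermat.Agent.Lib.PT

end
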