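/-
G3 (first inequality), part H: the weak first inequality `Fˣ · N J_K ≠ J_F` for a cyclic extension
`K/F` of odd prime degree.
-/
import Fermat.Agent.Lib.PT.FirstG

set_option autoImplicit false
set_option linter.unusedSectionVars false
set_option linter.unusedVariables false
set_option linter.style.haveILetI false

noncomputable section

namespace Fermat.Agent.Lib.PT

open IsDedekindDomain NumberField

variable {F K : Type*} [Field F] [NumberField F] [Field K] [NumberField K] [Algebra F K]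

theorem cfh_NCT_mk {Γ : Type*} [Group Γ] [MulSemiringAction Γ K] (T : Finset Nat.Primes)
    (γ : Γ) (p : ℕ) (f : ptj_J K) :
    cfh_NCT K T γ p (QuotientGroup.mk f) =
      (QuotientGroup.mk (cfh_N (cfh_sJ K γ) p f) : ptj_CT K T) := by
  rw [cfh_NCT_apply, cfh_N_apply]
  have h1 : (QuotientGroup.mk (∏ i ∈ Finset.range p, (⇑(cfh_sJ K γ))^[i] f) : ptj_CT K T) =
      ∏ i ∈ Finset.range p, (QuotientGroup.mk ((⇑(cfh_sJ K γ))^[i] f) : ptj_CT K T) :=
    map_prod (QuotientGroup.mk' (ptj_princUT K T)) _ _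
  rw [h1]
  refine Finset.prod_congr rfl fun i _ => ?_
  rw [cfh_sJ_iterate, ptj_CT_smul_mk]

/-- A class fixed by a generator is fixed by the whole group. -/
theorem cfh_smul_eq_of_generator' {Γ A : Type*} [Group Γ] [MulAction Γ A] {γ : Γ}
    (hγ : ∀ g : Γ, g ∈ Subgroup.zpowers γ) {a : A} (ha : γ • a = a) (g : Γ) : g • a = a := by
  have hle : Subgroup.zpowers γ ≤ MulAction.stabilizer Γ a := by
    rw [Subgroup.zpowers_le, MulAction.mem_stabilizer_iff]
    exact ha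
  exact MulAction.mem_stabilizer_iff.1 (hle (hγ g))

/-- **Weak first inequality**, with all hypotheses explicit. -/
theorem cfh_weak_first_inequality_aux [IsGalois F K] {p : ℕ} (hp : p.Prime) (hp2 : p ≠ 2)
    (hdeg : Module.finrank F K = p) (γ : K ≃ₐ[F] K)
    (hγ : ∀ τ : K ≃ₐ[F] K, τ ∈ Subgroup.zpowers γ)
    (T : Finset Nat.Primes) (hT : T.Nonempty)
    (hcl : ptj_principal K ⊔ ptj_JT K T = ⊤)
    (hunrN : ∀ q ∉ T, ∀ σ : ptj_Emb K q, ptj_UnitsAreNorms F (K ≃ₐ[F] K) σ)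
    (hunrH : ∀ q, q ∉ T → ∀ σ : ptj_Emb K q, ptj_UnitsH90 (K ≃ₐ[F] K) σ)
    (hloc : ∀ (q : Nat.Primes) (σ : ptj_Emb K q),
      (ptj_locNorm F (K ≃ₐ[F] K) σ).range.index = Nat.card (ptj_decomp (K ≃ₐ[F] K) σ)) :
    ptj_principal F ⊔ (ptj_norm (K := K) F (K ≃ₐ[F] K)).range ≠ ⊤ := by
  intro htop
  obtain ⟨n0, n1, heq⟩ := cfh_first_inequality hp hp2 hdeg γ hγ T hT hcl hunrN hunrH hloc
  have hcard : Nat.card (K ≃ₐ[F] K) = p := by rw [IsGalois.card_aut_eq_finrank, hdeg]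
  have hord : orderOf γ = p := by
    rw [orderOf_eq_card_of_forall_mem_zpowers hγ, hcard]
  have h0ne1 : (cfh_NCT K T γ p).range.relIndex (cfh_DCT K T γ).ker ≠ 1 := by
    rw [heq]
    intro h
    have h1 : p = 1 := Nat.eq_one_of_mul_eq_one_right h
    exact hp.one_lt.ne' h1
  apply h0ne1
  rw [Subgroup.relIndex_eq_one]
  intro c hc
  obtain ⟨f, rfl⟩ := QuotientGroup.mk_surjective c
  have hfix : γ • (QuotientGroup.mk f : ptj_CT K T) = QuotientGroup.mk f := by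
    rw [MonoidHom.mem_ker, cfh_DCT_apply, div_eq_one] at hc
    exact hc
  have hall : ∀ τ : K ≃ₐ[F] K, τ • (QuotientGroup.mk f : ptj_CT K T) = QuotientGroup.mk f :=
    cfh_smul_eq_of_generator' hγ hfix
  have hf : ∀ τ : K ≃ₐ[F] K, τ • f / f ∈ ptj_princUT K T := by
    intro τ
    have h1 := hall τ
    rw [ptj_CT_smul_mk, QuotientGroup.eq] at h1
    have h2 : τ • f / f = ((τ • f)⁻¹ * f)⁻¹ := by
      rw [mul_inv_rev, inv_inv, div_eq_mul_inv, mul_comm]
    rw [h2]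
    exact (ptj_princUT K T).inv_mem h1
  obtain ⟨g, y, v, hv, hfg⟩ := ptj_exists_up_of_classT_invariant (F := F) hT hunrH hf
  have hg : g ∈ ptj_principal F ⊔ (ptj_norm (K := K) F (K ≃ₐ[F] K)).range := by
    rw [htop]
    trivial
  obtain ⟨a, ha, b, ⟨f', rfl⟩, rfl⟩ := Subgroup.mem_sup.1 hg
  refine ⟨QuotientGroup.mk f', ?_⟩
  rw [cfh_NCT_mk, ← hord, cfh_N_sJ_eq_up_norm (F := F) hγ, QuotientGroup.eq, hfg, map_mul]
  have h3 : (ptj_up F K (ptj_norm F (K ≃ₐ[F] K) f'))⁻¹ *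
      (ptj_up F K a * ptj_up F K (ptj_norm F (K ≃ₐ[F] K) f') * (ptj_diag K y * v)) =
      ptj_up F K a * (ptj_diag K y * v) := by
    rw [mul_comm (ptj_up F K a), mul_assoc, inv_mul_cancel_left]
  rw [h3]
  refine (ptj_princUT K T).mul_mem (Subgroup.mem_sup_left (ptj_up_mem_principal ha)) ?_
  exact (ptj_princUT K T).mul_mem (Subgroup.mem_sup_left ⟨y, rfl⟩) (Subgroup.mem_sup_right hv)

end Fermat.Agent.Lib.PT

end
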