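/-
S55 / (G4): THE DESCENT `C_T(K) ↠ C_S(K)` (helper6).  For `S ⊆ T`, `S ≠ ∅`, `K/F` cyclic with group
`Γ = ⟨γ⟩`, unramified outside `S` (units are norms + Hilbert 90 for units at all `q ∉ S`), the kernel
`mk(U_{K,S})` of `C_T(K) → C_S(K)` is cohomologically trivial, hence
* `ptl_CT_descent_h0` : `[C_S(K)^Γ : N C_S(K)] = [C_T(K)^Γ : N C_T(K)]`,
* `ptl_CT_descent_hm1` : `Ĥ⁻¹(C_T(K)) = 1 → Ĥ⁻¹(C_S(K)) = 1`,
in helper8's vocabulary (`cfh_NCT`, `cfh_DCT`).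
-/
import Fermat.Agent.Lib.PT.FirstH
import Fermat.Agent.Lib.PT.CycPer

set_option autoImplicit false
set_option linter.unusedSectionVars false

noncomputable section

namespace Fermat.Agent.Lib.PT

section Map

variable {K : Type*} [Field K] [NumberField K] {S T : Finset Nat.Primes}

lemma ptl_princUT_anti (hST : S ⊆ T) : ptj_princUT K T ≤ ptj_princUT K S :=
  sup_le_sup_left (ptj_UT_anti hST) _

/-- the quotient map `C_T(K) → C_S(K)` for `S ⊆ T` -/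
def ptl_CTmap (hST : S ⊆ T) : ptj_CT K T →* ptj_CT K S :=
  QuotientGroup.map (ptj_princUT K T) (ptj_princUT K S) (MonoidHom.id _)
    (by rw [Subgroup.comap_id]; exact ptl_princUT_anti hST)

@[simp] lemma ptl_CTmap_mk (hST : S ⊆ T) (f : ptj_J K) :
    ptl_CTmap hST (QuotientGroup.mk f) = QuotientGroup.mk f := rfl

lemma ptl_CTmap_surjective (hST : S ⊆ T) : Function.Surjective (ptl_CTmap (K := K) hST) := by
  intro y
  obtain ⟨f, rfl⟩ := QuotientGroup.mk_surjective y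
  exact ⟨QuotientGroup.mk f, rfl⟩

lemma ptl_mk_mem_ker_CTmap (hST : S ⊆ T) (f : ptj_J K) :
    (QuotientGroup.mk f : ptj_CT K T) ∈ (ptl_CTmap hST).ker ↔ f ∈ ptj_princUT K S := by
  rw [MonoidHom.mem_ker, ptl_CTmap_mk, QuotientGroup.eq_one_iff]

/-- every element of the kernel of `C_T(K) → C_S(K)` is the class of an element of `U_{K,S}` -/
lemma ptl_exists_UT_of_mem_ker (hST : S ⊆ T) {x : ptj_CT K T} (hx : x ∈ (ptl_CTmap hST).ker) :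
    ∃ u ∈ ptj_UT K S, (QuotientGroup.mk u : ptj_CT K T) = x := by
  obtain ⟨f, rfl⟩ := QuotientGroup.mk_surjective x
  rw [ptl_mk_mem_ker_CTmap] at hx
  obtain ⟨a, ha, u, hu, rfl⟩ := Subgroup.mem_sup.1 hx
  refine ⟨u, hu, ?_⟩
  have h1 : (QuotientGroup.mk a : ptj_CT K T) = 1 :=
    (QuotientGroup.eq_one_iff a).2 (Subgroup.mem_sup_left ha)
  have h2 : (QuotientGroup.mk (a * u) : ptj_CT K T) =
      (QuotientGroup.mk a : ptj_CT K T) * (QuotientGroup.mk u : ptj_CT K T) := rfl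
  rw [h2, h1]
  exact (one_mul (QuotientGroup.mk u : ptj_CT K T)).symm

lemma ptl_mk_UT_mem_ker (hST : S ⊆ T) {u : ptj_J K} (hu : u ∈ ptj_UT K S) :
    (QuotientGroup.mk u : ptj_CT K T) ∈ (ptl_CTmap hST).ker :=
  (ptl_mk_mem_ker_CTmap hST u).2 (Subgroup.mem_sup_right hu)

/-- an element of `U_{K,S}` lying in `Kˣ · U_{K,T}` lies in `U_{K,T}` (`S ≠ ∅`) -/
lemma ptl_mem_UT_of_mem_princUT (hS : S.Nonempty) (hST : S ⊆ T) {u : ptj_J K}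
    (hu : u ∈ ptj_UT K S) (hu' : u ∈ ptj_princUT K T) : u ∈ ptj_UT K T := by
  obtain ⟨a, ⟨b, rfl⟩, w, hw, rfl⟩ := Subgroup.mem_sup.1 hu'
  have hb : ptj_diag K b ∈ ptj_UT K S := by
    have h1 : ptj_diag K b = ptj_diag K b * w * w⁻¹ := by rw [mul_inv_cancel_right]
    rw [h1]
    exact (ptj_UT K S).mul_mem hu ((ptj_UT K S).inv_mem (ptj_UT_anti hST hw))
  rw [ptj_principal_inf_UT hS hb, map_one, one_mul]
  exact hw

end Map

section Descent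

variable {F K : Type*} [Field F] [Field K] [NumberField K] [Algebra F K]
variable {Γ : Type*} [Group Γ] [MulSemiringAction Γ K] [Finite Γ] [IsGaloisGroup Γ F K]
  [∀ q, Finite (ptj_Emb F q)]
variable {S T : Finset Nat.Primes} {γ : Γ}

omit [Finite Γ] in
lemma ptl_CTmap_sCT (hST : S ⊆ T) (x : ptj_CT K T) :
    ptl_CTmap hST (cfh_sCT K T γ x) = cfh_sCT K S γ (ptl_CTmap hST x) := by
  obtain ⟨f, rfl⟩ := QuotientGroup.mk_surjective x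
  rfl

omit [Finite Γ] in
lemma ptl_sCT_iterate_orderOf (x : ptj_CT K T) : (⇑(cfh_sCT K T γ))^[orderOf γ] x = x := by
  rw [cfh_sCT_iterate, pow_orderOf_eq_one, one_smul]

omit [Finite Γ] in
lemma ptl_DCT_mk (f : ptj_J K) :
    cfh_DCT K T γ (QuotientGroup.mk f) =
      (QuotientGroup.mk (cfh_D (cfh_sJ K γ) f) : ptj_CT K T) := rfl

omit [Finite Γ] in
lemma ptl_mk_div_of_mem_UT {u w : ptj_J K} (hw : w ∈ ptj_UT K T) :
    (QuotientGroup.mk (u / w) : ptj_CT K T) = QuotientGroup.mk u := by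
  have h1 : (QuotientGroup.mk w : ptj_CT K T) = 1 :=
    (QuotientGroup.eq_one_iff w).2 (Subgroup.mem_sup_right hw)
  have h2 : (QuotientGroup.mk (u / w) : ptj_CT K T) =
      (QuotientGroup.mk u : ptj_CT K T) / (QuotientGroup.mk w : ptj_CT K T) := rfl
  rw [h2, h1]
  exact div_one (QuotientGroup.mk u : ptj_CT K T)

variable (F) in
/-- `Ĥ⁰` of the kernel of `C_T(K) → C_S(K)` is trivial. -/
theorem ptl_CT_ker_h0 (hγ : ∀ g : Γ, g ∈ Subgroup.zpowers γ) (hS : S.Nonempty) (hST : S ⊆ T)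
    (hunrN : ∀ q ∉ S, ∀ σ : ptj_Emb K q, ptj_UnitsAreNorms F Γ σ)
    (hunrH : ∀ q, q ∉ S → ∀ σ : ptj_Emb K q, ptj_UnitsH90 Γ σ) :
    (cfh_DCT K T γ).ker ⊓ (ptl_CTmap (K := K) hST).ker ≤
      (ptl_CTmap (K := K) hST).ker.map (cfh_NCT K T γ (orderOf γ)) := by
  rintro x ⟨(hxD : x ∈ (cfh_DCT K T γ).ker), (hxq : x ∈ (ptl_CTmap (K := K) hST).ker)⟩
  obtain ⟨u, hu, rfl⟩ := ptl_exists_UT_of_mem_ker hST hxq
  have h1 : cfh_D (cfh_sJ K γ) u ∈ ptj_princUT K T := by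
    have := MonoidHom.mem_ker.1 hxD
    rw [ptl_DCT_mk] at this
    exact (QuotientGroup.eq_one_iff _).1 this
  have h2 : cfh_D (cfh_sJ K γ) u ∈ ptj_UT K S := by
    rw [cfh_D_apply, cfh_sJ_apply]
    exact (ptj_UT K S).div_mem (ptj_smul_mem_UT γ hu) hu
  have h3 : cfh_D (cfh_sJ K γ) u ∈ ptj_UT K T := ptl_mem_UT_of_mem_princUT hS hST h2 h1
  have hs : ∀ x : ptj_J K, (⇑(cfh_sJ K γ))^[orderOf γ] x = x := cfh_sJ_iterate_orderOf γ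
  have h4a : cfh_N (cfh_sJ K γ) (orderOf γ) (cfh_D (cfh_sJ K γ) u) = 1 := cfh_N_D hs u
  have h4 : cfh_D (cfh_sJ K γ) u ∈ (cfh_N (cfh_sJ K γ) (orderOf γ)).ker ⊓ ptj_UT K T :=
    Subgroup.mem_inf.2 ⟨MonoidHom.mem_ker.2 h4a, h3⟩
  have hT1 := cfh_q_N_D_UT (K := K) F hγ T (fun q hq => hunrH q (fun h => hq (hST h)))
  rw [cfh_q, Subgroup.relIndex_eq_one] at hT1
  obtain ⟨w', hw', hw'D⟩ := hT1 h4
  have h5 : u / w' ∈ (cfh_D (cfh_sJ K γ)).ker ⊓ ptj_UT K S := by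
    refine Subgroup.mem_inf.2 ⟨?_, (ptj_UT K S).div_mem hu (ptj_UT_anti hST hw')⟩
    rw [MonoidHom.mem_ker, map_div, hw'D, div_self']
  have hS0 := cfh_q_D_N_UT (K := K) F hγ S hunrN
  rw [cfh_q, Subgroup.relIndex_eq_one] at hS0
  obtain ⟨g, hg, hgN⟩ := hS0 h5
  refine ⟨QuotientGroup.mk g, ptl_mk_UT_mem_ker hST hg, ?_⟩
  show cfh_NCT K T γ (orderOf γ) (QuotientGroup.mk g) = _
  rw [cfh_NCT_mk, hgN, ptl_mk_div_of_mem_UT hw']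

variable (F) in
/-- `Ĥ⁻¹` of the kernel of `C_T(K) → C_S(K)` is trivial. -/
theorem ptl_CT_ker_hm1 (hγ : ∀ g : Γ, g ∈ Subgroup.zpowers γ) (hS : S.Nonempty) (hST : S ⊆ T)
    (hunrN : ∀ q ∉ S, ∀ σ : ptj_Emb K q, ptj_UnitsAreNorms F Γ σ)
    (hunrH : ∀ q, q ∉ S → ∀ σ : ptj_Emb K q, ptj_UnitsH90 Γ σ) :
    (cfh_NCT K T γ (orderOf γ)).ker ⊓ (ptl_CTmap (K := K) hST).ker ≤
      (ptl_CTmap (K := K) hST).ker.map (cfh_DCT K T γ) := by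
  rintro x ⟨(hxN : x ∈ (cfh_NCT K T γ (orderOf γ)).ker),
    (hxq : x ∈ (ptl_CTmap (K := K) hST).ker)⟩
  obtain ⟨u, hu, rfl⟩ := ptl_exists_UT_of_mem_ker hST hxq
  have hxN' : cfh_NCT K T γ (orderOf γ) (QuotientGroup.mk u) = 1 := MonoidHom.mem_ker.1 hxN
  rw [cfh_NCT_mk] at hxN'
  have h1 : cfh_N (cfh_sJ K γ) (orderOf γ) u ∈ ptj_princUT K T :=
    (QuotientGroup.eq_one_iff _).1 hxN'
  have h2 : cfh_N (cfh_sJ K γ) (orderOf γ) u ∈ ptj_UT K S := by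
    have hmap : (ptj_UT K S).map (cfh_sJ K γ) ≤ ptj_UT K S := cfh_map_sJ_UT γ S
    have hu' : cfh_N (cfh_sJ K γ) (orderOf γ) u ∈ (ptj_UT K S).map (cfh_N (cfh_sJ K γ) (orderOf γ)) :=
      Subgroup.mem_map_of_mem _ hu
    exact cfh_map_N_le hmap (orderOf γ) hu'
  have h3 : cfh_N (cfh_sJ K γ) (orderOf γ) u ∈ ptj_UT K T :=
    ptl_mem_UT_of_mem_princUT hS hST h2 h1
  have hs : ∀ x : ptj_J K, (⇑(cfh_sJ K γ))^[orderOf γ] x = x := cfh_sJ_iterate_orderOf γ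
  have h4a : cfh_D (cfh_sJ K γ) (cfh_N (cfh_sJ K γ) (orderOf γ) u) = 1 := cfh_D_N hs u
  have h4 : cfh_N (cfh_sJ K γ) (orderOf γ) u ∈ (cfh_D (cfh_sJ K γ)).ker ⊓ ptj_UT K T :=
    Subgroup.mem_inf.2 ⟨MonoidHom.mem_ker.2 h4a, h3⟩
  have hT0 := cfh_q_D_N_UT (K := K) F hγ T (fun q hq => hunrN q (fun h => hq (hST h)))
  rw [cfh_q, Subgroup.relIndex_eq_one] at hT0
  obtain ⟨w', hw', hw'N⟩ := hT0 h4
  have h5 : u / w' ∈ (cfh_N (cfh_sJ K γ) (orderOf γ)).ker ⊓ ptj_UT K S := by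
    refine Subgroup.mem_inf.2 ⟨?_, (ptj_UT K S).div_mem hu (ptj_UT_anti hST hw')⟩
    rw [MonoidHom.mem_ker, map_div, hw'N, div_self']
  have hS1 := cfh_q_N_D_UT (K := K) F hγ S hunrH
  rw [cfh_q, Subgroup.relIndex_eq_one] at hS1
  obtain ⟨g, hg, hgD⟩ := hS1 h5
  refine ⟨QuotientGroup.mk g, ptl_mk_UT_mem_ker hST hg, ?_⟩
  show cfh_DCT K T γ (QuotientGroup.mk g) = _
  rw [ptl_DCT_mk, hgD, ptl_mk_div_of_mem_UT hw']

variable (F) in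
/-- **`#Ĥ⁰(C_S(K)) = #Ĥ⁰(C_T(K))`** for `S ⊆ T`, `K/F` unramified outside `S`. -/
theorem ptl_CT_descent_h0 (hγ : ∀ g : Γ, g ∈ Subgroup.zpowers γ) (hS : S.Nonempty) (hST : S ⊆ T)
    (hunrN : ∀ q ∉ S, ∀ σ : ptj_Emb K q, ptj_UnitsAreNorms F Γ σ)
    (hunrH : ∀ q, q ∉ S → ∀ σ : ptj_Emb K q, ptj_UnitsH90 Γ σ) :
    (cfh_NCT K S γ (orderOf γ)).range.relIndex (cfh_DCT K S γ).ker =
      (cfh_NCT K T γ (orderOf γ)).range.relIndex (cfh_DCT K T γ).ker := by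
  have h0 := ptl_CT_ker_h0 F (T := T) hγ hS hST hunrN hunrH
  have h1 := ptl_CT_ker_hm1 F (T := T) hγ hS hST hunrN hunrH
  have hq := ptl_CTmap_surjective (K := K) hST
  have hqs := ptl_CTmap_sCT (K := K) (γ := γ) hST
  have hs := ptl_sCT_iterate_orderOf (K := K) (T := T) (γ := γ)
  unfold cfh_DCT cfh_NCT at h0 h1 ⊢
  exact ptl_cyc_h0_quot hq hqs hs h0 h1

variable (F) in
/-- **`Ĥ⁻¹(C_T(K)) = 1 ⇒ Ĥ⁻¹(C_S(K)) = 1`** for `S ⊆ T`, `K/F` unramified outside `S`. -/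
theorem ptl_CT_descent_hm1 (hγ : ∀ g : Γ, g ∈ Subgroup.zpowers γ) (hS : S.Nonempty) (hST : S ⊆ T)
    (hunrN : ∀ q ∉ S, ∀ σ : ptj_Emb K q, ptj_UnitsAreNorms F Γ σ)
    (hunrH : ∀ q, q ∉ S → ∀ σ : ptj_Emb K q, ptj_UnitsH90 Γ σ)
    (h : (cfh_NCT K T γ (orderOf γ)).ker ≤ (cfh_DCT K T γ).range) :
    (cfh_NCT K S γ (orderOf γ)).ker ≤ (cfh_DCT K S γ).range := by
  have h0 := ptl_CT_ker_h0 F (T := T) hγ hS hST hunrN hunrH
  have hq := ptl_CTmap_surjective (K := K) hST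
  have hqs := ptl_CTmap_sCT (K := K) (γ := γ) hST
  have hs := ptl_sCT_iterate_orderOf (K := K) (T := T) (γ := γ)
  unfold cfh_DCT cfh_NCT at h0 h ⊢
  exact ptl_cyc_hm1_quot hq hqs hs h0 h

end Descent

end Fermat.Agent.Lib.PT
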