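/-
S55 (Poitou–Tate long-haul), G-track input (H-tower): THE CYCLOTOMIC `ℤ_p`-TOWER over `ℚ` inside
`Q̄`, in the big model.

* `pts_cycloPow p n : G_ℚ →* (ℤ/p^n)ˣ`, the mod `p^n` cyclotomic character (`IsPrimitiveRoot.autToPow`
  for a chosen primitive root `pts_zetaPow p n`), its action on all `p^n`-th roots of unity, and its
  SURJECTIVITY (irreducibility of cyclotomic polynomials over `ℚ`, normality of `Q̄/ℚ`);
* inertia groups at `q ≠ p` fix the roots of unity of `p`-power order, so `ℚ(ζ_{p^n})` is a level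
  of `pta_levelsS S` for `p ∈ S` and `pts_cycloPow p n` is level-constant;
* `pts_towerChar p k hp2 : G_ℚ → ℤ/p^k` (`p` odd), an additive, level-constant, SURJECTIVE character:
  the `k`-th layer of the cyclotomic `ℤ_p`-extension; `χ_k g = 0 ↔ (pts_cycloPow p (k+1) g)^(p-1) = 1`.
-/
import Mathlib
import Fermat.Agent.Lib.PT.GLevelTwist
import Fermat.Agent.Lib.PT.GLevelAdt

set_option autoImplicit false
set_option linter.unusedSectionVars false

namespace Fermat.Agent.Lib.PT

open ExtCitation IntermediateField Fermat.Agent.Lib.Frey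

local notation "Qbar" => AlgebraicClosure ℚ
local notation "GQ" => (AlgebraicClosure ℚ ≃ₐ[ℚ] AlgebraicClosure ℚ)

section CycloPow

variable (p : ℕ) [hp : Fact p.Prime] (n : ℕ)

instance pts_neZero_pow : NeZero (p ^ n) := ⟨pow_ne_zero n hp.out.ne_zero⟩

lemma pts_exists_primitiveRoot_pow : ∃ ζ : Qbar, IsPrimitiveRoot ζ (p ^ n) :=
  HasEnoughRootsOfUnity.exists_primitiveRoot Qbar (p ^ n)

/-- a chosen primitive `p^n`-th root of unity in `Q̄` -/
noncomputable def pts_zetaPow : Qbar := Classical.choose (pts_exists_primitiveRoot_pow p n)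

lemma pts_zetaPow_spec : IsPrimitiveRoot (pts_zetaPow p n) (p ^ n) :=
  Classical.choose_spec (pts_exists_primitiveRoot_pow p n)

/-- the mod `p^n` cyclotomic character of `G_ℚ` -/
noncomputable def pts_cycloPow : GQ →* (ZMod (p ^ n))ˣ :=
  (pts_zetaPow_spec p n).autToPow ℚ

variable {p n}

lemma pts_cycloPow_spec (g : GQ) :
    pts_zetaPow p n ^ ((pts_cycloPow p n g : ZMod (p ^ n))).val = g (pts_zetaPow p n) :=
  (pts_zetaPow_spec p n).autToPow_spec ℚ g

/-- the action on all `p^n`-th roots of unity -/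
lemma pts_cycloPow_spec' (g : GQ) {μ : Qbar} (hμ : μ ^ p ^ n = 1) :
    g μ = μ ^ ((pts_cycloPow p n g : ZMod (p ^ n))).val := by
  obtain ⟨i, -, rfl⟩ := (pts_zetaPow_spec p n).eq_pow_of_pow_eq_one hμ
  rw [map_pow, ← pts_cycloPow_spec g, ← pow_mul, ← pow_mul, mul_comm]

lemma pts_cycloPow_eq_one_iff (g : GQ) :
    pts_cycloPow p n g = 1 ↔ g (pts_zetaPow p n) = pts_zetaPow p n := by
  constructor
  · intro h
    rw [← pts_cycloPow_spec g, h]
    by_cases hn : p ^ n = 1
    · have : pts_zetaPow p n = 1 := by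
        have := (pts_zetaPow_spec p n).pow_eq_one
        rwa [hn, pow_one] at this
      rw [this, one_pow]
    · have : Fact (1 < p ^ n) := ⟨lt_of_le_of_ne (Nat.one_le_pow _ _ hp.out.pos) (Ne.symm hn)⟩
      rw [Units.val_one, ZMod.val_one, pow_one]
  · intro h
    by_cases hn : p ^ n = 1
    · have : Subsingleton (ZMod (p ^ n)) := ZMod.subsingleton_iff.mpr hn
      exact Subsingleton.elim _ _
    have hlt : 1 < p ^ n := lt_of_le_of_ne (Nat.one_le_pow _ _ hp.out.pos) (Ne.symm hn)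
    have h1 := pts_cycloPow_spec (p := p) (n := n) g
    rw [h] at h1
    have h2 : pts_zetaPow p n ^ ((pts_cycloPow p n g : ZMod (p ^ n))).val = pts_zetaPow p n ^ 1 := by
      rw [h1, pow_one]
    have h3 := (pts_zetaPow_spec p n).pow_inj (ZMod.val_lt _) hlt h2
    apply Units.ext
    rw [Units.val_one, ← ZMod.natCast_zmod_val ((pts_cycloPow p n g : ZMod (p ^ n))), h3,
      Nat.cast_one]

/-- **surjectivity** of the mod `p^n` cyclotomic character (irreducibility of the cyclotomic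
polynomial over `ℚ`) -/
theorem pts_cycloPow_surjective : Function.Surjective (pts_cycloPow p n) := by
  intro a
  have hζ := pts_zetaPow_spec p n
  have hcop : (a : ZMod (p ^ n)).val.Coprime (p ^ n) := ZMod.val_coe_unit_coprime a
  have hζ' : IsPrimitiveRoot (pts_zetaPow p n ^ (a : ZMod (p ^ n)).val) (p ^ n) :=
    hζ.pow_of_coprime _ hcop
  have hpos : 0 < p ^ n := pow_pos hp.out.pos n
  have hconj : IsConjRoot ℚ (pts_zetaPow p n ^ (a : ZMod (p ^ n)).val) (pts_zetaPow p n) := by
    unfold IsConjRoot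
    rw [← Polynomial.cyclotomic_eq_minpoly_rat hζ hpos, ← Polynomial.cyclotomic_eq_minpoly_rat hζ' hpos]
  have : IsAlgClosure ℚ Qbar := ⟨inferInstance, AlgebraicClosure.isAlgebraic ℚ⟩
  have : Normal ℚ Qbar := IsAlgClosure.normal ℚ Qbar
  obtain ⟨g, hg⟩ := isConjRoot_iff_exists_algEquiv.mp hconj
  refine ⟨g, ?_⟩
  have h1 := pts_cycloPow_spec (p := p) (n := n) g
  rw [hg] at h1
  have h3 := hζ.pow_inj (ZMod.val_lt _) (ZMod.val_lt _) h1
  apply Units.ext
  rw [← ZMod.natCast_zmod_val ((pts_cycloPow p n g : ZMod (p ^ n))), h3, ZMod.natCast_zmod_val]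

end CycloPow


section Unram

variable {p : ℕ} [hp : Fact p.Prime]

/-- a root of unity is a unit of every valuation ring -/
lemma pts_mem_of_pow_eq_one (A : ValuationSubring Qbar) {μ : Qbar} {m : ℕ} (hm : m ≠ 0)
    (hμ : μ ^ m = 1) : μ ∈ A := by
  rcases A.mem_or_inv_mem μ with h | h
  · exact h
  · have : μ = (μ⁻¹) ^ (m - 1) := by
      have h0 : μ ≠ 0 := fun h0 => by
        rw [h0, zero_pow hm] at hμ
        exact zero_ne_one hμ
      rw [inv_pow]
      apply eq_inv_of_mul_eq_one_left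
      rw [← pow_succ', Nat.sub_add_cancel (Nat.pos_of_ne_zero hm), hμ]
    rw [this]
    exact pow_mem h _

/-- a `p`-th root of unity congruent to `1` modulo the maximal ideal of a valuation ring of
residue characteristic `q ≠ p` is `1` -/
lemma pts_eq_one_of_pow_prime_eq_one {q : ℕ} (hq : q.Prime) (hqp : q ≠ p)
    (A : ValuationSubring Qbar) (hA : A.LiesOverPrime q) {μ : Qbar} (hμp : μ ^ p = 1)
    (hv : A.valuation (μ - 1) < 1) : μ = 1 := by
  by_contra hμ1
  have hμprim : IsPrimitiveRoot μ p := by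
    rw [IsPrimitiveRoot.iff_orderOf]
    exact orderOf_eq_prime hμp hμ1
  have hμA : μ ∈ A := pts_mem_of_pow_eq_one A hp.out.ne_zero hμp
  have hsum0 : ∑ j ∈ Finset.range p, μ ^ j = 0 := hμprim.geom_sum_eq_zero hp.out.one_lt
  have hpsum : (p : Qbar) = ∑ j ∈ Finset.range p, (1 - μ ^ j) := by
    rw [Finset.sum_sub_distrib, hsum0, sub_zero, Finset.sum_const, Finset.card_range,
      nsmul_eq_mul, mul_one]
  have hterm : ∀ j ∈ Finset.range p, A.valuation (1 - μ ^ j) < 1 := by
    intro j _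
    have h2 : 1 - μ ^ j = -((∑ i ∈ Finset.range j, μ ^ i) * (μ - 1)) := by
      rw [geom_sum_mul]; ring
    rw [h2, Valuation.map_neg, map_mul]
    have h3 : (∑ i ∈ Finset.range j, μ ^ i) ∈ A := sum_mem fun i _ => pow_mem hμA i
    exact mul_lt_one_of_nonneg_of_lt_one_right ((A.valuation_le_one_iff _).2 h3) zero_le hv
  have hpA : (p : Qbar) ∈ A.nonunits := by
    rw [A.mem_nonunits_iff, hpsum]
    exact A.valuation.map_sum_lt one_ne_zero hterm
  exact pta_not_mem_nonunits_of_ne hq hqp A hA hpA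

/-- the same for roots of unity of `p`-power order -/
lemma pts_eq_one_of_pow_prime_pow_eq_one {q : ℕ} (hq : q.Prime) (hqp : q ≠ p)
    (A : ValuationSubring Qbar) (hA : A.LiesOverPrime q) :
    ∀ (n : ℕ) {μ : Qbar}, μ ^ p ^ n = 1 → A.valuation (μ - 1) < 1 → μ = 1 := by
  intro n
  induction n with
  | zero =>
    intro μ hμ _
    simpa using hμ
  | succ n ih =>
    intro μ hμ hv
    have hμA : μ ∈ A :=
      pts_mem_of_pow_eq_one A (pow_ne_zero (n + 1) hp.out.ne_zero) hμ
    have h1 : (μ ^ p) ^ p ^ n = 1 := by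
      rw [← pow_mul, ← pow_succ']
      exact hμ
    have h2 : A.valuation (μ ^ p - 1) < 1 := by
      rw [← geom_sum_mul, map_mul]
      have h3 : (∑ i ∈ Finset.range p, μ ^ i) ∈ A := sum_mem fun i _ => pow_mem hμA i
      exact mul_lt_one_of_nonneg_of_lt_one_right ((A.valuation_le_one_iff _).2 h3) zero_le hv
    exact pts_eq_one_of_pow_prime_eq_one hq hqp A hA (ih h1 h2) hv

/-- Inertia groups at `q ≠ p` fix the roots of unity of `p`-power order. -/
theorem pts_inertia_fixes_pow_root {q : ℕ} (hq : q.Prime) (hqp : q ≠ p)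
    (A : ValuationSubring Qbar) (hA : A.LiesOverPrime q) (σ : GQ)
    (hσ : σ ∈ A.inertiaSubgroupIn ℚ) {ζ : Qbar} {n : ℕ} (hζ : ζ ^ p ^ n = 1) : σ ζ = ζ := by
  have hm : p ^ n ≠ 0 := pow_ne_zero n hp.out.ne_zero
  have hζ0 : ζ ≠ 0 := fun h0 => by
    rw [h0, zero_pow hm] at hζ
    exact zero_ne_one hζ
  have hζA : ζ ∈ A := pts_mem_of_pow_eq_one A hm hζ
  have hζinvA : ζ⁻¹ ∈ A := pts_mem_of_pow_eq_one A hm (by rw [inv_pow, hζ, inv_one])
  obtain ⟨-, hI⟩ := ford_inertia_spec A σ hσ
  have h1 : σ ζ - ζ ∈ A.nonunits := hI ζ hζA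
  have hμ : (σ ζ * ζ⁻¹) ^ p ^ n = 1 := by
    rw [mul_pow, inv_pow, ← map_pow, hζ, map_one, inv_one, mul_one]
  have hv : A.valuation (σ ζ * ζ⁻¹ - 1) < 1 := by
    have : σ ζ * ζ⁻¹ - 1 = (σ ζ - ζ) * ζ⁻¹ := by
      rw [sub_mul, mul_inv_cancel₀ hζ0]
    rw [this, map_mul]
    exact mul_lt_one_of_nonneg_of_lt_one_left zero_le (A.mem_nonunits_iff.mp h1)
      ((A.valuation_le_one_iff _).2 hζinvA)
  have := pts_eq_one_of_pow_prime_pow_eq_one hq hqp A hA n hμ hv
  rwa [mul_inv_eq_one₀ hζ0] at this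

end Unram

section Level

variable (p : ℕ) [hp : Fact p.Prime] (n : ℕ)

/-- `ℚ(ζ_{p^n})` inside `Q̄` -/
noncomputable def pts_cycloPowField : IntermediateField ℚ Qbar := ℚ⟮pts_zetaPow p n⟯

variable {p n}

lemma pts_mem_fixingSubgroup_cycloPowField_iff (g : GQ) :
    g ∈ (pts_cycloPowField p n).fixingSubgroup ↔ g (pts_zetaPow p n) = pts_zetaPow p n := by
  rw [IntermediateField.mem_fixingSubgroup_iff]
  constructor
  · intro h
    exact h _ (mem_adjoin_simple_self ℚ _)
  · intro h x hx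
    have hle : pts_cycloPowField p n ≤ IntermediateField.fixedField (Subgroup.zpowers g) := by
      unfold pts_cycloPowField
      rw [adjoin_simple_le_iff, IntermediateField.mem_fixedField_iff]
      intro f hf
      obtain ⟨k, rfl⟩ := Subgroup.mem_zpowers_iff.mp hf
      have hfix : ∀ k : ℕ, (g ^ k) (pts_zetaPow p n) = pts_zetaPow p n := by
        intro k
        induction k with
        | zero => rfl
        | succ k ih => rw [pow_succ, AlgEquiv.mul_apply, h, ih]
      rcases Int.eq_nat_or_neg k with ⟨m, rfl | rfl⟩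
      · rw [zpow_natCast]; exact hfix m
      · rw [zpow_neg, zpow_natCast]
        have := hfix m
        conv_lhs => rw [← this]
        exact (g ^ m).symm_apply_apply _
    have := (IntermediateField.mem_fixedField_iff _ _).mp (hle hx) g (Subgroup.mem_zpowers g)
    exact this

lemma pts_fixingSubgroup_cycloPowField :
    (pts_cycloPowField p n).fixingSubgroup = (pts_cycloPow p n).ker := by
  ext g
  rw [pts_mem_fixingSubgroup_cycloPowField_iff, MonoidHom.mem_ker, pts_cycloPow_eq_one_iff]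

instance pts_cycloPowField_finiteDimensional : FiniteDimensional ℚ (pts_cycloPowField p n) :=
  IntermediateField.adjoin.finiteDimensional
    ((AlgebraicClosure.isAlgebraic ℚ).isAlgebraic _).isIntegral

lemma pts_cycloPowField_stable :
    ∀ σ : GQ, ∀ x ∈ pts_cycloPowField p n, σ x ∈ pts_cycloPowField p n := by
  intro σ x hx
  have hle : pts_cycloPowField p n ≤ (pts_cycloPowField p n).comap (σ : Qbar →ₐ[ℚ] Qbar) := by
    unfold pts_cycloPowField
    rw [adjoin_simple_le_iff]
    show σ (pts_zetaPow p n) ∈ ℚ⟮pts_zetaPow p n⟯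
    rw [pts_cycloPow_spec' σ (pts_zetaPow_spec p n).pow_eq_one]
    exact pow_mem (mem_adjoin_simple_self ℚ _) _
  exact hle hx

/-- `ℚ(ζ_{p^n})` is unramified outside any `S ∋ p`. -/
theorem pts_cycloPowField_unram (S : Finset Nat.Primes) (hpS : pPrime p ∈ S) :
    (pts_cycloPowField p n).IsUnramifiedOutside S := by
  refine ⟨inferInstance, fun q hq A hA σ hσ => ?_⟩
  rw [pts_mem_fixingSubgroup_cycloPowField_iff]
  have hqp : (q : ℕ) ≠ p := by
    intro h
    apply hq
    have : q = pPrime p := Subtype.ext h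
    rw [this]; exact hpS
  exact pts_inertia_fixes_pow_root q.2 hqp A hA σ hσ (pts_zetaPow_spec p n).pow_eq_one

/-- the mod `p^n` cyclotomic character is level-constant for the `S`-levels, `p ∈ S` -/
theorem pts_isLev₁_cycloPow (S : Finset Nat.Primes) (hpS : pPrime p ∈ S) :
    ptd_IsLev₁ (pta_levelsS S) (pts_cycloPow p n) := by
  refine ⟨(pts_cycloPowField p n).fixingSubgroup,
    pta_mem_levelsS (pts_cycloPowField_unram S hpS) pts_cycloPowField_stable,
    fun g s hs => ?_⟩
  rw [pts_fixingSubgroup_cycloPowField, MonoidHom.mem_ker] at hs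
  rw [map_mul, hs, mul_one]

end Level


section Tower

variable (p : ℕ) [hp : Fact p.Prime] (k : ℕ)

lemma pts_card_units_pow_succ : Nat.card (ZMod (p ^ (k + 1)))ˣ = p ^ k * (p - 1) := by
  rw [Nat.card_eq_fintype_card, ZMod.card_units_eq_totient, Nat.totient_prime_pow_succ hp.out]

lemma pts_pow_dvd_card_units : p ^ k ∣ Nat.card (ZMod (p ^ (k + 1)))ˣ := by
  rw [pts_card_units_pow_succ]
  exact dvd_mul_right _ _

variable (hp2 : p ≠ 2)

/-- a (non-canonical) isomorphism `(ℤ/p^{k+1})ˣ ≅ ℤ/p^k(p-1)`, `p` odd -/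
noncomputable def pts_unitsLog :
    (ZMod (p ^ (k + 1)))ˣ ≃* Multiplicative (ZMod (Nat.card (ZMod (p ^ (k + 1)))ˣ)) :=
  (zmodCyclicMulEquiv (ZMod.isCyclic_units_of_prime_pow p hp.out hp2 (k + 1))).symm

/-- **The cyclotomic `ℤ_p`-tower**: the character `χ_k : G_ℚ → ℤ/p^k` cutting out the `k`-th layer
of the cyclotomic `ℤ_p`-extension of `ℚ` (`p` odd). -/
noncomputable def pts_towerChar (g : GQ) : ZMod (p ^ k) :=
  ZMod.castHom (pts_pow_dvd_card_units p k) (ZMod (p ^ k))
    (Multiplicative.toAdd (pts_unitsLog p k hp2 (pts_cycloPow p (k + 1) g)))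

variable {p k}

lemma pts_towerChar_isChar : ptd_IsChar (pts_towerChar p k hp2) := by
  intro g h
  unfold pts_towerChar
  rw [map_mul, map_mul, toAdd_mul, map_add]

lemma pts_towerChar_isLev₁ (S : Finset Nat.Primes) (hpS : pPrime p ∈ S) :
    ptd_IsLev₁ (pta_levelsS S) (pts_towerChar p k hp2) :=
  (pts_isLev₁_cycloPow (n := k + 1) S hpS).comp fun u =>
    ZMod.castHom (pts_pow_dvd_card_units p k) (ZMod (p ^ k))
      (Multiplicative.toAdd (pts_unitsLog p k hp2 u))

theorem pts_towerChar_surjective : Function.Surjective (pts_towerChar p k hp2) := by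
  intro y
  obtain ⟨x, rfl⟩ := ZMod.castHom_surjective (pts_pow_dvd_card_units p k) y
  obtain ⟨u, hu⟩ := (pts_unitsLog p k hp2).surjective (Multiplicative.ofAdd x)
  obtain ⟨g, rfl⟩ := pts_cycloPow_surjective (p := p) (n := k + 1) u
  refine ⟨g, ?_⟩
  unfold pts_towerChar
  rw [hu, toAdd_ofAdd]

/-- `χ_k g = 0` iff `g` acts on `μ_{p^{k+1}}` through an element of order dividing `p - 1`. -/
theorem pts_towerChar_eq_zero_iff (g : GQ) :
    pts_towerChar p k hp2 g = 0 ↔ pts_cycloPow p (k + 1) g ^ (p - 1) = 1 := by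
  unfold pts_towerChar
  set u := pts_cycloPow p (k + 1) g with hu
  set x := Multiplicative.toAdd (pts_unitsLog p k hp2 u) with hx
  have h1 : u ^ (p - 1) = 1 ↔ (p - 1) • x = 0 := by
    rw [← (pts_unitsLog p k hp2).injective.eq_iff, map_pow, map_one]
    constructor
    · intro h
      have := congrArg Multiplicative.toAdd h
      rwa [toAdd_pow, toAdd_one] at this
    · intro h
      apply Multiplicative.toAdd.injective
      rwa [toAdd_pow, toAdd_one]
  rw [h1]
  have hm : Nat.card (ZMod (p ^ (k + 1)))ˣ = p ^ k * (p - 1) := pts_card_units_pow_succ p k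
  have hm0 : NeZero (Nat.card (ZMod (p ^ (k + 1)))ˣ) := by
    refine ⟨?_⟩
    rw [hm]
    exact Nat.mul_ne_zero (pow_ne_zero k hp.out.ne_zero) (Nat.sub_pos_of_lt hp.out.one_lt).ne'
  have hx' : x = ((x.val : ℕ) : ZMod (Nat.card (ZMod (p ^ (k + 1)))ˣ)) :=
    (ZMod.natCast_zmod_val x).symm
  have hp1 : 0 < p - 1 := Nat.sub_pos_of_lt hp.out.one_lt
  constructor
  · intro h
    rw [hx', map_natCast, ZMod.natCast_eq_zero_iff] at h
    rw [hx', nsmul_eq_mul, ← Nat.cast_mul, ZMod.natCast_eq_zero_iff]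
    refine (dvd_of_eq hm).trans ?_
    rw [mul_comm (p - 1)]
    exact Nat.mul_dvd_mul_right h (p - 1)
  · intro h
    rw [hx', nsmul_eq_mul, ← Nat.cast_mul, ZMod.natCast_eq_zero_iff] at h
    have h' : p ^ k * (p - 1) ∣ x.val * (p - 1) := by
      rw [mul_comm x.val]
      exact (dvd_of_eq hm.symm).trans h
    rw [hx', map_natCast, ZMod.natCast_eq_zero_iff]
    exact Nat.dvd_of_mul_dvd_mul_right hp1 h'

end Tower

end Fermat.Agent.Lib.PT
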