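/-
G3 (first inequality), part I: the local norm index in the embedding model,
`[F_φˣ : N K_σˣ] = #Γ_σ` for a cyclic Galois group, from the local norm index theorem
`pti_local_norm_index`.
-/
import Fermat.Agent.Lib.PT.HerbLocalB
import Fermat.Agent.Lib.PT.GModUnrA

set_option autoImplicit false
set_option linter.unusedSectionVars false
set_option linter.unusedVariables false
set_option linter.style.haveILetI false

noncomputable section

namespace Fermat.Agent.Lib.PT

variable {F K : Type*} [Field F] [Field K] [Algebra F K] {q : Nat.Primes}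
variable {Γ : Type*} [Group Γ] [MulSemiringAction Γ K] [Finite Γ] [IsGaloisGroup Γ F K]

/-- The local norm of the embedding model is the norm map of `K_σ/F_φ` on units, through the
canonical identifications. -/
theorem cfh_locNorm_comm (σ : ptj_Emb K q) [FiniteDimensional ℚ_[(q : ℕ)] ↥(ptj_Kσ σ)]
    [FiniteDimensional (ptj_Kσ (ptj_resEmb (F := F) σ)) (ptj_Krel F σ)]
    [IsGalois (ptj_Kσ (ptj_resEmb (F := F) σ)) (ptj_Krel F σ)]
    (a : ptj_KσU σ) :
    (ptj_KσUEquiv (ptj_resEmb (F := F) σ)).symm (ptj_locNorm F Γ σ a) =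
      pti_normU ↥(ptj_Kσ (ptj_resEmb (F := F) σ)) ↥(ptj_Krel F σ) (ptj_KrelUEquiv F σ a) := by
  apply Units.ext
  apply Subtype.ext
  rw [pti_normU_val]
  exact ptj_locNorm_eq_algebraNorm (F := F) (Γ := Γ) σ a

/-- **Local norm index** in the embedding model, for a cyclic group `Γ`. -/
theorem cfh_locNorm_index [IsCyclic Γ] (σ : ptj_Emb K q)
    [FiniteDimensional ℚ_[(q : ℕ)] ↥(ptj_Kσ σ)] :
    (ptj_locNorm F Γ σ).range.index = Nat.card (ptj_decomp Γ σ) := by
  haveI := ptj_isGalois_Krel (F := F) Γ σ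
  haveI : FiniteDimensional (ptj_Kσ (ptj_resEmb (F := F) σ)) (ptj_Krel F σ) :=
    IsGaloisGroup.finiteDimensional (ptj_decomp Γ σ) _ _
  -- the local Galois group is cyclic
  haveI : IsCyclic (ptj_decomp Γ σ) := Subgroup.isCyclic _
  haveI : IsCyclic (ptj_Krel F σ ≃ₐ[ptj_Kσ (ptj_resEmb (F := F) σ)] ptj_Krel F σ) :=
    isCyclic_of_surjective (ptj_decompEquiv (F := F) (Γ := Γ) σ)
      (ptj_decompEquiv (F := F) (Γ := Γ) σ).surjective
  obtain ⟨τ, hτ⟩ := IsCyclic.exists_generator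
    (α := ptj_Krel F σ ≃ₐ[ptj_Kσ (ptj_resEmb (F := F) σ)] ptj_Krel F σ)
  have key := pti_local_norm_index (q : ℕ) ↥(ptj_Kσ (ptj_resEmb (F := F) σ)) ↥(ptj_Krel F σ) τ hτ
  rw [ptj_card_decomp (F := F), ← key]
  -- transport along the identifications
  have hmap : (ptj_locNorm F Γ σ).range.map
      ((ptj_KσUEquiv (ptj_resEmb (F := F) σ)).symm :
        ptj_KσU (ptj_resEmb (F := F) σ) →* (ptj_Kσ (ptj_resEmb (F := F) σ))ˣ) =
      (pti_normU ↥(ptj_Kσ (ptj_resEmb (F := F) σ)) ↥(ptj_Krel F σ)).range := by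
    ext y
    constructor
    · rintro ⟨_, ⟨a, rfl⟩, rfl⟩
      exact ⟨ptj_KrelUEquiv F σ a, (cfh_locNorm_comm (Γ := Γ) σ a).symm⟩
    · rintro ⟨b, rfl⟩
      refine ⟨ptj_locNorm F Γ σ ((ptj_KrelUEquiv F σ).symm b), ⟨_, rfl⟩, ?_⟩
      have h := cfh_locNorm_comm (F := F) (Γ := Γ) σ ((ptj_KrelUEquiv F σ).symm b)
      rw [MulEquiv.apply_symm_apply] at h
      exact h
  rw [← hmap, Subgroup.index_map_equiv]

end Fermat.Agent.Lib.PT

end
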