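/-
G3 (first inequality), part J: final forms.  All class-group and local-index inputs discharged;
remaining hypotheses: "units are norms" and "Hilbert 90 for units" outside a finite set `T`
(automatic for extensions unramified outside `T`, see `GModUnr*`).
-/
import Fermat.Agent.Lib.PT.FirstH
import Fermat.Agent.Lib.PT.FirstI
import Fermat.Agent.Lib.PT.GPlaceClC

set_option autoImplicit false
set_option linter.unusedSectionVars false
set_option linter.unusedVariables false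
set_option linter.style.haveILetI false

noncomputable section

namespace Fermat.Agent.Lib.PT

open IsDedekindDomain NumberField

variable {F K : Type*} [Field F] [NumberField F] [Field K] [NumberField K] [Algebra F K]

/-- The local norm index hypothesis of `cfh_first_inequality` holds for cyclic groups. -/
theorem cfh_hloc [IsGalois F K] [IsCyclic (K ≃ₐ[F] K)] (q : Nat.Primes) (σ : ptj_Emb K q) :
    (ptj_locNorm F (K ≃ₐ[F] K) σ).range.index = Nat.card (ptj_decomp (K ≃ₐ[F] K) σ) :=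
  cfh_locNorm_index (F := F) (Γ := K ≃ₐ[F] K) σ

/-- **First inequality**: the Herbrand quotient of `C_T(K)` is `p`, for `K/F` cyclic of odd prime
degree `p`, `T` nonempty with `J_K = Kˣ · J_{K,T}` and `K/F` "unramified outside `T`". -/
theorem cfh_first_inequality' [IsGalois F K] {p : ℕ} (hp : p.Prime) (hp2 : p ≠ 2)
    (hdeg : Module.finrank F K = p) (γ : K ≃ₐ[F] K)
    (hγ : ∀ τ : K ≃ₐ[F] K, τ ∈ Subgroup.zpowers γ)
    (T : Finset Nat.Primes) (hT : T.Nonempty)
    (hcl : ptj_principal K ⊔ ptj_JT K T = ⊤)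
    (hunrN : ∀ q ∉ T, ∀ σ : ptj_Emb K q, ptj_UnitsAreNorms F (K ≃ₐ[F] K) σ)
    (hunrH : ∀ q, q ∉ T → ∀ σ : ptj_Emb K q, ptj_UnitsH90 (K ≃ₐ[F] K) σ) :
    (cfh_NCT K T γ p).range.relIndex (cfh_DCT K T γ).ker ≠ 0 ∧
    (cfh_DCT K T γ).range.relIndex (cfh_NCT K T γ p).ker ≠ 0 ∧
    (cfh_NCT K T γ p).range.relIndex (cfh_DCT K T γ).ker =
      p * (cfh_DCT K T γ).range.relIndex (cfh_NCT K T γ p).ker := by
  haveI : IsCyclic (K ≃ₐ[F] K) := ⟨⟨γ, hγ⟩⟩
  exact cfh_first_inequality hp hp2 hdeg γ hγ T hT hcl hunrN hunrH cfh_hloc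

/-- **Weak first inequality** `Fˣ · N J_K ≠ J_F` for `K/F` Galois of odd prime degree `p`,
"unramified outside `T`". -/
theorem cfh_weak_first_inequality [IsGalois F K] {p : ℕ} (hp : p.Prime) (hp2 : p ≠ 2)
    (hdeg : Module.finrank F K = p) (T : Finset Nat.Primes)
    (hunrN : ∀ q ∉ T, ∀ σ : ptj_Emb K q, ptj_UnitsAreNorms F (K ≃ₐ[F] K) σ)
    (hunrH : ∀ q, q ∉ T → ∀ σ : ptj_Emb K q, ptj_UnitsH90 (K ≃ₐ[F] K) σ) :
    ptj_principal F ⊔ (ptj_norm (K := K) F (K ≃ₐ[F] K)).range ≠ ⊤ := by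
  classical
  obtain ⟨T₀, hT₀⟩ := ptk_class_group K
  have hcard : Nat.card (K ≃ₐ[F] K) = p := by rw [IsGalois.card_aut_eq_finrank, hdeg]
  haveI : Fact p.Prime := ⟨hp⟩
  haveI : IsCyclic (K ≃ₐ[F] K) := isCyclic_of_prime_card hcard
  obtain ⟨γ, hγ⟩ := IsCyclic.exists_generator (α := K ≃ₐ[F] K)
  set T' : Finset Nat.Primes := T ∪ T₀ ∪ {⟨2, Nat.prime_two⟩} with hT'
  have h1 : T ⊆ T' := fun q hq => Finset.mem_union_left _ (Finset.mem_union_left _ hq)
  have h2 : T₀ ⊆ T' := fun q hq => Finset.mem_union_left _ (Finset.mem_union_right _ hq)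
  have h3 : T'.Nonempty := ⟨⟨2, Nat.prime_two⟩, Finset.mem_union_right _ (Finset.mem_singleton_self _)⟩
  exact cfh_weak_first_inequality_aux hp hp2 hdeg γ hγ T' h3 (hT₀ T' h2)
    (fun q hq σ => hunrN q (fun h => hq (h1 h)) σ)
    (fun q hq σ => hunrH q (fun h => hq (h1 h)) σ) cfh_hloc

end Fermat.Agent.Lib.PT

end
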