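/-
S55 (Poitou–Tate long-haul), GLOBAL DICTIONARY: the archimedean place drops for `p` odd.
* averaging: for a finite group whose order is invertible in `k`, 1- and 2-cocycles are
  coboundaries, with the explicit primitive `g ↦ |H|⁻¹ ∑_j f (g, j)`;
* the archimedean decomposition group `⟨c⟩` has order dividing `2`;
* `continuousH2 archimedeanLoc (Rep.res archimedeanLoc M)` and `H1 (Rep.res archimedeanLoc A)` are
  trivial for `ZMod p`-representations, `p` odd;
* `sha₁`, `sha₂` are cut out by the conditions at the primes `q ∈ S` only.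
-/
import Mathlib
import Fermat.Prelude.Def_GroupCohomology_ContinuousUnramified

set_option autoImplicit false
set_option linter.unusedSectionVars false

namespace Fermat.Agent.Lib.PT

open groupCohomology CategoryTheory ExtCitation

universe u

section averaging

variable {k H : Type u} [CommRing k] [Group H] [Fintype H] (A : Rep.{u} k H)
  (c : k) (hc : c * (Fintype.card H : k) = 1)

include hc in
/-- averaging in degree 1 -/
theorem pta_cocycle₁_eq_d₀₁ (f : H → A.V) (hf : f ∈ cocycles₁ A) :
    (d₀₁ A).hom (-(c • ∑ j : H, f j)) = f := by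
  rw [mem_cocycles₁_iff] at hf
  funext g
  rw [d₀₁_hom_apply]
  have h1 : ∑ j : H, f (g * j) = A.ρ g (∑ j : H, f j) + (Fintype.card H : k) • f g := by
    simp only [hf, Finset.sum_add_distrib, map_sum, Finset.sum_const, Finset.card_univ,
      Nat.cast_smul_eq_nsmul]
  have h2 : ∑ j : H, f (g * j) = ∑ j : H, f j :=
    Fintype.sum_equiv (Equiv.mulLeft g) _ _ (fun _ => rfl)
  rw [h2] at h1
  have h3 : f g = c • ((Fintype.card H : k) • f g) := by
    rw [smul_smul, hc, one_smul]
  have h4 : (Fintype.card H : k) • f g = ∑ j : H, f j - A.ρ g (∑ j : H, f j) := by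
    rw [eq_sub_iff_add_eq']; exact h1.symm
  rw [h3, h4]
  simp only [map_neg, map_smul, smul_sub]
  abel

include hc in
/-- averaging in degree 2 -/
theorem pta_cocycle₂_eq_d₁₂ (f : H × H → A.V) (hf : f ∈ cocycles₂ A) :
    (d₁₂ A).hom (fun g => c • ∑ j : H, f (g, j)) = f := by
  rw [mem_cocycles₂_iff] at hf
  funext ⟨g, h⟩
  rw [d₁₂_hom_apply]
  have h1 : ∑ j : H, f (g * h, j) + (Fintype.card H : k) • f (g, h) =
      A.ρ g (∑ j : H, f (h, j)) + ∑ j : H, f (g, h * j) := by
    have : ∀ j : H, f (g * h, j) + f (g, h) = A.ρ g (f (h, j)) + f (g, h * j) := fun j => hf g h j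
    have h' := congrArg (fun F : H → A.V => ∑ j : H, F j) (funext this)
    simpa only [Finset.sum_add_distrib, map_sum, Finset.sum_const, Finset.card_univ,
      Nat.cast_smul_eq_nsmul] using h'
  have h2 : ∑ j : H, f (g, h * j) = ∑ j : H, f (g, j) :=
    Fintype.sum_equiv (Equiv.mulLeft h) _ _ (fun _ => rfl)
  rw [h2] at h1
  have h3 : f (g, h) = c • ((Fintype.card H : k) • f (g, h)) := by
    rw [smul_smul, hc, one_smul]
  have h4 : (Fintype.card H : k) • f (g, h) =
      A.ρ g (∑ j : H, f (h, j)) + ∑ j : H, f (g, j) - ∑ j : H, f (g * h, j) := by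
    rw [← h1]; abel
  rw [h3, h4]
  simp only [map_smul, smul_sub, smul_add]
  abel

end averaging

section arch

local notation "GQ" => (AlgebraicClosure ℚ ≃ₐ[ℚ] AlgebraicClosure ℚ)

lemma pta_finite_arch : Finite ↥archimedeanDecomposition := by
  unfold archimedeanDecomposition
  rw [Subgroup.zpowers_eq_closure, ← Subgroup.zpowers_eq_closure]
  exact (isOfFinOrder_iff_pow_eq_one.mpr ⟨2, by norm_num, complexConjugation_sq⟩).finite_zpowers

lemma pta_card_arch_dvd : Nat.card ↥archimedeanDecomposition ∣ 2 := by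
  unfold archimedeanDecomposition
  rw [Nat.card_zpowers]
  exact orderOf_dvd_of_pow_eq_one complexConjugation_sq

variable {p : ℕ} [Fact p.Prime]

/-- the inverse of the order of `⟨c⟩` in `ZMod p`, `p` odd -/
lemma pta_exists_inv_card_arch (hp2 : p ≠ 2) [Fintype ↥archimedeanDecomposition] :
    ∃ c : ZMod p, c * (Fintype.card ↥archimedeanDecomposition : ZMod p) = 1 := by
  have hp : p.Prime := Fact.out
  have h1 : Fintype.card ↥archimedeanDecomposition ∣ 2 := by
    rw [← Nat.card_eq_fintype_card]; exact pta_card_arch_dvd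
  have h2 : Nat.Coprime (Fintype.card ↥archimedeanDecomposition) p := by
    apply Nat.Coprime.coprime_dvd_left h1
    rw [Nat.coprime_primes Nat.prime_two hp]
    exact fun h => hp2 h.symm
  have h3 : IsUnit ((Fintype.card ↥archimedeanDecomposition : ℕ) : ZMod p) :=
    (ZMod.isUnit_iff_coprime _ _).2 h2
  obtain ⟨u, hu⟩ := h3
  exact ⟨((u⁻¹ : (ZMod p)ˣ) : ZMod p), by rw [← hu]; exact u.inv_mul⟩

/-- `H¹(⟨c⟩, A) = 0` for `p` odd. -/
theorem pta_subsingleton_H1_arch (hp2 : p ≠ 2) (A : Rep.{0} (ZMod p) ↥archimedeanDecomposition) :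
    Subsingleton (H1 A) := by
  have := pta_finite_arch
  have : Fintype ↥archimedeanDecomposition := Fintype.ofFinite _
  obtain ⟨c, hc⟩ := pta_exists_inv_card_arch (p := p) hp2
  refine ⟨fun x y => ?_⟩
  have key : ∀ x : H1 A, x = 0 := by
    intro x
    induction x using H1_induction_on with | @h z =>
    exact (H1π_eq_zero_iff z).2 ⟨_, pta_cocycle₁_eq_d₀₁ A c hc z z.2⟩
  rw [key x, key y]

/-- `H²_cts(⟨c⟩, A) = 0` for `p` odd (the Prelude's `continuousH2` along `archimedeanLoc`). -/
theorem pta_subsingleton_continuousH2_arch (hp2 : p ≠ 2)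
    (A : Rep.{0} (ZMod p) ↥archimedeanDecomposition) :
    Subsingleton (continuousH2 archimedeanLoc A) := by
  have := pta_finite_arch
  have : Fintype ↥archimedeanDecomposition := Fintype.ofFinite _
  obtain ⟨c, hc⟩ := pta_exists_inv_card_arch (p := p) hp2
  refine ⟨fun x y => ?_⟩
  have key : ∀ x : continuousH2 archimedeanLoc A, x = 0 := by
    intro x
    obtain ⟨z, rfl⟩ := Submodule.mkQ_surjective _ x
    show continuousH2π archimedeanLoc A z = 0
    rw [continuousH2π_eq_zero_iff, mem_levelCoboundaries₂_iff]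
    let u : ↥archimedeanDecomposition → A.V := fun g => c • ∑ j : ↥archimedeanDecomposition,
      (z.1 : ↥archimedeanDecomposition × ↥archimedeanDecomposition → A.V) (g, j)
    have hu : (d₁₂ A).hom u = z.1 := pta_cocycle₂_eq_d₁₂ A c hc _ z.2.1
    refine ⟨u, ?_, hu⟩
    obtain ⟨F, hF, hinv⟩ := z.2.2
    refine ⟨F, hF, fun g s hs => ?_⟩
    have h1 : archimedeanLoc (1 : ↥archimedeanDecomposition) ∈ F.fixingSubgroup := by
      rw [map_one]; exact Subgroup.one_mem _
    show c • _ = c • _
    congr 1
    refine Finset.sum_congr rfl fun j _ => ?_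
    have := hinv g j s 1 hs h1
    rwa [mul_one] at this
  rw [key x, key y]

end arch

section sha

local notation "GQ" => (AlgebraicClosure ℚ ≃ₐ[ℚ] AlgebraicClosure ℚ)

variable {p : ℕ} [Fact p.Prime] (S : Finset Nat.Primes)

/-- For `p` odd, `sha₂` is cut out by the conditions at the primes of `S` only. -/
theorem pta_mem_sha₂_iff (hp2 : p ≠ 2) (M : Rep.{0} (ZMod p) GQ) (x : continuousH2S S M) :
    x ∈ sha₂ S M ↔ ∀ q : ↥S, locRes₂S S M (primeLocalToGlobal q.1) x = 0 := by
  unfold sha₂
  rw [LinearMap.mem_ker]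
  constructor
  · intro h q
    have := congrFun h (Sum.inr q)
    exact this
  · intro h
    funext v
    rcases v with u | q
    · have := pta_subsingleton_continuousH2_arch hp2 (Rep.res archimedeanLoc M)
      exact Subsingleton.elim (α := continuousH2 archimedeanLoc (Rep.res archimedeanLoc M)) _ _
    · exact h q

/-- For `p` odd, `sha₁` is cut out by the conditions at the primes of `S` only. -/
theorem pta_mem_sha₁_iff (hp2 : p ≠ 2) (A : Rep.{0} (ZMod p) GQ) (x : H1 A) :
    x ∈ sha₁ S A ↔ x ∈ continuousH1S S A ∧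
      ∀ q : ↥S, (locRes (extArithLoc S) A (Sum.inr q)).hom x = 0 := by
  unfold sha₁
  rw [Submodule.mem_inf, LinearMap.mem_ker]
  refine and_congr_right fun _ => ?_
  constructor
  · intro h q
    exact congrFun h (Sum.inr q)
  · intro h
    funext v
    rcases v with u | q
    · have := pta_subsingleton_H1_arch hp2 (Rep.res archimedeanLoc A)
      exact Subsingleton.elim (α := H1 (Rep.res archimedeanLoc A)) _ _
    · exact h q

end sha

end Fermat.Agent.Lib.PT
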