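/-
S55 long haul: the archimedean inputs in the exact shape consumed by the S-track
(`SeqESha.range_deltaL`'s `hinf`, and the `Sum.inl` component of (C)).
-/
import Fermat.Agent.Lib.PT.GLevelArch

set_option autoImplicit false

namespace Fermat.Agent.Lib.PT

open groupCohomology CategoryTheory ExtCitation

local notation "GQ" => (AlgebraicClosure ℚ ≃ₐ[ℚ] AlgebraicClosure ℚ)

variable {p : ℕ} [Fact p.Prime] (S : Finset Nat.Primes)

/-- `H¹(ℝ, A) = 0` for `p` odd, at the archimedean index of `extArithLoc S`. -/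
theorem pta_H1_inl_eq_zero (hp2 : p ≠ 2) (A : Rep.{0} (ZMod p) GQ) (u : Unit)
    (y : H1 (Rep.res (extArithLoc S (Sum.inl u)) A)) : y = 0 := by
  have := pta_subsingleton_H1_arch hp2 (Rep.res archimedeanLoc A)
  exact Subsingleton.elim (α := H1 (Rep.res archimedeanLoc A)) _ _

/-- `H²_cts(ℝ, M) = 0` for `p` odd, at the archimedean index of `extArithLoc S`. -/
theorem pta_continuousH2_inl_eq_zero (hp2 : p ≠ 2) (M : Rep.{0} (ZMod p) GQ) (u : Unit)
    (y : continuousH2 (extArithLoc S (Sum.inl u)) (Rep.res (extArithLoc S (Sum.inl u)) M)) :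
    y = 0 := by
  have := pta_subsingleton_continuousH2_arch hp2 (Rep.res archimedeanLoc M)
  exact Subsingleton.elim (α := continuousH2 archimedeanLoc (Rep.res archimedeanLoc M)) _ _

/-- the archimedean component of (C) in nondegeneracy form holds trivially -/
theorem pta_hC_inl (hp2 : p ≠ 2) (M : Rep.{0} (ZMod p) GQ) (u : Unit) {P : Type*}
    (b : P → continuousH2 (extArithLoc S (Sum.inl u)) (Rep.res (extArithLoc S (Sum.inl u)) M) →
      ZMod p)
    (y : continuousH2 (extArithLoc S (Sum.inl u)) (Rep.res (extArithLoc S (Sum.inl u)) M))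
    (_h : ∀ x0 : P, b x0 y = 0) : y = 0 :=
  pta_continuousH2_inl_eq_zero S hp2 M u y

end Fermat.Agent.Lib.PT
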