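/-
S55 long haul, S-track glue: CLASSES of big-model cocycles in the Prelude's `continuousH2S S M`
and `continuousH2 r A`, and the construction of (additive / linear) maps OUT of these groups from
functions on big-model level cocycles which are additive and kill level coboundaries
(`pta_H2S_lift`, `pta_H2R_lift`): this is how `a f [z] := inv_G (f ∘ z)` and
`b_q φ [z'] := inv_q (ζ_q ∘ φ ∘ z')` become maps on cohomology.
-/
import Fermat.Agent.Lib.PT.GLevelAdt
import Fermat.Agent.Lib.PT.GLevelLoc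

set_option autoImplicit false
set_option linter.unusedSectionVars false

universe u

namespace Fermat.Agent.Lib.PT

open groupCohomology

local notation "GQ" => (AlgebraicClosure ℚ ≃ₐ[ℚ] AlgebraicClosure ℚ)

section globalS

variable {k : Type} [CommRing k] (S : Finset Nat.Primes) (M : Rep.{0} k GQ)

/-- the class in `continuousH2S S M` of a big-model level 2-cocycle -/
noncomputable def pta_classH2S (z : GQ × GQ → M.V) (hz : ptd_IsLZ2 (pta_levelsS S) M.ρ z) :
    continuousH2S S M :=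
  continuousH2Sπ S M ⟨z, (pta_isLZ2_iff M z).1 hz⟩

lemma pta_classH2S_coe (z : levelCocyclesS₂ S M) :
    pta_classH2S S M (z : GQ × GQ → M.V) ((pta_isLZ2_iff M _).2 z.2) = continuousH2Sπ S M z :=
  rfl

theorem pta_classH2S_surjective (x : continuousH2S S M) :
    ∃ z hz, pta_classH2S S M z hz = x := by
  obtain ⟨⟨z, hz⟩, rfl⟩ := Submodule.Quotient.mk_surjective _ x
  exact ⟨z, (pta_isLZ2_iff M z).2 hz, rfl⟩

theorem pta_classH2S_eq_zero_iff (z : GQ × GQ → M.V) (hz : ptd_IsLZ2 (pta_levelsS S) M.ρ z) :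
    pta_classH2S S M z hz = 0 ↔ ptd_IsB2 (pta_levelsS S) M.ρ z := by
  unfold pta_classH2S
  rw [continuousH2Sπ_eq_zero_iff, pta_isB2_iff]

theorem pta_classH2S_eq_iff (z z' : GQ × GQ → M.V) (hz : ptd_IsLZ2 (pta_levelsS S) M.ρ z)
    (hz' : ptd_IsLZ2 (pta_levelsS S) M.ρ z') :
    pta_classH2S S M z hz = pta_classH2S S M z' hz' ↔
      ptd_IsB2 (pta_levelsS S) M.ρ (z - z') := by
  unfold pta_classH2S
  rw [← sub_eq_zero, ← map_sub, continuousH2Sπ_eq_zero_iff, pta_isB2_iff]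
  rfl

theorem pta_classH2S_add (z z' : GQ × GQ → M.V) (hz : ptd_IsLZ2 (pta_levelsS S) M.ρ z)
    (hz' : ptd_IsLZ2 (pta_levelsS S) M.ρ z') (hzz' : ptd_IsLZ2 (pta_levelsS S) M.ρ (z + z')) :
    pta_classH2S S M (z + z') hzz' = pta_classH2S S M z hz + pta_classH2S S M z' hz' := by
  unfold pta_classH2S
  rw [← map_add]
  rfl

theorem pta_classH2S_smul (c : k) (z : GQ × GQ → M.V) (hz : ptd_IsLZ2 (pta_levelsS S) M.ρ z)
    (hcz : ptd_IsLZ2 (pta_levelsS S) M.ρ (c • z)) :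
    pta_classH2S S M (c • z) hcz = c • pta_classH2S S M z hz := by
  unfold pta_classH2S
  rw [← map_smul]
  rfl

/-- the sum of two big-model level cocycles is one (via the Prelude's submodule) -/
lemma pta_isLZ2_add {z z' : GQ × GQ → M.V} (hz : ptd_IsLZ2 (pta_levelsS S) M.ρ z)
    (hz' : ptd_IsLZ2 (pta_levelsS S) M.ρ z') : ptd_IsLZ2 (pta_levelsS S) M.ρ (z + z') :=
  (pta_isLZ2_iff M _).2 ((levelCocyclesS₂ S M).add_mem ((pta_isLZ2_iff M _).1 hz)
    ((pta_isLZ2_iff M _).1 hz'))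

lemma pta_isLZ2_smul (c : k) {z : GQ × GQ → M.V} (hz : ptd_IsLZ2 (pta_levelsS S) M.ρ z) :
    ptd_IsLZ2 (pta_levelsS S) M.ρ (c • z) :=
  (pta_isLZ2_iff M _).2 ((levelCocyclesS₂ S M).smul_mem c ((pta_isLZ2_iff M _).1 hz))

variable {Y : Type*} [AddCommGroup Y]

/-- **Maps out of `continuousH2S S M`** (additive version): a function on cochains which is
additive on big-model level cocycles and kills big-model level coboundaries. -/
noncomputable def pta_H2S_liftAdd (Φ : (GQ × GQ → M.V) → Y)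
    (hadd : ∀ z z', ptd_IsLZ2 (pta_levelsS S) M.ρ z → ptd_IsLZ2 (pta_levelsS S) M.ρ z' →
      Φ (z + z') = Φ z + Φ z')
    (hB : ∀ z, ptd_IsB2 (pta_levelsS S) M.ρ z → Φ z = 0) : continuousH2S S M →+ Y :=
  QuotientAddGroup.lift _
    ({ toFun := fun z => Φ (z : GQ × GQ → M.V)
       map_zero' := by
        have h0 : ptd_IsLZ2 (pta_levelsS S) M.ρ (0 : GQ × GQ → M.V) :=
          (pta_isLZ2_iff M _).2 (levelCocyclesS₂ S M).zero_mem
        have := hadd 0 0 h0 h0
        rw [add_zero] at this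
        exact (add_eq_left.mp this.symm)
       map_add' := fun z z' => hadd _ _ ((pta_isLZ2_iff M _).2 z.2) ((pta_isLZ2_iff M _).2 z'.2) } :
      ↥(levelCocyclesS₂ S M) →+ Y)
    (by
      intro z hz
      rw [AddMonoidHom.mem_ker]
      exact hB _ ((pta_isB2_iff M _).2 hz))

theorem pta_H2S_liftAdd_class (Φ : (GQ × GQ → M.V) → Y)
    (hadd : ∀ z z', ptd_IsLZ2 (pta_levelsS S) M.ρ z → ptd_IsLZ2 (pta_levelsS S) M.ρ z' →
      Φ (z + z') = Φ z + Φ z')
    (hB : ∀ z, ptd_IsB2 (pta_levelsS S) M.ρ z → Φ z = 0)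
    (z : GQ × GQ → M.V) (hz : ptd_IsLZ2 (pta_levelsS S) M.ρ z) :
    pta_H2S_liftAdd S M Φ hadd hB (pta_classH2S S M z hz) = Φ z := rfl

end globalS

section globalZMod

variable {p : ℕ} (S : Finset Nat.Primes) (M : Rep.{0} (ZMod p) GQ)
variable {Y : Type*} [AddCommGroup Y] [Module (ZMod p) Y]

/-- **Maps out of `continuousH2S S M`**, `ZMod p`-linear version (additivity suffices). -/
noncomputable def pta_H2S_liftZMod (Φ : (GQ × GQ → M.V) → Y)
    (hadd : ∀ z z', ptd_IsLZ2 (pta_levelsS S) M.ρ z → ptd_IsLZ2 (pta_levelsS S) M.ρ z' →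
      Φ (z + z') = Φ z + Φ z')
    (hB : ∀ z, ptd_IsB2 (pta_levelsS S) M.ρ z → Φ z = 0) : continuousH2S S M →ₗ[ZMod p] Y :=
  (pta_H2S_liftAdd S M Φ hadd hB).toZModLinearMap p

theorem pta_H2S_liftZMod_class (Φ : (GQ × GQ → M.V) → Y)
    (hadd : ∀ z z', ptd_IsLZ2 (pta_levelsS S) M.ρ z → ptd_IsLZ2 (pta_levelsS S) M.ρ z' →
      Φ (z + z') = Φ z + Φ z')
    (hB : ∀ z, ptd_IsB2 (pta_levelsS S) M.ρ z → Φ z = 0)
    (z : GQ × GQ → M.V) (hz : ptd_IsLZ2 (pta_levelsS S) M.ρ z) :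
    pta_H2S_liftZMod S M Φ hadd hB (pta_classH2S S M z hz) = Φ z := rfl

end globalZMod

section localR

variable {G : Type u} [Group G] (r : G →* GQ) {k : Type u} [CommRing k] (A : Rep.{u} k G)

/-- the class in `continuousH2 r A` of a big-model level 2-cocycle (for the level structure
`pta_levelsR r`; `= ptg_classH2` of `BridgeK`, by `rfl`) -/
noncomputable def pta_classH2R (z : G × G → A.V) (hz : ptd_IsLZ2 (pta_levelsR r) A.ρ z) :
    continuousH2 r A :=
  continuousH2π r A ⟨z, (pta_isLZ2R_iff A z).1 hz⟩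

theorem pta_classH2R_surjective (x : continuousH2 r A) :
    ∃ z hz, pta_classH2R r A z hz = x := by
  obtain ⟨⟨z, hz⟩, rfl⟩ := Submodule.Quotient.mk_surjective _ x
  exact ⟨z, (pta_isLZ2R_iff A z).2 hz, rfl⟩

theorem pta_classH2R_eq_zero_iff (z : G × G → A.V) (hz : ptd_IsLZ2 (pta_levelsR r) A.ρ z) :
    pta_classH2R r A z hz = 0 ↔ ptd_IsB2 (pta_levelsR r) A.ρ z := by
  unfold pta_classH2R
  rw [continuousH2π_eq_zero_iff, pta_isB2R_iff]

theorem pta_classH2R_add (z z' : G × G → A.V) (hz : ptd_IsLZ2 (pta_levelsR r) A.ρ z)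
    (hz' : ptd_IsLZ2 (pta_levelsR r) A.ρ z') (hzz' : ptd_IsLZ2 (pta_levelsR r) A.ρ (z + z')) :
    pta_classH2R r A (z + z') hzz' = pta_classH2R r A z hz + pta_classH2R r A z' hz' := by
  unfold pta_classH2R
  rw [← map_add]
  rfl

lemma pta_isLZ2R_add {z z' : G × G → A.V} (hz : ptd_IsLZ2 (pta_levelsR r) A.ρ z)
    (hz' : ptd_IsLZ2 (pta_levelsR r) A.ρ z') : ptd_IsLZ2 (pta_levelsR r) A.ρ (z + z') :=
  (pta_isLZ2R_iff A _).2 ((levelCocycles₂ r A).add_mem ((pta_isLZ2R_iff A _).1 hz)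
    ((pta_isLZ2R_iff A _).1 hz'))

variable {Y : Type*} [AddCommGroup Y]

/-- **Maps out of `continuousH2 r A`** (additive version). -/
noncomputable def pta_H2R_liftAdd (Φ : (G × G → A.V) → Y)
    (hadd : ∀ z z', ptd_IsLZ2 (pta_levelsR r) A.ρ z → ptd_IsLZ2 (pta_levelsR r) A.ρ z' →
      Φ (z + z') = Φ z + Φ z')
    (hB : ∀ z, ptd_IsB2 (pta_levelsR r) A.ρ z → Φ z = 0) : continuousH2 r A →+ Y :=
  QuotientAddGroup.lift _
    ({ toFun := fun z => Φ (z : G × G → A.V)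
       map_zero' := by
        have h0 : ptd_IsLZ2 (pta_levelsR r) A.ρ (0 : G × G → A.V) :=
          (pta_isLZ2R_iff A _).2 (levelCocycles₂ r A).zero_mem
        have := hadd 0 0 h0 h0
        rw [add_zero] at this
        exact (add_eq_left.mp this.symm)
       map_add' := fun z z' =>
        hadd _ _ ((pta_isLZ2R_iff A _).2 z.2) ((pta_isLZ2R_iff A _).2 z'.2) } :
      ↥(levelCocycles₂ r A) →+ Y)
    (by
      intro z hz
      rw [AddMonoidHom.mem_ker]
      exact hB _ ((pta_isB2R_iff A _).2 hz))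

theorem pta_H2R_liftAdd_class (Φ : (G × G → A.V) → Y)
    (hadd : ∀ z z', ptd_IsLZ2 (pta_levelsR r) A.ρ z → ptd_IsLZ2 (pta_levelsR r) A.ρ z' →
      Φ (z + z') = Φ z + Φ z')
    (hB : ∀ z, ptd_IsB2 (pta_levelsR r) A.ρ z → Φ z = 0)
    (z : G × G → A.V) (hz : ptd_IsLZ2 (pta_levelsR r) A.ρ z) :
    pta_H2R_liftAdd r A Φ hadd hB (pta_classH2R r A z hz) = Φ z := rfl

end localR

section localZMod

variable {p : ℕ} {G : Type} [Group G] (r : G →* GQ) (A : Rep.{0} (ZMod p) G)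
variable {Y : Type*} [AddCommGroup Y] [Module (ZMod p) Y]

/-- **Maps out of `continuousH2 r A`**, `ZMod p`-linear version (additivity suffices). -/
noncomputable def pta_H2R_liftZMod (Φ : (G × G → A.V) → Y)
    (hadd : ∀ z z', ptd_IsLZ2 (pta_levelsR r) A.ρ z → ptd_IsLZ2 (pta_levelsR r) A.ρ z' →
      Φ (z + z') = Φ z + Φ z')
    (hB : ∀ z, ptd_IsB2 (pta_levelsR r) A.ρ z → Φ z = 0) : continuousH2 r A →ₗ[ZMod p] Y :=
  (pta_H2R_liftAdd r A Φ hadd hB).toZModLinearMap p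

theorem pta_H2R_liftZMod_class (Φ : (G × G → A.V) → Y)
    (hadd : ∀ z z', ptd_IsLZ2 (pta_levelsR r) A.ρ z → ptd_IsLZ2 (pta_levelsR r) A.ρ z' →
      Φ (z + z') = Φ z + Φ z')
    (hB : ∀ z, ptd_IsB2 (pta_levelsR r) A.ρ z → Φ z = 0)
    (z : G × G → A.V) (hz : ptd_IsLZ2 (pta_levelsR r) A.ρ z) :
    pta_H2R_liftZMod r A Φ hadd hB (pta_classH2R r A z hz) = Φ z := rfl

end localZMod

section localisation

variable {k : Type} [CommRing k] (S : Finset Nat.Primes) (M : Rep.{0} k GQ)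
variable {H : Type} [Group H] (f : H →* GQ)

/-- restriction along `f : H → G_ℚ` of a big-model `S`-level cocycle is a big-model level cocycle
of `(H, pta_levelsR f)` -/
lemma pta_isLZ2R_comp {z : GQ × GQ → M.V} (hz : ptd_IsLZ2 (pta_levelsS S) M.ρ z) :
    ptd_IsLZ2 (pta_levelsR f) (Rep.res f M).ρ (fun x : H × H => z (f x.1, f x.2)) :=
  (pta_isLZ2R_iff (Rep.res f M) _).2 (pta_locZ2 f ⟨z, (pta_isLZ2_iff M z).1 hz⟩).2

/-- **localisation of classes in the big model**: `locRes₂S` is restriction of cochains. -/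
theorem pta_locRes₂S_classH2S {z : GQ × GQ → M.V} (hz : ptd_IsLZ2 (pta_levelsS S) M.ρ z) :
    locRes₂S S M f (pta_classH2S S M z hz) =
      pta_classH2R f (Rep.res f M) (fun x : H × H => z (f x.1, f x.2))
        (pta_isLZ2R_comp S M f hz) := rfl

end localisation

end Fermat.Agent.Lib.PT
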