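/-
S55 (Poitou–Tate long-haul), GLOBAL FINITE-LEVEL DICTIONARY, colimit statements.
* constructors of presented levels (any surjection with the right kernel; the canonical quotient
  presentation);
* every class of `continuousH1S S M` / `continuousH2S S M` is inflated from every sufficiently
  large presented level;
* the kernel of `H²(Γ_L, M_L) → continuousH2S S M`: classes dying at a larger level;
* universal property: a compatible family of linear maps out of the `H²(Γ_L, M_L)`, for `L` in a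
  cofinal family of presented levels, glues to a linear map out of `continuousH2S S M`.
-/
import Mathlib
import Fermat.Prelude.Def_GroupCohomology_ContinuousUnramified
import Fermat.Agent.Lib.PT.GLevelCoh

set_option autoImplicit false
set_option linter.unusedSectionVars false

namespace Fermat.Agent.Lib.PT

open groupCohomology CategoryTheory

local notation "Qbar" => AlgebraicClosure ℚ
local notation "GQ" => (AlgebraicClosure ℚ ≃ₐ[ℚ] AlgebraicClosure ℚ)

variable {k : Type} [CommRing k] {S : Finset Nat.Primes} {M : Rep.{0} k GQ}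

section constructors

/-- The presented level attached to a level field `F` and any surjection `π` from the absolute
Galois group with kernel `Fix F`; the model of `M` is `M` itself with the pushed-forward action
(`pta_pushRep`). -/
noncomputable def pta_Lev.ofSurj {F : IntermediateField ℚ Qbar} (hF : pta_IsLevel S M F)
    {Γ : Type} [Group Γ] (π : GQ →* Γ) (hπ : Function.Surjective π)
    (hker : π.ker = F.fixingSubgroup) : pta_Lev S M where
  F := F
  isLevel := hF
  Γ := Γ
  π := π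
  surj := hπ
  ker_eq := hker
  rep := pta_pushRep π hπ M (fun s hs => MonoidHom.mem_ker.mp (hF.triv (hker ▸ hs)))
  e := LinearEquiv.refl k M.V
  comm g n := pta_pushRep_rho_apply π hπ M _ g n

@[simp] lemma pta_Lev.ofSurj_F {F : IntermediateField ℚ Qbar} (hF : pta_IsLevel S M F)
    {Γ : Type} [Group Γ] (π : GQ →* Γ) (hπ : Function.Surjective π)
    (hker : π.ker = F.fixingSubgroup) : (pta_Lev.ofSurj hF π hπ hker).F = F := rfl

/-- The canonical presented level of a level field: `Γ = Gal(Q̄/ℚ) ⧸ Fix F`. -/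
noncomputable def pta_Lev.canon {F : IntermediateField ℚ Qbar} (hF : pta_IsLevel S M F) :
    pta_Lev S M :=
  letI := hF.normal
  pta_Lev.ofSurj hF (QuotientGroup.mk' F.fixingSubgroup) (QuotientGroup.mk'_surjective _)
    (QuotientGroup.ker_mk' _)

@[simp] lemma pta_Lev.canon_F {F : IntermediateField ℚ Qbar} (hF : pta_IsLevel S M F) :
    (pta_Lev.canon hF).F = F := rfl

end constructors

section exhaust

/-- Every `S`-level-constant 1-cocycle is inflated from every sufficiently large presented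
level. -/
theorem pta_exists_level_cocycle₁ {F₀ : IntermediateField ℚ Qbar} (h₀ : pta_IsLevel S M F₀)
    (c : cocycles₁ M) (hc : IsLevelConstantS₁ S (c : GQ → M.V)) :
    ∃ F, pta_IsLevel S M F ∧ F₀ ≤ F ∧ ∀ L : pta_Lev S M, F ≤ L.F →
      ∃ x : cocycles₁ L.rep, L.infZ1 x = c := by
  obtain ⟨F, hF, hF₀, hinv⟩ := (pta_levelConstantS₁_iff h₀ _).1 hc
  refine ⟨F, hF, hF₀, fun L hL => ?_⟩
  have hinv' : pta_RightInv₁ L.π (c : GQ → M.V) := (L.rightInv₁_iff _).2 fun g s hs =>
    hinv g s (IntermediateField.fixingSubgroup_antitone hL hs)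
  obtain ⟨x, hx⟩ := hinv'.exists_inf L.π L.surj L.e
  have hx' : x ∈ cocycles₁ L.rep := by
    rw [← pta_inf₁_mem_cocycles₁_iff L.π L.surj L.e L.comm, hx]
    exact c.2
  exact ⟨⟨x, hx'⟩, Subtype.ext hx⟩

/-- Every `S`-level-constant 2-cocycle is inflated from every sufficiently large presented
level. -/
theorem pta_exists_level_cocycle₂ {F₀ : IntermediateField ℚ Qbar} (h₀ : pta_IsLevel S M F₀)
    (c : levelCocyclesS₂ S M) :
    ∃ F, pta_IsLevel S M F ∧ F₀ ≤ F ∧ ∀ L : pta_Lev S M, F ≤ L.F →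
      ∃ x : cocycles₂ L.rep, L.infZ2S x = c := by
  obtain ⟨F, hF, hF₀, hinv⟩ := (pta_levelConstantS₂_iff h₀ _).1 c.2.2
  refine ⟨F, hF, hF₀, fun L hL => ?_⟩
  have hinv' : pta_RightInv₂ L.π (c : GQ × GQ → M.V) := (L.rightInv₂_iff _).2
    fun g g' s s' hs hs' => hinv g g' s s'
      (IntermediateField.fixingSubgroup_antitone hL hs)
      (IntermediateField.fixingSubgroup_antitone hL hs')
  obtain ⟨x, hx⟩ := hinv'.exists_inf L.π L.surj L.e
  have hx' : x ∈ cocycles₂ L.rep := by
    rw [← pta_inf₂_mem_cocycles₂_iff L.π L.surj L.e L.comm, hx]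
    exact c.2.1
  exact ⟨⟨x, hx'⟩, Subtype.ext hx⟩

/-- **`H¹(G_S, M) = ⋃_L H¹(Γ_L, M_L)`**: every class of `continuousH1S S M` is inflated from every
sufficiently large presented level. -/
theorem pta_exists_level_H1 {F₀ : IntermediateField ℚ Qbar} (h₀ : pta_IsLevel S M F₀)
    (x : H1 M) (hx : x ∈ continuousH1S S M) :
    ∃ F, pta_IsLevel S M F ∧ F₀ ≤ F ∧ ∀ L : pta_Lev S M, F ≤ L.F →
      ∃ y : H1 L.rep, L.infH1 y = x := by
  obtain ⟨c, hc, rfl⟩ := (mem_continuousH1S_iff S M x).1 hx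
  obtain ⟨F, hF, hF₀, h⟩ := pta_exists_level_cocycle₁ h₀ c hc
  refine ⟨F, hF, hF₀, fun L hL => ?_⟩
  obtain ⟨z, hz⟩ := h L hL
  exact ⟨(H1π L.rep).hom z, by rw [pta_Lev.infH1_π, hz]⟩

/-- **`H²(G_S, M) = ⋃_L H²(Γ_L, M_L)`**: every class of `continuousH2S S M` is inflated from every
sufficiently large presented level. -/
theorem pta_exists_level_H2 {F₀ : IntermediateField ℚ Qbar} (h₀ : pta_IsLevel S M F₀)
    (x : continuousH2S S M) :
    ∃ F, pta_IsLevel S M F ∧ F₀ ≤ F ∧ ∀ L : pta_Lev S M, F ≤ L.F →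
      ∃ y : H2 L.rep, L.infH2S y = x := by
  obtain ⟨c, rfl⟩ := Submodule.mkQ_surjective _ x
  obtain ⟨F, hF, hF₀, h⟩ := pta_exists_level_cocycle₂ h₀ c
  refine ⟨F, hF, hF₀, fun L hL => ?_⟩
  obtain ⟨z, hz⟩ := h L hL
  exact ⟨(H2π L.rep).hom z, by rw [pta_Lev.infH2S_π, hz]⟩

end exhaust

section kernel

/-- A class of `H²(Γ_L, M_L)` dies in `continuousH2S S M` iff it dies at every sufficiently large
presented level: forward direction. -/
theorem pta_Lev.infToH2_eq_zero_of_infH2S_eq_zero (L : pta_Lev S M) (y : H2 L.rep)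
    (hy : L.infH2S y = 0) :
    ∃ F, pta_IsLevel S M F ∧ L.F ≤ F ∧ ∀ (L' : pta_Lev S M) (h : L.F ≤ L'.F), F ≤ L'.F →
      pta_Lev.infToH2 h y = 0 := by
  obtain ⟨x, rfl⟩ := pta_H2π_surjective L.rep y
  rw [pta_Lev.infH2S_π, continuousH2Sπ_eq_zero_iff, mem_levelCoboundariesS₂_iff] at hy
  obtain ⟨f, hf, hfx⟩ := hy
  obtain ⟨F, hF, hLF, hinv⟩ := (pta_levelConstantS₁_iff L.isLevel f).1 hf
  refine ⟨F, hF, hLF, fun L' h hFL' => ?_⟩
  rw [pta_Lev.infToH2_π, H2π_eq_zero_iff]
  rw [pta_mem_coboundaries₂_iff L'.π L'.surj L'.e L'.comm]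
  refine ⟨f, (L'.rightInv₁_iff _).2 fun g s hs =>
    hinv g s (IntermediateField.fixingSubgroup_antitone hFL' hs), ?_⟩
  rw [hfx, pta_Lev.infZ2S_coe]
  exact (pta_Lev.inf₂_infTo₂ h _).symm

/-- A class of `H²(Γ_L, M_L)` dying at a larger level dies in `continuousH2S S M`. -/
theorem pta_Lev.infH2S_eq_zero_of_infToH2_eq_zero {L L' : pta_Lev S M} (h : L.F ≤ L'.F)
    (y : H2 L.rep) (hy : pta_Lev.infToH2 h y = 0) : L.infH2S y = 0 := by
  rw [← pta_Lev.infH2S_infToH2 h, hy, map_zero]

end kernel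

end Fermat.Agent.Lib.PT
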