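/-
S55 (Poitou–Tate long-haul), FINITE-LEVEL DICTIONARY, abstract gluing.
`pta_QLev M`: a quotient `π : G → Γ` through which a model of the representation `M` factors
("Form B" data, no fields involved).  Transition maps between quotient levels, and the GLUING
THEOREM: for a directed exhausting family of quotient levels, a compatible family of linear maps
out of the `H²(Γ_i, N_i)` glues to a linear map out of `Z ⧸ B`, where `Z`, `B` are the submodules
of "level" 2-cocycles and "level" 2-coboundaries.  Both the global `continuousH2S S M` and the local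
`continuousH2 r M` of the Prelude are of the form `Z ⧸ B`.
-/
import Mathlib
import Fermat.Agent.Lib.PT.GLevelInf

set_option autoImplicit false
set_option linter.unusedSectionVars false

namespace Fermat.Agent.Lib.PT

open groupCohomology CategoryTheory

universe u

variable {k G : Type u} [CommRing k] [Group G] (M : Rep.{u} k G)

/-- A *quotient level* of `M`: a surjection `π : G → Γ` and a model `rep` of `M` on which `Γ`
acts compatibly. -/
structure pta_QLev where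
  Γ : Type u
  [grp : Group Γ]
  π : G →* Γ
  surj : Function.Surjective π
  rep : Rep.{u} k Γ
  e : rep.V ≃ₗ[k] M.V
  comm : ∀ (g : G) (n : rep.V), e (rep.ρ (π g) n) = M.ρ g (e n)

attribute [instance] pta_QLev.grp

variable {M}

namespace pta_QLev

variable {Q Q' Q'' : pta_QLev M}

/-- inflation of 1-cochains from a quotient level -/
noncomputable abbrev inf₁ (Q : pta_QLev M) : (Q.Γ → Q.rep.V) →ₗ[k] (G → M.V) := pta_inf₁ Q.π Q.e

/-- inflation of 2-cochains from a quotient level -/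
noncomputable abbrev inf₂ (Q : pta_QLev M) : (Q.Γ × Q.Γ → Q.rep.V) →ₗ[k] (G × G → M.V) :=
  pta_inf₂ Q.π Q.e

/-- the transition map `Γ' → Γ` when `ker π' ≤ ker π` -/
noncomputable def trans (h : Q'.π.ker ≤ Q.π.ker) : Q'.Γ →* Q.Γ :=
  Q'.π.liftOfSurjective Q'.surj ⟨Q.π, h⟩

@[simp] lemma trans_π (h : Q'.π.ker ≤ Q.π.ker) (g : G) : trans h (Q'.π g) = Q.π g :=
  MonoidHom.liftOfRightInverse_comp_apply _ _ _ _ g

lemma trans_surjective (h : Q'.π.ker ≤ Q.π.ker) : Function.Surjective (trans h) := by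
  intro γ
  obtain ⟨g, rfl⟩ := Q.surj γ
  exact ⟨Q'.π g, trans_π h g⟩

lemma trans_trans (h : Q'.π.ker ≤ Q.π.ker) (h' : Q''.π.ker ≤ Q'.π.ker) (γ : Q''.Γ) :
    trans h (trans h' γ) = trans (h'.trans h) γ := by
  obtain ⟨g, rfl⟩ := Q''.surj γ
  simp

/-- comparison of the models at two quotient levels -/
noncomputable def transE (Q Q' : pta_QLev M) : Q.rep.V ≃ₗ[k] Q'.rep.V := Q.e.trans Q'.e.symm

@[simp] lemma e_transE (Q Q' : pta_QLev M) (n : Q.rep.V) : Q'.e (transE Q Q' n) = Q.e n := by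
  simp [transE]

lemma transE_comm (h : Q'.π.ker ≤ Q.π.ker) (γ : Q'.Γ) (n : Q.rep.V) :
    transE Q Q' (Q.rep.ρ (trans h γ) n) = Q'.rep.ρ γ (transE Q Q' n) := by
  obtain ⟨g, rfl⟩ := Q'.surj γ
  apply Q'.e.injective
  rw [trans_π, e_transE, Q.comm, Q'.comm, e_transE]

/-- inflation of 2-cochains between quotient levels -/
noncomputable abbrev infTo₂ (h : Q'.π.ker ≤ Q.π.ker) :
    (Q.Γ × Q.Γ → Q.rep.V) →ₗ[k] (Q'.Γ × Q'.Γ → Q'.rep.V) :=
  pta_inf₂ (trans h) (transE Q Q')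

lemma inf₂_infTo₂ (h : Q'.π.ker ≤ Q.π.ker) (x : Q.Γ × Q.Γ → Q.rep.V) :
    Q'.inf₂ (infTo₂ h x) = Q.inf₂ x := by
  funext ⟨g, g'⟩
  simp [pta_inf₂_apply]

/-- inflation on 2-cocycles between quotient levels -/
noncomputable abbrev infToZ2 (h : Q'.π.ker ≤ Q.π.ker) : cocycles₂ Q.rep →ₗ[k] cocycles₂ Q'.rep :=
  pta_infZ2 (trans h) (transE Q Q') (transE_comm h)

/-- inflation on `H²` between quotient levels -/
noncomputable abbrev infToH2 (h : Q'.π.ker ≤ Q.π.ker) : H2 Q.rep →ₗ[k] H2 Q'.rep :=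
  pta_infH2 (trans h) (transE Q Q') (transE_comm h)

lemma infToH2_π (h : Q'.π.ker ≤ Q.π.ker) (x : cocycles₂ Q.rep) :
    infToH2 h ((H2π Q.rep).hom x) = (H2π Q'.rep).hom (infToZ2 h x) :=
  pta_infH2_π _ _ _ x

lemma inf₂_infToZ2 (h : Q'.π.ker ≤ Q.π.ker) (x : cocycles₂ Q.rep) :
    Q'.inf₂ (infToZ2 h x).1 = Q.inf₂ x.1 :=
  inf₂_infTo₂ h _

end pta_QLev

section glue

variable (Z B : Submodule k (G × G → M.V)) {I : Type*} (Q : I → pta_QLev M)
  {Y : Type*} [AddCommGroup Y] [Module k Y]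

/-- The hypotheses of the gluing theorem: `Z ⧸ B` is the colimit of the `H²(Γ_i, N_i)`. -/
structure pta_IsColimH2 : Prop where
  /-- inflated cocycles are level cocycles -/
  mem : ∀ i (x : cocycles₂ (Q i).rep), (Q i).inf₂ x.1 ∈ Z
  /-- every level cocycle is inflated -/
  exh : ∀ c ∈ Z, ∃ i, ∃ x : cocycles₂ (Q i).rep,
    (Q i).inf₂ x.1 = c
  /-- a cocycle inflating to a level coboundary becomes a coboundary at a larger level -/
  ker : ∀ i (x : cocycles₂ (Q i).rep), (Q i).inf₂ x.1 ∈ B →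
    ∃ l, ∃ h : (Q l).π.ker ≤ (Q i).π.ker,
      (pta_QLev.infToZ2 h x).1 ∈ coboundaries₂ (Q l).rep
  /-- directedness -/
  dir : ∀ i j, ∃ l, (Q l).π.ker ≤ (Q i).π.ker ∧ (Q l).π.ker ≤ (Q j).π.ker

variable {Z B Q}

/-- well-definedness: two cocycles at two levels with the same inflation have the same image -/
lemma pta_IsColimH2.wd (hc : pta_IsColimH2 Z B Q) (ψ : ∀ i, H2 (Q i).rep →ₗ[k] Y)
    (hψ : ∀ i l (h : (Q l).π.ker ≤ (Q i).π.ker) (y : H2 (Q i).rep),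
      ψ l (pta_QLev.infToH2 h y) = ψ i y)
    {i j : I} (x : cocycles₂ (Q i).rep) (x' : cocycles₂ (Q j).rep)
    (hxx' : (Q i).inf₂ x.1 =
      (Q j).inf₂ x'.1) :
    ψ i ((H2π (Q i).rep).hom x) = ψ j ((H2π (Q j).rep).hom x') := by
  obtain ⟨l, hi, hj⟩ := hc.dir i j
  rw [← hψ i l hi, ← hψ j l hj, pta_QLev.infToH2_π, pta_QLev.infToH2_π]
  congr 2
  apply Subtype.ext
  apply pta_inf₂_injective (Q l).π (Q l).surj (Q l).e
  rw [pta_QLev.inf₂_infToZ2, pta_QLev.inf₂_infToZ2, hxx']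

/-- the glued map on level cocycles, as a function -/
noncomputable def pta_IsColimH2.glueFun (hc : pta_IsColimH2 Z B Q)
    (ψ : ∀ i, H2 (Q i).rep →ₗ[k] Y) (c : Z) : Y :=
  ψ (hc.exh c c.2).choose ((H2π _).hom (hc.exh c c.2).choose_spec.choose)

lemma pta_IsColimH2.glueFun_eq (hc : pta_IsColimH2 Z B Q) (ψ : ∀ i, H2 (Q i).rep →ₗ[k] Y)
    (hψ : ∀ i l (h : (Q l).π.ker ≤ (Q i).π.ker) (y : H2 (Q i).rep),
      ψ l (pta_QLev.infToH2 h y) = ψ i y)
    (c : Z) {i : I} (x : cocycles₂ (Q i).rep)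
    (hx : (Q i).inf₂ x.1 = c) :
    hc.glueFun ψ c = ψ i ((H2π (Q i).rep).hom x) := by
  unfold pta_IsColimH2.glueFun
  apply hc.wd ψ hψ
  rw [(hc.exh c c.2).choose_spec.choose_spec, hx]

/-- the glued map on level cocycles -/
noncomputable def pta_IsColimH2.glueZ (hc : pta_IsColimH2 Z B Q) (ψ : ∀ i, H2 (Q i).rep →ₗ[k] Y)
    (hψ : ∀ i l (h : (Q l).π.ker ≤ (Q i).π.ker) (y : H2 (Q i).rep),
      ψ l (pta_QLev.infToH2 h y) = ψ i y) : Z →ₗ[k] Y where
  toFun := hc.glueFun ψ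
  map_add' c c' := by
    obtain ⟨i, x, hx⟩ := hc.exh c c.2
    obtain ⟨j, x', hx'⟩ := hc.exh c' c'.2
    obtain ⟨l, hi, hj⟩ := hc.dir i j
    have h1 : (Q l).inf₂ (pta_QLev.infToZ2 hi x + pta_QLev.infToZ2 hj x').1 = (c + c').1 := by
      rw [Submodule.coe_add, map_add, pta_QLev.inf₂_infToZ2, pta_QLev.inf₂_infToZ2, hx, hx',
        Submodule.coe_add]
    rw [hc.glueFun_eq ψ hψ (c + c') _ h1, hc.glueFun_eq ψ hψ c x hx,
      hc.glueFun_eq ψ hψ c' x' hx', map_add, map_add, ← pta_QLev.infToH2_π, ← pta_QLev.infToH2_π,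
      hψ, hψ]
  map_smul' a c := by
    obtain ⟨i, x, hx⟩ := hc.exh c c.2
    have h1 : (Q i).inf₂ (a • x).1 = (a • c).1 := by
      rw [Submodule.coe_smul, map_smul, hx, Submodule.coe_smul]
    rw [hc.glueFun_eq ψ hψ (a • c) _ h1, hc.glueFun_eq ψ hψ c x hx, map_smul, map_smul,
      RingHom.id_apply]

/-- **Gluing theorem**: a compatible family of linear maps out of the `H²(Γ_i, N_i)` glues to a
linear map out of `Z ⧸ B`. -/
noncomputable def pta_IsColimH2.glue (hc : pta_IsColimH2 Z B Q) (ψ : ∀ i, H2 (Q i).rep →ₗ[k] Y)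
    (hψ : ∀ i l (h : (Q l).π.ker ≤ (Q i).π.ker) (y : H2 (Q i).rep),
      ψ l (pta_QLev.infToH2 h y) = ψ i y) : (↥Z ⧸ B.comap Z.subtype) →ₗ[k] Y :=
  Submodule.liftQ _ (hc.glueZ ψ hψ) (fun c hcB => by
    rw [LinearMap.mem_ker]
    obtain ⟨i, x, hx⟩ := hc.exh c c.2
    have hB : (Q i).inf₂ x.1 ∈ B := by
      rw [hx]; exact hcB
    obtain ⟨l, h, hl⟩ := hc.ker i x hB
    show hc.glueFun ψ c = 0
    rw [hc.glueFun_eq ψ hψ c x hx, ← hψ i l h, pta_QLev.infToH2_π, (H2π_eq_zero_iff _).2 hl,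
      map_zero])

lemma pta_IsColimH2.glue_mk (hc : pta_IsColimH2 Z B Q) (ψ : ∀ i, H2 (Q i).rep →ₗ[k] Y)
    (hψ : ∀ i l (h : (Q l).π.ker ≤ (Q i).π.ker) (y : H2 (Q i).rep),
      ψ l (pta_QLev.infToH2 h y) = ψ i y) (i : I) (x : cocycles₂ (Q i).rep) :
    hc.glue ψ hψ (Submodule.Quotient.mk ⟨(Q i).inf₂ x.1,
      hc.mem i x⟩) = ψ i ((H2π (Q i).rep).hom x) := by
  show hc.glueFun ψ _ = _
  exact hc.glueFun_eq ψ hψ _ x rfl

/-- uniqueness of the glued map -/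
lemma pta_IsColimH2.hom_ext (hc : pta_IsColimH2 Z B Q) {Ψ Ψ' : (↥Z ⧸ B.comap Z.subtype) →ₗ[k] Y}
    (h : ∀ i (x : cocycles₂ (Q i).rep),
      Ψ (Submodule.Quotient.mk ⟨(Q i).inf₂ x.1, hc.mem i x⟩) =
      Ψ' (Submodule.Quotient.mk ⟨(Q i).inf₂ x.1, hc.mem i x⟩)) :
    Ψ = Ψ' := by
  ext c
  obtain ⟨i, x, hx⟩ := hc.exh c c.2
  have : c = ⟨(Q i).inf₂ x.1, hc.mem i x⟩ := Subtype.ext hx.symm
  rw [this]
  exact h i x

end glue

end Fermat.Agent.Lib.PT
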