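/-
S55 (Poitou–Tate long-haul), GLOBAL FINITE-LEVEL DICTIONARY, universal property.
For a cofinal family `P : I → pta_Lev S M` of presented levels, `continuousH2S S M` is the colimit
of the `H²(Γ_i, M_i)`: a compatible family of linear maps `ψ_i : H²(Γ_i, M_i) → Y` glues uniquely
to a linear map `continuousH2S S M → Y`.
-/
import Mathlib
import Fermat.Prelude.Def_GroupCohomology_ContinuousUnramified
import Fermat.Agent.Lib.PT.GLevelColim
import Fermat.Agent.Lib.PT.GLevelGlue

set_option autoImplicit false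
set_option linter.unusedSectionVars false

namespace Fermat.Agent.Lib.PT

open groupCohomology CategoryTheory Fermat.Agent.Lib.CFT

local notation "Qbar" => AlgebraicClosure ℚ
local notation "GQ" => (AlgebraicClosure ℚ ≃ₐ[ℚ] AlgebraicClosure ℚ)

attribute [local instance] cfg_isGalois_QBar

variable {k : Type} [CommRing k] {S : Finset Nat.Primes} {M : Rep.{0} k GQ}

/-- forget the field: a presented level is a quotient level -/
def pta_Lev.toQLev (L : pta_Lev S M) : pta_QLev M where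
  Γ := L.Γ
  π := L.π
  surj := L.surj
  rep := L.rep
  e := L.e
  comm := L.comm

lemma pta_Lev.ker_le_of_le {L L' : pta_Lev S M} (h : L.F ≤ L'.F) :
    L'.toQLev.π.ker ≤ L.toQLev.π.ker := by
  show L'.π.ker ≤ L.π.ker
  rw [L.ker_eq, L'.ker_eq]
  exact IntermediateField.fixingSubgroup_antitone h

lemma pta_Lev.le_of_ker_le {L L' : pta_Lev S M} (h : L'.toQLev.π.ker ≤ L.toQLev.π.ker) :
    L.F ≤ L'.F := by
  have h' : L'.F.fixingSubgroup ≤ L.F.fixingSubgroup := by
    rw [← L.ker_eq, ← L'.ker_eq]; exact h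
  have h1 : IntermediateField.fixedField L.F.fixingSubgroup ≤
      IntermediateField.fixedField L'.F.fixingSubgroup := by
    intro x hx
    rw [IntermediateField.mem_fixedField_iff] at hx ⊢
    exact fun g hg => hx g (h' hg)
  rwa [InfiniteGalois.fixedField_fixingSubgroup, InfiniteGalois.fixedField_fixingSubgroup] at h1

lemma pta_Lev.infToH2_eq_toQLev {L L' : pta_Lev S M} (h : L.F ≤ L'.F) :
    pta_QLev.infToH2 (pta_Lev.ker_le_of_le h) = pta_Lev.infToH2 h := rfl

section colim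

variable {I : Type*} (P : I → pta_Lev S M)

/-- `continuousH2S S M` is the colimit of the `H²` of any cofinal family of presented levels. -/
theorem pta_isColimH2_global (hP : ∀ F, pta_IsLevel S M F → ∃ i, F ≤ (P i).F)
    {F₀ : IntermediateField ℚ Qbar} (h₀ : pta_IsLevel S M F₀) :
    pta_IsColimH2 (levelCocyclesS₂ S M) (levelCoboundariesS₂ S M) (fun i => (P i).toQLev) where
  mem i x := ((P i).infZ2S x).2
  exh c hc := by
    obtain ⟨F, hF, -, h⟩ := pta_exists_level_cocycle₂ h₀ ⟨c, hc⟩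
    obtain ⟨i, hi⟩ := hP F hF
    obtain ⟨x, hx⟩ := h (P i) hi
    exact ⟨i, x, congrArg Subtype.val hx⟩
  ker i x hx := by
    obtain ⟨f, hf, hfx⟩ := (mem_levelCoboundariesS₂_iff S M _).1 hx
    obtain ⟨F, hF, hLF, hinv⟩ := (pta_levelConstantS₁_iff (P i).isLevel f).1 hf
    obtain ⟨l, hl⟩ := hP F hF
    have h : (P i).F ≤ (P l).F := hLF.trans hl
    refine ⟨l, pta_Lev.ker_le_of_le h, ?_⟩
    show ((pta_Lev.infToZ2 h x).1) ∈ coboundaries₂ (P l).rep
    rw [pta_mem_coboundaries₂_iff (P l).π (P l).surj (P l).e (P l).comm]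
    refine ⟨f, ((P l).rightInv₁_iff _).2 fun g s hs =>
      hinv g s (IntermediateField.fixingSubgroup_antitone hl hs), ?_⟩
    rw [hfx]
    exact (pta_Lev.inf₂_infTo₂ h _).symm
  dir i j := by
    obtain ⟨l, hl⟩ := hP _ ((P i).isLevel.sup (P j).isLevel)
    exact ⟨l, pta_Lev.ker_le_of_le (le_sup_left.trans hl),
      pta_Lev.ker_le_of_le (le_sup_right.trans hl)⟩

variable {Y : Type*} [AddCommGroup Y] [Module k Y]

/-- **Universal property of `continuousH2S S M`**: gluing of a compatible family of linear maps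
out of the finite-level `H²`'s. -/
noncomputable def pta_H2S_desc (hP : ∀ F, pta_IsLevel S M F → ∃ i, F ≤ (P i).F)
    {F₀ : IntermediateField ℚ Qbar} (h₀ : pta_IsLevel S M F₀)
    (ψ : ∀ i, H2 (P i).rep →ₗ[k] Y)
    (hψ : ∀ i l (h : (P i).F ≤ (P l).F) (y : H2 (P i).rep),
      ψ l (pta_Lev.infToH2 h y) = ψ i y) : continuousH2S S M →ₗ[k] Y :=
  (pta_isColimH2_global P hP h₀).glue (Q := fun i => (P i).toQLev) ψ
    (fun i l h y => hψ i l (pta_Lev.le_of_ker_le h) y)

theorem pta_H2S_desc_infH2S (hP : ∀ F, pta_IsLevel S M F → ∃ i, F ≤ (P i).F)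
    {F₀ : IntermediateField ℚ Qbar} (h₀ : pta_IsLevel S M F₀)
    (ψ : ∀ i, H2 (P i).rep →ₗ[k] Y)
    (hψ : ∀ i l (h : (P i).F ≤ (P l).F) (y : H2 (P i).rep),
      ψ l (pta_Lev.infToH2 h y) = ψ i y) (i : I) (y : H2 (P i).rep) :
    pta_H2S_desc P hP h₀ ψ hψ ((P i).infH2S y) = ψ i y := by
  obtain ⟨x, rfl⟩ := pta_H2π_surjective (P i).rep y
  rw [pta_Lev.infH2S_π]
  exact (pta_isColimH2_global P hP h₀).glue_mk (Q := fun i => (P i).toQLev) ψ _ i x

/-- Two linear maps out of `continuousH2S S M` agreeing on all classes inflated from a cofinal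
family of presented levels are equal. -/
theorem pta_H2S_hom_ext (hP : ∀ F, pta_IsLevel S M F → ∃ i, F ≤ (P i).F)
    {F₀ : IntermediateField ℚ Qbar} (h₀ : pta_IsLevel S M F₀)
    {Ψ Ψ' : continuousH2S S M →ₗ[k] Y}
    (h : ∀ i (y : H2 (P i).rep), Ψ ((P i).infH2S y) = Ψ' ((P i).infH2S y)) : Ψ = Ψ' := by
  apply (pta_isColimH2_global P hP h₀).hom_ext (Q := fun i => (P i).toQLev)
  intro i x
  have := h i ((H2π (P i).rep).hom x)
  rw [pta_Lev.infH2S_π] at this
  exact this

end colim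

end Fermat.Agent.Lib.PT
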