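/-
S55 long haul, (CYC) part A (local arithmetic): `p`-power roots of unity in `Ω_q` are uniformly
separated (`‖ζ - ζ'‖ ≥ ‖p‖`), hence a finite extension of `ℚ_q` inside `Ω_q` contains only
finitely many of them.
-/
import Fermat.Agent.Lib.PT.GModDefs

set_option autoImplicit false
set_option linter.unusedVariables false
set_option linter.unusedSectionVars false
set_option linter.style.haveILetI false

noncomputable section

namespace Fermat.Agent.Lib.PT

open Finset

variable {q : Nat.Primes} {p : ℕ} [Fact p.Prime]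

/-- geometric sums of elements of norm `≤ 1` have norm `≤ 1` -/
lemma pta_norm_geom_le {x : ptj_Om q} (hx : ‖x‖ ≤ 1) (n : ℕ) :
    ‖∑ i ∈ range n, x ^ i‖ ≤ 1 := by
  apply IsUltrametricDist.norm_sum_le_of_forall_le_of_nonneg zero_le_one
  intro i _
  rw [norm_pow]
  exact pow_le_one₀ (norm_nonneg _) hx

lemma pta_norm_eq_one_of_pow_eq_one {x : ptj_Om q} {n : ℕ} (hn : n ≠ 0) (hx : x ^ n = 1) :
    ‖x‖ = 1 := by
  have h1 : ‖x‖ ^ n = 1 := by rw [← norm_pow, hx, norm_one]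
  exact (pow_eq_one_iff_of_nonneg (norm_nonneg _) hn).1 h1

/-- `‖p‖ ≤ ‖ω - 1‖` for a primitive `p`-th root of unity `ω` -/
lemma pta_norm_le_sub_one_of_primitive {ω : ptj_Om q} (hω : IsPrimitiveRoot ω p) :
    ‖(p : ptj_Om q)‖ ≤ ‖ω - 1‖ := by
  have hp : p.Prime := Fact.out
  have hω1 : ‖ω‖ ≤ 1 := (pta_norm_eq_one_of_pow_eq_one hp.ne_zero hω.pow_eq_one).le
  have hsum0 : ∑ j ∈ range p, ω ^ j = 0 := hω.geom_sum_eq_zero hp.one_lt
  have hpsum : (p : ptj_Om q) = ∑ j ∈ range p, (1 - ω ^ j) := by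
    rw [Finset.sum_sub_distrib, hsum0, sub_zero, Finset.sum_const, Finset.card_range,
      nsmul_eq_mul, mul_one]
  rw [hpsum]
  apply IsUltrametricDist.norm_sum_le_of_forall_le_of_nonneg (norm_nonneg _)
  intro j _
  have h2 : 1 - ω ^ j = -((∑ i ∈ range j, ω ^ i) * (ω - 1)) := by
    rw [geom_sum_mul]; ring
  rw [h2, norm_neg, norm_mul]
  calc ‖∑ i ∈ range j, ω ^ i‖ * ‖ω - 1‖ ≤ 1 * ‖ω - 1‖ :=
        mul_le_mul_of_nonneg_right (pta_norm_geom_le hω1 j) (norm_nonneg _)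
    _ = ‖ω - 1‖ := one_mul _

/-- `‖p‖ ≤ ‖x - 1‖` for a nontrivial `p`-power root of unity `x` -/
lemma pta_norm_le_sub_one : ∀ (m : ℕ) {x : ptj_Om q}, x ^ p ^ m = 1 → x ≠ 1 →
    ‖(p : ptj_Om q)‖ ≤ ‖x - 1‖ := by
  have hp : p.Prime := Fact.out
  intro m
  induction m with
  | zero =>
    intro x hx hx1
    rw [pow_zero, pow_one] at hx
    exact absurd hx hx1
  | succ m ih =>
    intro x hx hx1
    have hxn : ‖x‖ ≤ 1 :=
      (pta_norm_eq_one_of_pow_eq_one (pow_ne_zero _ hp.ne_zero) hx).le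
    by_cases h1 : x ^ p = 1
    · -- `x` is a primitive `p`-th root of unity
      have hprim : IsPrimitiveRoot x p := by
        rw [IsPrimitiveRoot.iff_orderOf]
        exact orderOf_eq_prime h1 hx1
      exact pta_norm_le_sub_one_of_primitive hprim
    · have h2 : (x ^ p) ^ p ^ m = 1 := by rw [← pow_mul, ← pow_succ']; exact hx
      have h3 := ih h2 h1
      refine h3.trans ?_
      have h4 : x ^ p - 1 = (∑ i ∈ range p, x ^ i) * (x - 1) := (geom_sum_mul x p).symm
      rw [h4, norm_mul]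
      calc ‖∑ i ∈ range p, x ^ i‖ * ‖x - 1‖ ≤ 1 * ‖x - 1‖ :=
            mul_le_mul_of_nonneg_right (pta_norm_geom_le hxn p) (norm_nonneg _)
        _ = ‖x - 1‖ := one_mul _

/-- distinct `p`-power roots of unity are at distance `≥ ‖p‖` -/
lemma pta_norm_le_sub {m m' : ℕ} {x y : ptj_Om q} (hx : x ^ p ^ m = 1) (hy : y ^ p ^ m' = 1)
    (hxy : x ≠ y) : ‖(p : ptj_Om q)‖ ≤ ‖x - y‖ := by
  have hp : p.Prime := Fact.out
  have hy0 : y ≠ 0 := by
    rintro rfl
    rw [zero_pow (pow_ne_zero _ hp.ne_zero)] at hy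
    exact zero_ne_one hy
  have hyn : ‖y‖ = 1 := pta_norm_eq_one_of_pow_eq_one (pow_ne_zero _ hp.ne_zero) hy
  have h1 : (x * y⁻¹) ^ p ^ (m + m') = 1 := by
    rw [mul_pow, inv_pow, pow_add, pow_mul, hx, one_pow, mul_comm (p ^ m), pow_mul, hy, one_pow,
      inv_one, mul_one]
  have h2 : x * y⁻¹ ≠ 1 := by
    intro h
    apply hxy
    rw [mul_inv_eq_one₀ hy0] at h
    exact h
  have h3 := pta_norm_le_sub_one (m + m') h1 h2
  have h4 : x - y = (x * y⁻¹ - 1) * y := by
    rw [sub_mul, mul_assoc, inv_mul_cancel₀ hy0, mul_one, one_mul]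
  rw [h4, norm_mul, hyn, mul_one]
  exact h3

lemma pta_norm_natCast_pos : 0 < ‖(p : ptj_Om q)‖ := by
  have hp : p.Prime := Fact.out
  rw [norm_pos_iff]
  exact_mod_cast hp.ne_zero

/-- **a finite extension of `ℚ_q` contains finitely many `p`-power roots of unity** -/
theorem pta_finite_ppow_roots (L : IntermediateField ℚ_[(q : ℕ)] (ptj_Om q))
    [FiniteDimensional ℚ_[(q : ℕ)] L] :
    {x : ptj_Om q | x ∈ L ∧ ∃ m : ℕ, x ^ p ^ m = 1}.Finite := by
  have hp : p.Prime := Fact.out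
  haveI : ProperSpace L := FiniteDimensional.proper ℚ_[(q : ℕ)] L
  set R : Set L := {x | ∃ m : ℕ, (x : ptj_Om q) ^ p ^ m = 1} with hR
  have hε : 0 < ‖(p : ptj_Om q)‖ := pta_norm_natCast_pos
  have hsep : R.Pairwise fun x y => ‖(p : ptj_Om q)‖ ≤ dist x y := by
    rintro x ⟨m, hx⟩ y ⟨m', hy⟩ hxy
    have h1 : (x : ptj_Om q) ≠ (y : ptj_Om q) := fun h => hxy (Subtype.ext h)
    have := pta_norm_le_sub hx hy h1
    rw [Subtype.dist_eq, dist_eq_norm]
    exact this
  have hclosed : IsClosed R := Metric.isClosed_of_pairwise_le_dist hε hsep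
  have hsub : R ⊆ Metric.closedBall (0 : L) 1 := by
    rintro x ⟨m, hx⟩
    rw [mem_closedBall_zero_iff]
    exact (pta_norm_eq_one_of_pow_eq_one (pow_ne_zero _ hp.ne_zero) hx).le
  have hcomp : IsCompact R := (isCompact_closedBall (0 : L) 1).of_isClosed_subset hclosed hsub
  have hdisc : IsDiscrete R := by
    rw [isDiscrete_iff_discreteTopology]
    refine DiscreteTopology.of_forall_le_dist hε ?_
    intro x y hxy
    exact hsep x.2 y.2 (fun h => hxy (Subtype.ext h))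
  have hfin : R.Finite := hcomp.finite hdisc
  refine (hfin.image (fun x : L => (x : ptj_Om q))).subset ?_
  rintro x ⟨hxL, m, hx⟩
  exact ⟨⟨x, hxL⟩, ⟨m, hx⟩, rfl⟩

/-- a finite extension of `ℚ_q` misses the primitive `p^n`-th roots of unity for some `n` -/
theorem pta_exists_no_primitive (L : IntermediateField ℚ_[(q : ℕ)] (ptj_Om q))
    [FiniteDimensional ℚ_[(q : ℕ)] L] :
    ∃ n : ℕ, ∀ y : ptj_Om q, IsPrimitiveRoot y (p ^ n) → y ∉ L := by
  have hp : p.Prime := Fact.out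
  by_contra hcon
  push Not at hcon
  choose y hy hyL using hcon
  have hinj : Function.Injective y := by
    intro n n' h
    have h1 : p ^ n = p ^ n' := (hy n).unique (h ▸ hy n')
    exact Nat.pow_right_injective hp.two_le h1
  have hinf : {x : ptj_Om q | x ∈ L ∧ ∃ m : ℕ, x ^ p ^ m = 1}.Infinite :=
    Set.infinite_of_injective_forall_mem hinj (fun n => ⟨hyL n, n, (hy n).pow_eq_one⟩)
  exact hinf (pta_finite_ppow_roots L)

end Fermat.Agent.Lib.PT

end
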