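/-
S55 long haul, (CYC) part B (local arithmetic): the local cyclotomic `ℤ_p`-tower over a finite
extension `L ⊇ μ_p` of `ℚ_q` is strictly increasing from some layer on: for `n ≥ n₀` every
primitive `p^(n+1)`-th root of unity is moved by an automorphism of `Ω_q` fixing `L(μ_{p^n})`.
Core: in a Kummer extension of degree `p` (odd) the Kummer generator is not a `p`-th power
(norm argument, stated with automorphisms).
-/
import Fermat.Agent.Lib.PT.GModCycA
import Fermat.Agent.Lib.PT.GModLocal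

set_option autoImplicit false
set_option linter.unusedVariables false
set_option linter.unusedSectionVars false
set_option linter.style.haveILetI false

noncomputable section

namespace Fermat.Agent.Lib.PT

open Finset

/-- **Kummer norm argument**: `σ` fixes `μ_p`, `σ w = w ω` with `ω ≠ 1` a `p`-th root of unity,
`y ^ p = w`; then `σ ^ p` moves `y` (`p` odd). -/
lemma pta_kummer_norm {K Ω : Type*} [Field K] [Field Ω] [Algebra K Ω] {p : ℕ} (hp : p.Prime)
    (hp2 : p ≠ 2) (σ : Ω ≃ₐ[K] Ω) {w y ω : Ω} (hω : ω ^ p = 1) (hω1 : ω ≠ 1)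
    (hσμ : ∀ x : Ω, x ^ p = 1 → σ x = x) (hw0 : w ≠ 0) (hw : σ w = w * ω) (hy : y ^ p = w)
    (hyp : (σ ^ p) y = y) : False := by
  have hy0 : y ≠ 0 := by
    rintro rfl
    rw [zero_pow hp.ne_zero] at hy
    exact hw0 hy.symm
  have hω0 : ω ≠ 0 := by
    rintro rfl
    rw [zero_pow hp.ne_zero] at hω
    exact zero_ne_one hω
  set η : Ω := σ y * y⁻¹ with hη
  have hσy : σ y = y * η := by rw [hη, mul_comm (σ y), mul_inv_cancel_left₀ hy0]
  have hηp : η ^ p = ω := by
    rw [hη, mul_pow, inv_pow, ← map_pow, hy, hw, mul_comm w, mul_assoc, mul_inv_cancel₀ hw0,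
      mul_one]
  have hη0 : η ≠ 0 := by
    rintro h
    rw [h, zero_pow hp.ne_zero] at hηp
    exact hω0 hηp.symm
  set ε : Ω := σ η * η⁻¹ with hε
  have hση : σ η = η * ε := by rw [hε, mul_comm (σ η), mul_inv_cancel_left₀ hη0]
  have hεp : ε ^ p = 1 := by
    rw [hε, mul_pow, inv_pow, ← map_pow, hηp, hσμ ω hω, mul_inv_cancel₀ hω0]
  have hσε : σ ε = ε := hσμ ε hεp
  have hpowη : ∀ k : ℕ, (σ ^ k) η = η * ε ^ k := by
    intro k
    induction k with
    | zero => simp
    | succ k ih =>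
      rw [pow_succ', AlgEquiv.mul_apply, ih, map_mul, map_pow, hση, hσε, pow_succ]
      ring
  have hpowy : ∀ k : ℕ, (σ ^ k) y = y * η ^ k * ε ^ (k.choose 2) := by
    intro k
    induction k with
    | zero => simp
    | succ k ih =>
      have hc : (k + 1).choose 2 = k + k.choose 2 := by
        rw [Nat.choose_succ_succ' k 1, Nat.choose_one_right]
      rw [pow_succ', AlgEquiv.mul_apply, ih, map_mul, map_mul, map_pow, map_pow, hσy, hση, hσε,
        hc, mul_pow, pow_add, pow_succ]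
      ring
  have h1 := hpowy p
  rw [hyp, hηp] at h1
  have hdvd : p ∣ p.choose 2 := by
    apply hp.dvd_choose_self (by norm_num)
    have := hp.two_le
    omega
  obtain ⟨c, hc⟩ := hdvd
  rw [hc, pow_mul, hεp, one_pow, mul_one] at h1
  apply hω1
  have h2 : y * 1 = y * ω := by rw [mul_one]; exact h1
  exact (mul_left_cancel₀ hy0 h2).symm

variable {q : Nat.Primes} {p : ℕ} [Fact p.Prime]

/-- **the local cyclotomic `ℤ_p`-tower is strictly increasing from some layer on**. -/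
theorem pta_cyc_local (hp2 : p ≠ 2) (L : IntermediateField ℚ_[(q : ℕ)] (ptj_Om q))
    [FiniteDimensional ℚ_[(q : ℕ)] L] (hμ : ∀ x : ptj_Om q, x ^ p = 1 → x ∈ L) :
    ∃ n₀ : ℕ, 1 ≤ n₀ ∧ ∀ n, n₀ ≤ n → ∀ y : ptj_Om q, IsPrimitiveRoot y (p ^ (n + 1)) →
      ∃ τ : ptj_Gq q, (∀ x ∈ L, τ x = x) ∧ (∀ x : ptj_Om q, x ^ p ^ n = 1 → τ x = x) ∧
        τ y ≠ y := by
  classical
  have hp : p.Prime := Fact.out
  haveI : NeZero p := ⟨hp.ne_zero⟩
  have hex := pta_exists_no_primitive (p := p) L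
  set n₁ := Nat.find hex with hn₁
  have hP : ∀ y : ptj_Om q, IsPrimitiveRoot y (p ^ n₁) → y ∉ L := Nat.find_spec hex
  have hn₁0 : n₁ ≠ 0 := by
    intro h0
    have := hP 1 (by rw [h0, pow_zero]; exact IsPrimitiveRoot.one)
    exact this (one_mem L)
  have hn₁1 : n₁ ≠ 1 := by
    intro h1
    obtain ⟨z, hz⟩ := HasEnoughRootsOfUnity.exists_primitiveRoot (ptj_Om q) p
    have := hP z (by rw [h1, pow_one]; exact hz)
    exact this (hμ z hz.pow_eq_one)
  obtain ⟨n₀, hn₀⟩ : ∃ n₀, n₁ = n₀ + 1 := Nat.exists_eq_succ_of_ne_zero hn₁0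
  have hn₀1 : 1 ≤ n₀ := by omega
  have hmin : ¬ ∀ y : ptj_Om q, IsPrimitiveRoot y (p ^ n₀) → y ∉ L :=
    Nat.find_min hex (by omega)
  push Not at hmin
  obtain ⟨y₀, hy₀, hy₀L⟩ := hmin
  have hrootsL : ∀ x : ptj_Om q, x ^ p ^ n₀ = 1 → x ∈ L := by
    intro x hx
    haveI : NeZero (p ^ n₀) := ⟨pow_ne_zero _ hp.ne_zero⟩
    obtain ⟨i, -, rfl⟩ := hy₀.eq_pow_of_pow_eq_one hx
    exact pow_mem hy₀L i
  refine ⟨n₀, hn₀1, ?_⟩
  intro n hn
  induction n, hn using Nat.le_induction with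
  | base =>
    intro y hy
    have hyL : y ∉ L := hP y (by rw [hn₀]; exact hy)
    by_contra hcon
    push Not at hcon
    apply hyL
    rw [← InfiniteGalois.fixedField_fixingSubgroup L, IntermediateField.mem_fixedField_iff]
    intro τ hτ
    rw [IntermediateField.mem_fixingSubgroup_iff] at hτ
    exact hcon τ hτ (fun x hx => hτ x (hrootsL x hx))
  | succ n hn ih =>
    intro y hy
    have hn1 : 1 ≤ n := hn₀1.trans hn
    have hw : IsPrimitiveRoot (y ^ p) (p ^ (n + 1)) :=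
      hy.pow (pow_pos hp.pos _) (by rw [pow_succ' p (n + 1)])
    obtain ⟨w, hwdef⟩ : ∃ w : ptj_Om q, w = y ^ p := ⟨_, rfl⟩
    rw [← hwdef] at hw
    obtain ⟨σ, hσL, hσμ, hσw⟩ := ih w hw
    have hw0 : w ≠ 0 := hw.ne_zero (pow_ne_zero _ hp.ne_zero)
    set ω := σ w * w⁻¹ with hωdef
    have hσw' : σ w = w * ω := by rw [hωdef, mul_comm (σ w), mul_inv_cancel_left₀ hw0]
    have hwp : (w ^ p) ^ p ^ n = 1 := by
      rw [← pow_mul, ← pow_succ']
      exact hw.pow_eq_one
    have hω : ω ^ p = 1 := by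
      rw [hωdef, mul_pow, inv_pow, ← map_pow, hσμ _ hwp, mul_inv_cancel₀ (pow_ne_zero _ hw0)]
    have hω1 : ω ≠ 1 := by
      intro h
      apply hσw
      rw [hσw', h, mul_one]
    have hσμp : ∀ x : ptj_Om q, x ^ p = 1 → σ x = x := by
      intro x hx
      apply hσμ
      obtain ⟨k, rfl⟩ := Nat.exists_eq_add_of_le' hn1
      rw [pow_succ', pow_mul, hx, one_pow]
    have hpoww : ∀ k : ℕ, (σ ^ k) w = w * ω ^ k := by
      intro k
      induction k with
      | zero => simp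
      | succ k ihk =>
        rw [pow_succ', AlgEquiv.mul_apply, ihk, map_mul, map_pow, hσw', hσμp ω hω, pow_succ]
        ring
    have hpowfix : ∀ (k : ℕ) (x : ptj_Om q), σ x = x → (σ ^ k) x = x := by
      intro k x hx
      induction k with
      | zero => simp
      | succ k ihk => rw [pow_succ', AlgEquiv.mul_apply, ihk, hx]
    have hτw : (σ ^ p) w = w := by rw [hpoww, hω, mul_one]
    by_cases hτy : (σ ^ p) y = y
    · exact (pta_kummer_norm hp hp2 σ hω hω1 hσμp hw0 hσw' hwdef.symm hτy).elim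
    · refine ⟨σ ^ p, fun x hx => hpowfix p x (hσL x hx), fun x hx => ?_, hτy⟩
      haveI : NeZero (p ^ (n + 1)) := ⟨pow_ne_zero _ hp.ne_zero⟩
      obtain ⟨i, -, rfl⟩ := hw.eq_pow_of_pow_eq_one hx
      rw [map_pow, hτw]

end Fermat.Agent.Lib.PT

end
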