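/-
S55 long haul, (CYC) part C (global translation): deep enough in the cyclotomic `ℤ_p`-tower over
an `S`-level `F₀ ⊇ μ_p`, the Kummer character of the next layer is a level character which is
nontrivial on every conjugate of every decomposition group at `q ∈ S`
(= the hypothesis `hcyc` of the F4(ii)-global theorem, in a family-independent form).
-/
import Fermat.Agent.Lib.PT.GModCycB
import Fermat.Agent.Lib.PT.GModEModN
import Fermat.Agent.Lib.PT.CycloTower

set_option autoImplicit false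
set_option linter.unusedVariables false
set_option linter.unusedSectionVars false
set_option linter.style.haveILetI false

noncomputable section

namespace Fermat.Agent.Lib.PT

open IntermediateField ExtCitation

local notation "Qbar" => AlgebraicClosure ℚ
local notation "GQ" => (AlgebraicClosure ℚ ≃ₐ[ℚ] AlgebraicClosure ℚ)

/-! ### Kummer characters -/

/-- `g z / z` -/
def pta_kumU (z : Qbarˣ) (g : GQ) : Qbarˣ := Units.map ((g : Qbar →+* Qbar) : Qbar →* Qbar) z / z

lemma pta_kumU_coe (z : Qbarˣ) (g : GQ) :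
    ((pta_kumU z g : Qbarˣ) : Qbar) = g (z : Qbar) / (z : Qbar) := by
  unfold pta_kumU
  rw [Units.val_div_eq_div_val]
  rfl

lemma pta_kumU_eq_one_iff (z : Qbarˣ) (g : GQ) : pta_kumU z g = 1 ↔ g (z : Qbar) = (z : Qbar) := by
  rw [← Units.val_inj, pta_kumU_coe, Units.val_one, div_eq_one_iff_eq (Units.ne_zero z)]

variable (p : ℕ) [Fact p.Prime]

lemma pta_kumU_pow {z : Qbarˣ} {g : GQ} (hg : g ((z : Qbar) ^ p) = (z : Qbar) ^ p) :
    pta_kumU z g ^ p = 1 := by
  rw [← Units.val_inj, Units.val_pow_eq_pow_val, pta_kumU_coe, div_pow, ← map_pow, hg,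
    Units.val_one, div_self (pow_ne_zero _ (Units.ne_zero z))]

lemma pta_kumU_mul {z : Qbarˣ} {g h : GQ} (hg : ∀ x : Qbar, x ^ p = 1 → g x = x)
    (hh : h ((z : Qbar) ^ p) = (z : Qbar) ^ p) :
    pta_kumU z (g * h) = pta_kumU z g * pta_kumU z h := by
  have hz0 : (z : Qbar) ≠ 0 := Units.ne_zero z
  have h1 : ((pta_kumU z h : Qbarˣ) : Qbar) ^ p = 1 := by
    rw [← Units.val_pow_eq_pow_val, pta_kumU_pow p hh, Units.val_one]
  have h2 := hg _ h1
  rw [pta_kumU_coe, map_div₀] at h2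
  rw [← Units.val_inj, Units.val_mul, pta_kumU_coe, pta_kumU_coe, pta_kumU_coe,
    AlgEquiv.mul_apply]
  have hgz0 : g (z : Qbar) ≠ 0 := (map_ne_zero g).2 hz0
  field_simp
  field_simp at h2
  linear_combination h2

/-- the Kummer character `g ↦ log_ω (g z / z)` -/
def pta_kumChar (z : Qbarˣ) (g : GQ) : ZMod p :=
  pta_zlog p (pta_zeta0U_spec p) (Additive.ofMul (pta_kumU z g))

lemma pta_kumChar_add {z : Qbarˣ} {g h : GQ} (hg : ∀ x : Qbar, x ^ p = 1 → g x = x)
    (hgz : g ((z : Qbar) ^ p) = (z : Qbar) ^ p) (hh : h ((z : Qbar) ^ p) = (z : Qbar) ^ p) :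
    pta_kumChar p z (g * h) = pta_kumChar p z g + pta_kumChar p z h := by
  unfold pta_kumChar
  rw [pta_kumU_mul p hg hh, ofMul_mul]
  apply pta_zlog_add
  · show Additive.ofMul (pta_kumU z g ^ p) = 0
    rw [pta_kumU_pow p hgz]; rfl
  · show Additive.ofMul (pta_kumU z h ^ p) = 0
    rw [pta_kumU_pow p hh]; rfl

lemma pta_kumChar_eq_zero_iff {z : Qbarˣ} {g : GQ}
    (hgz : g ((z : Qbar) ^ p) = (z : Qbar) ^ p) :
    pta_kumChar p z g = 0 ↔ g (z : Qbar) = (z : Qbar) := by
  unfold pta_kumChar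
  rw [pta_zlog_eq_zero_iff, ← pta_kumU_eq_one_iff]
  · exact Iff.rfl
  · show Additive.ofMul (pta_kumU z g ^ p) = 0
    rw [pta_kumU_pow p hgz]; rfl

/-- `ζ_{p^n}` as a unit -/
def pta_zetaPowU (n : ℕ) : Qbarˣ :=
  ((pts_zetaPow_spec p n).isUnit (pow_ne_zero n (Fact.out : p.Prime).ne_zero)).unit

@[simp] lemma pta_zetaPowU_coe (n : ℕ) : ((pta_zetaPowU p n : Qbarˣ) : Qbar) = pts_zetaPow p n :=
  rfl

end Fermat.Agent.Lib.PT

end
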