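/-
S55 long haul, (CYC) part D: the main statement.  For an `S`-level `F₀ ⊇ μ_p` (`p` odd, `p ∈ S`)
there is a deeper level `V` (the fixing subgroup of `F₀(ζ_{p^n})`, `n ≫ 0`) and a level character
`ψ₀ : V → ZMod p` (the Kummer character of `ζ_{p^(n+1)}`) which is nontrivial on every conjugate of
every decomposition group at `q ∈ S` — the hypothesis `hcyc` of the F4(ii)-global theorem.
-/
import Fermat.Agent.Lib.PT.GModCycC
import Fermat.Agent.Lib.PT.GModUnrA

set_option autoImplicit false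
set_option linter.unusedVariables false
set_option linter.unusedSectionVars false
set_option linter.style.haveILetI false

noncomputable section

namespace Fermat.Agent.Lib.PT

open IntermediateField ExtCitation

local notation "Qbar" => AlgebraicClosure ℚ
local notation "GQ" => (AlgebraicClosure ℚ ≃ₐ[ℚ] AlgebraicClosure ℚ)

variable {p : ℕ} [Fact p.Prime] {S : Finset Nat.Primes}

/-- an automorphism fixing `ζ_{p^n}` fixes all `p^n`-th roots of unity -/
lemma pta_fixes_roots_of_fixes_zetaPow {n : ℕ} {g : GQ}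
    (hg : g (pts_zetaPow p n) = pts_zetaPow p n) {x : Qbar} (hx : x ^ p ^ n = 1) : g x = x := by
  obtain ⟨i, -, rfl⟩ := (pts_zetaPow_spec p n).eq_pow_of_pow_eq_one hx
  rw [map_pow, hg]

/-- the local hypothesis of `pta_cyc_local` for the local field of a global field containing
`μ_p` -/
lemma pta_roots_mem_Kσ {F₀ : IntermediateField ℚ Qbar} (hζ : ∀ x : Qbar, x ^ p = 1 → x ∈ F₀)
    (q : Nat.Primes) (x : ptj_Om q) (hx : x ^ p = 1) :
    x ∈ ptj_Kσ (ptj_resEmb (F := ↥F₀) (pta_iota q)) := by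
  have hp : p.Prime := Fact.out
  haveI : NeZero p := ⟨hp.ne_zero⟩
  have h0 := pta_zeta0_spec p
  have h1 : IsPrimitiveRoot (pta_iota q (pta_zeta0 p)) p :=
    h0.map_of_injective (pta_iota q).injective
  obtain ⟨i, -, rfl⟩ := h1.eq_pow_of_pow_eq_one hx
  apply pow_mem
  have h2 : pta_zeta0 p ∈ F₀ := hζ _ h0.pow_eq_one
  exact ptj_apply_mem_Kσ (ptj_resEmb (F := ↥F₀) (pta_iota q)) ⟨pta_zeta0 p, h2⟩

/-- **(CYC)**: the hypothesis `hcyc` of the F4(ii)-global theorem, family-independent form. -/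
theorem pta_cyc_global (hp2 : p ≠ 2) (hpS : pPrime p ∈ S) {F₀ : IntermediateField ℚ Qbar}
    (hF₀ : F₀.IsUnramifiedOutside S) (hst : ∀ σ : GQ, ∀ x ∈ F₀, σ x ∈ F₀)
    (hζ : ∀ x : Qbar, x ^ p = 1 → x ∈ F₀) :
    ∃ (V : Subgroup GQ) (hV : V ∈ (pta_levelsS S).lev), V ≤ F₀.fixingSubgroup ∧
      ∃ ψ₀ : ↥V → ZMod p, ptd_IsChar ψ₀ ∧
        ptd_IsLev₁ ((pta_levelsS S).sub V ((pta_levelsS S).isOpen_of_mem hV)) ψ₀ ∧
        ∀ q ∈ S, ∀ g : GQ, ∃ t : ptj_Gq q,
          ∃ h : g⁻¹ * localGaloisToGlobal (q : ℕ) t * g ∈ V, ψ₀ ⟨_, h⟩ ≠ 0 := by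
  classical
  have hp : p.Prime := Fact.out
  haveI := hF₀.1
  -- the local bounds
  have hloc : ∀ q : Nat.Primes, ∃ n₀ : ℕ, 1 ≤ n₀ ∧ ∀ n, n₀ ≤ n → ∀ y : ptj_Om q,
      IsPrimitiveRoot y (p ^ (n + 1)) → ∃ τ : ptj_Gq q,
        (∀ x ∈ ptj_Kσ (ptj_resEmb (F := ↥F₀) (pta_iota q)), τ x = x) ∧
        (∀ x : ptj_Om q, x ^ p ^ n = 1 → τ x = x) ∧ τ y ≠ y :=
    fun q => by
      haveI : FiniteDimensional ℚ_[(q : ℕ)] ↥(ptj_Kσ (ptj_resEmb (F := ↥F₀) (pta_iota q))) :=
        pta_finiteDimensional_Kσ _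
      exact pta_cyc_local hp2 _ (pta_roots_mem_Kσ hζ q)
  choose n₀ hn₀1 hn₀ using hloc
  set n : ℕ := S.sup n₀ with hn
  have hnq : ∀ q ∈ S, n₀ q ≤ n := fun q hq => Finset.le_sup hq
  -- the level
  set F : IntermediateField ℚ Qbar := F₀ ⊔ pts_cycloPowField p n with hF
  have hFu : F.IsUnramifiedOutside S := hF₀.sup (pts_cycloPowField_unram S hpS)
  have hFst : ∀ σ : GQ, ∀ x ∈ F, σ x ∈ F := pta_stable_sup hst pts_cycloPowField_stable
  have hVlev : F.fixingSubgroup ∈ (pta_levelsS S).lev := pta_mem_levelsS hFu hFst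
  have hVn : F.fixingSubgroup.Normal := pta_normal_fixingSubgroup hFst
  have hmemV : ∀ g : GQ, g ∈ F.fixingSubgroup ↔
      (∀ x ∈ F₀, g x = x) ∧ g (pts_zetaPow p n) = pts_zetaPow p n := by
    intro g
    rw [hF, IntermediateField.fixingSubgroup_sup, Subgroup.mem_inf,
      pts_mem_fixingSubgroup_cycloPowField_iff, IntermediateField.mem_fixingSubgroup_iff]
  set z : Qbarˣ := pta_zetaPowU p (n + 1) with hz
  have hzp : ((z : Qbar) ^ p) ^ p ^ n = 1 := by
    rw [← pow_mul, ← pow_succ', hz, pta_zetaPowU_coe]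
    exact (pts_zetaPow_spec p (n + 1)).pow_eq_one
  -- elements of `V` fix `μ_p` and `z ^ p`
  have hVμ : ∀ g ∈ F.fixingSubgroup, ∀ x : Qbar, x ^ p = 1 → g x = x :=
    fun g hg x hx => ((hmemV g).1 hg).1 x (hζ x hx)
  have hVz : ∀ g ∈ F.fixingSubgroup, g ((z : Qbar) ^ p) = (z : Qbar) ^ p :=
    fun g hg => pta_fixes_roots_of_fixes_zetaPow ((hmemV g).1 hg).2 hzp
  refine ⟨F.fixingSubgroup, hVlev, IntermediateField.fixingSubgroup_antitone le_sup_left,
    fun g => pta_kumChar p z (g : GQ), ?_, ?_, ?_⟩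
  · -- character
    intro g h
    exact pta_kumChar_add p (hVμ g g.2) (hVz g g.2) (hVz h h.2)
  · -- level
    set F' : IntermediateField ℚ Qbar := F ⊔ pts_cycloPowField p (n + 1) with hF'
    have hF'u : F'.IsUnramifiedOutside S := hFu.sup (pts_cycloPowField_unram S hpS)
    have hF'st : ∀ σ : GQ, ∀ x ∈ F', σ x ∈ F' := pta_stable_sup hFst pts_cycloPowField_stable
    have hle : F'.fixingSubgroup ≤ F.fixingSubgroup :=
      IntermediateField.fixingSubgroup_antitone le_sup_left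
    refine ⟨_, ⟨F'.fixingSubgroup, pta_mem_levelsS hF'u hF'st, hle, rfl⟩, fun g s hs => ?_⟩
    have hs' : (s : GQ) ∈ F'.fixingSubgroup := Subgroup.mem_subgroupOf.1 hs
    rw [hF', IntermediateField.fixingSubgroup_sup, Subgroup.mem_inf,
      pts_mem_fixingSubgroup_cycloPowField_iff] at hs'
    show pta_kumChar p z ((g : GQ) * (s : GQ)) = pta_kumChar p z (g : GQ)
    rw [pta_kumChar_add p (hVμ g g.2) (hVz g g.2) (hVz s s.2),
      (pta_kumChar_eq_zero_iff p (hVz s s.2)).2 hs'.2, add_zero]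
  · -- nontriviality
    intro q hq g
    have hy : IsPrimitiveRoot (pta_iota q (g (pts_zetaPow p (n + 1)))) (p ^ (n + 1)) :=
      ((pts_zetaPow_spec p (n + 1)).map_of_injective g.injective).map_of_injective
        (pta_iota q).injective
    obtain ⟨τ, hτL, hτμ, hτy⟩ := hn₀ q n (hnq q hq) _ hy
    have hcompat : ∀ x : Qbar, pta_iota q (localGaloisToGlobal (q : ℕ) τ x) = τ (pta_iota q x) :=
      fun x => padicEmbedding_localGaloisToGlobal (q : ℕ) τ x
    have hsV : localGaloisToGlobal (q : ℕ) τ ∈ F.fixingSubgroup := by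
      rw [hmemV]
      refine ⟨fun x hx => ?_, ?_⟩
      · apply (pta_iota q).injective
        rw [hcompat]
        exact hτL _ (ptj_apply_mem_Kσ (ptj_resEmb (F := ↥F₀) (pta_iota q)) ⟨x, hx⟩)
      · apply (pta_iota q).injective
        rw [hcompat]
        apply hτμ
        rw [← map_pow, (pts_zetaPow_spec p n).pow_eq_one, map_one]
    have hconj : g⁻¹ * localGaloisToGlobal (q : ℕ) τ * g ∈ F.fixingSubgroup := by
      have := hVn.conj_mem _ hsV g⁻¹
      simpa using this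
    refine ⟨τ, hconj, ?_⟩
    show pta_kumChar p z (g⁻¹ * localGaloisToGlobal (q : ℕ) τ * g) ≠ 0
    rw [Ne, pta_kumChar_eq_zero_iff p (hVz _ hconj)]
    intro hfix
    apply hτy
    rw [← hcompat]
    congr 1
    have h1 : (g⁻¹ * localGaloisToGlobal (q : ℕ) τ * g) (pts_zetaPow p (n + 1)) =
        pts_zetaPow p (n + 1) := hfix
    rw [AlgEquiv.mul_apply, AlgEquiv.mul_apply] at h1
    have h2 := congrArg g h1
    rw [← AlgEquiv.mul_apply g g⁻¹, mul_inv_cancel] at h2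
    exact h2

end Fermat.Agent.Lib.PT

end
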