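/-
S55 long haul, (CYC) part E: the hypothesis `hcyc` of the F4(ii)-global theorem for the local
family of `SemiLocModel` over a level `V`, cofinally in the levels `V₀ ≤ ker χ_cyc`.
-/
import Fermat.Agent.Lib.PT.GModCycD
import Fermat.Agent.Lib.PT.SemiLocModel

set_option autoImplicit false
set_option linter.unusedVariables false
set_option linter.unusedSectionVars false
set_option linter.style.haveILetI false

noncomputable section

namespace Fermat.Agent.Lib.PT

open IntermediateField ExtCitation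

local notation "Qbar" => AlgebraicClosure ℚ
local notation "GQ" => (AlgebraicClosure ℚ ≃ₐ[ℚ] AlgebraicClosure ℚ)

variable {p : ℕ} [Fact p.Prime] {S : Finset Nat.Primes}

/-- **(CYC) in the model**: below every level `V₀ ≤ ker χ_cyc` there is a level `V` carrying a level
character `ψ₀ : V → ZMod p` which is nontrivial on the local group of every place of the family
of `SemiLocModel` over `V`. -/
theorem pta_hcyc_model (hp2 : p ≠ 2) (hpS : pPrime p ∈ S) (V₀ : Subgroup GQ)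
    (hV₀ : V₀ ∈ (pta_levelsS S).lev) (hV₀K : V₀ ≤ (cycloChar p).ker) :
    ∃ (V : Subgroup GQ) (hV : V ∈ (pta_levelsS S).lev), V ≤ V₀ ∧
      ∃ ψ₀ : ↥V → ZMod p, ptd_IsChar ψ₀ ∧
        ptd_IsLev₁ ((pta_levelsS S).sub V ((pta_levelsS S).isOpen_of_mem hV)) ψ₀ ∧
        ∀ v : pts_PlacesS S V, ∃ t : ↥(pts_Vv V v),
          ψ₀ (pts_dcHom (pta_SLr S v.1) V v.2 t) ≠ 0 := by
  have hp : p.Prime := Fact.out
  haveI : NeZero p := ⟨hp.ne_zero⟩
  obtain ⟨F₀, hF₀, hst, rfl⟩ := hV₀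
  set F₁ : IntermediateField ℚ Qbar := F₀ ⊔ pta_cycloField p with hF₁
  have hF₁u : F₁.IsUnramifiedOutside S := hF₀.sup (pta_cycloField_unram S hpS)
  have hF₁st : ∀ σ : GQ, ∀ x ∈ F₁, σ x ∈ F₁ := pta_stable_sup hst pta_cycloField_stable
  have hζ : ∀ x : Qbar, x ^ p = 1 → x ∈ F₁ := by
    intro x hx
    obtain ⟨ζ, hζ⟩ := pta_exists_primitiveRoot p
    obtain ⟨i, -, rfl⟩ := hζ.eq_pow_of_pow_eq_one hx
    exact pow_mem ((le_sup_right : pta_cycloField p ≤ F₁) (pta_mem_cycloField hζ)) i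
  obtain ⟨V, hV, hVle, ψ₀, hchar, hlev, hnt⟩ := pta_cyc_global hp2 hpS hF₁u hF₁st hζ
  refine ⟨V, hV, hVle.trans (IntermediateField.fixingSubgroup_antitone le_sup_left), ψ₀, hchar,
    hlev, fun v => ?_⟩
  obtain ⟨t, ht, hne⟩ := hnt v.1.1 v.1.2 (pts_dcRep (pta_SLr S v.1) V v.2)
  exact ⟨⟨t, ht⟩, hne⟩

end Fermat.Agent.Lib.PT

end
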