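/-
S55 long haul, (G8.B3): `B_T = 1`.  `K ∋ ζ_p` a number field, `T ∋ p` a finite set of rational
primes with `J_K = Kˣ · J_{K,T}`.  A `T`-unit `b` of `K` which is a `p`-th power in all the local
fields `K_v`, `v ∣ T`, is a `p`-th power in `K`.  (Else `K(b^{1/p})/K` would be cyclic of degree
`p`, unramified outside `T` and split over `T`, so every `T`-idele would be a norm and
`J_K = Kˣ · N J_{K(b^{1/p})}`, contradicting the (weak) first inequality.)
Everything is in helper2's vocabulary of `GPlaceLoc*`/`GPlaceNorm*` (`ptk_LocNormLikeM`,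
`ptk_hfirst_of_firstIneq`).
-/
import Fermat.Agent.Lib.PT.GPlaceNormD

set_option autoImplicit false
set_option linter.unusedVariables false
set_option linter.unusedSectionVars false

noncomputable section

namespace Fermat.Agent.Lib.PT

open IsDedekindDomain NumberField Fermat.Agent.Lib.CFT

universe u

variable {K : Type u} [Field K] [NumberField K]

/-- **(G8.B3), place form**: a `T`-unit which is a local `p`-th power at all places over `T` is a
global `p`-th power. -/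
theorem pta_BT_trivial {p : ℕ} [hp : Fact p.Prime] {ζ : K} (hζ : IsPrimitiveRoot ζ p)
    (hFI : ptk_FirstIneq K p) (T : Finset Nat.Primes) (hpT : (⟨p, hp.out⟩ : Nat.Primes) ∈ T)
    (hT : ptj_principal K ⊔ ptj_JT K T = ⊤) (b : Kˣ) (hbT : ptj_diag K b ∈ ptj_JT K T)
    (hloc : ∀ v ∈ ptk_over K T, ptk_ev K v (ptj_diag K b) ∈ ptk_lpows (ptk_G K) p v) :
    b ∈ ptk_pows K p := by
  classical
  by_contra hb
  obtain ⟨Nb, hNb, hmem⟩ := ptk_hfirst_of_firstIneq hζ hFI b hb
  apply hNb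
  rw [eq_top_iff, ← hT]
  refine sup_le_sup le_rfl (fun f hf => hmem f (fun v => ?_))
  have hax := ptk_placeAxioms_model hp.out hζ
  by_cases hv : v ∈ ptk_over K T
  · exact Or.inr (Or.inl (hloc v hv))
  · refine Or.inr (Or.inr ⟨?_, ?_, ?_⟩)
    · intro hpv
      apply hv
      rw [ptk_mem_over]
      have h := ptk_eq_below_of_mem (q := ⟨p, hp.out⟩) (v := v) hpv
      rw [← h]
      exact hpT
    · have h1 : ptj_diag K b ∈ ptk_JS (G := ptk_G K) (ptk_O K) (ptk_ev K) (ptk_over K T) :=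
        ptk_JT_le_JS T hbT
      exact (ptk_diag_mem_JS_iff hax _ b).mp h1 v (by simpa using hv)
    · exact ptk_JT_le_JS T hf v hv

/-- a root in the local field gives a local `p`-th power in helper2's sense -/
lemma pta_mem_lpows_of_root {p : ℕ} (hp0 : p ≠ 0) (v : HeightOneSpectrum (𝓞 K)) (b : Kˣ)
    {c : ptj_Om (ptk_below v)} (hc : c ∈ ptj_Kσ (ptk_sig v)) (hcb : c ^ p = ptk_sig v (b : K)) :
    ptk_ev K v (ptj_diag K b) ∈ ptk_lpows (ptk_G K) p v := by
  have hc0 : c ≠ 0 := by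
    rintro rfl
    rw [zero_pow hp0] at hcb
    exact (map_ne_zero (ptk_sig v)).2 b.ne_zero hcb.symm
  refine ⟨⟨Units.mk0 c hc0, hc⟩, ?_⟩
  apply Subtype.ext
  apply Units.ext
  rw [powMonoidHom_apply, Subgroup.coe_pow, Units.val_pow_eq_pow_val, Units.val_mk0, hcb]
  exact (ptk_evalAt_diag (ptk_sig v) b).symm

/-- **(G8.B3), embedding form**: a `T`-unit `b` such that `σ b` is a `p`-th power in `K_σ` for
every embedding `σ` over `T` is a `p`-th power in `K`. -/
theorem pta_BT_trivial_emb {p : ℕ} [hp : Fact p.Prime] {ζ : K} (hζ : IsPrimitiveRoot ζ p)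
    (hFI : ptk_FirstIneq K p) (T : Finset Nat.Primes) (hpT : (⟨p, hp.out⟩ : Nat.Primes) ∈ T)
    (hT : ptj_principal K ⊔ ptj_JT K T = ⊤) (b : Kˣ) (hbT : ptj_diag K b ∈ ptj_JT K T)
    (hloc : ∀ q ∈ T, ∀ σ : ptj_Emb K q, ∃ c ∈ ptj_Kσ σ, c ^ p = σ (b : K)) :
    b ∈ ptk_pows K p := by
  refine pta_BT_trivial hζ hFI T hpT hT b hbT (fun v hv => ?_)
  obtain ⟨c, hc, hcb⟩ := hloc (ptk_below v) (ptk_mem_over.1 hv) (ptk_sig v)
  exact pta_mem_lpows_of_root hp.out.ne_zero v b hc hcb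

/-- the same, with the injectivity formulation: the map
`O_{K,T}ˣ / p → ∏_{v ∣ T} K_vˣ / p` is injective. -/
theorem pta_BT_injective {p : ℕ} [hp : Fact p.Prime] {ζ : K} (hζ : IsPrimitiveRoot ζ p)
    (hFI : ptk_FirstIneq K p) (T : Finset Nat.Primes) (hpT : (⟨p, hp.out⟩ : Nat.Primes) ∈ T)
    (hT : ptj_principal K ⊔ ptj_JT K T = ⊤) (b b' : Kˣ) (hbT : ptj_diag K b ∈ ptj_JT K T)
    (hbT' : ptj_diag K b' ∈ ptj_JT K T)
    (hloc : ∀ v ∈ ptk_over K T,
      ptk_ev K v (ptj_diag K b) / ptk_ev K v (ptj_diag K b') ∈ ptk_lpows (ptk_G K) p v) :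
    b / b' ∈ ptk_pows K p := by
  refine pta_BT_trivial hζ hFI T hpT hT (b / b') ?_ (fun v hv => ?_)
  · rw [map_div]
    exact (ptj_JT K T).div_mem hbT hbT'
  · rw [map_div, map_div]
    exact hloc v hv

end Fermat.Agent.Lib.PT

end
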