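/-
S55 long haul: the WEAK FIRST INEQUALITY for ALL Galois extensions of degree `p` of a number field
`F ∋ ζ_p` (`p` odd), UNCONDITIONALLY: helper2's `ptk_FirstIneq F p`.  Every such extension is a
Kummer extension `F(α)`, `α ^ p = a ∈ F`, which is unramified outside `T = supp(a) ∪ {p}`
(helper2's `ptk_galRes_injective_model`), so helper8's `cfh_weak_first_inequality` applies.
Consequences: helper2's second inequality `ptk_second_ineq_cyclic` and (G8.B3) without the
hypothesis `hFI`.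
-/
import Fermat.Agent.Lib.PT.GModKumB
import Fermat.Agent.Lib.PT.FirstJ

set_option autoImplicit false
set_option linter.unusedVariables false
set_option linter.unusedSectionVars false
set_option linter.style.haveILetI false

noncomputable section

namespace Fermat.Agent.Lib.PT

open IsDedekindDomain NumberField IntermediateField Fermat.Agent.Lib.CFT

universe u

variable {F : Type u} [Field F] [NumberField F]

/-- **the weak first inequality holds for all Galois extensions of degree `p` of `F ∋ ζ_p`**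
(`p` odd). -/
theorem pta_firstIneq {p : ℕ} [hp : Fact p.Prime] (hp2 : p ≠ 2) {ζ : F}
    (hζ : IsPrimitiveRoot ζ p) : ptk_FirstIneq F p := by
  classical
  intro K' _ _ _ _ _ hdeg
  have hcard : Nat.card (K' ≃ₐ[F] K') = p := by rw [IsGalois.card_aut_eq_finrank, hdeg]
  haveI : IsCyclic (K' ≃ₐ[F] K') := isCyclic_of_prime_card hcard
  have hprim : (primitiveRoots (Module.finrank F K') F).Nonempty := by
    rw [hdeg]
    exact ⟨ζ, (mem_primitiveRoots hp.out.pos).mpr hζ⟩
  obtain ⟨α, ⟨a, ha⟩, hgen⟩ := exists_root_adjoin_eq_top_of_isCyclic F K' hprim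
  rw [hdeg] at ha
  have hα : α ^ p = algebraMap F K' a := ha.symm
  have hαint : IsIntegral F α := Algebra.IsIntegral.isIntegral α
  have hgen' : Algebra.adjoin F {α} = ⊤ := by
    rw [← IntermediateField.adjoin_simple_toSubalgebra_of_isAlgebraic hαint.isAlgebraic, hgen]
    rfl
  have hα0 : α ≠ 0 := by
    rintro rfl
    have h1 : F⟮(0 : K')⟯ = ⊥ := IntermediateField.adjoin_zero
    rw [h1] at hgen
    have h2 : Module.finrank F K' = 1 := by
      rw [← IntermediateField.finrank_top', ← hgen, IntermediateField.finrank_bot]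
    rw [hdeg] at h2
    exact hp.out.one_lt.ne' h2
  have ha0 : a ≠ 0 := by
    rintro rfl
    rw [map_zero] at hα
    exact hα0 (pow_eq_zero_iff hp.out.ne_zero |>.1 hα)
  obtain ⟨T₂, hT₂⟩ := ptj_exists_mem_JT (ptj_diag F (Units.mk0 a ha0))
  set T : Finset Nat.Primes := T₂ ∪ {⟨p, hp.out⟩} with hT
  have hpq : ∀ q : Nat.Primes, q ∉ T → p ≠ (q : ℕ) := by
    intro q hq h
    apply hq
    have : q = ⟨p, hp.out⟩ := Subtype.ext h.symm
    rw [this, hT]
    exact Finset.mem_union_right _ (Finset.mem_singleton_self _)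
  have hunit : ∀ q : Nat.Primes, q ∉ T → ∀ σ : ptj_Emb K' q,
      ‖ptj_resEmb (F := F) σ a‖ = 1 := by
    intro q hq σ
    have hq2 : q ∉ T₂ := fun h => hq (Finset.mem_union_left _ h)
    exact hT₂ q hq2 (ptj_resEmb (F := F) σ)
  have hunit' : ∀ q : Nat.Primes, q ∉ T → ∀ σ : ptj_Emb K' q, ‖σ α‖ = 1 := by
    intro q hq σ
    have h1 : ‖σ α‖ ^ p = 1 := by
      rw [← norm_pow, ← map_pow, hα]
      exact hunit q hq σ
    exact (pow_eq_one_iff_of_nonneg (norm_nonneg _) hp.out.ne_zero).mp h1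
  refine cfh_weak_first_inequality hp.out hp2 hdeg T (fun q hq σ => ?_) (fun q hq σ => ?_)
  · exact ptk_unitsAreNorms_kummer hp.out (hpq q hq) hα hgen' σ (hunit q hq σ)
  · exact pta_unitsH90_of_injective (F := F) σ
      (ptk_galRes_injective_model hp.out (hpq q hq) hα hgen' σ (hunit' q hq σ))

/-- **(G8.B3), unconditional**: for `K ∋ ζ_p` (`p` odd), `T ∋ p` with `J_K = Kˣ · J_{K,T}`, a
`T`-unit which is a local `p`-th power at all places over `T` is a `p`-th power. -/
theorem pta_BT_trivial' {K : Type u} [Field K] [NumberField K] {p : ℕ} [hp : Fact p.Prime]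
    (hp2 : p ≠ 2) {ζ : K} (hζ : IsPrimitiveRoot ζ p)
    (T : Finset Nat.Primes) (hpT : (⟨p, hp.out⟩ : Nat.Primes) ∈ T)
    (hT : ptj_principal K ⊔ ptj_JT K T = ⊤) (b : Kˣ) (hbT : ptj_diag K b ∈ ptj_JT K T)
    (hloc : ∀ v ∈ ptk_over K T, ptk_ev K v (ptj_diag K b) ∈ ptk_lpows (ptk_G K) p v) :
    b ∈ ptk_pows K p :=
  pta_BT_trivial hζ (pta_firstIneq hp2 hζ) T hpT hT b hbT hloc

/-- embedding form -/
theorem pta_BT_trivial_emb' {K : Type u} [Field K] [NumberField K] {p : ℕ} [hp : Fact p.Prime]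
    (hp2 : p ≠ 2) {ζ : K} (hζ : IsPrimitiveRoot ζ p)
    (T : Finset Nat.Primes) (hpT : (⟨p, hp.out⟩ : Nat.Primes) ∈ T)
    (hT : ptj_principal K ⊔ ptj_JT K T = ⊤) (b : Kˣ) (hbT : ptj_diag K b ∈ ptj_JT K T)
    (hloc : ∀ q ∈ T, ∀ σ : ptj_Emb K q, ∃ c ∈ ptj_Kσ σ, c ^ p = σ (b : K)) :
    b ∈ ptk_pows K p :=
  pta_BT_trivial_emb hζ (pta_firstIneq hp2 hζ) T hpT hT b hbT hloc

/-- **second inequality, unconditional** (helper2's `ptk_second_ineq_cyclic` with `hFI`
discharged): `[J_F : Fˣ · N J_K] ∣ p` for `K/F` Galois of odd prime degree `p`, `ζ_p ∈ F`. -/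
theorem pta_second_ineq_cyclic {K : Type*} [Field K] [NumberField K] [Algebra F K]
    [FiniteDimensional F K] [IsGalois F K] {p : ℕ} [hp : Fact p.Prime] (hp2 : p ≠ 2)
    (hdeg : Module.finrank F K = p) {ζ : F} (hζ : IsPrimitiveRoot ζ p) :
    (ptj_principal F ⊔ (ptj_norm F (K ≃ₐ[F] K) : ptj_J K →* ptj_J F).range).index ∣ p :=
  ptk_second_ineq_cyclic hp2 hdeg hζ (pta_firstIneq hp2 hζ)

end Fermat.Agent.Lib.PT

end
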