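/-
S55 long haul, input (3) **(G4) at finite level**: for `K/F` Galois of odd prime degree `p`,
`ζ_p ∈ F`, "unramified outside `S`" (units are norms + Hilbert 90 for units outside `S`),
`S ≠ ∅`:  `H¹(Γ, C_S(K)) = 1` and `#H²(Γ, C_S(K)) ∣ p`, for `Γ = Gal(K/F)` acting on the
`S`-idele class group `C_S(K) = J_K / Kˣ U_S` (lead's `ptj_CT K S`).

Route: enlarge `S` to `T ⊇ S` with `J_K = Kˣ J_{K,T}` (helper2's `ptk_class_group`);
first inequality on `C_T(K)` (helper8's `cfh_first_inequality'`); second inequality on `C_T(K)`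
from the idelic second inequality `pta_second_ineq_cyclic` through `J_F → C_T(K)` (this file);
`Ĥ⁻¹ = 1`, `#Ĥ⁰ = p` on `C_T(K)` (helper6's `ptl_cyc_of_first_second`); descent
`C_T(K) ↠ C_S(K)` (helper6's `CycPerC`); cyclic cohomology (helper6's `ptl_G4_of_hm1_h0`).
-/
import Fermat.Agent.Lib.PT.FirstJ
import Fermat.Agent.Lib.PT.GModKumC
import Fermat.Agent.Lib.PT.CycPerB
import Fermat.Agent.Lib.PT.GModDescent

set_option autoImplicit false
set_option linter.unusedVariables false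
set_option linter.unusedSectionVars false
set_option linter.style.haveILetI false

noncomputable section

namespace Fermat.Agent.Lib.PT

open IsDedekindDomain NumberField groupCohomology

variable {F K : Type} [Field F] [NumberField F] [Field K] [NumberField K] [Algebra F K]

variable (F K) in
/-- the map `J_F → C_T(K)`. -/
def pta_upCT (T : Finset Nat.Primes) : ptj_J F →* ptj_CT K T :=
  (QuotientGroup.mk' (ptj_princUT K T)).comp (ptj_up F K)

theorem pta_upCT_apply (T : Finset Nat.Primes) (g : ptj_J F) :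
    pta_upCT F K T g = (QuotientGroup.mk (ptj_up F K g) : ptj_CT K T) := rfl

/-- the image of `J_F` in `C_T(K)` is fixed by `Γ`. -/
theorem pta_upCT_range_le [IsGalois F K] (γ : K ≃ₐ[F] K) (T : Finset Nat.Primes) :
    (pta_upCT F K T).range ≤ (cfh_DCT K T γ).ker := by
  rintro _ ⟨g, rfl⟩
  rw [MonoidHom.mem_ker, cfh_DCT_apply, pta_upCT_apply, ptj_CT_smul_mk, ptj_smul_up, div_self']

/-- the `Γ`-fixed classes of `C_T(K)` come from `J_F` (lead's descent). -/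
theorem pta_le_upCT_range [IsGalois F K] (γ : K ≃ₐ[F] K)
    (hγ : ∀ τ : K ≃ₐ[F] K, τ ∈ Subgroup.zpowers γ)
    (T : Finset Nat.Primes) (hT : T.Nonempty)
    (hunrH : ∀ q, q ∉ T → ∀ σ : ptj_Emb K q, ptj_UnitsH90 (K ≃ₐ[F] K) σ) :
    (cfh_DCT K T γ).ker ≤ (pta_upCT F K T).range := by
  intro c hc
  obtain ⟨f, rfl⟩ := QuotientGroup.mk_surjective c
  have hfix : γ • (QuotientGroup.mk f : ptj_CT K T) = QuotientGroup.mk f := by
    rw [MonoidHom.mem_ker, cfh_DCT_apply, div_eq_one] at hc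
    exact hc
  have hall : ∀ τ : K ≃ₐ[F] K, τ • (QuotientGroup.mk f : ptj_CT K T) = QuotientGroup.mk f :=
    cfh_smul_eq_of_generator' hγ hfix
  have hf : ∀ τ : K ≃ₐ[F] K, τ • f / f ∈ ptj_princUT K T := by
    intro τ
    have h1 := hall τ
    rw [ptj_CT_smul_mk, QuotientGroup.eq] at h1
    have h2 : τ • f / f = ((τ • f)⁻¹ * f)⁻¹ := by
      rw [mul_inv_rev, inv_inv, div_eq_mul_inv, mul_comm]
    rw [h2]
    exact (ptj_princUT K T).inv_mem h1
  obtain ⟨g, y, v, hv, hfg⟩ := ptj_exists_up_of_classT_invariant (F := F) hT hunrH hf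
  refine ⟨g, ?_⟩
  rw [pta_upCT_apply, QuotientGroup.eq, hfg, inv_mul_cancel_left]
  exact (ptj_princUT K T).mul_mem (Subgroup.mem_sup_left ⟨y, rfl⟩) (Subgroup.mem_sup_right hv)

/-- `Fˣ · N J_K` maps into the norms of `C_T(K)`. -/
theorem pta_principal_sup_norm_le_comap [IsGalois F K] (γ : K ≃ₐ[F] K)
    (hγ : ∀ τ : K ≃ₐ[F] K, τ ∈ Subgroup.zpowers γ) (T : Finset Nat.Primes) :
    ptj_principal F ⊔ (ptj_norm (K := K) F (K ≃ₐ[F] K)).range ≤
      (cfh_NCT K T γ (orderOf γ)).range.comap (pta_upCT F K T) := by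
  rw [sup_le_iff]
  constructor
  · intro a ha
    rw [Subgroup.mem_comap, pta_upCT_apply]
    have h1 : (QuotientGroup.mk (ptj_up F K a) : ptj_CT K T) = 1 := by
      rw [QuotientGroup.eq_one_iff]
      exact Subgroup.mem_sup_left (ptj_up_mem_principal ha)
    rw [h1]
    exact one_mem _
  · rintro _ ⟨f', rfl⟩
    rw [Subgroup.mem_comap, pta_upCT_apply]
    refine ⟨QuotientGroup.mk f', ?_⟩
    rw [cfh_NCT_mk, cfh_N_sJ_eq_up_norm (F := F) hγ]

/-- **second inequality on `C_T(K)`**: `#Ĥ⁰(Γ, C_T(K)) ∣ p`. -/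
theorem pta_second_ineq_CT [IsGalois F K] {p : ℕ} [hp : Fact p.Prime] (hp2 : p ≠ 2)
    (hdeg : Module.finrank F K = p) {ζ : F} (hζ : IsPrimitiveRoot ζ p) (γ : K ≃ₐ[F] K)
    (hγ : ∀ τ : K ≃ₐ[F] K, τ ∈ Subgroup.zpowers γ)
    (T : Finset Nat.Primes) (hT : T.Nonempty)
    (hunrH : ∀ q, q ∉ T → ∀ σ : ptj_Emb K q, ptj_UnitsH90 (K ≃ₐ[F] K) σ) :
    (cfh_NCT K T γ p).range.relIndex (cfh_DCT K T γ).ker ∣ p := by
  have hcard : Nat.card (K ≃ₐ[F] K) = p := by rw [IsGalois.card_aut_eq_finrank, hdeg]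
  have hord : orderOf γ = p := by
    rw [orderOf_eq_card_of_forall_mem_zpowers hγ, hcard]
  have hrange : (pta_upCT F K T).range = (cfh_DCT K T γ).ker :=
    le_antisymm (pta_upCT_range_le γ T) (pta_le_upCT_range γ hγ T hT hunrH)
  rw [← hrange, ← Subgroup.index_comap]
  have hle := pta_principal_sup_norm_le_comap (F := F) γ hγ T
  rw [hord] at hle
  exact (Subgroup.index_dvd_of_le hle).trans (pta_second_ineq_cyclic hp2 hdeg hζ)

/-- **(G4) on `C_T(K)`** for `T` large (`J_K = Kˣ J_{K,T}`): `Ĥ⁻¹ = 1` and `#Ĥ⁰ = p`. -/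
theorem pta_G4_CT [IsGalois F K] {p : ℕ} [hp : Fact p.Prime] (hp2 : p ≠ 2)
    (hdeg : Module.finrank F K = p) {ζ : F} (hζ : IsPrimitiveRoot ζ p) (γ : K ≃ₐ[F] K)
    (hγ : ∀ τ : K ≃ₐ[F] K, τ ∈ Subgroup.zpowers γ)
    (T : Finset Nat.Primes) (hT : T.Nonempty)
    (hcl : ptj_principal K ⊔ ptj_JT K T = ⊤)
    (hunrN : ∀ q ∉ T, ∀ σ : ptj_Emb K q, ptj_UnitsAreNorms F (K ≃ₐ[F] K) σ)
    (hunrH : ∀ q, q ∉ T → ∀ σ : ptj_Emb K q, ptj_UnitsH90 (K ≃ₐ[F] K) σ) :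
    (cfh_NCT K T γ p).ker ≤ (cfh_DCT K T γ).range ∧
      (cfh_NCT K T γ p).range.relIndex (cfh_DCT K T γ).ker = p := by
  obtain ⟨-, h1, hfirst⟩ := cfh_first_inequality' hp.out hp2 hdeg γ hγ T hT hcl hunrN hunrH
  exact ptl_cyc_of_first_second hp.out _ _ h1 hfirst
    (pta_second_ineq_CT hp2 hdeg hζ γ hγ T hT hunrH)

/-- the large set of primes: `T ⊇ S` with `J_K = Kˣ J_{K,T}`. -/
theorem pta_exists_large_T (K : Type) [Field K] [NumberField K] (S : Finset Nat.Primes) :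
    ∃ T : Finset Nat.Primes, S ⊆ T ∧ ptj_principal K ⊔ ptj_JT K T = ⊤ := by
  classical
  obtain ⟨T₀, hT₀⟩ := ptk_class_group K
  exact ⟨S ∪ T₀, Finset.subset_union_left, hT₀ _ Finset.subset_union_right⟩

/-- **finite-level (G4), modulo the descent `C_T(K) ↠ C_S(K)`** (helper6's `CycPerC`). -/
theorem pta_G4_finite_of_descent [IsGalois F K] {p : ℕ} [hp : Fact p.Prime] (hp2 : p ≠ 2)
    (hdeg : Module.finrank F K = p) {ζ : F} (hζ : IsPrimitiveRoot ζ p)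
    (S : Finset Nat.Primes) (hS : S.Nonempty)
    (hunrN : ∀ q ∉ S, ∀ σ : ptj_Emb K q, ptj_UnitsAreNorms F (K ≃ₐ[F] K) σ)
    (hunrH : ∀ q ∉ S, ∀ σ : ptj_Emb K q, ptj_UnitsH90 (K ≃ₐ[F] K) σ)
    (hdesc : ∀ (γ : K ≃ₐ[F] K), (∀ τ : K ≃ₐ[F] K, τ ∈ Subgroup.zpowers γ) →
      ∀ T : Finset Nat.Primes, S ⊆ T →
      ((cfh_NCT K S γ (orderOf γ)).range.relIndex (cfh_DCT K S γ).ker =
        (cfh_NCT K T γ (orderOf γ)).range.relIndex (cfh_DCT K T γ).ker) ∧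
      ((cfh_NCT K T γ (orderOf γ)).ker ≤ (cfh_DCT K T γ).range →
        (cfh_NCT K S γ (orderOf γ)).ker ≤ (cfh_DCT K S γ).range)) :
    (∀ f : (K ≃ₐ[F] K) → ptj_CT K S, IsMulCocycle₁ f → IsMulCoboundary₁ f) ∧
      Nat.card (groupCohomology (Rep.ofMulDistribMulAction (K ≃ₐ[F] K) (ptj_CT K S)) 2) ∣ p := by
  classical
  haveI : Fintype (K ≃ₐ[F] K) := Fintype.ofFinite _
  have hcard : Nat.card (K ≃ₐ[F] K) = p := by rw [IsGalois.card_aut_eq_finrank, hdeg]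
  haveI : IsCyclic (K ≃ₐ[F] K) := isCyclic_of_prime_card hcard
  obtain ⟨γ, hγ⟩ := IsCyclic.exists_generator (α := K ≃ₐ[F] K)
  have hord : orderOf γ = p := by
    rw [orderOf_eq_card_of_forall_mem_zpowers hγ, hcard]
  obtain ⟨T, hST, hcl⟩ := pta_exists_large_T K S
  have hT : T.Nonempty := hS.mono hST
  obtain ⟨hm1T, h0T⟩ := pta_G4_CT hp2 hdeg hζ γ hγ T hT hcl
    (fun q hq σ => hunrN q (fun h => hq (hST h)) σ)
    (fun q hq σ => hunrH q (fun h => hq (hST h)) σ)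
  obtain ⟨hd0, hdm1⟩ := hdesc γ hγ T hST
  rw [hord] at hd0 hdm1
  refine ptl_G4_of_hm1_h0 γ hγ hcard hp.out.ne_zero (cfh_NCT K S γ p) (cfh_DCT K S γ)
    (cfh_NCT_apply S γ p) (cfh_DCT_apply S γ) (hdm1 hm1T) ?_
  rw [hd0, h0T]

end Fermat.Agent.Lib.PT

end
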