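/-
(G4), part A: THE FIRST AND SECOND INEQUALITIES, unconditional, for cyclic extensions `K/F` of odd
prime degree `p` of number fields with `ζ_p ∈ F` (embedding model):
`Fˣ · N J_K ≠ J_F` (helper8) for all such extensions and `[J_F : Fˣ · N J_K] ∣ p`.
-/
import Fermat.Agent.Lib.PT.GPlaceNormD
import Fermat.Agent.Lib.PT.FirstJ

set_option autoImplicit false
set_option linter.unusedSectionVars false
set_option linter.unusedVariables false

noncomputable section

namespace Fermat.Agent.Lib.PT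

open IsDedekindDomain NumberField Polynomial

universe u

section Kummer

variable {F K : Type*} [Field F] [Field K] [Algebra F K] {q : Nat.Primes}
variable {Γ : Type*} [Group Γ] [MulSemiringAction Γ K] [Finite Γ] [IsGaloisGroup Γ F K]

/-- Hilbert 90 for units at unramified Kummer places -/
theorem ptk_unitsH90_kummer [Algebra ℚ K] [FiniteDimensional ℚ K] {p : ℕ} (hp : p.Prime)
    (hpq : p ≠ (q : ℕ)) {a : F} {α : K} (hα : α ^ p = algebraMap F K a)
    (hgen : Algebra.adjoin F {α} = ⊤) (σ : ptj_Emb K q)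
    (hunit : ‖ptj_resEmb (F := F) σ a‖ = 1) :
    ptj_UnitsH90 Γ σ := by
  apply pta_unitsH90_of_injective (F := F) σ
  apply ptk_galRes_injective_model hp hpq hα hgen σ
  have h1 : ‖σ α‖ ^ p = 1 := by
    rw [← norm_pow, ← map_pow, hα]
    exact hunit
  exact (pow_eq_one_iff_of_nonneg (norm_nonneg _) hp.ne_zero).mp h1

end Kummer

section Ineq

variable {F : Type u} [Field F] [NumberField F]

/-- a Kummer generator of a Galois extension of degree `p` -/
theorem ptk_exists_kummer_gen {K : Type*} [Field K] [Algebra F K] [FiniteDimensional F K]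
    [IsGalois F K] {p : ℕ} (hp : p.Prime) (hdeg : Module.finrank F K = p) {ζ : F}
    (hζ : IsPrimitiveRoot ζ p) :
    ∃ (a : Fˣ) (α : K), α ^ p = algebraMap F K (a : F) ∧ Algebra.adjoin F {α} = ⊤ := by
  have hcard : Nat.card (K ≃ₐ[F] K) = p := by rw [IsGalois.card_aut_eq_finrank, hdeg]
  haveI : Fact p.Prime := ⟨hp⟩
  haveI : IsCyclic (K ≃ₐ[F] K) := isCyclic_of_prime_card hcard
  have hprim : (primitiveRoots (Module.finrank F K) F).Nonempty := by
    rw [hdeg]
    exact ⟨ζ, (mem_primitiveRoots hp.pos).mpr hζ⟩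
  obtain ⟨α, ⟨a, haα⟩, hgen⟩ := exists_root_adjoin_eq_top_of_isCyclic F K hprim
  rw [hdeg] at haα
  have hint : IsAlgebraic F α := IsAlgebraic.of_finite F α
  have hgen' : Algebra.adjoin F {α} = ⊤ := by
    rw [← IntermediateField.adjoin_simple_toSubalgebra_of_isAlgebraic hint, hgen]
    rfl
  have ha0 : a ≠ 0 := by
    rintro rfl
    rw [map_zero] at haα
    have hα0 : α = 0 := by
      by_contra h
      exact pow_ne_zero p h haα.symm
    have h3 : Algebra.adjoin F {α} = ⊥ := by
      rw [eq_bot_iff, Algebra.adjoin_le_iff]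
      intro x hx
      rw [Set.mem_singleton_iff] at hx
      rw [hx, hα0]
      exact Subalgebra.zero_mem _
    rw [hgen'] at h3
    have h4 : Module.finrank F K = 1 := Subalgebra.bot_eq_top_iff_finrank_eq_one.mp h3.symm
    rw [hdeg] at h4
    exact hp.one_lt.ne' h4
  exact ⟨Units.mk0 a ha0, α, haα.symm, hgen'⟩

/-- "unramified outside `T`" data for a Galois extension of degree `p` of `F ∋ ζ_p` -/
theorem ptk_exists_unram_data {K : Type*} [Field K] [NumberField K] [Algebra F K]
    [FiniteDimensional F K] [IsGalois F K] {p : ℕ} (hp : p.Prime)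
    (hdeg : Module.finrank F K = p) {ζ : F} (hζ : IsPrimitiveRoot ζ p) :
    ∃ T : Finset Nat.Primes,
      (∀ q ∉ T, ∀ σ : ptj_Emb K q, ptj_UnitsAreNorms F (K ≃ₐ[F] K) σ) ∧
      (∀ q, q ∉ T → ∀ σ : ptj_Emb K q, ptj_UnitsH90 (K ≃ₐ[F] K) σ) := by
  classical
  obtain ⟨a, α, hα, hgen⟩ := ptk_exists_kummer_gen hp hdeg hζ
  obtain ⟨T₁, hT₁⟩ := ptj_exists_mem_JT (ptj_diag F a)
  refine ⟨T₁ ∪ {⟨p, hp⟩}, ?_, ?_⟩
  · intro q hq σ
    have hq1 : q ∉ T₁ := fun h => hq (Finset.mem_union_left _ h)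
    have hqp : p ≠ (q : ℕ) := by
      intro h
      apply hq
      have : q = ⟨p, hp⟩ := Subtype.ext h.symm
      rw [this]
      exact Finset.mem_union_right _ (Finset.mem_singleton_self _)
    exact ptk_unitsAreNorms_kummer hp hqp hα hgen σ (hT₁ q hq1 (ptj_resEmb (F := F) σ))
  · intro q hq σ
    have hq1 : q ∉ T₁ := fun h => hq (Finset.mem_union_left _ h)
    have hqp : p ≠ (q : ℕ) := by
      intro h
      apply hq
      have : q = ⟨p, hp⟩ := Subtype.ext h.symm
      rw [this]
      exact Finset.mem_union_right _ (Finset.mem_singleton_self _)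
    exact ptk_unitsH90_kummer (F := F) hp hqp hα hgen σ (hT₁ q hq1 (ptj_resEmb (F := F) σ))

/-- **the weak first inequality holds for all Galois extensions of degree `p`** (`p` odd,
`ζ_p ∈ F`) -/
theorem ptk_firstIneq {p : ℕ} (hp : p.Prime) (hp2 : p ≠ 2) {ζ : F} (hζ : IsPrimitiveRoot ζ p) :
    ptk_FirstIneq F p := by
  intro K' _ _ _ _ _ hdeg
  obtain ⟨T, hN, hH⟩ := ptk_exists_unram_data (K := K') hp hdeg hζ
  exact cfh_weak_first_inequality hp hp2 hdeg T hN hH

variable {K : Type*} [Field K] [NumberField K] [Algebra F K]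

/-- **SECOND INEQUALITY** (unconditional): `[J_F : Fˣ · N_{K/F} J_K] ∣ p` -/
theorem ptk_second_ineq [FiniteDimensional F K] [IsGalois F K] {p : ℕ} [hp : Fact p.Prime]
    (hp2 : p ≠ 2) (hdeg : Module.finrank F K = p) {ζ : F} (hζ : IsPrimitiveRoot ζ p) :
    (ptj_principal F ⊔ (ptj_norm F (K ≃ₐ[F] K) : ptj_J K →* ptj_J F).range).index ∣ p :=
  ptk_second_ineq_cyclic hp2 hdeg hζ (ptk_firstIneq hp.out hp2 hζ)

end Ineq

end Fermat.Agent.Lib.PT

end
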