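/-
(G4), part B: for `K/F` cyclic of odd prime degree `p`, `ζ_p ∈ F`, `T` nonempty with
`J_K = Kˣ · J_{K,T}` and `K/F` "unramified outside `T`":
`#Ĥ⁰(Γ, C_T(K)) = p`, `#Ĥ⁻¹(Γ, C_T(K)) = 1`, and `H¹(Γ, C_T(K)) = 1` in cocycle form.
-/
import Fermat.Agent.Lib.PT.GPlaceG4A

set_option autoImplicit false
set_option linter.unusedSectionVars false
set_option linter.unusedVariables false

noncomputable section

namespace Fermat.Agent.Lib.PT

open IsDedekindDomain NumberField groupCohomology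

section Abstract

variable {Γ : Type*} [Group Γ] {A : Type*} [CommGroup A] [MulDistribMulAction Γ A] {γ : Γ}

theorem ptk_cocycle_pow {f : Γ → A} (hf : IsMulCocycle₁ f) (i : ℕ) :
    f (γ ^ i) = cfh_partNorm γ (f γ) i := by
  induction i with
  | zero =>
    rw [pow_zero, map_one_of_isMulCocycle₁ hf]
    simp [cfh_partNorm]
  | succ i ih =>
    rw [pow_succ, hf, ih, cfh_partNorm, cfh_partNorm, Finset.prod_range_succ, mul_comm]

theorem ptk_partNorm_div (b : A) (i : ℕ) :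
    cfh_partNorm γ (γ • b / b) i = γ ^ i • b / b := by
  induction i with
  | zero => simp [cfh_partNorm]
  | succ i ih =>
    have h := ih
    rw [cfh_partNorm] at h ⊢
    rw [Finset.prod_range_succ, h, smul_div', smul_smul, ← pow_succ, div_mul_div_cancel']

/-- for a cyclic group: `ker N ⊆ im D` implies `H¹ = 1` (cocycle form) -/
theorem ptk_isMulCoboundary₁_of_cyclic (hγ : ∀ g : Γ, g ∈ Subgroup.zpowers γ)
    (hn : 0 < orderOf γ)
    (h : ∀ x : A, cfh_partNorm γ x (orderOf γ) = 1 → ∃ b : A, γ • b / b = x)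
    (f : Γ → A) (hf : IsMulCocycle₁ f) : IsMulCoboundary₁ f := by
  have h1 : cfh_partNorm γ (f γ) (orderOf γ) = 1 := by
    rw [← ptk_cocycle_pow hf, pow_orderOf_eq_one, map_one_of_isMulCocycle₁ hf]
  obtain ⟨b, hb⟩ := h _ h1
  refine ⟨b, fun g => ?_⟩
  have hfin : IsOfFinOrder γ := orderOf_pos_iff.mp hn
  obtain ⟨i, rfl⟩ := (hfin.mem_powers_iff_mem_zpowers).mpr (hγ g)
  show γ ^ i • b / b = f (γ ^ i)
  rw [ptk_cocycle_pow hf, ← hb, ptk_partNorm_div]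

end Abstract

section Main

variable {F K : Type*} [Field F] [NumberField F] [Field K] [NumberField K] [Algebra F K]

/-- the map `J_F → C_T(K)` -/
def ptk_toCT (F : Type*) {K : Type*} [Field F] [NumberField F] [Field K] [NumberField K]
    [Algebra F K] (T : Finset Nat.Primes) : ptj_J F →* ptj_CT K T :=
  (QuotientGroup.mk' (ptj_princUT K T)).comp (ptj_up F K)

theorem ptk_toCT_apply (T : Finset Nat.Primes) (g : ptj_J F) :
    ptk_toCT F T g = (QuotientGroup.mk (ptj_up F K g) : ptj_CT K T) := rfl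

theorem ptk_ker_le_range [IsGalois F K] (γ : K ≃ₐ[F] K)
    (hγ : ∀ τ : K ≃ₐ[F] K, τ ∈ Subgroup.zpowers γ)
    (T : Finset Nat.Primes) (hT : T.Nonempty)
    (hunrH : ∀ q, q ∉ T → ∀ σ : ptj_Emb K q, ptj_UnitsH90 (K ≃ₐ[F] K) σ) :
    (cfh_DCT K T γ).ker ≤ (ptk_toCT F (K := K) T).range := by
  intro c hc
  obtain ⟨f, rfl⟩ := QuotientGroup.mk_surjective c
  have hfix : γ • (QuotientGroup.mk f : ptj_CT K T) = QuotientGroup.mk f := by
    rw [MonoidHom.mem_ker, cfh_DCT_apply, div_eq_one] at hc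
    exact hc
  have hall : ∀ τ : K ≃ₐ[F] K, τ • (QuotientGroup.mk f : ptj_CT K T) = QuotientGroup.mk f :=
    cfh_smul_eq_of_generator' hγ hfix
  have hf : ∀ τ : K ≃ₐ[F] K, τ • f / f ∈ ptj_princUT K T := by
    intro τ
    have h1 := hall τ
    rw [ptj_CT_smul_mk, QuotientGroup.eq] at h1
    have h2 : τ • f / f = ((τ • f)⁻¹ * f)⁻¹ := by
      rw [mul_inv_rev, inv_inv, div_eq_mul_inv, mul_comm]
    rw [h2]
    exact (ptj_princUT K T).inv_mem h1
  obtain ⟨g, y, v, hv, hfg⟩ := ptj_exists_up_of_classT_invariant (F := F) hT hunrH hf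
  refine ⟨g, ?_⟩
  rw [ptk_toCT_apply, QuotientGroup.eq, hfg, inv_mul_cancel_left]
  exact (ptj_princUT K T).mul_mem (Subgroup.mem_sup_left ⟨y, rfl⟩) (Subgroup.mem_sup_right hv)

theorem ptk_le_comap_range [IsGalois F K] {p : ℕ} (γ : K ≃ₐ[F] K)
    (hγ : ∀ τ : K ≃ₐ[F] K, τ ∈ Subgroup.zpowers γ) (hord : orderOf γ = p)
    (T : Finset Nat.Primes) :
    ptj_principal F ⊔ (ptj_norm F (K ≃ₐ[F] K) : ptj_J K →* ptj_J F).range ≤
      (cfh_NCT K T γ p).range.comap (ptk_toCT F (K := K) T) := by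
  rw [sup_le_iff]
  constructor
  · intro a ha
    rw [Subgroup.mem_comap]
    have : ptk_toCT F (K := K) T a = 1 := by
      rw [ptk_toCT_apply, QuotientGroup.eq_one_iff]
      exact Subgroup.mem_sup_left (ptj_up_mem_principal ha)
    rw [this]
    exact Subgroup.one_mem _
  · rintro _ ⟨f', rfl⟩
    rw [Subgroup.mem_comap]
    refine ⟨QuotientGroup.mk f', ?_⟩
    rw [cfh_NCT_mk, ptk_toCT_apply]
    subst hord
    rw [cfh_N_sJ_eq_up_norm (F := F) hγ]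

/-- `[C_T(K)^Γ : N C_T(K)]` divides `[J_F : Fˣ · N J_K]` -/
theorem ptk_relIndex_dvd_index [IsGalois F K] {p : ℕ} (hp : p.Prime)
    (hdeg : Module.finrank F K = p) (γ : K ≃ₐ[F] K)
    (hγ : ∀ τ : K ≃ₐ[F] K, τ ∈ Subgroup.zpowers γ)
    (T : Finset Nat.Primes) (hT : T.Nonempty)
    (hunrH : ∀ q, q ∉ T → ∀ σ : ptj_Emb K q, ptj_UnitsH90 (K ≃ₐ[F] K) σ) :
    (cfh_NCT K T γ p).range.relIndex (cfh_DCT K T γ).ker ∣
      (ptj_principal F ⊔ (ptj_norm F (K ≃ₐ[F] K) : ptj_J K →* ptj_J F).range).index := by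
  have hcard : Nat.card (K ≃ₐ[F] K) = p := by rw [IsGalois.card_aut_eq_finrank, hdeg]
  have hord : orderOf γ = p := by
    rw [orderOf_eq_card_of_forall_mem_zpowers hγ, hcard]
  have h1 := ptk_ker_le_range (F := F) γ hγ T hT hunrH
  have h2 := ptk_le_comap_range (F := F) γ hγ hord T
  have hZ' : ((cfh_DCT K T γ).ker.comap (ptk_toCT F (K := K) T)).map (ptk_toCT F (K := K) T) =
      (cfh_DCT K T γ).ker := by
    rw [Subgroup.map_comap_eq, inf_eq_right.mpr h1]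
  have e1 : (cfh_NCT K T γ p).range.relIndex (cfh_DCT K T γ).ker =
      ((cfh_NCT K T γ p).range.comap (ptk_toCT F (K := K) T)).relIndex
        ((cfh_DCT K T γ).ker.comap (ptk_toCT F (K := K) T)) := by
    rw [Subgroup.relIndex_comap, hZ']
  rw [e1]
  exact (Subgroup.relIndex_dvd_index_of_normal _ _).trans (Subgroup.index_dvd_of_le h2)


/-- **(G4), index form**: `#Ĥ⁰(Γ, C_T(K)) = p` and `#Ĥ⁻¹(Γ, C_T(K)) = 1` -/
theorem ptk_G4_index [FiniteDimensional F K] [IsGalois F K] {p : ℕ} [hp : Fact p.Prime]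
    (hp2 : p ≠ 2) (hdeg : Module.finrank F K = p) {ζ : F} (hζ : IsPrimitiveRoot ζ p)
    (γ : K ≃ₐ[F] K) (hγ : ∀ τ : K ≃ₐ[F] K, τ ∈ Subgroup.zpowers γ)
    (T : Finset Nat.Primes) (hT : T.Nonempty)
    (hcl : ptj_principal K ⊔ ptj_JT K T = ⊤)
    (hunrN : ∀ q ∉ T, ∀ σ : ptj_Emb K q, ptj_UnitsAreNorms F (K ≃ₐ[F] K) σ)
    (hunrH : ∀ q, q ∉ T → ∀ σ : ptj_Emb K q, ptj_UnitsH90 (K ≃ₐ[F] K) σ) :
    (cfh_NCT K T γ p).range.relIndex (cfh_DCT K T γ).ker = p ∧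
      (cfh_DCT K T γ).range.relIndex (cfh_NCT K T γ p).ker = 1 := by
  obtain ⟨h0, h1, heq⟩ := cfh_first_inequality' hp.out hp2 hdeg γ hγ T hT hcl hunrN hunrH
  have hdvd : (cfh_NCT K T γ p).range.relIndex (cfh_DCT K T γ).ker ∣ p :=
    (ptk_relIndex_dvd_index hp.out hdeg γ hγ T hT hunrH).trans (ptk_second_ineq hp2 hdeg hζ)
  rw [heq] at hdvd
  have hb : (cfh_DCT K T γ).range.relIndex (cfh_NCT K T γ p).ker = 1 := by
    have h2 : p * (cfh_DCT K T γ).range.relIndex (cfh_NCT K T γ p).ker ∣ p * 1 := by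
      rwa [mul_one]
    exact Nat.dvd_one.mp ((Nat.mul_dvd_mul_iff_left hp.out.pos).mp h2)
  rw [heq, hb, mul_one]
  exact ⟨rfl, rfl⟩

/-- **(G4), `H¹ = 1`**: every `1`-cocycle of `Γ = Gal(K/F)` in `C_T(K)` is a coboundary -/
theorem ptk_G4_H1 [FiniteDimensional F K] [IsGalois F K] {p : ℕ} [hp : Fact p.Prime]
    (hp2 : p ≠ 2) (hdeg : Module.finrank F K = p) {ζ : F} (hζ : IsPrimitiveRoot ζ p)
    (T : Finset Nat.Primes) (hT : T.Nonempty)
    (hcl : ptj_principal K ⊔ ptj_JT K T = ⊤)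
    (hunrN : ∀ q ∉ T, ∀ σ : ptj_Emb K q, ptj_UnitsAreNorms F (K ≃ₐ[F] K) σ)
    (hunrH : ∀ q, q ∉ T → ∀ σ : ptj_Emb K q, ptj_UnitsH90 (K ≃ₐ[F] K) σ)
    (f : (K ≃ₐ[F] K) → ptj_CT K T) (hf : IsMulCocycle₁ f) : IsMulCoboundary₁ f := by
  have hcard : Nat.card (K ≃ₐ[F] K) = p := by rw [IsGalois.card_aut_eq_finrank, hdeg]
  haveI : IsCyclic (K ≃ₐ[F] K) := isCyclic_of_prime_card hcard
  obtain ⟨γ, hγ⟩ := IsCyclic.exists_generator (α := K ≃ₐ[F] K)
  have hord : orderOf γ = p := by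
    rw [orderOf_eq_card_of_forall_mem_zpowers hγ, hcard]
  have hn : 0 < orderOf γ := by rw [hord]; exact hp.out.pos
  obtain ⟨-, h1⟩ := ptk_G4_index hp2 hdeg hζ γ hγ T hT hcl hunrN hunrH
  rw [Subgroup.relIndex_eq_one] at h1
  refine ptk_isMulCoboundary₁_of_cyclic hγ hn (fun x hx => ?_) f hf
  have hx' : x ∈ (cfh_NCT K T γ p).ker := by
    rw [MonoidHom.mem_ker, cfh_NCT_apply, ← hord]
    exact hx
  obtain ⟨b, hb⟩ := h1 hx'
  exact ⟨b, by rw [← cfh_DCT_apply]; exact hb⟩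

end Main

end Fermat.Agent.Lib.PT

end
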