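/-
(G4), part C: the same for `C_S(K)`, `S` ANY nonempty finite set of primes such that `K/F` is
"unramified outside `S`" (units are norms and satisfy Hilbert 90 outside `S`) — no class group
hypothesis on `S`:  `[C_S(K)^Γ : N C_S(K)] ∣ p` and `H¹(Γ, C_S(K)) = 1`.
-/
import Fermat.Agent.Lib.PT.GPlaceG4B

set_option autoImplicit false
set_option linter.unusedSectionVars false
set_option linter.unusedVariables false

noncomputable section

namespace Fermat.Agent.Lib.PT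

open IsDedekindDomain NumberField groupCohomology

variable {F K : Type*} [Field F] [NumberField F] [Field K] [NumberField K] [Algebra F K]

/-- `ker N ⊆ im D` on `C_S(K)` follows from the same on `C_T(K)`, `T ⊇ S` -/
theorem ptk_ker_N_le_range_D_of_subset [IsGalois F K] {p : ℕ} (γ : K ≃ₐ[F] K)
    (hγ : ∀ τ : K ≃ₐ[F] K, τ ∈ Subgroup.zpowers γ) (hord : orderOf γ = p)
    {S T : Finset Nat.Primes} (hS : S.Nonempty) (hST : S ⊆ T)
    (hunrN : ∀ q ∉ S, ∀ σ : ptj_Emb K q, ptj_UnitsAreNorms F (K ≃ₐ[F] K) σ)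
    (hT : (cfh_NCT K T γ p).ker ≤ (cfh_DCT K T γ).range) :
    (cfh_NCT K S γ p).ker ≤ (cfh_DCT K S γ).range := by
  intro x hx
  obtain ⟨f, rfl⟩ := QuotientGroup.mk_surjective x
  rw [MonoidHom.mem_ker, cfh_NCT_mk, QuotientGroup.eq_one_iff, ptj_mem_princUT_iff] at hx
  obtain ⟨y, u, hu, hNf⟩ := hx
  -- `N f` is `Γ`-invariant, hence so are `y` and `u`
  have hinv : γ • cfh_N (cfh_sJ K γ) p f = cfh_N (cfh_sJ K γ) p f := by
    rw [← hord, cfh_N_sJ_eq_up_norm (F := F) hγ, ptj_smul_up]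
  have hγu : γ • u = u := by
    rw [hNf, smul_mul', ← ptj_diag_smul] at hinv
    exact (ptj_princUT_unique hS (ptj_smul_mem_UT γ hu) hu hinv).2
  -- `u` is a norm from `U_S(K)`
  have hq := cfh_q_D_N_UT (Γ := K ≃ₐ[F] K) F hγ S hunrN
  rw [cfh_q, Subgroup.relIndex_eq_one] at hq
  have hmem : u ∈ (cfh_D (cfh_sJ K γ)).ker ⊓ ptj_UT K S :=
    ⟨cfh_mem_ker_D.2 (by rw [cfh_sJ_apply]; exact hγu), hu⟩
  obtain ⟨w, hw, hwu⟩ := hq hmem
  rw [hord] at hwu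
  -- replace `f` by `f / w`
  have hN' : cfh_N (cfh_sJ K γ) p (f / w) = ptj_diag K y := by
    rw [map_div, hwu, hNf, mul_div_cancel_right]
  have hkerT : (QuotientGroup.mk (f / w) : ptj_CT K T) ∈ (cfh_NCT K T γ p).ker := by
    rw [MonoidHom.mem_ker, cfh_NCT_mk, hN', QuotientGroup.eq_one_iff]
    exact Subgroup.mem_sup_left ⟨y, rfl⟩
  obtain ⟨c, hc⟩ := hT hkerT
  obtain ⟨b, rfl⟩ := QuotientGroup.mk_surjective c
  rw [cfh_DCT_apply, ptj_CT_smul_mk, ← QuotientGroup.mk_div, QuotientGroup.eq] at hc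
  -- transfer to `C_S(K)`
  have hle : ptj_princUT K T ≤ ptj_princUT K S := sup_le_sup le_rfl (ptj_UT_anti hST)
  refine ⟨QuotientGroup.mk b, ?_⟩
  rw [cfh_DCT_apply, ptj_CT_smul_mk, ← QuotientGroup.mk_div, QuotientGroup.eq]
  have h1 : (γ • b / b)⁻¹ * f = ((γ • b / b)⁻¹ * (f / w)) * w := by
    rw [mul_assoc, div_mul_cancel]
  rw [h1]
  exact (ptj_princUT K S).mul_mem (hle hc) (Subgroup.mem_sup_right hw)

/-- **(G4) for `C_S(K)`, `Ĥ⁰`**: `[C_S(K)^Γ : N C_S(K)] ∣ p` -/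
theorem ptk_G4_H0_dvd [FiniteDimensional F K] [IsGalois F K] {p : ℕ} [hp : Fact p.Prime]
    (hp2 : p ≠ 2) (hdeg : Module.finrank F K = p) {ζ : F} (hζ : IsPrimitiveRoot ζ p)
    (γ : K ≃ₐ[F] K) (hγ : ∀ τ : K ≃ₐ[F] K, τ ∈ Subgroup.zpowers γ)
    (S : Finset Nat.Primes) (hS : S.Nonempty)
    (hunrH : ∀ q, q ∉ S → ∀ σ : ptj_Emb K q, ptj_UnitsH90 (K ≃ₐ[F] K) σ) :
    (cfh_NCT K S γ p).range.relIndex (cfh_DCT K S γ).ker ∣ p :=
  (ptk_relIndex_dvd_index hp.out hdeg γ hγ S hS hunrH).trans (ptk_second_ineq hp2 hdeg hζ)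

/-- **(G4) for `C_S(K)`, `Ĥ⁻¹ = 1`** -/
theorem ptk_G4_ker_N_le [FiniteDimensional F K] [IsGalois F K] {p : ℕ} [hp : Fact p.Prime]
    (hp2 : p ≠ 2) (hdeg : Module.finrank F K = p) {ζ : F} (hζ : IsPrimitiveRoot ζ p)
    (γ : K ≃ₐ[F] K) (hγ : ∀ τ : K ≃ₐ[F] K, τ ∈ Subgroup.zpowers γ)
    (S : Finset Nat.Primes) (hS : S.Nonempty)
    (hunrN : ∀ q ∉ S, ∀ σ : ptj_Emb K q, ptj_UnitsAreNorms F (K ≃ₐ[F] K) σ)
    (hunrH : ∀ q, q ∉ S → ∀ σ : ptj_Emb K q, ptj_UnitsH90 (K ≃ₐ[F] K) σ) :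
    (cfh_NCT K S γ p).ker ≤ (cfh_DCT K S γ).range := by
  classical
  have hcard : Nat.card (K ≃ₐ[F] K) = p := by rw [IsGalois.card_aut_eq_finrank, hdeg]
  have hord : orderOf γ = p := by
    rw [orderOf_eq_card_of_forall_mem_zpowers hγ, hcard]
  obtain ⟨T₀, hT₀⟩ := ptk_class_group K
  set T : Finset Nat.Primes := S ∪ T₀ with hT
  have hST : S ⊆ T := Finset.subset_union_left
  have hTne : T.Nonempty := hS.mono hST
  have hcl : ptj_principal K ⊔ ptj_JT K T = ⊤ := hT₀ T Finset.subset_union_right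
  obtain ⟨-, h1⟩ := ptk_G4_index hp2 hdeg hζ γ hγ T hTne hcl
    (fun q hq σ => hunrN q (fun h => hq (hST h)) σ)
    (fun q hq σ => hunrH q (fun h => hq (hST h)) σ)
  rw [Subgroup.relIndex_eq_one] at h1
  exact ptk_ker_N_le_range_D_of_subset γ hγ hord hS hST hunrN h1

/-- **(G4) for `C_S(K)`, `H¹ = 1`**: every `1`-cocycle of `Gal(K/F)` in `C_S(K)` is a
coboundary -/
theorem ptk_G4_H1_S [FiniteDimensional F K] [IsGalois F K] {p : ℕ} [hp : Fact p.Prime]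
    (hp2 : p ≠ 2) (hdeg : Module.finrank F K = p) {ζ : F} (hζ : IsPrimitiveRoot ζ p)
    (S : Finset Nat.Primes) (hS : S.Nonempty)
    (hunrN : ∀ q ∉ S, ∀ σ : ptj_Emb K q, ptj_UnitsAreNorms F (K ≃ₐ[F] K) σ)
    (hunrH : ∀ q, q ∉ S → ∀ σ : ptj_Emb K q, ptj_UnitsH90 (K ≃ₐ[F] K) σ)
    (f : (K ≃ₐ[F] K) → ptj_CT K S) (hf : IsMulCocycle₁ f) : IsMulCoboundary₁ f := by
  have hcard : Nat.card (K ≃ₐ[F] K) = p := by rw [IsGalois.card_aut_eq_finrank, hdeg]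
  haveI : IsCyclic (K ≃ₐ[F] K) := isCyclic_of_prime_card hcard
  obtain ⟨γ, hγ⟩ := IsCyclic.exists_generator (α := K ≃ₐ[F] K)
  have hord : orderOf γ = p := by
    rw [orderOf_eq_card_of_forall_mem_zpowers hγ, hcard]
  have hn : 0 < orderOf γ := by rw [hord]; exact hp.out.pos
  have h1 := ptk_G4_ker_N_le hp2 hdeg hζ γ hγ S hS hunrN hunrH
  refine ptk_isMulCoboundary₁_of_cyclic hγ hn (fun x hx => ?_) f hf
  have hx' : x ∈ (cfh_NCT K S γ p).ker := by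
    rw [MonoidHom.mem_ker, cfh_NCT_apply, ← hord]
    exact hx
  obtain ⟨b, hb⟩ := h1 hx'
  exact ⟨b, by rw [← cfh_DCT_apply]; exact hb⟩

end Fermat.Agent.Lib.PT

end
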