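/-
S55 long haul, input (3): **finite-level (G4)** in the shape consumed by helper7's
`ptg_hG4_of_finite` (BridgeV):  for `K/F` Galois of odd prime degree `p`, `ζ_p ∈ F`,
"unramified outside `S`", `S ≠ ∅`:  `H¹(Γ, C_S(K)) = 1` and `#H²(Γ, C_S(K)) ∣ p`.
Assembly of helper2's `ptk_G4_ker_N_le` / `ptk_G4_H0_dvd` (GPlaceG4C) with helper6's cyclic
cohomology `ptl_G4_of_hm1_h0` (CycPerB).
-/
import Fermat.Agent.Lib.PT.GPlaceG4C
import Fermat.Agent.Lib.PT.CycPerB

set_option autoImplicit false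
set_option linter.unusedVariables false
set_option linter.unusedSectionVars false
set_option linter.style.haveILetI false

noncomputable section

namespace Fermat.Agent.Lib.PT

open IsDedekindDomain NumberField groupCohomology

/-- **finite-level (G4)**. -/
theorem pta_G4_finite {F K : Type} [Field F] [NumberField F] [Field K] [NumberField K]
    [Algebra F K] [IsGalois F K] {p : ℕ} [hp : Fact p.Prime] (hp2 : p ≠ 2)
    (hdeg : Module.finrank F K = p) {ζ : F} (hζ : IsPrimitiveRoot ζ p)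
    (S : Finset Nat.Primes) (hS : S.Nonempty)
    (hunrN : ∀ q ∉ S, ∀ σ : ptj_Emb K q, ptj_UnitsAreNorms F (K ≃ₐ[F] K) σ)
    (hunrH : ∀ q ∉ S, ∀ σ : ptj_Emb K q, ptj_UnitsH90 (K ≃ₐ[F] K) σ) :
    (∀ f : (K ≃ₐ[F] K) → ptj_CT K S, IsMulCocycle₁ f → IsMulCoboundary₁ f) ∧
      Nat.card (groupCohomology (Rep.ofMulDistribMulAction (K ≃ₐ[F] K) (ptj_CT K S)) 2) ∣ p := by
  classical
  haveI : FiniteDimensional F K := by
    apply FiniteDimensional.of_finrank_pos
    rw [hdeg]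
    exact hp.out.pos
  haveI : Fintype (K ≃ₐ[F] K) := Fintype.ofFinite _
  have hcard : Nat.card (K ≃ₐ[F] K) = p := by rw [IsGalois.card_aut_eq_finrank, hdeg]
  haveI : IsCyclic (K ≃ₐ[F] K) := isCyclic_of_prime_card hcard
  obtain ⟨γ, hγ⟩ := IsCyclic.exists_generator (α := K ≃ₐ[F] K)
  exact ptl_G4_of_hm1_h0 γ hγ hcard hp.out.ne_zero (cfh_NCT K S γ p) (cfh_DCT K S γ)
    (cfh_NCT_apply S γ p) (cfh_DCT_apply S γ)
    (ptk_G4_ker_N_le hp2 hdeg hζ γ hγ S hS hunrN hunrH)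
    (ptk_G4_H0_dvd hp2 hdeg hζ γ hγ S hS hunrH)

end Fermat.Agent.Lib.PT

end
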