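/-
S55 long haul, **input (3) `hG4` of helper4's `pts_S55_of_inputs` as a TERM**:
helper7's `ptg_hG4_of_finite` (BridgeV) applied to the finite-level (G4) `pta_G4_finite`.
-/
import Fermat.Agent.Lib.PT.GModG4B
import Fermat.Agent.Lib.PT.BridgeV

set_option autoImplicit false
set_option linter.unusedVariables false
set_option linter.unusedSectionVars false

noncomputable section

namespace Fermat.Agent.Lib.PT

open ExtCitation

local notation "GQ" => (AlgebraicClosure ℚ ≃ₐ[ℚ] AlgebraicClosure ℚ)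

/-- **(G4) in the model**: input (3) of `pts_S55_of_inputs`, verbatim. -/
theorem pta_hG4_model {p : ℕ} [Fact p.Prime] (hp2 : p ≠ 2) {S : Finset Nat.Primes}
    (hS : S.Nonempty) (U' N' : Subgroup GQ) (hN : (pta_levelsS S).IsOpen N') (hNU : N' ≤ U')
    (hUK : U' ≤ (cycloChar p).ker) (hn : (N'.subgroupOf U').Normal)
    (hidx : N'.relIndex U' = p) :
    ptg_H1At (ptj_CSrep S) U' N' ∧
      (ptg_B2At (ptj_CSrep S) U' N').relIndex (ptg_Z2At (ptj_CSrep S) U' N') ∣ p :=
  ptg_hG4_of_finite hS p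
    (@fun F K _ _ _ _ _ _ hdeg ζ hζ hunrN hunrH =>
      pta_G4_finite hp2 hdeg hζ S hS hunrN hunrH)
    U' N' hN hNU hUK hn hidx

end Fermat.Agent.Lib.PT

end
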