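/-
S55 (Poitou–Tate long haul), G-track, (CR): THE COMPATIBLE CYCLOTOMIC `ℤ_p`-TOWER (helper6).
On top of helper4's `pts_cycloPow p n : G_ℚ →* (ℤ/p^n)ˣ` (CycloTower):
* `ptl_lam p m hp2 : (ℤ/p^(m+1))ˣ → ℤ/p^m`, the logarithm to the base `1+p` of `u^(p-1)`
  (`u^(p-1) = (1+p)^(λ_m u)`, `ZMod.orderOf_one_add_prime`): additive, surjective, kernel `μ_{p-1}`,
  COMPATIBLE in `m` (`ptl_lam_redPow`);
* `ptl_chi p m hp2 : G_ℚ → ℤ/p^m := λ_m ∘ κ_{m+1}`: additive (`ptl_chi_isChar`), level-constant for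
  `pta_levelsS S`, `p ∈ S` (`ptl_chi_isLev₁`), surjective, `χ_m g = 0 ↔ κ_{m+1}(g)^(p-1) = 1`
  (same kernel as helper4's `pts_towerChar`), and COMPATIBLE: `χ_{m+1} mod p^m = χ_m`
  (`ptl_chi_compat`); evaluation `ptl_chi_eq_lam_of_pow`.
-/
import Fermat.Agent.Lib.PT.CycloTower

set_option autoImplicit false
set_option linter.unusedSectionVars false

namespace Fermat.Agent.Lib.PT

open ExtCitation

local notation "Qbar" => AlgebraicClosure ℚ
local notation "GQ" => (AlgebraicClosure ℚ ≃ₐ[ℚ] AlgebraicClosure ℚ)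

section Lam

variable (p : ℕ) [hp : Fact p.Prime] (m : ℕ)

/-- the unit `1 + p` of `ℤ/p^(m+1)` -/
noncomputable def ptl_onePlusP : (ZMod (p ^ (m + 1)))ˣ :=
  ZMod.unitOfCoprime (1 + p) (by
    have h1 : Nat.Coprime (1 + p) p := by
      rw [Nat.coprime_comm, Nat.coprime_add_self_right]; exact Nat.coprime_one_right p
    exact Nat.Coprime.pow_right _ h1)

lemma ptl_onePlusP_coe : ((ptl_onePlusP p m : (ZMod (p ^ (m + 1)))ˣ) : ZMod (p ^ (m + 1))) =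
    1 + (p : ZMod (p ^ (m + 1))) := by
  unfold ptl_onePlusP
  rw [ZMod.coe_unitOfCoprime]; push_cast; rfl

variable {p} in
lemma ptl_orderOf_onePlusP (hp2 : p ≠ 2) : orderOf (ptl_onePlusP p m) = p ^ m := by
  rw [← orderOf_units, ptl_onePlusP_coe]
  exact ZMod.orderOf_one_add_prime hp.out hp2 m

/-- reduction `(ℤ/p^(m+1))ˣ → (ℤ/p)ˣ` -/
noncomputable def ptl_redP : (ZMod (p ^ (m + 1)))ˣ →* (ZMod p)ˣ :=
  ZMod.unitsMap (dvd_pow_self p (Nat.succ_ne_zero m))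

lemma ptl_redP_surjective : Function.Surjective (ptl_redP p m) :=
  ZMod.unitsMap_surjective _

lemma ptl_card_ker_redP : Nat.card (ptl_redP p m).ker = p ^ m := by
  have h1 := Subgroup.card_mul_index (ptl_redP p m).ker
  rw [Subgroup.index_ker, MonoidHom.range_eq_top.mpr (ptl_redP_surjective p m),
    Subgroup.card_top, pts_card_units_pow_succ] at h1
  have h2 : Nat.card (ZMod p)ˣ = p - 1 := by
    rw [Nat.card_eq_fintype_card, ZMod.card_units_eq_totient, Nat.totient_prime hp.out]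
  rw [h2] at h1
  have hp1 : 0 < p - 1 := by have := hp.out.one_lt; omega
  exact Nat.eq_of_mul_eq_mul_right hp1 h1

lemma ptl_onePlusP_mem_ker : ptl_onePlusP p m ∈ (ptl_redP p m).ker := by
  rw [MonoidHom.mem_ker]
  apply Units.ext
  unfold ptl_redP
  rw [ZMod.unitsMap_def, Units.coe_map, MonoidHom.coe_coe, ptl_onePlusP_coe, map_add, map_one,
    map_natCast, ZMod.natCast_self, add_zero, Units.val_one]

variable {p} in
lemma ptl_zpowers_onePlusP (hp2 : p ≠ 2) :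
    Subgroup.zpowers (ptl_onePlusP p m) = (ptl_redP p m).ker := by
  apply Subgroup.eq_of_le_of_card_ge
  · rw [Subgroup.zpowers_le]; exact ptl_onePlusP_mem_ker p m
  · rw [ptl_card_ker_redP, Nat.card_zpowers, ptl_orderOf_onePlusP m hp2]

variable {p} in
lemma ptl_pow_mem_zpowers (hp2 : p ≠ 2) (u : (ZMod (p ^ (m + 1)))ˣ) :
    u ^ (p - 1) ∈ Subgroup.zpowers (ptl_onePlusP p m) := by
  rw [ptl_zpowers_onePlusP m hp2, MonoidHom.mem_ker, map_pow]
  exact ZMod.units_pow_card_sub_one_eq_one p _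

variable {p} in
lemma ptl_exists_log (hp2 : p ≠ 2) (u : (ZMod (p ^ (m + 1)))ˣ) :
    ∃ k : ZMod (p ^ m), u ^ (p - 1) = ptl_onePlusP p m ^ k.val := by
  obtain ⟨j, hj⟩ := Subgroup.mem_zpowers_iff.mp (ptl_pow_mem_zpowers m hp2 u)
  refine ⟨(j : ZMod (p ^ m)), ?_⟩
  rw [← hj, ← zpow_natCast, zpow_eq_zpow_iff_modEq, ptl_orderOf_onePlusP m hp2]
  refine (ZMod.intCast_eq_intCast_iff _ _ _).mp ?_
  push_cast
  rw [ZMod.natCast_zmod_val]

/-- the logarithm `λ_m : (ℤ/p^(m+1))ˣ → ℤ/p^m`, `u^(p-1) = (1+p)^(λ_m u)` -/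
noncomputable def ptl_lam (hp2 : p ≠ 2) (u : (ZMod (p ^ (m + 1)))ˣ) : ZMod (p ^ m) :=
  Classical.choose (ptl_exists_log m hp2 u)

variable {p m}

lemma ptl_lam_spec (hp2 : p ≠ 2) (u : (ZMod (p ^ (m + 1)))ˣ) :
    u ^ (p - 1) = ptl_onePlusP p m ^ (ptl_lam p m hp2 u).val :=
  Classical.choose_spec (ptl_exists_log m hp2 u)

/-- characterisation of `λ_m` -/
lemma ptl_lam_eq_of_pow (hp2 : p ≠ 2) {u : (ZMod (p ^ (m + 1)))ˣ} {k : ℕ}
    (h : u ^ (p - 1) = ptl_onePlusP p m ^ k) : ptl_lam p m hp2 u = (k : ZMod (p ^ m)) := by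
  have h1 := ptl_lam_spec hp2 u
  rw [h, pow_eq_pow_iff_modEq, ptl_orderOf_onePlusP m hp2] at h1
  have h2 := (ZMod.natCast_eq_natCast_iff _ _ _).mpr h1
  rw [ZMod.natCast_zmod_val] at h2
  exact h2.symm

lemma ptl_lam_mul (hp2 : p ≠ 2) (u v : (ZMod (p ^ (m + 1)))ˣ) :
    ptl_lam p m hp2 (u * v) = ptl_lam p m hp2 u + ptl_lam p m hp2 v := by
  have h : (u * v) ^ (p - 1) =
      ptl_onePlusP p m ^ ((ptl_lam p m hp2 u).val + (ptl_lam p m hp2 v).val) := by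
    rw [mul_pow, ptl_lam_spec hp2 u, ptl_lam_spec hp2 v, ← pow_add]
  rw [ptl_lam_eq_of_pow hp2 h]
  push_cast
  rw [ZMod.natCast_zmod_val, ZMod.natCast_zmod_val]

lemma ptl_lam_eq_zero_iff (hp2 : p ≠ 2) (u : (ZMod (p ^ (m + 1)))ˣ) :
    ptl_lam p m hp2 u = 0 ↔ u ^ (p - 1) = 1 := by
  constructor
  · intro h
    rw [ptl_lam_spec hp2 u, h, ZMod.val_zero, pow_zero]
  · intro h
    have h0 : u ^ (p - 1) = ptl_onePlusP p m ^ 0 := by rw [h, pow_zero]
    rw [ptl_lam_eq_of_pow hp2 h0, Nat.cast_zero]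

lemma ptl_lam_onePlusP_pow (hp2 : p ≠ 2) (k : ℕ) :
    ptl_lam p m hp2 (ptl_onePlusP p m ^ k) = ((k * (p - 1) : ℕ) : ZMod (p ^ m)) := by
  apply ptl_lam_eq_of_pow hp2
  rw [← pow_mul]

/-- `p - 1` is a unit modulo `p^m` -/
lemma ptl_isUnit_pred (m : ℕ) : IsUnit (((p - 1 : ℕ) : ZMod (p ^ m))) := by
  rw [ZMod.isUnit_iff_coprime]
  apply Nat.Coprime.pow_right
  have h1 := hp.out.one_lt
  rw [Nat.coprime_comm, Nat.Prime.coprime_iff_not_dvd hp.out]
  intro hd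
  have := Nat.le_of_dvd (by omega) hd
  omega

lemma ptl_lam_surjective (hp2 : p ≠ 2) : Function.Surjective (ptl_lam p m hp2) := by
  intro y
  obtain ⟨c, hc⟩ := (ptl_isUnit_pred (p := p) m).exists_left_inv
  refine ⟨ptl_onePlusP p m ^ (y * c).val, ?_⟩
  rw [ptl_lam_onePlusP_pow hp2]
  push_cast
  rw [ZMod.natCast_zmod_val, mul_assoc, hc, mul_one]

/-- reduction `(ℤ/p^(m+2))ˣ → (ℤ/p^(m+1))ˣ` -/
noncomputable def ptl_redPow (p m : ℕ) : (ZMod (p ^ (m + 2)))ˣ →* (ZMod (p ^ (m + 1)))ˣ :=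
  ZMod.unitsMap (pow_dvd_pow p (Nat.le_succ (m + 1)))

lemma ptl_redPow_coe (u : (ZMod (p ^ (m + 2)))ˣ) :
    ((ptl_redPow p m u : (ZMod (p ^ (m + 1)))ˣ) : ZMod (p ^ (m + 1))) =
      ZMod.castHom (pow_dvd_pow p (Nat.le_succ (m + 1))) (ZMod (p ^ (m + 1)))
        (u : ZMod (p ^ (m + 2))) := rfl

lemma ptl_redPow_onePlusP : ptl_redPow p m (ptl_onePlusP p (m + 1)) = ptl_onePlusP p m := by
  apply Units.ext
  rw [ptl_redPow_coe, ptl_onePlusP_coe, ptl_onePlusP_coe, map_add, map_one, map_natCast]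

/-- **compatibility of the logarithms** -/
lemma ptl_lam_redPow (hp2 : p ≠ 2) (u : (ZMod (p ^ (m + 2)))ˣ) :
    ptl_lam p m hp2 (ptl_redPow p m u) =
      ZMod.castHom (pow_dvd_pow p (Nat.le_succ m)) (ZMod (p ^ m)) (ptl_lam p (m + 1) hp2 u) := by
  have h := congrArg (ptl_redPow p m) (ptl_lam_spec hp2 u)
  rw [map_pow, map_pow, ptl_redPow_onePlusP] at h
  rw [ptl_lam_eq_of_pow hp2 h, ZMod.castHom_apply, ZMod.natCast_val]

end Lam

section Chi

variable (p : ℕ) [hp : Fact p.Prime] (m : ℕ) (hp2 : p ≠ 2)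

/-- compatibility of the cyclotomic characters mod `p^(n+1)` and mod `p^n` -/
lemma ptl_cycloPow_compat (n : ℕ) (g : GQ) :
    ZMod.unitsMap (pow_dvd_pow p (Nat.le_succ n)) (pts_cycloPow p (n + 1) g) =
      pts_cycloPow p n g := by
  have hζ := pts_zetaPow_spec p n
  have h1 : pts_zetaPow p n ^ p ^ (n + 1) = 1 := by
    rw [pow_succ, pow_mul, hζ.pow_eq_one, one_pow]
  have h2 := pts_cycloPow_spec' (p := p) (n := n + 1) g h1
  have h3 := pts_cycloPow_spec (p := p) (n := n) g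
  rw [h2] at h3
  have hk : 0 < p ^ n := pow_pos hp.out.pos n
  have h3' : (pts_cycloPow p n g : ZMod (p ^ n)).val ≡
      (pts_cycloPow p (n + 1) g : ZMod (p ^ (n + 1))).val [MOD p ^ n] := by
    rw [← pow_mod_orderOf, ← pow_mod_orderOf (pts_zetaPow p n) (ZMod.val _), ← hζ.eq_orderOf] at h3
    exact hζ.pow_inj (Nat.mod_lt _ hk) (Nat.mod_lt _ hk) h3
  have h4 := (ZMod.natCast_eq_natCast_iff _ _ _).mpr h3'
  rw [ZMod.natCast_zmod_val] at h4
  apply Units.ext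
  rw [h4, ZMod.unitsMap_def, Units.coe_map, MonoidHom.coe_coe, ZMod.castHom_apply,
    ZMod.natCast_val]

/-- **the compatible tower characters** `χ_m = λ_m ∘ κ_{m+1} : G_ℚ → ℤ/p^m` -/
noncomputable def ptl_chi (g : GQ) : ZMod (p ^ m) :=
  ptl_lam p m hp2 (pts_cycloPow p (m + 1) g)

variable {p m}

lemma ptl_chi_isChar : ptd_IsChar (ptl_chi p m hp2) := by
  intro g h
  unfold ptl_chi
  rw [map_mul, ptl_lam_mul]

lemma ptl_chi_isLev₁ (S : Finset Nat.Primes) (hpS : pPrime p ∈ S) :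
    ptd_IsLev₁ (pta_levelsS S) (ptl_chi p m hp2) :=
  (pts_isLev₁_cycloPow (n := m + 1) S hpS).comp fun u => ptl_lam p m hp2 u

theorem ptl_chi_surjective : Function.Surjective (ptl_chi p m hp2) := by
  intro y
  obtain ⟨u, rfl⟩ := ptl_lam_surjective (p := p) (m := m) hp2 y
  obtain ⟨g, rfl⟩ := pts_cycloPow_surjective (p := p) (n := m + 1) u
  exact ⟨g, rfl⟩

theorem ptl_chi_eq_zero_iff (g : GQ) :
    ptl_chi p m hp2 g = 0 ↔ pts_cycloPow p (m + 1) g ^ (p - 1) = 1 :=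
  ptl_lam_eq_zero_iff hp2 _

/-- same kernel as helper4's (non-compatible) `pts_towerChar` -/
theorem ptl_chi_eq_zero_iff_towerChar (g : GQ) :
    ptl_chi p m hp2 g = 0 ↔ pts_towerChar p m hp2 g = 0 := by
  rw [ptl_chi_eq_zero_iff, pts_towerChar_eq_zero_iff]

/-- **compatibility of the tower**: `χ_{m+1} mod p^m = χ_m` -/
theorem ptl_chi_compat (g : GQ) :
    ZMod.castHom (pow_dvd_pow p (Nat.le_succ m)) (ZMod (p ^ m)) (ptl_chi p (m + 1) hp2 g) =
      ptl_chi p m hp2 g := by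
  unfold ptl_chi
  rw [← ptl_lam_redPow hp2, ← ptl_cycloPow_compat p (m + 1) g]
  rfl

/-- evaluation: if `g` raises the `p^(m+1)`-th roots of unity to the power `a`, then
`χ_m g = λ_m a` -/
theorem ptl_chi_eq_lam_of_pow (g : GQ) (u : (ZMod (p ^ (m + 1)))ˣ)
    (h : g (pts_zetaPow p (m + 1)) = pts_zetaPow p (m + 1) ^ (u : ZMod (p ^ (m + 1))).val) :
    ptl_chi p m hp2 g = ptl_lam p m hp2 u := by
  unfold ptl_chi
  congr 1
  have hζ := pts_zetaPow_spec p (m + 1)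
  have hk : 0 < p ^ (m + 1) := pow_pos hp.out.pos _
  have h3 := pts_cycloPow_spec (p := p) (n := m + 1) g
  rw [h] at h3
  have h3' : (pts_cycloPow p (m + 1) g : ZMod (p ^ (m + 1))).val ≡
      (u : ZMod (p ^ (m + 1))).val [MOD p ^ (m + 1)] := by
    rw [← pow_mod_orderOf, ← pow_mod_orderOf (pts_zetaPow p (m + 1)) (ZMod.val _),
      ← hζ.eq_orderOf] at h3
    exact hζ.pow_inj (Nat.mod_lt _ hk) (Nat.mod_lt _ hk) h3
  have h4 := (ZMod.natCast_eq_natCast_iff _ _ _).mpr h3'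
  rw [ZMod.natCast_zmod_val, ZMod.natCast_zmod_val] at h4
  exact Units.ext h4

end Chi

end Fermat.Agent.Lib.PT
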