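/-
S55 long haul, (L-good) IN THE MODEL: for every prime `q` and every level 2-cocycle `z` of
`(G_q, Ω_qˣ)` whose class is killed by `p^e`, `z ∼ a · δ(χ_k ∘ r_q)` for ALL `k ≥ n₀(q) + e`, where
`χ_k = ptl_chi p k` is helper6's compatible cyclotomic tower character and `a ∈ ℚ_qˣ`.
Inputs: helper9's `pti_good_of_gen` and the growth of the image of `χ_k ∘ r_q`, which follows from
`pta_cyc_local` (the local cyclotomic `ℤ_p`-tower is strictly increasing from some layer on) and a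
Kummer induction (`pta_kummer_norm`): if `τ` moves a primitive `p^(n+1)`-th root of unity by a
primitive `p`-th root of unity, then `τ^(p^j)` moves the primitive `p^(n+1+j)`-th roots of unity.
-/
import Fermat.Agent.Lib.PT.GModCycD
import Fermat.Agent.Lib.PT.GModSLA
import Fermat.Agent.Lib.PT.BrauerGood
import Fermat.Agent.Lib.PT.RcpTower

set_option autoImplicit false
set_option linter.unusedVariables false
set_option linter.unusedSectionVars false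
set_option linter.style.haveILetI false

noncomputable section

namespace Fermat.Agent.Lib.PT

open IntermediateField ExtCitation

local notation "Qbar" => AlgebraicClosure ℚ
local notation "GQ" => (AlgebraicClosure ℚ ≃ₐ[ℚ] AlgebraicClosure ℚ)

section Abstract

lemma pta_char_one {G : Type*} [Group G] {n : ℕ} {χ : G → ZMod n} (hχ : ptd_IsChar χ) :
    χ 1 = 0 := by
  have h := hχ 1 1
  rw [mul_one] at h
  exact left_eq_add.mp h

lemma pta_char_inv {G : Type*} [Group G] {n : ℕ} {χ : G → ZMod n} (hχ : ptd_IsChar χ) (g : G) :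
    χ g⁻¹ = -χ g := by
  have h := hχ g g⁻¹
  rw [mul_inv_cancel, pta_char_one hχ] at h
  exact (neg_eq_of_add_eq_zero_right h.symm).symm

lemma pta_char_pow {G : Type*} [Group G] {n : ℕ} {χ : G → ZMod n} (hχ : ptd_IsChar χ) (g : G)
    (k : ℕ) : χ (g ^ k) = k • χ g := by
  induction k with
  | zero => rw [pow_zero, pta_char_one hχ, zero_smul]
  | succ k ih => rw [pow_succ, hχ, ih, succ_nsmul]

/-- the image of a character with values in `ZMod n` is generated by one value (Euclid) -/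
lemma pta_exists_image_gen {G : Type*} [Group G] {n : ℕ} [NeZero n] {χ : G → ZMod n}
    (hχ : ptd_IsChar χ) : ∃ g₁ : G, ∀ g, ∃ i : ℕ, χ g = i • χ g₁ := by
  classical
  by_cases hall : ∀ g, χ g = 0
  · exact ⟨1, fun g => ⟨0, by rw [hall g, zero_smul]⟩⟩
  push Not at hall
  have hex : ∃ d : ℕ, ∃ g, χ g ≠ 0 ∧ (χ g).val = d := by
    obtain ⟨g, hg⟩ := hall
    exact ⟨_, g, hg, rfl⟩
  obtain ⟨g₁, hg₁0, hg₁⟩ := Nat.find_spec hex
  have hmin : ∀ g, χ g ≠ 0 → Nat.find hex ≤ (χ g).val :=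
    fun g hg => Nat.find_min' hex ⟨g, hg, rfl⟩
  set d := Nat.find hex with hd
  have hdpos : 0 < d := by
    rw [← hg₁]
    exact Nat.pos_of_ne_zero (fun h => hg₁0 ((ZMod.val_eq_zero _).mp h))
  have hdn : d < n := by rw [← hg₁]; exact ZMod.val_lt _
  refine ⟨g₁, fun g => ?_⟩
  set v := (χ g).val with hv
  set a := v / d with ha
  set r := v % d with hr
  have hvar : v = d * a + r := (Nat.div_add_mod v d).symm
  have hrd : r < d := Nat.mod_lt _ hdpos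
  have hχg : χ g = ((v : ℕ) : ZMod n) := by rw [hv, ZMod.natCast_zmod_val]
  have hχg₁ : χ g₁ = ((d : ℕ) : ZMod n) := by rw [← hg₁, ZMod.natCast_zmod_val]
  have hg' : χ (g * (g₁ ^ a)⁻¹) = ((r : ℕ) : ZMod n) := by
    rw [hχ, pta_char_inv hχ, pta_char_pow hχ, hχg, hχg₁, hvar]
    push_cast
    rw [nsmul_eq_mul]
    ring
  have hr0 : r = 0 := by
    by_contra hne
    have hval : (χ (g * (g₁ ^ a)⁻¹)).val = r := by
      rw [hg', ZMod.val_natCast, Nat.mod_eq_of_lt (hrd.trans hdn)]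
    have hne0 : χ (g * (g₁ ^ a)⁻¹) ≠ 0 := by
      intro h0
      rw [h0, ZMod.val_zero] at hval
      exact hne hval.symm
    have := hmin _ hne0
    rw [hval] at this
    omega
  refine ⟨a, ?_⟩
  rw [hχg, hχg₁, hvar, hr0, add_zero, nsmul_eq_mul]
  push_cast
  ring

/-- powers of an automorphism fix what it fixes -/
lemma pta_pow_apply_eq {K Ω : Type*} [Field K] [Field Ω] [Algebra K Ω] (σ : Ω ≃ₐ[K] Ω) {x : Ω}
    (h : σ x = x) (k : ℕ) : (σ ^ k) x = x := by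
  induction k with
  | zero => simp
  | succ k ih => rw [pow_succ', AlgEquiv.mul_apply, ih, h]

/-- powers of an automorphism multiplying `w` by a fixed element -/
lemma pta_pow_apply_mul {K Ω : Type*} [Field K] [Field Ω] [Algebra K Ω] (σ : Ω ≃ₐ[K] Ω)
    {w ω : Ω} (hw : σ w = w * ω) (hω : σ ω = ω) (k : ℕ) : (σ ^ k) w = w * ω ^ k := by
  induction k with
  | zero => simp
  | succ k ih =>
    rw [pow_succ', AlgEquiv.mul_apply, ih, map_mul, map_pow, hw, hω, pow_succ]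
    ring

/-- **Kummer induction**: if `σ` fixes `μ_p` and multiplies `y₀` by a nontrivial `p`-th root of
unity, then `σ^(p^j)` multiplies every `p^j`-th root of `y₀` by a nontrivial `p`-th root of
unity (`p` odd). -/
lemma pta_pow_moves {K Ω : Type*} [Field K] [Field Ω] [Algebra K Ω] {p : ℕ} (hp : p.Prime)
    (hp2 : p ≠ 2) (σ : Ω ≃ₐ[K] Ω) (hσμ : ∀ x : Ω, x ^ p = 1 → σ x = x) {y₀ ω₀ : Ω}
    (hy₀ : y₀ ≠ 0) (hω₀ : ω₀ ^ p = 1) (hω₀1 : ω₀ ≠ 1) (h0 : σ y₀ = y₀ * ω₀) :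
    ∀ (j : ℕ) (y : Ω), y ^ p ^ j = y₀ → ∃ ω : Ω, ω ^ p = 1 ∧ ω ≠ 1 ∧ (σ ^ p ^ j) y = y * ω := by
  intro j
  induction j with
  | zero =>
    intro y hy
    rw [pow_zero, pow_one] at hy
    subst hy
    exact ⟨ω₀, hω₀, hω₀1, by rw [pow_zero, pow_one]; exact h0⟩
  | succ j ih =>
    intro y hy
    have hy0 : y ≠ 0 := by
      rintro rfl
      rw [zero_pow (pow_ne_zero _ hp.ne_zero)] at hy
      exact hy₀ hy.symm
    have hw : (y ^ p) ^ p ^ j = y₀ := by rw [← pow_mul, ← pow_succ']; exact hy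
    obtain ⟨ω, hω, hω1, hσw⟩ := ih (y ^ p) hw
    set σ' := σ ^ p ^ j with hσ'
    have hσ'μ : ∀ x : Ω, x ^ p = 1 → σ' x = x := fun x hx => pta_pow_apply_eq σ (hσμ x hx) _
    have hw0 : y ^ p ≠ 0 := pow_ne_zero _ hy0
    have hmove : (σ' ^ p) y ≠ y := fun hyp =>
      pta_kummer_norm hp hp2 σ' hω hω1 hσ'μ hw0 hσw rfl hyp
    have hpow : σ' ^ p = σ ^ p ^ (j + 1) := by rw [hσ', ← pow_mul, ← pow_succ]
    rw [hpow] at hmove
    refine ⟨(σ ^ p ^ (j + 1)) y * y⁻¹, ?_, ?_, ?_⟩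
    · rw [mul_pow, inv_pow, ← map_pow, ← hpow,
        pta_pow_apply_mul σ' hσw (hσ'μ ω hω) p, hω, mul_one, mul_inv_cancel₀ hw0]
    · intro h1
      apply hmove
      have := congrArg (· * y) h1
      simpa [inv_mul_cancel_right₀ hy0] using this
    · rw [mul_comm ((σ ^ p ^ (j + 1)) y), mul_inv_cancel_left₀ hy0]

/-- consequence: `σ^(p^j m)` moves every `p^j`-th root of `y₀` when `p ∤ m` -/
lemma pta_pow_moves' {K Ω : Type*} [Field K] [Field Ω] [Algebra K Ω] {p : ℕ} (hp : p.Prime)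
    (hp2 : p ≠ 2) (σ : Ω ≃ₐ[K] Ω) (hσμ : ∀ x : Ω, x ^ p = 1 → σ x = x) {y₀ ω₀ : Ω}
    (hy₀ : y₀ ≠ 0) (hω₀ : ω₀ ^ p = 1) (hω₀1 : ω₀ ≠ 1) (h0 : σ y₀ = y₀ * ω₀)
    (j : ℕ) (y : Ω) (hy : y ^ p ^ j = y₀) (m : ℕ) (hm : ¬ p ∣ m) :
    (σ ^ (p ^ j * m)) y ≠ y := by
  obtain ⟨ω, hω, hω1, hσy⟩ := pta_pow_moves hp hp2 σ hσμ hy₀ hω₀ hω₀1 h0 j y hy
  have hy0 : y ≠ 0 := by
    rintro rfl
    rw [zero_pow (pow_ne_zero _ hp.ne_zero)] at hy
    exact hy₀ hy.symm
  intro hfix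
  rw [pow_mul, pta_pow_apply_mul (σ ^ p ^ j) hσy (pta_pow_apply_eq σ (hσμ ω hω) _) m] at hfix
  have hωm : ω ^ m = 1 := by
    have h2 : y * ω ^ m = y * 1 := by rw [mul_one]; exact hfix
    exact mul_left_cancel₀ hy0 h2
  have hg := pow_gcd_eq_one.mpr ⟨hωm, hω⟩
  have hcop : Nat.gcd m p = 1 := by
    rw [Nat.gcd_comm]
    exact (Nat.Prime.coprime_iff_not_dvd hp).mpr hm
  rw [hcop, pow_one] at hg
  exact hω1 hg

end Abstract

section Growth

variable {p : ℕ} [Fact p.Prime]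

/-- the additive order of an element of `ZMod (p^k)` not killed by `p^j` is divisible by
`p^(j+1)` -/
lemma pta_pow_dvd_addOrderOf {k j : ℕ} {x : ZMod (p ^ k)} (hx : p ^ j • x ≠ 0) :
    p ^ (j + 1) ∣ addOrderOf x := by
  have hp : p.Prime := Fact.out
  have h1 : addOrderOf x ∣ p ^ k := by
    apply addOrderOf_dvd_of_nsmul_eq_zero
    rw [nsmul_eq_mul, ZMod.natCast_self, zero_mul]
  obtain ⟨f, hfk, hf⟩ := (Nat.dvd_prime_pow hp).mp h1
  rw [hf]
  apply pow_dvd_pow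
  by_contra hlt
  push Not at hlt
  apply hx
  apply addOrderOf_dvd_iff_nsmul_eq_zero.mp
  rw [hf]
  exact pow_dvd_pow p (by omega)

/-- **image growth of the local cyclotomic tower characters**: there is `n₀` such that for all
`k ≥ n₀ + e` some `τ ∈ G_q` has `χ_k (r_q τ)` of additive order divisible by `p^e`. -/
theorem pta_exists_large_order (hp2 : p ≠ 2) (q : Nat.Primes) :
    ∃ n₀ : ℕ, ∀ e k : ℕ, n₀ + e ≤ k → ∃ τ : ptj_Gq q,
      p ^ e ∣ addOrderOf (ptl_chi p k hp2 (localGaloisToGlobal (q : ℕ) τ)) := by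
  classical
  have hp : p.Prime := Fact.out
  haveI : NeZero p := ⟨hp.ne_zero⟩
  -- the field `ℚ(μ_p)` and its completion
  set F₀ : IntermediateField ℚ Qbar := pts_cycloPowField p 1 with hF₀
  have hζ : ∀ x : Qbar, x ^ p = 1 → x ∈ F₀ := by
    intro x hx
    have hx' : x ^ p ^ 1 = 1 := by rw [pow_one]; exact hx
    obtain ⟨i, -, rfl⟩ := (pts_zetaPow_spec p 1).eq_pow_of_pow_eq_one hx'
    apply pow_mem
    rw [hF₀]
    unfold pts_cycloPowField
    exact IntermediateField.mem_adjoin_simple_self ℚ _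
  obtain ⟨n₀, hn₀1, hn₀⟩ := pta_cyc_local (q := q) hp2
    (ptj_Kσ (ptj_resEmb (F := ↥F₀) (pta_iota q))) (pta_roots_mem_Kσ hζ q)
  refine ⟨n₀, fun e k hk => ?_⟩
  set j := k - n₀ with hj
  have hkj : k + 1 = j + (n₀ + 1) := by omega
  have hej : e ≤ j := by omega
  set ζ : Qbar := pts_zetaPow p (k + 1) with hζdef
  have hζprim : IsPrimitiveRoot ζ (p ^ (k + 1)) := pts_zetaPow_spec p (k + 1)
  set y : ptj_Om q := pta_iota q ζ with hy
  have hyprim : IsPrimitiveRoot y (p ^ (k + 1)) :=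
    hζprim.map_of_injective (pta_iota q).injective
  have hy₀prim : IsPrimitiveRoot (y ^ p ^ j) (p ^ (n₀ + 1)) :=
    hyprim.pow (pow_pos hp.pos _) (by rw [hkj, pow_add])
  obtain ⟨τ, -, hτμ, hτy⟩ := hn₀ n₀ le_rfl _ hy₀prim
  have hy₀0 : y ^ p ^ j ≠ 0 := hy₀prim.ne_zero (pow_ne_zero _ hp.ne_zero)
  have hτμp : ∀ x : ptj_Om q, x ^ p = 1 → τ x = x := by
    intro x hx
    apply hτμ
    obtain ⟨c, rfl⟩ := Nat.exists_eq_add_of_le hn₀1
    rw [pow_add, pow_one, pow_mul, hx, one_pow]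
  -- `τ` multiplies `y₀` by a nontrivial `p`-th root of unity
  set ω₀ : ptj_Om q := τ (y ^ p ^ j) * (y ^ p ^ j)⁻¹ with hω₀
  have h0 : τ (y ^ p ^ j) = y ^ p ^ j * ω₀ := by
    rw [hω₀, mul_comm (τ _), mul_inv_cancel_left₀ hy₀0]
  have hω₀p : ω₀ ^ p = 1 := by
    have hfix : τ ((y ^ p ^ j) ^ p) = (y ^ p ^ j) ^ p := by
      apply hτμ
      rw [← pow_mul, ← pow_succ']
      exact hy₀prim.pow_eq_one
    rw [hω₀, mul_pow, inv_pow, ← map_pow, hfix, mul_inv_cancel₀ (pow_ne_zero _ hy₀0)]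
  have hω₀1 : ω₀ ≠ 1 := by
    intro h1
    apply hτy
    rw [h0, h1, mul_one]
  have hpm : ¬ p ∣ p - 1 := by
    intro hdvd
    have := Nat.le_of_dvd (by have := hp.two_le; omega) hdvd
    have := hp.two_le
    omega
  have hmove := pta_pow_moves' hp hp2 τ hτμp hy₀0 hω₀p hω₀1 h0 j y rfl (p - 1) hpm
  -- transfer to `G_ℚ`
  set g : GQ := localGaloisToGlobal (q : ℕ) τ with hg
  have hcompat : ∀ (N : ℕ) (x : Qbar), pta_iota q ((g ^ N) x) = (τ ^ N) (pta_iota q x) := by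
    intro N x
    rw [hg, ← map_pow]
    exact padicEmbedding_localGaloisToGlobal (q : ℕ) (τ ^ N) x
  have hgmove : (g ^ (p ^ j * (p - 1))) ζ ≠ ζ := by
    intro hfix
    apply hmove
    rw [hy, ← hcompat, hfix]
  refine ⟨τ, ?_⟩
  have hne : p ^ j • ptl_chi p k hp2 g ≠ 0 := by
    rw [← pta_char_pow (ptl_chi_isChar hp2), Ne, ptl_chi_eq_zero_iff, ← map_pow,
      pts_cycloPow_eq_one_iff, ← pow_mul]
    exact hgmove
  exact (pow_dvd_pow p (by omega)).trans (pta_pow_dvd_addOrderOf hne)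

/-- the local tower character `χ_k ∘ r_q` is a level character of `G_q` -/
lemma pta_chiLoc_isLev₁ (hp2 : p ≠ 2) (q : Nat.Primes) (k : ℕ) :
    ptd_IsLev₁ (ptg_levels (q : ℕ))
      (fun t : ptj_Gq q => ptl_chi p k hp2 (localGaloisToGlobal (q : ℕ) t)) := by
  classical
  set S : Finset Nat.Primes := {pPrime p, q} with hS
  have hpS : pPrime p ∈ S := by rw [hS]; exact Finset.mem_insert_self _ _
  have hqS : q ∈ S := by rw [hS]; exact Finset.mem_insert_of_mem (Finset.mem_singleton_self _)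
  exact (ptl_chi_isLev₁ (m := k) hp2 S hpS).loc (pta_SLr_cont (S := S) ⟨q, hqS⟩) id

/-- **(L-good) in the model**, uniform in `q`: there is `n₀ = n₀(q)` such that every level
2-cocycle `z` of `(G_q, Ω_qˣ)` with `p^e • z ∼ 0` is cohomologous to `a · δ(χ_k ∘ r_q)` with
`a ∈ ℚ_qˣ`, for EVERY `k ≥ n₀ + e`. -/
theorem pta_Lgood_unif (hp2 : p ≠ 2) (q : Nat.Primes) :
    ∃ n₀ : ℕ, ∀ (e k : ℕ), n₀ + e ≤ k →
      ∀ z : ptj_Gq q × ptj_Gq q → Additive (ptj_Om q)ˣ,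
        ptd_IsLZ2 (ptg_levels (q : ℕ)) (ptg_unitsRep (q : ℕ)) z →
        ptd_IsB2 (ptg_levels (q : ℕ)) (ptg_unitsRep (q : ℕ)) (p ^ e • z) →
        ∃ a : ℚ_[(q : ℕ)]ˣ, ptd_IsB2 (ptg_levels (q : ℕ)) (ptg_unitsRep (q : ℕ))
          (z - ptd_bockSmul (p ^ k)
            (fun t : ptj_Gq q => ptl_chi p k hp2 (localGaloisToGlobal (q : ℕ) t))
            (Additive.ofMul (Units.map
              (algebraMap ℚ_[(q : ℕ)] (PadicAlgCl (q : ℕ)) : ℚ_[(q : ℕ)] →* PadicAlgCl (q : ℕ))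
              a))) := by
  have hp : p.Prime := Fact.out
  obtain ⟨n₀, hn₀⟩ := pta_exists_large_order (p := p) hp2 q
  refine ⟨n₀, fun e k hk z hz hze => ?_⟩
  haveI : NeZero (p ^ k) := ⟨pow_ne_zero _ hp.ne_zero⟩
  have hχ : ptd_IsChar (fun t : ptj_Gq q => ptl_chi p k hp2 (localGaloisToGlobal (q : ℕ) t)) :=
    ptd_isChar_loc (r := localGaloisToGlobal (q : ℕ)) (ptl_chi_isChar hp2)
  obtain ⟨g₁, hgen⟩ := pta_exists_image_gen hχ
  obtain ⟨τ, hτ⟩ := hn₀ e k hk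
  have he : p ^ e ∣ addOrderOf (ptl_chi p k hp2 (localGaloisToGlobal (q : ℕ) g₁)) := by
    obtain ⟨i, hi⟩ := hgen τ
    refine hτ.trans ?_
    have h1 : ptl_chi p k hp2 (localGaloisToGlobal (q : ℕ) τ) =
        i • ptl_chi p k hp2 (localGaloisToGlobal (q : ℕ) g₁) := hi
    rw [h1]
    exact addOrderOf_dvd_of_mem_zmultiples (AddSubgroup.nsmul_mem_zmultiples _ i)
  exact pti_good_of_gen (q : ℕ) p k e hχ (pta_chiLoc_isLev₁ hp2 q k) g₁ hgen he hz hze

/-- **(L-good) in the model**, in the shape of helper3's (D4-abs) hypothesis. -/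
theorem pta_Lgood_model (hp2 : p ≠ 2) (q : Nat.Primes)
    (z : ptj_Gq q × ptj_Gq q → Additive (ptj_Om q)ˣ)
    (hz : ptd_IsLZ2 (ptg_levels (q : ℕ)) (ptg_unitsRep (q : ℕ)) z) (e : ℕ)
    (hze : ptd_IsB2 (ptg_levels (q : ℕ)) (ptg_unitsRep (q : ℕ)) (p ^ e • z)) :
    ∃ k₀ : ℕ, ∀ k, k₀ ≤ k → ∃ a : Additive (ptj_Om q)ˣ,
      (∀ t : ptj_Gq q, ptg_unitsRep (q : ℕ) t a = a) ∧
      ptd_IsB2 (ptg_levels (q : ℕ)) (ptg_unitsRep (q : ℕ))
        (z - ptd_bockSmul (p ^ k)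
          (fun t : ptj_Gq q => ptl_chi p k hp2 (localGaloisToGlobal (q : ℕ) t)) a) := by
  obtain ⟨n₀, hn₀⟩ := pta_Lgood_unif (p := p) hp2 q
  refine ⟨n₀ + e, fun k hk => ?_⟩
  obtain ⟨a, ha⟩ := hn₀ e k hk z hz hze
  exact ⟨_, fun t => pti_unitsRep_algebraMap (q : ℕ) t a, ha⟩

end Growth

end Fermat.Agent.Lib.PT

end
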