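/-
S55 long haul, (H-INV) part F: the idelic invariant maps `INV_U` of the model, for all open
subgroups `U ≤ G_ℚ`, in the shapes of the fields of the abstract reciprocity package:
additivity, vanishing on coboundaries of level cochains, restriction formula, and vanishing on
`z · δ(χ|U)` for `U`-invariant `z ∈ ker π`.
-/
import Fermat.Agent.Lib.PT.GModInvE
import Fermat.Agent.Lib.PT.AdtCorK

set_option autoImplicit false
set_option linter.unusedVariables false
set_option linter.unusedSectionVars false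
set_option linter.style.haveILetI false

noncomputable section

namespace Fermat.Agent.Lib.PT

local notation "Qbar" => AlgebraicClosure ℚ
local notation "GQ" => (AlgebraicClosure ℚ ≃ₐ[ℚ] AlgebraicClosure ℚ)

namespace ptj_LocFam

variable {G : Type*} [Group G] {𝓛 : ptd_Levels G} {J : Type*} [AddCommGroup J]
  {ρJ : Representation ℤ G J} {T : Type*} [AddCommGroup T] {Q : Type*}
  (F : ptj_LocFam 𝓛 ρJ T Q)

/-- `INV_U` vanishes on the coboundary of a level `1`-cochain -/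
theorem INVU_d1 {U : Subgroup G} (hU : 𝓛.IsOpen U) {ψ : U → J}
    (hψ : ptd_IsLev₁ (𝓛.sub U hU) ψ) : F.INVU U hU (ptd_d1 (ptd_resRep ρJ U) ψ) = 0 :=
  F.INVU_b2 hU ⟨ψ, hψ, rfl⟩

/-- **restriction formula**: `INV_V (res y) = [U : V] • INV_U y` -/
theorem INVU_resLe (hd : ptd_IsDiscrete 𝓛 ρJ) {U V : Subgroup G} (hU : 𝓛.IsOpen U)
    (hV : 𝓛.IsOpen V) (hVU : V ≤ U) {y : U × U → J}
    (hy : ptd_IsLZ2 (𝓛.sub U hU) (ptd_resRep ρJ U) y) :
    F.INVU V hV (ptn_resLe₂ hVU y) = V.relIndex U • F.INVU U hU y := by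
  haveI := hU.finiteIndex
  haveI := hV.finiteIndex
  have hB := ptd_cor₂_resLe₂_sub_isB2 hVU hU hV ρJ hy
  have hc := ptd_isLZ2_cor₂ U hU ρJ hy
  have h := F.INV_congr hd (hc.nsmul (V.relIndex U)) hB
  show F.INV (ptd_cor₂ V ρJ (ptn_resLe₂ hVU y)) = V.relIndex U • F.INV (ptd_cor₂ U ρJ y)
  rw [h, F.INV_nsmul hc]

end ptj_LocFam

variable {S : Finset Nat.Primes} {T : Type*} [AddCommGroup T] (I : ptj_LocInv T)

/-- **The idelic invariant maps of the model**, as a function of an arbitrary subgroup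
(junk `0` for non-open subgroups). -/
def ptj_INVfun (U : Subgroup GQ) (y : U × U → ptj_AJ S) : T :=
  open Classical in
  if h : (pta_levelsS S).IsOpen U then (ptj_locFam I (ptj_unitCocycleHyp S)).INVU U h y else 0

lemma ptj_INVfun_eq {U : Subgroup GQ} (hU : (pta_levelsS S).IsOpen U) (y : U × U → ptj_AJ S) :
    ptj_INVfun I U y = (ptj_locFam I (ptj_unitCocycleHyp S)).INVU U hU y := by
  unfold ptj_INVfun
  rw [dif_pos hU]

theorem ptj_INVfun_add (U : Subgroup GQ) (hU : (pta_levelsS S).IsOpen U)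
    (y y' : U × U → ptj_AJ S)
    (hy : ptd_IsLZ2 ((pta_levelsS S).sub U hU) (ptd_resRep (ptj_JSrep S) U) y)
    (hy' : ptd_IsLZ2 ((pta_levelsS S).sub U hU) (ptd_resRep (ptj_JSrep S) U) y') :
    ptj_INVfun I U (y + y') = ptj_INVfun I U y + ptj_INVfun I U y' := by
  rw [ptj_INVfun_eq I hU, ptj_INVfun_eq I hU, ptj_INVfun_eq I hU]
  exact (ptj_locFam I (ptj_unitCocycleHyp S)).INVU_add hU hy hy'

theorem ptj_INVfun_d1 (U : Subgroup GQ) (hU : (pta_levelsS S).IsOpen U) (ψ : U → ptj_AJ S)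
    (hψ : ptd_IsLev₁ ((pta_levelsS S).sub U hU) ψ) :
    ptj_INVfun I U (ptd_d1 (ptd_resRep (ptj_JSrep S) U) ψ) = 0 := by
  rw [ptj_INVfun_eq I hU]
  exact (ptj_locFam I (ptj_unitCocycleHyp S)).INVU_d1 hU hψ

theorem ptj_INVfun_res (U : Subgroup GQ) (hU : (pta_levelsS S).IsOpen U) (V : Subgroup GQ)
    (hV : (pta_levelsS S).IsOpen V) (hVU : V ≤ U) (y : U × U → ptj_AJ S)
    (hy : ptd_IsLZ2 ((pta_levelsS S).sub U hU) (ptd_resRep (ptj_JSrep S) U) y) :
    ptj_INVfun I V (ptn_resLe₂ hVU y) = V.relIndex U • ptj_INVfun I U y := by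
  rw [ptj_INVfun_eq I hU, ptj_INVfun_eq I hV]
  exact (ptj_locFam I (ptj_unitCocycleHyp S)).INVU_resLe (ptj_isDiscrete_JS S) hU hV hVU hy

/-- **(b2)**: `INV_V (z · δ(χ|V)) = 0` for `V`-invariant `z ∈ ker π`, for a level character `χ`
of `G_ℚ` satisfying reciprocity. -/
theorem ptj_INVfun_bockSmul_ker (hS : S.Nonempty) {n : ℕ} [NeZero n] {χ : GQ → ZMod n}
    (hχ : ptd_IsChar χ) (hlev : ptd_IsLev₁ (pta_levelsS S) χ) (hR : ptj_RecipFor I n χ)
    (V : Subgroup GQ) (hV : (pta_levelsS S).IsOpen V) (z : ptj_AJ S)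
    (hz : ∀ v ∈ V, ptj_JSrep S v z = z) (hπ : ptj_piJ S z = 0) :
    ptj_INVfun I V (ptd_bockSmul n (fun v : V => χ v) z) = 0 := by
  rw [ptj_INVfun_eq I hV]
  exact ptj_INVU_bockSmul_ker I hS hχ hlev hR V hV z hz hπ

/-- **(lift)** in the shape of the package: invariant classes lift to invariant ideles. -/
theorem ptj_lift_invariant (hS : S.Nonempty) (W : Subgroup GQ) (hW : (pta_levelsS S).IsOpen W)
    (c : ptj_CS S) (hc : ∀ w ∈ W, ptj_CSrep S w c = c) :
    ∃ j : ptj_AJ S, (∀ w ∈ W, ptj_JSrep S w j = j) ∧ ptj_piJ S j = c :=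
  ptj_exists_lift_invariant hS hW c hc

end Fermat.Agent.Lib.PT

end
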