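/-
S55 long haul, (H-INV) part G: comparison of the `S`-supported ideles `pta_EJ S` (the module of
the semi-local structure) with the full smooth ideles `ptj_AJ S`, and the evaluation of the
idelic invariant on `pta_EJ S`-valued cocycles as the sum of the local invariants over `q ∈ S`.
-/
import Fermat.Agent.Lib.PT.GModInvF
import Fermat.Agent.Lib.PT.GModSLA

set_option autoImplicit false
set_option linter.unusedVariables false
set_option linter.unusedSectionVars false
set_option linter.style.haveILetI false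

noncomputable section

namespace Fermat.Agent.Lib.PT

local notation "Qbar" => AlgebraicClosure ℚ
local notation "GQ" => (AlgebraicClosure ℚ ≃ₐ[ℚ] AlgebraicClosure ℚ)

variable (S : Finset Nat.Primes)

/-- the inclusion of the `S`-supported smooth ideles into all smooth ideles, additively -/
def ptj_incl : pta_EJ S →+ ptj_AJ S where
  toFun x := Additive.ofMul ⟨(x.toMul : ptj_J Qbar), pta_JSS_le_JS x.toMul.2⟩
  map_zero' := rfl
  map_add' x y := rfl

variable {S}

lemma ptj_incl_coe (x : pta_EJ S) :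
    ((Additive.toMul (ptj_incl S x) : ptj_JS S) : ptj_J Qbar) = (x.toMul : ptj_J Qbar) := rfl

lemma ptj_incl_equiv (g : GQ) (x : pta_EJ S) :
    ptj_incl S (pta_EJrep S g x) = ptj_JSrep S g (ptj_incl S x) := rfl

lemma ptj_piJ_incl (x : pta_EJ S) : ptj_piJ S (ptj_incl S x) = pta_Eπ S x := rfl

lemma ptj_evq_incl (q : Nat.Primes) (x : pta_EJ S) :
    ptj_evq S q (ptj_incl S x) = pta_evU S q x := rfl

lemma ptj_incl_supported (x : pta_EJ S) (q : Nat.Primes) (hq : q ∉ S) :
    (((Additive.toMul (ptj_incl S x) : ptj_JS S) : ptj_J Qbar) : ptj_Amb Qbar) q = 1 :=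
  x.toMul.2.2 q hq

/-- the image of a level cocycle under the inclusion is a level cocycle -/
lemma ptj_isLZ2_incl {Y : GQ × GQ → pta_EJ S}
    (hY : ptd_IsLZ2 (pta_levelsS S) (pta_EJrep S) Y) :
    ptd_IsLZ2 (pta_levelsS S) (ptj_JSrep S) (fun x => ptj_incl S (Y x)) := by
  refine ⟨fun g h j => ?_, hY.2.comp (ptj_incl S)⟩
  have := congrArg (ptj_incl S) (hY.1 g h j)
  simpa only [map_add, ptj_incl_equiv] using this

lemma ptj_incl_bockSmul_add_d1 {n : ℕ} (χ : GQ → ZMod n) (a : pta_EJ S) (ψ : GQ → pta_EJ S) :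
    (fun x => ptj_incl S ((ptd_bockSmul n χ a + ptd_d1 (pta_EJrep S) ψ) x)) =
      ptd_bockSmul n χ (ptj_incl S a) + ptd_d1 (ptj_JSrep S) (fun g => ptj_incl S (ψ g)) := by
  funext ⟨g, h⟩
  simp only [Pi.add_apply, map_add, ptd_d1_apply, map_sub, ptj_incl_equiv]
  congr 1

variable {T : Type*} [AddCommGroup T] (I : ptj_LocInv T)

/-- **(EV), idelic side**: for a level cocycle with values in the `S`-supported ideles, the idelic
invariant over `⊤` is the sum over `q ∈ S` of the local invariants of the localisations. -/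
theorem ptj_INVfun_top_incl {Y : GQ × GQ → pta_EJ S}
    (hY : ptd_IsLZ2 (pta_levelsS S) (pta_EJrep S) Y) :
    ptj_INVfun I ⊤ (ptd_res₂ ⊤ (fun x => ptj_incl S (Y x))) =
      ∑ q : ↥S, I.inv q.1 (ptd_loc₂ (pta_SLr S q) (pta_SLev S q) Y) := by
  have hY' := ptj_isLZ2_incl hY
  rw [ptj_INVfun_eq I (pta_levelsS S).isOpen_top,
    (ptj_locFam I (ptj_unitCocycleHyp S)).INVU_res (pta_levelsS S).isOpen_top
      (ptj_isDiscrete_JS S) hY', Subgroup.index_top, one_smul]
  have h := ptj_INV_eq_sum_of_supported I (ptj_unitCocycleHyp S)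
    (fun x => ptj_incl S (Y x)) (fun x q hq => ptj_incl_supported (Y x) q hq)
  unfold ptj_INV at h
  rw [h, ← Finset.sum_coe_sort]
  rfl

end Fermat.Agent.Lib.PT

end
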