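/-
S55 long haul, (H-INV) part H: **the abstract reciprocity package in the model**.

`ptj_absP` : the structure `ptn_AbsP` (primitive inputs of the abstract class formation machine)
for `G = G_ℚ`, `J = ptj_AJ S` (smooth `S`-ideles), `C = ptj_CS S`, the cyclotomic tower characters
`ptl_chi`, and the idelic invariants `ptj_INVfun`, from the three remaining arithmetic inputs:

* `hCR`  : cyclotomic reciprocity over `ℚ` in local-sum form (`ptj_RecipFor`);
* `hG4`  : the cyclic layers of degree `p` below `ker χ_cyc` (`H¹ = 0`, `#H² ∣ p`);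
* `hcyc` : an idele whose invariant has exact order in the tower, over every open subgroup.
-/
import Fermat.Agent.Lib.PT.GModInvG
import Fermat.Agent.Lib.PT.AbkNorm
import Fermat.Agent.Lib.PT.BridgeR
import Fermat.Agent.Lib.PT.RcpTower
import Fermat.Agent.Lib.PT.S55Formation

set_option autoImplicit false
set_option linter.unusedVariables false
set_option linter.unusedSectionVars false
set_option linter.style.haveILetI false

noncomputable section

namespace Fermat.Agent.Lib.PT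

open ExtCitation

local notation "Qbar" => AlgebraicClosure ℚ
local notation "GQ" => (AlgebraicClosure ℚ ≃ₐ[ℚ] AlgebraicClosure ℚ)

variable {S : Finset Nat.Primes} {p : ℕ} [hp : Fact p.Prime]

/-- **The abstract reciprocity package of the model.** -/
def ptj_absP (hp2 : p ≠ 2) (hpS : pPrime p ∈ S)
    (DL : ∀ q : Nat.Primes, ptn_LevelData (ptg_levels (q : ℕ)) (ptg_unitsRep (q : ℕ)) p)
    (hCR : ∀ k, ptj_RecipFor (ptj_locInvOf p DL) (p ^ k) (ptl_chi p k hp2))
    (hG4 : ∀ U' N' : Subgroup GQ, (pta_levelsS S).IsOpen N' → N' ≤ U' →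
      U' ≤ (cycloChar p).ker → (N'.subgroupOf U').Normal → N'.relIndex U' = p →
      ptg_H1At (ptj_CSrep S) U' N' ∧
        (ptg_B2At (ptj_CSrep S) U' N').relIndex (ptg_Z2At (ptj_CSrep S) U' N') ∣ p)
    (hcyc : ∀ (V : Subgroup GQ) (_ : (pta_levelsS S).IsOpen V) (k : ℕ), ∃ a : ptj_AJ S,
      (∀ v ∈ V, ptj_JSrep S v a = a) ∧
      ∀ m : ℤ, m • ptj_INVfun (ptj_locInvOf p DL) V
          (ptd_bockSmul (p ^ k) (fun v : V => ptl_chi p k hp2 v) a) = 0 →
        (((ptn_charKer (ptl_chi_isChar hp2 (p := p) (m := k))).relIndex V : ℕ) : ℤ) ∣ m) :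
    ptn_AbsP (pta_levelsS S) (ptj_JSrep S) (ptj_CSrep S) p where
  π := ptj_piJ S
  π_equiv := fun g a => ptj_piJ_equiv S g a
  discJ := ptj_isDiscrete_JS S
  discC := ptj_isDiscrete_CS S
  χ := fun k => ptl_chi p k hp2
  χ_char := fun k => ptl_chi_isChar hp2
  χ_lev := fun k => ptl_chi_isLev₁ hp2 S hpS
  χ_surj := fun k => ptl_chi_surjective hp2
  χ_compat := fun k g => ptl_chi_compat hp2 g
  INV := fun U y => ptj_INVfun (ptj_locInvOf p DL) U y
  INV_add := fun U hU y y' hy hy' => ptj_INVfun_add _ U hU y y' hy hy'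
  INV_d1 := fun U hU ψ hψ => ptj_INVfun_d1 _ U hU ψ hψ
  INV_ker := fun U hU k z hz hπ =>
    haveI : NeZero (p ^ k) := ⟨pow_ne_zero k hp.out.ne_zero⟩
    ptj_INVfun_bockSmul_ker _ ⟨_, hpS⟩ (ptl_chi_isChar hp2) (ptl_chi_isLev₁ hp2 S hpS) (hCR k)
      U hU z hz hπ
  lift := fun W hW c hc => ptj_lift_invariant ⟨_, hpS⟩ W hW c hc
  INV_res := fun U hU V hV hVU y hy => ptj_INVfun_res _ U hU V hV hVU y hy
  K₀ := (cycloChar p).ker
  K₀_open := pts_isOpen_cycloKer hpS
  G5_1 := fun U N hNo hNK hNU hN hps =>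
    (ptg_G5_of_G4 (ρ := ptj_CSrep S) p (pta_levelsS S) (cycloChar p).ker
      (pts_not_dvd_index_ker _) hG4 U N hNo hNK hNU hN hps).1
  G5_2 := fun U N hNo hNK hNU hN hps =>
    (ptg_G5_of_G4 (ρ := ptj_CSrep S) p (pta_levelsS S) (cycloChar p).ker
      (pts_not_dvd_index_ker _) hG4 U N hNo hNK hNU hN hps).2
  cyc := hcyc

end Fermat.Agent.Lib.PT

end
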