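/-
S55 (Poitou–Tate long haul), G-track, (CR) (helper6, prefix `ptl_`): the Bockstein cocycle
`ptd_bock n χ` and `ptd_bockSmul n χ c = c · δχ` for an ARBITRARY modulus `n ≠ 0` (generalising
ClsBock/ClsNorm from `ZMod p` to `ZMod n`, on top of helper3's `ptd_mul_bockN` etc. in AdtCorF):

* `ptl_bockN_eq_div` : `bock χ (g, h) = ⌊(χ̃ g + χ̃ h) / n⌋`;
* `ptl_bockSmulN_isLZ2`, additivity in `c`, `n • (c·δχ) = d(χ̃ • c)`, `(n • c)·δχ ∈ B²`;
* `ptl_bockSmulN_cast` : for `n' = n * k`, `χ = χ' mod n`: `c·δχ = k • (c·δχ') - d(e • c)`;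
* `ptl_bockSmulN_isB2_of_norm` : **norm ⇒ coboundary**: if `χ τ = 1` and `y` is fixed by
  `ker χ`, then `(∑_{i<n} τ^i y) · δχ` is a level coboundary;
* pull-back along a group homomorphism is definitional (`ptl_bockSmulN_comp`).
-/
import Fermat.Agent.Lib.PT.AdtCorF

set_option autoImplicit false
set_option linter.unusedSectionVars false

namespace Fermat.Agent.Lib.PT

section BockN

variable {G : Type*} [Group G] {n : ℕ} [NeZero n]

theorem ptl_charN_one {χ : G → ZMod n} (hχ : ptd_IsChar χ) : χ 1 = 0 := by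
  have := hχ 1 1
  rw [mul_one] at this
  exact left_eq_add.mp this

theorem ptl_charN_inv {χ : G → ZMod n} (hχ : ptd_IsChar χ) (g : G) : χ g⁻¹ = -χ g := by
  have := hχ g g⁻¹
  rw [mul_inv_cancel, ptl_charN_one hχ] at this
  exact (neg_eq_of_add_eq_zero_right this.symm).symm

theorem ptl_charN_pow {χ : G → ZMod n} (hχ : ptd_IsChar χ) (g : G) (k : ℕ) :
    χ (g ^ k) = k • χ g := by
  induction k with
  | zero => simp [ptl_charN_one hχ]
  | succ k ih => rw [pow_succ, hχ, ih, succ_nsmul]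

/-- the Bockstein of a character is the carry of the addition of the lifts -/
theorem ptl_bockN_eq_div {χ : G → ZMod n} (hχ : ptd_IsChar χ) (g h : G) :
    ptd_bock n χ (g, h) = ((((χ g).val + (χ h).val) / n : ℕ) : ℤ) := by
  have hn : (n : ℤ) ≠ 0 := by exact_mod_cast NeZero.ne n
  apply mul_left_cancel₀ hn
  rw [ptd_mul_bockN hχ, hχ g h, ZMod.val_add]
  have := Nat.div_add_mod ((χ g).val + (χ h).val) n
  have h2 : ((n : ℤ) * ((((χ g).val + (χ h).val) / n : ℕ) : ℤ)) +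
      ((((χ g).val + (χ h).val) % n : ℕ) : ℤ) = ((χ g).val : ℤ) + ((χ h).val : ℤ) := by
    exact_mod_cast this
  linarith

end BockN

section BockSmulN

variable {G : Type*} [Group G] {𝓛 : ptd_Levels G} {n : ℕ} [NeZero n]
variable {C : Type*} [AddCommGroup C] {ρC : Representation ℤ G C}

omit [NeZero n] in
theorem ptl_bockSmulN_apply (χ : G → ZMod n) (c : C) (x : G × G) :
    ptd_bockSmul n χ c x = ptd_bock n χ x • c := rfl

omit [NeZero n] in
theorem ptl_bockSmulN_add (χ : G → ZMod n) (c c' : C) :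
    ptd_bockSmul n χ (c + c') = ptd_bockSmul n χ c + ptd_bockSmul n χ c' := by
  funext x; simp [ptl_bockSmulN_apply, smul_add]

omit [NeZero n] in
theorem ptl_bockSmulN_zero_right (χ : G → ZMod n) : ptd_bockSmul n χ (0 : C) = 0 := by
  funext x; simp [ptl_bockSmulN_apply]

omit [NeZero n] in
theorem ptl_bockSmulN_neg (χ : G → ZMod n) (c : C) :
    ptd_bockSmul n χ (-c) = -ptd_bockSmul n χ c := by
  funext x; simp [ptl_bockSmulN_apply]

omit [NeZero n] in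
theorem ptl_bockSmulN_nsmul (χ : G → ZMod n) (k : ℕ) (c : C) :
    ptd_bockSmul n χ (k • c) = k • ptd_bockSmul n χ c := by
  funext x; simp only [ptl_bockSmulN_apply, Pi.smul_apply]; exact smul_comm _ _ _

omit [NeZero n] in
theorem ptl_bockSmulN_zsmul (χ : G → ZMod n) (k : ℤ) (c : C) :
    ptd_bockSmul n χ (k • c) = k • ptd_bockSmul n χ c := by
  funext x; simp only [ptl_bockSmulN_apply, Pi.smul_apply]; exact smul_comm _ _ _

/-- pull-back along a group homomorphism -/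
theorem ptl_bockSmulN_comp {H : Type*} [Group H] (f : H →* G) (χ : G → ZMod n) (c : C)
    (x : H × H) : ptd_bockSmul n (fun h => χ (f h)) c x = ptd_bockSmul n χ c (f x.1, f x.2) := by
  simp only [ptl_bockSmulN_apply, ptd_bock, map_mul]

/-- `c · δχ` is a `2`-cocycle when `c` is invariant -/
theorem ptl_bockSmulN_isZ2 {χ : G → ZMod n} (hχ : ptd_IsChar χ) {c : C} (hc : ∀ g, ρC g c = c) :
    ptd_IsZ2 ρC (ptd_bockSmul n χ c) := by
  intro g h j
  simp only [ptl_bockSmulN_apply, map_zsmul, hc, ← add_smul]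
  rw [ptd_bockN_cocycle hχ]

omit [NeZero n] in
theorem ptl_bockSmulN_isLev₂ {χ : G → ZMod n} (hlev : ptd_IsLev₁ 𝓛 χ) (c : C) :
    ptd_IsLev₂ 𝓛 (ptd_bockSmul n χ c) :=
  (ptd_isLev₂_bockN hlev).comp (fun k : ℤ => k • c)

theorem ptl_bockSmulN_isLZ2 {χ : G → ZMod n} (hχ : ptd_IsChar χ) (hlev : ptd_IsLev₁ 𝓛 χ) {c : C}
    (hc : ∀ g, ρC g c = c) : ptd_IsLZ2 𝓛 ρC (ptd_bockSmul n χ c) :=
  ⟨ptl_bockSmulN_isZ2 hχ hc, ptl_bockSmulN_isLev₂ hlev c⟩

/-- `n • (c · δχ) = d (χ̃ • c)` -/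
theorem ptl_nsmul_bockSmulN {χ : G → ZMod n} (hχ : ptd_IsChar χ) {c : C} (hc : ∀ g, ρC g c = c) :
    n • ptd_bockSmul n χ c = ptd_d1 ρC (fun g => ((χ g).val : ℤ) • c) := by
  funext ⟨g, h⟩
  simp only [Pi.smul_apply, ptl_bockSmulN_apply, ptd_d1_apply, map_zsmul, hc]
  rw [← natCast_zsmul, smul_smul, ptd_mul_bockN hχ, ← sub_smul, ← add_smul]

theorem ptl_nsmul_bockSmulN_isB2 {χ : G → ZMod n} (hχ : ptd_IsChar χ) (hlev : ptd_IsLev₁ 𝓛 χ)
    {c : C} (hc : ∀ g, ρC g c = c) : ptd_IsB2 𝓛 ρC (n • ptd_bockSmul n χ c) :=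
  ⟨_, hlev.comp (fun z : ZMod n => ((z.val : ℕ) : ℤ) • c), ptl_nsmul_bockSmulN hχ hc⟩

/-- `(n • c) · δχ` is a level coboundary: `n`-th powers are killed by `δχ` -/
theorem ptl_bockSmulN_nsmul_isB2 {χ : G → ZMod n} (hχ : ptd_IsChar χ) (hlev : ptd_IsLev₁ 𝓛 χ)
    {c : C} (hc : ∀ g, ρC g c = c) : ptd_IsB2 𝓛 ρC (ptd_bockSmul n χ (n • c)) := by
  rw [ptl_bockSmulN_nsmul]
  exact ptl_nsmul_bockSmulN_isB2 hχ hlev hc

end BockSmulN

section Cast

variable {G : Type*} [Group G] {𝓛 : ptd_Levels G} {n n' : ℕ} [NeZero n] [NeZero n']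
variable {C : Type*} [AddCommGroup C] {ρC : Representation ℤ G C}

/-- reduction of the modulus: for `n' = n * k` and `χ = χ' mod n`,
`bock_n χ = k · bock_{n'} χ' - d e` with `e = ⌊χ̃' / n⌋` -/
theorem ptl_bockN_cast (k : ℕ) (hk : n' = n * k) {χ' : G → ZMod n'} (hχ' : ptd_IsChar χ')
    {χ : G → ZMod n} (hχ : ptd_IsChar χ)
    (hcast : ∀ g, ((χ' g).val : ZMod n) = χ g) (g h : G) :
    ptd_bock n χ (g, h) = (k : ℤ) * ptd_bock n' χ' (g, h) -
      ((((χ' h).val / n : ℕ) : ℤ) - (((χ' (g * h)).val / n : ℕ) : ℤ)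
        + (((χ' g).val / n : ℕ) : ℤ)) := by
  have hn : (n : ℤ) ≠ 0 := by exact_mod_cast NeZero.ne n
  have hval : ∀ a : G, ((χ' a).val : ℤ) = (n : ℤ) * (((χ' a).val / n : ℕ) : ℤ) + ((χ a).val : ℤ) := by
    intro a
    have h1 : (χ a).val = (χ' a).val % n := by
      rw [← hcast a, ZMod.val_natCast]
    rw [h1]
    exact_mod_cast (Nat.div_add_mod (χ' a).val n).symm
  apply mul_left_cancel₀ hn
  have e1 := ptd_mul_bockN hχ g h
  have e2 := ptd_mul_bockN hχ' g h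
  have hk' : (n' : ℤ) = (n : ℤ) * (k : ℤ) := by exact_mod_cast hk
  linear_combination e1 - e2 - hval h + hval (g * h) - hval g + ptd_bock n' χ' (g, h) * hk'

/-- `c · δχ = k • (c · δχ') - d(e • c)` -/
theorem ptl_bockSmulN_cast (k : ℕ) (hk : n' = n * k) {χ' : G → ZMod n'} (hχ' : ptd_IsChar χ')
    {χ : G → ZMod n} (hχ : ptd_IsChar χ)
    (hcast : ∀ g, ((χ' g).val : ZMod n) = χ g) {c : C} (hc : ∀ g, ρC g c = c) :
    ptd_bockSmul n χ c = k • ptd_bockSmul n' χ' c -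
      ptd_d1 ρC (fun g => (((χ' g).val / n : ℕ) : ℤ) • c) := by
  funext ⟨g, h⟩
  simp only [Pi.sub_apply, Pi.smul_apply, ptl_bockSmulN_apply, ptd_d1_apply, map_zsmul, hc]
  rw [ptl_bockN_cast k hk hχ' hχ hcast, sub_smul, add_smul, sub_smul, mul_smul, natCast_zsmul]

theorem ptl_bockSmulN_cast_isB2 (k : ℕ) (hk : n' = n * k) {χ' : G → ZMod n'}
    (hχ' : ptd_IsChar χ') (hlev' : ptd_IsLev₁ 𝓛 χ')
    {χ : G → ZMod n} (hχ : ptd_IsChar χ)
    (hcast : ∀ g, ((χ' g).val : ZMod n) = χ g) {c : C} (hc : ∀ g, ρC g c = c) :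
    ptd_IsB2 𝓛 ρC (k • ptd_bockSmul n' χ' c - ptd_bockSmul n χ c) := by
  refine ⟨fun g => (((χ' g).val / n : ℕ) : ℤ) • c,
    hlev'.comp (fun z : ZMod n' => ((z.val / n : ℕ) : ℤ) • c), ?_⟩
  rw [ptl_bockSmulN_cast k hk hχ' hχ hcast hc]; abel

end Cast

section Norm

variable {G : Type*} [Group G] {𝓛 : ptd_Levels G} {n : ℕ} [NeZero n]
variable {C : Type*} [AddCommGroup C] {ρC : Representation ℤ G C}

/-- the partial norms `S k = ∑_{i<k} τ^i y` -/
def ptl_partialNorm (ρC : Representation ℤ G C) (τ : G) (y : C) (k : ℕ) : C :=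
  ∑ i ∈ Finset.range k, ρC (τ ^ i) y

omit [NeZero n] in
theorem ptl_partialNorm_add (τ : G) (y : C) (a b : ℕ) :
    ptl_partialNorm ρC τ y (a + b) =
      ptl_partialNorm ρC τ y a + ∑ i ∈ Finset.range b, ρC (τ ^ (a + i)) y := by
  unfold ptl_partialNorm
  rw [Finset.sum_range_add]

/-- `g` acts on `τ^i y` as `τ^(χ̃ g + i)` -/
theorem ptl_act_pow {χ : G → ZMod n} (hχ : ptd_IsChar χ) {τ : G} (hτ : χ τ = 1) {y : C}
    (hy : ∀ v, χ v = 0 → ρC v y = y) (g : G) (i : ℕ) :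
    ρC g (ρC (τ ^ i) y) = ρC (τ ^ ((χ g).val + i)) y := by
  have hv : χ ((τ ^ ((χ g).val + i))⁻¹ * (g * τ ^ i)) = 0 := by
    rw [hχ, ptl_charN_inv hχ, hχ, ptl_charN_pow hχ, ptl_charN_pow hχ, hτ]
    simp only [nsmul_eq_mul, mul_one]
    push_cast
    rw [ZMod.natCast_zmod_val]
    ring
  have h1 := hy _ hv
  have h2 : g * τ ^ i = τ ^ ((χ g).val + i) * ((τ ^ ((χ g).val + i))⁻¹ * (g * τ ^ i)) := by group
  calc ρC g (ρC (τ ^ i) y) = ρC (g * τ ^ i) y := by rw [map_mul]; rfl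
    _ = ρC (τ ^ ((χ g).val + i)) (ρC ((τ ^ ((χ g).val + i))⁻¹ * (g * τ ^ i)) y) := by
        conv_lhs => rw [h2, map_mul]
        rfl
    _ = ρC (τ ^ ((χ g).val + i)) y := by rw [h1]

theorem ptl_act_partialNorm {χ : G → ZMod n} (hχ : ptd_IsChar χ) {τ : G} (hτ : χ τ = 1) {y : C}
    (hy : ∀ v, χ v = 0 → ρC v y = y) (g : G) (b : ℕ) :
    ρC g (ptl_partialNorm ρC τ y b) =
      ptl_partialNorm ρC τ y ((χ g).val + b) - ptl_partialNorm ρC τ y (χ g).val := by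
  rw [ptl_partialNorm_add, add_sub_cancel_left]
  unfold ptl_partialNorm
  rw [map_sum]
  exact Finset.sum_congr rfl fun i _ => ptl_act_pow hχ hτ hy g i

theorem ptl_partialNorm_add_mul {χ : G → ZMod n} (hχ : ptd_IsChar χ) {τ : G} (hτ : χ τ = 1)
    {y : C} (hy : ∀ v, χ v = 0 → ρC v y = y) (r e : ℕ) :
    ptl_partialNorm ρC τ y (n * e + r) =
      e • ptl_partialNorm ρC τ y n + ptl_partialNorm ρC τ y r := by
  have hper : ∀ j : ℕ, ρC (τ ^ (n + j)) y = ρC (τ ^ j) y := by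
    intro j
    have h0 : χ (τ ^ n) = 0 := by rw [ptl_charN_pow hχ, hτ]; simp
    have := ptl_act_pow hχ hτ hy (τ ^ n) j
    rw [h0, ZMod.val_zero, zero_add] at this
    rw [← this, pow_add, map_mul]
    rfl
  have hstep : ∀ k : ℕ, ptl_partialNorm ρC τ y (n + k) =
      ptl_partialNorm ρC τ y n + ptl_partialNorm ρC τ y k := by
    intro k
    rw [ptl_partialNorm_add]
    congr 1
    exact Finset.sum_congr rfl fun i _ => hper i
  induction e with
  | zero => simp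
  | succ e ih =>
    rw [Nat.mul_succ, show n * e + n + r = n + (n * e + r) by ring, hstep, ih, succ_nsmul]
    abel

/-- **Norm ⇒ coboundary**: if `χ τ = 1` and `y` is fixed by `ker χ`, then
`(∑_{i<n} τ^i y) · δχ = d φ` for the level cochain `φ g = ∑_{i<χ̃ g} τ^i y`. -/
theorem ptl_bockSmulN_norm_eq_d1 {χ : G → ZMod n} (hχ : ptd_IsChar χ) {τ : G} (hτ : χ τ = 1)
    {y : C} (hy : ∀ v, χ v = 0 → ρC v y = y) :
    ptd_bockSmul n χ (∑ i ∈ Finset.range n, ρC (τ ^ i) y) =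
      ptd_d1 ρC (fun g => ptl_partialNorm ρC τ y (χ g).val) := by
  funext ⟨g, h⟩
  rw [ptl_bockSmulN_apply, ptd_d1_apply, ptl_bockN_eq_div hχ, natCast_zsmul,
    ptl_act_partialNorm hχ hτ hy, hχ g h, ZMod.val_add]
  have h1 := ptl_partialNorm_add_mul (ρC := ρC) hχ hτ hy (((χ g).val + (χ h).val) % n)
    (((χ g).val + (χ h).val) / n)
  rw [Nat.div_add_mod] at h1
  rw [h1]
  unfold ptl_partialNorm
  abel

theorem ptl_bockSmulN_isB2_of_norm {χ : G → ZMod n} (hχ : ptd_IsChar χ) (hlev : ptd_IsLev₁ 𝓛 χ)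
    {τ : G} (hτ : χ τ = 1) {y : C} (hy : ∀ v, χ v = 0 → ρC v y = y) :
    ptd_IsB2 𝓛 ρC (ptd_bockSmul n χ (∑ i ∈ Finset.range n, ρC (τ ^ i) y)) :=
  ⟨_, hlev.comp (fun z : ZMod n => ptl_partialNorm ρC τ y z.val),
    ptl_bockSmulN_norm_eq_d1 hχ hτ hy⟩

end Norm

end Fermat.Agent.Lib.PT
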