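/-
S55 (Poitou–Tate long-haul): **THE MODEL ASSEMBLY, part B**.  `pts_S55_model` with its remaining
model-side hypotheses discharged:
* `hdG` by lead's `ptj_isDiscrete_CS`,
* (CYC) by helper1's `pta_cyc_global` (`pts_hcycG_model`),
* (LG-U) by helper3's `ptd_GLG_of_open` (Mackey + `hcor` + local `ptn_hcor_all`) from (LG) over
  `G_ℚ` (`pts_LGU_of_LGG`),
* the `p`-torsion (LG) of the top consumer from (LG) over `G_ℚ`.
Result: `pts_S55_of_LGG` (abstract system of invariant maps) and `pts_S55_of_AbsK` (helper5's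
`ptn_AbsK`): the frozen S55 statement from the class formation `A`, the global `F3` / `F3L`, local
level data `DL` and (LG) over `G_ℚ` (`hLGG`, helper3's `ptd_GLG_of_good`).
-/
import Mathlib
import Fermat.Agent.Lib.PT.S55Model
import Fermat.Agent.Lib.PT.GModCycE
import Fermat.Agent.Lib.PT.AdtBaseIII
import Fermat.Agent.Lib.PT.BrgGen
import Fermat.Agent.Lib.PT.GModInvB
import Fermat.Agent.Lib.PT.AbkMain

set_option autoImplicit false
set_option linter.unusedSectionVars false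
set_option linter.unusedVariables false

noncomputable section

namespace Fermat.Agent.Lib.PT

open IntermediateField ExtCitation groupCohomology

local notation "Qbar" => AlgebraicClosure ℚ
local notation "GQ" => (AlgebraicClosure ℚ ≃ₐ[ℚ] AlgebraicClosure ℚ)

variable {p : ℕ} [hp : Fact p.Prime] {S : Finset Nat.Primes}

section LG

variable (hpS : pPrime p ∈ S)

/-- the local invariant functions of the level data are additive on all level cocycles -/
lemma pts_isInvFun_invG {G : Type*} [Group G] {𝓛 : ptd_Levels G} {C : Type*} [AddCommGroup C]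
    {ρC : Representation ℤ G C} (D : ptn_LevelData 𝓛 ρC p) (hd : ptd_IsDiscrete 𝓛 ρC) :
    ptd_IsInvFun 𝓛 ρC (ptn_invG D hd) :=
  ⟨fun z z' hz hz' => ptn_invG_add_all D hd hz hz', fun z hz => (ptn_invG D hd).map_b2' z hz⟩

/-- **(LG-U) from (LG) over `G_ℚ`**: helper3's `ptd_GLG_of_open` in the model. -/
theorem pts_LGU_of_LGG
    (invG : ptd_Inv (pta_levelsS S) (pta_EMod p hpS).ρC (ptn_T p) p)
    (invU : ∀ (U : Subgroup GQ) (hU : (pta_levelsS S).IsOpen U),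
      ptd_Inv ((pta_levelsS S).sub U hU) (ptd_resRep (pta_EMod p hpS).ρC U) (ptn_T p) p)
    (hcor : ∀ (U : Subgroup GQ) (hU : (pta_levelsS S).IsOpen U) [U.FiniteIndex]
      (y : U × U → (pta_EMod p hpS).C),
      ptd_IsLZ2p ((pta_levelsS S).sub U hU) (ptd_resRep (pta_EMod p hpS).ρC U) p y →
      invG (ptd_cor₂ U (pta_EMod p hpS).ρC y) = invU U hU y)
    (DL : ∀ q : ↥S, ptn_LevelData (ptg_levels (q.1 : ℕ)) (ptg_unitsRep (q.1 : ℕ)) p)
    (hLGG : ptd_GLG (pta_levelsS S) p (pta_EMod p hpS).ρJ (pta_EMod p hpS).ρC (pta_EMod p hpS).π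
      (pta_SLlev S) (pta_SLrep S) (pta_SLr S) (pta_SLev S) invG
      (fun q => ptn_invG (DL q) (ptg_isDiscrete_units (q.1 : ℕ)))) :
    pts_LGU hpS invU DL := by
  classical
  intro U hU hUK inst
  have hfi : U.FiniteIndex := ptd_Levels.IsOpen.finiteIndex _ hU
  let _ : ∀ q : ↥S, Fintype (pts_DC (pta_SLr S q) U) := fun q => Fintype.ofFinite _
  have hfiv : ∀ (q : ↥S) (d : pts_DC (pta_SLr S q) U), (pts_dcSub (pta_SLr S q) U d).FiniteIndex :=
    fun q d => ptd_Levels.IsOpen.finiteIndex _ (pts_dcSub_isOpen (pta_SLr_cont q) hU d)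
  exact ptd_GLG_of_open p hU (fun g x => (pta_EMod p hpS).π_smul g x) (fun q => pta_SLr_cont q)
    (fun q h a => (pta_coindPres (S := S)).ev_equiv q h a)
    (fun q => ptg_isDiscrete_units (q.1 : ℕ))
    (fun q => pts_isInvFun_invG (DL q) (ptg_isDiscrete_units (q.1 : ℕ))) hLGG
    (fun y hy => hcor U hU y hy) (fun v => pts_Vv_isOpen hU v)
    (fun v y hy => ptn_hcor_all (DL v.1) (ptg_isDiscrete_units (v.1.1 : ℕ)) (pts_Vv U v)
      (pts_Vv_isOpen hU v) y hy)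

end LG

section Final

/-- **(CYC) in the model**, cofinal family-independent form (helper1's `pta_cyc_global`). -/
theorem pts_hcycG_model (hp2 : p ≠ 2) (hpS : pPrime p ∈ S) (V₀ : Subgroup GQ)
    (hV₀ : V₀ ∈ (pta_levelsS S).lev) (hV₀K : V₀ ≤ (cycloChar p).ker) :
    ∃ (V : Subgroup GQ) (hV : V ∈ (pta_levelsS S).lev), V ≤ V₀ ∧
      ∃ ψ₀ : V → ZMod p, ptd_IsChar ψ₀ ∧
        ptd_IsLev₁ ((pta_levelsS S).sub V ((pta_levelsS S).isOpen_of_mem hV)) ψ₀ ∧
        ∀ (q : ↥S) (g : GQ), ∃ t : pta_SLG S q, ∃ h : g⁻¹ * pta_SLr S q t * g ∈ V,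
          ψ₀ ⟨g⁻¹ * pta_SLr S q t * g, h⟩ ≠ 0 := by
  have hpp : p.Prime := Fact.out
  have : NeZero p := ⟨hpp.ne_zero⟩
  obtain ⟨F₀, hF₀, hst, rfl⟩ := hV₀
  set F₁ : IntermediateField ℚ Qbar := F₀ ⊔ pta_cycloField p with hF₁
  have hF₁u : F₁.IsUnramifiedOutside S := hF₀.sup (pta_cycloField_unram S hpS)
  have hF₁st : ∀ σ : GQ, ∀ x ∈ F₁, σ x ∈ F₁ := pta_stable_sup hst pta_cycloField_stable
  have hζ : ∀ x : Qbar, x ^ p = 1 → x ∈ F₁ := by
    intro x hx
    obtain ⟨ζ, hζ⟩ := pta_exists_primitiveRoot p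
    obtain ⟨i, -, rfl⟩ := hζ.eq_pow_of_pow_eq_one hx
    exact pow_mem ((le_sup_right : pta_cycloField p ≤ F₁) (pta_mem_cycloField hζ)) i
  obtain ⟨V, hV, hVle, ψ₀, hchar, hlev, hnt⟩ := pta_cyc_global hp2 hpS hF₁u hF₁st hζ
  exact ⟨V, hV, hVle.trans (IntermediateField.fixingSubgroup_antitone le_sup_left), ψ₀, hchar,
    hlev, fun q g => hnt q.1 q.2 g⟩

set_option maxHeartbeats 1600000 in
/-- **S55 FROM THE GLOBAL CLASS FORMATION AND (LG) OVER `G_ℚ`**: the frozen S55 statement, from a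
global system of invariant maps on `𝒞_S` (`invG`, `invU`, `hcor`, `F1''`, injectivity, `F3`,
`F3L`), local level data `DL q` (`q ∈ S`), and the local–global formula over `G_ℚ` for ALL
`J`-valued level cocycles (helper3's `ptd_GLG`, lead's D4). -/
theorem pts_S55_of_LGG (hp2 : p ≠ 2) (hpS : pPrime p ∈ S)
    (M : Rep (ZMod p) (AlgebraicClosure ℚ ≃ₐ[ℚ] AlgebraicClosure ℚ))
    [FiniteDimensional (ZMod p) M]
    (hsm : ∀ m : M, ∃ F : IntermediateField ℚ (AlgebraicClosure ℚ), FiniteDimensional ℚ F ∧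
      ∀ s ∈ F.fixingSubgroup, M.ρ s m = m)
    (hMur : ∀ q : Nat.Primes, q ∉ S → ∀ A : ValuationSubring (AlgebraicClosure ℚ),
      A.LiesOverPrime (q : ℕ) → ∀ g ∈ A.inertiaSubgroupIn ℚ, M.ρ g = 1)
    (invG : ptd_Inv (pta_levelsS S) (pta_EMod p hpS).ρC (ptn_T p) p)
    (invU : ∀ (U : Subgroup GQ) (hU : (pta_levelsS S).IsOpen U),
      ptd_Inv ((pta_levelsS S).sub U hU) (ptd_resRep (pta_EMod p hpS).ρC U) (ptn_T p) p)
    (hcor : ∀ (U : Subgroup GQ) (hU : (pta_levelsS S).IsOpen U) [U.FiniteIndex]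
      (y : U × U → (pta_EMod p hpS).C),
      ptd_IsLZ2p ((pta_levelsS S).sub U hU) (ptd_resRep (pta_EMod p hpS).ρC U) p y →
      invG (ptd_cor₂ U (pta_EMod p hpS).ρC y) = invU U hU y)
    (hF1gen : ∀ (U : Subgroup GQ) (hU : (pta_levelsS S).IsOpen U), U ≤ (cycloChar p).ker →
      ∀ θ : U → (pta_EMod p hpS).C,
        ptd_IsLZ1 ((pta_levelsS S).sub U hU) (ptd_resRep (pta_EMod p hpS).ρC U) θ →
        ∃ m : ℕ, ¬ p ∣ m ∧ ptd_IsB1 (ptd_resRep (pta_EMod p hpS).ρC U) (m • θ))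
    (hinjG : ∀ (U : Subgroup GQ) (hU : (pta_levelsS S).IsOpen U), U ≤ (cycloChar p).ker →
      ∀ y, ptd_IsLZ2p ((pta_levelsS S).sub U hU) (ptd_resRep (pta_EMod p hpS).ρC U) p y →
        invU U hU y = 0 → ptd_IsB2 ((pta_levelsS S).sub U hU) (ptd_resRep (pta_EMod p hpS).ρC U) y)
    (hF3G : ∀ (U : Subgroup GQ) (hU : (pta_levelsS S).IsOpen U), U ≤ (cycloChar p).ker →
      ptd_F3 ((pta_levelsS S).sub U hU) (ptd_resRep (pta_EMod p hpS).ρC U) (invU U hU))
    (hF3LG : ∀ (U : Subgroup GQ) (hU : (pta_levelsS S).IsOpen U), U ≤ (cycloChar p).ker →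
      ∀ χ : U → ZMod p, ptd_IsChar χ → ptd_IsLev₁ ((pta_levelsS S).sub U hU) χ →
        (∀ c : (pta_EMod p hpS).C, (∀ g : U, ptd_resRep (pta_EMod p hpS).ρC U g c = c) →
          invU U hU (ptd_bockSmul p χ c) = 0) → χ = 0)
    (DL : ∀ q : ↥S, ptn_LevelData (ptg_levels (q.1 : ℕ)) (ptg_unitsRep (q.1 : ℕ)) p)
    (hLGG : ptd_GLG (pta_levelsS S) p (pta_EMod p hpS).ρJ (pta_EMod p hpS).ρC (pta_EMod p hpS).π
      (pta_SLlev S) (pta_SLrep S) (pta_SLr S) (pta_SLev S) invG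
      (fun q => ptn_invG (DL q) (ptg_isDiscrete_units (q.1 : ℕ)))) :
    ∃ B : sha₁ S (M.dualTwist (cycloChar p)) →ₗ[ZMod p] sha₂ S M →ₗ[ZMod p] ZMod p,
      (∀ y, (∀ x, B y x = 0) → y = 0) ∧ (∀ x, (∀ y, B y x = 0) → x = 0) := by
  refine pts_S55_model hpS hp2 M hsm hMur (ptj_isDiscrete_CS S) invG invU hcor hF1gen hinjG hF3G
    hF3LG (pts_hcycG_model hp2 hpS) DL (pts_LGU_of_LGG hpS invG invU hcor DL hLGG)
    (fun y hy hpy => ?_)
  have hπy : ptd_IsLZ2p (pta_levelsS S) (pta_EMod p hpS).ρC p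
      (fun x => (pta_EMod p hpS).π (y x)) := by
    refine ptd_IsLZ2.isLZ2p_of_nsmul_eq_zero ⟨fun g h j => ?_, hy.2.comp (pta_EMod p hpS).π⟩ ?_
    · have := congrArg (pta_EMod p hpS).π (hy.1 g h j)
      simp only [map_add] at this
      rw [this]
      show _ = (pta_EMod p hpS).ρC g ((pta_EMod p hpS).π (y (h, j))) + _
      rw [← (pta_EMod p hpS).isEquivariant_π g (y (h, j))]
    · funext x
      simp only [Pi.smul_apply, Pi.zero_apply, ← map_nsmul, hpy x, map_zero]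
  exact hLGG y hy hπy

end Final

section AbsK

set_option maxHeartbeats 1600000 in
/-- **S55 FROM helper5's ABSTRACT CLASS FORMATION (ABS v3)**: the frozen S55 statement from a
`ptn_AbsK` structure on `(G_ℚ, levels_S, 𝒞_S)` (any module `J'` of ideles), the global existence
theorem `F3` and the injectivity `F3L` for its invariant maps over the open subgroups of
`ker χ_cyc`, local level data, and the local–global formula over `G_ℚ` for the `S`-supported
ideles `pta_EJ S`. -/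
theorem pts_S55_of_AbsK (hp2 : p ≠ 2) (hpS : pPrime p ∈ S)
    (M : Rep (ZMod p) (AlgebraicClosure ℚ ≃ₐ[ℚ] AlgebraicClosure ℚ))
    [FiniteDimensional (ZMod p) M]
    (hsm : ∀ m : M, ∃ F : IntermediateField ℚ (AlgebraicClosure ℚ), FiniteDimensional ℚ F ∧
      ∀ s ∈ F.fixingSubgroup, M.ρ s m = m)
    (hMur : ∀ q : Nat.Primes, q ∉ S → ∀ A : ValuationSubring (AlgebraicClosure ℚ),
      A.LiesOverPrime (q : ℕ) → ∀ g ∈ A.inertiaSubgroupIn ℚ, M.ρ g = 1)
    {J' : Type*} [AddCommGroup J'] {ρJ' : Representation ℤ GQ J'}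
    (A : ptn_AbsK (pta_levelsS S) ρJ' (pta_EMod p hpS).ρC p)
    (hF3G : ∀ (U : Subgroup GQ) (hU : (pta_levelsS S).IsOpen U), U ≤ (cycloChar p).ker →
      ptd_F3 ((pta_levelsS S).sub U hU) (ptd_resRep (pta_EMod p hpS).ρC U) (A.inv U hU))
    (hF3LG : ∀ (U : Subgroup GQ) (hU : (pta_levelsS S).IsOpen U), U ≤ (cycloChar p).ker →
      ∀ χ : U → ZMod p, ptd_IsChar χ → ptd_IsLev₁ ((pta_levelsS S).sub U hU) χ →
        (∀ c : (pta_EMod p hpS).C, (∀ g : U, ptd_resRep (pta_EMod p hpS).ρC U g c = c) →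
          A.inv U hU (ptd_bockSmul p χ c) = 0) → χ = 0)
    (DL : ∀ q : ↥S, ptn_LevelData (ptg_levels (q.1 : ℕ)) (ptg_unitsRep (q.1 : ℕ)) p)
    (hLGG : ptd_GLG (pta_levelsS S) p (pta_EMod p hpS).ρJ (pta_EMod p hpS).ρC (pta_EMod p hpS).π
      (pta_SLlev S) (pta_SLrep S) (pta_SLr S) (pta_SLev S) A.invG
      (fun q => ptn_invG (DL q) (ptg_isDiscrete_units (q.1 : ℕ)))) :
    ∃ B : sha₁ S (M.dualTwist (cycloChar p)) →ₗ[ZMod p] sha₂ S M →ₗ[ZMod p] ZMod p,
      (∀ y, (∀ x, B y x = 0) → y = 0) ∧ (∀ x, (∀ y, B y x = 0) → x = 0) :=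
  pts_S55_of_LGG hp2 hpS M hsm hMur A.invG (fun U hU => A.inv U hU)
    (fun U hU _ y hy => A.hcor U hU y hy) (fun U hU _ θ hθ => A.F1_gen U hU hθ)
    (fun U hU _ y hy h0 => (A.inv_eq_zero_iff_p U hU hy).mp h0) hF3G hF3LG DL hLGG

end AbsK

end Fermat.Agent.Lib.PT
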