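/-
S55 (Poitou–Tate long-haul): **THE MODEL ASSEMBLY, part C**.
* `pts_LGG_of_EV` : (LG) over `G_ℚ` for all `pta_EJ S`-valued level cocycles from (EV) (the
  local–global formula on the cyclic cocycles of the cyclotomic tower), by helper3's
  `ptd_GLG_of_good` with `h2J`/`ev_indep` of the coinduced presentation and helper1's
  `pta_Lgood_model`.
* `pts_S55_of_AbsK_EV` : the final consumer with (LG) replaced by (EV).
* `pts_S55_of_AbsK_model` : the final consumer for a `ptn_AbsK` structure on lead's model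
  (`J = ptj_AJ S`, `π = ptj_piJ S`, `χ = ptl_chi`, `INV ⊤ = ptj_INVfun (ptj_locInvOf p DL) ⊤`);
  (EV) is lead's `ptj_INVfun_top_incl` + helper5's `A.invG_π_bock`.  REMAINING INPUTS OF S55:
  the structure `A`, the global `F3` and `F3L`, and level data `DL` at all primes.
-/
import Mathlib
import Fermat.Agent.Lib.PT.S55ModelB
import Fermat.Agent.Lib.PT.AdtBaseIV
import Fermat.Agent.Lib.PT.AdtT
import Fermat.Agent.Lib.PT.GModGoodA
import Fermat.Agent.Lib.PT.RcpTower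
import Fermat.Agent.Lib.PT.GModInvG
import Fermat.Agent.Lib.PT.RcpBock

set_option autoImplicit false
set_option linter.unusedSectionVars false
set_option linter.unusedVariables false

noncomputable section

namespace Fermat.Agent.Lib.PT

open IntermediateField ExtCitation groupCohomology

local notation "Qbar" => AlgebraicClosure ℚ
local notation "GQ" => (AlgebraicClosure ℚ ≃ₐ[ℚ] AlgebraicClosure ℚ)

variable {p : ℕ} [hp : Fact p.Prime] {S : Finset Nat.Primes}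

/-- **(LG) over `G_ℚ` in the model from (EV)** (the local–global formula on the cyclic cocycles
`a · δχ_k + d¹ψ` of the cyclotomic tower): helper3's `ptd_GLG_of_good` with the Hasse principle
for `H²(G_ℚ, J)`, the independence of local components and the cyclicity of the local classes
(helper1's `pta_Lgood_model`) discharged. -/
theorem pts_LGG_of_EV (hp2 : p ≠ 2) (hpS : pPrime p ∈ S)
    (invG : ptd_Inv (pta_levelsS S) (pta_EMod p hpS).ρC (ptn_T p) p)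
    (DL : ∀ q : ↥S, ptn_LevelData (ptg_levels (q.1 : ℕ)) (ptg_unitsRep (q.1 : ℕ)) p)
    (hEV : ∀ (k : ℕ) (a : (pta_EMod p hpS).J) (ψ : GQ → (pta_EMod p hpS).J),
      (∀ g, (pta_EMod p hpS).ρJ g a = a) → ptd_IsLev₁ (pta_levelsS S) ψ →
      invG (fun x => (pta_EMod p hpS).π
          ((ptd_bockSmul (p ^ k) (ptl_chi p k hp2) a + ptd_d1 (pta_EMod p hpS).ρJ ψ) x))
        = ∑ q : ↥S, ptn_invG (DL q) (ptg_isDiscrete_units (q.1 : ℕ))
            (ptd_loc₂ (pta_SLr S q) (pta_SLev S q)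
              (ptd_bockSmul (p ^ k) (ptl_chi p k hp2) a + ptd_d1 (pta_EMod p hpS).ρJ ψ))) :
    ptd_GLG (pta_levelsS S) p (pta_EMod p hpS).ρJ (pta_EMod p hpS).ρC (pta_EMod p hpS).π
      (pta_SLlev S) (pta_SLrep S) (pta_SLr S) (pta_SLev S) invG
      (fun q => ptn_invG (DL q) (ptg_isDiscrete_units (q.1 : ℕ))) :=
  ptd_GLG_of_good p (fun q => pta_SLr_cont q)
    (fun q h a => (pta_coindPres (S := S)).ev_equiv q h a)
    (fun m hm t ht => ptd_T_eq_zero_of_coprime_nsmul m hm t ht)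
    (fun k => ptl_chi p k hp2) (fun k => ptl_chi_isChar hp2) (fun k => ptl_chi_isLev₁ hp2 S hpS)
    (fun q => pts_isInvFun_invG (DL q) (ptg_isDiscrete_units (q.1 : ℕ))) hEV
    (fun W hW hloc => (pta_coindPres (S := S)).h2J pta_localH90 W hW hloc)
    (fun q a ha => by
      obtain ⟨j, h1, h2, h3, -⟩ := (pta_coindPres (S := S)).ev_indep p q a ha
      exact ⟨j, h1, h2, h3⟩)
    (fun q z hz E hzE => pta_Lgood_model hp2 q.1 z hz E hzE)

set_option maxHeartbeats 1600000 in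
/-- **S55 from the class formation and (EV)**: `pts_S55_of_AbsK` with (LG) over `G_ℚ` replaced by
its cyclic-tower form (EV). -/
theorem pts_S55_of_AbsK_EV (hp2 : p ≠ 2) (hpS : pPrime p ∈ S)
    (M : Rep (ZMod p) (AlgebraicClosure ℚ ≃ₐ[ℚ] AlgebraicClosure ℚ))
    [FiniteDimensional (ZMod p) M]
    (hsm : ∀ m : M, ∃ F : IntermediateField ℚ (AlgebraicClosure ℚ), FiniteDimensional ℚ F ∧
      ∀ s ∈ F.fixingSubgroup, M.ρ s m = m)
    (hMur : ∀ q : Nat.Primes, q ∉ S → ∀ A : ValuationSubring (AlgebraicClosure ℚ),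
      A.LiesOverPrime (q : ℕ) → ∀ g ∈ A.inertiaSubgroupIn ℚ, M.ρ g = 1)
    {J' : Type*} [AddCommGroup J'] {ρJ' : Representation ℤ GQ J'}
    (A : ptn_AbsK (pta_levelsS S) ρJ' (pta_EMod p hpS).ρC p)
    (hF3G : ∀ (U : Subgroup GQ) (hU : (pta_levelsS S).IsOpen U), U ≤ (cycloChar p).ker →
      ptd_F3 ((pta_levelsS S).sub U hU) (ptd_resRep (pta_EMod p hpS).ρC U) (A.inv U hU))
    (hF3LG : ∀ (U : Subgroup GQ) (hU : (pta_levelsS S).IsOpen U), U ≤ (cycloChar p).ker →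
      ∀ χ : U → ZMod p, ptd_IsChar χ → ptd_IsLev₁ ((pta_levelsS S).sub U hU) χ →
        (∀ c : (pta_EMod p hpS).C, (∀ g : U, ptd_resRep (pta_EMod p hpS).ρC U g c = c) →
          A.inv U hU (ptd_bockSmul p χ c) = 0) → χ = 0)
    (DL : ∀ q : ↥S, ptn_LevelData (ptg_levels (q.1 : ℕ)) (ptg_unitsRep (q.1 : ℕ)) p)
    (hEV : ∀ (k : ℕ) (a : (pta_EMod p hpS).J) (ψ : GQ → (pta_EMod p hpS).J),
      (∀ g, (pta_EMod p hpS).ρJ g a = a) → ptd_IsLev₁ (pta_levelsS S) ψ →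
      A.invG (fun x => (pta_EMod p hpS).π
          ((ptd_bockSmul (p ^ k) (ptl_chi p k hp2) a + ptd_d1 (pta_EMod p hpS).ρJ ψ) x))
        = ∑ q : ↥S, ptn_invG (DL q) (ptg_isDiscrete_units (q.1 : ℕ))
            (ptd_loc₂ (pta_SLr S q) (pta_SLev S q)
              (ptd_bockSmul (p ^ k) (ptl_chi p k hp2) a + ptd_d1 (pta_EMod p hpS).ρJ ψ))) :
    ∃ B : sha₁ S (M.dualTwist (cycloChar p)) →ₗ[ZMod p] sha₂ S M →ₗ[ZMod p] ZMod p,
      (∀ y, (∀ x, B y x = 0) → y = 0) ∧ (∀ x, (∀ y, B y x = 0) → x = 0) :=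
  pts_S55_of_AbsK hp2 hpS M hsm hMur A hF3G hF3LG DL (pts_LGG_of_EV hp2 hpS A.invG DL hEV)

set_option maxHeartbeats 1600000 in
/-- **S55 FROM THE MODEL CLASS FORMATION**: the frozen S55 statement from a `ptn_AbsK` structure
on lead's model `(G_ℚ, levels_S, J = ptj_AJ S, C = ptj_CS S)` whose `π`, `χ`, `INV ⊤` are the
model's (`ptj_piJ S`, `ptl_chi`, `ptj_INVfun (ptj_locInvOf p DL)`), and the global `F3`, `F3L`.
(EV) is lead's `ptj_INVfun_top_incl` + helper5's `A.invG_π_bock`. -/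
theorem pts_S55_of_AbsK_model (hp2 : p ≠ 2) (hpS : pPrime p ∈ S)
    (M : Rep (ZMod p) (AlgebraicClosure ℚ ≃ₐ[ℚ] AlgebraicClosure ℚ))
    [FiniteDimensional (ZMod p) M]
    (hsm : ∀ m : M, ∃ F : IntermediateField ℚ (AlgebraicClosure ℚ), FiniteDimensional ℚ F ∧
      ∀ s ∈ F.fixingSubgroup, M.ρ s m = m)
    (hMur : ∀ q : Nat.Primes, q ∉ S → ∀ A : ValuationSubring (AlgebraicClosure ℚ),
      A.LiesOverPrime (q : ℕ) → ∀ g ∈ A.inertiaSubgroupIn ℚ, M.ρ g = 1)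
    (DL : ∀ q : Nat.Primes, ptn_LevelData (ptg_levels (q : ℕ)) (ptg_unitsRep (q : ℕ)) p)
    (A : ptn_AbsK (pta_levelsS S) (ptj_JSrep S) (pta_EMod p hpS).ρC p)
    (hAπ : ∀ x, A.π x = ptj_piJ S x)
    (hAχ : ∀ k g, A.χ k g = ptl_chi p k hp2 g)
    (hAINV : ∀ y : (⊤ : Subgroup GQ) × (⊤ : Subgroup GQ) → ptj_AJ S,
      A.INV ⊤ y = ptj_INVfun (ptj_locInvOf p DL) ⊤ y)
    (hF3G : ∀ (U : Subgroup GQ) (hU : (pta_levelsS S).IsOpen U), U ≤ (cycloChar p).ker →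
      ptd_F3 ((pta_levelsS S).sub U hU) (ptd_resRep (pta_EMod p hpS).ρC U) (A.inv U hU))
    (hF3LG : ∀ (U : Subgroup GQ) (hU : (pta_levelsS S).IsOpen U), U ≤ (cycloChar p).ker →
      ∀ χ : U → ZMod p, ptd_IsChar χ → ptd_IsLev₁ ((pta_levelsS S).sub U hU) χ →
        (∀ c : (pta_EMod p hpS).C, (∀ g : U, ptd_resRep (pta_EMod p hpS).ρC U g c = c) →
          A.inv U hU (ptd_bockSmul p χ c) = 0) → χ = 0) :
    ∃ B : sha₁ S (M.dualTwist (cycloChar p)) →ₗ[ZMod p] sha₂ S M →ₗ[ZMod p] ZMod p,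
      (∀ y, (∀ x, B y x = 0) → y = 0) ∧ (∀ x, (∀ y, B y x = 0) → x = 0) := by
  have hpp : p.Prime := hp.out
  have key : ∀ (k : ℕ) (a : pta_EJ S) (ψ : GQ → pta_EJ S), (∀ g, pta_EJrep S g a = a) →
      ptd_IsLev₁ (pta_levelsS S) ψ →
      A.invG (fun x => ptj_piJ S (ptj_incl S
          ((ptd_bockSmul (p ^ k) (ptl_chi p k hp2) a + ptd_d1 (pta_EJrep S) ψ) x)))
        = ∑ q : ↥S, ptn_invG (DL q.1) (ptg_isDiscrete_units (q.1 : ℕ))
            (ptd_loc₂ (pta_SLr S q) (pta_SLev S q)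
              (ptd_bockSmul (p ^ k) (ptl_chi p k hp2) a + ptd_d1 (pta_EJrep S) ψ)) := by
    intro k a ψ ha hψ
    have : NeZero (p ^ k) := ⟨pow_ne_zero k hpp.ne_zero⟩
    have hχk : A.χ k = ptl_chi p k hp2 := funext (hAχ k)
    have hd : ptd_IsDiscrete (pta_levelsS S) (pta_EJrep S) := (pta_coindPres (S := S)).disc
    have hY : ptd_IsLZ2 (pta_levelsS S) (pta_EJrep S)
        (ptd_bockSmul (p ^ k) (ptl_chi p k hp2) a + ptd_d1 (pta_EJrep S) ψ) :=
      (ptl_bockSmulN_isLZ2 (ptl_chi_isChar hp2) (ptl_chi_isLev₁ hp2 S hpS) ha).add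
        (ptd_IsB2.isLZ2 hd ⟨ψ, hψ, rfl⟩)
    have h1 := A.invG_π_bock k (a := ptj_incl S a) (fun g => by
        rw [← ptj_incl_equiv, ha g])
      (ψ := fun g => ptj_incl S (ψ g)) (hψ.comp (ptj_incl S))
    rw [hχk, ← ptj_incl_bockSmul_add_d1, hAINV, ptj_INVfun_top_incl (ptj_locInvOf p DL) hY] at h1
    have h2 : (fun x => A.π ((fun x => ptj_incl S
        ((ptd_bockSmul (p ^ k) (ptl_chi p k hp2) a + ptd_d1 (pta_EJrep S) ψ) x)) x)) =
        (fun x => ptj_piJ S (ptj_incl S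
          ((ptd_bockSmul (p ^ k) (ptl_chi p k hp2) a + ptd_d1 (pta_EJrep S) ψ) x))) :=
      funext fun x => hAπ _
    rw [h2] at h1
    exact h1
  exact pts_S55_of_AbsK_EV hp2 hpS M hsm hMur A hF3G hF3LG (fun q => DL q.1)
    (fun k a ψ ha hψ => key k a ψ ha hψ)

end Fermat.Agent.Lib.PT
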