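/-
S55 long haul, (H-INV) part I: the class formation `ptn_AbsK` of the model over the
representation `(pta_EMod p hpS).ρC` of the final consumer, and the frozen S55 statement from the
arithmetic inputs (CR), (G4), (H-cyc), global F3 and F3L.
-/
import Fermat.Agent.Lib.PT.GModInvH
import Fermat.Agent.Lib.PT.S55ModelC

set_option autoImplicit false
set_option linter.unusedVariables false
set_option linter.unusedSectionVars false
set_option linter.style.haveILetI false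

noncomputable section

namespace Fermat.Agent.Lib.PT

open ExtCitation groupCohomology

local notation "Qbar" => AlgebraicClosure ℚ
local notation "GQ" => (AlgebraicClosure ℚ ≃ₐ[ℚ] AlgebraicClosure ℚ)

variable {S : Finset Nat.Primes} {p : ℕ} [hp : Fact p.Prime]

/-- the representation on `C` of the final consumer is the model's `ptj_CSrep S` -/
theorem ptj_EMod_ρC_eq (hpS : pPrime p ∈ S) : (pta_EMod p hpS).ρC = ptj_CSrep S := by
  apply MonoidHom.ext
  intro g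
  apply LinearMap.ext
  intro c
  rfl

section Cast

variable {G : Type*} [Group G] {J C : Type*} [AddCommGroup J] [AddCommGroup C]
  {𝓛 : ptd_Levels G} {ρJ : Representation ℤ G J}

/-- transport of a class formation along an equality of representations -/
def ptn_AbsK.castC {ρC ρC' : Representation ℤ G C} (h : ρC = ρC')
    (A : ptn_AbsK 𝓛 ρJ ρC p) : ptn_AbsK 𝓛 ρJ ρC' p := h ▸ A

lemma ptn_AbsK.castC_π {ρC ρC' : Representation ℤ G C} (h : ρC = ρC')
    (A : ptn_AbsK 𝓛 ρJ ρC p) : (A.castC h).π = A.π := by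
  subst h; rfl

lemma ptn_AbsK.castC_χ {ρC ρC' : Representation ℤ G C} (h : ρC = ρC')
    (A : ptn_AbsK 𝓛 ρJ ρC p) : (A.castC h).χ = A.χ := by
  subst h; rfl

lemma ptn_AbsK.castC_INV {ρC ρC' : Representation ℤ G C} (h : ρC = ρC')
    (A : ptn_AbsK 𝓛 ρJ ρC p) : (A.castC h).INV = A.INV := by
  subst h; rfl

end Cast

/-- **The class formation of the model over the consumer's representation.** -/
def ptj_absK (hp2 : p ≠ 2) (hpS : pPrime p ∈ S)
    (DL : ∀ q : Nat.Primes, ptn_LevelData (ptg_levels (q : ℕ)) (ptg_unitsRep (q : ℕ)) p)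
    (hCR : ∀ k, ptj_RecipFor (ptj_locInvOf p DL) (p ^ k) (ptl_chi p k hp2))
    (hG4 : ∀ U' N' : Subgroup GQ, (pta_levelsS S).IsOpen N' → N' ≤ U' →
      U' ≤ (cycloChar p).ker → (N'.subgroupOf U').Normal → N'.relIndex U' = p →
      ptg_H1At (ptj_CSrep S) U' N' ∧
        (ptg_B2At (ptj_CSrep S) U' N').relIndex (ptg_Z2At (ptj_CSrep S) U' N') ∣ p)
    (hcyc : ∀ (V : Subgroup GQ) (_ : (pta_levelsS S).IsOpen V) (k : ℕ), ∃ a : ptj_AJ S,
      (∀ v ∈ V, ptj_JSrep S v a = a) ∧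
      ∀ m : ℤ, m • ptj_INVfun (ptj_locInvOf p DL) V
          (ptd_bockSmul (p ^ k) (fun v : V => ptl_chi p k hp2 v) a) = 0 →
        (((ptn_charKer (ptl_chi_isChar hp2 (p := p) (m := k))).relIndex V : ℕ) : ℤ) ∣ m) :
    ptn_AbsK (pta_levelsS S) (ptj_JSrep S) (pta_EMod p hpS).ρC p :=
  ((ptj_absP hp2 hpS DL hCR hG4 hcyc).toAbsK).castC (ptj_EMod_ρC_eq hpS).symm

set_option maxHeartbeats 1600000 in
/-- **S55 from the arithmetic inputs**: cyclotomic reciprocity over `ℚ` (CR), the cyclic layers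
(G4), the exact-order ideles (H-cyc), local level data at all primes, and the global `F3`, `F3L`
for the resulting class formation. -/
theorem ptj_S55_of_arith (hp2 : p ≠ 2) (hpS : pPrime p ∈ S)
    (M : Rep (ZMod p) (AlgebraicClosure ℚ ≃ₐ[ℚ] AlgebraicClosure ℚ))
    [FiniteDimensional (ZMod p) M]
    (hsm : ∀ m : M, ∃ F : IntermediateField ℚ (AlgebraicClosure ℚ), FiniteDimensional ℚ F ∧
      ∀ s ∈ F.fixingSubgroup, M.ρ s m = m)
    (hMur : ∀ q : Nat.Primes, q ∉ S → ∀ A : ValuationSubring (AlgebraicClosure ℚ),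
      A.LiesOverPrime (q : ℕ) → ∀ g ∈ A.inertiaSubgroupIn ℚ, M.ρ g = 1)
    (DL : ∀ q : Nat.Primes, ptn_LevelData (ptg_levels (q : ℕ)) (ptg_unitsRep (q : ℕ)) p)
    (hCR : ∀ k, ptj_RecipFor (ptj_locInvOf p DL) (p ^ k) (ptl_chi p k hp2))
    (hG4 : ∀ U' N' : Subgroup GQ, (pta_levelsS S).IsOpen N' → N' ≤ U' →
      U' ≤ (cycloChar p).ker → (N'.subgroupOf U').Normal → N'.relIndex U' = p →
      ptg_H1At (ptj_CSrep S) U' N' ∧
        (ptg_B2At (ptj_CSrep S) U' N').relIndex (ptg_Z2At (ptj_CSrep S) U' N') ∣ p)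
    (hcyc : ∀ (V : Subgroup GQ) (_ : (pta_levelsS S).IsOpen V) (k : ℕ), ∃ a : ptj_AJ S,
      (∀ v ∈ V, ptj_JSrep S v a = a) ∧
      ∀ m : ℤ, m • ptj_INVfun (ptj_locInvOf p DL) V
          (ptd_bockSmul (p ^ k) (fun v : V => ptl_chi p k hp2 v) a) = 0 →
        (((ptn_charKer (ptl_chi_isChar hp2 (p := p) (m := k))).relIndex V : ℕ) : ℤ) ∣ m)
    (hF3G : ∀ (U : Subgroup GQ) (hU : (pta_levelsS S).IsOpen U), U ≤ (cycloChar p).ker →
      ptd_F3 ((pta_levelsS S).sub U hU) (ptd_resRep (pta_EMod p hpS).ρC U)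
        ((ptj_absK hp2 hpS DL hCR hG4 hcyc).inv U hU))
    (hF3LG : ∀ (U : Subgroup GQ) (hU : (pta_levelsS S).IsOpen U), U ≤ (cycloChar p).ker →
      ∀ χ : U → ZMod p, ptd_IsChar χ → ptd_IsLev₁ ((pta_levelsS S).sub U hU) χ →
        (∀ c : (pta_EMod p hpS).C, (∀ g : U, ptd_resRep (pta_EMod p hpS).ρC U g c = c) →
          (ptj_absK hp2 hpS DL hCR hG4 hcyc).inv U hU (ptd_bockSmul p χ c) = 0) → χ = 0) :
    ∃ B : sha₁ S (M.dualTwist (cycloChar p)) →ₗ[ZMod p] sha₂ S M →ₗ[ZMod p] ZMod p,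
      (∀ y, (∀ x, B y x = 0) → y = 0) ∧ (∀ x, (∀ y, B y x = 0) → x = 0) := by
  refine pts_S55_of_AbsK_model hp2 hpS M hsm hMur DL (ptj_absK hp2 hpS DL hCR hG4 hcyc)
    (fun x => ?_) (fun k g => ?_) (fun y => ?_) hF3G hF3LG
  · unfold ptj_absK
    rw [ptn_AbsK.castC_π]
    rfl
  · unfold ptj_absK
    rw [ptn_AbsK.castC_χ]
    rfl
  · unfold ptj_absK
    rw [ptn_AbsK.castC_INV]
    rfl

end Fermat.Agent.Lib.PT

end
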