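/-
S55 long haul, (G8.B2): THE KUMMER INJECTION.  `T ∋ p` a finite set of primes, `E ⊆ Q̄` a finite
extension of `ℚ` unramified outside `T` containing `μ_p`, `U = Gal(Q̄/E)`.  For a subgroup `O` of
`Eˣ` all of whose elements have `p`-divisible valuation outside `T` (e.g. the `T`-units), the
Kummer characters `g ↦ log_ζ (g y / y)`, `y ^ p = x ∈ O`, form a finite subgroup `X₀` of
`T`-level characters `U → ZMod p` with `#X₀ = [O : O ∩ Eˣᵖ]`.
-/
import Fermat.Agent.Lib.PT.GModCycD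
import Fermat.Agent.Lib.PT.GModEModI
import Fermat.Agent.Lib.PT.KummerCard

set_option autoImplicit false
set_option linter.unusedVariables false
set_option linter.unusedSectionVars false
set_option linter.style.haveILetI false

noncomputable section

namespace Fermat.Agent.Lib.PT

open IntermediateField ExtCitation

local notation "Qbar" => AlgebraicClosure ℚ
local notation "GQ" => (AlgebraicClosure ℚ ≃ₐ[ℚ] AlgebraicClosure ℚ)

variable (p : ℕ) [Fact p.Prime]

/-! ### `pta_kumU` is multiplicative in the element -/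

lemma pta_kumU_mul_left (z z' : Qbarˣ) (g : GQ) :
    pta_kumU (z * z') g = pta_kumU z g * pta_kumU z' g := by
  unfold pta_kumU
  rw [map_mul, mul_div_mul_comm]

lemma pta_kumU_of_fixed {z : Qbarˣ} {g : GQ} (h : g (z : Qbar) = (z : Qbar)) :
    pta_kumU z g = 1 := (pta_kumU_eq_one_iff z g).2 h

/-- the Kummer character only depends on `z ^ p` (for `g` fixing `μ_p`) -/
lemma pta_kumChar_congr {z z' : Qbarˣ} (hzz' : z ^ p = z' ^ p) {g : GQ}
    (hg : ∀ x : Qbar, x ^ p = 1 → g x = x) : pta_kumChar p z g = pta_kumChar p z' g := by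
  have hω : ((z' / z : Qbarˣ) : Qbar) ^ p = 1 := by
    rw [← Units.val_pow_eq_pow_val, div_pow, hzz', div_self', Units.val_one]
  have h1 : z' = z * (z' / z) := by rw [mul_div_cancel]
  unfold pta_kumChar
  rw [h1, pta_kumU_mul_left, pta_kumU_of_fixed (hg _ hω), mul_one]

/-- additivity in the element -/
lemma pta_kumChar_mul_left {z z' : Qbarˣ} {g : GQ}
    (hz : g ((z : Qbar) ^ p) = (z : Qbar) ^ p) (hz' : g ((z' : Qbar) ^ p) = (z' : Qbar) ^ p) :
    pta_kumChar p (z * z') g = pta_kumChar p z g + pta_kumChar p z' g := by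
  unfold pta_kumChar
  rw [pta_kumU_mul_left, ofMul_mul]
  apply pta_zlog_add
  · show Additive.ofMul (pta_kumU z g ^ p) = 0
    rw [pta_kumU_pow p hz]; rfl
  · show Additive.ofMul (pta_kumU z' g ^ p) = 0
    rw [pta_kumU_pow p hz']; rfl

/-! ### The chosen `p`-th roots -/

lemma pta_exists_root (x : Qbarˣ) : ∃ y : Qbarˣ, y ^ p = x := by
  have hp : p.Prime := Fact.out
  obtain ⟨y0, hy0⟩ : ∃ y : Qbar, y ^ p = (x : Qbar) := IsAlgClosed.exists_pow_nat_eq _ hp.pos
  have hy00 : y0 ≠ 0 := by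
    rintro rfl
    rw [zero_pow hp.ne_zero] at hy0
    exact Units.ne_zero x hy0.symm
  exact ⟨Units.mk0 y0 hy00, Units.ext (by rw [Units.val_pow_eq_pow_val]; exact hy0)⟩

/-- a chosen `p`-th root -/
def pta_kumRoot (x : Qbarˣ) : Qbarˣ := Classical.choose (pta_exists_root p x)

lemma pta_kumRoot_pow (x : Qbarˣ) : pta_kumRoot p x ^ p = x :=
  Classical.choose_spec (pta_exists_root p x)

variable {p}
variable {T : Finset Nat.Primes} {E : IntermediateField ℚ Qbar}

/-- the unit of `Q̄` attached to a unit of `E` -/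
def pta_unitE (E : IntermediateField ℚ Qbar) : (↥E)ˣ →* Qbarˣ :=
  Units.map ((algebraMap ↥E Qbar : ↥E →+* Qbar) : ↥E →* Qbar)

@[simp] lemma pta_unitE_coe (x : (↥E)ˣ) : ((pta_unitE E x : Qbarˣ) : Qbar) = ((x : ↥E) : Qbar) :=
  rfl

lemma pta_unitE_injective : Function.Injective (pta_unitE E) := by
  intro x y h
  apply Units.ext
  apply Subtype.ext
  have := congrArg (fun u : Qbarˣ => (u : Qbar)) h
  exact this

variable (p) in
/-- **the Kummer character of `x ∈ Eˣ`** on `U = Gal(Q̄/E)` -/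
def pta_kumFun (x : (↥E)ˣ) (g : ↥E.fixingSubgroup) : ZMod p :=
  pta_kumChar p (pta_kumRoot p (pta_unitE E x)) (g : GQ)

section Basic

variable (hζ : ∀ x : Qbar, x ^ p = 1 → x ∈ E)

include hζ in
lemma pta_fix_mu {g : GQ} (hg : g ∈ E.fixingSubgroup) (x : Qbar) (hx : x ^ p = 1) : g x = x :=
  (IntermediateField.mem_fixingSubgroup_iff E g).1 hg x (hζ x hx)

lemma pta_fix_rootPow (x : (↥E)ˣ) {g : GQ} (hg : g ∈ E.fixingSubgroup) :
    g (((pta_kumRoot p (pta_unitE E x) : Qbarˣ) : Qbar) ^ p) =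
      ((pta_kumRoot p (pta_unitE E x) : Qbarˣ) : Qbar) ^ p := by
  rw [← Units.val_pow_eq_pow_val, pta_kumRoot_pow, pta_unitE_coe]
  exact (IntermediateField.mem_fixingSubgroup_iff E g).1 hg _ (x : ↥E).2

include hζ in
/-- the Kummer character does not depend on the choice of the root -/
lemma pta_kumFun_eq (x : (↥E)ˣ) {y : Qbarˣ} (hy : y ^ p = pta_unitE E x)
    (g : ↥E.fixingSubgroup) : pta_kumFun p x g = pta_kumChar p y (g : GQ) := by
  unfold pta_kumFun
  apply pta_kumChar_congr p _ (pta_fix_mu hζ g.2)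
  rw [pta_kumRoot_pow, hy]

include hζ in
/-- it is a character of `U` -/
lemma pta_kumFun_isChar (x : (↥E)ˣ) : ptd_IsChar (pta_kumFun p x) := by
  intro g h
  exact pta_kumChar_add p (pta_fix_mu hζ g.2) (pta_fix_rootPow x g.2) (pta_fix_rootPow x h.2)

include hζ in
/-- additivity in `x` -/
lemma pta_kumFun_mul (x x' : (↥E)ˣ) :
    pta_kumFun p (x * x') = pta_kumFun p x + pta_kumFun p x' := by
  funext g
  have hy : (pta_kumRoot p (pta_unitE E x) * pta_kumRoot p (pta_unitE E x')) ^ p =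
      pta_unitE E (x * x') := by
    rw [mul_pow, pta_kumRoot_pow, pta_kumRoot_pow, map_mul]
  rw [pta_kumFun_eq hζ (x * x') hy g]
  exact pta_kumChar_mul_left p (pta_fix_rootPow x g.2) (pta_fix_rootPow x' g.2)

/-- the value is `0` iff `g` fixes the root -/
lemma pta_kumFun_eq_zero_iff (x : (↥E)ˣ) (g : ↥E.fixingSubgroup) :
    pta_kumFun p x g = 0 ↔
      (g : GQ) ((pta_kumRoot p (pta_unitE E x) : Qbarˣ) : Qbar) =
        ((pta_kumRoot p (pta_unitE E x) : Qbarˣ) : Qbar) :=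
  pta_kumChar_eq_zero_iff p (pta_fix_rootPow x g.2)

include hζ in
/-- **kernel of the Kummer map**: the character of `x` is trivial iff `x` is a `p`-th power in
`E` -/
theorem pta_kumFun_eq_zero_iff_pow (x : (↥E)ˣ) :
    pta_kumFun p x = 0 ↔ x ∈ ptk_pows ↥E p := by
  have hp : p.Prime := Fact.out
  constructor
  · intro h
    set y := pta_kumRoot p (pta_unitE E x) with hy
    have hyE : (y : Qbar) ∈ E := by
      rw [← InfiniteGalois.fixedField_fixingSubgroup E, IntermediateField.mem_fixedField_iff]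
      intro g hg
      exact (pta_kumFun_eq_zero_iff x ⟨g, hg⟩).1 (congrFun h ⟨g, hg⟩)
    have hy0 : (⟨(y : Qbar), hyE⟩ : ↥E) ≠ 0 := by
      intro h0
      exact Units.ne_zero y (congrArg Subtype.val h0)
    refine ⟨Units.mk0 ⟨(y : Qbar), hyE⟩ hy0, ?_⟩
    apply pta_unitE_injective
    rw [powMonoidHom_apply, map_pow, ← pta_kumRoot_pow p (pta_unitE E x), ← hy]
    congr 1
    exact Units.ext rfl
  · rintro ⟨z, rfl⟩
    funext g
    have hz : (pta_unitE E z) ^ p = pta_unitE E (powMonoidHom p z) := by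
      rw [powMonoidHom_apply, map_pow]
    rw [pta_kumFun_eq hζ _ hz g]
    show pta_kumChar p (pta_unitE E z) (g : GQ) = 0
    have hfix : (g : GQ) ((pta_unitE E z : Qbarˣ) : Qbar) = ((pta_unitE E z : Qbarˣ) : Qbar) :=
      (IntermediateField.mem_fixingSubgroup_iff E g).1 g.2 _ (z : ↥E).2
    rw [pta_kumChar_eq_zero_iff p (by rw [map_pow, hfix])]
    exact hfix

end Basic

section Level

/-- the local condition: `x` has `p`-divisible valuation at all places outside `T`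
(e.g. `x` a `T`-unit: `b = 1`) -/
def pta_IsKumDom (p : ℕ) (T : Finset Nat.Primes) (E : IntermediateField ℚ Qbar) (x : (↥E)ˣ) :
    Prop :=
  ∀ q : Nat.Primes, q ∉ T → ∀ σ : ptj_Emb Qbar q, ∃ b ∈ E, b ≠ 0 ∧
    ‖σ ((x : ↥E) : Qbar)‖ = ‖σ b‖ ^ p

/-- `E(x^{1/p})` is unramified outside `T` -/
theorem pta_kummer_field_unram (hpT : pPrime p ∈ T) (hE : E.IsUnramifiedOutside T)
    {x : (↥E)ˣ} (hx : pta_IsKumDom p T E x) :
    (E ⊔ ℚ⟮((pta_kumRoot p (pta_unitE E x) : Qbarˣ) : Qbar)⟯).IsUnramifiedOutside T := by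
  have hp : p.Prime := Fact.out
  set y := pta_kumRoot p (pta_unitE E x) with hy
  have hyp : (y : Qbar) ^ p = ((x : ↥E) : Qbar) := by
    rw [← Units.val_pow_eq_pow_val, hy, pta_kumRoot_pow, pta_unitE_coe]
  refine pta_kummer_unram_emb hpT hE (Units.ne_zero y) ?_ (fun q hq σ => ?_)
  · rw [hyp]; exact (x : ↥E).2
  · obtain ⟨b, hbE, hb0, hnorm⟩ := hx q hq σ
    refine ⟨b, hbE, hb0, ?_⟩
    rw [← hyp, map_pow, norm_pow] at hnorm
    exact (pow_left_inj₀ (norm_nonneg _) (norm_nonneg _) hp.ne_zero).1 hnorm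

/-- **the Kummer characters are `T`-level characters** -/
theorem pta_kumFun_isLev₁ (hpT : pPrime p ∈ T) (hE : E.IsUnramifiedOutside T)
    (hζ : ∀ x : Qbar, x ^ p = 1 → x ∈ E) (hU : (pta_levelsS T).IsOpen E.fixingSubgroup)
    {x : (↥E)ˣ} (hx : pta_IsKumDom p T E x) :
    ptd_IsLev₁ ((pta_levelsS T).sub E.fixingSubgroup hU) (pta_kumFun p x) := by
  set y := pta_kumRoot p (pta_unitE E x) with hy
  set K : IntermediateField ℚ Qbar := E ⊔ ℚ⟮(y : Qbar)⟯ with hK
  have hKu : K.IsUnramifiedOutside T := pta_kummer_field_unram hpT hE hx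
  set F' := pta_galClosure K with hF'
  have hF'u : F'.IsUnramifiedOutside T := pta_isUnramifiedOutside_galClosure hKu
  have hF'st : ∀ σ : GQ, ∀ x ∈ F', σ x ∈ F' := fun σ x hx => pta_galClosure_stable K σ x hx
  have hEF' : E ≤ F' := le_sup_left.trans (pta_le_galClosure K)
  have hyF' : (y : Qbar) ∈ F' :=
    pta_le_galClosure K ((le_sup_right : ℚ⟮(y : Qbar)⟯ ≤ K)
      (IntermediateField.mem_adjoin_simple_self ℚ (y : Qbar)))
  have hle : F'.fixingSubgroup ≤ E.fixingSubgroup :=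
    IntermediateField.fixingSubgroup_antitone hEF'
  refine ⟨_, ⟨F'.fixingSubgroup, pta_mem_levelsS hF'u hF'st, hle, rfl⟩, fun g s hs => ?_⟩
  have hs' : (s : GQ) ∈ F'.fixingSubgroup := Subgroup.mem_subgroupOf.1 hs
  rw [pta_kumFun_isChar hζ x g s]
  have h0 : pta_kumFun p x s = 0 := by
    rw [pta_kumFun_eq_zero_iff]
    exact (IntermediateField.mem_fixingSubgroup_iff F' _).1 hs' _ hyF'
  rw [h0, add_zero]

end Level

section Count

variable (p T E) in
/-- the subgroup of `Eˣ` of elements with `p`-divisible valuations outside `T` -/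
def pta_kumDom : Subgroup (↥E)ˣ where
  carrier := {x | pta_IsKumDom p T E x}
  one_mem' := fun q hq σ => ⟨1, one_mem E, one_ne_zero, by simp⟩
  mul_mem' := by
    rintro x x' hx hx' q hq σ
    obtain ⟨b, hb, hb0, h⟩ := hx q hq σ
    obtain ⟨b', hb', hb0', h'⟩ := hx' q hq σ
    refine ⟨b * b', mul_mem hb hb', mul_ne_zero hb0 hb0', ?_⟩
    rw [Units.val_mul, MulMemClass.coe_mul, map_mul, norm_mul, h, h', map_mul, norm_mul,
      mul_pow]
  inv_mem' := by
    rintro x hx q hq σ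
    obtain ⟨b, hb, hb0, h⟩ := hx q hq σ
    refine ⟨b⁻¹, inv_mem hb, inv_ne_zero hb0, ?_⟩
    rw [Units.val_inv_eq_inv_val, show (((x : ↥E)⁻¹ : ↥E) : Qbar) = ((x : ↥E) : Qbar)⁻¹ from rfl,
      map_inv₀, norm_inv, h, map_inv₀, norm_inv, inv_pow]

lemma pta_mem_kumDom_iff (x : (↥E)ˣ) : x ∈ pta_kumDom p T E ↔ pta_IsKumDom p T E x := Iff.rfl

/-- `p`-th powers are in the Kummer domain -/
lemma pta_pows_le_kumDom : ptk_pows ↥E p ≤ pta_kumDom p T E := by
  rintro _ ⟨z, rfl⟩ q hq σ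
  refine ⟨((z : ↥E) : Qbar), (z : ↥E).2, ?_, ?_⟩
  · intro h0
    exact Units.ne_zero z (Subtype.ext h0)
  · rw [powMonoidHom_apply, Units.val_pow_eq_pow_val, SubmonoidClass.coe_pow, map_pow, norm_pow]

/-- `T`-units (in the idelic sense) are in the Kummer domain -/
lemma pta_mem_kumDom_of_unit {x : (↥E)ˣ}
    (hx : ∀ q : Nat.Primes, q ∉ T → ∀ σ : ptj_Emb Qbar q, ‖σ ((x : ↥E) : Qbar)‖ = 1) :
    x ∈ pta_kumDom p T E := fun q hq σ =>
  ⟨1, one_mem E, one_ne_zero, by rw [hx q hq σ, map_one, norm_one, one_pow]⟩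

/-- **the Kummer homomorphism** `O → (U → ZMod p)`, additive form -/
def pta_kumHom (hζ : ∀ x : Qbar, x ^ p = 1 → x ∈ E) (O : Subgroup (↥E)ˣ) :
    Additive ↥O →+ (↥E.fixingSubgroup → ZMod p) where
  toFun x := pta_kumFun p ((Additive.toMul x : ↥O) : (↥E)ˣ)
  map_zero' := by
    show pta_kumFun p (1 : (↥E)ˣ) = 0
    rw [pta_kumFun_eq_zero_iff_pow hζ]
    exact one_mem _
  map_add' x x' := by
    show pta_kumFun p ((((Additive.toMul x * Additive.toMul x' : ↥O)) : (↥E)ˣ)) = _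
    rw [Subgroup.coe_mul, pta_kumFun_mul hζ]

@[simp] lemma pta_kumHom_apply (hζ : ∀ x : Qbar, x ^ p = 1 → x ∈ E) (O : Subgroup (↥E)ˣ)
    (x : ↥O) : pta_kumHom hζ O (Additive.ofMul x) = pta_kumFun p (x : (↥E)ˣ) := rfl

/-- the kernel of the Kummer homomorphism is `O ∩ Eˣᵖ` -/
lemma pta_kumHom_ker (hζ : ∀ x : Qbar, x ^ p = 1 → x ∈ E) (O : Subgroup (↥E)ˣ) :
    (pta_kumHom hζ O).ker = Subgroup.toAddSubgroup ((ptk_pows ↥E p).subgroupOf O) := by
  ext x
  rw [AddMonoidHom.mem_ker]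
  show pta_kumFun p ((Additive.toMul x : ↥O) : (↥E)ˣ) = 0 ↔ _
  rw [pta_kumFun_eq_zero_iff_pow hζ]
  rfl

/-- **(G8.B2)**: the Kummer characters of `O` form a subgroup `X₀` of `T`-level characters of
`U = Gal(Q̄/E)` with `#X₀ = [O : O ∩ Eˣᵖ]`. -/
theorem pta_kummer_X0 (hpT : pPrime p ∈ T) (hE : E.IsUnramifiedOutside T)
    (hζ : ∀ x : Qbar, x ^ p = 1 → x ∈ E) (hU : (pta_levelsS T).IsOpen E.fixingSubgroup)
    (O : Subgroup (↥E)ˣ) (hO : O ≤ pta_kumDom p T E) :
    ∃ X₀ : AddSubgroup (↥E.fixingSubgroup → ZMod p),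
      (∀ χ ∈ X₀, ptd_IsChar χ ∧ ptd_IsLev₁ ((pta_levelsS T).sub E.fixingSubgroup hU) χ) ∧
      Nat.card X₀ = (ptk_pows ↥E p).relIndex O := by
  refine ⟨(pta_kumHom hζ O).range, ?_, ?_⟩
  · rintro _ ⟨x, rfl⟩
    exact ⟨pta_kumFun_isChar hζ _, pta_kumFun_isLev₁ hpT hE hζ hU (hO (Additive.toMul x).2)⟩
  · rw [← AddSubgroup.index_ker, pta_kumHom_ker, Subgroup.index_toAddSubgroup]
    rfl

end Count

end Fermat.Agent.Lib.PT

end
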