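/-
S55 (Poitou–Tate long-haul): the LOCAL hypotheses `hF4loc` / `hF3Lloc` of helper3's
`ptd_F4i_global` (and the local F3) for helper4's `SemiLocModel` family over an open
`U ≤ ker χ_cyc` of `G_ℚ`, from helper6's one-shot local theorems (`ClsLocal`) and helper7's
`ptg_hnormidx`, for an ARBITRARY family of local level data `DL q` on `(G_q, Ω_qˣ)`.
-/
import Mathlib
import Fermat.Agent.Lib.PT.SemiLocModel
import Fermat.Agent.Lib.PT.ClsLocal
import Fermat.Agent.Lib.PT.BridgeO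

set_option autoImplicit false
set_option linter.unusedSectionVars false

noncomputable section

namespace Fermat.Agent.Lib.PT

open IntermediateField ExtCitation groupCohomology

local notation "Qbar" => AlgebraicClosure ℚ
local notation "GQ" => (AlgebraicClosure ℚ ≃ₐ[ℚ] AlgebraicClosure ℚ)

variable {p : ℕ} [Fact p.Prime] {S : Finset Nat.Primes}

/-- **(b)**: the local groups `V_v` of the `SemiLocModel` family over `U ≤ ker χ_cyc` fix
`μ_p(Ω_q)`. -/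
theorem pta_Vv_le_cycloKer {U : Subgroup GQ} (hUK : U ≤ (cycloChar p).ker)
    (v : pts_PlacesS S U) : pts_Vv U v ≤ ptg_cycloKer (v.1.1 : ℕ) p := by
  intro τ hτ
  rw [ptg_mem_cycloKer_iff]
  have h1 : (pts_dcRep (pta_SLr S v.1) U v.2)⁻¹ * localGaloisToGlobal (v.1.1 : ℕ) τ *
      pts_dcRep (pta_SLr S v.1) U v.2 ∈ U := hτ
  have h2 := MonoidHom.mem_ker.mp (hUK h1)
  rw [map_mul, map_mul, map_inv] at h2
  rwa [mul_comm, ← mul_assoc, mul_inv_cancel, one_mul] at h2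

section LocalInputs

variable (q : ℕ) [Fact q.Prime]
variable (D : ptn_LevelData (ptg_levels q) (ptg_unitsRep q) p)

/-- **local `hF3Lloc`, one shot**: over every open `V ≤ G_q`, a level character `χ : V → 𝔽_p` all
of whose cup products `a · δχ` (`a ∈ (Ω_qˣ)^V`) have invariant `0` is trivial. -/
theorem pta_local_F3L (hd : ptd_IsDiscrete (ptg_levels q) (ptg_unitsRep q))
    (V : Subgroup (PadicAlgCl q ≃ₐ[ℚ_[q]] PadicAlgCl q)) (hV : (ptg_levels q).IsOpen V)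
    (χ : ↥V → ZMod p) (hχ : ptd_IsChar χ) (hlev : ptd_IsLev₁ ((ptg_levels q).sub V hV) χ)
    (h0 : ∀ a : Additive (PadicAlgCl q)ˣ, (∀ t, ptd_resRep (ptg_unitsRep q) V t a = a) →
      ptn_invU D hd V hV (ptd_bockSmul p χ a) = 0) : χ = 0 := by
  by_contra hne
  obtain ⟨τ, hτ⟩ := ptl_exists_char_eq_one hχ hne
  obtain ⟨c, hc⟩ := ptl_exists_not_isB2 (𝓛 := (ptg_levels q).sub V hV)
    (ρC := ptd_resRep (ptg_unitsRep q) V) hχ hlev
    (fun φ hφ => ptg_isB1_of_isLZ1_units_sub q hV (ptl_charKer_isOpen hχ hlev) φ hφ) hτ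
    (ptg_hnormidx q p hV χ hχ hlev τ hτ)
  have hcfix : ∀ t, ptd_resRep (ptg_unitsRep q) V t (c : Additive (PadicAlgCl q)ˣ) = c :=
    fun t => c.2 t
  exact hc ((ptn_invU_eq_zero_iff D hd hV (ptd_isLZ2p_bockSmul hχ hlev hcfix)).mp
    (h0 c hcfix))

end LocalInputs

section ModelInputs

/-- `hdL` of `pts_S55_of_invSystems_cofinal` for `L := pta_LocPre p hpS` -/
theorem pta_hdL_model (hpS : pPrime p ∈ S) (q : ↥S) :
    ptd_IsDiscrete (pta_LocPre p hpS q).𝓛 (pta_LocPre p hpS q).ρ :=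
  ptg_isDiscrete_units (q.1 : ℕ)

/-- `hF3L` of `pts_S55_of_invSystems_cofinal` for `L := pta_LocPre p hpS` and ANY local level
data. -/
theorem pta_hF3L_model (hpS : pPrime p ∈ S)
    (DL : ∀ q : ↥S, ptn_LevelData (pta_LocPre p hpS q).𝓛 (pta_LocPre p hpS q).ρ p)
    (q : ↥S) (U : Subgroup (primeLocalGaloisGroup q.1)) (hU : (pta_LocPre p hpS q).𝓛.IsOpen U)
    (hUK : U ≤ pts_cycloKerLoc p q.1) :
    ptd_F3 ((pta_LocPre p hpS q).𝓛.sub U hU) (ptd_resRep (pta_LocPre p hpS q).ρ U)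
      (ptn_invU (DL q) (pta_hdL_model hpS q) U hU) :=
  ptl_local_F3 (q := (q.1 : ℕ)) (p := p) (DL q) (pta_hdL_model hpS q) U hU hUK
    (fun χ hχ hlev _ τ hτ => ptg_hnormidx (q.1 : ℕ) p hU χ hχ hlev τ hτ)

/-- `hF4L` of `pts_S55_of_invSystems_cofinal` for `L := pta_LocPre p hpS` and ANY local level
data. -/
theorem pta_hF4L_model (hpS : pPrime p ∈ S)
    (DL : ∀ q : ↥S, ptn_LevelData (pta_LocPre p hpS q).𝓛 (pta_LocPre p hpS q).ρ p)
    (q : ↥S) (U : Subgroup (primeLocalGaloisGroup q.1)) (hU : (pta_LocPre p hpS q).𝓛.IsOpen U)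
    (hUK : U ≤ pts_cycloKerLoc p q.1) :
    ptd_NondegH2 ((pta_LocPre p hpS q).𝓛.sub U hU) (ptd_resRep (pta_LocPre p hpS q).ρ U)
      (ptn_invU (DL q) (pta_hdL_model hpS q) U hU)
      (Representation.trivial (ZMod p) U (ZMod p)) :=
  ptl_local_F4i (q := (q.1 : ℕ)) (p := p) (DL q) (pta_hdL_model hpS q) U hU hUK

/-- `hF4loc` of helper3's `ptd_F4i_global` / `ptd_F4ii_global` for the `SemiLocModel` family over
an open `U ≤ ker χ_cyc`, with `invv v := ptn_invU (DL v.1) _ (V_v) _`. -/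
theorem pta_hF4loc_model (hpS : pPrime p ∈ S)
    (DL : ∀ q : ↥S, ptn_LevelData (pta_SLlev S q) (pta_SLrep S q) p)
    {U : Subgroup GQ} (hU : (pta_levelsS S).IsOpen U) (hUK : U ≤ (cycloChar p).ker)
    (v : pts_PlacesS S U) :
    ptd_NondegH2 ((pta_SLlev S v.1).sub (pts_Vv U v) (pts_Vv_isOpen hU v))
      (ptd_resRep (pta_SLrep S v.1) (pts_Vv U v))
      (ptn_invU (DL v.1) (ptg_isDiscrete_units (v.1.1 : ℕ)) (pts_Vv U v) (pts_Vv_isOpen hU v))
      (Representation.trivial (ZMod p) (pts_Vv U v) (ZMod p)) :=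
  ptl_local_F4i (q := (v.1.1 : ℕ)) (p := p) (DL v.1) (ptg_isDiscrete_units (v.1.1 : ℕ))
    (pts_Vv U v) (pts_Vv_isOpen hU v) (pta_Vv_le_cycloKer hUK v)

/-- `hF3Lloc` of helper3's `ptd_F4i_global` / `ptd_F4ii_global` for the `SemiLocModel` family. -/
theorem pta_hF3Lloc_model (hpS : pPrime p ∈ S)
    (DL : ∀ q : ↥S, ptn_LevelData (pta_SLlev S q) (pta_SLrep S q) p)
    {U : Subgroup GQ} (hU : (pta_levelsS S).IsOpen U)
    (v : pts_PlacesS S U) (χ : ↥(pts_Vv U v) → ZMod p) (hχ : ptd_IsChar χ)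
    (hlev : ptd_IsLev₁ ((pta_SLlev S v.1).sub (pts_Vv U v) (pts_Vv_isOpen hU v)) χ)
    (h0 : ∀ a : pta_SLA S v.1, (∀ t, ptd_resRep (pta_SLrep S v.1) (pts_Vv U v) t a = a) →
      ptn_invU (DL v.1) (ptg_isDiscrete_units (v.1.1 : ℕ)) (pts_Vv U v) (pts_Vv_isOpen hU v)
        (ptd_bockSmul p χ a) = 0) : χ = 0 :=
  pta_local_F3L (v.1.1 : ℕ) (DL v.1) (ptg_isDiscrete_units (v.1.1 : ℕ)) (pts_Vv U v)
    (pts_Vv_isOpen hU v) χ hχ hlev h0

end ModelInputs

end Fermat.Agent.Lib.PT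

end
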