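/-
S55 long haul, (SL) model side, part B: the local side conditions of the F4(ii)-global theorem
(`hdv`, `hdivloc`, `htorsloc`, `hζloc`) for the local family of `SemiLocModel` over an open `U`.
-/
import Fermat.Agent.Lib.PT.SemiLocModel
import Fermat.Agent.Lib.PT.BridgeN
import Fermat.Agent.Lib.PT.AdtFull

set_option autoImplicit false
set_option linter.unusedVariables false
set_option linter.unusedSectionVars false
set_option linter.style.haveILetI false

noncomputable section

namespace Fermat.Agent.Lib.PT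

open IntermediateField ExtCitation

local notation "Qbar" => AlgebraicClosure ℚ
local notation "GQ" => (AlgebraicClosure ℚ ≃ₐ[ℚ] AlgebraicClosure ℚ)

variable {p : ℕ} [Fact p.Prime] {S : Finset Nat.Primes}

/-- the coordinate at `ι_q` of `ζ k` -/
lemma pta_evU_ζ (hpS : pPrime p ∈ S) (q : ↥S) (k : ZMod p) :
    pta_evU S q.1 (pta_Eζ p S hpS k) =
      ptg_zetaHom p (pta_zetaq p q.1) (pta_zetaq_spec p q.1).pow_eq_one k := by
  have htors : p • pta_Eζ p S hpS k = 0 := pta_Eζ_tors p S hpS k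
  rw [← pta_Eev_spec p S q.1 htors, pta_Eev_ζ p S hpS q.2]

/-- the local coordinate of `ζ k` at the place `v` of the family over `U` -/
lemma pta_dcEv_ζ (hpS : pPrime p ∈ S) (U : Subgroup GQ) (v : pts_PlacesS S U) (k : ZMod p) :
    pts_dcEv (pta_EMod p hpS).ρJ (pta_SLev S) U v ((pta_EMod p hpS).ζ k) =
      ptg_zetaHom p (pta_zetaq p v.1.1) (pta_zetaq_spec p v.1.1).pow_eq_one
        ((cycloChar p (pts_dcRep (pta_SLr S v.1) U v.2) : ZMod p) * k) := by
  rw [pts_dcEv_apply]
  show pta_evU S v.1.1 (pts_dcRep (pta_SLr S v.1) U v.2 • pta_Eζ p S hpS k) = _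
  rw [pta_smul_Eζ, pta_evU_ζ hpS v.1]

/-- `hdv`: the local modules are discrete -/
theorem pta_hdv_model (U : Subgroup GQ) (hU : (pta_levelsS S).IsOpen U) (v : pts_PlacesS S U) :
    ptd_IsDiscrete ((pta_SLlev S v.1).sub (pts_Vv U v) (pts_Vv_isOpen hU v))
      (ptd_resRep (pta_SLrep S v.1) (pts_Vv U v)) :=
  ptd_IsDiscrete.resRep (pts_Vv U v) (pts_Vv_isOpen hU v) (ptg_isDiscrete_units (v.1.1 : ℕ))

/-- `hdivloc`: the local modules are `p`-divisible -/
theorem pta_hdivloc_model (p : ℕ) [Fact p.Prime] (U : Subgroup GQ) (v : pts_PlacesS S U)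
    (a : pta_SLA S v.1) : ∃ a' : pta_SLA S v.1, p • a' = a :=
  ptg_units_divisible (Fact.out : p.Prime).pos a

/-- `htorsloc`: the local `p`-torsion is the image of `ζ` -/
theorem pta_htorsloc_model (hpS : pPrime p ∈ S) (U : Subgroup GQ) (v : pts_PlacesS S U)
    (a : pta_SLA S v.1) (ha : p • a = 0) :
    ∃ k : ZMod p, pts_dcEv (pta_EMod p hpS).ρJ (pta_SLev S) U v ((pta_EMod p hpS).ζ k) = a := by
  obtain ⟨c, hc⟩ := ptg_exists_zetaHom_of_tors p (pta_zetaq_spec p v.1.1) a ha
  set u : (ZMod p)ˣ := cycloChar p (pts_dcRep (pta_SLr S v.1) U v.2) with hu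
  refine ⟨((u⁻¹ : (ZMod p)ˣ) : ZMod p) * c, ?_⟩
  rw [pta_dcEv_ζ, ← mul_assoc, ← hu, ← Units.val_mul, mul_inv_cancel, Units.val_one, one_mul, hc]

/-- `hζloc`: `ζ` is injective on every local component -/
theorem pta_hζloc_model (hpS : pPrime p ∈ S) (U : Subgroup GQ) (v : pts_PlacesS S U) :
    Function.Injective
      (fun k => pts_dcEv (pta_EMod p hpS).ρJ (pta_SLev S) U v ((pta_EMod p hpS).ζ k)) := by
  intro k k' h
  simp only [pta_dcEv_ζ] at h
  have h1 := ptg_zetaHom_injective p (pta_zetaq_spec p v.1.1) h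
  exact (Units.isUnit _).mul_left_cancel h1

end Fermat.Agent.Lib.PT

end
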