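/-
S55 long haul, (UN) part D: the stable-level Hilbert-90 hypothesis `ptj_TowerH90'` of `GModBigC`
holds unconditionally; consequently the image of `C_S(E)` in `𝒞_S` is the group of
`Gal(Q̄/E)`-invariants, with no hypothesis.
-/
import Fermat.Agent.Lib.PT.GModUnrC
import Fermat.Agent.Lib.PT.GModBigC

set_option autoImplicit false
set_option linter.unusedVariables false
set_option linter.unusedSectionVars false
set_option linter.style.haveILetI false

noncomputable section

namespace Fermat.Agent.Lib.PT

open IntermediateField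

local notation "Qbar" => AlgebraicClosure ℚ
local notation "GQ" => (AlgebraicClosure ℚ ≃ₐ[ℚ] AlgebraicClosure ℚ)

variable {S : Finset Nat.Primes}

/-- **(UN2), tower form**: Hilbert 90 for units at the places outside `S` in the `S`-unramified
tower above `E`, for the levels Galois over `ℚ`. -/
theorem pta_towerH90' (E : Type*) [Field E] [CharZero E] [Algebra E Qbar] :
    ptj_TowerH90' S E :=
  fun L _ _ hun hst q hq σ => pta_unitsH90_tower L hun hst hq σ

/-- The image of `C_S(E)` in `𝒞_S` is the group of `Gal(Q̄/E)`-invariants. -/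
theorem pta_mem_range_iota_iff {E : Type*} [Field E] [CharZero E] [Algebra E Qbar]
    [Algebra.IsAlgebraic ℚ E] [Algebra.IsAlgebraic E Qbar] (hS : S.Nonempty)
    (hE : ptj_IsUnrE S E) (c : ptj_CSm S) :
    c ∈ (ptj_iota S E hE).range ↔ ∀ γ ∈ (ptj_imField E).fixingSubgroup, γ • c = c :=
  ptj_mem_range_iota_iff' hS hE (pta_towerH90' E) c

/-- The image of `C_S(F)` in `𝒞_S` is the group of `Fix F`-invariants. -/
theorem pta_mem_range_iota_field_iff (F : IntermediateField ℚ Qbar) (hS : S.Nonempty)
    (hF : F.IsUnramifiedOutside S) (c : ptj_CSm S) :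
    c ∈ (ptj_iota S F (ptj_isUnrE_field F hF)).range ↔ ∀ γ ∈ F.fixingSubgroup, γ • c = c :=
  ptj_mem_range_iota_field_iff' F hS hF (pta_towerH90' F) c

end Fermat.Agent.Lib.PT

end
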