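/-
S55 / (G4), finite level, FINAL SHAPE (helper2): for `K/F` Galois of odd prime degree `p` with
`ζ_p ∈ F`, unramified outside a nonempty finite set `S` of rational primes, the `S`-idele class
group `C_S(K) = ptj_CT K S` has `H¹(Gal(K/F), C_S(K)) = 1` (cocycle form) and
`#H²(Gal(K/F), C_S(K)) ∣ p`.  Combines `GPlaceG4C` (`ptk_G4_ker_N_le`, `ptk_G4_H0_dvd`) with
helper6's cyclic adapter `ptl_G4_of_hm1_h0` (which uses helper9's `pti_card_H2_cyclic`).
-/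
import Fermat.Agent.Lib.PT.GPlaceG4C
import Fermat.Agent.Lib.PT.CycPerB

set_option autoImplicit false

namespace Fermat.Agent.Lib.PT

open groupCohomology

/-- **(G4), finite level** in the shape consumed by helper7's `ptg_hG4_of_finite`. -/
theorem ptk_G4_finite {F K : Type} [Field F] [NumberField F] [Field K] [NumberField K]
    [Algebra F K] [IsGalois F K] {p : ℕ} [hp : Fact p.Prime] (hp2 : p ≠ 2)
    (hdeg : Module.finrank F K = p) {ζ : F} (hζ : IsPrimitiveRoot ζ p)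
    (S : Finset Nat.Primes) (hS : S.Nonempty)
    (hunrN : ∀ q ∉ S, ∀ σ : ptj_Emb K q, ptj_UnitsAreNorms F (K ≃ₐ[F] K) σ)
    (hunrH : ∀ q ∉ S, ∀ σ : ptj_Emb K q, ptj_UnitsH90 (K ≃ₐ[F] K) σ) :
    (∀ f : (K ≃ₐ[F] K) → ptj_CT K S, IsMulCocycle₁ f → IsMulCoboundary₁ f) ∧
      Nat.card (groupCohomology (Rep.ofMulDistribMulAction (K ≃ₐ[F] K) (ptj_CT K S)) 2) ∣ p := by
  classical
  haveI : FiniteDimensional F K := Module.Finite.of_restrictScalars_finite ℚ F K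
  have hcard : Nat.card (K ≃ₐ[F] K) = p := by rw [IsGalois.card_aut_eq_finrank, hdeg]
  haveI : IsCyclic (K ≃ₐ[F] K) := isCyclic_of_prime_card hcard
  obtain ⟨γ, hγ⟩ := IsCyclic.exists_generator (α := K ≃ₐ[F] K)
  exact ptl_G4_of_hm1_h0 (Γ := K ≃ₐ[F] K) (M := ptj_CT K S) γ hγ hcard hp.out.ne_zero
    (cfh_NCT K S γ p) (cfh_DCT K S γ) (fun m => cfh_NCT_apply S γ p m)
    (fun m => cfh_DCT_apply S γ m)
    (ptk_G4_ker_N_le hp2 hdeg hζ γ hγ S hS hunrN hunrH)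
    (ptk_G4_H0_dvd hp2 hdeg hζ γ hγ S hS hunrH)

end Fermat.Agent.Lib.PT
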