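/-
S55 / (G4): input (3) `hG4` of helper4's `pts_S55_of_inputs`, as a term (helper2):
helper7's adapter `ptg_hG4_of_finite` applied to the finite-level statement `ptk_G4_finite`.
-/
import Fermat.Agent.Lib.PT.GPlaceG4D
import Fermat.Agent.Lib.PT.BridgeV

set_option autoImplicit false

namespace Fermat.Agent.Lib.PT

open IntermediateField groupCohomology ExtCitation

local notation "GQ" => (AlgebraicClosure ℚ ≃ₐ[ℚ] AlgebraicClosure ℚ)

/-- **input (3) of `pts_S55_of_inputs`**: (G4) for every cyclic degree-`p` layer `N' ≤ U'` of open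
subgroups of `G_ℚ` inside `ker χ_cyc`. -/
theorem ptk_hG4_model {S : Finset Nat.Primes} (hS : S.Nonempty) {p : ℕ} [Fact p.Prime]
    (hp2 : p ≠ 2) (U' N' : Subgroup GQ) (hN : (pta_levelsS S).IsOpen N') (hNU : N' ≤ U')
    (hUK : U' ≤ (cycloChar p).ker) (hn : (N'.subgroupOf U').Normal)
    (hidx : N'.relIndex U' = p) :
    ptg_H1At (ptj_CSrep S) U' N' ∧
      (ptg_B2At (ptj_CSrep S) U' N').relIndex (ptg_Z2At (ptj_CSrep S) U' N') ∣ p :=
  ptg_hG4_of_finite hS p
    (fun hdeg _ hζ hunrN hunrH => ptk_G4_finite hp2 hdeg hζ S hS hunrN hunrH)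
    U' N' hN hNU hUK hn hidx

end Fermat.Agent.Lib.PT
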