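/-
S55 (Poitou–Tate long haul), (H-cyc) part A: the group theory.

* `cfh_cyclic_mem_zpowers_pow_index`: in a finite cyclic group `⟨c⟩`, a subgroup `H` of index `d`
  consists of powers of `c ^ d`;
* `cfh_charSub`: for a character `χ : G → ZMod (p ^ k)` and a subgroup `V` with
  `[V : V ∩ ker χ] = N ≠ 1`, the subgroup `V' = {v ∈ V | (N / p) • χ v = 0}` has index `p` in `V`,
  is normal in `V`, and an element `x ∈ V ∖ V'` has `χ x` of exact order `N` (in the form:
  if `χ x ∈ ℤ c` and `m • c = 0` then `N ∣ m`).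
-/
import Fermat.Agent.Lib.PT.AbsBock

set_option autoImplicit false
set_option linter.unusedSectionVars false
set_option linter.style.haveILetI false

namespace Fermat.Agent.Lib.PT

section Cyclic

variable {C : Type*} [Group C] [Finite C]

/-- In a finite cyclic group generated by `c`, every element of a subgroup `H` is a power of
`c ^ [C : H]`. -/
theorem cfh_cyclic_mem_zpowers_pow_index (c : C) (hc : ∀ x : C, x ∈ Subgroup.zpowers c)
    (H : Subgroup C) {h : C} (hh : h ∈ H) : h ∈ Subgroup.zpowers (c ^ H.index) := by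
  have hcomm : ∀ a b : C, a * b = b * a := by
    intro a b
    obtain ⟨i, rfl⟩ := Subgroup.mem_zpowers_iff.1 (hc a)
    obtain ⟨j, rfl⟩ := Subgroup.mem_zpowers_iff.1 (hc b)
    exact ((Commute.refl c).zpow_zpow i j).eq
  haveI : H.Normal := ⟨fun n hn g => by rw [hcomm g n, mul_inv_cancel_right]; exact hn⟩
  have hd0 : H.index ≠ 0 := Subgroup.index_ne_zero_of_finite
  have hle : Subgroup.zpowers (c ^ H.index) ≤ H := by
    rw [Subgroup.zpowers_le]
    exact Subgroup.pow_index_mem H c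
  have hn : orderOf c = Nat.card C := orderOf_eq_card_of_forall_mem_zpowers hc
  have hdvd : H.index ∣ Nat.card C := Subgroup.index_dvd_card H
  have hcardK : Nat.card (Subgroup.zpowers (c ^ H.index)) * H.index = Nat.card C := by
    rw [Nat.card_zpowers, orderOf_pow' c hd0, hn, Nat.gcd_eq_right hdvd]
    exact Nat.div_mul_cancel hdvd
  have hcardH : Nat.card H * H.index = Nat.card C := Subgroup.card_mul_index H
  have hcard : Nat.card H = Nat.card (Subgroup.zpowers (c ^ H.index)) :=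
    Nat.eq_of_mul_eq_mul_right (Nat.pos_of_ne_zero hd0) (hcardH.trans hcardK.symm)
  have heq : Subgroup.zpowers (c ^ H.index) = H := Subgroup.eq_of_le_of_card_ge hle hcard.le
  rw [heq]
  exact hh

end Cyclic

section CharSub

variable {G : Type*} [Group G] {p k : ℕ} [hp : Fact p.Prime]

/-- the character `χ` as a monoid homomorphism on a subgroup, multiplied by `n` -/
def cfh_charHom {χ : G → ZMod (p ^ k)} (hχ : ptd_IsChar χ) (V : Subgroup G) (n : ℕ) :
    V →* Multiplicative (ZMod (p ^ k)) where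
  toFun v := Multiplicative.ofAdd (n • χ v)
  map_one' := by
    have h1 : χ 1 = 0 := ptn_char_one hχ
    show Multiplicative.ofAdd (n • χ ((1 : V) : G)) = 1
    rw [Subgroup.coe_one, h1, smul_zero]
    rfl
  map_mul' a b := by
    show Multiplicative.ofAdd (n • χ ((a * b : V) : G)) = _
    rw [Subgroup.coe_mul, hχ, smul_add]
    rfl

lemma cfh_charHom_apply {χ : G → ZMod (p ^ k)} (hχ : ptd_IsChar χ) (V : Subgroup G) (n : ℕ)
    (v : V) : cfh_charHom hχ V n v = Multiplicative.ofAdd (n • χ v) := rfl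

lemma cfh_charHom_eq_pow {χ : G → ZMod (p ^ k)} (hχ : ptd_IsChar χ) (V : Subgroup G) (n : ℕ)
    (v : V) : cfh_charHom hχ V n v = (cfh_charHom hχ V 1 v) ^ n := by
  rw [cfh_charHom_apply, cfh_charHom_apply, one_smul, ← ofAdd_nsmul]

/-- the subgroup `{v ∈ V | n • χ v = 0}` of `G` -/
def cfh_charSub {χ : G → ZMod (p ^ k)} (hχ : ptd_IsChar χ) (V : Subgroup G) (n : ℕ) :
    Subgroup G := (cfh_charHom hχ V n).ker.map V.subtype

lemma cfh_mem_charSub {χ : G → ZMod (p ^ k)} (hχ : ptd_IsChar χ) (V : Subgroup G) (n : ℕ)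
    (x : G) : x ∈ cfh_charSub hχ V n ↔ x ∈ V ∧ n • χ x = 0 := by
  unfold cfh_charSub
  rw [Subgroup.mem_map]
  constructor
  · rintro ⟨v, hv, rfl⟩
    rw [MonoidHom.mem_ker, cfh_charHom_apply] at hv
    exact ⟨v.2, hv⟩
  · rintro ⟨hx, h0⟩
    refine ⟨⟨x, hx⟩, ?_, rfl⟩
    rw [MonoidHom.mem_ker, cfh_charHom_apply]
    exact congrArg Multiplicative.ofAdd h0

lemma cfh_charSub_le {χ : G → ZMod (p ^ k)} (hχ : ptd_IsChar χ) (V : Subgroup G) (n : ℕ) :
    cfh_charSub hχ V n ≤ V := fun x hx => ((cfh_mem_charSub hχ V n x).1 hx).1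

lemma cfh_charSub_subgroupOf {χ : G → ZMod (p ^ k)} (hχ : ptd_IsChar χ) (V : Subgroup G) (n : ℕ) :
    (cfh_charSub hχ V n).subgroupOf V = (cfh_charHom hχ V n).ker := by
  unfold cfh_charSub
  ext v
  rw [Subgroup.mem_subgroupOf, Subgroup.mem_map]
  constructor
  · rintro ⟨w, hw, hwv⟩
    have : w = v := Subtype.ext hwv
    rwa [← this]
  · intro hv
    exact ⟨v, hv, rfl⟩

instance cfh_charSub_normal {χ : G → ZMod (p ^ k)} (hχ : ptd_IsChar χ) (V : Subgroup G) (n : ℕ) :
    ((cfh_charSub hχ V n).subgroupOf V).Normal := by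
  rw [cfh_charSub_subgroupOf]
  infer_instance

lemma cfh_charSub_relIndex {χ : G → ZMod (p ^ k)} (hχ : ptd_IsChar χ) (V : Subgroup G) (n : ℕ) :
    (cfh_charSub hχ V n).relIndex V = Nat.card (cfh_charHom hχ V n).range := by
  rw [Subgroup.relIndex, cfh_charSub_subgroupOf, Subgroup.index_ker]

/-- `ker χ ∩ V` is `cfh_charSub` for `n = 1` -/
lemma cfh_charKer_relIndex {χ : G → ZMod (p ^ k)} (hχ : ptd_IsChar χ) (V : Subgroup G) :
    (ptn_charKer hχ).relIndex V = Nat.card (cfh_charHom hχ V 1).range := by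
  rw [← cfh_charSub_relIndex, Subgroup.relIndex, Subgroup.relIndex]
  congr 1
  ext v
  rw [Subgroup.mem_subgroupOf, Subgroup.mem_subgroupOf, cfh_mem_charSub, one_smul,
    ptn_mem_charKer]
  exact ⟨fun h => ⟨v.2, h⟩, fun h => h.2⟩

/-- the relative index `[V : V ∩ ker χ]` is a power of `p` -/
lemma cfh_charKer_relIndex_eq_pow {χ : G → ZMod (p ^ k)} (hχ : ptd_IsChar χ) (V : Subgroup G) :
    ∃ j ≤ k, (ptn_charKer hχ).relIndex V = p ^ j := by
  haveI : NeZero (p ^ k) := ⟨pow_ne_zero k hp.out.ne_zero⟩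
  rw [cfh_charKer_relIndex]
  have h1 := Subgroup.card_subgroup_dvd_card (cfh_charHom hχ V 1).range
  rw [Nat.card_eq_fintype_card (α := Multiplicative (ZMod (p ^ k))), Fintype.card_multiplicative,
    ZMod.card] at h1
  exact (Nat.dvd_prime_pow hp.out).1 h1

/-- **The index-`p` subgroup**: if `N = [V : V ∩ ker χ] ≠ 1`, then `V' = {v ∈ V | (N/p) • χ v = 0}`
has index `p` in `V`. -/
theorem cfh_charSub_relIndex_eq {χ : G → ZMod (p ^ k)} (hχ : ptd_IsChar χ) (V : Subgroup G)
    (hN : (ptn_charKer hχ).relIndex V ≠ 1) :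
    (cfh_charSub hχ V ((ptn_charKer hχ).relIndex V / p)).relIndex V = p := by
  classical
  haveI : NeZero (p ^ k) := ⟨pow_ne_zero k hp.out.ne_zero⟩
  obtain ⟨j, hjk, hj⟩ := cfh_charKer_relIndex_eq_pow hχ V
  set N := (ptn_charKer hχ).relIndex V with hNdef
  have hj0 : j ≠ 0 := by
    rintro rfl
    exact hN (by rw [hj, pow_zero])
  obtain ⟨i, rfl⟩ := Nat.exists_eq_succ_of_ne_zero hj0
  have hNp : N / p = p ^ i := by
    rw [hj, pow_succ, Nat.mul_div_cancel _ hp.out.pos]
  rw [hNp, cfh_charSub_relIndex]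
  -- the range `R₁` of `χ|V` is cyclic of order `N`
  set R₁ := (cfh_charHom hχ V 1).range with hR₁
  have hcardR₁ : Nat.card R₁ = p ^ (i + 1) := by rw [← hj, hNdef, cfh_charKer_relIndex]
  obtain ⟨y, hy⟩ := IsCyclic.exists_generator (α := R₁)
  have hordy : orderOf y = p ^ (i + 1) := by
    rw [orderOf_eq_card_of_forall_mem_zpowers hy, hcardR₁]
  obtain ⟨v₀, hv₀⟩ := y.2
  -- the range `R` of `p^i • χ|V`
  set R := (cfh_charHom hχ V (p ^ i)).range with hR
  -- every element of `R` is killed by `p`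
  have hkill : ∀ r ∈ R, r ^ p = 1 := by
    rintro _ ⟨v, rfl⟩
    rw [cfh_charHom_eq_pow, ← pow_mul, ← pow_succ, ← hcardR₁]
    have h1 : (⟨cfh_charHom hχ V 1 v, v, rfl⟩ : R₁) ^ Nat.card R₁ = 1 := pow_card_eq_one'
    exact congrArg Subtype.val h1
  -- `R` contains a nontrivial element
  have hne : cfh_charHom hχ V (p ^ i) v₀ ≠ 1 := by
    rw [cfh_charHom_eq_pow, hv₀]
    have h1 : y ^ p ^ i ≠ 1 := by
      refine pow_ne_one_of_lt_orderOf (pow_ne_zero i hp.out.ne_zero) ?_
      rw [hordy]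
      exact Nat.pow_lt_pow_right hp.out.one_lt (Nat.lt_succ_self i)
    intro h2
    apply h1
    apply Subtype.ext
    rw [Subgroup.coe_pow, h2]
    rfl
  -- lower bound
  have hlow : p ∣ Nat.card R := by
    have hr : cfh_charHom hχ V (p ^ i) v₀ ∈ R := ⟨v₀, rfl⟩
    have h1 : orderOf (cfh_charHom hχ V (p ^ i) v₀) = p :=
      orderOf_eq_prime (hkill _ hr) hne
    have h2 := Subgroup.orderOf_dvd_natCard R hr
    rwa [h1] at h2
  -- upper bound
  have hup : Nat.card R ≤ p := by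
    have h1 := IsCyclic.card_pow_eq_one_le (α := Multiplicative (ZMod (p ^ k))) hp.out.pos
    refine le_trans ?_ h1
    have h2 : Nat.card R = (R : Set (Multiplicative (ZMod (p ^ k)))).ncard :=
      Nat.card_coe_set_eq _
    rw [h2, Set.ncard_eq_toFinset_card']
    refine Finset.card_le_card fun r hr => ?_
    rw [Set.mem_toFinset] at hr
    rw [Finset.mem_filter]
    exact ⟨Finset.mem_univ _, hkill r hr⟩
  exact le_antisymm hup (Nat.le_of_dvd Nat.card_pos hlow)

/-- **Exact order outside the index-`p` subgroup**. -/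
theorem cfh_dvd_of_notMem_charSub {χ : G → ZMod (p ^ k)} (hχ : ptd_IsChar χ) (V : Subgroup G)
    (hN : (ptn_charKer hχ).relIndex V ≠ 1) {x : G} (hxV : x ∈ V)
    (hx : x ∉ cfh_charSub hχ V ((ptn_charKer hχ).relIndex V / p)) {c : ZMod (p ^ k)}
    (hc : χ x ∈ AddSubgroup.zmultiples c) {m : ℤ} (hm : m • c = 0) :
    (((ptn_charKer hχ).relIndex V : ℕ) : ℤ) ∣ m := by
  haveI : NeZero (p ^ k) := ⟨pow_ne_zero k hp.out.ne_zero⟩
  obtain ⟨j, hjk, hj⟩ := cfh_charKer_relIndex_eq_pow hχ V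
  have hj0 : j ≠ 0 := by
    rintro rfl
    exact hN (by rw [hj, pow_zero])
  obtain ⟨i, rfl⟩ := Nat.exists_eq_succ_of_ne_zero hj0
  have hNp : (ptn_charKer hχ).relIndex V / p = p ^ i := by
    rw [hj, pow_succ, Nat.mul_div_cancel _ hp.out.pos]
  rw [hNp, cfh_mem_charSub, not_and] at hx
  have hx' := hx hxV
  obtain ⟨t, ht⟩ := AddSubgroup.mem_zmultiples_iff.1 hc
  -- `m • χ x = 0`
  have h1 : m • χ x = 0 := by
    rw [← ht, smul_comm, hm, smul_zero]
  -- the order of `χ x` is a power of `p`, larger than `p ^ i`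
  have h2 : addOrderOf (χ x) ∣ p ^ k := by
    rw [addOrderOf_dvd_iff_nsmul_eq_zero]
    have := ZMod.natCast_self (p ^ k)
    rw [nsmul_eq_mul, this, zero_mul]
  obtain ⟨s, -, hs⟩ := (Nat.dvd_prime_pow hp.out).1 h2
  have h3 : ¬ addOrderOf (χ x) ∣ p ^ i := by
    rw [addOrderOf_dvd_iff_nsmul_eq_zero]
    exact hx'
  have h4 : i + 1 ≤ s := by
    by_contra hlt
    apply h3
    rw [hs]
    exact pow_dvd_pow p (by omega)
  have h5 : ((addOrderOf (χ x) : ℕ) : ℤ) ∣ m := by
    rw [addOrderOf_dvd_iff_zsmul_eq_zero]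
    exact h1
  rw [hj]
  refine Dvd.dvd.trans ?_ h5
  rw [hs]
  exact_mod_cast pow_dvd_pow p h4

end CharSub

end Fermat.Agent.Lib.PT
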