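/-
S55 (Poitou–Tate long haul), (H-cyc) part B: a non-split prime in the embedding model.

For a Galois extension `L/F` of number fields of prime degree `p` and a finite set `T` of rational
primes there are a prime `q ∉ T` and a `q`-adic embedding `σ` of `L` whose decomposition group is
all of `Gal(L/F)`: for every `γ ∈ Gal(L/F)` there is `τ ∈ G_q` with `σ ∘ γ = τ ∘ σ`.
(From helper2's `ptk_infinite_nonsplit` and the prime/embedding dictionary of `Place*`.)
-/
import Fermat.Agent.Lib.PT.NonSplit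
import Fermat.Agent.Lib.PT.PlaceD
import Fermat.Agent.Lib.PT.GPlaceLocE

set_option autoImplicit false
set_option linter.unusedSectionVars false
set_option linter.style.haveILetI false

noncomputable section

namespace Fermat.Agent.Lib.PT

open IsDedekindDomain NumberField

variable (F L : Type*) [Field F] [NumberField F] [Field L] [NumberField L] [Algebra F L]

/-- a prime with a prime of different norm above it, in a Galois extension of prime degree, has
only one prime above it -/
theorem cfh_above_ncard_eq_one_of_absNorm_ne [IsGalois F L] {p : ℕ} (hp : p.Prime)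
    (hdeg : Module.finrank F L = p) (v : HeightOneSpectrum (𝓞 F)) (w : HeightOneSpectrum (𝓞 L))
    (hw : w.asIdeal.LiesOver v.asIdeal)
    (hne : Ideal.absNorm w.asIdeal ≠ Ideal.absNorm v.asIdeal) :
    (cfh_above F L v).ncard = 1 := by
  rcases cfh_above_ncard_eq_one_or F L hp hdeg v with h | h
  · exact h
  · exfalso
    have hG : IsGaloisGroup Gal(L/F) (𝓞 F) (𝓞 L) :=
      IsGaloisGroup.of_isFractionRing Gal(L/F) (𝓞 F) (𝓞 L) F L
    have h1 := Ideal.ncard_primesOver_mul_ramificationIdxIn_mul_inertiaDegIn v.asIdeal (𝓞 L)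
      Gal(L/F)
    rw [IsGalois.card_aut_eq_finrank, hdeg, ← cfh_above_ncard, h] at h1
    have h2 : v.asIdeal.ramificationIdxIn (𝓞 L) * v.asIdeal.inertiaDegIn (𝓞 L) = 1 := by
      have := Nat.eq_of_mul_eq_mul_left hp.pos (h1.trans (mul_one p).symm)
      exact this
    have h3 : v.asIdeal.inertiaDegIn (𝓞 L) = 1 := Nat.eq_one_of_mul_eq_one_left h2
    haveI := hw
    have h4 := Ideal.inertiaDegIn_eq_inertiaDeg v.asIdeal w.asIdeal Gal(L/F)
    have h5 := Ideal.absNorm_pow_inertiaDeg v.asIdeal w.asIdeal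
    rw [← h4, h3, pow_one] at h5
    exact hne h5.symm

/-- **Non-split prime, embedding form**: there are `q ∉ T` and a `q`-adic embedding `σ` of `L`
such that every `γ ∈ Gal(L/F)` is in the decomposition group of `σ`. -/
theorem cfh_exists_full_decomp [IsGalois F L] {p : ℕ} (hp : p.Prime)
    (hdeg : Module.finrank F L = p) (T : Finset Nat.Primes) :
    ∃ (q : Nat.Primes) (σ : ptj_Emb L q), q ∉ T ∧
      ∀ γ : L ≃ₐ[F] L, ∃ τ : ptj_Gq q, ptj_pre γ σ = ptj_post τ σ := by
  have hinf := ptk_infinite_nonsplit F L hp hdeg (cfh_primesOver F T)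
  obtain ⟨v, hvT, -, 𝔔, h𝔔p, h𝔔lo, hne⟩ := hinf.nonempty
  have h𝔔0 : 𝔔 ≠ ⊥ := by
    rintro rfl
    have : v.asIdeal = Ideal.under (𝓞 F) (⊥ : Ideal (𝓞 L)) := h𝔔lo.over
    rw [Ideal.under_bot] at this
    exact v.ne_bot this
  set w : HeightOneSpectrum (𝓞 L) := ⟨𝔔, h𝔔p, h𝔔0⟩ with hw
  have hwlo : w.asIdeal.LiesOver v.asIdeal := h𝔔lo
  have hn1 := cfh_above_ncard_eq_one_of_absNorm_ne F L hp hdeg v w hwlo hne
  set σ : ptj_Emb L (ptk_below w) := ptk_sig w with hσ
  have hσw : cfh_primeOf σ = w := ptk_primeOf_sig w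
  have hσv : cfh_primeOf (ptj_resEmb (F := F) σ) = v := by
    rw [cfh_primeOf_resEmb, hσw]
    exact cfh_under_eq_of_liesOver F hwlo
  refine ⟨ptk_below w, σ, fun hq => hvT ?_, fun γ => ?_⟩
  · rw [← hσv]
    exact (cfh_primeOf_mem_primesOver _).2 hq
  · have := cfh_mem_decomp_of_ncard_eq_one (F := F) σ (by rw [hσv]; exact hn1) γ
    exact this

end Fermat.Agent.Lib.PT

end
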