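/-
S55 (Poitou–Tate long haul), (H-cyc) part C: a non-split prime in the BIG model.

For open subgroups `V' ≤ V` of `G_ℚ` (for the `S`-levels) with `V'` normal of prime index `p` in
`V`, and a finite set `T` of primes, there are `q ∉ T`, `g ∈ G_ℚ` and `τ ∈ G_q` with
`g⁻¹ r_q(τ) g ∈ V ∖ V'`.
-/
import Fermat.Agent.Lib.PT.HCycB
import Fermat.Agent.Lib.PT.GModInvC

set_option autoImplicit false
set_option linter.unusedVariables false
set_option linter.unusedSectionVars false
set_option linter.style.haveILetI false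

noncomputable section

namespace Fermat.Agent.Lib.PT

open IntermediateField NumberField

local notation "Qbar" => AlgebraicClosure ℚ
local notation "GQ" => (AlgebraicClosure ℚ ≃ₐ[ℚ] AlgebraicClosure ℚ)

variable {S : Finset Nat.Primes}

/-- **(CHEB-big)**: a non-split prime for a normal subgroup of prime index of an open subgroup. -/
theorem cfh_cheb_big {p : ℕ} (hp : p.Prime) {V V' : Subgroup GQ}
    (hV : (pta_levelsS S).IsOpen V) (hV' : (pta_levelsS S).IsOpen V') (hle : V' ≤ V)
    (hn : (V'.subgroupOf V).Normal) (hidx : V'.relIndex V = p) (T : Finset Nat.Primes) :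
    ∃ (q : Nat.Primes) (g : GQ) (τ : ptj_Gq q), q ∉ T ∧
      g⁻¹ * localGaloisToGlobal (q : ℕ) τ * g ∈ V ∧
      g⁻¹ * localGaloisToGlobal (q : ℕ) τ * g ∉ V' := by
  haveI : IsAlgClosure ℚ Qbar := ⟨inferInstance, AlgebraicClosure.isAlgebraic ℚ⟩
  haveI : IsGalois ℚ Qbar := IsAlgClosure.isGalois ℚ Qbar
  set E : IntermediateField ℚ Qbar := IntermediateField.fixedField V with hE
  set E' : IntermediateField ℚ Qbar := IntermediateField.fixedField V' with hE'
  have hEu : E.IsUnramifiedOutside S := ptj_fixedField_isUnramifiedOutside hV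
  have hE'u : E'.IsUnramifiedOutside S := ptj_fixedField_isUnramifiedOutside hV'
  haveI : FiniteDimensional ℚ E := hEu.1
  haveI : FiniteDimensional ℚ E' := hE'u.1
  have hfixE : E.fixingSubgroup = V := ptj_fixingSubgroup_fixedField hV
  have hfixE' : E'.fixingSubgroup = V' := ptj_fixingSubgroup_fixedField hV'
  have hEE' : E ≤ E' := by
    intro x hx
    rw [hE, IntermediateField.mem_fixedField_iff] at hx
    rw [hE', IntermediateField.mem_fixedField_iff]
    exact fun g hg => hx g (hle hg)
  let L : IntermediateField E Qbar := IntermediateField.extendScalars hEE'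
  -- the degree
  have hdeg : Module.finrank E L = p := by
    have h1 := IntermediateField.relfinrank_mul_relfinrank (bot_le : (⊥ : IntermediateField ℚ Qbar) ≤ E)
      hEE'
    have hA : Module.finrank ℚ E = V.index := by
      rw [IntermediateField.finrank_eq_fixingSubgroup_index, hfixE]
    have hB : Module.finrank ℚ E' = V'.index := by
      rw [IntermediateField.finrank_eq_fixingSubgroup_index, hfixE']
    rw [IntermediateField.relfinrank_bot_left, IntermediateField.relfinrank_bot_left,
      IntermediateField.relfinrank_eq_finrank_of_le hEE', hA, hB] at h1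
    have h2 := Subgroup.relIndex_mul_index hle
    rw [hidx] at h2
    have hV0 : V.index ≠ 0 := by
      haveI := hV.finiteIndex
      exact Subgroup.FiniteIndex.index_ne_zero
    have h3 : V.index * Module.finrank E L = V.index * p := by
      rw [h1, ← h2, mul_comm]
    exact Nat.eq_of_mul_eq_mul_left (Nat.pos_of_ne_zero hV0) h3
  haveI : FiniteDimensional E L :=
    Module.finite_of_finrank_pos (by rw [hdeg]; exact hp.pos)
  haveI : NumberField E := ⟨⟩
  haveI : FiniteDimensional ℚ L := Module.Finite.trans E L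
  haveI : NumberField L := ⟨⟩
  haveI : Algebra.IsAlgebraic E Qbar := Algebra.IsAlgebraic.tower_top (K := ℚ) E
  haveI : IsAlgClosure E Qbar := ⟨inferInstance, inferInstance⟩
  haveI : IsGalois E Qbar := IsAlgClosure.isGalois E Qbar
  -- normality
  haveI : Normal E L := by
    rw [IntermediateField.normal_iff_forall_map_le']
    intro σ x hx
    obtain ⟨y, hy, rfl⟩ := hx
    have hy' : y ∈ E' := hy
    show (σ : Qbar →ₐ[E] Qbar) y ∈ E'
    rw [hE', IntermediateField.mem_fixedField_iff] at hy' ⊢
    intro v' hv'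
    let s : GQ := σ.restrictScalars ℚ
    have hs : s ∈ V := by
      rw [← hfixE, IntermediateField.mem_fixingSubgroup_iff]
      intro e he
      exact σ.commutes ⟨e, he⟩
    have hconj : s⁻¹ * v' * s ∈ V' := by
      have h1 := hn.conj_mem ⟨v', hle hv'⟩ (Subgroup.mem_subgroupOf.2 hv') ⟨s⁻¹, V.inv_mem hs⟩
      rw [Subgroup.mem_subgroupOf] at h1
      simpa using h1
    have h2 := hy' (s⁻¹ * v' * s) hconj
    have h3 : v' (s y) = s y := by
      have h4 := congrArg s h2
      rw [AlgEquiv.mul_apply, AlgEquiv.mul_apply] at h4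
      have h5 : s (s⁻¹ (v' (s y))) = v' (s y) := AlgEquiv.apply_symm_apply s _
      exact h5.symm.trans h4
    exact h3
  haveI : IsGalois E L := ⟨⟩
  -- a non-split prime
  obtain ⟨q, σ, hqT, hdec⟩ := cfh_exists_full_decomp E L hp hdeg T
  -- a nontrivial element of `Gal(L/E)`
  have hcard : Nat.card (L ≃ₐ[E] L) = p := by
    rw [IsGalois.card_aut_eq_finrank, hdeg]
  haveI : Nontrivial (L ≃ₐ[E] L) := by
    rw [← Finite.one_lt_card_iff_nontrivial, hcard]
    exact hp.one_lt
  obtain ⟨γ, hγ⟩ := exists_ne (1 : L ≃ₐ[E] L)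
  obtain ⟨y, hy⟩ : ∃ y : L, γ y ≠ y := by
    by_contra hcon
    exact hγ (AlgEquiv.ext fun z => by_contra fun hz => hcon ⟨z, hz⟩)
  obtain ⟨τ, hτ⟩ := hdec γ
  -- extend the embedding to `Q̄`
  obtain ⟨σt, hσt⟩ := ptj_resEmb_surjective (F := L) (K := Qbar) σ
  obtain ⟨g, hg⟩ := ptj_exists_pre_eq_Qbar (pta_iota q) σt
  have hσ_apply : ∀ z : L, σ z = padicEmbedding (q : ℕ) (g (z : Qbar)) := by
    intro z
    rw [← hσt, hg]
    rfl
  -- the action of `x = g⁻¹ r(τ) g` on `E'` is `γ`
  have hact : ∀ z : L, (g⁻¹ * localGaloisToGlobal (q : ℕ) τ * g) (z : Qbar) = ((γ z : L) : Qbar) := by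
    intro z
    have hinj : Function.Injective (padicEmbedding (q : ℕ)) := (padicEmbedding (q : ℕ)).injective
    apply g.injective
    apply hinj
    have h1 : padicEmbedding (q : ℕ) (g ((γ z : L) : Qbar)) = τ (σ z) := by
      rw [← hσ_apply]
      exact congrArg (fun ρ : ptj_Emb L q => ρ z) hτ
    rw [h1, hσ_apply, ← padicEmbedding_localGaloisToGlobal]
    congr 1
    rw [AlgEquiv.mul_apply, AlgEquiv.mul_apply]
    exact AlgEquiv.apply_symm_apply g _
  refine ⟨q, g, τ, hqT, ?_, ?_⟩
  · rw [← hfixE, IntermediateField.mem_fixingSubgroup_iff]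
    intro e he
    have h1 := hact (algebraMap E L ⟨e, he⟩)
    rw [γ.commutes] at h1
    exact h1
  · rw [← hfixE', IntermediateField.mem_fixingSubgroup_iff]
    intro hcon
    apply hy
    apply Subtype.ext
    rw [← hact y]
    exact hcon (y : Qbar) y.2

end Fermat.Agent.Lib.PT

end
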