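/-
S55 (Poitou–Tate long haul), (H-cyc) part D: the idele supported at one place of `E = Q̄^V` and its
norm to `ℚ`.

For an open subgroup `V` of `G_ℚ`, a prime `q`, `g ∈ G_ℚ` and `c ∈ ℚ_qˣ` there is a `V`-invariant
smooth idele `a` with `∑_{t ∈ G/V} t • a` trivial at all `q' ≠ q` and equal to `c ^ d` at (the
base embedding of) `q`, `d` the index in `G_q` of `H = {τ | g⁻¹ r_q(τ) g ∈ V}`.
-/
import Fermat.Agent.Lib.PT.GModInvC

set_option autoImplicit false
set_option linter.unusedVariables false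
set_option linter.unusedSectionVars false
set_option linter.style.haveILetI false

noncomputable section

namespace Fermat.Agent.Lib.PT

open IntermediateField

local notation "Qbar" => AlgebraicClosure ℚ
local notation "GQ" => (AlgebraicClosure ℚ ≃ₐ[ℚ] AlgebraicClosure ℚ)

/-! ### The embeddings `ι_q ∘ x` restricted to `E` -/

section Psi

variable (E : IntermediateField ℚ Qbar) (q : Nat.Primes)

/-- the restriction to `E` of the embedding `ι_q ∘ x` -/
def cfh_Psi (x : GQ) : ptj_Emb E q := ptj_resEmb (F := E) (ptj_pre x (pta_iota q))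

lemma cfh_Psi_apply (x : GQ) (e : E) :
    cfh_Psi E q x e = padicEmbedding (q : ℕ) (x (e : Qbar)) := rfl

lemma cfh_Psi_mul_of_mem (x : GQ) {v : GQ} (hv : v ∈ E.fixingSubgroup) :
    cfh_Psi E q (x * v) = cfh_Psi E q x := by
  ext e
  rw [cfh_Psi_apply, cfh_Psi_apply, AlgEquiv.mul_apply,
    (IntermediateField.mem_fixingSubgroup_iff _ _).1 hv e e.2]

lemma cfh_Psi_local (τ : ptj_Gq q) (x : GQ) :
    cfh_Psi E q (localGaloisToGlobal (q : ℕ) τ * x) = ptj_post τ (cfh_Psi E q x) := by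
  ext e
  rw [cfh_Psi_apply, AlgEquiv.mul_apply, padicEmbedding_localGaloisToGlobal]
  rfl

lemma cfh_Psi_eq_iff (x x' : GQ) :
    cfh_Psi E q x = cfh_Psi E q x' ↔ x⁻¹ * x' ∈ E.fixingSubgroup := by
  have hinj : Function.Injective (padicEmbedding (q : ℕ)) := (padicEmbedding (q : ℕ)).injective
  rw [IntermediateField.mem_fixingSubgroup_iff]
  constructor
  · intro h e he
    have h1 := congrArg (fun ρ : ptj_Emb E q => ρ ⟨e, he⟩) h
    have h2 : x e = x' e := hinj h1
    rw [AlgEquiv.mul_apply, ← h2]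
    exact AlgEquiv.symm_apply_apply x e
  · intro h
    ext e
    rw [cfh_Psi_apply, cfh_Psi_apply]
    congr 1
    have h1 := h e e.2
    rw [AlgEquiv.mul_apply] at h1
    have h2 := congrArg x h1
    rw [← h2]
    exact AlgEquiv.apply_symm_apply x _

lemma cfh_Psi_out {V : Subgroup GQ} (hfix : E.fixingSubgroup = V) (x : GQ) :
    cfh_Psi E q ((QuotientGroup.mk x : GQ ⧸ V).out) = cfh_Psi E q x := by
  obtain ⟨h, hh⟩ := QuotientGroup.mk_out_eq_mul V x
  rw [hh]
  exact cfh_Psi_mul_of_mem E q x (by rw [hfix]; exact h.2)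

end Psi

/-! ### The local stabiliser -/

/-- `H = {τ ∈ G_q | g⁻¹ r_q(τ) g ∈ V}`: the decomposition group at the place `ι_q ∘ g` of the
fixed field of `V` -/
def cfh_stab (V : Subgroup GQ) (q : Nat.Primes) (g : GQ) : Subgroup (ptj_Gq q) where
  carrier := {τ | g⁻¹ * localGaloisToGlobal (q : ℕ) τ * g ∈ V}
  one_mem' := by
    show g⁻¹ * localGaloisToGlobal (q : ℕ) 1 * g ∈ V
    rw [map_one, mul_one, inv_mul_cancel]
    exact V.one_mem
  mul_mem' := fun {a b} ha hb => by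
    show g⁻¹ * localGaloisToGlobal (q : ℕ) (a * b) * g ∈ V
    have : g⁻¹ * localGaloisToGlobal (q : ℕ) (a * b) * g =
        (g⁻¹ * localGaloisToGlobal (q : ℕ) a * g) * (g⁻¹ * localGaloisToGlobal (q : ℕ) b * g) := by
      rw [map_mul]; group
    rw [this]
    exact V.mul_mem ha hb
  inv_mem' := fun {a} ha => by
    show g⁻¹ * localGaloisToGlobal (q : ℕ) a⁻¹ * g ∈ V
    have : g⁻¹ * localGaloisToGlobal (q : ℕ) a⁻¹ * g =
        (g⁻¹ * localGaloisToGlobal (q : ℕ) a * g)⁻¹ := by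
      rw [map_inv]; group
    rw [this]
    exact V.inv_mem ha

lemma cfh_mem_stab {V : Subgroup GQ} {q : Nat.Primes} {g : GQ} {τ : ptj_Gq q} :
    τ ∈ cfh_stab V q g ↔ g⁻¹ * localGaloisToGlobal (q : ℕ) τ * g ∈ V := Iff.rfl

/-- the index of the local stabiliser is the number of cosets `t ∈ G/V` in the `G_q`-orbit of
`g V` -/
theorem cfh_stab_index (V : Subgroup GQ) (q : Nat.Primes) (g : GQ) :
    (cfh_stab V q g).index =
      {t : GQ ⧸ V | ∃ τ : ptj_Gq q,
        t = QuotientGroup.mk (localGaloisToGlobal (q : ℕ) τ * g)}.ncard := by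
  letI : MulAction (ptj_Gq q) (GQ ⧸ V) :=
    MulAction.compHom (GQ ⧸ V) (localGaloisToGlobal (q : ℕ))
  have hsmul : ∀ (τ : ptj_Gq q) (x : GQ), τ • (QuotientGroup.mk x : GQ ⧸ V) =
      QuotientGroup.mk (localGaloisToGlobal (q : ℕ) τ * x) := fun τ x => rfl
  have h1 := MulAction.index_stabilizer (ptj_Gq q) (QuotientGroup.mk g : GQ ⧸ V)
  have h2 : MulAction.stabilizer (ptj_Gq q) (QuotientGroup.mk g : GQ ⧸ V) = cfh_stab V q g := by
    ext τ
    rw [MulAction.mem_stabilizer_iff, hsmul, cfh_mem_stab, eq_comm, QuotientGroup.eq, ← mul_assoc]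
  rw [h2] at h1
  rw [h1]
  congr 1
  ext t
  constructor
  · rintro ⟨τ, rfl⟩
    exact ⟨τ, hsmul τ g⟩
  · rintro ⟨τ, rfl⟩
    exact ⟨τ, (hsmul τ g)⟩

/-! ### The idele and its norm -/

variable {S : Finset Nat.Primes}

attribute [local instance] Subgroup.fintypeQuotientOfFiniteIndex

/-- an element of `ℚ_qˣ` as an element of the local field `E_φ` -/
def cfh_baseU {E : Type*} [Field E] {q : Nat.Primes} (φ : ptj_Emb E q) (c : ℚ_[(q : ℕ)]ˣ) :
    ptj_KσU φ :=
  ⟨Units.map (algebraMap ℚ_[(q : ℕ)] (ptj_Om q) : ℚ_[(q : ℕ)] →* ptj_Om q) c,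
    (ptj_Kσ φ).algebraMap_mem _⟩

lemma cfh_tauU_baseU {E : Type*} [Field E] {q : Nat.Primes} (φ : ptj_Emb E q)
    (c : ℚ_[(q : ℕ)]ˣ) (τ : ptj_Gq q) :
    ptj_tauU τ ((cfh_baseU φ c : ptj_KσU φ) : (ptj_Om q)ˣ) = (cfh_baseU φ c : (ptj_Om q)ˣ) := by
  ext
  rw [ptj_tauU_coe]
  exact τ.commutes _

/-- the value of the idele `locIncl φ c` (`c ∈ ℚ_qˣ`) at an embedding in the orbit of `φ` -/
lemma cfh_locIncl_baseU_of_sameOrbit {E : Type*} [Field E] {q : Nat.Primes} (φ ψ : ptj_Emb E q)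
    (c : ℚ_[(q : ℕ)]ˣ) (h : ptj_SameOrbit φ ψ) :
    ((ptj_locIncl φ (cfh_baseU φ c) : ptj_J E) : ptj_Amb E) q ψ =
      Units.map (algebraMap ℚ_[(q : ℕ)] (ptj_Om q) : ℚ_[(q : ℕ)] →* ptj_Om q) c := by
  obtain ⟨τ, rfl⟩ := h
  rw [ptj_locIncl_apply_self, ptj_locFun_post (cfh_baseU φ c).2, cfh_tauU_baseU]
  rfl

lemma cfh_locIncl_baseU_of_not {E : Type*} [Field E] {q : Nat.Primes} (φ ψ : ptj_Emb E q)
    (c : ℚ_[(q : ℕ)]ˣ) (h : ¬ ptj_SameOrbit φ ψ) :
    ((ptj_locIncl φ (cfh_baseU φ c) : ptj_J E) : ptj_Amb E) q ψ = 1 := by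
  rw [ptj_locIncl_apply_self, ptj_locFun_of_not _ h]

open scoped Classical in
/-- **The idele supported at one place and its norm.** -/
theorem cfh_exists_idele {V : Subgroup GQ} (hV : (pta_levelsS S).IsOpen V) [V.FiniteIndex]
    (q : Nat.Primes) (g : GQ) (c : ℚ_[(q : ℕ)]ˣ) :
    ∃ a : ptj_AJ S, (∀ v ∈ V, ptj_JSrep S v a = a) ∧
      (∀ q' : Nat.Primes, q' ≠ q → ptj_evq S q' (∑ t : GQ ⧸ V, ptj_JSrep S t.out a) = 0) ∧
      ptj_evq S q (∑ t : GQ ⧸ V, ptj_JSrep S t.out a) = (cfh_stab V q g).index •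
        Additive.ofMul
          (Units.map (algebraMap ℚ_[(q : ℕ)] (ptj_Om q) : ℚ_[(q : ℕ)] →* ptj_Om q) c) := by
  set E : IntermediateField ℚ Qbar := IntermediateField.fixedField V with hE
  have hEu : E.IsUnramifiedOutside S := ptj_fixedField_isUnramifiedOutside hV
  have hfix : E.fixingSubgroup = V := ptj_fixingSubgroup_fixedField hV
  set φ : ptj_Emb E q := cfh_Psi E q g with hφ
  set aE : ptj_J E := ptj_locIncl φ (cfh_baseU φ c) with haE
  set a : ptj_AJ S := Additive.ofMul (ptj_upS S E (ptj_isUnrE_field E hEu) aE) with ha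
  -- the coordinates of the translates of `a`
  have hcoord : ∀ (q' : Nat.Primes) (x : GQ), ptj_evq S q' (ptj_JSrep S x a) =
      Additive.ofMul ((aE : ptj_Amb E) q' (cfh_Psi E q' x)) := fun q' x => rfl
  refine ⟨a, fun v hv => ?_, fun q' hq' => ?_, ?_⟩
  · rw [ptj_JSrep_apply]
    apply congrArg Additive.ofMul
    apply Subtype.ext
    rw [ha, toMul_ofMul, ptj_JS_smul_coe, ptj_upS_coe]
    have hv' : v ∈ E.fixingSubgroup := by rw [hfix]; exact hv
    exact (ptj_mem_range_up_field_iff E _).1 ⟨aE, rfl⟩ v hv'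
  · rw [map_sum]
    refine Finset.sum_eq_zero fun t _ => ?_
    rw [hcoord, haE, ptj_locIncl_apply_of_ne _ _ hq']
    rfl
  · rw [map_sum]
    -- each term
    have hterm : ∀ t : GQ ⧸ V, ptj_evq S q (ptj_JSrep S t.out a) =
        if t ∈ {t : GQ ⧸ V | ∃ τ : ptj_Gq q,
          t = QuotientGroup.mk (localGaloisToGlobal (q : ℕ) τ * g)} then
          Additive.ofMul
            (Units.map (algebraMap ℚ_[(q : ℕ)] (ptj_Om q) : ℚ_[(q : ℕ)] →* ptj_Om q) c)
        else 0 := by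
      intro t
      rw [hcoord]
      split_ifs with ht
      · obtain ⟨τ, rfl⟩ := ht
        rw [cfh_Psi_out E q hfix, cfh_Psi_local, haE,
          cfh_locIncl_baseU_of_sameOrbit φ _ c ⟨τ, rfl⟩]
      · rw [haE, cfh_locIncl_baseU_of_not φ _ c]
        · rfl
        · rintro ⟨τ, hτ⟩
          apply ht
          refine ⟨τ, ?_⟩
          rw [hφ, ← cfh_Psi_local, cfh_Psi_eq_iff, hfix] at hτ
          have h1 : (QuotientGroup.mk t.out : GQ ⧸ V) =
              QuotientGroup.mk (localGaloisToGlobal (q : ℕ) τ * g) := QuotientGroup.eq.2 hτ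
          rw [QuotientGroup.out_eq'] at h1
          exact h1
    rw [Finset.sum_congr rfl fun t _ => hterm t, Finset.sum_ite, Finset.sum_const_zero, add_zero,
      Finset.sum_const, cfh_stab_index, Set.ncard_eq_toFinset_card']
    congr 2
    ext t
    simp

end Fermat.Agent.Lib.PT

end
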