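/-
S55 (Poitou–Tate long haul), (H-cyc) part E: the local Frobenius argument.

`q ∉ S`, `V` open in `G_ℚ`, `χ` a level character, `g ∈ G_ℚ`, `H = {τ ∈ G_q | g⁻¹ r_q(τ) g ∈ V}` of
index `d` in `G_q`.  Then there are a finite unramified Galois extension `L/ℚ_q` with `χ ∘ r_q`
trivial on `Gal(Ω_q/L)` and a lift `φ` of the Frobenius of `L` such that
`χ(g⁻¹ r_q(τ) g) ∈ ℤ · (d • χ(r_q φ))` for all `τ ∈ H`:  the image of `H` in the cyclic group
`Gal(L/ℚ_q) = ⟨Frob⟩` is the subgroup of index `d`, generated by `Frob ^ d`.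
-/
import Fermat.Agent.Lib.PT.HCycA
import Fermat.Agent.Lib.PT.HCycD
import Fermat.Agent.Lib.PT.BridgeI
import Fermat.Agent.Lib.PT.LocUnr

set_option autoImplicit false
set_option linter.unusedVariables false
set_option linter.unusedSectionVars false
set_option linter.style.haveILetI false

noncomputable section

namespace Fermat.Agent.Lib.PT

open IntermediateField

local notation "Qbar" => AlgebraicClosure ℚ
local notation "GQ" => (AlgebraicClosure ℚ ≃ₐ[ℚ] AlgebraicClosure ℚ)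

section CharMul

variable {G : Type*} [Group G] {n : ℕ}

/-- a character as a monoid homomorphism to `Multiplicative (ZMod n)` -/
def cfh_charMul {χ : G → ZMod n} (hχ : ptd_IsChar χ) : G →* Multiplicative (ZMod n) where
  toFun x := Multiplicative.ofAdd (χ x)
  map_one' := by
    have h1 : χ 1 = 0 := ptn_char_one hχ
    rw [h1]; rfl
  map_mul' a b := by
    rw [hχ]; rfl

lemma cfh_charMul_apply {χ : G → ZMod n} (hχ : ptd_IsChar χ) (x : G) :
    cfh_charMul hχ x = Multiplicative.ofAdd (χ x) := rfl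

lemma cfh_char_conj {χ : G → ZMod n} (hχ : ptd_IsChar χ) (g x : G) :
    χ (g⁻¹ * x * g) = χ x := by
  have h := congrArg Multiplicative.toAdd
    (show cfh_charMul hχ (g⁻¹ * x * g) = cfh_charMul hχ x by
      rw [map_mul, map_mul, map_inv, mul_comm, ← mul_assoc, mul_inv_cancel, one_mul])
  exact h

lemma cfh_char_zpow_pow {χ : G → ZMod n} (hχ : ptd_IsChar χ) (x : G) (d : ℕ) (i : ℤ) :
    χ ((x ^ d) ^ i) = i • (d • χ x) := by
  have h := congrArg Multiplicative.toAdd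
    (show cfh_charMul hχ ((x ^ d) ^ i) = ((cfh_charMul hχ x) ^ d) ^ i by
      rw [map_zpow, map_pow])
  exact h

end CharMul

variable {S : Finset Nat.Primes}

/-- **The local Frobenius argument.** -/
theorem cfh_local_frob {V : Subgroup GQ} (hV : (pta_levelsS S).IsOpen V) {q : Nat.Primes}
    (hq : q ∉ S) {n : ℕ} {χ : GQ → ZMod n} (hχ : ptd_IsChar χ)
    (hlev : ptd_IsLev₁ (pta_levelsS S) χ) (g : GQ) :
    ∃ (L : IntermediateField ℚ_[(q : ℕ)] (ptj_Om q)) (_ : FiniteDimensional ℚ_[(q : ℕ)] L)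
      (_ : IsGalois ℚ_[(q : ℕ)] L)
      (hinj : Function.Injective (ptl_galRes (q : ℕ) ℚ_[(q : ℕ)] L)) (φ : ptj_Gq q),
      (∀ t ∈ L.fixingSubgroup, χ (localGaloisToGlobal (q : ℕ) t) = 0) ∧
      AlgEquiv.restrictNormalHom (F := ℚ_[(q : ℕ)]) L φ = ptl_frob (q : ℕ) ℚ_[(q : ℕ)] L hinj ∧
      ∀ τ ∈ cfh_stab V q g, χ (g⁻¹ * localGaloisToGlobal (q : ℕ) τ * g) ∈
        AddSubgroup.zmultiples ((cfh_stab V q g).index • χ (localGaloisToGlobal (q : ℕ) φ)) := by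
  obtain ⟨_, ⟨Fχ, hFχ, hstχ, rfl⟩, hχN⟩ := hlev
  obtain ⟨_, ⟨F₂, hF₂, hst₂, rfl⟩, hle₂⟩ := hV
  set F₁ : IntermediateField ℚ Qbar := Fχ ⊔ F₂ with hF₁def
  have hF₁ : F₁.IsUnramifiedOutside S := hFχ.sup hF₂
  have hst₁ : ptg_IsStable F₁ := pta_stable_sup hstχ hst₂
  haveI : FiniteDimensional ℚ F₁ := hF₁.1
  have hfix₁ : F₁.fixingSubgroup ≤ Fχ.fixingSubgroup ⊓ F₂.fixingSubgroup := by
    rw [hF₁def, IntermediateField.fixingSubgroup_sup]
  have hχ0 : ∀ x ∈ F₁.fixingSubgroup, χ x = 0 := by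
    intro x hx
    have h1 := hχN 1 x (hfix₁ hx).1
    rwa [one_mul, ptn_char_one hχ] at h1
  have hnorm₁ : F₁.fixingSubgroup.Normal := pta_normal_fixingSubgroup hst₁
  haveI : Normal ℚ_[(q : ℕ)] (ptg_loc (q : ℕ) F₁) := ptg_loc_normal (q : ℕ) hst₁
  haveI hgal : IsGalois ℚ_[(q : ℕ)] (ptg_loc (q : ℕ) F₁) := ptg_loc_isGalois (q : ℕ) hst₁
  have hinj : Function.Injective (ptl_galRes (q : ℕ) ℚ_[(q : ℕ)] (ptg_loc (q : ℕ) F₁)) :=
    ptg_galRes_injective_of_isUnramifiedOutside hF₁ hst₁ hq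
  have hsurj : Function.Surjective
      (AlgEquiv.restrictNormalHom (F := ℚ_[(q : ℕ)]) (ptg_loc (q : ℕ) F₁)) :=
    AlgEquiv.restrictNormalHom_surjective (ptj_Om q)
  have hker : (AlgEquiv.restrictNormalHom (F := ℚ_[(q : ℕ)]) (K₁ := ptj_Om q)
      (ptg_loc (q : ℕ) F₁)).ker = (ptg_loc (q : ℕ) F₁).fixingSubgroup :=
    IntermediateField.restrictNormalHom_ker _
  obtain ⟨φ, hφ⟩ := hsurj (ptl_frob (q : ℕ) ℚ_[(q : ℕ)] (ptg_loc (q : ℕ) F₁) hinj)
  refine ⟨ptg_loc (q : ℕ) F₁, inferInstance, hgal, hinj, φ, fun t ht => ?_, hφ, fun τ hτ => ?_⟩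
  · exact hχ0 _ ((ptg_mem_fixingSubgroup_loc_iff F₁ t).1 ht)
  · set H := cfh_stab V q g with hH
    set res := AlgEquiv.restrictNormalHom (F := ℚ_[(q : ℕ)]) (K₁ := ptj_Om q)
      (ptg_loc (q : ℕ) F₁) with hres
    have hkerH : res.ker ≤ H := by
      intro t ht
      rw [hker] at ht
      have h1 := (ptg_mem_fixingSubgroup_loc_iff F₁ t).1 ht
      have h2 : g⁻¹ * localGaloisToGlobal (q : ℕ) t * g ∈ F₁.fixingSubgroup := by
        have := hnorm₁.conj_mem _ h1 g⁻¹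
        simpa using this
      exact hle₂ (hfix₁ h2).2
    have hidx : (H.map res).index = H.index := Subgroup.index_map_eq H hsurj hkerH
    have hmem : res τ ∈ H.map res := Subgroup.mem_map_of_mem res hτ
    have hz := cfh_cyclic_mem_zpowers_pow_index
      (ptl_frob (q : ℕ) ℚ_[(q : ℕ)] (ptg_loc (q : ℕ) F₁) hinj)
      (ptl_frob_generates (q : ℕ) ℚ_[(q : ℕ)] (ptg_loc (q : ℕ) F₁) hinj) (H.map res) hmem
    rw [hidx] at hz
    obtain ⟨i, hi⟩ := Subgroup.mem_zpowers_iff.1 hz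
    have h3 : res ((φ ^ H.index) ^ i) = res τ := by
      rw [map_zpow, map_pow, hφ, hi]
    have h4 : τ⁻¹ * (φ ^ H.index) ^ i ∈ res.ker := by
      rw [MonoidHom.mem_ker, map_mul, map_inv, h3, inv_mul_cancel]
    rw [hker] at h4
    have h5 : χ (localGaloisToGlobal (q : ℕ) (τ⁻¹ * (φ ^ H.index) ^ i)) = 0 :=
      hχ0 _ ((ptg_mem_fixingSubgroup_loc_iff F₁ _).1 h4)
    rw [map_mul, hχ, map_inv, ptn_char_inv hχ, map_zpow, map_pow, cfh_char_zpow_pow hχ] at h5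
    rw [cfh_char_conj hχ, AddSubgroup.mem_zmultiples_iff]
    refine ⟨i, ?_⟩
    have h6 := neg_add_eq_zero.1 h5
    exact h6.symm

end Fermat.Agent.Lib.PT

end
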