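/-
S55 (Poitou–Tate long haul), (H-cyc) part F: ASSEMBLY.

`cfh_hcyc`: in the model (`G_ℚ`, `S`-levels, smooth `S`-ideles, lead's localisation family
`ptj_locFam I hUC`), for a level character `χ : G_ℚ → ZMod (p ^ k)` and an open subgroup `V` there is
a `V`-invariant idele `a` such that `INV_V (a · δ(χ|V))` has exact order `[V : V ∩ ker χ]`
(= the field `cyc` of helper5's `ptn_AbsC`).  The only input on the local invariants is the
unramified evaluation `cfh_UnrEval` (helper9's `pti_invG_unr`) at the primes outside `S`.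
-/
import Fermat.Agent.Lib.PT.HCycC
import Fermat.Agent.Lib.PT.HCycE
import Fermat.Agent.Lib.PT.GModInvD
import Fermat.Agent.Lib.PT.AdtCorF
import Fermat.Agent.Lib.PT.BrgT
import Fermat.Agent.Lib.PT.LocUnrCoh

set_option autoImplicit false
set_option linter.unusedVariables false
set_option linter.unusedSectionVars false
set_option linter.style.haveILetI false

noncomputable section

namespace Fermat.Agent.Lib.PT

open IntermediateField

local notation "Qbar" => AlgebraicClosure ℚ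
local notation "GQ" => (AlgebraicClosure ℚ ≃ₐ[ℚ] AlgebraicClosure ℚ)

attribute [local instance] Subgroup.fintypeQuotientOfFiniteIndex

/-- **(L-unr)** as a hypothesis on a family of local invariants: the unramified evaluation
`inv_q (a · δχ) = v(a) · χ(φ) / n` at the primes `q ∉ S` (helper9's `pti_invG_unr`). -/
def cfh_UnrEval (p : ℕ) [Fact p.Prime] (S : Finset Nat.Primes) (I : ptj_LocInv (ptn_T p)) : Prop :=
  ∀ (q : Nat.Primes), q ∉ S → ∀ (L : IntermediateField ℚ_[(q : ℕ)] (ptj_Om q))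
    [FiniteDimensional ℚ_[(q : ℕ)] L] [IsGalois ℚ_[(q : ℕ)] L]
    (hinj : Function.Injective (ptl_galRes (q : ℕ) ℚ_[(q : ℕ)] L)) (n : ℕ) [NeZero n]
    (χ : ptj_Gq q → ZMod n), ptd_IsChar χ → (∀ t ∈ L.fixingSubgroup, χ t = 0) →
    ∀ φ : ptj_Gq q,
      AlgEquiv.restrictNormalHom (F := ℚ_[(q : ℕ)]) L φ = ptl_frob (q : ℕ) ℚ_[(q : ℕ)] L hinj →
    ∀ a : ℚ_[(q : ℕ)]ˣ,
      I.inv q (ptd_bockSmul n χ (Additive.ofMul
        (Units.map (algebraMap ℚ_[(q : ℕ)] (ptj_Om q) : ℚ_[(q : ℕ)] →* ptj_Om q) a))) =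
      ptn_frac p (ptl_ordZ (q : ℕ) ℚ_[(q : ℕ)] (a : ℚ_[(q : ℕ)]) * ((χ φ).val : ℤ)) n

/-- the localisation of `b · δχ` is `ev(b) · δ(χ ∘ r)` -/
lemma cfh_loc₂_bockSmul {G H : Type*} [Group G] [Group H] {X Y : Type*} [AddCommGroup X]
    [AddCommGroup Y] (r : H →* G) (e : X →+ Y) {n : ℕ} (χ : G → ZMod n) (b : X) :
    ptd_loc₂ r e (ptd_bockSmul n χ b) = ptd_bockSmul n (fun t => χ (r t)) (e b) := by
  funext ⟨s, t⟩
  simp only [ptd_loc₂_apply, ptd_bockSmul, map_zsmul, ptd_bock, map_mul]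

variable {S : Finset Nat.Primes} {p : ℕ} [hp : Fact p.Prime]

/-- **(H-cyc) in the model.** -/
theorem cfh_hcyc (I : ptj_LocInv (ptn_T p)) (hUC : ptj_UnitCocycleHyp S)
    (hI : cfh_UnrEval p S I) {k : ℕ} {χ : GQ → ZMod (p ^ k)} (hχ : ptd_IsChar χ)
    (hlev : ptd_IsLev₁ (pta_levelsS S) χ) {V : Subgroup GQ} (hV : (pta_levelsS S).IsOpen V) :
    ∃ a : ptj_AJ S, (∀ v ∈ V, ptj_JSrep S v a = a) ∧
      ∀ m : ℤ, m • (ptj_locFam I hUC).INVU V hV
          (ptd_bockSmul (p ^ k) (fun v : V => χ v) a) = 0 →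
        (((ptn_charKer hχ).relIndex V : ℕ) : ℤ) ∣ m := by
  haveI : NeZero (p ^ k) := ⟨pow_ne_zero k hp.out.ne_zero⟩
  by_cases hN : (ptn_charKer hχ).relIndex V = 1
  · refine ⟨0, fun v _ => map_zero _, fun m _ => ?_⟩
    rw [hN]
    exact one_dvd m
  -- the index-`p` subgroup
  set N := (ptn_charKer hχ).relIndex V with hNdef
  set V' : Subgroup GQ := cfh_charSub hχ V (N / p) with hV'def
  have hle : V' ≤ V := cfh_charSub_le hχ V _
  have hidx : V'.relIndex V = p := cfh_charSub_relIndex_eq hχ V hN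
  have hV' : (pta_levelsS S).IsOpen V' := by
    obtain ⟨Nχ, hNχ, hχN⟩ := hlev
    obtain ⟨N₂, hN₂, hle₂⟩ := hV
    obtain ⟨N₃, hN₃, hle₃⟩ := (pta_levelsS S).directed Nχ hNχ N₂ hN₂
    refine ⟨N₃, hN₃, fun x hx => ?_⟩
    rw [hV'def, cfh_mem_charSub]
    refine ⟨hle₂ (hle₃ hx).2, ?_⟩
    have h1 := hχN 1 x (hle₃ hx).1
    rw [one_mul, ptn_char_one hχ] at h1
    rw [h1, smul_zero]
  -- a non-split prime
  obtain ⟨q, g, τ, hqS, hxV, hxV'⟩ := cfh_cheb_big hp.out hV hV' hle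
    (cfh_charSub_normal hχ V (N / p)) hidx S
  haveI : V.FiniteIndex := hV.finiteIndex
  -- the idele
  obtain ⟨a, hainv, hane, haeq⟩ := cfh_exists_idele hV q g (ptl_unifUnit (q : ℕ) ℚ_[(q : ℕ)])
  -- the local Frobenius
  obtain ⟨L, hfd, hgal, hinj, φ, hL, hφ, hz⟩ := cfh_local_frob hV hqS hχ hlev g
  haveI := hfd
  haveI := hgal
  refine ⟨a, hainv, fun m hm => ?_⟩
  set F := ptj_locFam I hUC with hF
  set d := (cfh_stab V q g).index with hd
  -- the norm of `a`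
  set b : ptj_AJ S := ∑ t : GQ ⧸ V, ptj_JSrep S t.out a with hb
  -- (PF)
  have hy₀ : ptd_IsLZ2 ((pta_levelsS S).sub V hV) (ptd_resRep (ptj_JSrep S) V)
      (ptd_bockSmul (p ^ k) (fun v : V => χ v) a) :=
    ⟨ptn_isZ2_bockSmul (ptn_isChar_res hχ V) (fun v => hainv v v.2),
      ptn_isLev₂_bockSmul (hlev.res V hV) a⟩
  have hPF := ptd_cor₂_bockSmul_sub_isB2 V (ptj_JSrep S) hV hχ hlev hainv
  have hINV : F.INVU V hV (ptd_bockSmul (p ^ k) (fun v : V => χ v) a) =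
      F.INV (ptd_bockSmul (p ^ k) χ b) :=
    (F.INV_congr (ptj_isDiscrete_JS S) (ptd_isLZ2_cor₂ V hV (ptj_JSrep S) hy₀) hPF).symm
  -- the local components
  have hloc : ∀ q' : Nat.Primes, F.loc q' (ptd_bockSmul (p ^ k) χ b) =
      ptd_bockSmul (p ^ k) (fun t => χ (localGaloisToGlobal (q' : ℕ) t)) (ptj_evq S q' b) :=
    fun q' => cfh_loc₂_bockSmul (localGaloisToGlobal (q' : ℕ)) (ptj_evq S q') χ b
  have hzero : ∀ q' : Nat.Primes, q' ≠ q → F.inv q' (F.loc q' (ptd_bockSmul (p ^ k) χ b)) = 0 := by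
    intro q' hq'
    rw [hloc, hane q' hq']
    have h0 : ptd_bockSmul (p ^ k) (fun t => χ (localGaloisToGlobal (q' : ℕ) t))
        (0 : Additive (ptj_Om q')ˣ) = 0 := by
      funext x
      simp only [ptd_bockSmul, smul_zero, Pi.zero_apply]
    rw [h0]
    exact F.inv_b2 q' 0 ptd_isB2_zero
  have hsum : F.INV (ptd_bockSmul (p ^ k) χ b) =
      F.inv q (F.loc q (ptd_bockSmul (p ^ k) χ b)) :=
    finsum_eq_single _ q hzero
  -- the unramified evaluation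
  have hχr : ptd_IsChar (fun t : ptj_Gq q => χ (localGaloisToGlobal (q : ℕ) t)) :=
    fun s t => by
      show χ (localGaloisToGlobal (q : ℕ) (s * t)) = _
      rw [map_mul, hχ]
  have hev : ptj_evq S q b = Additive.ofMul (Units.map
      (algebraMap ℚ_[(q : ℕ)] (ptj_Om q) : ℚ_[(q : ℕ)] →* ptj_Om q)
      (ptl_unifUnit (q : ℕ) ℚ_[(q : ℕ)] ^ d)) := by
    rw [haeq, map_pow, ofMul_pow]
  have hval := hI q hqS L hinj (p ^ k) _ hχr hL φ hφ (ptl_unifUnit (q : ℕ) ℚ_[(q : ℕ)] ^ d)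
  have hord : ptl_ordZ (q : ℕ) ℚ_[(q : ℕ)]
      ((ptl_unifUnit (q : ℕ) ℚ_[(q : ℕ)] ^ d : ℚ_[(q : ℕ)]ˣ) : ℚ_[(q : ℕ)]) = d := by
    rw [Units.val_pow_eq_pow_val, ptl_ordZ_pow, ptl_unifUnit_val, ptl_ordZ_unif, mul_one]
  rw [hord] at hval
  -- put everything together
  rw [hINV, hsum, hloc, hev] at hm
  have hval' : F.inv q = I.inv q := rfl
  rw [hval', hval, ← ptn_frac_smul, ptn_frac_eq_zero_iff _ _ (NeZero.ne (p ^ k)),
    Nat.Prime.factorization_pow hp.out, Finsupp.single_eq_same] at hm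
  -- `m • (d • χ(r φ)) = 0` in `ZMod (p ^ k)`
  have hm' : m • (d • χ (localGaloisToGlobal (q : ℕ) φ)) = 0 := by
    have h1 := (ZMod.intCast_zmod_eq_zero_iff_dvd _ (p ^ k)).2 hm
    push_cast at h1
    rw [ZMod.natCast_zmod_val] at h1
    rw [zsmul_eq_mul, nsmul_eq_mul]
    exact h1
  exact cfh_dvd_of_notMem_charSub hχ V hN hxV hxV' (hz τ hxV) hm'

end Fermat.Agent.Lib.PT

end
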