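/-
S55 (Poitou–Tate long haul), (H-cyc) part G: the MODEL adapter.

* `cfh_unrEval_locInvOf`: the local invariants `ptj_locInvOf p DL` of a family of level data which
  is helper9's `pti_localLevelData` at all primes `q ≠ p` satisfy the unramified evaluation
  `cfh_UnrEval` outside every `S ∋ p` (helper9's `pti_invG_unr`);
* `cfh_hcyc_model`: the input `hcyc` of helper4's `pts_modelAbsP` / `pts_S55_of_inputs`, verbatim.
-/
import Fermat.Agent.Lib.PT.HCycF
import Fermat.Agent.Lib.PT.GModInvE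
import Fermat.Agent.Lib.PT.BrauerEvalUnr
import Fermat.Agent.Lib.PT.RcpTower

set_option autoImplicit false
set_option linter.unusedVariables false
set_option linter.unusedSectionVars false
set_option linter.style.haveILetI false

noncomputable section

namespace Fermat.Agent.Lib.PT

open IntermediateField ExtCitation

local notation "Qbar" => AlgebraicClosure ℚ
local notation "GQ" => (AlgebraicClosure ℚ ≃ₐ[ℚ] AlgebraicClosure ℚ)

variable {p : ℕ} [hp : Fact p.Prime] {S : Finset Nat.Primes}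

/-- **(L-unr) for the model family of local invariants**, outside `S ∋ p`. -/
theorem cfh_unrEval_locInvOf (hpS : pPrime p ∈ S)
    (DL : ∀ q : Nat.Primes, ptn_LevelData (ptg_levels (q : ℕ)) (ptg_unitsRep (q : ℕ)) p)
    (hDL : ∀ q : Nat.Primes, q ≠ pPrime p → DL q = pti_localLevelData (q : ℕ) p) :
    cfh_UnrEval p S (ptj_locInvOf p DL) := by
  intro q hq L _ _ hinj n _ χ hχ hχL φ hφ a
  have hqp : q ≠ pPrime p := fun h => hq (h ▸ hpS)
  show ptn_invG (DL q) (ptg_isDiscrete_units (q : ℕ)) _ = _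
  rw [hDL q hqp]
  exact pti_invG_unr (q : ℕ) p L hinj hχ hχL φ hφ a

/-- **(H-cyc) in the model**: the input `hcyc` of `pts_modelAbsP` / `pts_S55_of_inputs`. -/
theorem cfh_hcyc_model (hp2 : p ≠ 2) (hpS : pPrime p ∈ S)
    (DL : ∀ q : Nat.Primes, ptn_LevelData (ptg_levels (q : ℕ)) (ptg_unitsRep (q : ℕ)) p)
    (hDL : ∀ q : Nat.Primes, q ≠ pPrime p → DL q = pti_localLevelData (q : ℕ) p) :
    ∀ (V : Subgroup GQ) (hV : (pta_levelsS S).IsOpen V) (k : ℕ), ∃ a : ptj_AJ S,
      (∀ v ∈ V, ptj_JSrep S v a = a) ∧ ∀ m : ℤ,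
        m • (ptj_locFam (ptj_locInvOf p DL) (ptj_unitCocycleHyp S)).INVU V hV
          (ptd_bockSmul (p ^ k) (fun v : V => ptl_chi p k hp2 v) a) = 0 →
        (((ptn_charKer (ptl_chi_isChar (m := k) hp2)).relIndex V : ℕ) : ℤ) ∣ m :=
  fun V hV k => cfh_hcyc (ptj_locInvOf p DL) (ptj_unitCocycleHyp S)
    (cfh_unrEval_locInvOf hpS DL hDL) (ptl_chi_isChar hp2) (ptl_chi_isLev₁ hp2 S hpS) hV

end Fermat.Agent.Lib.PT

end
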