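/-
S55 (Poitou–Tate long haul), (H-cyc) part H: the input `hcyc` of lead's `ptj_S55_of_arith`
(`ptj_INVfun` form), verbatim.
-/
import Fermat.Agent.Lib.PT.HCycG
import Fermat.Agent.Lib.PT.GModInvF

set_option autoImplicit false
set_option linter.unusedVariables false
set_option linter.unusedSectionVars false

noncomputable section

namespace Fermat.Agent.Lib.PT

open IntermediateField ExtCitation

local notation "Qbar" => AlgebraicClosure ℚ
local notation "GQ" => (AlgebraicClosure ℚ ≃ₐ[ℚ] AlgebraicClosure ℚ)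

variable {p : ℕ} [hp : Fact p.Prime] {S : Finset Nat.Primes}

/-- **(H-cyc) in the model**, `ptj_INVfun` form: the input `hcyc` of `ptj_S55_of_arith`. -/
theorem cfh_hcyc_INVfun (hp2 : p ≠ 2) (hpS : pPrime p ∈ S)
    (DL : ∀ q : Nat.Primes, ptn_LevelData (ptg_levels (q : ℕ)) (ptg_unitsRep (q : ℕ)) p)
    (hDL : ∀ q : Nat.Primes, q ≠ pPrime p → DL q = pti_localLevelData (q : ℕ) p) :
    ∀ (V : Subgroup GQ) (_ : (pta_levelsS S).IsOpen V) (k : ℕ), ∃ a : ptj_AJ S,
      (∀ v ∈ V, ptj_JSrep S v a = a) ∧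
      ∀ m : ℤ, m • ptj_INVfun (ptj_locInvOf p DL) V
          (ptd_bockSmul (p ^ k) (fun v : V => ptl_chi p k hp2 v) a) = 0 →
        (((ptn_charKer (ptl_chi_isChar hp2 (p := p) (m := k))).relIndex V : ℕ) : ℤ) ∣ m := by
  intro V hV k
  obtain ⟨a, ha, h⟩ := cfh_hcyc_model hp2 hpS DL hDL V hV k
  refine ⟨a, ha, fun m hm => h m ?_⟩
  rwa [ptj_INVfun_eq _ hV] at hm

end Fermat.Agent.Lib.PT

end
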