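/-
The unit group `1 + M 0` of a filtration as a subgroup of `Λˣ`, the maps `u ↦ σ u / u` and
`u ↦ ∏ τ u` on `Λˣ`, and the cohomological triviality statements of `HerbTriv` in the shape
consumed by `pti_norm_index`.
-/
import Fermat.Agent.Lib.PT.HerbTriv

set_option linter.unusedSectionVars false

namespace Fermat.Agent.Lib.PT

open Finset

section Units

variable {Λ : Type*} [CommRing Λ] {G : Type*} [Group G] [MulSemiringAction G Λ]

/-- The action of `g : G` on the units of `Λ`. -/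
def pti_actU (g : G) : Λˣ →* Λˣ := Units.map (MulSemiringAction.toRingHom G Λ g : Λ →* Λ)

@[simp] theorem pti_actU_val (g : G) (u : Λˣ) : ((pti_actU g u : Λˣ) : Λ) = g • (u : Λ) := rfl

/-- `u ↦ σ u / u` on units. -/
def pti_fU (σ : G) : Λˣ →* Λˣ := pti_actU σ / MonoidHom.id Λˣ

theorem pti_fU_apply (σ : G) (u : Λˣ) : pti_fU σ u = pti_actU σ u / u := rfl

theorem pti_fU_eq_one_iff (σ : G) (u : Λˣ) : pti_fU σ u = 1 ↔ σ • (u : Λ) = u := by
  rw [pti_fU_apply, div_eq_one, Units.ext_iff, pti_actU_val]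

theorem pti_fU_eq_iff (σ : G) (u v : Λˣ) : pti_fU σ v = u ↔ σ • (v : Λ) = u * v := by
  rw [pti_fU_apply, div_eq_iff_eq_mul, Units.ext_iff, pti_actU_val, Units.val_mul]

variable [Fintype G]

/-- The norm `u ↦ ∏ τ u` on units. -/
def pti_gU : Λˣ →* Λˣ := ∏ τ : G, pti_actU τ

variable (G) in
theorem pti_gU_val (u : Λˣ) : ((pti_gU (G := G) u : Λˣ) : Λ) = ∏ τ : G, τ • (u : Λ) := by
  unfold pti_gU
  rw [MonoidHom.finsetProd_apply, Units.coe_prod]
  rfl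

theorem pti_fU_gU (σ : G) (u : Λˣ) : pti_fU σ (pti_gU (G := G) u) = 1 := by
  rw [pti_fU_eq_one_iff, pti_gU_val, pti_smul_norm]

theorem pti_gU_fU (σ : G) (u : Λˣ) : pti_gU (G := G) (pti_fU σ u) = 1 := by
  rw [pti_fU_apply, map_div, div_eq_one, Units.ext_iff, pti_gU_val, pti_gU_val, pti_actU_val,
    pti_norm_smul]

/-- If `σ` generates `G`, the kernel of `u ↦ σ u / u` consists of the `G`-fixed units. -/
theorem pti_fixed_of_fU_eq_one {σ : G} (hσ : ∀ g : G, g ∈ Subgroup.zpowers σ) {u : Λˣ}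
    (hu : pti_fU σ u = 1) (g : G) : g • (u : Λ) = u := by
  rw [pti_fU_eq_one_iff] at hu
  have hst : σ ∈ MulAction.stabilizer G (u : Λ) := hu
  have : Subgroup.zpowers σ ≤ MulAction.stabilizer G (u : Λ) := by
    rw [Subgroup.zpowers_le]; exact hst
  exact this (hσ g)

variable {M : ℕ → AddSubgroup Λ}

/-- The subgroup `1 + M 0` of `Λˣ`. -/
def pti_Filt.unitGroup (hM : pti_Filt G M) : Subgroup Λˣ where
  carrier := {u | (u : Λ) - 1 ∈ M 0}
  mul_mem' := by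
    intro a b ha hb
    simp only [Set.mem_ofPred_eq, Units.val_mul] at *
    exact hM.one_add_mul_one_add ha hb
  one_mem' := by simp
  inv_mem' := by
    intro a ha
    simp only [Set.mem_ofPred_eq] at *
    obtain ⟨w, hw, hw1⟩ := hM.exists_inv (a : Λ) ha
    have : ((a⁻¹ : Λˣ) : Λ) = w := by
      rw [Units.inv_eq_of_mul_eq_one_right hw1]
    rw [this]
    exact hw

theorem pti_Filt.mem_unitGroup (hM : pti_Filt G M) (u : Λˣ) :
    u ∈ hM.unitGroup ↔ (u : Λ) - 1 ∈ M 0 := Iff.rfl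

theorem pti_Filt.actU_mem (hM : pti_Filt G M) (g : G) {u : Λˣ} (hu : u ∈ hM.unitGroup) :
    pti_actU g u ∈ hM.unitGroup := by
  rw [hM.mem_unitGroup] at hu ⊢
  rw [pti_actU_val]
  exact hM.smul_one_add hu g

theorem pti_Filt.map_fU_le (hM : pti_Filt G M) (σ : G) :
    hM.unitGroup.map (pti_fU σ) ≤ hM.unitGroup := by
  rintro _ ⟨u, hu, rfl⟩
  rw [pti_fU_apply]
  exact hM.unitGroup.div_mem (hM.actU_mem σ hu) hu

theorem pti_Filt.map_gU_le (hM : pti_Filt G M) :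
    hM.unitGroup.map (pti_gU (G := G)) ≤ hM.unitGroup := by
  rintro _ ⟨u, hu, rfl⟩
  unfold pti_gU
  rw [MonoidHom.finsetProd_apply]
  exact hM.unitGroup.prod_mem fun τ _ => hM.actU_mem τ hu

/-- `Ĥ⁰(G, 1 + M 0) = 0` in subgroup form. -/
theorem pti_Filt.ker_fU_inf_le (hM : pti_Filt G M) {σ : G}
    (hσ : ∀ g : G, g ∈ Subgroup.zpowers σ)
    (T0 : ∀ n x, x ∈ M n → (∀ g : G, g • x = x) → ∃ y ∈ M n, x - ∑ h : G, h • y ∈ M (n + 1)) :
    (pti_fU σ).ker ⊓ hM.unitGroup ≤ hM.unitGroup.map (pti_gU (G := G)) := by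
  rintro u ⟨hu1, hu2⟩
  obtain ⟨v, hv, hNv⟩ := hM.norm_surj T0 (u : Λ) hu2
    (fun g => pti_fixed_of_fU_eq_one hσ hu1 g)
  obtain ⟨w, _, hw1⟩ := hM.exists_inv v hv
  refine ⟨Units.mkOfMulEqOne v w hw1, hv, ?_⟩
  rw [Units.ext_iff, pti_gU_val]
  exact hNv

/-- `H¹(⟨σ⟩, 1 + M 0) = 0` in subgroup form. -/
theorem pti_Filt.ker_gU_inf_le (hM : pti_Filt G M) (σ : G)
    (T1 : ∀ n x, x ∈ M n → ∑ h : G, h • x ∈ M (n + 1) →
      ∃ y ∈ M n, x + σ • y - y ∈ M (n + 1)) :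
    (pti_gU (G := G)).ker ⊓ hM.unitGroup ≤ hM.unitGroup.map (pti_fU σ) := by
  rintro u ⟨hu1, hu2⟩
  have hN : ∏ h : G, h • (u : Λ) = 1 := by
    rw [← pti_gU_val G u, (MonoidHom.mem_ker).1 hu1, Units.val_one]
  obtain ⟨v, hv, hσv⟩ := hM.hilbert90 σ T1 (u : Λ) hu2 hN
  obtain ⟨w, _, hw1⟩ := hM.exists_inv v hv
  refine ⟨Units.mkOfMulEqOne v w hw1, hv, ?_⟩
  rw [pti_fU_eq_iff]
  exact hσv

end Units

end Fermat.Agent.Lib.PT
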