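import Fermat.Agent.Lib.PT.KummerPairing

set_option autoImplicit false

namespace Fermat.Agent.Lib.PT

open IntermediateField Polynomial

section Galois

variable {K M : Type*} [Field K] [Field M] [Algebra K M]

/-- the set of `p`-th roots of elements of `B`, as elements of `M` -/
def ptk_rootSet (p : ℕ) (B : Subgroup Kˣ) : Set M :=
  ((↑) : Mˣ → M) '' (ptk_rootGroup (M := M) p B : Set Mˣ)

theorem ptk_rootSet_props {p : ℕ} [NeZero p] {ζ : K} (hζ : IsPrimitiveRoot ζ p) {B : Subgroup Kˣ}
    {x : M} (hx : x ∈ ptk_rootSet p B) :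
    IsIntegral K x ∧ IsSeparable K x ∧ ((minpoly K x).map (algebraMap K M)).Splits := by
  obtain ⟨y, hy, rfl⟩ := hx
  have hζ' : IsPrimitiveRoot (algebraMap K M ζ) p :=
    hζ.map_of_injective (algebraMap K M).injective
  have hpK : (p : K) ≠ 0 := hζ.neZero'.ne
  obtain ⟨b, -, hb⟩ := ptk_mem_rootGroup.mp hy
  have hyb : (y : M) ^ p = algebraMap K M b := by
    rw [← Units.val_pow_eq_pow_val, ← hb, ptk_incl_val]
  have hroot : aeval (y : M) (X ^ p - C (b : K)) = 0 := by simp [hyb]
  have hmonic : (X ^ p - C (b : K)).Monic := monic_X_pow_sub_C _ (NeZero.ne p)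
  have hint : IsIntegral K (y : M) := ⟨_, hmonic, hroot⟩
  have hdvd : minpoly K (y : M) ∣ X ^ p - C (b : K) := minpoly.dvd K _ hroot
  have hsep : (X ^ p - C (b : K)).Separable := separable_X_pow_sub_C (b : K) hpK b.ne_zero
  refine ⟨hint, hsep.of_dvd hdvd, ?_⟩
  have hsplit : ((X ^ p - C (b : K)).map (algebraMap K M)).Splits := by
    have := X_pow_sub_C_splits_of_isPrimitiveRoot hζ' hyb
    simpa using this
  refine hsplit.of_dvd ?_ (Polynomial.map_dvd _ hdvd)
  exact (Polynomial.map_ne_zero_iff (algebraMap K M).injective).mpr hmonic.ne_zero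

theorem ptk_isGalois {p : ℕ} [NeZero p] {ζ : K} (hζ : IsPrimitiveRoot ζ p) {B : Subgroup Kˣ}
    (hgen : adjoin K (ptk_rootSet (M := M) p B) = ⊤) : IsGalois K M := by
  have hsep : Algebra.IsSeparable K M := by
    rw [← isSeparable_top, ← hgen, isSeparable_adjoin_iff_isSeparable]
    exact fun x hx => (ptk_rootSet_props hζ hx).2.1
  have halg : Algebra.IsAlgebraic K M := inferInstance
  have hnorm : Normal K M :=
    { isAlgebraic := halg.isAlgebraic
      splits' := fun x => IntermediateField.splits_of_mem_adjoin (F := K) (K := M) (L := M)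
        (S := ptk_rootSet (M := M) p B)
        (fun y hy => ⟨(ptk_rootSet_props hζ hy).1, (ptk_rootSet_props hζ hy).2.2⟩)
        (by rw [hgen]; exact IntermediateField.mem_top) }
  exact isGalois_iff.mpr ⟨hsep, hnorm⟩

end Galois

end Fermat.Agent.Lib.PT
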