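import Fermat.Agent.Lib.PT.KummerPairing
import Fermat.Agent.Lib.PT.KummerGalois

set_option autoImplicit false

namespace Fermat.Agent.Lib.PT

open IntermediateField Polynomial

section Count

variable {K M : Type*} [Field K] [Field M] [Algebra K M]

/-- the elements of the root group lying in `K` -/
noncomputable def ptk_ratSub (p : ℕ) (B : Subgroup Kˣ) : Subgroup (ptk_rootGroup (M := M) p B) :=
  (ptk_incl K M).range.subgroupOf (ptk_rootGroup (M := M) p B)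

/-- the Kummer group `A = R / (R ∩ Kˣ)` -/
abbrev ptk_A (p : ℕ) (B : Subgroup Kˣ) : Type _ :=
  ptk_rootGroup (M := M) p B ⧸ ptk_ratSub (M := M) p B

theorem ptk_mem_ratSub {p : ℕ} {B : Subgroup Kˣ} {x : ptk_rootGroup (M := M) p B} :
    x ∈ ptk_ratSub (M := M) p B ↔ ∃ c : Kˣ, ptk_incl K M c = (x : Mˣ) := by
  simp [ptk_ratSub, Subgroup.mem_subgroupOf, MonoidHom.mem_range]

theorem ptk_A_pow {p : ℕ} {B : Subgroup Kˣ} (a : ptk_A (M := M) p B) : a ^ p = 1 := by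
  induction a using QuotientGroup.induction_on with
  | H x =>
    rw [← QuotientGroup.mk_pow, QuotientGroup.eq_one_iff, ptk_mem_ratSub]
    obtain ⟨b, -, hb⟩ := ptk_mem_rootGroup.mp x.2
    exact ⟨b, by rw [hb]; rfl⟩

/-- `σ ↦ (x ↦ σ x / x)` on the root group -/
noncomputable def ptk_pairR {p : ℕ} [NeZero p] {ζ : K} (hζ : IsPrimitiveRoot ζ p) (B : Subgroup Kˣ) :
    (M ≃ₐ[K] M) →* (ptk_rootGroup (M := M) p B →* Mˣ) where
  toFun σ := (ptk_delta σ).comp (Subgroup.subtype _)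
  map_one' := by
    ext x
    simp [ptk_delta_one]
  map_mul' σ τ := by
    ext x
    simp [ptk_delta_mul hζ σ τ x.2]

theorem ptk_pairR_apply {p : ℕ} [NeZero p] {ζ : K} (hζ : IsPrimitiveRoot ζ p) (B : Subgroup Kˣ)
    (σ : M ≃ₐ[K] M) (x : ptk_rootGroup (M := M) p B) :
    ptk_pairR hζ B σ x = ptk_delta σ (x : Mˣ) := rfl

theorem ptk_ratSub_le_ker {p : ℕ} [NeZero p] {ζ : K} (hζ : IsPrimitiveRoot ζ p) (B : Subgroup Kˣ)
    (σ : M ≃ₐ[K] M) : ptk_ratSub (M := M) p B ≤ (ptk_pairR hζ B σ).ker := by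
  intro x hx
  obtain ⟨c, hc⟩ := ptk_mem_ratSub.mp hx
  rw [MonoidHom.mem_ker, ptk_pairR_apply, ← hc, ptk_delta_incl]

/-- the pairing as a map `G → Hom(A, Mˣ)` -/
noncomputable def ptk_pairG {p : ℕ} [NeZero p] {ζ : K} (hζ : IsPrimitiveRoot ζ p) (B : Subgroup Kˣ) :
    (M ≃ₐ[K] M) →* (ptk_A (M := M) p B →* Mˣ) where
  toFun σ := QuotientGroup.lift _ (ptk_pairR hζ B σ) (ptk_ratSub_le_ker hζ B σ)
  map_one' := by
    ext x
    simp
  map_mul' σ τ := by
    ext x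
    simp

theorem ptk_pairG_mk {p : ℕ} [NeZero p] {ζ : K} (hζ : IsPrimitiveRoot ζ p) (B : Subgroup Kˣ)
    (σ : M ≃ₐ[K] M) (x : ptk_rootGroup (M := M) p B) :
    ptk_pairG hζ B σ (QuotientGroup.mk x) = ptk_delta σ (x : Mˣ) := rfl

/-- the pairing as a map `R → Hom(G, Mˣ)` -/
noncomputable def ptk_pairRG {p : ℕ} [NeZero p] {ζ : K} (hζ : IsPrimitiveRoot ζ p)
    (B : Subgroup Kˣ) : ptk_rootGroup (M := M) p B →* ((M ≃ₐ[K] M) →* Mˣ) where
  toFun x :=
    { toFun := fun σ => ptk_delta σ (x : Mˣ)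
      map_one' := ptk_delta_one _
      map_mul' := fun σ τ => ptk_delta_mul hζ σ τ x.2 }
  map_one' := by
    ext σ
    simp
  map_mul' x y := by
    ext σ
    simp

theorem ptk_ratSub_le_ker' {p : ℕ} [NeZero p] {ζ : K} (hζ : IsPrimitiveRoot ζ p)
    (B : Subgroup Kˣ) : ptk_ratSub (M := M) p B ≤ (ptk_pairRG (M := M) hζ B).ker := by
  intro x hx
  obtain ⟨c, hc⟩ := ptk_mem_ratSub.mp hx
  rw [MonoidHom.mem_ker]
  ext σ
  change ((ptk_delta σ (x : Mˣ) : Mˣ) : M) = _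
  rw [← hc, ptk_delta_incl]
  rfl

/-- the pairing as a map `A → Hom(G, Mˣ)` -/
noncomputable def ptk_pairA {p : ℕ} [NeZero p] {ζ : K} (hζ : IsPrimitiveRoot ζ p)
    (B : Subgroup Kˣ) : ptk_A (M := M) p B →* ((M ≃ₐ[K] M) →* Mˣ) :=
  QuotientGroup.lift _ (ptk_pairRG hζ B) (ptk_ratSub_le_ker' hζ B)

theorem ptk_pairA_mk {p : ℕ} [NeZero p] {ζ : K} (hζ : IsPrimitiveRoot ζ p) (B : Subgroup Kˣ)
    (σ : M ≃ₐ[K] M) (x : ptk_rootGroup (M := M) p B) :
    ptk_pairA hζ B (QuotientGroup.mk x) σ = ptk_delta σ (x : Mˣ) := rfl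

/-- `G → Hom(A, Mˣ)` is injective when `M` is generated by the roots -/
theorem ptk_pairG_injective {p : ℕ} [NeZero p] {ζ : K} (hζ : IsPrimitiveRoot ζ p)
    {B : Subgroup Kˣ} (hgen : adjoin K (ptk_rootSet (M := M) p B) = ⊤) :
    Function.Injective (ptk_pairG (M := M) hζ B) := by
  rw [injective_iff_map_eq_one]
  intro σ hσ
  have h1 : ∀ x ∈ ptk_rootSet (M := M) p B, σ x = x := by
    rintro _ ⟨y, hy, rfl⟩
    have := congrArg (fun f => f (QuotientGroup.mk ⟨y, hy⟩)) hσ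
    simp only [ptk_pairG_mk, MonoidHom.one_apply] at this
    exact (ptk_delta_eq_one_iff σ y).mp this
  ext x
  have hx : x ∈ adjoin K (ptk_rootSet (M := M) p B) := by rw [hgen]; exact mem_top
  rw [AlgEquiv.one_apply]
  induction hx using adjoin_induction with
  | mem x hx => exact h1 x hx
  | algebraMap c => exact σ.commutes c
  | add x y _ _ hx hy => rw [map_add, hx, hy]
  | inv x _ hx => rw [map_inv₀, hx]
  | mul x y _ _ hx hy => rw [map_mul, hx, hy]

/-- `A → Hom(G, Mˣ)` is injective when `M/K` is Galois -/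
theorem ptk_pairA_injective {p : ℕ} [NeZero p] {ζ : K} (hζ : IsPrimitiveRoot ζ p)
    {B : Subgroup Kˣ} [IsGalois K M] :
    Function.Injective (ptk_pairA (M := M) hζ B) := by
  rw [injective_iff_map_eq_one]
  intro a ha
  induction a using QuotientGroup.induction_on with
  | H x =>
    rw [QuotientGroup.eq_one_iff, ptk_mem_ratSub]
    have h1 : ∀ σ : M ≃ₐ[K] M, σ ((x : Mˣ) : M) = ((x : Mˣ) : M) := by
      intro σ
      have := congrArg (fun f => f σ) ha
      simp only [ptk_pairA_mk, MonoidHom.one_apply] at this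
      exact (ptk_delta_eq_one_iff σ x).mp this
    obtain ⟨c, hc⟩ := (InfiniteGalois.mem_range_algebraMap_iff_fixed (k := K) ((x : Mˣ) : M)).mpr h1
    have hc0 : c ≠ 0 := by
      rintro rfl
      rw [map_zero] at hc
      exact (x : Mˣ).ne_zero hc.symm
    exact ⟨Units.mk0 c hc0, by ext; simpa using hc⟩

end Count

end Fermat.Agent.Lib.PT
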