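import Fermat.Agent.Lib.PT.KummerCard

set_option autoImplicit false

namespace Fermat.Agent.Lib.PT

open IntermediateField Polynomial

section Cyclic

variable {K L : Type*} [Field K] [Field L] [Algebra K L]

/-- an automorphism fixing a generating set is trivial -/
theorem ptk_eq_one_of_fix {S : Set L} (hgen : adjoin K S = ⊤) (σ : L ≃ₐ[K] L)
    (h : ∀ x ∈ S, σ x = x) : σ = 1 := by
  ext x
  have hx : x ∈ adjoin K S := by rw [hgen]; exact mem_top
  rw [AlgEquiv.one_apply]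
  induction hx using adjoin_induction with
  | mem x hx => exact h x hx
  | algebraMap c => exact σ.commutes c
  | add x y _ _ hx hy => rw [map_add, hx, hy]
  | inv x _ hx => rw [map_inv₀, hx]
  | mul x y _ _ hx hy => rw [map_mul, hx, hy]

theorem ptk_mem_rootGroup_top {p : ℕ} {x : Lˣ} {b : Kˣ} (h : x ^ p = ptk_incl K L b) :
    x ∈ ptk_rootGroup (M := L) p (⊤ : Subgroup Kˣ) :=
  ptk_mem_rootGroup.mpr ⟨b, Subgroup.mem_top _, h.symm⟩

/-- a unit of `L` fixed by the whole Galois group comes from `K` -/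
theorem ptk_exists_incl_of_fixed [IsGalois K L] {x : Lˣ} (h : ∀ σ : L ≃ₐ[K] L, σ (x : L) = x) :
    ∃ c : Kˣ, ptk_incl K L c = x := by
  obtain ⟨c, hc⟩ := (InfiniteGalois.mem_range_algebraMap_iff_fixed (k := K) (x : L)).mpr h
  have hc0 : c ≠ 0 := by
    rintro rfl
    rw [map_zero] at hc
    exact x.ne_zero hc.symm
  exact ⟨Units.mk0 c hc0, by ext; simpa using hc⟩

/-- in a field, a nontrivial `p`-th root of unity generates all of them (`p` prime) -/
theorem ptk_exists_pow_eq {p : ℕ} [hp : Fact p.Prime] {y z : Lˣ} (hy : y ^ p = 1) (hy1 : y ≠ 1)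
    (hz : z ^ p = 1) : ∃ j : ℕ, y ^ j = z := by
  have : NeZero p := ⟨hp.out.ne_zero⟩
  have hyprim : IsPrimitiveRoot (y : L) p :=
    IsPrimitiveRoot.coe_units_iff.mpr (IsPrimitiveRoot.iff_orderOf.mpr (orderOf_eq_prime hy hy1))
  have hz' : (z : L) ^ p = 1 := by rw [← Units.val_pow_eq_pow_val, hz, Units.val_one]
  obtain ⟨j, -, hj⟩ := hyprim.eq_pow_of_pow_eq_one hz'
  exact ⟨j, by ext; rw [Units.val_pow_eq_pow_val, hj]⟩

/-- **Kummer theory for a cyclic extension** `L = K(α)`, `α ^ p = a`: every `β ∈ L` with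
`β ^ p ∈ K` is of the form `α ^ j * c`, `c ∈ K`. -/
theorem ptk_cyclic_root {p : ℕ} [hp : Fact p.Prime] {ζ : K} (hζ : IsPrimitiveRoot ζ p)
    {α : Lˣ} {a : Kˣ} (hα : α ^ p = ptk_incl K L a) (hgen : adjoin K {(α : L)} = ⊤)
    {β : Lˣ} {b : Kˣ} (hβ : β ^ p = ptk_incl K L b) :
    ∃ (j : ℕ) (c : Kˣ), b = a ^ j * c ^ p ∧ β = α ^ j * ptk_incl K L c := by
  have : NeZero p := ⟨hp.out.ne_zero⟩
  have hαR := ptk_mem_rootGroup_top hα
  have hβR := ptk_mem_rootGroup_top hβ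
  have hgen' : adjoin K (ptk_rootSet (M := L) p (⊤ : Subgroup Kˣ)) = ⊤ := by
    rw [eq_top_iff, ← hgen]
    exact adjoin.mono K _ _ (Set.singleton_subset_iff.mpr ⟨α, hαR, rfl⟩)
  have hGal : IsGalois K L := ptk_isGalois hζ hgen'
  -- conclusion from `β = α ^ j * c`
  have fin : ∀ (j : ℕ) (c : Kˣ), β = α ^ j * ptk_incl K L c →
      ∃ (j : ℕ) (c : Kˣ), b = a ^ j * c ^ p ∧ β = α ^ j * ptk_incl K L c := by
    intro j c h
    refine ⟨j, c, ?_, h⟩
    apply ptk_incl_injective (K := K) (M := L)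
    rw [← hβ, h, mul_pow, ← pow_mul, mul_comm j p, pow_mul, hα, map_mul, map_pow, map_pow]
  by_cases htriv : ∀ σ : L ≃ₐ[K] L, ptk_delta σ α = 1
  · -- `α ∈ K`, so `L = K`
    have h1 : ∀ σ : L ≃ₐ[K] L, σ = 1 := fun σ =>
      ptk_eq_one_of_fix hgen σ (fun x hx => by
        rw [Set.mem_singleton_iff.mp hx]; exact (ptk_delta_eq_one_iff σ α).mp (htriv σ))
    obtain ⟨c, hc⟩ := ptk_exists_incl_of_fixed (K := K) (x := β)
      (fun σ => by rw [h1 σ, AlgEquiv.one_apply])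
    exact fin 0 c (by rw [pow_zero, one_mul, hc])
  · push Not at htriv
    obtain ⟨σ₀, hσ₀⟩ := htriv
    set y : Lˣ := ptk_delta σ₀ α with hy
    have hyp : y ^ p = 1 := ptk_delta_pow σ₀ hαR
    obtain ⟨j, hj⟩ := ptk_exists_pow_eq hyp hσ₀ (ptk_delta_pow σ₀ hβR)
    -- `x = β / α ^ j` is fixed by `σ₀`
    set x : Lˣ := β / α ^ j with hx
    have hxR : x ∈ ptk_rootGroup (M := L) p (⊤ : Subgroup Kˣ) :=
      Subgroup.div_mem _ hβR (Subgroup.pow_mem _ hαR j)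
    have hx0 : ptk_delta σ₀ x = 1 := by
      rw [hx, _root_.map_div, map_pow, ← hy, hj, div_self']
    -- every `σ` is a power of `σ₀`
    have hpow : ∀ σ : L ≃ₐ[K] L, ∃ k : ℕ, σ = σ₀ ^ k := by
      intro σ
      obtain ⟨k, hk⟩ := ptk_exists_pow_eq hyp hσ₀ (ptk_delta_pow σ hαR)
      refine ⟨k, ?_⟩
      have h2 : ptk_delta (σ₀ ^ k) α = y ^ k := by
        have := map_pow (ptk_pairRG (M := L) hζ ⊤ ⟨α, hαR⟩) σ₀ k
        exact this
      have h3 : ptk_delta ((σ₀ ^ k)⁻¹ * σ) α = 1 := by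
        rw [ptk_delta_mul hζ _ _ hαR, ← hk, ← h2]
        have h4 := ptk_delta_mul hζ ((σ₀ ^ k)⁻¹) (σ₀ ^ k) hαR
        rw [inv_mul_cancel, ptk_delta_one] at h4
        exact h4.symm
      have h5 := ptk_eq_one_of_fix hgen ((σ₀ ^ k)⁻¹ * σ) (fun z hz => by
        rw [Set.mem_singleton_iff.mp hz]; exact (ptk_delta_eq_one_iff _ α).mp h3)
      exact (inv_mul_eq_one.mp h5).symm
    obtain ⟨c, hc⟩ := ptk_exists_incl_of_fixed (K := K) (x := x) (fun σ => by
      obtain ⟨k, rfl⟩ := hpow σ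
      apply (ptk_delta_eq_one_iff _ x).mp
      have := map_pow (ptk_pairRG (M := L) hζ ⊤ ⟨x, hxR⟩) σ₀ k
      have h6 : ptk_delta (σ₀ ^ k) x = ptk_delta σ₀ x ^ k := this
      rw [h6, hx0, one_pow])
    exact fin j c (by rw [hc, hx, mul_div_cancel])

end Cyclic

end Fermat.Agent.Lib.PT
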