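import Fermat.Agent.Lib.PT.KummerCyclic

set_option autoImplicit false

namespace Fermat.Agent.Lib.PT

open IntermediateField Polynomial

section Ambient

variable {K : Type*} [Field K] (Ω : Type*) [Field Ω] [Algebra K Ω]

/-- the Kummer field `K(B^{1/p})` inside `Ω` -/
noncomputable def ptk_field (p : ℕ) (B : Subgroup Kˣ) : IntermediateField K Ω :=
  adjoin K (ptk_rootSet (M := Ω) p B)

variable {Ω}

theorem ptk_val_mem_field {p : ℕ} {B : Subgroup Kˣ} {x : Ωˣ}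
    (hx : x ∈ ptk_rootGroup (M := Ω) p B) : (x : Ω) ∈ ptk_field Ω p B :=
  subset_adjoin K _ ⟨x, hx, rfl⟩

/-- the unit of the subfield attached to a unit of `Ω` lying in it -/
noncomputable def ptk_unitOfMem {E : IntermediateField K Ω} {x : Ωˣ} (hx : (x : Ω) ∈ E) : (↥E)ˣ :=
  Units.mk0 ⟨x, hx⟩ (fun h => x.ne_zero (congrArg Subtype.val h))

theorem ptk_unitOfMem_val {E : IntermediateField K Ω} {x : Ωˣ} (hx : (x : Ω) ∈ E) :
    (((ptk_unitOfMem hx : (↥E)ˣ) : ↥E) : Ω) = x := rfl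

theorem ptk_incl_val_val {E : IntermediateField K Ω} (c : Kˣ) :
    (((ptk_incl K ↥E c : (↥E)ˣ) : ↥E) : Ω) = algebraMap K Ω c := rfl

theorem ptk_mem_rootGroup_sub {p : ℕ} {B : Subgroup Kˣ} {E : IntermediateField K Ω} {y : (↥E)ˣ} :
    y ∈ ptk_rootGroup (M := ↥E) p B ↔
      Units.map (E.val : ↥E →* Ω) y ∈ ptk_rootGroup (M := Ω) p B := by
  rw [ptk_mem_rootGroup, ptk_mem_rootGroup]
  refine exists_congr fun b => and_congr_right fun _ => ?_
  constructor
  · intro h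
    ext
    have := congrArg (fun u : (↥E)ˣ => ((u : ↥E) : Ω)) h
    simpa using this
  · intro h
    ext
    have := congrArg (fun u : Ωˣ => (u : Ω)) h
    simpa using this

theorem ptk_field_gen (p : ℕ) (B : Subgroup Kˣ) :
    adjoin K (ptk_rootSet (M := ↥(ptk_field Ω p B)) p B) = ⊤ := by
  apply IntermediateField.map_injective (ptk_field Ω p B).val
  rw [adjoin_map, ← AlgHom.fieldRange_eq_map, fieldRange_val]
  change _ = adjoin K (ptk_rootSet (M := Ω) p B)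
  congr 1
  ext x
  constructor
  · rintro ⟨_, ⟨y, hy, rfl⟩, rfl⟩
    exact ⟨Units.map ((ptk_field Ω p B).val : ↥(ptk_field Ω p B) →* Ω) y,
      ptk_mem_rootGroup_sub.mp hy, rfl⟩
  · rintro ⟨y, hy, rfl⟩
    have hmem := ptk_val_mem_field hy
    refine ⟨⟨y, hmem⟩, ⟨ptk_unitOfMem hmem, ?_, rfl⟩, rfl⟩
    rw [SetLike.mem_coe, ptk_mem_rootGroup_sub]
    have h1 : Units.map ((ptk_field Ω p B).val : ↥(ptk_field Ω p B) →* Ω) (ptk_unitOfMem hmem) = y := by
      ext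
      rfl
    rw [h1]
    exact hy

theorem ptk_field_hasRoots {p : ℕ} {B : Subgroup Kˣ} (h : ptk_HasRoots Ω p B) :
    ptk_HasRoots ↥(ptk_field Ω p B) p B := by
  intro b hb
  obtain ⟨y, hy⟩ := h b hb
  have hyR : y ∈ ptk_rootGroup (M := Ω) p B := ptk_mem_rootGroup.mpr ⟨b, hb, hy.symm⟩
  refine ⟨ptk_unitOfMem (ptk_val_mem_field hyR), ?_⟩
  apply Units.ext
  apply Subtype.ext
  have := congrArg (fun u : Ωˣ => (u : Ω)) hy
  simp only [Units.val_pow_eq_pow_val, ptk_incl_val] at this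
  rw [Units.val_pow_eq_pow_val, ptk_incl_val_val]
  exact this

theorem ptk_hasRoots_of_isAlgClosed [IsAlgClosed Ω] {p : ℕ} [NeZero p] (B : Subgroup Kˣ) :
    ptk_HasRoots Ω p B := by
  intro b _
  obtain ⟨y, hy⟩ := IsAlgClosed.exists_pow_nat_eq (algebraMap K Ω b) (NeZero.pos p)
  have hy0 : y ≠ 0 := by
    rintro rfl
    rw [zero_pow (NeZero.ne p)] at hy
    exact (ptk_incl K Ω b).ne_zero hy.symm
  exact ⟨Units.mk0 y hy0, by ext; simpa using hy⟩

theorem ptk_field_isGalois {p : ℕ} [NeZero p] {ζ : K} (hζ : IsPrimitiveRoot ζ p)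
    (B : Subgroup Kˣ) : IsGalois K ↥(ptk_field Ω p B) :=
  ptk_isGalois hζ (ptk_field_gen p B)

/-- **Kummer degree formula** for `K(B^{1/p}) ⊆ Ω` -/
theorem ptk_field_finrank {p : ℕ} [NeZero p] {ζ : K} (hζ : IsPrimitiveRoot ζ p)
    {B : Subgroup Kˣ} (hroots : ptk_HasRoots Ω p B) (hfin : (ptk_pows K p).relIndex B ≠ 0) :
    Module.finrank K ↥(ptk_field Ω p B) = (ptk_pows K p).relIndex B :=
  ptk_finrank_eq_relIndex hζ (ptk_field_gen p B) (ptk_field_hasRoots hroots) hfin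

theorem ptk_field_finiteDimensional {p : ℕ} [NeZero p] {ζ : K} (hζ : IsPrimitiveRoot ζ p)
    {B : Subgroup Kˣ} (hroots : ptk_HasRoots Ω p B) (hfin : (ptk_pows K p).relIndex B ≠ 0) :
    FiniteDimensional K ↥(ptk_field Ω p B) :=
  FiniteDimensional.of_finrank_pos (by
    rw [ptk_field_finrank hζ hroots hfin]; exact Nat.pos_of_ne_zero hfin)

end Ambient

end Fermat.Agent.Lib.PT
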