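import Mathlib

/-!
# S55 long-haul, package K3: Kummer theory in exponent `p` (architecture independent)

`K` a field containing a primitive `p`-th root of unity `ζ`, `M/K` a field extension,
`B` a subgroup of `Kˣ`.

* `ptk_rootGroup p B`: the group of `x : Mˣ` with `x ^ p ∈ B`;
* `ptk_delta σ x = σ x / x`, the Kummer pairing;
* `ptk_delta_pow`, `ptk_delta_mul`: it takes values in `μ_p` and is bimultiplicative.
-/

set_option autoImplicit false

namespace Fermat.Agent.Lib.PT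

open IntermediateField Polynomial

section Basic

variable {K M : Type*} [Field K] [Field M] [Algebra K M]

/-- the embedding `Kˣ → Mˣ` -/
noncomputable abbrev ptk_incl (K M : Type*) [Field K] [Field M] [Algebra K M] : Kˣ →* Mˣ :=
  Units.map (algebraMap K M : K →* M)

theorem ptk_incl_injective : Function.Injective (ptk_incl K M) :=
  Units.map_injective (algebraMap K M).injective

theorem ptk_incl_val (c : Kˣ) : ((ptk_incl K M c : Mˣ) : M) = algebraMap K M c := rfl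

/-- the action of `σ` on units -/
noncomputable abbrev ptk_act (σ : M ≃ₐ[K] M) : Mˣ →* Mˣ :=
  Units.map (σ : M →* M)

theorem ptk_act_val (σ : M ≃ₐ[K] M) (x : Mˣ) : ((ptk_act σ x : Mˣ) : M) = σ x := rfl

theorem ptk_act_incl (σ : M ≃ₐ[K] M) (c : Kˣ) : ptk_act σ (ptk_incl K M c) = ptk_incl K M c := by
  ext
  simp

theorem ptk_act_mul (σ τ : M ≃ₐ[K] M) (x : Mˣ) : ptk_act (σ * τ) x = ptk_act σ (ptk_act τ x) := by
  ext
  simp [AlgEquiv.mul_apply]

theorem ptk_act_one (x : Mˣ) : ptk_act (1 : M ≃ₐ[K] M) x = x := by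
  ext
  simp

/-- `x ↦ σ x / x` -/
noncomputable def ptk_delta (σ : M ≃ₐ[K] M) : Mˣ →* Mˣ :=
  ptk_act σ / MonoidHom.id Mˣ

theorem ptk_delta_apply (σ : M ≃ₐ[K] M) (x : Mˣ) : ptk_delta σ x = ptk_act σ x / x := rfl

theorem ptk_delta_incl (σ : M ≃ₐ[K] M) (c : Kˣ) : ptk_delta σ (ptk_incl K M c) = 1 := by
  rw [ptk_delta_apply, ptk_act_incl, div_self']

theorem ptk_delta_one (x : Mˣ) : ptk_delta (1 : M ≃ₐ[K] M) x = 1 := by
  rw [ptk_delta_apply, ptk_act_one, div_self']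

theorem ptk_delta_eq_one_iff (σ : M ≃ₐ[K] M) (x : Mˣ) : ptk_delta σ x = 1 ↔ σ x = x := by
  rw [ptk_delta_apply, div_eq_one, ← ptk_act_val, Units.val_inj]

/-- the group of `x : Mˣ` with `x ^ p` in (the image of) `B` -/
noncomputable def ptk_rootGroup (p : ℕ) (B : Subgroup Kˣ) : Subgroup Mˣ :=
  (B.map (ptk_incl K M)).comap (powMonoidHom p)

theorem ptk_mem_rootGroup {p : ℕ} {B : Subgroup Kˣ} {x : Mˣ} :
    x ∈ ptk_rootGroup (M := M) p B ↔ ∃ b ∈ B, ptk_incl K M b = x ^ p := by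
  simp [ptk_rootGroup, Subgroup.mem_comap, Subgroup.mem_map]

theorem ptk_incl_mem_rootGroup {p : ℕ} {B : Subgroup Kˣ} {c : Kˣ} (hc : c ^ p ∈ B) :
    ptk_incl K M c ∈ ptk_rootGroup (M := M) p B :=
  ptk_mem_rootGroup.mpr ⟨c ^ p, hc, map_pow _ _ _⟩

theorem ptk_delta_pow {p : ℕ} {B : Subgroup Kˣ} (σ : M ≃ₐ[K] M) {x : Mˣ}
    (hx : x ∈ ptk_rootGroup p B) : ptk_delta σ x ^ p = 1 := by
  obtain ⟨b, -, hb⟩ := ptk_mem_rootGroup.mp hx
  rw [← map_pow, ← hb, ptk_delta_incl]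

/-- `p`-th roots of unity of `M` come from `K` -/
theorem ptk_mem_range_of_pow_eq_one {p : ℕ} [NeZero p] {ζ : K} (hζ : IsPrimitiveRoot ζ p) {y : Mˣ}
    (hy : y ^ p = 1) : ∃ c : Kˣ, c ^ p = 1 ∧ ptk_incl K M c = y := by
  have hζ' : IsPrimitiveRoot (algebraMap K M ζ) p :=
    hζ.map_of_injective (algebraMap K M).injective
  have hy' : (y : M) ^ p = 1 := by rw [← Units.val_pow_eq_pow_val, hy, Units.val_one]
  obtain ⟨i, -, hi⟩ := hζ'.eq_pow_of_pow_eq_one hy'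
  have hζu : IsUnit ζ := hζ.isUnit (NeZero.ne p)
  refine ⟨hζu.unit ^ i, ?_, ?_⟩
  · ext
    rw [Units.val_pow_eq_pow_val, Units.val_pow_eq_pow_val, IsUnit.unit_spec, ← pow_mul, mul_comm,
      pow_mul, hζ.pow_eq_one, one_pow, Units.val_one]
  · ext
    rw [ptk_incl_val, Units.val_pow_eq_pow_val, IsUnit.unit_spec, map_pow, hi]

theorem ptk_delta_mul {p : ℕ} [NeZero p] {ζ : K} (hζ : IsPrimitiveRoot ζ p) {B : Subgroup Kˣ}
    (σ τ : M ≃ₐ[K] M) {x : Mˣ} (hx : x ∈ ptk_rootGroup p B) :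
    ptk_delta (σ * τ) x = ptk_delta σ x * ptk_delta τ x := by
  obtain ⟨c, -, hc⟩ := ptk_mem_range_of_pow_eq_one hζ (ptk_delta_pow τ hx)
  have h1 : ptk_act τ x = ptk_incl K M c * x := by
    rw [hc, ptk_delta_apply, div_mul_cancel]
  rw [ptk_delta_apply, ptk_act_mul, h1, map_mul, ptk_act_incl, ← hc, ptk_delta_apply σ,
    mul_div_assoc, mul_comm]

end Basic

end Fermat.Agent.Lib.PT
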