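import Fermat.Agent.Lib.PT.KummerField
import Fermat.Agent.Lib.CFT.UnramBase

/-!
# S55 long-haul, package K4: Kummer extensions are unramified away from `p` and the radicands

`K ⊆ M` number fields, `ζ_p ∈ K`, `M` generated over `K` by `p`-th roots of elements of `B ≤ Kˣ`.
If `Q` is a prime of `M` not above `p` at which all elements of `B` are units, then `Q` is
unramified over `K` (`ptk_isUnramifiedAt`): the inertia group fixes every generator.
-/

set_option autoImplicit false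
set_option linter.unusedSectionVars false

namespace Fermat.Agent.Lib.PT

open NumberField IsDedekindDomain IntermediateField
open Fermat.Agent.Lib.CFT

variable {K M : Type*} [Field K] [NumberField K] [Field M] [NumberField M] [Algebra K M]

/-- a root of unity congruent to `1` modulo a prime not containing `p` is `1` -/
theorem ptk_rootOfUnity_eq_one {p : ℕ} (Q : Ideal (𝓞 M)) [Q.IsPrime]
    (hpQ : (p : 𝓞 M) ∉ Q) {ω : 𝓞 M} (hω : ω ^ p = 1) (hQ : ω - 1 ∈ Q) : ω = 1 := by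
  by_contra hne
  have hsum : ∑ k ∈ Finset.range p, ω ^ k = 0 := by
    have h := mul_geom_sum ω p
    rw [hω, sub_self] at h
    exact (mul_eq_zero.mp h).resolve_left (sub_ne_zero.mpr hne)
  apply hpQ
  have h2 : (p : 𝓞 M) - ∑ k ∈ Finset.range p, ω ^ k ∈ Q := by
    have : (p : 𝓞 M) - ∑ k ∈ Finset.range p, ω ^ k = - ∑ k ∈ Finset.range p, (ω ^ k - 1) := by
      rw [Finset.sum_sub_distrib]
      simp
    rw [this]
    refine Q.neg_mem (Q.sum_mem fun k _ => ?_)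
    exact Ideal.mem_of_dvd _ (sub_one_dvd_pow_sub_one ω k) hQ
  rwa [hsum, sub_zero] at h2

/-- the integral generator `y = η d` attached to a `p`-th root `η` of `n / d` -/
theorem ptk_exists_integral_gen {p : ℕ} (hp : p.Prime) {η : M} {n d : 𝓞 K}
    (hη : η ^ p * algebraMap (𝓞 K) M d = algebraMap (𝓞 K) M n) :
    ∃ y : 𝓞 M, (y : M) = η * algebraMap (𝓞 K) M d ∧
      y ^ p = algebraMap (𝓞 K) (𝓞 M) (n * d ^ (p - 1)) := by
  have hp0 : p ≠ 0 := hp.ne_zero
  have key : (η * algebraMap (𝓞 K) M d) ^ p =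
      algebraMap (𝓞 K) M n * algebraMap (𝓞 K) M d ^ (p - 1) := by
    have h1 : algebraMap (𝓞 K) M d ^ p = algebraMap (𝓞 K) M d ^ (p - 1) * algebraMap (𝓞 K) M d := by
      rw [← pow_succ, Nat.sub_add_cancel hp.pos]
    rw [mul_pow, h1, ← hη]
    ring
  have hy_int : IsIntegral ℤ (η * algebraMap (𝓞 K) M d) := by
    have h1 : IsIntegral (𝓞 K) (η * algebraMap (𝓞 K) M d) := by
      refine ⟨Polynomial.X ^ p - Polynomial.C (n * d ^ (p - 1)),
        Polynomial.monic_X_pow_sub_C _ hp0, ?_⟩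
      rw [Polynomial.eval₂_sub, Polynomial.eval₂_pow, Polynomial.eval₂_X, Polynomial.eval₂_C,
        key, map_mul, map_pow, sub_self]
    exact isIntegral_trans _ h1
  refine ⟨⟨η * algebraMap (𝓞 K) M d, hy_int⟩, rfl, ?_⟩
  apply RingOfIntegers.ext
  rw [RingOfIntegers.coe_eq_algebraMap, map_pow, ← RingOfIntegers.coe_eq_algebraMap]
  change (η * algebraMap (𝓞 K) M d) ^ p = _
  rw [key, RingOfIntegers.coe_eq_algebraMap, ← IsScalarTower.algebraMap_apply (𝓞 K) (𝓞 M) M,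
    map_mul, map_pow]

/-- if `y = η c ∈ 𝓞 M` (`c ∈ K`) is prime to `Q`, `η ^ p` is fixed by `σ` and `σ y ≡ y mod Q`, then
`σ η = η` -/
theorem ptk_fix_of_sub_mem {p : ℕ} (hp : p.Prime) (Q : Ideal (𝓞 M)) [Q.IsPrime]
    (hpQ : (p : 𝓞 M) ∉ Q) (σ : M ≃ₐ[K] M) {η : M} (hη0 : η ≠ 0) (hηp : σ (η ^ p) = η ^ p)
    {y : 𝓞 M} {c : K} (hy : (y : M) = η * algebraMap K M c) (hyQ : y ∉ Q)
    (h : σ • y - y ∈ Q) : σ η = η := by
  have hp0 : p ≠ 0 := hp.ne_zero
  have hωp : (σ η / η) ^ p = 1 := by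
    rw [div_pow, ← map_pow, hηp, div_self (pow_ne_zero _ hη0)]
  have hω_int : IsIntegral ℤ (σ η / η) :=
    ⟨Polynomial.X ^ p - 1, Polynomial.monic_X_pow_sub_C 1 hp0, by simp [hωp]⟩
  set ω : 𝓞 M := ⟨σ η / η, hω_int⟩ with hω
  have hωc : (ω : M) = σ η / η := rfl
  have hω1 : ω ^ p = 1 := by
    apply RingOfIntegers.ext
    rw [RingOfIntegers.coe_eq_algebraMap, map_pow, ← RingOfIntegers.coe_eq_algebraMap, hωc, hωp]
    simp
  have hσy : σ • y = ω * y := by
    apply RingOfIntegers.ext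
    have h1 : ((σ • y : 𝓞 M) : M) = σ (y : M) := rfl
    rw [h1, hy, map_mul, σ.commutes, RingOfIntegers.coe_eq_algebraMap (ω * y), map_mul,
      ← RingOfIntegers.coe_eq_algebraMap, ← RingOfIntegers.coe_eq_algebraMap, hωc, hy]
    field_simp
  have h4 : (ω - 1) * y ∈ Q := by
    rwa [hσy, ← sub_one_mul] at h
  have h5 : ω - 1 ∈ Q := (Ideal.IsPrime.mem_or_mem inferInstance h4).resolve_right hyQ
  have h6 := ptk_rootOfUnity_eq_one Q hpQ hω1 h5
  have h7 : σ η / η = 1 := by rw [← hωc, h6]; rfl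
  exact (div_eq_one_iff_eq hη0).mp h7

/-- the inertia group at `Q` fixes `p`-th roots of elements of `K` that are units at `Q` -/
theorem ptk_inertia_fix {p : ℕ} (hp : p.Prime) (Q : Ideal (𝓞 M)) [Q.IsPrime]
    (hpQ : (p : 𝓞 M) ∉ Q) (σ : M ≃ₐ[K] M) (hσ : ∀ x : 𝓞 M, σ • x - x ∈ Q)
    {η : M} {n d : 𝓞 K} (hd : d ∉ Q.under (𝓞 K)) (hn : n ∉ Q.under (𝓞 K))
    (hη : η ^ p * algebraMap (𝓞 K) M d = algebraMap (𝓞 K) M n) : σ η = η := by
  have hp0 : p ≠ 0 := hp.ne_zero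
  have hn0 : algebraMap (𝓞 K) M n ≠ 0 := by
    intro h
    apply hn
    have : n = 0 := by
      have hinj : Function.Injective (algebraMap (𝓞 K) M) :=
        FaithfulSMul.algebraMap_injective (𝓞 K) M
      exact hinj (by rw [h, map_zero])
    rw [this]; exact zero_mem _
  have hη0 : η ≠ 0 := by
    rintro rfl
    rw [zero_pow hp0, zero_mul] at hη
    exact hn0 hη.symm
  have hd0 : algebraMap (𝓞 K) M d ≠ 0 := by
    intro h
    rw [h, mul_zero] at hη
    exact hn0 hη.symm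
  have hfix : ∀ c : 𝓞 K, σ (algebraMap (𝓞 K) M c) = algebraMap (𝓞 K) M c := by
    intro c
    rw [IsScalarTower.algebraMap_apply (𝓞 K) K M, σ.commutes]
  obtain ⟨y, hyc, hyp⟩ := ptk_exists_integral_gen (K := K) hp hη
  have hηp : σ (η ^ p) = η ^ p := by
    have : η ^ p = algebraMap (𝓞 K) M n / algebraMap (𝓞 K) M d := by
      rw [eq_div_iff hd0, hη]
    rw [this, map_div₀, hfix, hfix]
  have hyQ : y ∉ Q := by
    intro hy'
    have h1 : y ^ p ∈ Q := Q.pow_mem_of_mem hy' p hp.pos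
    rw [hyp] at h1
    have h3 : n * d ^ (p - 1) ∈ Q.under (𝓞 K) := h1
    rcases Ideal.IsPrime.mem_or_mem inferInstance h3 with h | h
    · exact hn h
    · exact hd (Ideal.IsPrime.mem_of_pow_mem inferInstance _ h)
  refine ptk_fix_of_sub_mem hp Q hpQ σ hη0 hηp (c := algebraMap (𝓞 K) K d) ?_ hyQ (hσ y)
  rw [hyc, ← IsScalarTower.algebraMap_apply (𝓞 K) K M]

/-- **Kummer extensions are unramified** at primes not above `p` at which the radicands are
units. -/
theorem ptk_isUnramifiedAt {p : ℕ} [hp : Fact p.Prime] {ζ : K} (hζ : IsPrimitiveRoot ζ p)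
    {B : Subgroup Kˣ} (hgen : adjoin K (ptk_rootSet (M := M) p B) = ⊤)
    (Q : Ideal (𝓞 M)) [Q.IsPrime] (hQ : Q ≠ ⊥) (hpQ : (p : 𝓞 M) ∉ Q)
    (v : HeightOneSpectrum (𝓞 K)) (hv : v.asIdeal = Q.under (𝓞 K))
    (hB : ∀ b ∈ B, v.valuation K ((b : Kˣ) : K) = 1) :
    Algebra.IsUnramifiedAt (𝓞 K) Q := by
  have : NeZero p := ⟨hp.out.ne_zero⟩
  have hGal : IsGalois K M := ptk_isGalois hζ hgen
  apply cfh_isUnramifiedAt_of_inertia (K := K) Q hQ
  intro σ hσ
  apply ptk_eq_one_of_fix hgen σ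
  rintro _ ⟨y, hy, rfl⟩
  obtain ⟨b, hb, hby⟩ := ptk_mem_rootGroup.mp hy
  obtain ⟨n, ⟨d, hd⟩, hnd⟩ := v.exists_primeCompl_mul_eq_of_integer ((b : Kˣ) : K) (hB b hb).le
  have hd' : d ∉ v.asIdeal := hd
  have hn' : n ∉ v.asIdeal := by
    rw [← HeightOneSpectrum.valuation_eq_one_iff_notMem (K := K), ← hnd, map_mul, hB b hb,
      one_mul, HeightOneSpectrum.valuation_eq_one_iff_notMem]
    exact hd'
  rw [hv] at hd' hn'
  refine ptk_inertia_fix hp.out Q hpQ σ hσ hd' hn' ?_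
  have h1 : ((y : Mˣ) : M) ^ p = algebraMap K M ((b : Kˣ) : K) := by
    rw [← Units.val_pow_eq_pow_val, ← hby, ptk_incl_val]
  rw [h1, IsScalarTower.algebraMap_apply (𝓞 K) K M d, IsScalarTower.algebraMap_apply (𝓞 K) K M n,
    ← map_mul, hnd]

end Fermat.Agent.Lib.PT
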