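import Fermat.Agent.Lib.PT.LocRam
import Fermat.Agent.Lib.PT.LocalPowD

set_option autoImplicit false
set_option linter.unusedSectionVars false

namespace Fermat.Agent.Lib.PT

open IsLocalRing

variable (q : ℕ) [Fact q.Prime]
variable (K : Type*) [Field K] [Algebra ℚ_[q] K] [FiniteDimensional ℚ_[q] K]

instance ptl_charZero_O : CharZero (ptl_O q K) := by
  have := ptl_charZero q K
  refine ⟨fun a b h => ?_⟩
  have h2 : ((a : ptl_O q K) : K) = ((b : ptl_O q K) : K) := congrArg _ h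
  exact_mod_cast h2

/-- The ring of integers of a local field is `𝔪`-adically (pre)complete. -/
instance ptl_isPrecomplete : IsPrecomplete (maximalIdeal (ptl_O q K)) (ptl_O q K) := by
  constructor
  intro f hf
  have hc0 : 0 ≤ ptl_abs q K (ptl_unif q K) := (ptl_unif_pos q K).le
  have hc1 := ptl_unif_lt_one q K
  -- successive differences
  have hdiff : ∀ n, ptl_abs q K (((f (n + 1) : ptl_O q K) : K) - ((f n : ptl_O q K) : K)) ≤
      1 * ptl_abs q K (ptl_unif q K) ^ n := by
    intro n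
    have h := hf (Nat.le_succ n)
    rw [SModEq.sub_mem, smul_eq_mul, Ideal.mul_top] at h
    have h2 := (ptl_mem_maximalIdeal_pow q K _ n).mp h
    rw [one_mul, ← map_neg_eq_map]
    simpa using h2
  obtain ⟨y, hy⟩ := ptl_exists_limit q K (fun n => ((f n : ptl_O q K) : K)) 1
    (ptl_abs q K (ptl_unif q K)) zero_le_one hc0 hc1 hdiff
  have hyO : y ∈ ptl_O q K := by
    rw [ptl_mem_O]
    have h0 := hy 0
    simp only [pow_zero, mul_one] at h0
    have : y = (y - ((f 0 : ptl_O q K) : K)) + ((f 0 : ptl_O q K) : K) := by ring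
    rw [this]
    exact (ptl_abs_add_le_max q _ _).trans (max_le h0 (ptl_abs_le_one q (f 0)))
  refine ⟨⟨y, hyO⟩, fun n => ?_⟩
  rw [SModEq.sub_mem, smul_eq_mul, Ideal.mul_top, ptl_mem_maximalIdeal_pow]
  have := hy n
  rw [one_mul, ← map_neg_eq_map] at this
  simpa using this

/-- **Local `p`-power index**: `[Kˣ : (Kˣ)^p] = p · #μ_p(O_K) · #(O_K / p)` for a finite extension
`K` of `ℚ_q` (any primes `p`, `q`). -/
theorem ptl_index_pow {p : ℕ} (hp : p.Prime) :
    (powMonoidHom p : Kˣ →* Kˣ).range.index =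
      p * (Nat.card (rootsOfUnity p (ptl_O q K)) *
        Nat.card (ptl_O q K ⧸ Ideal.span {(p : ptl_O q K)})) :=
  cfh_index_pow_field (R := ptl_O q K) K hp

/-- `O_K / p` is finite. -/
instance ptl_finite_quot_natCast (p : ℕ) [NeZero p] :
    Finite (ptl_O q K ⧸ Ideal.span {(p : ptl_O q K)}) := by
  have hp0 : (p : ptl_O q K) ≠ 0 := by exact_mod_cast NeZero.ne p
  obtain ⟨n, hn⟩ : ∃ n : ℕ, maximalIdeal (ptl_O q K) ^ n ≤ Ideal.span {(p : ptl_O q K)} := by
    obtain ⟨n, u, hu⟩ := IsDiscreteValuationRing.eq_unit_mul_pow_irreducible hp0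
      (IsDiscreteValuationRing.irreducible_of_span_eq_maximalIdeal (ptl_unifO q K)
        (ptl_unifO_ne_zero q K) (ptl_maximalIdeal_eq q K))
    refine ⟨n, ?_⟩
    rw [ptl_maximalIdeal_eq, Ideal.span_singleton_pow, Ideal.span_singleton_le_span_singleton, hu]
    exact ⟨((u⁻¹ : (ptl_O q K)ˣ) : ptl_O q K), by
      rw [mul_comm (u : ptl_O q K), mul_assoc, Units.mul_inv, mul_one]⟩
  exact Finite.of_surjective _ (Ideal.Quotient.factor_surjective hn)

include q in
/-- the `p`-th powers have finite index in `Kˣ` -/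
theorem ptl_index_pow_ne_zero {p : ℕ} (hp : p.Prime) :
    (powMonoidHom p : Kˣ →* Kˣ).range.index ≠ 0 := by
  have : NeZero p := ⟨hp.ne_zero⟩
  rw [ptl_index_pow q K hp]
  have h1 : Nat.card (rootsOfUnity p (ptl_O q K)) ≠ 0 := Nat.card_pos.ne'
  have h2 : Nat.card (ptl_O q K ⧸ Ideal.span {(p : ptl_O q K)}) ≠ 0 := Nat.card_pos.ne'
  exact mul_ne_zero hp.ne_zero (mul_ne_zero h1 h2)

end Fermat.Agent.Lib.PT
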