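/-
  Local toolkit for S55 (Poitou–Tate), part L1a: roots of unity of order prime to `q` in an
  algebraic extension of `ℚ_[q]` are distinct modulo the maximal ideal.
  Owner: helper6.  Prefix `ptl_`.
-/
import Fermat.Agent.Lib.PT.LocInt

set_option autoImplicit false

namespace Fermat.Agent.Lib.PT

variable (q : ℕ) [Fact q.Prime]

section Roots

variable {L : Type*} [Field L] [Algebra ℚ_[q] L] [Algebra.IsAlgebraic ℚ_[q] L]

/-- A root of unity has absolute value `1`. -/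
theorem ptl_abs_of_pow_eq_one {ζ : L} {m : ℕ} (hm : m ≠ 0) (hζ : ζ ^ m = 1) :
    ptl_abs q L ζ = 1 := by
  have h := congrArg (ptl_abs q L) hζ
  rw [map_pow, map_one] at h
  exact (pow_eq_one_iff_of_nonneg ((ptl_abs q L).nonneg ζ) hm).mp h

/-- If `|x - 1| < 1` then `|x ^ i - 1| < 1`. -/
theorem ptl_abs_pow_sub_one_lt {x : L} (hx : ptl_abs q L (x - 1) < 1) (i : ℕ) :
    ptl_abs q L (x ^ i - 1) < 1 := by
  induction i with
  | zero => simp
  | succ i ih =>
    have e : x ^ (i + 1) - 1 = (x ^ i - 1) * x + (x - 1) := by ring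
    rw [e]
    have hx1 : ptl_abs q L x ≤ 1 := by
      have : x = (x - 1) + 1 := by ring
      rw [this]
      exact (ptl_abs_add_le_max q _ _).trans (max_le hx.le (by simp))
    refine (ptl_abs_add_le_max q _ _).trans_lt (max_lt ?_ hx)
    rw [map_mul]
    calc ptl_abs q L (x ^ i - 1) * ptl_abs q L x ≤ ptl_abs q L (x ^ i - 1) * 1 :=
          mul_le_mul_of_nonneg_left hx1 ((ptl_abs q L).nonneg _)
      _ < 1 := by rw [mul_one]; exact ih

/-- A nontrivial root of unity of order prime to `q` is not congruent to `1` modulo the maximal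
ideal. -/
theorem ptl_abs_sub_one_of_pow_eq_one {ζ : L} {m : ℕ} (hm : Nat.Coprime m q) (hζ : ζ ^ m = 1)
    (h1 : ζ ≠ 1) : ptl_abs q L (ζ - 1) = 1 := by
  have hm0 : m ≠ 0 := by
    rintro rfl
    rw [Nat.coprime_zero_left] at hm
    exact (Fact.out : q.Prime).one_lt.ne' hm
  have hζ1 : ptl_abs q L ζ = 1 := ptl_abs_of_pow_eq_one q hm0 hζ
  have hle : ptl_abs q L (ζ - 1) ≤ 1 :=
    (ptl_abs_sub_le_max q _ _).trans (max_le hζ1.le (by simp))
  by_contra hne
  have hlt : ptl_abs q L (ζ - 1) < 1 := lt_of_le_of_ne hle hne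
  -- `∑_{i<m} ζ^i = 0` but it is `≡ m` modulo the maximal ideal
  have hgeom : (∑ i ∈ Finset.range m, ζ ^ i) * (ζ - 1) = ζ ^ m - 1 := geom_sum_mul ζ m
  rw [hζ, sub_self] at hgeom
  have hsum0 : ∑ i ∈ Finset.range m, ζ ^ i = 0 := by
    rcases mul_eq_zero.mp hgeom with h | h
    · exact h
    · exact absurd (sub_eq_zero.mp h) h1
  have hsum : ptl_abs q L (∑ i ∈ Finset.range m, (ζ ^ i - 1)) < 1 :=
    ptl_abs_sum_lt q _ _ one_pos fun i _ => ptl_abs_pow_sub_one_lt q hlt i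
  rw [Finset.sum_sub_distrib, hsum0, zero_sub, ptl_abs_neg, Finset.sum_const, Finset.card_range,
    nsmul_eq_mul, mul_one, ptl_abs_natCast_of_coprime q hm] at hsum
  exact lt_irrefl _ hsum

/-- Two roots of unity of order prime to `q` which are congruent modulo the maximal ideal are
equal. -/
theorem ptl_eq_of_pow_eq_one_of_abs_sub_lt {ζ ξ : L} {m : ℕ} (hm : Nat.Coprime m q)
    (hζ : ζ ^ m = 1) (hξ : ξ ^ m = 1) (h : ptl_abs q L (ζ - ξ) < 1) : ζ = ξ := by
  have hm0 : m ≠ 0 := by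
    rintro rfl
    rw [Nat.coprime_zero_left] at hm
    exact (Fact.out : q.Prime).one_lt.ne' hm
  have hξ1 : ptl_abs q L ξ = 1 := ptl_abs_of_pow_eq_one q hm0 hξ
  have hξ0 : ξ ≠ 0 := by
    intro h0; rw [h0, map_zero] at hξ1; exact zero_ne_one hξ1
  by_contra hne
  have h1 : ζ / ξ ≠ 1 := by
    intro h2; exact hne ((div_eq_one_iff_eq hξ0).mp h2)
  have h2 : (ζ / ξ) ^ m = 1 := by rw [div_pow, hζ, hξ, div_one]
  have h3 := ptl_abs_sub_one_of_pow_eq_one q hm h2 h1
  have h4 : ζ / ξ - 1 = (ζ - ξ) / ξ := by field_simp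
  rw [h4, map_div₀, hξ1, div_one] at h3
  rw [h3] at h
  exact lt_irrefl _ h

end Roots

end Fermat.Agent.Lib.PT
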