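/-
  Local toolkit (helper6, prefix `ptl_`): "unramified" (`Function.Injective (ptl_galRes q K L)`)
  passes to the top of a tower: if `K ⊆ F ⊆ L` and `Gal(L/K)` acts faithfully on the residue
  field of `L`, so does `Gal(L/F)`.
-/
import Fermat.Agent.Lib.PT.LocExt

set_option autoImplicit false

namespace Fermat.Agent.Lib.PT

variable (q : ℕ) [Fact q.Prime]

section Tower

variable (K F L : Type*) [Field K] [Algebra ℚ_[q] K] [Algebra.IsAlgebraic ℚ_[q] K]
  [Field F] [Algebra ℚ_[q] F] [Algebra.IsAlgebraic ℚ_[q] F]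
  [Field L] [Algebra ℚ_[q] L] [Algebra.IsAlgebraic ℚ_[q] L]
  [Algebra K F] [Algebra F L] [Algebra K L]
  [IsScalarTower ℚ_[q] K L] [IsScalarTower ℚ_[q] F L] [IsScalarTower K F L]

/-- The residue action of `σ ∈ Gal(L/F)` is that of `σ` viewed in `Gal(L/K)`. -/
theorem ptl_galRes_restrictScalars (σ : L ≃ₐ[F] L) (x : ptl_k q L) :
    ptl_galRes q K L (σ.restrictScalars K) x = ptl_galRes q F L σ x := by
  obtain ⟨x, rfl⟩ := IsLocalRing.residue_surjective x
  rw [ptl_galRes_residue, ptl_galRes_residue]
  rfl

/-- **Unramified in towers** (top part): if `L/K` is unramified (faithful residue action) and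
`K ⊆ F ⊆ L`, then `L/F` is unramified. -/
theorem ptl_galRes_injective_of_tower (h : Function.Injective (ptl_galRes q K L)) :
    Function.Injective (ptl_galRes q F L) := by
  rw [injective_iff_map_eq_one]
  intro σ hσ
  have h1 : ptl_galRes q K L (σ.restrictScalars K) = 1 := by
    ext x
    rw [ptl_galRes_restrictScalars, hσ]
    rfl
  have h2 : σ.restrictScalars K = 1 := by
    apply h
    rw [h1, map_one]
  ext x
  have := DFunLike.congr_fun h2 x
  exact this

end Tower

end Fermat.Agent.Lib.PT
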