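/-
Hermite–Minkowski in the Prelude's ramification language: a finite Galois extension `L/ℚ` inside
`AlgebraicClosure ℚ` on which every inertia group `A.inertiaSubgroupIn ℚ` (at every valuation
subring `A` over every prime number) acts trivially is `ℚ`; consequently an everywhere unramified
character of `Gal(ℚ̄/ℚ)` of finite level is trivial.

Inputs: Mathlib's `NumberField.abs_discr_gt_two`, `not_dvd_differentIdeal_iff`,
`absNorm_differentIdeal`, and the ramification bridge `cfg_unram` of `Lib/CFT/RamBridge`.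
-/
import Mathlib
import Fermat.Agent.Lib.CFT.RamBridge

set_option autoImplicit false
set_option linter.unusedSectionVars false
set_option linter.unusedVariables false

noncomputable section

namespace Fermat.Agent.Lib.PT

open NumberField Fermat.Agent.Lib.CFT

local notation "Qbar" => AlgebraicClosure ℚ
local notation "GQ" => (AlgebraicClosure ℚ ≃ₐ[ℚ] AlgebraicClosure ℚ)

/-- **Hermite–Minkowski**: a number field all of whose nonzero primes are unramified over `ℤ`
has degree `1`. -/
theorem pts_finrank_eq_one_of_unram (L : Type*) [Field L] [NumberField L]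
    (h : ∀ (Q : Ideal (𝓞 L)) [Q.IsPrime], Q ≠ ⊥ → Algebra.IsUnramifiedAt ℤ Q) :
    Module.finrank ℚ L = 1 := by
  have hD : differentIdeal ℤ (𝓞 L) = ⊤ := by
    by_contra hne
    obtain ⟨Q, hQmax, hle⟩ := Ideal.exists_le_maximal _ hne
    have hQprime : Q.IsPrime := hQmax.isPrime
    have hQbot : Q ≠ ⊥ := Ring.ne_bot_of_isMaximal_of_not_isField hQmax (RingOfIntegers.not_isField L)
    have h1 := (not_dvd_differentIdeal_iff (A := ℤ) (P := Q)).mpr (h Q hQbot)
    exact h1 (Ideal.dvd_iff_le.mpr hle)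
  have h1 : (discr L).natAbs = 1 := by
    rw [← absNorm_differentIdeal L (𝓞 L), hD, Ideal.absNorm_top]
  by_contra hne
  have hpos : 0 < Module.finrank ℚ L := Module.finrank_pos
  have hlt : 1 < Module.finrank ℚ L := by omega
  have h2 := abs_discr_gt_two hlt
  have h3 : |discr L| = 1 := by
    rw [Int.abs_eq_natAbs, h1]; rfl
  rw [h3] at h2
  norm_num at h2

/-- unramified over `𝓞 ℚ` implies unramified over `ℤ` -/
lemma pts_isUnramifiedAt_int_of_ratInt {L : Type*} [Field L] [NumberField L]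
    (Q : Ideal (𝓞 L)) [Q.IsPrime] (h : Algebra.IsUnramifiedAt (𝓞 ℚ) Q) :
    Algebra.IsUnramifiedAt ℤ Q := by
  have hsurj : Function.Surjective (algebraMap ℤ (𝓞 ℚ)) := by
    intro x
    refine ⟨Rat.ringOfIntegersEquiv x, ?_⟩
    apply Rat.ringOfIntegersEquiv.injective
    rw [eq_intCast, map_intCast]
    rfl
  have h1 : Algebra.FormallyUnramified ℤ (𝓞 ℚ) := Algebra.FormallyUnramified.of_surjective
    (Algebra.ofId ℤ (𝓞 ℚ)) hsurj
  have h2 : Algebra.FormallyUnramified (𝓞 ℚ) (Localization.AtPrime Q) := h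
  exact Algebra.FormallyUnramified.comp ℤ (𝓞 ℚ) (Localization.AtPrime Q)

/-- **Minkowski, inertia form**: a finite Galois extension `L/ℚ` inside `ℚ̄` fixed pointwise by
all the inertia groups at all prime numbers is `ℚ`. -/
theorem pts_eq_bot_of_inertia_trivial (L : IntermediateField ℚ Qbar) [FiniteDimensional ℚ L]
    [IsGalois ℚ L]
    (h : ∀ ℓ : ℕ, ℓ.Prime → ∀ A : ValuationSubring Qbar, A.LiesOverPrime ℓ →
      ∀ σ ∈ A.inertiaSubgroupIn ℚ, ∀ x ∈ L, σ x = x) :
    L = ⊥ := by
  have : NumberField L := ⟨⟩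
  have hun : cft_Unram ℚ L := cfg_unram (p := 1) (K := ℚ) (L := L)
    (fun ℓ hℓ _ A hA σ hσ x => h ℓ hℓ A hA σ hσ x x.2)
    (fun A hA => by
      exfalso
      have h1 : ((1 : ℕ) : Qbar) ∈ A.nonunits := hA
      rw [Nat.cast_one] at h1
      rw [ValuationSubring.mem_nonunits_iff, map_one] at h1
      exact lt_irrefl _ h1)
  have h1 : Module.finrank ℚ L = 1 := pts_finrank_eq_one_of_unram L
    (fun Q _ hQ => pts_isUnramifiedAt_int_of_ratInt Q (hun Q hQ))
  exact IntermediateField.finrank_eq_one_iff.mp h1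

/-- **Everywhere unramified characters of `Gal(ℚ̄/ℚ)` are trivial**: a homomorphism `χ` from
`Gal(ℚ̄/ℚ)` to any group which is trivial on the fixing subgroup of a finite extension and on all
the inertia groups at all prime numbers is trivial. -/
theorem pts_hom_eq_one_of_unramified {H : Type*} [Group H] (χ : GQ →* H)
    (hlev : ∃ F : IntermediateField ℚ Qbar, FiniteDimensional ℚ F ∧
      ∀ σ ∈ F.fixingSubgroup, χ σ = 1)
    (hunr : ∀ ℓ : ℕ, ℓ.Prime → ∀ A : ValuationSubring Qbar, A.LiesOverPrime ℓ →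
      ∀ σ ∈ A.inertiaSubgroupIn ℚ, χ σ = 1) (σ : GQ) : χ σ = 1 := by
  have hgal : IsGalois ℚ Qbar := cfg_isGalois_QBar
  obtain ⟨F, hF, hFχ⟩ := hlev
  have hle : F.fixingSubgroup ≤ χ.ker := fun τ hτ => MonoidHom.mem_ker.mpr (hFχ τ hτ)
  set L : IntermediateField ℚ Qbar := IntermediateField.fixedField χ.ker with hLdef
  have hLF : L ≤ F := by
    have h1 : IntermediateField.fixedField χ.ker ≤ IntermediateField.fixedField F.fixingSubgroup :=
      IntermediateField.fixedField_antitone hle
    rwa [InfiniteGalois.fixedField_fixingSubgroup F] at h1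
  have hLfin : FiniteDimensional ℚ L := by
    let _ : Algebra L F := RingHom.toAlgebra (IntermediateField.inclusion hLF)
    have : IsScalarTower ℚ L F := IsScalarTower.of_algebraMap_eq (fun x => rfl)
    exact FiniteDimensional.left ℚ L F
  have hLgal : IsGalois ℚ L := IsGalois.of_fixedField_normal_subgroup χ.ker
  have hL : L = ⊥ := pts_eq_bot_of_inertia_trivial L (fun ℓ hℓ A hA τ hτ x hx =>
    hx ⟨τ, MonoidHom.mem_ker.mpr (hunr ℓ hℓ A hA τ hτ)⟩)
  have hopen : IsOpen (χ.ker : Set GQ) :=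
    Subgroup.isOpen_mono hle (IntermediateField.fixingSubgroup_isOpen F)
  have hclosed : IsClosed (χ.ker : Set GQ) :=
    OpenSubgroup.isClosed ⟨χ.ker, hopen⟩
  have h2 := InfiniteGalois.fixingSubgroup_fixedField (k := ℚ) (K := Qbar)
    ⟨χ.ker, hclosed⟩
  have h3 : (IntermediateField.fixedField χ.ker).fixingSubgroup = χ.ker := h2
  rw [← hLdef, hL] at h3
  have h4 : σ ∈ (⊥ : IntermediateField ℚ Qbar).fixingSubgroup := by
    rw [IntermediateField.fixingSubgroup_bot]
    exact Subgroup.mem_top σ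
  rw [h3] at h4
  exact MonoidHom.mem_ker.mp h4

/-- two characters of finite level of `Gal(ℚ̄/ℚ)` with values in a commutative group which
agree on all the inertia groups at all prime numbers are equal -/
theorem pts_hom_eq_of_inertia_eq {H : Type*} [CommGroup H] (χ χ' : GQ →* H)
    (hlev : ∃ F : IntermediateField ℚ Qbar, FiniteDimensional ℚ F ∧
      ∀ σ ∈ F.fixingSubgroup, χ σ = 1)
    (hlev' : ∃ F : IntermediateField ℚ Qbar, FiniteDimensional ℚ F ∧
      ∀ σ ∈ F.fixingSubgroup, χ' σ = 1)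
    (h : ∀ ℓ : ℕ, ℓ.Prime → ∀ A : ValuationSubring Qbar, A.LiesOverPrime ℓ →
      ∀ σ ∈ A.inertiaSubgroupIn ℚ, χ σ = χ' σ) : χ = χ' := by
  obtain ⟨F, hF, hFχ⟩ := hlev
  obtain ⟨F', hF', hFχ'⟩ := hlev'
  have key := pts_hom_eq_one_of_unramified (χ / χ')
    ⟨F ⊔ F', inferInstance, fun σ hσ => by
      have h1 : σ ∈ F.fixingSubgroup :=
        (IntermediateField.fixingSubgroup_antitone (le_sup_left : F ≤ F ⊔ F')) hσ
      have h2 : σ ∈ F'.fixingSubgroup :=
        (IntermediateField.fixingSubgroup_antitone (le_sup_right : F' ≤ F ⊔ F')) hσ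
      rw [MonoidHom.div_apply, hFχ σ h1, hFχ' σ h2, div_one]⟩
    (fun ℓ hℓ A hA σ hσ => by
      rw [MonoidHom.div_apply, h ℓ hℓ A hA σ hσ, div_self'])
  ext σ
  have := key σ
  rw [MonoidHom.div_apply, div_eq_one] at this
  rw [this]

end Fermat.Agent.Lib.PT
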