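/-
Global characters of `Gal(ℚ̄/ℚ)` with values in `𝔽_p^×` (for the moonshot M1 / S13, step (v)):
a character of finite level which is unramified outside `p` and agrees with `ω^a`
(`ω = cycloChar p`) on the inertia groups over `p` is `ω^a` (Minkowski, `MinkUnr`).
-/
import Mathlib
import Fermat.Agent.Lib.PT.MinkUnr
import Fermat.Agent.Lib.PT.GLevelTwist

set_option autoImplicit false
set_option linter.unusedSectionVars false
set_option linter.unusedVariables false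

noncomputable section

namespace Fermat.Agent.Lib.PT

open ExtCitation

local notation "Qbar" => AlgebraicClosure ℚ
local notation "GQ" => (AlgebraicClosure ℚ ≃ₐ[ℚ] AlgebraicClosure ℚ)

variable {p : ℕ} [hp : Fact p.Prime]

/-- the powers of the mod `p` cyclotomic character have finite level -/
lemma pts_cycloChar_pow_level (a : ℕ) :
    ∃ F : IntermediateField ℚ Qbar, FiniteDimensional ℚ F ∧
      ∀ σ ∈ F.fixingSubgroup, (cycloChar p ^ a) σ = 1 :=
  ⟨pta_cycloField p, inferInstance, fun σ hσ => by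
    rw [pta_fixingSubgroup_cycloField, MonoidHom.mem_ker] at hσ
    rw [MonoidHom.pow_apply, hσ, one_pow]⟩

/-- **a character unramified outside `p` which is `ω^a` on the inertia groups over `p` is
`ω^a`** -/
theorem pts_char_eq_cycloChar_pow (χ : GQ →* (ZMod p)ˣ)
    (hlev : ∃ F : IntermediateField ℚ Qbar, FiniteDimensional ℚ F ∧
      ∀ σ ∈ F.fixingSubgroup, χ σ = 1)
    (hunr : ∀ ℓ : ℕ, ℓ.Prime → ℓ ≠ p → ∀ A : ValuationSubring Qbar, A.LiesOverPrime ℓ →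
      ∀ σ ∈ A.inertiaSubgroupIn ℚ, χ σ = 1)
    (a : ℕ)
    (hpa : ∀ A : ValuationSubring Qbar, A.LiesOverPrime p →
      ∀ σ ∈ A.inertiaSubgroupIn ℚ, χ σ = cycloChar p σ ^ a) :
    χ = cycloChar p ^ a := by
  refine pts_hom_eq_of_inertia_eq χ (cycloChar p ^ a) hlev (pts_cycloChar_pow_level a) ?_
  intro ℓ hℓ A hA σ hσ
  rw [MonoidHom.pow_apply]
  by_cases hℓp : ℓ = p
  · subst hℓp
    exact hpa A hA σ hσ
  · rw [hunr ℓ hℓ hℓp A hA σ hσ, pta_cycloChar_unramified hℓ hℓp A hA σ hσ, one_pow]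

/-- a character unramified outside `p` and trivial on the inertia groups over `p` is trivial -/
theorem pts_char_eq_one (χ : GQ →* (ZMod p)ˣ)
    (hlev : ∃ F : IntermediateField ℚ Qbar, FiniteDimensional ℚ F ∧
      ∀ σ ∈ F.fixingSubgroup, χ σ = 1)
    (hunr : ∀ ℓ : ℕ, ℓ.Prime → ∀ A : ValuationSubring Qbar, A.LiesOverPrime ℓ →
      ∀ σ ∈ A.inertiaSubgroupIn ℚ, χ σ = 1) : χ = 1 := by
  ext σ
  rw [pts_hom_eq_one_of_unramified χ hlev hunr σ]
  rfl

/-- **the pair of characters of a reducible `E[p]`**: if `χ₁ χ₂ = ω`, both are unramified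
outside `p`, and on every inertia group over `p` one of them is trivial, uniformly
(`χ₁ = 1` on all inertia over `p`, or `χ₂ = 1` on all inertia over `p`), then `(χ₁, χ₂) = (1, ω)`
or `(ω, 1)`. -/
theorem pts_char_pair (χ₁ χ₂ : GQ →* (ZMod p)ˣ)
    (hlev₁ : ∃ F : IntermediateField ℚ Qbar, FiniteDimensional ℚ F ∧
      ∀ σ ∈ F.fixingSubgroup, χ₁ σ = 1)
    (hlev₂ : ∃ F : IntermediateField ℚ Qbar, FiniteDimensional ℚ F ∧
      ∀ σ ∈ F.fixingSubgroup, χ₂ σ = 1)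
    (hdet : ∀ σ, χ₁ σ * χ₂ σ = cycloChar p σ)
    (hunr₁ : ∀ ℓ : ℕ, ℓ.Prime → ℓ ≠ p → ∀ A : ValuationSubring Qbar, A.LiesOverPrime ℓ →
      ∀ σ ∈ A.inertiaSubgroupIn ℚ, χ₁ σ = 1)
    (hunr₂ : ∀ ℓ : ℕ, ℓ.Prime → ℓ ≠ p → ∀ A : ValuationSubring Qbar, A.LiesOverPrime ℓ →
      ∀ σ ∈ A.inertiaSubgroupIn ℚ, χ₂ σ = 1)
    (hp12 : (∀ A : ValuationSubring Qbar, A.LiesOverPrime p →
        ∀ σ ∈ A.inertiaSubgroupIn ℚ, χ₁ σ = 1) ∨
      (∀ A : ValuationSubring Qbar, A.LiesOverPrime p →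
        ∀ σ ∈ A.inertiaSubgroupIn ℚ, χ₂ σ = 1)) :
    (χ₁ = 1 ∧ χ₂ = cycloChar p) ∨ (χ₁ = cycloChar p ∧ χ₂ = 1) := by
  rcases hp12 with h | h
  · left
    have h1 : χ₁ = 1 := pts_char_eq_one χ₁ hlev₁ (fun ℓ hℓ A hA σ hσ => by
      by_cases hℓp : ℓ = p
      · subst hℓp; exact h A hA σ hσ
      · exact hunr₁ ℓ hℓ hℓp A hA σ hσ)
    refine ⟨h1, ?_⟩
    ext σ
    have := hdet σ
    rw [h1, MonoidHom.one_apply, one_mul] at this
    rw [this]
  · right
    have h2 : χ₂ = 1 := pts_char_eq_one χ₂ hlev₂ (fun ℓ hℓ A hA σ hσ => by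
      by_cases hℓp : ℓ = p
      · subst hℓp; exact h A hA σ hσ
      · exact hunr₂ ℓ hℓ hℓp A hA σ hσ)
    refine ⟨?_, h2⟩
    ext σ
    have := hdet σ
    rw [h2, MonoidHom.one_apply, mul_one] at this
    rw [this]

end Fermat.Agent.Lib.PT
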