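/-
S55 (Poitou–Tate long haul), G-track, (CR) (helper6, prefix `ptl_`): THE LOCAL CYCLOTOMIC TOWER AT
`p` (p odd).
* `ptl_cyclo_irreducible_padic` : `Φ_{p^(n+1)}` is irreducible over `ℚ_p` (Eisenstein over `ℤ_p`);
* **(P4)** `ptl_cycloPow_local_surjective`, `ptl_chi_local_surjective` : the cyclotomic character
  mod `p^(n+1)` and the tower characters `χ_m` are surjective on the decomposition group
  `localGaloisToGlobal p (G_p)`;
* `ptl_chiLoc q p m hp2 := fun τ => ptl_chi p m hp2 (localGaloisToGlobal q τ)` (abbrev), a level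
  character of `G_q` (`ptl_chiLoc_isChar`, `ptl_chiLoc_isLev₁`);
* **(P1)** `ptl_bockSmul_p_isB2` : `p · δ(χ_m ∘ r_p)` is a level coboundary (`p` is the norm of
  `∏_{ω ∈ μ_{p-1}} (1 - ζ^ω)`, `Φ_{p^(m+1)}(1) = p`, + norm ⇒ coboundary of RcpBock).
-/
import Fermat.Agent.Lib.PT.RcpTower
import Fermat.Agent.Lib.PT.RcpBock
import Fermat.Agent.Lib.PT.BridgeL

set_option autoImplicit false
set_option linter.unusedSectionVars false

namespace Fermat.Agent.Lib.PT

open ExtCitation Polynomial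

section Irred

variable (p : ℕ) [hp : Fact p.Prime] (n : ℕ)

/-- `Φ_{p^(n+1)}(X+1)` is irreducible over `ℤ_p` (Eisenstein) -/
lemma ptl_cyclo_comp_irreducible_padicInt :
    Irreducible ((cyclotomic (p ^ (n + 1)) ℤ_[p]).comp (X + 1)) := by
  have hE := cyclotomic_prime_pow_comp_X_add_one_isEisensteinAt p n
  set f := (cyclotomic (p ^ (n + 1)) ℤ).comp (X + 1) with hf
  have hmap : f.map (Int.castRingHom ℤ_[p]) = (cyclotomic (p ^ (n + 1)) ℤ_[p]).comp (X + 1) := by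
    rw [hf, map_comp, map_cyclotomic]; simp
  have hmonic : f.Monic := by
    have := (cyclotomic.monic (p ^ (n + 1)) ℤ).comp_X_add_C 1
    simpa using this
  have hmonic' : (f.map (Int.castRingHom ℤ_[p])).Monic := hmonic.map _
  have hdeg : (f.map (Int.castRingHom ℤ_[p])).natDegree = f.natDegree := hmonic.natDegree_map _
  have hpprime : Prime (p : ℤ_[p]) := PadicInt.prime_p
  rw [← hmap]
  apply irreducible_of_eisenstein_criterion (P := Ideal.span {(p : ℤ_[p])})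
  · rw [Ideal.span_singleton_prime hpprime.ne_zero]; exact hpprime
  · rw [hmonic'.leadingCoeff, Ideal.mem_span_singleton]
    exact hpprime.not_dvd_one
  · intro i hi
    rw [coeff_map]
    have hi' : i < f.natDegree := by
      rw [← hdeg]; exact coe_lt_degree.mp hi
    have := hE.mem hi'
    rw [Ideal.mem_span_singleton] at this ⊢
    obtain ⟨c, hc⟩ := this
    exact ⟨(c : ℤ_[p]), by rw [hc]; simp⟩
  · rw [← natDegree_pos_iff_degree_pos, hdeg]
    rw [hf]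
    have : (X + 1 : ℤ[X]) = X + C 1 := by simp
    rw [this, natDegree_comp, natDegree_X_add_C, mul_one, natDegree_cyclotomic]
    exact Nat.totient_pos.mpr (pow_pos hp.out.pos _)
  · rw [coeff_map, coeff_zero_eq_eval_zero, hf, eval_comp]
    simp only [eval_add, eval_X, eval_one, zero_add]
    rw [eval_one_cyclotomic_prime_pow, Ideal.span_singleton_pow, Ideal.mem_span_singleton]
    intro hdvd
    rw [pow_two] at hdvd
    obtain ⟨c, hc⟩ := hdvd
    have h1 : (p : ℤ_[p]) * 1 = p * (p * c) := by rw [mul_one, ← mul_assoc]; exact hc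
    have h2 := mul_left_cancel₀ hpprime.ne_zero h1
    exact hpprime.not_dvd_one ⟨c, h2⟩
  · exact hmonic'.isPrimitive

/-- the cyclotomic polynomial `Φ_{p^(n+1)}` is irreducible over `ℚ_p` -/
theorem ptl_cyclo_irreducible_padic : Irreducible (cyclotomic (p ^ (n + 1)) ℚ_[p]) := by
  have h1 := ptl_cyclo_comp_irreducible_padicInt p n
  have hmonic : ((cyclotomic (p ^ (n + 1)) ℤ_[p]).comp (X + 1)).Monic := by
    have := (cyclotomic.monic (p ^ (n + 1)) ℤ_[p]).comp_X_add_C 1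
    simpa using this
  rw [hmonic.irreducible_iff_irreducible_map_fraction_map (K := ℚ_[p]), map_comp,
    map_cyclotomic] at h1
  have h2 : (cyclotomic (p ^ (n + 1)) ℚ_[p]).comp (map (algebraMap ℤ_[p] ℚ_[p]) (X + 1)) =
      algEquivAevalXAddC (1 : ℚ_[p]) (cyclotomic (p ^ (n + 1)) ℚ_[p]) := by
    simp [algEquivAevalXAddC, aeval_def, comp, eval₂_eq_eval_map]
  rw [h2] at h1
  exact (MulEquiv.irreducible_iff (algEquivAevalXAddC (1 : ℚ_[p]))).mp h1

end Irred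

section LocalSurj

variable (p : ℕ) [hp : Fact p.Prime] (n : ℕ)

local notation "Gp" => (PadicAlgCl p ≃ₐ[ℚ_[p]] PadicAlgCl p)

/-- all primitive `p^(n+1)`-th roots of unity of `Ω_p` are conjugate over `ℚ_p` -/
theorem ptl_exists_local_aut {ζ : PadicAlgCl p} (hζ : IsPrimitiveRoot ζ (p ^ (n + 1)))
    (u : (ZMod (p ^ (n + 1)))ˣ) :
    ∃ σ : Gp, σ ζ = ζ ^ (u : ZMod (p ^ (n + 1))).val := by
  have hcop : (u : ZMod (p ^ (n + 1))).val.Coprime (p ^ (n + 1)) := ZMod.val_coe_unit_coprime u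
  have hζ' : IsPrimitiveRoot (ζ ^ (u : ZMod (p ^ (n + 1))).val) (p ^ (n + 1)) :=
    hζ.pow_of_coprime _ hcop
  have hirr := ptl_cyclo_irreducible_padic p n
  have hpos : 0 < p ^ (n + 1) := pow_pos hp.out.pos _
  have hmin : ∀ μ : PadicAlgCl p, IsPrimitiveRoot μ (p ^ (n + 1)) →
      minpoly ℚ_[p] μ = cyclotomic (p ^ (n + 1)) ℚ_[p] := by
    intro μ hμ
    refine (minpoly.eq_of_irreducible_of_monic hirr ?_ (cyclotomic.monic _ _)).symm
    rw [aeval_def, eval₂_eq_eval_map, map_cyclotomic]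
    exact hμ.isRoot_cyclotomic hpos
  have hconj : IsConjRoot ℚ_[p] (ζ ^ (u : ZMod (p ^ (n + 1))).val) ζ := by
    unfold IsConjRoot
    rw [hmin _ hζ, hmin _ hζ']
  have : Normal ℚ_[p] (PadicAlgCl p) := IsAlgClosure.normal ℚ_[p] (PadicAlgCl p)
  obtain ⟨g, hg⟩ := isConjRoot_iff_exists_algEquiv.mp hconj
  exact ⟨g, hg⟩

/-- the image of helper4's root of unity in `Ω_p` -/
noncomputable def ptl_zetaLoc : PadicAlgCl p := padicEmbedding p (pts_zetaPow p n)

lemma ptl_zetaLoc_spec : IsPrimitiveRoot (ptl_zetaLoc p n) (p ^ n) :=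
  (pts_zetaPow_spec p n).map_of_injective (padicEmbedding p).injective

variable {p n}

/-- the local action on the roots of unity is through the global cyclotomic character -/
lemma ptl_zetaLoc_smul (σ : Gp) :
    σ (ptl_zetaLoc p n) =
      ptl_zetaLoc p n ^ ((pts_cycloPow p n (localGaloisToGlobal p σ) : ZMod (p ^ n))).val := by
  unfold ptl_zetaLoc
  rw [← padicEmbedding_localGaloisToGlobal, ← pts_cycloPow_spec, map_pow]

/-- **(P4)** the mod `p^(n+1)` cyclotomic character is surjective on the decomposition group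
at `p` (`Φ_{p^(n+1)}` is irreducible over `ℚ_p`) -/
theorem ptl_cycloPow_local_surjective :
    Function.Surjective fun σ : Gp => pts_cycloPow p (n + 1) (localGaloisToGlobal p σ) := by
  intro u
  obtain ⟨σ, hσ⟩ := ptl_exists_local_aut p n (ptl_zetaLoc_spec p (n + 1)) u
  refine ⟨σ, ?_⟩
  rw [ptl_zetaLoc_smul] at hσ
  have h3 := (ptl_zetaLoc_spec p (n + 1)).pow_inj (ZMod.val_lt _) (ZMod.val_lt _) hσ
  apply Units.ext
  rw [← ZMod.natCast_zmod_val ((pts_cycloPow p (n + 1) (localGaloisToGlobal p σ) :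
    ZMod (p ^ (n + 1)))), h3, ZMod.natCast_zmod_val]

/-- `χ_m ∘ r_p` is surjective -/
theorem ptl_chi_local_surjective (hp2 : p ≠ 2) (m : ℕ) :
    Function.Surjective fun σ : Gp => ptl_chi p m hp2 (localGaloisToGlobal p σ) := by
  intro y
  obtain ⟨u, rfl⟩ := ptl_lam_surjective (p := p) (m := m) hp2 y
  obtain ⟨σ, hσ⟩ := ptl_cycloPow_local_surjective (p := p) (n := m) u
  have hσ' : pts_cycloPow p (m + 1) (localGaloisToGlobal p σ) = u := hσ
  exact ⟨σ, by simp only [ptl_chi]; rw [hσ']⟩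

end LocalSurj


section ProdUnits

variable {K : Type*} [Field K] {N : ℕ} [NeZero N]

/-- `∏_{ω ∈ (ℤ/N)ˣ} (1 - ζ^ω) = Φ_N(1)` -/
theorem ptl_prod_units_one_sub {ζ : K} (hζ : IsPrimitiveRoot ζ N) :
    ∏ ω : (ZMod N)ˣ, (1 - ζ ^ (ω : ZMod N).val) = eval 1 (cyclotomic N K) := by
  rw [cyclotomic_eq_prod_X_sub_primitiveRoots hζ, eval_prod]
  simp only [eval_sub, eval_X, eval_C]
  refine Finset.prod_bij (fun ω _ => ζ ^ (ω : ZMod N).val) ?_ ?_ ?_ ?_
  · intro ω _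
    rw [mem_primitiveRoots (NeZero.pos N)]
    exact hζ.pow_of_coprime _ (ZMod.val_coe_unit_coprime ω)
  · intro ω _ ω' _ h
    have := hζ.pow_inj (ZMod.val_lt _) (ZMod.val_lt _) h
    exact Units.ext (ZMod.val_injective N this)
  · intro μ hμ
    rw [mem_primitiveRoots (NeZero.pos N), hζ.isPrimitiveRoot_iff] at hμ
    obtain ⟨i, hi, hcop, rfl⟩ := hμ
    refine ⟨ZMod.unitOfCoprime i hcop, Finset.mem_univ _, ?_⟩
    rw [ZMod.coe_unitOfCoprime, ZMod.val_natCast_of_lt hi]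
  · intro ω _
    rfl

/-- `ζ^((a b).val) = ζ^(a.val * b.val)` -/
lemma ptl_pow_val_mul {ζ : K} (hζ : ζ ^ N = 1) (a b : (ZMod N)ˣ) :
    ζ ^ ((a * b : (ZMod N)ˣ) : ZMod N).val = ζ ^ ((a : ZMod N).val * (b : ZMod N).val) := by
  rw [Units.val_mul, ZMod.val_mul, ← pow_eq_pow_mod _ hζ]

end ProdUnits

section LamHom

variable {p : ℕ} [hp : Fact p.Prime] (hp2 : p ≠ 2) {m : ℕ}

lemma ptl_lam_one : ptl_lam p m hp2 1 = 0 := by
  rw [ptl_lam_eq_zero_iff, one_pow]

lemma ptl_lam_pow (u : (ZMod (p ^ (m + 1)))ˣ) (k : ℕ) :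
    ptl_lam p m hp2 (u ^ k) = k • ptl_lam p m hp2 u := by
  induction k with
  | zero => simp [ptl_lam_one]
  | succ k ih => rw [pow_succ, ptl_lam_mul, ih, succ_nsmul]

lemma ptl_lam_inv (u : (ZMod (p ^ (m + 1)))ˣ) :
    ptl_lam p m hp2 u⁻¹ = -ptl_lam p m hp2 u := by
  have := ptl_lam_mul hp2 u u⁻¹
  rw [mul_inv_cancel, ptl_lam_one] at this
  exact (neg_eq_of_add_eq_zero_right this.symm).symm

end LamHom

section ChiLoc

variable (q : ℕ) [Fact q.Prime] (p : ℕ) [hp : Fact p.Prime] (m : ℕ) (hp2 : p ≠ 2)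

/-- the local tower character `χ_m ∘ r_q : G_q → ℤ/p^m` -/
noncomputable abbrev ptl_chiLoc : (PadicAlgCl q ≃ₐ[ℚ_[q]] PadicAlgCl q) → ZMod (p ^ m) :=
  fun τ => ptl_chi p m hp2 (localGaloisToGlobal q τ)

variable {q p m}

lemma ptl_chiLoc_isChar : ptd_IsChar (ptl_chiLoc q p m hp2) := fun g h => by
  show ptl_chi p m hp2 (localGaloisToGlobal q (g * h)) = _
  rw [map_mul, ptl_chi_isChar hp2]

lemma ptl_chiLoc_isLev₁ : ptd_IsLev₁ (ptg_levels q) (ptl_chiLoc q p m hp2) := by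
  refine ⟨_, pta_mem_levelsR (r := localGaloisToGlobal q)
    (pts_cycloPowField_finiteDimensional (p := p) (n := m + 1)) pts_cycloPowField_stable,
    fun g s hs => ?_⟩
  have hs' : localGaloisToGlobal q s ∈ (pts_cycloPowField p (m + 1)).fixingSubgroup := hs
  rw [pts_fixingSubgroup_cycloPowField, MonoidHom.mem_ker] at hs'
  show ptl_chi p m hp2 (localGaloisToGlobal q (g * s)) = ptl_chi p m hp2 (localGaloisToGlobal q g)
  rw [map_mul, ptl_chi_isChar hp2]
  have : ptl_chi p m hp2 (localGaloisToGlobal q s) = 0 := by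
    unfold ptl_chi
    rw [hs', ptl_lam_one]
  rw [this, add_zero]

end ChiLoc

section P1

variable {p : ℕ} [hp : Fact p.Prime] (hp2 : p ≠ 2) (m : ℕ)

local notation "Gp" => (PadicAlgCl p ≃ₐ[ℚ_[p]] PadicAlgCl p)

/-- the factor `1 - ζ^ω` -/
noncomputable def ptl_cycUnit (ω : (ZMod (p ^ (m + 1)))ˣ) : PadicAlgCl p :=
  1 - ptl_zetaLoc p (m + 1) ^ (ω : ZMod (p ^ (m + 1))).val

lemma ptl_cycUnit_ne_zero (ω : (ZMod (p ^ (m + 1)))ˣ) : ptl_cycUnit m ω ≠ 0 := by
  unfold ptl_cycUnit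
  have h1 : IsPrimitiveRoot (ptl_zetaLoc p (m + 1) ^ (ω : ZMod (p ^ (m + 1))).val) (p ^ (m + 1)) :=
    (ptl_zetaLoc_spec p (m + 1)).pow_of_coprime _ (ZMod.val_coe_unit_coprime ω)
  have h2 : 1 < p ^ (m + 1) := Nat.one_lt_pow (Nat.succ_ne_zero m) hp.out.one_lt
  exact sub_ne_zero.mpr (h1.ne_one h2).symm

/-- Galois acts on the factors through the cyclotomic character -/
lemma ptl_smul_cycUnit (σ : Gp) (ω : (ZMod (p ^ (m + 1)))ˣ) :
    σ (ptl_cycUnit m ω) =
      ptl_cycUnit m (pts_cycloPow p (m + 1) (localGaloisToGlobal p σ) * ω) := by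
  unfold ptl_cycUnit
  rw [map_sub, map_one, map_pow, ptl_zetaLoc_smul,
    ptl_pow_val_mul (ptl_zetaLoc_spec p (m + 1)).pow_eq_one, ← pow_mul]

/-- `∏_ω (1 - ζ^ω) = p` -/
lemma ptl_prod_cycUnit : ∏ ω : (ZMod (p ^ (m + 1)))ˣ, ptl_cycUnit m ω = (p : PadicAlgCl p) := by
  unfold ptl_cycUnit
  rw [ptl_prod_units_one_sub (ptl_zetaLoc_spec p (m + 1)), eval_one_cyclotomic_prime_pow]

/-- the kernel of `λ_m` as a finset -/
noncomputable def ptl_lamKer : Finset (ZMod (p ^ (m + 1)))ˣ :=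
  Finset.univ.filter fun ω => ptl_lam p m hp2 ω = 0

lemma ptl_mem_lamKer (ω : (ZMod (p ^ (m + 1)))ˣ) :
    ω ∈ ptl_lamKer hp2 m ↔ ptl_lam p m hp2 ω = 0 := by
  unfold ptl_lamKer; simp

/-- the element `y₀ = ∏_{ω ∈ ker λ} (1 - ζ^ω)`, whose norm is `p` -/
noncomputable def ptl_y0 : PadicAlgCl p := ∏ ω ∈ ptl_lamKer hp2 m, ptl_cycUnit m ω

lemma ptl_y0_ne_zero : ptl_y0 hp2 m ≠ 0 :=
  Finset.prod_ne_zero_iff.mpr fun ω _ => ptl_cycUnit_ne_zero m ω

/-- the action of Galois on `y₀` -/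
lemma ptl_smul_y0 (σ : Gp) :
    σ (ptl_y0 hp2 m) = ∏ ω ∈ ptl_lamKer hp2 m,
      ptl_cycUnit m (pts_cycloPow p (m + 1) (localGaloisToGlobal p σ) * ω) := by
  unfold ptl_y0
  rw [map_prod]
  exact Finset.prod_congr rfl fun ω _ => ptl_smul_cycUnit m σ ω

/-- `y₀` is fixed by the kernel of `χ_m ∘ r_p` -/
lemma ptl_smul_y0_of_ker (σ : Gp) (hσ : ptl_chiLoc p p m hp2 σ = 0) :
    σ (ptl_y0 hp2 m) = ptl_y0 hp2 m := by
  rw [ptl_smul_y0]
  unfold ptl_y0
  set u := pts_cycloPow p (m + 1) (localGaloisToGlobal p σ) with hu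
  have hu0 : ptl_lam p m hp2 u = 0 := hσ
  refine Finset.prod_nbij' (fun ω => u * ω) (fun ω => u⁻¹ * ω) ?_ ?_ ?_ ?_ ?_
  · intro ω hω
    rw [ptl_mem_lamKer] at hω ⊢
    rw [ptl_lam_mul, hu0, hω, add_zero]
  · intro ω hω
    rw [ptl_mem_lamKer] at hω ⊢
    rw [ptl_lam_mul, ptl_lam_inv, hu0, hω, neg_zero, add_zero]
  · intro ω _; simp
  · intro ω _; simp
  · intro ω _; rfl

/-- the norm of `y₀` along `τ` with `χ_m τ = 1` is `p` -/
lemma ptl_prod_smul_y0 (τ : Gp) (hτ : ptl_chiLoc p p m hp2 τ = 1) :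
    ∏ i ∈ Finset.range (p ^ m), (τ ^ i) (ptl_y0 hp2 m) = (p : PadicAlgCl p) := by
  set u := pts_cycloPow p (m + 1) (localGaloisToGlobal p τ) with hu
  have hu1 : ptl_lam p m hp2 u = 1 := hτ
  have h1 : ∀ i ∈ Finset.range (p ^ m), (τ ^ i) (ptl_y0 hp2 m) =
      ∏ ω ∈ ptl_lamKer hp2 m, ptl_cycUnit m (u ^ i * ω) := by
    intro i _
    rw [ptl_smul_y0, map_pow, map_pow]
  rw [Finset.prod_congr rfl h1, ← Finset.prod_product', ← ptl_prod_cycUnit m]
  have hpm : 0 < p ^ m := pow_pos hp.out.pos m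
  refine Finset.prod_nbij' (fun x => u ^ x.1 * x.2)
    (fun v => ((ptl_lam p m hp2 v).val, (u ^ (ptl_lam p m hp2 v).val)⁻¹ * v)) ?_ ?_ ?_ ?_ ?_
  · intro x _; exact Finset.mem_univ _
  · intro v _
    rw [Finset.mem_product, Finset.mem_range, ptl_mem_lamKer]
    refine ⟨ZMod.val_lt _, ?_⟩
    rw [ptl_lam_mul, ptl_lam_inv, ptl_lam_pow, hu1, nsmul_eq_mul, mul_one,
      ZMod.natCast_zmod_val, neg_add_cancel]
  · rintro ⟨i, ω⟩ hx
    rw [Finset.mem_product, Finset.mem_range, ptl_mem_lamKer] at hx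
    have hl : ptl_lam p m hp2 (u ^ i * ω) = (i : ZMod (p ^ m)) := by
      rw [ptl_lam_mul, ptl_lam_pow, hu1, hx.2, add_zero, nsmul_eq_mul, mul_one]
    have hv : (ptl_lam p m hp2 (u ^ i * ω)).val = i := by
      rw [hl, ZMod.val_natCast_of_lt hx.1]
    simp only [hv, inv_mul_cancel_left]
  · intro v _
    simp only [mul_inv_cancel_left]
  · intro x _; rfl

variable (p) in
/-- the unit `p ∈ ℚ_pˣ` -/
noncomputable def ptl_pUnit : ℚ_[p]ˣ :=
  Units.mk0 (p : ℚ_[p]) (by exact_mod_cast hp.out.ne_zero)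

lemma ptl_unitsRep_apply (σ : Gp) (y : (PadicAlgCl p)ˣ) :
    ptg_unitsRep p σ (Additive.ofMul y) = Additive.ofMul (Units.map (σ : PadicAlgCl p →* PadicAlgCl p) y) := by
  rw [Representation.ofMulDistribMulAction_apply_apply]
  apply congrArg Additive.ofMul
  apply Units.ext
  rw [AlgEquiv.smul_units_def]
  rfl

/-- **(P1)** `p` is a norm from the `m`-th layer of the local cyclotomic `ℤ_p`-extension:
`p · δ(χ_m ∘ r_p)` is a level coboundary. -/
theorem ptl_bockSmul_p_isB2 :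
    ptd_IsB2 (ptg_levels p) (ptg_unitsRep p)
      (ptd_bockSmul (p ^ m) (ptl_chiLoc p p m hp2)
        (Additive.ofMul (Units.map (algebraMap ℚ_[p] (PadicAlgCl p) : ℚ_[p] →* PadicAlgCl p)
          (ptl_pUnit p)))) := by
  obtain ⟨τ, hτ⟩ := ptl_chi_local_surjective hp2 m 1
  have hτ' : ptl_chiLoc p p m hp2 τ = 1 := hτ
  set Y : (PadicAlgCl p)ˣ := Units.mk0 (ptl_y0 hp2 m) (ptl_y0_ne_zero hp2 m) with hY
  have hfix : ∀ v, ptl_chiLoc p p m hp2 v = 0 →
      ptg_unitsRep p v (Additive.ofMul Y) = Additive.ofMul Y := by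
    intro v hv
    rw [ptl_unitsRep_apply]
    apply congrArg Additive.ofMul
    apply Units.ext
    rw [Units.coe_map]
    exact ptl_smul_y0_of_ker hp2 m v hv
  have hnorm : ∑ i ∈ Finset.range (p ^ m), ptg_unitsRep p (τ ^ i) (Additive.ofMul Y) =
      Additive.ofMul (Units.map (algebraMap ℚ_[p] (PadicAlgCl p) : ℚ_[p] →* PadicAlgCl p)
        (ptl_pUnit p)) := by
    simp only [ptl_unitsRep_apply]
    rw [← ofMul_prod]
    apply congrArg Additive.ofMul
    apply Units.ext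
    rw [Units.coe_prod]
    simp only [Units.coe_map, MonoidHom.coe_coe]
    have := ptl_prod_smul_y0 hp2 m τ hτ'
    rw [hY]
    simp only [Units.val_mk0]
    rw [this]
    unfold ptl_pUnit
    simp
  rw [← hnorm]
  exact ptl_bockSmulN_isB2_of_norm (ptl_chiLoc_isChar hp2) (ptl_chiLoc_isLev₁ hp2) hτ' hfix

end P1

end Fermat.Agent.Lib.PT
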