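/-
S55 / inputs (1), (2) of the final consumer (helper6): THE LOCAL LEVEL DATA `ptl_DL hp2 q` at all
primes — helper9's `pti_localLevelData q p` for `q ≠ p` and its twist (helper5's
`ptn_LevelData.twist`) by the inverse of the `p`-adic unit `c = (ptl_twistUnit hp2 m)_m` at `q = p` —
with
* `ptl_DL_ne` : `DL q = pti_localLevelData q p` for `q ≠ p` (= `hDL` of `ptl_recipFor_locInvOf` and
  of helper8's `cfh_hcyc_model`),
* `ptl_DL_htw` : `inv_{DL p} z = c_m • inv_p z` on level cocycles killed by `p^m` (= `htw`),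
* **`ptl_hR hp2 : ∀ k, ptj_RecipFor (ptj_locInvOf p (ptl_DL hp2)) (p ^ k) (ptl_chi p k hp2)`**.
-/
import Fermat.Agent.Lib.PT.RcpMain
import Fermat.Agent.Lib.PT.BrgTwistC

set_option autoImplicit false
set_option linter.unusedSectionVars false

namespace Fermat.Agent.Lib.PT

open ExtCitation

variable {p : ℕ} [Fact p.Prime] (hp2 : p ≠ 2)

/-- the `p`-adic unit `c = (c_m)_m` of the cyclotomic reciprocity law, as a unit system -/
noncomputable def ptl_unitSys : ptn_UnitSys p where
  e k := (ptl_twistUnit hp2 k : ℤ)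
  coprime k := by
    have hp : p.Prime := Fact.out
    have h1 : Nat.Coprime (ptl_twistUnit hp2 k) (p ^ k) :=
      Nat.Coprime.pow_right k ((hp.coprime_iff_not_dvd.mpr (ptl_twistUnit_not_dvd hp2 k)).symm)
    have h2 := Nat.isCoprime_iff_coprime.mpr h1
    simpa using h2
  compat k := by
    have h := (ptl_twistUnit_succ hp2 k).symm
    have h2 := (Nat.modEq_iff_dvd.mp h)
    simpa using h2

lemma ptl_unitSys_e (k : ℕ) : (ptl_unitSys hp2).e k = (ptl_twistUnit hp2 k : ℤ) := rfl

/-- **the local level data at all primes**: twisted by `c⁻¹` at `p`. -/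
noncomputable def ptl_DL (q : Nat.Primes) :
    ptn_LevelData (ptg_levels (q : ℕ)) (ptg_unitsRep (q : ℕ)) p :=
  if h : q = pPrime p then
    h ▸ (pti_localLevelData p p).twist (ptl_unitSys hp2).inv
  else pti_localLevelData (q : ℕ) p

lemma ptl_DL_ne (q : Nat.Primes) (hq : q ≠ pPrime p) :
    ptl_DL hp2 q = pti_localLevelData (q : ℕ) p := by
  unfold ptl_DL
  rw [dif_neg hq]

lemma ptl_DL_p :
    ptl_DL hp2 (pPrime p) = (pti_localLevelData p p).twist (ptl_unitSys hp2).inv := by
  unfold ptl_DL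
  rw [dif_pos rfl]

/-- `htw` of `ptl_recipFor_locInvOf`: on level cocycles killed by `p^m` the invariant of the
twisted level data at `p` is `c_m` times the untwisted one. -/
theorem ptl_DL_htw (m : ℕ) (z : (PadicAlgCl p ≃ₐ[ℚ_[p]] PadicAlgCl p) ×
      (PadicAlgCl p ≃ₐ[ℚ_[p]] PadicAlgCl p) → Additive (PadicAlgCl p)ˣ)
    (hz : ptd_IsLZ2 (ptg_levels p) (ptg_unitsRep p) z)
    (hB : ptd_IsB2 (ptg_levels p) (ptg_unitsRep p) (p ^ m • z)) :
    ptn_invG (ptl_DL hp2 (pPrime p)) (ptg_isDiscrete_units p) z =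
      ptl_twistUnit hp2 m • ptn_invG (pti_localLevelData p p) (ptg_isDiscrete_units p) z := by
  have hk : p ^ m • ptn_invG (pti_localLevelData p p) (ptg_isDiscrete_units p) z = 0 := by
    rw [← ptn_invG_nsmul_all (pti_localLevelData p p) (ptg_isDiscrete_units p) hz]
    exact (ptn_invG (pti_localLevelData p p) (ptg_isDiscrete_units p)).map_b2' _ hB
  have key := ptn_invG_twist_inv (pti_localLevelData p p) (ptg_isDiscrete_units p)
    (ptl_unitSys hp2) hz m hk
  rw [ptl_unitSys_e, natCast_zsmul] at key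
  have e : ptn_invG (ptl_DL hp2 (pPrime p)) (ptg_isDiscrete_units p) z =
      ptn_invG ((pti_localLevelData p p).twist (ptl_unitSys hp2).inv)
        (ptg_isDiscrete_units p) z := by
    rw [ptl_DL_p]
    rfl
  exact e.trans key

/-- **input (2) of the final consumer**: (CR) for the local invariants of `ptl_DL`. -/
theorem ptl_hR : ∀ k : ℕ,
    ptj_RecipFor (ptj_locInvOf p (ptl_DL hp2)) (p ^ k) (ptl_chi p k hp2) :=
  ptl_recipFor_locInvOf hp2 (ptl_DL hp2) (ptl_DL_ne hp2) (ptl_DL_htw hp2)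

end Fermat.Agent.Lib.PT
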