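/-
S55 (Poitou–Tate long-haul): **THE MODEL ASSEMBLY, part D**: the class-formation structure of the
model (`pts_modelAbsP : ptn_AbsP …`, helper5's primitive constructor, filled with lead's `GModInv*`
lemmas, helper6's tower/reciprocity, helper7's `ptg_G5_of_G4`) and the frozen S55 statement from
its arithmetic inputs (`pts_S55_of_inputs`).
-/
import Mathlib
import Fermat.Agent.Lib.PT.S55ModelC
import Fermat.Agent.Lib.PT.AbkNorm
import Fermat.Agent.Lib.PT.RcpMain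
import Fermat.Agent.Lib.PT.GModInvG
import Fermat.Agent.Lib.PT.BridgeR

set_option autoImplicit false
set_option linter.unusedSectionVars false
set_option linter.unusedVariables false

noncomputable section

namespace Fermat.Agent.Lib.PT

open IntermediateField ExtCitation groupCohomology

local notation "Qbar" => AlgebraicClosure ℚ
local notation "GQ" => (AlgebraicClosure ℚ ≃ₐ[ℚ] AlgebraicClosure ℚ)

variable {p : ℕ} [hp : Fact p.Prime] {S : Finset Nat.Primes}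

/-- **THE CLASS FORMATION INPUT OF THE MODEL**: helper5's `ptn_AbsP` for lead's idelic model
`(G_ℚ, levels_S, J = ptj_AJ S, C = ptj_CS S, INV = ptj_INVfun (ptj_locInvOf p DL))` and the
cyclotomic tower `ptl_chi`, from cyclotomic reciprocity `hR` (helper6), the cyclic layers `hG4`
(second inequality, helper7's shape) and `hcyc` (helper8's (H-cyc)). -/
def pts_modelAbsP (hp2 : p ≠ 2) (hpS : pPrime p ∈ S)
    (DL : ∀ q : Nat.Primes, ptn_LevelData (ptg_levels (q : ℕ)) (ptg_unitsRep (q : ℕ)) p)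
    (hR : ∀ k, ptj_RecipFor (ptj_locInvOf p DL) (p ^ k) (ptl_chi p k hp2))
    (hG4 : ∀ U' N' : Subgroup GQ, (pta_levelsS S).IsOpen N' → N' ≤ U' → U' ≤ (cycloChar p).ker →
      (N'.subgroupOf U').Normal → N'.relIndex U' = p →
      ptg_H1At (ptj_CSrep S) U' N' ∧
        (ptg_B2At (ptj_CSrep S) U' N').relIndex (ptg_Z2At (ptj_CSrep S) U' N') ∣ p)
    (hcyc : ∀ (V : Subgroup GQ) (hV : (pta_levelsS S).IsOpen V) (k : ℕ), ∃ a : ptj_AJ S,
      (∀ v ∈ V, ptj_JSrep S v a = a) ∧ ∀ m : ℤ,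
        m • (ptj_locFam (ptj_locInvOf p DL) (ptj_unitCocycleHyp S)).INVU V hV
          (ptd_bockSmul (p ^ k) (fun v : V => ptl_chi p k hp2 v) a) = 0 →
        (((ptn_charKer (ptl_chi_isChar (m := k) hp2)).relIndex V : ℕ) : ℤ) ∣ m) :
    ptn_AbsP (pta_levelsS S) (ptj_JSrep S) (ptj_CSrep S) p where
  π := ptj_piJ S
  π_equiv := fun g a => ptj_piJ_equiv S g a
  discJ := ptj_isDiscrete_JS S
  discC := ptj_isDiscrete_CS S
  χ := fun k => ptl_chi p k hp2
  χ_char := fun k => ptl_chi_isChar hp2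
  χ_lev := fun k => ptl_chi_isLev₁ hp2 S hpS
  χ_surj := fun k => ptl_chi_surjective hp2
  χ_compat := fun k g => ptl_chi_compat hp2 g
  INV := fun U y => ptj_INVfun (ptj_locInvOf p DL) U y
  INV_add := fun U hU y y' hy hy' => ptj_INVfun_add _ U hU y y' hy hy'
  INV_d1 := fun U hU ψ hψ => ptj_INVfun_d1 _ U hU ψ hψ
  INV_ker := fun U hU k z hz hπ =>
    have : NeZero (p ^ k) := ⟨pow_ne_zero k hp.out.ne_zero⟩
    ptj_INVfun_bockSmul_ker _ ⟨_, hpS⟩ (ptl_chi_isChar hp2) (ptl_chi_isLev₁ hp2 S hpS) (hR k) U hU z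
      hz hπ
  lift := fun W hW c hc => ptj_lift_invariant ⟨_, hpS⟩ W hW c hc
  INV_res := fun U hU V hV hVU y hy => ptj_INVfun_res _ U hU V hV hVU y hy
  K₀ := (cycloChar p).ker
  K₀_open := pts_isOpen_cycloKer hpS
  G5_1 := fun U N hNo hNK hNU hN hpg =>
    (ptg_G5_of_G4 p (pta_levelsS S) (cycloChar p).ker (pts_not_dvd_index_ker _) hG4 U N hNo hNK hNU
      hN hpg).1
  G5_2 := fun U N hNo hNK hNU hN hpg =>
    (ptg_G5_of_G4 p (pta_levelsS S) (cycloChar p).ker (pts_not_dvd_index_ker _) hG4 U N hNo hNK hNU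
      hN hpg).2
  cyc := fun V hV k => by
    obtain ⟨a, ha, h⟩ := hcyc V hV k
    exact ⟨a, ha, fun m hm => h m (by rw [← ptj_INVfun_eq _ hV]; exact hm)⟩

set_option maxHeartbeats 1600000 in
/-- **S55 FROM ITS ARITHMETIC INPUTS**: the frozen S55 statement from
* `DL` : level data of the local class formations at all primes (twisted at `p`),
* `hR` : cyclotomic reciprocity over `ℚ` for the local invariants of `DL`,
* `hG4` : the cyclic layers (`H¹ = 0`, `#H² ∣ p`) below `ker χ_cyc` in the big model,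
* `hcyc` : (H-cyc), cyclic classes of exact order in the tower over every open `V`,
* `hF3G`, `hF3LG` : the global existence theorem in exponent `p` and the injectivity of the
  reciprocity map mod `p` over the open subgroups of `ker χ_cyc`. -/
theorem pts_S55_of_inputs (hp2 : p ≠ 2) (hpS : pPrime p ∈ S)
    (M : Rep (ZMod p) (AlgebraicClosure ℚ ≃ₐ[ℚ] AlgebraicClosure ℚ))
    [FiniteDimensional (ZMod p) M]
    (hsm : ∀ m : M, ∃ F : IntermediateField ℚ (AlgebraicClosure ℚ), FiniteDimensional ℚ F ∧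
      ∀ s ∈ F.fixingSubgroup, M.ρ s m = m)
    (hMur : ∀ q : Nat.Primes, q ∉ S → ∀ A : ValuationSubring (AlgebraicClosure ℚ),
      A.LiesOverPrime (q : ℕ) → ∀ g ∈ A.inertiaSubgroupIn ℚ, M.ρ g = 1)
    (DL : ∀ q : Nat.Primes, ptn_LevelData (ptg_levels (q : ℕ)) (ptg_unitsRep (q : ℕ)) p)
    (hR : ∀ k, ptj_RecipFor (ptj_locInvOf p DL) (p ^ k) (ptl_chi p k hp2))
    (hG4 : ∀ U' N' : Subgroup GQ, (pta_levelsS S).IsOpen N' → N' ≤ U' → U' ≤ (cycloChar p).ker →
      (N'.subgroupOf U').Normal → N'.relIndex U' = p →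
      ptg_H1At (ptj_CSrep S) U' N' ∧
        (ptg_B2At (ptj_CSrep S) U' N').relIndex (ptg_Z2At (ptj_CSrep S) U' N') ∣ p)
    (hcyc : ∀ (V : Subgroup GQ) (hV : (pta_levelsS S).IsOpen V) (k : ℕ), ∃ a : ptj_AJ S,
      (∀ v ∈ V, ptj_JSrep S v a = a) ∧ ∀ m : ℤ,
        m • (ptj_locFam (ptj_locInvOf p DL) (ptj_unitCocycleHyp S)).INVU V hV
          (ptd_bockSmul (p ^ k) (fun v : V => ptl_chi p k hp2 v) a) = 0 →
        (((ptn_charKer (ptl_chi_isChar (m := k) hp2)).relIndex V : ℕ) : ℤ) ∣ m)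
    (hF3G : ∀ (U : Subgroup GQ) (hU : (pta_levelsS S).IsOpen U), U ≤ (cycloChar p).ker →
      ptd_F3 ((pta_levelsS S).sub U hU) (ptd_resRep (ptj_CSrep S) U)
        ((pts_modelAbsP hp2 hpS DL hR hG4 hcyc).toAbsK.inv U hU))
    (hF3LG : ∀ (U : Subgroup GQ) (hU : (pta_levelsS S).IsOpen U), U ≤ (cycloChar p).ker →
      ∀ χ : U → ZMod p, ptd_IsChar χ → ptd_IsLev₁ ((pta_levelsS S).sub U hU) χ →
        (∀ c : ptj_CS S, (∀ g : U, ptd_resRep (ptj_CSrep S) U g c = c) →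
          (pts_modelAbsP hp2 hpS DL hR hG4 hcyc).toAbsK.inv U hU (ptd_bockSmul p χ c) = 0) →
        χ = 0) :
    ∃ B : sha₁ S (M.dualTwist (cycloChar p)) →ₗ[ZMod p] sha₂ S M →ₗ[ZMod p] ZMod p,
      (∀ y, (∀ x, B y x = 0) → y = 0) ∧ (∀ x, (∀ y, B y x = 0) → x = 0) :=
  pts_S55_of_AbsK_model hp2 hpS M hsm hMur DL (pts_modelAbsP hp2 hpS DL hR hG4 hcyc).toAbsK
    (fun _ => rfl) (fun _ _ => rfl) (fun _ => rfl) hF3G hF3LG

end Fermat.Agent.Lib.PT
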