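/-
S55 (Poitou–Tate long-haul): **THE MODEL ASSEMBLY, part E**: the frozen S55 statement from FIVE
arithmetic inputs.  With respect to `pts_S55_of_inputs` (part D):

* the input `hF3LG` (injectivity half of the global (F3)) is discharged by helper3's `ptd_F3inj`
  (the first inequality inside the abstract class formation);
* the input `hcyc` is discharged by helper8's `cfh_hcyc`, leaving only the unramified evaluation
  `cfh_UnrEval` of the local invariants outside `S` (helper9's `pti_invG_unr`).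
-/
import Mathlib
import Fermat.Agent.Lib.PT.S55ModelD
import Fermat.Agent.Lib.PT.AdtF3B
import Fermat.Agent.Lib.PT.HCycF

set_option autoImplicit false
set_option linter.unusedSectionVars false
set_option linter.unusedVariables false

noncomputable section

namespace Fermat.Agent.Lib.PT

open IntermediateField ExtCitation groupCohomology

local notation "Qbar" => AlgebraicClosure ℚ
local notation "GQ" => (AlgebraicClosure ℚ ≃ₐ[ℚ] AlgebraicClosure ℚ)

variable {p : ℕ} [hp : Fact p.Prime] {S : Finset Nat.Primes}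

/-- `hcyc` of `pts_modelAbsP` from helper8's `cfh_hcyc` and the unramified evaluation. -/
theorem pts_hcyc_of_unrEval (hp2 : p ≠ 2) (hpS : pPrime p ∈ S)
    (DL : ∀ q : Nat.Primes, ptn_LevelData (ptg_levels (q : ℕ)) (ptg_unitsRep (q : ℕ)) p)
    (hI : cfh_UnrEval p S (ptj_locInvOf p DL)) :
    ∀ (V : Subgroup GQ) (hV : (pta_levelsS S).IsOpen V) (k : ℕ), ∃ a : ptj_AJ S,
      (∀ v ∈ V, ptj_JSrep S v a = a) ∧ ∀ m : ℤ,
        m • (ptj_locFam (ptj_locInvOf p DL) (ptj_unitCocycleHyp S)).INVU V hV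
          (ptd_bockSmul (p ^ k) (fun v : V => ptl_chi p k hp2 v) a) = 0 →
        (((ptn_charKer (ptl_chi_isChar (m := k) hp2)).relIndex V : ℕ) : ℤ) ∣ m :=
  fun V hV k => cfh_hcyc (ptj_locInvOf p DL) (ptj_unitCocycleHyp S) hI
    (ptl_chi_isChar (m := k) hp2) (ptl_chi_isLev₁ hp2 S hpS) hV

/-- **Frozen S55 from four arithmetic inputs + the global surjectivity (F3)**: the local level
data `DL`, cyclotomic reciprocity `hR`, the cyclic layers `hG4`, the unramified evaluation `hI`,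
and the surjectivity half `hF3G` of the global (F3). -/
theorem pts_S55_of_inputs' (hp2 : p ≠ 2) (hpS : pPrime p ∈ S)
    (M : Rep (ZMod p) (AlgebraicClosure ℚ ≃ₐ[ℚ] AlgebraicClosure ℚ))
    [FiniteDimensional (ZMod p) M]
    (hsm : ∀ m : M, ∃ F : IntermediateField ℚ (AlgebraicClosure ℚ), FiniteDimensional ℚ F ∧
      ∀ s ∈ F.fixingSubgroup, M.ρ s m = m)
    (hMur : ∀ q : Nat.Primes, q ∉ S → ∀ A : ValuationSubring (AlgebraicClosure ℚ),
      A.LiesOverPrime (q : ℕ) → ∀ g ∈ A.inertiaSubgroupIn ℚ, M.ρ g = 1)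
    (DL : ∀ q : Nat.Primes, ptn_LevelData (ptg_levels (q : ℕ)) (ptg_unitsRep (q : ℕ)) p)
    (hR : ∀ k, ptj_RecipFor (ptj_locInvOf p DL) (p ^ k) (ptl_chi p k hp2))
    (hG4 : ∀ U' N' : Subgroup GQ, (pta_levelsS S).IsOpen N' → N' ≤ U' → U' ≤ (cycloChar p).ker →
      (N'.subgroupOf U').Normal → N'.relIndex U' = p →
      ptg_H1At (ptj_CSrep S) U' N' ∧
        (ptg_B2At (ptj_CSrep S) U' N').relIndex (ptg_Z2At (ptj_CSrep S) U' N') ∣ p)
    (hI : cfh_UnrEval p S (ptj_locInvOf p DL))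
    (hF3G : ∀ (U : Subgroup GQ) (hU : (pta_levelsS S).IsOpen U), U ≤ (cycloChar p).ker →
      ptd_F3 ((pta_levelsS S).sub U hU) (ptd_resRep (ptj_CSrep S) U)
        ((pts_modelAbsP hp2 hpS DL hR hG4 (pts_hcyc_of_unrEval hp2 hpS DL hI)).toAbsK.inv U hU)) :
    ∃ B : sha₁ S (M.dualTwist (cycloChar p)) →ₗ[ZMod p] sha₂ S M →ₗ[ZMod p] ZMod p,
      (∀ y, (∀ x, B y x = 0) → y = 0) ∧ (∀ x, (∀ y, B y x = 0) → x = 0) :=
  pts_S55_of_inputs hp2 hpS M hsm hMur DL hR hG4 (pts_hcyc_of_unrEval hp2 hpS DL hI) hF3G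
    (fun U hU hUK χ hχ hlev h =>
      ptd_F3inj (pts_modelAbsP hp2 hpS DL hR hG4 (pts_hcyc_of_unrEval hp2 hpS DL hI)).toAbsK
        U hU hUK χ hχ hlev h)

end Fermat.Agent.Lib.PT
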