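/-
S55 (Poitou–Tate long-haul): **THE MODEL ASSEMBLY, part F**: the local–global formula (LG-U) for a
class formation on the model, exported (`pts_EV_modelAbsK`, `pts_LGG_modelAbsK`,
`pts_LGU_modelAbsK`), and its consequence for the global existence theorem: the number of split
`S`-level characters of an open `U ≤ ker χ_cyc` is at most `#Q`,
`Q = C^U / (π(J^U) + p C^U)` (`pts_card_split_le_model`, helper3's `ptd_card_split_le_global` in
the model).
-/
import Mathlib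
import Fermat.Agent.Lib.PT.S55ModelE
import Fermat.Agent.Lib.PT.AdtF3D
import Fermat.Agent.Lib.PT.GModKumD

set_option autoImplicit false
set_option linter.unusedSectionVars false
set_option linter.unusedVariables false

noncomputable section

namespace Fermat.Agent.Lib.PT

open IntermediateField ExtCitation groupCohomology

local notation "Qbar" => AlgebraicClosure ℚ
local notation "GQ" => (AlgebraicClosure ℚ ≃ₐ[ℚ] AlgebraicClosure ℚ)

variable {p : ℕ} [hp : Fact p.Prime] {S : Finset Nat.Primes}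

/-- **(EV) for a class formation on the model**: the invariant of the cyclic cocycles of the
cyclotomic tower with `S`-supported coefficients is the sum of the local invariants. -/
theorem pts_EV_modelAbsK (hp2 : p ≠ 2) (hpS : pPrime p ∈ S)
    (DL : ∀ q : Nat.Primes, ptn_LevelData (ptg_levels (q : ℕ)) (ptg_unitsRep (q : ℕ)) p)
    (A : ptn_AbsK (pta_levelsS S) (ptj_JSrep S) (pta_EMod p hpS).ρC p)
    (hAπ : ∀ x, A.π x = ptj_piJ S x)
    (hAχ : ∀ k g, A.χ k g = ptl_chi p k hp2 g)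
    (hAINV : ∀ y : (⊤ : Subgroup GQ) × (⊤ : Subgroup GQ) → ptj_AJ S,
      A.INV ⊤ y = ptj_INVfun (ptj_locInvOf p DL) ⊤ y)
    (k : ℕ) (a : pta_EJ S) (ψ : GQ → pta_EJ S) (ha : ∀ g, pta_EJrep S g a = a)
    (hψ : ptd_IsLev₁ (pta_levelsS S) ψ) :
    A.invG (fun x => ptj_piJ S (ptj_incl S
        ((ptd_bockSmul (p ^ k) (ptl_chi p k hp2) a + ptd_d1 (pta_EJrep S) ψ) x)))
      = ∑ q : ↥S, ptn_invG (DL q.1) (ptg_isDiscrete_units (q.1 : ℕ))
          (ptd_loc₂ (pta_SLr S q) (pta_SLev S q)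
            (ptd_bockSmul (p ^ k) (ptl_chi p k hp2) a + ptd_d1 (pta_EJrep S) ψ)) := by
  have hpp : p.Prime := hp.out
  have : NeZero (p ^ k) := ⟨pow_ne_zero k hpp.ne_zero⟩
  have hχk : A.χ k = ptl_chi p k hp2 := funext (hAχ k)
  have hd : ptd_IsDiscrete (pta_levelsS S) (pta_EJrep S) := (pta_coindPres (S := S)).disc
  have hY : ptd_IsLZ2 (pta_levelsS S) (pta_EJrep S)
      (ptd_bockSmul (p ^ k) (ptl_chi p k hp2) a + ptd_d1 (pta_EJrep S) ψ) :=
    (ptl_bockSmulN_isLZ2 (ptl_chi_isChar hp2) (ptl_chi_isLev₁ hp2 S hpS) ha).add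
      (ptd_IsB2.isLZ2 hd ⟨ψ, hψ, rfl⟩)
  have h1 := A.invG_π_bock k (a := ptj_incl S a) (fun g => by
      rw [← ptj_incl_equiv, ha g])
    (ψ := fun g => ptj_incl S (ψ g)) (hψ.comp (ptj_incl S))
  rw [hχk, ← ptj_incl_bockSmul_add_d1, hAINV, ptj_INVfun_top_incl (ptj_locInvOf p DL) hY] at h1
  have h2 : (fun x => A.π ((fun x => ptj_incl S
      ((ptd_bockSmul (p ^ k) (ptl_chi p k hp2) a + ptd_d1 (pta_EJrep S) ψ) x)) x)) =
      (fun x => ptj_piJ S (ptj_incl S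
        ((ptd_bockSmul (p ^ k) (ptl_chi p k hp2) a + ptd_d1 (pta_EJrep S) ψ) x))) :=
    funext fun x => hAπ _
  rw [h2] at h1
  exact h1

/-- **(LG) over `G_ℚ` for a class formation on the model.** -/
theorem pts_LGG_modelAbsK (hp2 : p ≠ 2) (hpS : pPrime p ∈ S)
    (DL : ∀ q : Nat.Primes, ptn_LevelData (ptg_levels (q : ℕ)) (ptg_unitsRep (q : ℕ)) p)
    (A : ptn_AbsK (pta_levelsS S) (ptj_JSrep S) (pta_EMod p hpS).ρC p)
    (hAπ : ∀ x, A.π x = ptj_piJ S x)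
    (hAχ : ∀ k g, A.χ k g = ptl_chi p k hp2 g)
    (hAINV : ∀ y : (⊤ : Subgroup GQ) × (⊤ : Subgroup GQ) → ptj_AJ S,
      A.INV ⊤ y = ptj_INVfun (ptj_locInvOf p DL) ⊤ y) :
    ptd_GLG (pta_levelsS S) p (pta_EMod p hpS).ρJ (pta_EMod p hpS).ρC (pta_EMod p hpS).π
      (pta_SLlev S) (pta_SLrep S) (pta_SLr S) (pta_SLev S) A.invG
      (fun q : ↥S => ptn_invG (DL q.1) (ptg_isDiscrete_units (q.1 : ℕ))) :=
  pts_LGG_of_EV hp2 hpS A.invG (fun q => DL q.1)
    (fun k a ψ ha hψ => pts_EV_modelAbsK hp2 hpS DL A hAπ hAχ hAINV k a ψ ha hψ)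

/-- **(LG-U) for a class formation on the model**: the local–global formula over every open
`U ≤ ker χ_cyc`, for the family of places `pts_PlacesS S U`. -/
theorem pts_LGU_modelAbsK (hp2 : p ≠ 2) (hpS : pPrime p ∈ S)
    (DL : ∀ q : Nat.Primes, ptn_LevelData (ptg_levels (q : ℕ)) (ptg_unitsRep (q : ℕ)) p)
    (A : ptn_AbsK (pta_levelsS S) (ptj_JSrep S) (pta_EMod p hpS).ρC p)
    (hAπ : ∀ x, A.π x = ptj_piJ S x)
    (hAχ : ∀ k g, A.χ k g = ptl_chi p k hp2 g)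
    (hAINV : ∀ y : (⊤ : Subgroup GQ) × (⊤ : Subgroup GQ) → ptj_AJ S,
      A.INV ⊤ y = ptj_INVfun (ptj_locInvOf p DL) ⊤ y) :
    pts_LGU hpS (fun U hU => A.inv U hU) (fun q : ↥S => DL q.1) :=
  pts_LGU_of_LGG hpS A.invG (fun U hU => A.inv U hU) (fun U hU _ y hy => A.hcor U hU y hy)
    (fun q => DL q.1) (pts_LGG_modelAbsK hp2 hpS DL A hAπ hAχ hAINV)

/-- **`#X^split ≤ #Q` in the model**: for an open `U ≤ ker χ_cyc` (and `U ≤ A.K₀`), every set of
`S`-level characters of `U` which are split at all the places over `S` (helper1's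
`pta_splitChars`) has at most `[C^U : π(J^U) + p C^U]` elements. -/
theorem pts_card_split_le_model (hp2 : p ≠ 2) (hpS : pPrime p ∈ S)
    (DL : ∀ q : Nat.Primes, ptn_LevelData (ptg_levels (q : ℕ)) (ptg_unitsRep (q : ℕ)) p)
    (A : ptn_AbsK (pta_levelsS S) (ptj_JSrep S) (pta_EMod p hpS).ρC p)
    (hAπ : ∀ x, A.π x = ptj_piJ S x)
    (hAχ : ∀ k g, A.χ k g = ptl_chi p k hp2 g)
    (hAINV : ∀ y : (⊤ : Subgroup GQ) × (⊤ : Subgroup GQ) → ptj_AJ S,
      A.INV ⊤ y = ptj_INVfun (ptj_locInvOf p DL) ⊤ y)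
    (U : Subgroup GQ) (hU : (pta_levelsS S).IsOpen U) (hUK : U ≤ (cycloChar p).ker)
    (hUK' : U ≤ A.K₀)
    (hfin : (ptd_QSub (ptd_resRep (pta_EJrep S) U) (ptd_resRep (ptj_CSrep S) U)
      (pta_Eπ S) p).index ≠ 0)
    (Xs : Set (U → ZMod p))
    (hXs : ∀ χ ∈ Xs, ptd_IsChar χ ∧ ptd_IsLev₁ ((pta_levelsS S).sub U hU) χ ∧
      χ ∈ pta_splitChars p S U) :
    Xs.Finite ∧ Nat.card Xs ≤ (ptd_QSub (ptd_resRep (pta_EJrep S) U)
      (ptd_resRep (ptj_CSrep S) U) (pta_Eπ S) p).index := by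
  classical
  have hfi : U.FiniteIndex := ptd_Levels.IsOpen.finiteIndex _ hU
  let _ : Fintype (pts_PlacesS S U) := Fintype.ofFinite _
  have hLG := pts_LGU_modelAbsK hp2 hpS DL A hAπ hAχ hAINV U hU hUK
  exact ptd_card_split_le_global A hU hUK' (fun g x => (pta_EMod p hpS).π_smul g x) hLG hfin Xs
    (fun χ hχ => ⟨(hXs χ hχ).1, (hXs χ hχ).2.1, fun v t => (hXs χ hχ).2.2 v t⟩)

end Fermat.Agent.Lib.PT
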