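/-
S55 (Poitou–Tate long-haul): **THE MODEL ASSEMBLY, part G**: the frozen S55 statement from ONE
remaining arithmetic input, the Kummer/idele count `ptj_F3Count p S` (helper9's `pti_F3_count`).
All the other inputs of `pts_S55_of_inputs'` are plugged in:

* (1) local level data `ptl_DL hp2` (helper6/helper5: local class field theory, twisted at `p`);
* (2) cyclotomic reciprocity `ptl_hR hp2` (helper6);
* (3) the cyclic layers `ptk_hG4_model` (helper2, helper7, helper1, helper6, helper8);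
* (4) the unramified evaluation `cfh_unrEval_locInvOf` (helper8/helper9), giving `hcyc`;
* (5) the global existence theorem `ptj_F3G_of_count` (lead, helper3) with (LG-U)
  `pts_LGU_modelAbsK`;
* (6) the first inequality `ptd_F3inj` (helper3), inside `pts_S55_of_inputs'`.
-/
import Mathlib
import Fermat.Agent.Lib.PT.S55ModelF
import Fermat.Agent.Lib.PT.RcpTwist
import Fermat.Agent.Lib.PT.HCycG
import Fermat.Agent.Lib.PT.GPlaceG4E
import Fermat.Agent.Lib.PT.GModInvL

set_option autoImplicit false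
set_option linter.unusedSectionVars false
set_option linter.unusedVariables false

noncomputable section

namespace Fermat.Agent.Lib.PT

open IntermediateField ExtCitation groupCohomology

local notation "Qbar" => AlgebraicClosure ℚ
local notation "GQ" => (AlgebraicClosure ℚ ≃ₐ[ℚ] AlgebraicClosure ℚ)

variable {p : ℕ} [hp : Fact p.Prime] {S : Finset Nat.Primes}

/-- the unramified evaluation for the local level data of the model -/
theorem pts_unrEval_model (hp2 : p ≠ 2) (hpS : pPrime p ∈ S) :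
    cfh_UnrEval p S (ptj_locInvOf p (ptl_DL hp2)) :=
  cfh_unrEval_locInvOf hpS (ptl_DL hp2) (ptl_DL_ne hp2)

/-- **THE CLASS FORMATION OF THE MODEL**, all inputs plugged in. -/
def pts_modelAbsP₀ (hp2 : p ≠ 2) (hpS : pPrime p ∈ S) :
    ptn_AbsP (pta_levelsS S) (ptj_JSrep S) (ptj_CSrep S) p :=
  pts_modelAbsP hp2 hpS (ptl_DL hp2) (ptl_hR hp2) (ptk_hG4_model ⟨_, hpS⟩ hp2)
    (pts_hcyc_of_unrEval hp2 hpS (ptl_DL hp2) (pts_unrEval_model hp2 hpS))

/-- **Frozen S55 from the Kummer/idele count.** -/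
theorem pts_S55_of_count (hp2 : p ≠ 2) (hpS : pPrime p ∈ S)
    (M : Rep (ZMod p) (AlgebraicClosure ℚ ≃ₐ[ℚ] AlgebraicClosure ℚ))
    [FiniteDimensional (ZMod p) M]
    (hsm : ∀ m : M, ∃ F : IntermediateField ℚ (AlgebraicClosure ℚ), FiniteDimensional ℚ F ∧
      ∀ s ∈ F.fixingSubgroup, M.ρ s m = m)
    (hMur : ∀ q : Nat.Primes, q ∉ S → ∀ A : ValuationSubring (AlgebraicClosure ℚ),
      A.LiesOverPrime (q : ℕ) → ∀ g ∈ A.inertiaSubgroupIn ℚ, M.ρ g = 1)
    (hcount : ptj_F3Count p S) :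
    ∃ B : sha₁ S (M.dualTwist (cycloChar p)) →ₗ[ZMod p] sha₂ S M →ₗ[ZMod p] ZMod p,
      (∀ y, (∀ x, B y x = 0) → y = 0) ∧ (∀ x, (∀ y, B y x = 0) → x = 0) :=
  pts_S55_of_inputs' hp2 hpS M hsm hMur (ptl_DL hp2) (ptl_hR hp2) (ptk_hG4_model ⟨_, hpS⟩ hp2)
    (pts_unrEval_model hp2 hpS)
    (fun U hU hUK => ptj_F3G_of_count hpS (pts_modelAbsP₀ hp2 hpS).toAbsK le_rfl
      (fun q : ↥S => ptl_DL hp2 q.1)
      (pts_LGU_modelAbsK hp2 hpS (ptl_DL hp2) (pts_modelAbsP₀ hp2 hpS).toAbsK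
        (fun _ => rfl) (fun _ _ => rfl) (fun _ => rfl))
      hcount U hU hUK)

end Fermat.Agent.Lib.PT
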