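/-
S55 (Poitou–Tate long haul): **PRE-ASSEMBLY**.  The inputs (1) `DL`, (2) `hR`, (4) `hcyc` and (6) `hF3LG`
of helper4's final consumer `pts_S55_of_inputs` are filled with the landed terms
(`ptl_DL`, `ptl_hR`, `cfh_hcyc_model`, `ptd_F3inj`); what is left are the two arithmetic inputs

* `hG4`  : the finite-level class formation axiom for the cyclic layers of degree `p` inside `ker χ_cyc`;
* `hF3G` : the global existence theorem in exponent `p`, stated for an ARBITRARY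
  `A : ptn_AbsK (pta_levelsS S) (ptj_JSrep S) (ptj_CSrep S) p` with `A.K₀ = (cycloChar p).ker`
  (or, in `ptn_S55_of_G4_count`, as the counting statement `#(C^U / p) ≤ #X₀` fed to helper3's
  `ptd_F3_global`).
-/
import Fermat.Agent.Lib.PT.S55ModelD
import Fermat.Agent.Lib.PT.RcpTwist
import Fermat.Agent.Lib.PT.HCycG
import Fermat.Agent.Lib.PT.AdtF3D

set_option autoImplicit false

noncomputable section

namespace Fermat.Agent.Lib.PT

open CategoryTheory Module groupCohomology ExtCitation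

local notation "GQ" => (AlgebraicClosure ℚ ≃ₐ[ℚ] AlgebraicClosure ℚ)

variable {p : ℕ} [Fact p.Prime] {S : Finset Nat.Primes}

/-- The class formation of the model, with the landed inputs (1), (2), (4) plugged in: it depends
only on the finite-level input `hG4`. -/
def ptn_modelAbsK (hp2 : p ≠ 2) (hpS : pPrime p ∈ S)
    (hG4 : ∀ U' N' : Subgroup GQ, (pta_levelsS S).IsOpen N' → N' ≤ U' → U' ≤ (cycloChar p).ker →
      (N'.subgroupOf U').Normal → N'.relIndex U' = p →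
      ptg_H1At (ptj_CSrep S) U' N' ∧
        (ptg_B2At (ptj_CSrep S) U' N').relIndex (ptg_Z2At (ptj_CSrep S) U' N') ∣ p) :
    ptn_AbsK (pta_levelsS S) (ptj_JSrep S) (ptj_CSrep S) p :=
  (pts_modelAbsP hp2 hpS (ptl_DL hp2) (ptl_hR hp2) hG4
    (cfh_hcyc_model hp2 hpS (ptl_DL hp2) (ptl_DL_ne hp2))).toAbsK

lemma ptn_modelAbsK_K₀ (hp2 : p ≠ 2) (hpS : pPrime p ∈ S)
    (hG4 : ∀ U' N' : Subgroup GQ, (pta_levelsS S).IsOpen N' → N' ≤ U' → U' ≤ (cycloChar p).ker →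
      (N'.subgroupOf U').Normal → N'.relIndex U' = p →
      ptg_H1At (ptj_CSrep S) U' N' ∧
        (ptg_B2At (ptj_CSrep S) U' N').relIndex (ptg_Z2At (ptj_CSrep S) U' N') ∣ p) :
    (ptn_modelAbsK hp2 hpS hG4).K₀ = (cycloChar p).ker := rfl

/-- **Frozen S55 from `hG4` and the global existence theorem `hF3G`** for the class formation
`ptn_modelAbsK`. -/
theorem ptn_S55_of_G4_F3 (hp2 : p ≠ 2) (hpS : pPrime p ∈ S)
    (M : Rep (ZMod p) (AlgebraicClosure ℚ ≃ₐ[ℚ] AlgebraicClosure ℚ))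
    [FiniteDimensional (ZMod p) M]
    (hsm : ∀ m : M, ∃ F : IntermediateField ℚ (AlgebraicClosure ℚ), FiniteDimensional ℚ F ∧
      ∀ s ∈ F.fixingSubgroup, M.ρ s m = m)
    (hMur : ∀ q : Nat.Primes, q ∉ S → ∀ A : ValuationSubring (AlgebraicClosure ℚ),
      A.LiesOverPrime (q : ℕ) → ∀ g ∈ A.inertiaSubgroupIn ℚ, M.ρ g = 1)
    (hG4 : ∀ U' N' : Subgroup GQ, (pta_levelsS S).IsOpen N' → N' ≤ U' → U' ≤ (cycloChar p).ker →
      (N'.subgroupOf U').Normal → N'.relIndex U' = p →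
      ptg_H1At (ptj_CSrep S) U' N' ∧
        (ptg_B2At (ptj_CSrep S) U' N').relIndex (ptg_Z2At (ptj_CSrep S) U' N') ∣ p)
    (hF3G : ∀ (U : Subgroup GQ) (hU : (pta_levelsS S).IsOpen U), U ≤ (cycloChar p).ker →
      ptd_F3 ((pta_levelsS S).sub U hU) (ptd_resRep (ptj_CSrep S) U)
        ((ptn_modelAbsK hp2 hpS hG4).inv U hU)) :
    ∃ B : sha₁ S (M.dualTwist (cycloChar p)) →ₗ[ZMod p] sha₂ S M →ₗ[ZMod p] ZMod p,
      (∀ y, (∀ x, B y x = 0) → y = 0) ∧ (∀ x, (∀ y, B y x = 0) → x = 0) :=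
  pts_S55_of_inputs hp2 hpS M hsm hMur (ptl_DL hp2) (ptl_hR hp2) hG4
    (cfh_hcyc_model hp2 hpS (ptl_DL hp2) (ptl_DL_ne hp2)) hF3G
    (fun U hU hUK χ hχ hlev h =>
      ptd_F3inj (ptn_modelAbsK hp2 hpS hG4) U hU hUK χ hχ hlev h)

/-- **Frozen S55 from `hG4` and the counting statement** `#(C^U / p) ≤ #X₀` (`X₀` a set of
`S`-level characters `U → ZMod p`) for the open subgroups `U ≤ ker χ_cyc`. -/
theorem ptn_S55_of_G4_count (hp2 : p ≠ 2) (hpS : pPrime p ∈ S)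
    (M : Rep (ZMod p) (AlgebraicClosure ℚ ≃ₐ[ℚ] AlgebraicClosure ℚ))
    [FiniteDimensional (ZMod p) M]
    (hsm : ∀ m : M, ∃ F : IntermediateField ℚ (AlgebraicClosure ℚ), FiniteDimensional ℚ F ∧
      ∀ s ∈ F.fixingSubgroup, M.ρ s m = m)
    (hMur : ∀ q : Nat.Primes, q ∉ S → ∀ A : ValuationSubring (AlgebraicClosure ℚ),
      A.LiesOverPrime (q : ℕ) → ∀ g ∈ A.inertiaSubgroupIn ℚ, M.ρ g = 1)
    (hG4 : ∀ U' N' : Subgroup GQ, (pta_levelsS S).IsOpen N' → N' ≤ U' → U' ≤ (cycloChar p).ker →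
      (N'.subgroupOf U').Normal → N'.relIndex U' = p →
      ptg_H1At (ptj_CSrep S) U' N' ∧
        (ptg_B2At (ptj_CSrep S) U' N').relIndex (ptg_Z2At (ptj_CSrep S) U' N') ∣ p)
    (hcount : ∀ (U : Subgroup GQ) (hU : (pta_levelsS S).IsOpen U), U ≤ (cycloChar p).ker →
      (ptl_pInv (ptd_resRep (ptj_CSrep S) U) p).index ≠ 0 ∧
      ∃ X₀ : Set (U → ZMod p),
        (∀ χ ∈ X₀, ptd_IsChar χ ∧ ptd_IsLev₁ ((pta_levelsS S).sub U hU) χ) ∧
        (ptl_pInv (ptd_resRep (ptj_CSrep S) U) p).index ≤ Nat.card X₀) :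
    ∃ B : sha₁ S (M.dualTwist (cycloChar p)) →ₗ[ZMod p] sha₂ S M →ₗ[ZMod p] ZMod p,
      (∀ y, (∀ x, B y x = 0) → y = 0) ∧ (∀ x, (∀ y, B y x = 0) → x = 0) :=
  ptn_S55_of_G4_F3 hp2 hpS M hsm hMur hG4 (fun U hU hUK => by
    obtain ⟨hfin, X₀, hX₀, hcard⟩ := hcount U hU hUK
    exact ptd_F3_global (ptn_modelAbsK hp2 hpS hG4) U hU hUK hfin X₀ hX₀ hcard)

end Fermat.Agent.Lib.PT
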