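/-
S55 (Poitou–Tate long-haul), (SL)/(MK): THE LOCAL FAMILY OVER AN OPEN SUBGROUP.

For `r : H →* G` (a local group) and `U ≤ G` (open): the double cosets `r(H) \ G / U` ("places
of the fixed field of `U` above the place of `H`"), chosen representatives `g_d`, the subgroups
`V_d := r⁻¹ (g_d U g_d⁻¹) ≤ H`, and the homomorphisms `r_d : V_d →* U`, `τ ↦ g_d⁻¹ r(τ) g_d`.
For a `G`-module `J` and `e : J →+ A`, the evaluation at `d` is `e ∘ ρJ g_d`.

These are THE definitions to be used by (SL) `ptd_GSemiLocal`, (LG) `ptd_GLG` and the cochain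
Mackey formula (MK) over `U`.
-/
import Mathlib
import Fermat.Agent.Lib.PT.SemiLocPres

set_option autoImplicit false
set_option linter.unusedSectionVars false

namespace Fermat.Agent.Lib.PT

section DC

variable {G H : Type*} [Group G] [Group H] (r : H →* G) (U : Subgroup G)

/-- the double coset relation of `r(H) \ G / U` -/
def pts_dcSetoid : Setoid G where
  r g g' := ∃ τ : H, ∃ u ∈ U, g' = r τ * g * u
  iseqv :=
    ⟨fun g => ⟨1, 1, U.one_mem, by rw [map_one, one_mul, mul_one]⟩,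
      fun {g g'} ⟨τ, u, hu, h⟩ => ⟨τ⁻¹, u⁻¹, U.inv_mem hu, by rw [h, map_inv]; group⟩,
      fun {g g' g''} ⟨τ, u, hu, h⟩ ⟨τ', u', hu', h'⟩ =>
        ⟨τ' * τ, u * u', U.mul_mem hu hu', by rw [h', h, map_mul]; group⟩⟩

/-- the double cosets `r(H) \ G / U` -/
abbrev pts_DC : Type _ := Quotient (pts_dcSetoid r U)

/-- the class of `g` in `r(H) \ G / U` -/
def pts_dcMk (g : G) : pts_DC r U := Quotient.mk (pts_dcSetoid r U) g

/-- the chosen representative of a double coset -/
noncomputable def pts_dcRep (d : pts_DC r U) : G := d.out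

lemma pts_dcMk_dcRep (d : pts_DC r U) : pts_dcMk r U (pts_dcRep r U d) = d := Quotient.out_eq d

/-- every `g` is `r τ * g_d * u` for its double coset `d` -/
lemma pts_exists_eq_dcRep (g : G) :
    ∃ τ : H, ∃ u ∈ U, g = r τ * pts_dcRep r U (pts_dcMk r U g) * u :=
  Quotient.exact (Quotient.out_eq (Quotient.mk (pts_dcSetoid r U) g))

lemma pts_dcMk_eq {g g' : G} (τ : H) {u : G} (hu : u ∈ U) (h : g' = r τ * g * u) :
    pts_dcMk r U g' = pts_dcMk r U g :=
  (Quotient.sound (s := pts_dcSetoid r U) ⟨τ, u, hu, h⟩).symm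

/-- `V_d := r⁻¹ (g_d U g_d⁻¹)` -/
noncomputable def pts_dcSub (d : pts_DC r U) : Subgroup H where
  carrier := {τ | (pts_dcRep r U d)⁻¹ * r τ * pts_dcRep r U d ∈ U}
  one_mem' := by
    show (pts_dcRep r U d)⁻¹ * r 1 * pts_dcRep r U d ∈ U
    rw [map_one, mul_one, inv_mul_cancel]
    exact U.one_mem
  mul_mem' := by
    intro a b ha hb
    show (pts_dcRep r U d)⁻¹ * r (a * b) * pts_dcRep r U d ∈ U
    have : (pts_dcRep r U d)⁻¹ * r (a * b) * pts_dcRep r U d
        = ((pts_dcRep r U d)⁻¹ * r a * pts_dcRep r U d)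
          * ((pts_dcRep r U d)⁻¹ * r b * pts_dcRep r U d) := by
      rw [map_mul]; group
    rw [this]
    exact U.mul_mem ha hb
  inv_mem' := by
    intro a ha
    show (pts_dcRep r U d)⁻¹ * r a⁻¹ * pts_dcRep r U d ∈ U
    have : (pts_dcRep r U d)⁻¹ * r a⁻¹ * pts_dcRep r U d
        = ((pts_dcRep r U d)⁻¹ * r a * pts_dcRep r U d)⁻¹ := by
      rw [map_inv]; group
    rw [this]
    exact U.inv_mem ha

lemma pts_mem_dcSub_iff (d : pts_DC r U) (τ : H) :
    τ ∈ pts_dcSub r U d ↔ (pts_dcRep r U d)⁻¹ * r τ * pts_dcRep r U d ∈ U := Iff.rfl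

/-- `r_d : V_d →* U`, `τ ↦ g_d⁻¹ r(τ) g_d` -/
noncomputable def pts_dcHom (d : pts_DC r U) : ↥(pts_dcSub r U d) →* ↥U where
  toFun τ := ⟨(pts_dcRep r U d)⁻¹ * r τ * pts_dcRep r U d, τ.2⟩
  map_one' := by
    apply Subtype.ext
    show (pts_dcRep r U d)⁻¹ * r ((1 : ↥(pts_dcSub r U d)) : H) * pts_dcRep r U d = 1
    rw [Subgroup.coe_one, map_one, mul_one, inv_mul_cancel]
  map_mul' a b := by
    apply Subtype.ext
    show (pts_dcRep r U d)⁻¹ * r ((a * b : ↥(pts_dcSub r U d)) : H) * pts_dcRep r U d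
      = ((pts_dcRep r U d)⁻¹ * r a * pts_dcRep r U d)
        * ((pts_dcRep r U d)⁻¹ * r b * pts_dcRep r U d)
    rw [Subgroup.coe_mul, map_mul]; group

@[simp] lemma pts_dcHom_coe (d : pts_DC r U) (τ : ↥(pts_dcSub r U d)) :
    ((pts_dcHom r U d τ : ↥U) : G) = (pts_dcRep r U d)⁻¹ * r τ * pts_dcRep r U d := rfl

/-- `g_d * r_d τ = r τ * g_d` -/
lemma pts_dcRep_mul_dcHom (d : pts_DC r U) (τ : ↥(pts_dcSub r U d)) :
    pts_dcRep r U d * ((pts_dcHom r U d τ : ↥U) : G) = r τ * pts_dcRep r U d := by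
  rw [pts_dcHom_coe]; group

lemma pts_dcHom_injective (hr : Function.Injective r) (d : pts_DC r U) :
    Function.Injective (pts_dcHom r U d) := by
  intro a b h
  have h1 := congrArg (fun x : ↥U => (x : G)) h
  simp only [pts_dcHom_coe] at h1
  have h2 : r a = r b := by
    have := mul_left_cancel (mul_right_cancel h1)
    exact this
  exact Subtype.ext (hr h2)

/-- there are finitely many double cosets when `U` has finite index -/
instance pts_finite_DC [U.FiniteIndex] : Finite (pts_DC r U) := by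
  have : Finite (G ⧸ U) := Subgroup.finite_quotient_of_finiteIndex
  let f : G ⧸ U → pts_DC r U := Quotient.lift (fun g => pts_dcMk r U g) (fun a b hab => by
    have hab' : a⁻¹ * b ∈ U := QuotientGroup.leftRel_apply.mp hab
    exact (pts_dcMk_eq r U 1 hab' (by rw [map_one, one_mul]; group)).symm)
  refine Finite.of_surjective f fun d => ?_
  obtain ⟨g, rfl⟩ := Quotient.exists_rep d
  exact ⟨QuotientGroup.mk g, rfl⟩

end DC

end Fermat.Agent.Lib.PT
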