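/-
S55 (Poitou–Tate long-haul), S-track: THE conversion `Θ : ℚ/ℤ_(p) → ZMod p` of the targets of the
invariant maps.  The bridge (`BrgMain`) produces `ptn_T p = ℚ/ℤ_(p)`-valued invariant maps, the
skeleton (`S55Skeleton`) consumes `ZMod p`-valued ones; the local–global compatibility (LG) adds
local invariants to the global one, so ONE convention has to be used everywhere: it is
`pts_theta p`, characterised by `Θ (n / p) = n mod p`.
-/
import Mathlib
import Fermat.Agent.Lib.PT.BrgT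
import Fermat.Agent.Lib.PT.SeqDInvConv

set_option autoImplicit false

namespace Fermat.Agent.Lib.PT

section Theta

variable {p : ℕ} [hp : Fact p.Prime]

/-- `n/p = n'/p` in `ℚ/ℤ_(p)` iff `n ≡ n' mod p`. -/
lemma pts_frac_p_eq_iff (n n' : ℤ) :
    ptn_frac p n p = ptn_frac p n' p ↔ ((n : ℤ) : ZMod p) = ((n' : ℤ) : ZMod p) := by
  have h0 : ptn_frac p n p = ptn_frac p n' p ↔ ptn_frac p (n - n') p = 0 := by
    rw [sub_eq_add_neg, ptn_frac_add, ptn_frac_neg, ← sub_eq_add_neg, sub_eq_zero]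
  rw [h0, ptn_frac_eq_zero_iff _ _ hp.out.ne_zero, Nat.Prime.factorization_self hp.out, pow_one,
    ZMod.intCast_eq_intCast_iff_dvd_sub]
  constructor
  · intro h
    have := dvd_neg.mpr h
    rwa [neg_sub] at this
  · intro h
    have := dvd_neg.mpr h
    rwa [neg_sub] at this

/-- every `p`-torsion element of `ℚ/ℤ_(p)` is of the form `n/p`. -/
lemma pts_exists_frac_of_tors (t : ptn_T p) (ht : p • t = 0) : ∃ n : ℤ, t = ptn_frac p n p := by
  obtain ⟨r, rfl⟩ := QuotientAddGroup.mk_surjective t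
  rw [← QuotientAddGroup.mk_nsmul, QuotientAddGroup.eq_zero_iff] at ht
  obtain ⟨m, hm, j, hj⟩ := ht
  have hp0 : (p : ℚ) ≠ 0 := by exact_mod_cast hp.out.ne_zero
  have hm0 : (m : ℚ) ≠ 0 := by
    have : m ≠ 0 := fun h0 => hm (h0 ▸ dvd_zero p)
    exact_mod_cast this
  have hr : r = (j : ℚ) / ((m * p : ℕ) : ℚ) := by
    rw [nsmul_eq_mul] at hj
    push_cast
    field_simp
    linear_combination hj
  have hmu : ((m : ℕ) : ZMod p) ≠ 0 := by
    rwa [Ne, ZMod.natCast_eq_zero_iff]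
  -- `n := j / m mod p`
  refine ⟨((((j : ℤ) : ZMod p) * ((m : ℕ) : ZMod p)⁻¹).val : ℤ), ?_⟩
  have key := ptn_frac_eq_of_dvd (p := p) j
    ((((j : ℤ) : ZMod p) * ((m : ℕ) : ZMod p)⁻¹).val : ℤ) m 1 p hp.out.ne_zero hm
    (by simpa using hp.out.one_lt.ne') (by
      rw [Nat.Prime.factorization_self hp.out, pow_one, ← ZMod.intCast_zmod_eq_zero_iff_dvd]
      push_cast
      rw [ZMod.natCast_val, ZMod.cast_id', id_eq, one_mul, mul_comm ((j : ℤ) : ZMod p),
        ← mul_assoc, mul_inv_cancel₀ hmu, one_mul, sub_self])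
  rw [one_mul] at key
  rw [← key]
  unfold ptn_frac
  rw [hr]

variable (p) in
/-- **The conversion** `Θ : ℚ/ℤ_(p) → ZMod p`, `n/p ↦ n mod p` (junk outside the `p`-torsion). -/
noncomputable def pts_theta (t : ptn_T p) : ZMod p := by
  classical
  exact if h : ∃ n : ℤ, t = ptn_frac p n p then ((Classical.choose h : ℤ) : ZMod p) else 0

lemma pts_theta_frac (n : ℤ) : pts_theta p (ptn_frac p n p) = ((n : ℤ) : ZMod p) := by
  have h : ∃ n' : ℤ, ptn_frac p n p = ptn_frac p n' p := ⟨n, rfl⟩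
  unfold pts_theta
  rw [dif_pos h]
  exact ((pts_frac_p_eq_iff n _).mp (Classical.choose_spec h)).symm

lemma pts_theta_add (t t' : ptn_T p) (ht : p • t = 0) (ht' : p • t' = 0) :
    pts_theta p (t + t') = pts_theta p t + pts_theta p t' := by
  obtain ⟨n, rfl⟩ := pts_exists_frac_of_tors t ht
  obtain ⟨n', rfl⟩ := pts_exists_frac_of_tors t' ht'
  rw [← ptn_frac_add, pts_theta_frac, pts_theta_frac, pts_theta_frac, Int.cast_add]

lemma pts_theta_inj (t : ptn_T p) (ht : p • t = 0) (h : pts_theta p t = 0) : t = 0 := by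
  obtain ⟨n, rfl⟩ := pts_exists_frac_of_tors t ht
  rw [pts_theta_frac] at h
  rw [← ptn_frac_zero (p := p) p, pts_frac_p_eq_iff, h, Int.cast_zero]

lemma pts_theta_zero : pts_theta p 0 = 0 := pts_θ_zero (pts_theta p) pts_theta_add

/-- finite sums of `p`-torsion elements -/
lemma pts_theta_sum {ι : Type*} (s : Finset ι) (t : ι → ptn_T p) (ht : ∀ i ∈ s, p • t i = 0) :
    pts_theta p (∑ i ∈ s, t i) = ∑ i ∈ s, pts_theta p (t i) := by
  classical
  induction s using Finset.induction_on with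
  | empty => simpa using pts_theta_zero
  | insert a s ha ih =>
    rw [Finset.sum_insert ha, Finset.sum_insert ha, pts_theta_add, ih]
    · exact fun i hi => ht i (Finset.mem_insert_of_mem hi)
    · exact ht a (Finset.mem_insert_self a s)
    · rw [Finset.smul_sum]
      exact Finset.sum_eq_zero fun i hi => ht i (Finset.mem_insert_of_mem hi)

end Theta

section InvZ

variable {G : Type*} [Group G] {𝓛 : ptd_Levels G}
variable {C : Type*} [AddCommGroup C] {ρC : Representation ℤ G C}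
variable {p : ℕ} [hp : Fact p.Prime]

/-- the `ZMod p`-valued invariant map attached to a `ℚ/ℤ_(p)`-valued one -/
noncomputable def pts_invZ (inv : ptd_Inv 𝓛 ρC (ptn_T p) p) : ptd_Inv 𝓛 ρC (ZMod p) p :=
  inv.conv (pts_theta p) pts_theta_add

@[simp]
lemma pts_invZ_apply (inv : ptd_Inv 𝓛 ρC (ptn_T p) p) (z : G × G → C) :
    pts_invZ inv z = pts_theta p (inv z) := rfl

variable {k : Type*} [CommRing k] {M : Type*} [AddCommGroup M] [Module k M]
variable {ρM : Representation k G M}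

theorem pts_nondegH2_invZ (hpM : ∀ m : M, p • m = 0) {inv : ptd_Inv 𝓛 ρC (ptn_T p) p}
    (h : ptd_NondegH2 𝓛 ρC inv ρM) : ptd_NondegH2 𝓛 ρC (pts_invZ inv) ρM :=
  ptd_NondegH2.conv (pts_theta p) pts_theta_add pts_theta_inj hpM h

theorem pts_nondegHom_invZ (hpM : ∀ m : M, p • m = 0) {inv : ptd_Inv 𝓛 ρC (ptn_T p) p}
    (h : ptd_NondegHom 𝓛 ρC inv ρM) : ptd_NondegHom 𝓛 ρC (pts_invZ inv) ρM :=
  ptd_NondegHom.conv (pts_theta p) pts_theta_add pts_theta_inj hpM h

end InvZ

end Fermat.Agent.Lib.PT
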