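/-
S55 (Poitou–Tate long-haul), S-track, abstract part (E), second file.

For an abstract big-model datum `𝒢 : pts_EMod p S` and `M : Rep (ZMod p) G_ℚ`:
quasi-equivariant maps `QE = {F : M → J additive, equivariant modulo μ_p}`, their cocycles
`coc : QE →+ Z¹(G_ℚ, M')`, the projection `toHomC : QE ↠ Hom_G(M, C)` and the connecting map
`δ : Hom_G(M, C) →+ H¹(G_ℚ, M')`, with `δ f = 0` iff `f` has an equivariant lift `M → J`.
-/
import Mathlib
import Fermat.Agent.Lib.PT.SeqEDefs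

set_option autoImplicit false
set_option linter.unusedSectionVars false

namespace Fermat.Agent.Lib.PT

open CategoryTheory groupCohomology ExtCitation

local notation "Qbar" => AlgebraicClosure ℚ
local notation "GQ" => (AlgebraicClosure ℚ ≃ₐ[ℚ] AlgebraicClosure ℚ)

/-- The `p`-torsion subgroup of an abelian group. -/
def pts_tors (p : ℕ) (A : Type*) [AddCommGroup A] : AddSubgroup A where
  carrier := {x | p • x = 0}
  zero_mem' := smul_zero _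
  add_mem' := by
    intro x y hx hy
    change p • x = 0 at hx
    change p • y = 0 at hy
    change p • (x + y) = 0
    rw [smul_add, hx, hy, add_zero]
  neg_mem' := by
    intro x hx
    change p • x = 0 at hx
    change p • (-x) = 0
    rw [smul_neg, hx, neg_zero]

lemma pts_mem_tors {p : ℕ} {A : Type*} [AddCommGroup A] (x : A) : x ∈ pts_tors p A ↔ p • x = 0 :=
  Iff.rfl

noncomputable instance pts_tors_module (p : ℕ) (A : Type*) [AddCommGroup A] :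
    Module (ZMod p) (pts_tors p A) :=
  AddCommGroup.zmodModule (fun x => Subtype.ext (by
    rw [AddSubgroup.coe_nsmul]; exact x.2))

/-- A map which is surjective on `p`-torsion and has `p`-divisible kernel: every additive map
from a `ZMod p`-module to the target lifts additively. -/
theorem pts_exists_lift {p : ℕ} [Fact p.Prime] {J C V : Type*} [AddCommGroup J] [AddCommGroup C]
    [AddCommGroup V] [Module (ZMod p) V] (π : J →+ C)
    (hsurj : ∀ c : C, p • c = 0 → ∃ x : J, π x = c)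
    (hdiv : ∀ e : J, π e = 0 → ∃ u : J, π u = 0 ∧ p • u = e)
    (f : V →+ C) : ∃ F : V →+ J, ∀ v, π (F v) = f v := by
  have hπt : ∀ x : pts_tors p J, π x.1 ∈ pts_tors p C := fun x => by
    rw [pts_mem_tors, ← map_nsmul, x.2, map_zero]
  let πt : pts_tors p J →+ pts_tors p C :=
    (π.comp (pts_tors p J).subtype).codRestrict (pts_tors p C) hπt
  let πl : pts_tors p J →ₗ[ZMod p] pts_tors p C := πt.toZModLinearMap p
  have hsurjl : LinearMap.range πl = ⊤ := by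
    rw [LinearMap.range_eq_top]
    rintro ⟨c, hc⟩
    obtain ⟨x, hx⟩ := hsurj c hc
    have hpx : π (p • x) = 0 := by rw [map_nsmul, hx]; exact hc
    obtain ⟨u, hu0, hu⟩ := hdiv (p • x) hpx
    refine ⟨⟨x - u, ?_⟩, ?_⟩
    · rw [pts_mem_tors, smul_sub, hu, sub_self]
    · apply Subtype.ext
      change π (x - u) = c
      rw [map_sub, hx, hu0, sub_zero]
  obtain ⟨s, hs⟩ := LinearMap.exists_rightInverse_of_surjective πl hsurjl
  have hft : ∀ v : V, f v ∈ pts_tors p C := fun v => by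
    rw [pts_mem_tors, ← map_nsmul, ZModModule.char_nsmul_eq_zero, map_zero]
  let ft : V →+ pts_tors p C := f.codRestrict (pts_tors p C) hft
  let fl : V →ₗ[ZMod p] pts_tors p C := ft.toZModLinearMap p
  refine ⟨(pts_tors p J).subtype.comp (s.comp fl).toAddMonoidHom, fun v => ?_⟩
  have h1 : πl (s (fl v)) = fl v := by
    have := LinearMap.congr_fun hs (fl v)
    simpa using this
  exact congrArg Subtype.val h1

namespace pts_EMod

variable {p : ℕ} [Fact p.Prime] {S : Finset Nat.Primes} (𝒢 : pts_EMod p S)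
variable (M : Rep.{0} (ZMod p) GQ)

/-- Additive maps out of a `ZMod p`-module have `p`-torsion values. -/
lemma tors_apply {A : Type*} [AddCommGroup A] (F : M.V →+ A) (m : M.V) : p • F m = 0 := by
  rw [← map_nsmul, ZModModule.char_nsmul_eq_zero, map_zero]

/-- Quasi-equivariant maps `M → J`: additive maps which are `G_ℚ`-equivariant modulo `μ_p`. -/
def QE : AddSubgroup (M.V →+ 𝒢.J) where
  carrier := {F | ∀ (g : GQ) (m : M.V), ∃ a : ZMod p, 𝒢.ζ a = g • F (M.ρ g⁻¹ m) - F m}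
  zero_mem' := fun g m => ⟨0, by simp⟩
  add_mem' := by
    intro F F' hF hF' g m
    obtain ⟨a, ha⟩ := hF g m
    obtain ⟨b, hb⟩ := hF' g m
    refine ⟨a + b, ?_⟩
    rw [map_add, ha, hb, AddMonoidHom.add_apply, AddMonoidHom.add_apply, smul_add]
    abel
  neg_mem' := by
    intro F hF g m
    obtain ⟨a, ha⟩ := hF g m
    refine ⟨-a, ?_⟩
    rw [map_neg, ha, AddMonoidHom.neg_apply, AddMonoidHom.neg_apply, smul_neg]
    abel

lemma mem_QE_iff (F : M.V →+ 𝒢.J) :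
    F ∈ 𝒢.QE M ↔ ∀ (g : GQ) (m : M.V), ∃ a : ZMod p, 𝒢.ζ a = g • F (M.ρ g⁻¹ m) - F m := Iff.rfl

/-- The value of the cocycle of a quasi-equivariant map. -/
noncomputable def cocFun (F : M.V →+ 𝒢.J) (g : GQ) (m : M.V) : ZMod p :=
  Function.invFun 𝒢.ζ (g • F (M.ρ g⁻¹ m) - F m)

variable {M}

lemma ζ_cocFun {F : M.V →+ 𝒢.J} (hF : F ∈ 𝒢.QE M) (g : GQ) (m : M.V) :
    𝒢.ζ (𝒢.cocFun M F g m) = g • F (M.ρ g⁻¹ m) - F m :=
  Function.invFun_eq (hF g m)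

lemma cocFun_eq_iff {F : M.V →+ 𝒢.J} (hF : F ∈ 𝒢.QE M) (g : GQ) (m : M.V) (a : ZMod p) :
    𝒢.cocFun M F g m = a ↔ 𝒢.ζ a = g • F (M.ρ g⁻¹ m) - F m := by
  constructor
  · rintro rfl
    exact 𝒢.ζ_cocFun hF g m
  · intro h
    apply 𝒢.ζ_inj
    rw [𝒢.ζ_cocFun hF, h]

lemma cocFun_add_right {F : M.V →+ 𝒢.J} (hF : F ∈ 𝒢.QE M) (g : GQ) (m m' : M.V) :
    𝒢.cocFun M F g (m + m') = 𝒢.cocFun M F g m + 𝒢.cocFun M F g m' := by
  rw [𝒢.cocFun_eq_iff hF, map_add 𝒢.ζ, 𝒢.ζ_cocFun hF, 𝒢.ζ_cocFun hF, map_add (M.ρ g⁻¹),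
    map_add F, map_add F, smul_add]
  abel

/-- The cocycle of a quasi-equivariant map, as a function `G_ℚ → M'`. -/
noncomputable def cocLin (F : 𝒢.QE M) (g : GQ) : Module.Dual (ZMod p) M.V :=
  (AddMonoidHom.mk' (𝒢.cocFun M F.1 g) (𝒢.cocFun_add_right F.2 g)).toZModLinearMap p

@[simp]
lemma cocLin_apply (F : 𝒢.QE M) (g : GQ) (m : M.V) : 𝒢.cocLin F g m = 𝒢.cocFun M F.1 g m := rfl

lemma ζ_cocLin (F : 𝒢.QE M) (g : GQ) (m : M.V) :
    𝒢.ζ (𝒢.cocLin F g m) = g • F.1 (M.ρ g⁻¹ m) - F.1 m := 𝒢.ζ_cocFun F.2 g m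

lemma cocLin_eq_iff (F : 𝒢.QE M) (g : GQ) (φ : Module.Dual (ZMod p) M.V) :
    𝒢.cocLin F g = φ ↔ ∀ m, 𝒢.ζ (φ m) = g • F.1 (M.ρ g⁻¹ m) - F.1 m := by
  constructor
  · rintro rfl m
    exact 𝒢.ζ_cocLin F g m
  · intro h
    refine LinearMap.ext fun m => ?_
    apply 𝒢.ζ_inj
    rw [𝒢.ζ_cocLin, h]

lemma cocLin_mem_cocycles₁ (F : 𝒢.QE M) :
    (fun g => 𝒢.cocLin F g : GQ → (M.dualTwist (cycloChar p)).V)
      ∈ cocycles₁ (M.dualTwist (cycloChar p)) := by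
  rw [mem_cocycles₁_iff]
  intro g h
  refine LinearMap.ext fun m => ?_
  apply 𝒢.ζ_inj
  rw [Rep.dualTwist_ρ_apply]
  simp only [LinearMap.add_apply, LinearMap.smul_apply, LinearMap.comp_apply, smul_eq_mul, map_add]
  rw [𝒢.ζ_cocLin, 𝒢.ζ_cocLin, ← 𝒢.smul_ζ, 𝒢.ζ_cocLin, mul_inv_rev, map_mul, smul_sub, mul_smul]
  simp only [Module.End.mul_apply]
  abel

lemma cocLin_add (F F' : 𝒢.QE M) (g : GQ) :
    𝒢.cocLin (F + F') g = 𝒢.cocLin F g + 𝒢.cocLin F' g := by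
  rw [cocLin_eq_iff]
  intro m
  rw [LinearMap.add_apply, map_add, 𝒢.ζ_cocLin, 𝒢.ζ_cocLin, AddSubgroup.coe_add,
    AddMonoidHom.add_apply, AddMonoidHom.add_apply, smul_add]
  abel

variable (M) in
/-- The cocycle map `QE →+ Z¹(G_ℚ, M')`. -/
noncomputable def coc : 𝒢.QE M →+ cocycles₁ (M.dualTwist (cycloChar p)) :=
  AddMonoidHom.mk' (fun F => ⟨fun g => 𝒢.cocLin F g, 𝒢.cocLin_mem_cocycles₁ F⟩)
    (fun F F' => Subtype.ext (funext fun g => 𝒢.cocLin_add F F' g))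

@[simp]
lemma coc_apply (F : 𝒢.QE M) (g : GQ) : (𝒢.coc M F : GQ → _) g = 𝒢.cocLin F g := rfl

/-- `Hom_G(M, C)`: the equivariant additive maps `M → C`. -/
def HomC (M : Rep.{0} (ZMod p) GQ) : AddSubgroup (M.V →+ 𝒢.C) where
  carrier := {f | ∀ (g : GQ) (m : M.V), f (M.ρ g m) = g • f m}
  zero_mem' := fun g m => by simp
  add_mem' := by
    intro f f' hf hf' g m
    rw [AddMonoidHom.add_apply, AddMonoidHom.add_apply, hf g m, hf' g m, smul_add]
  neg_mem' := by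
    intro f hf g m
    rw [AddMonoidHom.neg_apply, AddMonoidHom.neg_apply, hf g m, smul_neg]

lemma mem_HomC_iff (f : M.V →+ 𝒢.C) :
    f ∈ 𝒢.HomC M ↔ ∀ (g : GQ) (m : M.V), f (M.ρ g m) = g • f m := Iff.rfl

/-- `Hom_G(M, J)`: the equivariant additive maps `M → J`. -/
def HomJ (M : Rep.{0} (ZMod p) GQ) : AddSubgroup (M.V →+ 𝒢.J) where
  carrier := {F | ∀ (g : GQ) (m : M.V), F (M.ρ g m) = g • F m}
  zero_mem' := fun g m => by simp
  add_mem' := by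
    intro f f' hf hf' g m
    rw [AddMonoidHom.add_apply, AddMonoidHom.add_apply, hf g m, hf' g m, smul_add]
  neg_mem' := by
    intro f hf g m
    rw [AddMonoidHom.neg_apply, AddMonoidHom.neg_apply, hf g m, smul_neg]

lemma mem_HomJ_iff (F : M.V →+ 𝒢.J) :
    F ∈ 𝒢.HomJ M ↔ ∀ (g : GQ) (m : M.V), F (M.ρ g m) = g • F m := Iff.rfl

lemma HomJ_le_QE : 𝒢.HomJ M ≤ 𝒢.QE M := by
  intro F hF g m
  refine ⟨0, ?_⟩
  rw [map_zero, ← hF g, ← Module.End.mul_apply, ← map_mul, mul_inv_cancel, map_one,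
    Module.End.one_apply, sub_self]

/-- A quasi-equivariant map is equivariant iff its cocycle vanishes. -/
lemma mem_HomJ_iff_cocLin (F : 𝒢.QE M) : F.1 ∈ 𝒢.HomJ M ↔ ∀ g, 𝒢.cocLin F g = 0 := by
  constructor
  · intro hF g
    rw [cocLin_eq_iff]
    intro m
    rw [LinearMap.zero_apply, map_zero, ← hF g, ← Module.End.mul_apply, ← map_mul, mul_inv_cancel,
      map_one, Module.End.one_apply, sub_self]
  · intro h g m
    have h1 := 𝒢.ζ_cocLin F g (M.ρ g m)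
    rw [h g, LinearMap.zero_apply, map_zero, ← Module.End.mul_apply, ← map_mul, inv_mul_cancel,
      map_one, Module.End.one_apply] at h1
    exact (sub_eq_zero.mp h1.symm).symm

/-- Composition with `π` maps quasi-equivariant maps to equivariant maps `M → C`. -/
lemma π_comp_mem_HomC {F : M.V →+ 𝒢.J} (hF : F ∈ 𝒢.QE M) : 𝒢.π.comp F ∈ 𝒢.HomC M := by
  intro g m
  obtain ⟨a, ha⟩ := hF g (M.ρ g m)
  rw [← Module.End.mul_apply, ← map_mul, inv_mul_cancel, map_one, Module.End.one_apply] at ha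
  have h1 := congrArg 𝒢.π ha
  rw [𝒢.π_ζ, map_sub, 𝒢.π_smul] at h1
  rw [AddMonoidHom.comp_apply, AddMonoidHom.comp_apply]
  exact (sub_eq_zero.mp h1.symm).symm

variable (M) in
/-- The projection `QE →+ Hom_G(M, C)`, `F ↦ π ∘ F`. -/
def toHomC : 𝒢.QE M →+ 𝒢.HomC M :=
  AddMonoidHom.mk' (fun F => ⟨𝒢.π.comp F.1, 𝒢.π_comp_mem_HomC F.2⟩)
    (fun F F' => Subtype.ext (by
      change 𝒢.π.comp (F.1 + F'.1) = 𝒢.π.comp F.1 + 𝒢.π.comp F'.1
      exact AddMonoidHom.comp_add _ _ _))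

@[simp]
lemma toHomC_apply (F : 𝒢.QE M) (m : M.V) : (𝒢.toHomC M F).1 m = 𝒢.π (F.1 m) := rfl

/-- Every additive lift of an equivariant map `M → C` is quasi-equivariant. -/
lemma mem_QE_of_lift {f : M.V →+ 𝒢.C} (hf : f ∈ 𝒢.HomC M) {F : M.V →+ 𝒢.J}
    (hF : ∀ m, 𝒢.π (F m) = f m) : F ∈ 𝒢.QE M := by
  intro g m
  apply 𝒢.ker_tors
  · rw [map_sub, 𝒢.π_smul, hF, hF, ← hf g, ← Module.End.mul_apply, ← map_mul, mul_inv_cancel,
      map_one, Module.End.one_apply, sub_self]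
  · rw [smul_sub, 𝒢.tors_smul g (tors_apply M F _), tors_apply M F, sub_zero]

theorem toHomC_surjective : Function.Surjective (𝒢.toHomC M) := by
  rintro ⟨f, hf⟩
  obtain ⟨F, hF⟩ := pts_exists_lift 𝒢.π 𝒢.π_surj_tors 𝒢.ker_div f
  exact ⟨⟨F, 𝒢.mem_QE_of_lift hf hF⟩, Subtype.ext (AddMonoidHom.ext hF)⟩

/-- The embedding `M' → QE`, `φ ↦ ζ ∘ φ`. -/
def ofDual (φ : Module.Dual (ZMod p) M.V) : 𝒢.QE M :=
  ⟨𝒢.ζ.comp φ.toAddMonoidHom, fun g m => ⟨(cycloChar p g : ZMod p) * φ (M.ρ g⁻¹ m) - φ m, by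
    rw [map_sub, ← 𝒢.smul_ζ]; rfl⟩⟩

@[simp]
lemma ofDual_apply (φ : Module.Dual (ZMod p) M.V) (m : M.V) :
    (𝒢.ofDual φ).1 m = 𝒢.ζ (φ m) := rfl

/-- The cocycle of `ζ ∘ φ` is the coboundary of `φ`. -/
lemma coc_ofDual (φ : Module.Dual (ZMod p) M.V) :
    (𝒢.coc M (𝒢.ofDual φ) : GQ → _) = (d₀₁ (M.dualTwist (cycloChar p))).hom φ := by
  funext g
  rw [coc_apply, cocLin_eq_iff]
  intro m
  rw [d₀₁_hom_apply, Rep.dualTwist_ρ_apply]
  simp only [LinearMap.sub_apply, LinearMap.smul_apply, LinearMap.comp_apply, smul_eq_mul, map_sub,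
    ofDual_apply]
  rw [𝒢.smul_ζ]

/-- The kernel of `toHomC` consists of the maps `ζ ∘ φ`. -/
lemma exists_ofDual_of_toHomC_eq_zero {F : 𝒢.QE M} (hF : 𝒢.toHomC M F = 0) :
    ∃ φ : Module.Dual (ZMod p) M.V, F = 𝒢.ofDual φ := by
  have h0 : ∀ m, 𝒢.π (F.1 m) = 0 := fun m => by
    have := congrArg (fun f : 𝒢.HomC M => f.1 m) hF
    simpa using this
  have hex : ∀ m, ∃ a, 𝒢.ζ a = F.1 m := fun m => 𝒢.ker_tors _ (h0 m) (tors_apply M F.1 m)
  choose φ hφ using hex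
  have hadd : ∀ m m', φ (m + m') = φ m + φ m' := fun m m' => by
    apply 𝒢.ζ_inj
    rw [map_add, hφ, hφ, hφ, map_add]
  refine ⟨(AddMonoidHom.mk' φ hadd).toZModLinearMap p, Subtype.ext (AddMonoidHom.ext fun m => ?_)⟩
  rw [ofDual_apply]
  exact (hφ m).symm

variable (M) in
/-- The class map `QE →+ H¹(G_ℚ, M')`. -/
noncomputable def cls : 𝒢.QE M →+ H1 (M.dualTwist (cycloChar p)) :=
  (H1π (M.dualTwist (cycloChar p))).hom.toAddMonoidHom.comp (𝒢.coc M)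

lemma cls_apply (F : 𝒢.QE M) :
    𝒢.cls M F = (H1π (M.dualTwist (cycloChar p))).hom (𝒢.coc M F) := rfl

lemma ker_toHomC_le_ker_cls : (𝒢.toHomC M).ker ≤ (𝒢.cls M).ker := by
  intro F hF
  obtain ⟨φ, rfl⟩ := 𝒢.exists_ofDual_of_toHomC_eq_zero ((AddMonoidHom.mem_ker).1 hF)
  rw [AddMonoidHom.mem_ker, cls_apply]
  refine (H1π_eq_zero_iff _).2 ⟨φ, ?_⟩
  exact (𝒢.coc_ofDual φ).symm

variable (M) in
/-- **The connecting map** `δ : Hom_G(M, C) →+ H¹(G_ℚ, M')`. -/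
noncomputable def delta : 𝒢.HomC M →+ H1 (M.dualTwist (cycloChar p)) :=
  (𝒢.toHomC M).liftOfSurjective 𝒢.toHomC_surjective ⟨𝒢.cls M, 𝒢.ker_toHomC_le_ker_cls⟩

lemma delta_toHomC (F : 𝒢.QE M) : 𝒢.delta M (𝒢.toHomC M F) = 𝒢.cls M F :=
  AddMonoidHom.liftOfRightInverse_comp_apply _ _ _ _ F

/-- `δ f = 0` iff `f` lifts to an equivariant map `M → J`. -/
theorem delta_eq_zero_iff (f : 𝒢.HomC M) :
    𝒢.delta M f = 0 ↔ ∃ F : M.V →+ 𝒢.J, F ∈ 𝒢.HomJ M ∧ ∀ m, 𝒢.π (F m) = f.1 m := by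
  constructor
  · intro h
    obtain ⟨F, rfl⟩ := 𝒢.toHomC_surjective f
    rw [delta_toHomC, cls_apply, H1π_eq_zero_iff] at h
    obtain ⟨φ, hφ⟩ := h
    have hφ' : (𝒢.coc M (𝒢.ofDual φ) : GQ → _) = (𝒢.coc M F : GQ → _) := by
      rw [𝒢.coc_ofDual]; exact hφ
    refine ⟨(F - 𝒢.ofDual φ).1, ?_, fun m => ?_⟩
    · rw [mem_HomJ_iff_cocLin]
      intro g
      have h3 := congrFun hφ' g
      simp only [coc_apply] at h3
      rw [cocLin_eq_iff]
      intro m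
      have e1 := 𝒢.ζ_cocLin F g m
      have e2 := 𝒢.ζ_cocLin (𝒢.ofDual φ) g m
      rw [h3] at e2
      rw [LinearMap.zero_apply, map_zero, AddSubgroup.coe_sub, AddMonoidHom.sub_apply,
        AddMonoidHom.sub_apply, smul_sub]
      have e3 : g • F.1 (M.ρ g⁻¹ m) - F.1 m = g • (𝒢.ofDual φ).1 (M.ρ g⁻¹ m) - (𝒢.ofDual φ).1 m :=
        e1.symm.trans e2
      have e4 : g • F.1 (M.ρ g⁻¹ m) - g • (𝒢.ofDual φ).1 (M.ρ g⁻¹ m) - (F.1 m - (𝒢.ofDual φ).1 m)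
          = (g • F.1 (M.ρ g⁻¹ m) - F.1 m)
            - (g • (𝒢.ofDual φ).1 (M.ρ g⁻¹ m) - (𝒢.ofDual φ).1 m) := by abel
      rw [e4, e3, sub_self]
    · rw [AddSubgroup.coe_sub, AddMonoidHom.sub_apply, map_sub, ofDual_apply, 𝒢.π_ζ, sub_zero,
        toHomC_apply]
  · rintro ⟨F, hF, hlift⟩
    have hQE : F ∈ 𝒢.QE M := 𝒢.HomJ_le_QE hF
    have hf : f = 𝒢.toHomC M ⟨F, hQE⟩ := Subtype.ext (AddMonoidHom.ext fun m => (hlift m).symm)
    rw [hf, delta_toHomC, cls_apply]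
    have h0 : 𝒢.coc M ⟨F, hQE⟩ = 0 := by
      apply Subtype.ext
      funext g
      exact (𝒢.mem_HomJ_iff_cocLin ⟨F, hQE⟩).1 hF g
    rw [h0, map_zero]

end pts_EMod

end Fermat.Agent.Lib.PT
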