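/-
S55 (Poitou–Tate long-haul), S-track, abstract part (E), third file.

For `𝒢 : pts_EMod p S` and a finite `M` trivialised by an `S`-level:
* the cocycle of a quasi-equivariant map is `S`-level-constant and locally trivial at every
  `q ∈ S` (coboundary of the base coordinate);
* the coinduced construction: every level-constant cocycle of `M'` which is locally trivial at all
  `q ∈ S` is the cocycle of a quasi-equivariant map, with prescribed coordinates;
* hence `im δ = Ш¹_S(M')` (given `H¹(ℝ, M') = 0`) and `ker δ = im (⊕_q H⁰(ℚ_q, M'))`.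
-/
import Mathlib
import Fermat.Agent.Lib.PT.SeqEDelta

set_option autoImplicit false
set_option linter.unusedSectionVars false

namespace Fermat.Agent.Lib.PT

open CategoryTheory groupCohomology ExtCitation

local notation "Qbar" => AlgebraicClosure ℚ
local notation "GQ" => (AlgebraicClosure ℚ ≃ₐ[ℚ] AlgebraicClosure ℚ)

/-- A finite supremum of fields unramified outside `S` is unramified outside `S`. -/
lemma pts_isUnramifiedOutside_iSup {S : Finset Nat.Primes} {ι : Type*} [Finite ι]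
    (F : ι → IntermediateField ℚ Qbar) (h : ∀ i, (F i).IsUnramifiedOutside S) :
    (⨆ i, F i).IsUnramifiedOutside S := by
  classical
  have := Fintype.ofFinite ι
  rw [← Finset.sup_univ_eq_iSup]
  exact Finset.sup_induction (p := fun K : IntermediateField ℚ Qbar => K.IsUnramifiedOutside S)
    (IntermediateField.isUnramifiedOutside_bot S)
    (fun a ha b hb => IntermediateField.IsUnramifiedOutside.sup ha hb) (fun i _ => h i)

namespace pts_EMod

variable {p : ℕ} [Fact p.Prime] {S : Finset Nat.Primes} (𝒢 : pts_EMod p S)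
variable {M : Rep.{0} (ZMod p) GQ}

/-- `M` is trivialised by an `S`-level. -/
def TrivOnLevel (S : Finset Nat.Primes) (M : Rep.{0} (ZMod p) GQ) : Prop :=
  ∃ F : IntermediateField ℚ Qbar, F.IsUnramifiedOutside S ∧ F.fixingSubgroup ≤ M.ρ.ker

/-- The cocycle of a quasi-equivariant map is `S`-level-constant. -/
theorem isLevelConstantS₁_coc [Module.Finite (ZMod p) M.V] (hM : TrivOnLevel S M) (F : 𝒢.QE M) :
    IsLevelConstantS₁ S (𝒢.coc M F : GQ → (M.dualTwist (cycloChar p)).V) := by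
  have : Finite M.V := Module.finite_of_finite (ZMod p)
  obtain ⟨F₀, hF₀, hker⟩ := hM
  choose Fm hFm1 hFm2 using fun m : M.V => 𝒢.discrete (F.1 m)
  refine ⟨F₀ ⊔ ⨆ m, Fm m, hF₀.sup (pts_isUnramifiedOutside_iSup Fm hFm1), fun g s hs => ?_⟩
  have hs0 : s ∈ F₀.fixingSubgroup := IntermediateField.fixingSubgroup_antitone le_sup_left hs
  have hsm : ∀ m, s ∈ (Fm m).fixingSubgroup := fun m =>
    IntermediateField.fixingSubgroup_antitone ((le_iSup Fm m).trans le_sup_right) hs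
  have hρs : M.ρ s⁻¹ = 1 := MonoidHom.mem_ker.mp (hker (inv_mem hs0))
  change 𝒢.cocLin F (g * s) = 𝒢.cocLin F g
  rw [cocLin_eq_iff]
  intro m
  rw [𝒢.ζ_cocLin, mul_inv_rev, map_mul, hρs, one_mul, mul_smul, hFm2 _ s (hsm _)]

/-- The coordinates of a quasi-equivariant map at the base places. -/
noncomputable def coord (F : 𝒢.QE M) (q : ↥S) : Module.Dual (ZMod p) M.V :=
  (AddMonoidHom.mk' (fun m => 𝒢.ev q (F.1 m)) (fun m m' => by
    rw [map_add]
    exact 𝒢.ev_add q _ _ (tors_apply M F.1 m) (tors_apply M F.1 m'))).toZModLinearMap p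

@[simp]
lemma coord_apply (F : 𝒢.QE M) (q : ↥S) (m : M.V) : 𝒢.coord F q m = 𝒢.ev q (F.1 m) := rfl

/-- The cocycle of `F` restricted to `G_q` is the coboundary of the coordinate at `q`. -/
lemma cocLin_loc (F : 𝒢.QE M) (q : ↥S) (τ : primeLocalGaloisGroup q.1) (m : M.V) :
    𝒢.cocLin F (primeLocalToGlobal q.1 τ) m
      = (cycloChar p (primeLocalToGlobal q.1 τ) : ZMod p)
          * 𝒢.coord F q (M.ρ (primeLocalToGlobal q.1 τ)⁻¹ m) - 𝒢.coord F q m := by
  have h := congrArg (𝒢.ev q) (𝒢.ζ_cocLin F (primeLocalToGlobal q.1 τ) m)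
  rw [𝒢.ev_ζ, 𝒢.ev_sub q (𝒢.tors_smul _ (tors_apply M F.1 _)) (tors_apply M F.1 _),
    𝒢.ev_loc q τ _ (tors_apply M F.1 _)] at h
  exact h

/-- General coordinates of a quasi-equivariant map. -/
lemma ev_smul_apply (F : 𝒢.QE M) (q : ↥S) (g : GQ) (m : M.V) :
    𝒢.ev q (g • F.1 m) = 𝒢.coord F q (M.ρ g m) + 𝒢.cocLin F g (M.ρ g m) := by
  have h := congrArg (𝒢.ev q) (𝒢.ζ_cocLin F g (M.ρ g m))
  rw [𝒢.ev_ζ, ← Module.End.mul_apply, ← map_mul, inv_mul_cancel, map_one, Module.End.one_apply,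
    𝒢.ev_sub q (𝒢.tors_smul _ (tors_apply M F.1 _)) (tors_apply M F.1 _)] at h
  rw [coord_apply, h]
  abel

/-- A quasi-equivariant map is determined by its cocycle and its coordinates. -/
theorem QE_ext {F F' : 𝒢.QE M} (hc : ∀ g, 𝒢.cocLin F g = 𝒢.cocLin F' g)
    (he : ∀ q, 𝒢.coord F q = 𝒢.coord F' q) : F = F' := by
  apply Subtype.ext
  refine AddMonoidHom.ext fun m => ?_
  refine 𝒢.ext_ev (tors_apply M F.1 m) (tors_apply M F'.1 m) fun q g => ?_
  rw [ev_smul_apply, ev_smul_apply, hc, he]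

/-- **Coinduced construction.**  Given a level-constant cocycle `c` of `M'` (explicit cocycle
identity) and coordinates `φ q` trivialising `c` on `G_q`, there is a quasi-equivariant map
with cocycle `c` and coordinates `φ`. -/
theorem exists_QE_of_locTriv (hM : TrivOnLevel S M)
    (c : GQ → Module.Dual (ZMod p) M.V) (φ : ↥S → Module.Dual (ZMod p) M.V)
    (hlev : IsLevelConstantS₁ S c)
    (hcoc : ∀ (g h : GQ) (m : M.V),
      c (g * h) m = (cycloChar p g : ZMod p) * c h (M.ρ g⁻¹ m) + c g m)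
    (hloc : ∀ (q : ↥S) (τ : primeLocalGaloisGroup q.1) (m : M.V),
      c (primeLocalToGlobal q.1 τ) m
        = (cycloChar p (primeLocalToGlobal q.1 τ) : ZMod p)
            * φ q (M.ρ (primeLocalToGlobal q.1 τ)⁻¹ m) - φ q m) :
    ∃ F : M.V →+ 𝒢.J, (∀ (g : GQ) (m : M.V), 𝒢.ζ (c g m) = g • F (M.ρ g⁻¹ m) - F m) ∧
      ∀ q m, 𝒢.ev q (F m) = φ q m := by
  obtain ⟨F₀, hF₀, hker⟩ := hM
  obtain ⟨F₁, hF₁, hc⟩ := hlev
  -- the coordinate functions
  let h : M.V → ↥S → GQ → ZMod p := fun m q g => φ q (M.ρ g m) + c g (M.ρ g m)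
  have hc1 : ∀ m, c 1 m = 0 := fun m => by
    have := hcoc 1 1 m
    simpa using this
  have hlevh : ∀ m, ∃ F : IntermediateField ℚ Qbar, F.IsUnramifiedOutside S ∧
      ∀ q g s, s ∈ F.fixingSubgroup → h m q (g * s) = h m q g := fun m => by
    refine ⟨F₀ ⊔ F₁, hF₀.sup hF₁, fun q g s hs => ?_⟩
    have hs0 : s ∈ F₀.fixingSubgroup := IntermediateField.fixingSubgroup_antitone le_sup_left hs
    have hs1 : s ∈ F₁.fixingSubgroup := IntermediateField.fixingSubgroup_antitone le_sup_right hs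
    have hρs : M.ρ s = 1 := MonoidHom.mem_ker.mp (hker hs0)
    change φ q (M.ρ (g * s) m) + c (g * s) (M.ρ (g * s) m) = φ q (M.ρ g m) + c g (M.ρ g m)
    rw [map_mul, hρs, mul_one, hc g s hs1]
  have heqh : ∀ m (q : ↥S) (τ : primeLocalGaloisGroup q.1) (g : GQ),
      h m q (primeLocalToGlobal q.1 τ * g)
        = (cycloChar p (primeLocalToGlobal q.1 τ) : ZMod p) * h m q g := fun m q τ g => by
    change φ q (M.ρ (primeLocalToGlobal q.1 τ * g) m)
        + c (primeLocalToGlobal q.1 τ * g) (M.ρ (primeLocalToGlobal q.1 τ * g) m)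
      = (cycloChar p (primeLocalToGlobal q.1 τ) : ZMod p) * (φ q (M.ρ g m) + c g (M.ρ g m))
    have e1 : M.ρ (primeLocalToGlobal q.1 τ)⁻¹ (M.ρ (primeLocalToGlobal q.1 τ * g) m) = M.ρ g m := by
      rw [← Module.End.mul_apply, ← map_mul, inv_mul_cancel_left]
    rw [hcoc, hloc, e1]
    ring
  choose x hx1 hx2 using fun m => 𝒢.ev_surj (h m) (hlevh m) (heqh m)
  have hadd : ∀ m m', x (m + m') = x m + x m' := fun m m' => by
    refine 𝒢.ext_ev (hx1 _) (by rw [smul_add, hx1, hx1, add_zero]) fun q g => ?_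
    rw [smul_add, 𝒢.ev_add q _ _ (𝒢.tors_smul g (hx1 m)) (𝒢.tors_smul g (hx1 m')), hx2, hx2, hx2]
    change φ q (M.ρ g (m + m')) + c g (M.ρ g (m + m'))
      = (φ q (M.ρ g m) + c g (M.ρ g m)) + (φ q (M.ρ g m') + c g (M.ρ g m'))
    rw [map_add, map_add, map_add]
    ring
  refine ⟨AddMonoidHom.mk' x hadd, fun g m => ?_, fun q m => ?_⟩
  · simp only [AddMonoidHom.mk'_apply]
    symm
    refine 𝒢.ext_ev ?_ (𝒢.ζ_tors _) fun q g' => ?_
    · rw [smul_sub, 𝒢.tors_smul g (hx1 _), hx1, sub_zero]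
    · rw [smul_sub, 𝒢.ev_sub q (𝒢.tors_smul g' (𝒢.tors_smul g (hx1 _))) (𝒢.tors_smul g' (hx1 _)),
        ← mul_smul, hx2, hx2, 𝒢.smul_ζ, 𝒢.ev_ζ]
      change φ q (M.ρ (g' * g) (M.ρ g⁻¹ m)) + c (g' * g) (M.ρ (g' * g) (M.ρ g⁻¹ m))
          - (φ q (M.ρ g' m) + c g' (M.ρ g' m)) = (cycloChar p g' : ZMod p) * c g m
      have e1 : M.ρ (g' * g) (M.ρ g⁻¹ m) = M.ρ g' m := by
        rw [← Module.End.mul_apply, ← map_mul, mul_inv_cancel_right]
      have e2 : M.ρ g'⁻¹ (M.ρ g' m) = m := by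
        rw [← Module.End.mul_apply, ← map_mul, inv_mul_cancel, map_one, Module.End.one_apply]
      rw [e1, hcoc, e2]
      ring
  · simp only [AddMonoidHom.mk'_apply]
    have := hx2 m q 1
    rw [one_smul] at this
    rw [this]
    change φ q (M.ρ 1 m) + c 1 (M.ρ 1 m) = φ q m
    rw [map_one, Module.End.one_apply, hc1, add_zero]

end pts_EMod

end Fermat.Agent.Lib.PT
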