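/-
S55 (Poitou–Tate), abstract Tate–Nakayama package, step N2/N3 (representation level):
the Tate groups `Ĥ⁰` and `Ĥ⁻¹` of a finite group as PREDICATES
(`ptn_H0hatTriv`: every invariant is a norm; `ptn_Hm1hatTriv`: norm zero implies in `I_G V`),
coset decompositions of the norm, the elementary Sylow reduction in these two degrees
(`ptn_H0hatTriv_of_forall_prime`, `ptn_Hm1hatTriv_of_forall_prime`) and the dévissage along a
normal subgroup (`ptn_H0hatTriv_of_normal`, `ptn_Hm1hatTriv_of_normal`).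
-/
import Mathlib
set_option autoImplicit false
set_option linter.unusedSectionVars false
set_option linter.style.haveILetI false
namespace Fermat.Agent.Lib.PT

open Representation

section coset

variable {G : Type*} [Group G] (U : Subgroup G)

/-- `(q, u) ↦ q.out * u` as an equivalence `(G ⧸ U) × U ≃ G`. -/
noncomputable def ptn_cosetEquiv : (G ⧸ U) × U ≃ G where
  toFun x := x.1.out * x.2
  invFun g := ⟨(g : G ⧸ U), ⟨((g : G ⧸ U)).out⁻¹ * g, by
    rw [← QuotientGroup.eq]; exact QuotientGroup.out_eq' _⟩⟩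
  left_inv := by
    rintro ⟨q, u⟩
    have h : ((q.out * (u : G) : G) : G ⧸ U) = q := by
      rw [QuotientGroup.mk_mul_of_mem _ u.2]; exact QuotientGroup.out_eq' q
    ext
    · exact h
    · simp only [h]; simp
  right_inv g := by simp

@[simp] theorem ptn_cosetEquiv_apply (x : (G ⧸ U) × U) :
    ptn_cosetEquiv U x = x.1.out * x.2 := rfl

end coset

section defs

variable {k G V : Type*} [CommRing k] [Group G] [Finite G] [AddCommGroup V] [Module k V]
  (ρ : Representation k G V)

/-- The norm `∑ g, ρ g` of a representation of a finite group (no `Fintype` instance needed). -/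
noncomputable def ptn_norm : V →ₗ[k] V :=
  letI := Fintype.ofFinite G
  ρ.norm

theorem ptn_norm_eq [Fintype G] : ptn_norm ρ = ρ.norm := by
  unfold ptn_norm
  congr
  exact Subsingleton.elim _ _

theorem ptn_norm_apply [Fintype G] (v : V) : ptn_norm ρ v = ∑ g : G, ρ g v := by
  rw [ptn_norm_eq]
  simp [Representation.norm]

theorem ptn_norm_self_apply (g : G) (v : V) : ptn_norm ρ (ρ g v) = ptn_norm ρ v := by
  letI := Fintype.ofFinite G
  rw [ptn_norm_eq]; simp

theorem ptn_self_norm_apply (g : G) (v : V) : ρ g (ptn_norm ρ v) = ptn_norm ρ v := by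
  letI := Fintype.ofFinite G
  rw [ptn_norm_eq]; simp

theorem ptn_norm_mem_invariants (v : V) : ptn_norm ρ v ∈ ρ.invariants :=
  fun g => ptn_self_norm_apply ρ g v

/-- `Ĥ⁰(G, V) = 0`: every invariant is a norm. -/
def ptn_H0hatTriv : Prop := ∀ a ∈ ρ.invariants, ∃ b, ptn_norm ρ b = a

/-- `Ĥ⁻¹(G, V) = 0`: every element of norm zero lies in `I_G V`. -/
def ptn_Hm1hatTriv : Prop := ∀ a, ptn_norm ρ a = 0 → a ∈ Coinvariants.ker ρ

/-- coset decomposition of the norm, first form. -/
theorem ptn_norm_eq_sum_out (U : Subgroup G) (v : V) [Fintype (G ⧸ U)] :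
    ptn_norm ρ v = ∑ q : G ⧸ U, ρ q.out (ptn_norm (ρ.comp U.subtype) v) := by
  classical
  letI := Fintype.ofFinite G
  letI := Fintype.ofFinite U
  rw [ptn_norm_apply]
  simp_rw [ptn_norm_apply, map_sum]
  rw [← Fintype.sum_prod_type' (f := fun (q : G ⧸ U) (u : U) => ρ q.out ((ρ.comp U.subtype) u v))]
  refine (Fintype.sum_equiv (ptn_cosetEquiv U) _ _ ?_).symm
  intro g
  simp only [ptn_cosetEquiv_apply, MonoidHom.comp_apply, Subgroup.coe_subtype, map_mul,
    Module.End.mul_apply]

/-- coset decomposition of the norm, second form. -/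
theorem ptn_norm_eq_norm_sum_out_inv (U : Subgroup G) (v : V) [Fintype (G ⧸ U)] :
    ptn_norm ρ v = ptn_norm (ρ.comp U.subtype) (∑ q : G ⧸ U, ρ q.out⁻¹ v) := by
  classical
  letI := Fintype.ofFinite G
  letI := Fintype.ofFinite U
  rw [ptn_norm_apply, ptn_norm_apply]
  simp_rw [map_sum]
  rw [Finset.sum_comm]
  rw [← Fintype.sum_prod_type' (f := fun (q : G ⧸ U) (u : U) => (ρ.comp U.subtype) u (ρ q.out⁻¹ v))]
  refine (Fintype.sum_equiv (((Equiv.refl _).prodCongr (Equiv.inv U)).trans
    ((ptn_cosetEquiv U).trans (Equiv.inv G))) _ _ ?_).symm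
  intro x
  obtain ⟨q, u⟩ := x
  simp only [Equiv.trans_apply, ptn_cosetEquiv_apply, Equiv.inv_apply, mul_inv_rev,
    MonoidHom.comp_apply, Subgroup.coe_subtype, map_mul, Module.End.mul_apply,
    Equiv.prodCongr_apply, Equiv.coe_refl, Prod.map_apply, id_eq, InvMemClass.coe_inv, inv_inv]

theorem ptn_coinvKer_comp_le (U : Subgroup G) :
    Coinvariants.ker (ρ.comp U.subtype) ≤ Coinvariants.ker ρ := by
  refine Submodule.span_le.2 ?_
  rintro _ ⟨⟨u, x⟩, rfl⟩
  exact Coinvariants.sub_mem_ker (ρ := ρ) (u : G) x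

theorem ptn_invariants_le_comp (U : Subgroup G) :
    ρ.invariants ≤ Representation.invariants (ρ.comp U.subtype) := fun _ ha u => ha u

theorem ptn_index_smul_eq_norm (U : Subgroup G) (hU : ptn_H0hatTriv (ρ.comp U.subtype))
    (a : V) (ha : a ∈ ρ.invariants) : ∃ b, ptn_norm ρ b = U.index • a := by
  classical
  letI := Fintype.ofFinite (G ⧸ U)
  obtain ⟨b, hb⟩ := hU a (ptn_invariants_le_comp ρ U ha)
  refine ⟨b, ?_⟩
  rw [ptn_norm_eq_sum_out ρ U, hb]
  simp_rw [ha _]
  rw [Finset.sum_const, Finset.card_univ, Subgroup.index, Nat.card_eq_fintype_card]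

theorem ptn_index_smul_mem_coinvKer (U : Subgroup G) (hU : ptn_Hm1hatTriv (ρ.comp U.subtype))
    (a : V) (ha : ptn_norm ρ a = 0) : U.index • a ∈ Coinvariants.ker ρ := by
  classical
  letI := Fintype.ofFinite (G ⧸ U)
  have h1 : (∑ q : G ⧸ U, ρ q.out⁻¹ a) ∈ Coinvariants.ker ρ := by
    apply ptn_coinvKer_comp_le ρ U
    apply hU
    rw [← ptn_norm_eq_norm_sum_out_inv, ha]
  have h2 : U.index • a = (∑ q : G ⧸ U, ρ q.out⁻¹ a) - ∑ q : G ⧸ U, (ρ q.out⁻¹ a - a) := by
    rw [Finset.sum_sub_distrib, Finset.sum_const, Finset.card_univ, Subgroup.index,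
      Nat.card_eq_fintype_card]
    abel
  rw [h2]
  refine Submodule.sub_mem _ h1 (Submodule.sum_mem _ fun q _ => ?_)
  exact Coinvariants.sub_mem_ker (ρ := ρ) _ a

end defs

section gcd

theorem ptn_mem_of_forall_prime {M : Type*} [AddCommGroup M] (P : AddSubgroup M) (a : M)
    (h : ∀ p : ℕ, p.Prime → ∃ n : ℕ, ¬ p ∣ n ∧ n • a ∈ P) : a ∈ P := by
  let I : Ideal ℤ :=
    { carrier := {n | n • a ∈ P}
      add_mem' := by
        intro x y hx hy
        simp only [Set.mem_ofPred_eq, add_smul] at *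
        exact P.add_mem hx hy
      zero_mem' := by simp
      smul_mem' := by
        intro c x hx
        simp only [Set.mem_ofPred_eq, smul_eq_mul, mul_smul] at *
        exact P.zsmul_mem hx c }
  obtain ⟨d, hd⟩ := IsPrincipalIdealRing.principal I
  have hmem : ∀ n : ℤ, n ∈ I ↔ n • a ∈ P := fun n => Iff.rfl
  have h1 : d.natAbs = 1 := by
    rw [Nat.eq_one_iff_not_exists_prime_dvd]
    intro p hp hpd
    obtain ⟨n, hn, hna⟩ := h p hp
    have : (n : ℤ) ∈ I := by rw [hmem]; simpa using hna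
    rw [hd, Submodule.mem_span_singleton] at this
    obtain ⟨c, hc⟩ := this
    apply hn
    have h3 : (p : ℤ) ∣ n := by
      rw [← hc]
      exact Dvd.dvd.mul_left (Int.natCast_dvd.2 hpd) c
    exact Int.natCast_dvd_natCast.1 h3
  have h2 : (1 : ℤ) ∈ I := by
    rw [hd, Submodule.mem_span_singleton]
    rcases Int.natAbs_eq d with h | h
    · exact ⟨1, by rw [h, h1]; simp⟩
    · exact ⟨-1, by rw [h, h1]; simp⟩
  simpa [hmem] using h2

end gcd

section sylow

variable {k G V : Type*} [CommRing k] [Group G] [Finite G] [AddCommGroup V] [Module k V]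
  (ρ : Representation k G V)

theorem ptn_H0hatTriv_of_forall_prime
    (h : ∀ p : ℕ, p.Prime → ∃ U : Subgroup G, ¬ p ∣ U.index ∧ ptn_H0hatTriv (ρ.comp U.subtype)) :
    ptn_H0hatTriv ρ := by
  intro a ha
  have := ptn_mem_of_forall_prime (LinearMap.range (ptn_norm ρ)).toAddSubgroup a ?_
  · obtain ⟨b, hb⟩ := this
    exact ⟨b, hb⟩
  · intro p hp
    obtain ⟨U, hU, hU'⟩ := h p hp
    refine ⟨U.index, hU, ?_⟩
    obtain ⟨b, hb⟩ := ptn_index_smul_eq_norm ρ U hU' a ha
    exact ⟨b, hb⟩

theorem ptn_Hm1hatTriv_of_forall_prime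
    (h : ∀ p : ℕ, p.Prime → ∃ U : Subgroup G, ¬ p ∣ U.index ∧ ptn_Hm1hatTriv (ρ.comp U.subtype)) :
    ptn_Hm1hatTriv ρ := by
  intro a ha
  refine ptn_mem_of_forall_prime (Coinvariants.ker ρ).toAddSubgroup a ?_
  intro p hp
  obtain ⟨U, hU, hU'⟩ := h p hp
  exact ⟨U.index, hU, ptn_index_smul_mem_coinvKer ρ U hU' a ha⟩

end sylow


section normal

variable {k G V : Type*} [CommRing k] [Group G] [Finite G] [AddCommGroup V] [Module k V]
  (ρ : Representation k G V) (S : Subgroup G) [S.Normal]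

theorem ptn_quotientToInvariants_mk_apply (g : G)
    (w : Representation.invariants (ρ.comp S.subtype)) :
    ((ρ.quotientToInvariants S (g : G ⧸ S) w : Representation.invariants (ρ.comp S.subtype)) : V)
      = ρ g w := rfl

theorem ptn_norm_comp_subtype_comm (g : G) (v : V) :
    ρ g (ptn_norm (ρ.comp S.subtype) v) = ptn_norm (ρ.comp S.subtype) (ρ g v) := by
  classical
  letI := Fintype.ofFinite S
  rw [ptn_norm_apply, ptn_norm_apply, map_sum]
  refine Fintype.sum_equiv (MulAut.conjNormal g : S ≃* S).toEquiv _ _ ?_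
  intro s
  simp only [MonoidHom.comp_apply, Subgroup.coe_subtype, MulEquiv.toEquiv_eq_coe,
    EquivLike.coe_coe, MulAut.conjNormal_apply, ← Module.End.mul_apply, ← map_mul]
  congr 2
  group

theorem ptn_norm_quotient_norm (v : V) :
    ((ptn_norm (ρ.quotientToInvariants S)
      ⟨ptn_norm (ρ.comp S.subtype) v, ptn_norm_mem_invariants _ v⟩ :
        Representation.invariants (ρ.comp S.subtype)) : V) = ptn_norm ρ v := by
  classical
  letI := Fintype.ofFinite (G ⧸ S)
  rw [ptn_norm_eq_sum_out ρ S v, ptn_norm_apply]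
  rw [AddSubmonoidClass.coe_finsetSum]
  refine Finset.sum_congr rfl fun q _ => ?_
  conv_lhs => rw [← QuotientGroup.out_eq' q]
  rfl

theorem ptn_H0hatTriv_of_normal (h1 : ptn_H0hatTriv (ρ.comp S.subtype))
    (h2 : ptn_H0hatTriv (ρ.quotientToInvariants S)) : ptn_H0hatTriv ρ := by
  intro a ha
  have ha' : a ∈ Representation.invariants (ρ.comp S.subtype) := ptn_invariants_le_comp ρ S ha
  have ha'' : (⟨a, ha'⟩ : Representation.invariants (ρ.comp S.subtype)) ∈
      Representation.invariants (ρ.quotientToInvariants S) := by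
    intro q
    induction q using QuotientGroup.induction_on with | @H g =>
    apply Subtype.ext
    rw [ptn_quotientToInvariants_mk_apply]
    exact ha g
  obtain ⟨⟨w, hw⟩, hw'⟩ := h2 _ ha''
  obtain ⟨b, hb⟩ := h1 w hw
  refine ⟨b, ?_⟩
  rw [← ptn_norm_quotient_norm ρ S b]
  have : (⟨ptn_norm (ρ.comp S.subtype) b, ptn_norm_mem_invariants _ b⟩ :
      Representation.invariants (ρ.comp S.subtype)) = ⟨w, hw⟩ := Subtype.ext hb
  rw [this, hw']

theorem ptn_exists_of_mem_coinvKer_quotient (h1 : ptn_H0hatTriv (ρ.comp S.subtype))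
    (w : Representation.invariants (ρ.comp S.subtype))
    (hw : w ∈ Coinvariants.ker (ρ.quotientToInvariants S)) :
    ∃ a' ∈ Coinvariants.ker ρ, ptn_norm (ρ.comp S.subtype) a' = (w : V) := by
  induction hw using Submodule.span_induction with
  | mem x hx =>
    obtain ⟨⟨q, ⟨v, hv⟩⟩, rfl⟩ := hx
    induction q using QuotientGroup.induction_on with | @H g =>
    obtain ⟨b, hb⟩ := h1 v hv
    refine ⟨ρ g b - b, Coinvariants.sub_mem_ker (ρ := ρ) g b, ?_⟩
    rw [map_sub, ← ptn_norm_comp_subtype_comm, hb]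
    rfl
  | zero => exact ⟨0, Submodule.zero_mem _, by simp⟩
  | add x y _ _ hx hy =>
    obtain ⟨a1, ha1, h1'⟩ := hx
    obtain ⟨a2, ha2, h2'⟩ := hy
    exact ⟨a1 + a2, Submodule.add_mem _ ha1 ha2, by rw [map_add, h1', h2']; rfl⟩
  | smul c x _ hx =>
    obtain ⟨a1, ha1, h1'⟩ := hx
    exact ⟨c • a1, Submodule.smul_mem _ c ha1, by rw [map_smul, h1']; rfl⟩

theorem ptn_Hm1hatTriv_of_normal (h1 : ptn_H0hatTriv (ρ.comp S.subtype))
    (h2 : ptn_Hm1hatTriv (ρ.comp S.subtype))
    (h3 : ptn_Hm1hatTriv (ρ.quotientToInvariants S)) : ptn_Hm1hatTriv ρ := by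
  intro a ha
  have hw : (⟨ptn_norm (ρ.comp S.subtype) a, ptn_norm_mem_invariants _ a⟩ :
      Representation.invariants (ρ.comp S.subtype)) ∈
        Coinvariants.ker (ρ.quotientToInvariants S) := by
    apply h3
    apply Subtype.ext
    rw [ptn_norm_quotient_norm ρ S a, ha]
    rfl
  obtain ⟨a', ha', haa'⟩ := ptn_exists_of_mem_coinvKer_quotient ρ S h1 _ hw
  have h4 : a - a' ∈ Coinvariants.ker ρ := by
    apply ptn_coinvKer_comp_le ρ S
    apply h2
    rw [map_sub, haa', sub_self]
  have : a = (a - a') + a' := by abel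
  rw [this]
  exact Submodule.add_mem _ h4 ha'

end normal

section trivialGroup

variable {k G V : Type*} [CommRing k] [Group G] [Finite G] [AddCommGroup V] [Module k V]
  (ρ : Representation k G V)

theorem ptn_norm_of_subsingleton [Subsingleton G] (v : V) : ptn_norm ρ v = v := by
  classical
  letI := Fintype.ofFinite G
  letI : Unique G := ⟨⟨1⟩, fun g => Subsingleton.elim _ _⟩
  rw [ptn_norm_apply, Fintype.sum_unique]
  have : (default : G) = 1 := Subsingleton.elim _ _
  rw [this, map_one]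
  rfl

theorem ptn_H0hatTriv_of_subsingleton [Subsingleton G] : ptn_H0hatTriv ρ :=
  fun a _ => ⟨a, ptn_norm_of_subsingleton ρ a⟩

theorem ptn_Hm1hatTriv_of_subsingleton [Subsingleton G] : ptn_Hm1hatTriv ρ := by
  intro a ha
  rw [ptn_norm_of_subsingleton] at ha
  rw [ha]
  exact Submodule.zero_mem _

end trivialGroup

end Fermat.Agent.Lib.PT
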