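/-
S55 (Poitou–Tate), abstract Tate–Nakayama package, step N1:
* elementwise criteria for the vanishing of `H¹` and `H²` in Mathlib's low degree API;
* inflation `H²(G ⧸ S, A^S) ⟶ H²(G, A)` is injective as soon as `H¹(S, A) = 0`
  (explicit cocycle computation).
-/
import Mathlib

set_option autoImplicit false
set_option linter.unusedSectionVars false

namespace Fermat.Agent.Lib.PT

open CategoryTheory groupCohomology Rep

universe u

section vanishing

variable {k G : Type u} [CommRing k] [Group G] (A : Rep k G)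

/-- `H¹(G, A) = 0` means every 1-cocycle is a coboundary. -/
theorem ptn_isZero_H1_iff :
    Limits.IsZero (groupCohomology A 1) ↔
      ∀ z : cocycles₁ A, ∃ b : A, ∀ g : G, z g = A.ρ g b - b := by
  rw [ModuleCat.isZero_iff_subsingleton]
  constructor
  · intro h z
    have h0 : H1π A z = 0 := Subsingleton.elim _ _
    obtain ⟨b, hb⟩ := (H1π_eq_zero_iff z).1 h0
    refine ⟨b, fun g => ?_⟩
    have := congr_fun hb g
    simpa [d₀₁] using this.symm
  · intro h
    refine ⟨fun x y => ?_⟩
    have key : ∀ x : groupCohomology A 1, x = 0 := by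
      intro x
      induction x using H1_induction_on with | @h z =>
      obtain ⟨b, hb⟩ := h z
      refine (H1π_eq_zero_iff z).2 ⟨b, ?_⟩
      funext g
      simpa [d₀₁] using (hb g).symm
    rw [key x, key y]

/-- `H²(G, A) = 0` means every 2-cocycle is a coboundary. -/
theorem ptn_isZero_H2_iff :
    Limits.IsZero (groupCohomology A 2) ↔
      ∀ z : cocycles₂ A, ∃ y : G → A, ∀ g h : G, z (g, h) = A.ρ g (y h) - y (g * h) + y g := by
  rw [ModuleCat.isZero_iff_subsingleton]
  constructor
  · intro h z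
    have h0 : H2π A z = 0 := Subsingleton.elim _ _
    obtain ⟨y, hy⟩ := (H2π_eq_zero_iff z).1 h0
    refine ⟨y, fun g h => ?_⟩
    have := congr_fun hy (g, h)
    simpa [d₁₂] using this.symm
  · intro h
    refine ⟨fun x y => ?_⟩
    have key : ∀ x : groupCohomology A 2, x = 0 := by
      intro x
      induction x using H2_induction_on with | @h z =>
      obtain ⟨y, hy⟩ := h z
      refine (H2π_eq_zero_iff z).2 ⟨y, ?_⟩
      funext ⟨g, h⟩
      simpa [d₁₂] using (hy g h).symm
    rw [key x, key y]

end vanishing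

variable {k G : Type u} [CommRing k] [Group G] (A : Rep k G) (S : Subgroup G) [S.Normal]

/-- The inflation map `H²(G ⧸ S, A^S) ⟶ H²(G, A)`. -/
noncomputable abbrev ptn_infH2 :
    groupCohomology (A.quotientToInvariants S) 2 ⟶ groupCohomology A 2 :=
  map (QuotientGroup.mk' S) (ofHom <| A.ρ.quotientToInvariants_lift S) 2

/-- The inflation map `H¹(G ⧸ S, A^S) ⟶ H¹(G, A)`. -/
noncomputable abbrev ptn_infH1 :
    groupCohomology (A.quotientToInvariants S) 1 ⟶ groupCohomology A 1 :=
  map (QuotientGroup.mk' S) (ofHom <| A.ρ.quotientToInvariants_lift S) 1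

theorem ptn_infH1_injective : Function.Injective (ptn_infH1 A S) :=
  (ModuleCat.mono_iff_injective _).1 (inferInstanceAs (Mono (H1InfRes A S).f))

theorem ptn_infH2_injective
    (hS : ∀ z : cocycles₁ (res S.subtype A), ∃ b : A, ∀ s : S, z s = A.ρ s b - b) :
    Function.Injective (ptn_infH2 A S) := by
  rw [injective_iff_map_eq_zero]
  intro x hx
  induction x using H2_induction_on with | @h x =>
  simp only [ptn_infH2, H2π_comp_map_apply (QuotientGroup.mk' S)] at hx
  rcases (H2π_eq_zero_iff _).1 hx with ⟨(y : G → A), hy⟩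
  have hy' : ∀ g h : G, A.ρ g (y h) - y (g * h) + y g = (x ((g : G ⧸ S), (h : G ⧸ S)) : A) := by
    intro g h
    have := congr_fun hy (g, h)
    rw [coe_mapCocycles₂ (x := x)] at this
    simpa using this
  -- the value at `(1, 1)`
  have hS1 : ∀ s : G, s ∈ S → ((s : G ⧸ S)) = 1 := fun s hs => (QuotientGroup.eq_one_iff s).2 hs
  have hainv : ∀ s : G, s ∈ S → A.ρ s (x (1, 1) : A) = (x (1, 1) : A) := by
    intro s hs
    exact (x (1, 1)).2 ⟨s, hs⟩
  have hx1g : ∀ g : G ⧸ S, x (1, g) = x (1, 1) := fun g => cocycles₂_map_one_fst x g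
  have hxg1 : ∀ g : G, (x ((g : G ⧸ S), 1) : A) = A.ρ g (x (1, 1) : A) := by
    intro g
    have := cocycles₂_map_one_snd x (g : G ⧸ S)
    rw [this]
    rfl
  -- the cocycle `z s = y s - a` on `S`
  have hz : (fun s : S => y s - (x (1, 1) : A)) ∈ cocycles₁ (res S.subtype A) := by
    rw [mem_cocycles₁_iff]
    intro s t
    have h1 := hy' s t
    rw [hS1 s s.2, hS1 t t.2] at h1
    have h2 := hainv s s.2
    simp only [Subgroup.coe_mul, MonoidHom.comp_apply, Subgroup.coe_subtype, map_sub]
    rw [h2]
    rw [← h1]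
    abel
  obtain ⟨b, hb⟩ := hS ⟨_, hz⟩
  have hb' : ∀ s : G, s ∈ S → y s = A.ρ s b - b + (x (1, 1) : A) := by
    intro s hs
    have := hb ⟨s, hs⟩
    rw [← this]
    change y s = y s - _ + _
    abel
  -- the modified cochain
  set y' : G → A := fun g => y g - (A.ρ g b - b) with hy'def
  have hy'' : ∀ g h : G,
      A.ρ g (y' h) - y' (g * h) + y' g = (x ((g : G ⧸ S), (h : G ⧸ S)) : A) := by
    intro g h
    rw [← hy' g h]
    simp only [hy'def, map_sub, map_mul, Module.End.mul_apply]
    abel
  have hy's : ∀ s : G, s ∈ S → y' s = (x (1, 1) : A) := by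
    intro s hs
    simp only [hy'def, hb' s hs]
    abel
  have hright : ∀ (g s : G), s ∈ S → y' (g * s) = y' g := by
    intro g s hs
    have h1 := hy'' g s
    rw [hS1 s hs, hxg1 g, hy's s hs] at h1
    have : y' (g * s) = y' g +
        (A.ρ g (x (1, 1) : A) - (A.ρ g (x (1, 1) : A) - y' (g * s) + y' g)) := by abel
    rw [this, h1]; abel
  have hinv : ∀ (g s : G), s ∈ S → A.ρ s (y' g) = y' g := by
    intro g s hs
    have h1 := hy'' s g
    rw [hS1 s hs, hx1g, hy's s hs] at h1
    have h2 : y' (s * g) = y' g := by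
      have : s * g = g * (g⁻¹ * s * g) := by group
      rw [this]
      exact hright g _ (Subgroup.Normal.conj_mem' ‹_› s hs g)
    rw [h2] at h1
    have : A.ρ s (y' g) = (A.ρ s (y' g) - y' g + (x (1, 1) : A)) + (y' g - (x (1, 1) : A)) := by
      abel
    rw [this, h1]; abel
  refine (H2π_eq_zero_iff _).2
    ⟨fun g => Quotient.liftOn' g (fun g => ⟨y' g, fun s => hinv g s.1 s.2⟩) ?_, ?_⟩
  · intro g h hgh
    have hmem : g⁻¹ * h ∈ S := QuotientGroup.leftRel_apply.1 hgh
    apply Subtype.ext
    have := hright g _ hmem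
    simp only [mul_inv_cancel_left] at this
    exact this.symm
  · funext ⟨g, h⟩
    induction g using QuotientGroup.induction_on with | @H g =>
    induction h using QuotientGroup.induction_on with | @H h =>
    apply Subtype.ext
    rw [← hy'' g h]
    simp [d₁₂, ← QuotientGroup.mk_mul]

/-- If `H¹(S, A) = 0` and `H²(G, A) = 0` then `H²(G ⧸ S, A^S) = 0`. -/
theorem ptn_isZero_H2_quotient
    (h1 : Limits.IsZero (groupCohomology (res S.subtype A) 1))
    (h2 : Limits.IsZero (groupCohomology A 2)) :
    Limits.IsZero (groupCohomology (A.quotientToInvariants S) 2) := by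
  rw [ModuleCat.isZero_iff_subsingleton] at h2 ⊢
  have hinj := ptn_infH2_injective A S ((ptn_isZero_H1_iff _).1 h1)
  exact ⟨fun x y => hinj (Subsingleton.elim _ _)⟩

/-- If `H¹(G, A) = 0` then `H¹(G ⧸ S, A^S) = 0`. -/
theorem ptn_isZero_H1_quotient
    (h1 : Limits.IsZero (groupCohomology A 1)) :
    Limits.IsZero (groupCohomology (A.quotientToInvariants S) 1) := by
  rw [ModuleCat.isZero_iff_subsingleton] at h1 ⊢
  have hinj := ptn_infH1_injective A S
  exact ⟨fun x y => hinj (Subsingleton.elim _ _)⟩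

end Fermat.Agent.Lib.PT
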