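/-
S55 (Poitou–Tate), abstract Tate–Nakayama package, steps N2/N3:
* finite cyclic groups: `H² = 0 ⇒ Ĥ⁰ = 0`, `H¹ = 0 ⇒ Ĥ⁻¹ = 0` (from Mathlib's periodic resolution);
* NAKAYAMA'S CRITERION in degrees `(-1, 0)` (`ptn_nakayama`): if `H¹(U, A) = H²(U, A) = 0` for all
  subgroups `U` of a finite group `G` then every invariant of `A` is a norm and every element of
  norm zero lies in `I_G A`.
-/
import Mathlib
import Fermat.Agent.Lib.PT.TNHat
import Fermat.Agent.Lib.PT.TNInfH2
set_option autoImplicit false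
set_option linter.unusedSectionVars false
set_option linter.style.haveILetI false

namespace Fermat.Agent.Lib.PT

open CategoryTheory groupCohomology Rep

universe u

section cyclicComm

variable {k G : Type u} [CommRing k] [CommGroup G] [Fintype G] (A : Rep k G) (g : G)
  (hg : ∀ x, x ∈ Subgroup.zpowers g)

include hg

theorem ptn_H0hatTriv_of_isZero_H2_aux (h : Limits.IsZero (groupCohomology A 2)) :
    ptn_H0hatTriv A.ρ := by
  intro a ha
  have hmem : a ∈ LinearMap.ker (applyAsHom A g - 𝟙 A).hom.toLinearMap := by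
    simp [sub_hom, ha g]
  have h0 : Rep.FiniteCyclicGroup.groupCohomologyπEven A g hg 2 (by decide) ⟨a, hmem⟩ = 0 :=
    (ModuleCat.isZero_iff_subsingleton.1 h).elim _ _
  rw [Rep.FiniteCyclicGroup.groupCohomologyπEven_eq_zero_iff] at h0
  obtain ⟨b, hb⟩ := h0
  refine ⟨b, ?_⟩
  rw [ptn_norm_eq]
  exact hb

theorem ptn_Hm1hatTriv_of_isZero_H1_aux (h : Limits.IsZero (groupCohomology A 1)) :
    ptn_Hm1hatTriv A.ρ := by
  intro a ha
  have hmem : a ∈ LinearMap.ker A.norm.hom.toLinearMap := by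
    rw [ptn_norm_eq] at ha
    exact ha
  have h0 : Rep.FiniteCyclicGroup.groupCohomologyπOdd A g hg 1 (by decide) ⟨a, hmem⟩ = 0 :=
    (ModuleCat.isZero_iff_subsingleton.1 h).elim _ _
  rw [Rep.FiniteCyclicGroup.groupCohomologyπOdd_eq_zero_iff] at h0
  obtain ⟨b, hb⟩ := h0
  have : a = A.ρ g b - b := by
    have hb' : a = (Hom.hom (A.applyAsHom g - 𝟙 A)).toLinearMap b := hb.symm
    rw [hb']
    simp [sub_hom]
  rw [this]
  exact Representation.Coinvariants.sub_mem_ker g b

end cyclicComm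

section cyclic

variable {k G : Type u} [CommRing k] [Group G] [Finite G] [IsCyclic G] (A : Rep k G)

theorem ptn_H0hatTriv_of_isZero_H2_of_isCyclic (h : Limits.IsZero (groupCohomology A 2)) :
    ptn_H0hatTriv A.ρ := by
  letI : CommGroup G := IsCyclic.commGroup
  letI := Fintype.ofFinite G
  obtain ⟨g, hg⟩ := IsCyclic.exists_generator (α := G)
  exact ptn_H0hatTriv_of_isZero_H2_aux A g hg h

theorem ptn_Hm1hatTriv_of_isZero_H1_of_isCyclic (h : Limits.IsZero (groupCohomology A 1)) :
    ptn_Hm1hatTriv A.ρ := by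
  letI : CommGroup G := IsCyclic.commGroup
  letI := Fintype.ofFinite G
  obtain ⟨g, hg⟩ := IsCyclic.exists_generator (α := G)
  exact ptn_Hm1hatTriv_of_isZero_H1_aux A g hg h

end cyclic

section nakayama

variable {k : Type u} [CommRing k]

/-- The hypotheses of Nakayama's criterion in degrees `1, 2`. -/
def ptn_H12Triv {G : Type u} [Group G] (A : Rep k G) : Prop :=
  ∀ U : Subgroup G, Limits.IsZero (groupCohomology (res U.subtype A) 1) ∧
    Limits.IsZero (groupCohomology (res U.subtype A) 2)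

theorem ptn_H12Triv_of_injective {G H : Type u} [Group G] [Group H] (A : Rep k G)
    (hA : ptn_H12Triv A) (f : H →* G) (hf : Function.Injective f) :
    Limits.IsZero (groupCohomology (res f A) 1) ∧ Limits.IsZero (groupCohomology (res f A) 2) := by
  have e : ∀ n, groupCohomology (res f A) n ≅ groupCohomology (res f.range.subtype A) n :=
    fun n => mapIso (A := res f.range.subtype A) (B := res f A) (MonoidHom.ofInjective hf)
      (LinearEquiv.refl k A.V) (fun g => rfl) n
  exact ⟨(hA f.range).1.of_iso (e 1), (hA f.range).2.of_iso (e 2)⟩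

theorem ptn_H12Triv_res {G : Type u} [Group G] (A : Rep k G) (hA : ptn_H12Triv A)
    (U : Subgroup G) : ptn_H12Triv (res U.subtype A) := by
  intro W
  exact ptn_H12Triv_of_injective A hA (U.subtype.comp W.subtype)
    (U.subtype_injective.comp W.subtype_injective)

theorem ptn_H12Triv_self {G : Type u} [Group G] (A : Rep k G) (hA : ptn_H12Triv A) :
    Limits.IsZero (groupCohomology A 1) ∧ Limits.IsZero (groupCohomology A 2) :=
  ptn_H12Triv_of_injective A hA (MonoidHom.id G) Function.injective_id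

theorem ptn_nakayama_pgroup (p : ℕ) [hp : Fact p.Prime] :
    ∀ (n : ℕ) (G : Type u) [Group G] [Finite G] (_ : Nat.card G = p ^ n) (A : Rep k G),
      ptn_H12Triv A → ptn_H0hatTriv A.ρ ∧ ptn_Hm1hatTriv A.ρ := by
  intro n
  induction n with
  | zero =>
    intro G _ _ hG A _
    rw [pow_zero, Nat.card_eq_one_iff_unique] at hG
    haveI := hG.1
    exact ⟨ptn_H0hatTriv_of_subsingleton _, ptn_Hm1hatTriv_of_subsingleton _⟩
  | succ n ih =>
    intro G _ _ hG A hA
    obtain ⟨S, hS⟩ := Sylow.exists_subgroup_card_pow_prime (G := G) p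
      (show p ^ n ∣ Nat.card G by rw [hG]; exact pow_dvd_pow p (Nat.le_succ n))
    have hidx : S.index = p := by
      have h1 := S.card_mul_index
      rw [hS, hG, pow_succ] at h1
      exact Nat.eq_of_mul_eq_mul_left (pow_pos hp.1.pos n) h1
    haveI : S.Normal := by
      apply Subgroup.normal_of_index_eq_minFac_card
      rw [hidx, hG, Nat.Prime.pow_minFac hp.1 (Nat.succ_ne_zero n)]
    -- the subgroup
    obtain ⟨hS0, hSm1⟩ := ih S hS (res S.subtype A) (ptn_H12Triv_res A hA S)
    -- the quotient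
    haveI : IsCyclic (G ⧸ S) := isCyclic_of_prime_card (p := p) (by rw [← hidx]; rfl)
    have hAG := ptn_H12Triv_self A hA
    have hq1 := ptn_isZero_H1_quotient A S hAG.1
    have hq2 := ptn_isZero_H2_quotient A S (hA S).1 hAG.2
    have hQ0 := ptn_H0hatTriv_of_isZero_H2_of_isCyclic (A.quotientToInvariants S) hq2
    have hQm1 := ptn_Hm1hatTriv_of_isZero_H1_of_isCyclic (A.quotientToInvariants S) hq1
    exact ⟨ptn_H0hatTriv_of_normal A.ρ S hS0 hQ0, ptn_Hm1hatTriv_of_normal A.ρ S hS0 hSm1 hQm1⟩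

/-- **Nakayama's criterion** in degrees `(-1, 0)`: if `H¹(U, A) = H²(U, A) = 0` for all subgroups
`U` of the finite group `G`, then `Ĥ⁰(G, A) = Ĥ⁻¹(G, A) = 0`. -/
theorem ptn_nakayama {G : Type u} [Group G] [Finite G] (A : Rep k G) (hA : ptn_H12Triv A) :
    ptn_H0hatTriv A.ρ ∧ ptn_Hm1hatTriv A.ρ := by
  have key : ∀ p : ℕ, p.Prime → ∃ U : Subgroup G, ¬ p ∣ U.index ∧
      (ptn_H0hatTriv (A.ρ.comp U.subtype) ∧ ptn_Hm1hatTriv (A.ρ.comp U.subtype)) := by
    intro p hp
    haveI : Fact p.Prime := ⟨hp⟩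
    obtain P : Sylow p G := default
    obtain ⟨n, hn⟩ := (IsPGroup.iff_card (p := p) (G := P)).1 P.isPGroup'
    exact ⟨P, P.not_dvd_index,
      ptn_nakayama_pgroup p n P hn (res (P : Subgroup G).subtype A) (ptn_H12Triv_res A hA P)⟩
  refine ⟨ptn_H0hatTriv_of_forall_prime A.ρ fun p hp => ?_,
    ptn_Hm1hatTriv_of_forall_prime A.ρ fun p hp => ?_⟩
  · obtain ⟨U, h1, h2, _⟩ := key p hp
    exact ⟨U, h1, h2⟩
  · obtain ⟨U, h1, _, h3⟩ := key p hp
    exact ⟨U, h1, h3⟩

end nakayama

end Fermat.Agent.Lib.PT
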