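/-
S55 (Poitou–Tate), abstract Tate–Nakayama package: `Rep`-level versions of the Tate groups in
degrees `0`, `-1` (no `Module` instance arguments, so that they can be used for `Rep ℤ G` without
running into the `ℤ`-module diamond): `ptn_repNorm`, `ptn_IsInv`, `ptn_repI`,
`ptn_RepH0hatTriv`, `ptn_RepHm1hatTriv`, Nakayama's criterion `ptn_repNakayama`, the
`cores ∘ res = index` lemmas and functoriality.
-/
import Mathlib
import Fermat.Agent.Lib.PT.TNNakayama
set_option autoImplicit false
set_option linter.unusedSectionVars false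
set_option linter.style.haveILetI false

namespace Fermat.Agent.Lib.PT

open CategoryTheory groupCohomology Rep Representation

universe u

section repLevel

variable {k G : Type u} [CommRing k] [Group G] [Finite G] (A : Rep k G)

/-- The norm of a representation of a finite group, `Rep` level. -/
noncomputable def ptn_repNorm : A.V →ₗ[k] A.V := ptn_norm A.ρ

theorem ptn_repNorm_apply [Fintype G] (a : A.V) : ptn_repNorm A a = ∑ g : G, A.ρ g a :=
  ptn_norm_apply A.ρ a

/-- `a` is `G`-invariant. -/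
def ptn_IsInv (a : A.V) : Prop := ∀ g : G, A.ρ g a = a

theorem ptn_isInv_repNorm (a : A.V) : ptn_IsInv A (ptn_repNorm A a) :=
  fun g => ptn_self_norm_apply A.ρ g a

theorem ptn_repNorm_self_apply (g : G) (a : A.V) : ptn_repNorm A (A.ρ g a) = ptn_repNorm A a :=
  ptn_norm_self_apply A.ρ g a

/-- `I_G A` as an additive subgroup. -/
def ptn_repI : AddSubgroup A.V := (Coinvariants.ker A.ρ).toAddSubgroup

theorem ptn_sub_mem_repI (g : G) (a : A.V) : A.ρ g a - a ∈ ptn_repI A :=
  Coinvariants.sub_mem_ker (ρ := A.ρ) g a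

theorem ptn_repI_eq_closure :
    ptn_repI A = AddSubgroup.closure {x : A.V | ∃ (g : G) (a : A.V), A.ρ g a - a = x} := by
  have key : ∀ (r : k) (x : A.V),
      x ∈ AddSubgroup.closure {x : A.V | ∃ (g : G) (a : A.V), A.ρ g a - a = x} →
      r • x ∈ AddSubgroup.closure {x : A.V | ∃ (g : G) (a : A.V), A.ρ g a - a = x} := by
    intro r x hx
    induction hx using AddSubgroup.closure_induction with
    | mem y hy =>
      obtain ⟨g, a, rfl⟩ := hy
      refine AddSubgroup.subset_closure ⟨g, r • a, ?_⟩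
      rw [map_smul, smul_sub]
    | zero => rw [smul_zero]; exact AddSubgroup.zero_mem _
    | add y z _ _ hy hz => rw [smul_add]; exact AddSubgroup.add_mem _ hy hz
    | neg y _ hy => rw [smul_neg]; exact AddSubgroup.neg_mem _ hy
  apply le_antisymm
  · intro x hx
    change x ∈ Coinvariants.ker A.ρ at hx
    induction hx using Submodule.span_induction with
    | mem x hx =>
      obtain ⟨⟨g, a⟩, rfl⟩ := hx
      exact AddSubgroup.subset_closure ⟨g, a, rfl⟩
    | zero => exact AddSubgroup.zero_mem _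
    | add x y _ _ hx hy => exact AddSubgroup.add_mem _ hx hy
    | smul r x _ hx => exact key r x hx
  · rw [AddSubgroup.closure_le]
    rintro _ ⟨g, a, rfl⟩
    exact ptn_sub_mem_repI A g a

/-- `Ĥ⁰(G, A) = 0`, `Rep` level. -/
def ptn_RepH0hatTriv : Prop := ∀ a : A.V, ptn_IsInv A a → ∃ b, ptn_repNorm A b = a

/-- `Ĥ⁻¹(G, A) = 0`, `Rep` level. -/
def ptn_RepHm1hatTriv : Prop := ∀ a : A.V, ptn_repNorm A a = 0 → a ∈ ptn_repI A

theorem ptn_repH0hatTriv_iff : ptn_RepH0hatTriv A ↔ ptn_H0hatTriv A.ρ := Iff.rfl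

theorem ptn_repHm1hatTriv_iff : ptn_RepHm1hatTriv A ↔ ptn_Hm1hatTriv A.ρ := Iff.rfl

/-- Nakayama's criterion, `Rep` level. -/
theorem ptn_repNakayama (hA : ptn_H12Triv A) : ptn_RepH0hatTriv A ∧ ptn_RepHm1hatTriv A :=
  ptn_nakayama A hA

theorem ptn_rep_index_smul_eq_norm (P : Subgroup G) (h : ptn_RepH0hatTriv (res P.subtype A))
    (a : A.V) (ha : ptn_IsInv A a) : ∃ b, ptn_repNorm A b = P.index • a :=
  ptn_index_smul_eq_norm A.ρ P h a ha

theorem ptn_rep_index_smul_mem (P : Subgroup G) (h : ptn_RepHm1hatTriv (res P.subtype A))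
    (a : A.V) (ha : ptn_repNorm A a = 0) : P.index • a ∈ ptn_repI A :=
  ptn_index_smul_mem_coinvKer A.ρ P h a ha

variable {A} in
theorem ptn_hom_repNorm {B : Rep k G} (f : A ⟶ B) (a : A.V) :
    f.hom (ptn_repNorm A a) = ptn_repNorm B (f.hom a) := by
  classical
  letI := Fintype.ofFinite G
  rw [ptn_repNorm_apply, ptn_repNorm_apply, map_sum]
  refine Finset.sum_congr rfl fun g _ => ?_
  exact (hom_comm_apply f g a)

variable {A} in
theorem ptn_hom_mem_repI {B : Rep k G} (f : A ⟶ B) (a : A.V) (ha : a ∈ ptn_repI A) :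
    f.hom a ∈ ptn_repI B := by
  rw [ptn_repI_eq_closure] at ha
  induction ha using AddSubgroup.closure_induction with
  | mem y hy =>
    obtain ⟨g, a, rfl⟩ := hy
    rw [map_sub, hom_comm_apply f g a]
    exact ptn_sub_mem_repI B g _
  | zero => rw [map_zero]; exact AddSubgroup.zero_mem _
  | add y z _ _ hy hz => rw [map_add]; exact AddSubgroup.add_mem _ hy hz
  | neg y _ hy => rw [map_neg]; exact AddSubgroup.neg_mem _ hy

end repLevel

end Fermat.Agent.Lib.PT
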