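/-
S55 (Poitou–Tate), abstract Tate–Nakayama package:
* weakly projective modules: a `k`-linear endomorphism `π` with `∑ t, t π t⁻¹ = id` kills
  `H¹`, `H²`, `Ĥ⁰`, `Ĥ⁻¹` (explicit contracting homotopy);
* the regular representation of a finite group on functions `G → k` (`ptn_regRep`), the
  augmentation (`ptn_aug`), the augmentation ideal (`ptn_augRep`);
* the regular representation restricted to any subgroup is weakly projective, hence
  `H¹(U, k[G]) = H²(U, k[G]) = 0`.
-/
import Mathlib
import Fermat.Agent.Lib.PT.TNNakayama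

set_option autoImplicit false
set_option linter.unusedSectionVars false
set_option linter.style.haveILetI false

namespace Fermat.Agent.Lib.PT

open CategoryTheory groupCohomology Rep

universe u

section trace

variable {k G : Type u} [CommRing k] [Group G] [Fintype G] (A : Rep k G)

/-- A `k`-linear endomorphism of trace one: `∑ t, t π t⁻¹ = id` (weakly projective module). -/
def ptn_TraceOne (π : A.V →ₗ[k] A.V) : Prop :=
  ∀ a : A, ∑ t : G, A.ρ t (π (A.ρ t⁻¹ a)) = a

variable {A}

theorem ptn_isZero_H1_of_traceOne {π : A.V →ₗ[k] A.V} (hπ : ptn_TraceOne A π) :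
    Limits.IsZero (groupCohomology A 1) := by
  rw [ptn_isZero_H1_iff]
  intro z
  have hz := (mem_cocycles₁_iff z).1 z.2
  refine ⟨∑ t : G, A.ρ t (π (z t⁻¹)), fun s => ?_⟩
  have h1 : A.ρ s (∑ t : G, A.ρ t (π (z t⁻¹))) =
      ∑ t : G, A.ρ t (π (A.ρ t⁻¹ (z s))) + ∑ t : G, A.ρ t (π (z t⁻¹)) := by
    rw [map_sum, ← Finset.sum_add_distrib]
    refine Fintype.sum_equiv (Equiv.mulLeft s) _ _ fun t => ?_
    simp only [Equiv.coe_mulLeft]
    have h2 := hz (s * t)⁻¹ s
    have h3 : (s * t)⁻¹ * s = t⁻¹ := by group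
    rw [h3] at h2
    rw [h2, map_add, map_add, map_mul]
    simp only [map_add, Module.End.mul_apply]
  rw [h1, hπ]
  abel

theorem ptn_isZero_H2_of_traceOne {π : A.V →ₗ[k] A.V} (hπ : ptn_TraceOne A π) :
    Limits.IsZero (groupCohomology A 2) := by
  rw [ptn_isZero_H2_iff]
  intro f
  have hf := (mem_cocycles₂_iff f).1 f.2
  refine ⟨fun h => ∑ t : G, A.ρ t (π (f (t⁻¹, h))), fun g h => ?_⟩
  have h1 : A.ρ g (∑ t : G, A.ρ t (π (f (t⁻¹, h)))) =
      ∑ t : G, A.ρ t (π (A.ρ t⁻¹ (f (g, h)))) + ∑ t : G, A.ρ t (π (f (t⁻¹, g * h)))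
        - ∑ t : G, A.ρ t (π (f (t⁻¹, g))) := by
    rw [map_sum, ← Finset.sum_add_distrib, ← Finset.sum_sub_distrib]
    refine Fintype.sum_equiv (Equiv.mulLeft g) _ _ fun t => ?_
    simp only [Equiv.coe_mulLeft]
    have h2 := hf (g * t)⁻¹ g h
    have h3 : (g * t)⁻¹ * g = t⁻¹ := by group
    rw [h3] at h2
    have h4 : f (t⁻¹, h) = A.ρ (g * t)⁻¹ (f (g, h)) + f ((g * t)⁻¹, g * h) - f ((g * t)⁻¹, g) := by
      rw [← h2]; abel
    rw [h4, map_sub, map_add, map_sub, map_add, map_mul]
    simp only [map_add, map_sub, Module.End.mul_apply]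
  rw [h1, hπ]
  abel

theorem ptn_H0hatTriv_of_traceOne {π : A.V →ₗ[k] A.V} (hπ : ptn_TraceOne A π) :
    ptn_H0hatTriv A.ρ := by
  intro a ha
  refine ⟨π a, ?_⟩
  rw [ptn_norm_apply]
  conv_rhs => rw [← hπ a]
  refine Finset.sum_congr rfl fun t _ => ?_
  rw [ha t⁻¹]

theorem ptn_Hm1hatTriv_of_traceOne {π : A.V →ₗ[k] A.V} (hπ : ptn_TraceOne A π) :
    ptn_Hm1hatTriv A.ρ := by
  intro a ha
  have h1 : a = ∑ t : G, (A.ρ t (π (A.ρ t⁻¹ a)) - π (A.ρ t⁻¹ a)) + π (ptn_norm A.ρ a) := by
    rw [Finset.sum_sub_distrib, hπ a, ptn_norm_apply, map_sum]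
    have : ∑ t : G, π (A.ρ t⁻¹ a) = ∑ t : G, π (A.ρ t a) :=
      Fintype.sum_equiv (Equiv.inv G) _ _ fun t => rfl
    rw [this]; abel
  rw [h1, ha, map_zero, add_zero]
  exact Submodule.sum_mem _ fun t _ => Representation.Coinvariants.sub_mem_ker t _

end trace

section regular

variable (k G : Type u) [CommRing k] [Group G]

/-- Functions `G → k` with left translation `(τ f)(σ) = f (τ⁻¹ σ)`: a model of the regular
representation of a finite group. -/
def ptn_regRep : Representation k G (G → k) where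
  toFun τ := LinearMap.funLeft k k (fun σ => τ⁻¹ * σ)
  map_one' := by ext; simp
  map_mul' a b := by ext f σ; simp [mul_assoc]

variable {k G}

@[simp] theorem ptn_regRep_apply (τ : G) (f : G → k) (σ : G) :
    ptn_regRep k G τ f σ = f (τ⁻¹ * σ) := rfl

theorem ptn_regRep_single [DecidableEq G] (τ σ : G) (r : k) :
    ptn_regRep k G τ (Pi.single σ r) = Pi.single (τ * σ) r := by
  ext x
  simp only [ptn_regRep_apply, Pi.single_apply]
  congr 1
  rw [eq_iff_iff]
  constructor
  · intro h; rw [← h]; group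
  · intro h; rw [h]; group

variable [Fintype G]

variable (k G) in
/-- The augmentation `f ↦ ∑ σ, f σ`. -/
def ptn_aug : (G → k) →ₗ[k] k := Fintype.linearCombination k (fun _ => (1 : k))

theorem ptn_aug_apply (f : G → k) : ptn_aug k G f = ∑ σ, f σ := by
  simp [ptn_aug, Fintype.linearCombination_apply]

theorem ptn_aug_regRep (τ : G) (f : G → k) : ptn_aug k G (ptn_regRep k G τ f) = ptn_aug k G f := by
  rw [ptn_aug_apply, ptn_aug_apply]
  exact Fintype.sum_equiv (Equiv.mulLeft τ⁻¹) _ _ fun σ => rfl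

variable (k G) in
/-- The augmentation ideal `I_G` as a representation. -/
def ptn_augRep : Representation k G (LinearMap.ker (ptn_aug k G)) :=
  (ptn_regRep k G).subrepresentation _ fun τ f hf => by
    simp only [Submodule.mem_comap, LinearMap.mem_ker] at hf ⊢
    rw [ptn_aug_regRep, hf]

@[simp] theorem ptn_augRep_coe (τ : G) (x : LinearMap.ker (ptn_aug k G)) :
    ((ptn_augRep k G τ x : LinearMap.ker (ptn_aug k G)) : G → k) = ptn_regRep k G τ x := rfl

end regular

section regTrace

open scoped Classical in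
/-- The regular representation (functions on `G`) restricted to a subgroup `U` has a `k`-linear
endomorphism of trace one: multiplication by the indicator function of a right transversal. -/
theorem ptn_traceOne_regRep {k G : Type u} [CommRing k] [Group G] [Fintype G] (U : Subgroup G)
    [Fintype U] :
    ∃ π : (G → k) →ₗ[k] (G → k),
      ptn_TraceOne (res U.subtype (Rep.of (ptn_regRep k G))) π := by
  -- the transversal
  let T : Set G := {g | ((g⁻¹ : G) : G ⧸ U).out = g⁻¹}
  let w : G → k := fun g => if g ∈ T then 1 else 0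
  refine ⟨LinearMap.pi fun σ => (w σ) • LinearMap.proj σ, ?_⟩
  intro f
  funext σ
  -- the unique `s`
  have hs0 : σ * ((σ⁻¹ : G) : G ⧸ U).out ∈ U := by
    have := QuotientGroup.out_eq' ((σ⁻¹ : G) : G ⧸ U)
    have h2 := QuotientGroup.eq.1 this.symm
    simpa using h2
  let s0 : U := ⟨_, hs0⟩
  have hmem : ∀ s : U, (s : G)⁻¹ * σ ∈ T ↔ s = s0 := by
    intro s
    simp only [T, Set.mem_ofPred_eq, mul_inv_rev, inv_inv]
    have h1 : ((σ⁻¹ * (s : G) : G) : G ⧸ U) = ((σ⁻¹ : G) : G ⧸ U) :=
      QuotientGroup.mk_mul_of_mem _ s.2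
    rw [h1]
    constructor
    · intro h
      apply Subtype.ext
      change (s : G) = σ * _
      rw [h]; group
    · intro h
      rw [h]
      change _ = σ⁻¹ * (σ * _)
      group
  change (∑ t : U, (ptn_regRep k G (t : G))
    ((LinearMap.pi fun σ => (w σ) • LinearMap.proj σ) ((ptn_regRep k G ((t⁻¹ : U) : G)) f))) σ = f σ
  rw [Finset.sum_apply]
  simp only [ptn_regRep_apply, LinearMap.pi_apply, LinearMap.smul_apply, LinearMap.proj_apply,
    smul_eq_mul, InvMemClass.coe_inv, inv_inv, mul_inv_cancel_left]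
  have : ∀ t : U, w ((t : G)⁻¹ * σ) * f σ = if t = s0 then f σ else 0 := by
    intro t
    simp only [w, hmem t]
    split_ifs <;> simp
  simp_rw [this]
  rw [Finset.sum_ite_eq' Finset.univ s0]
  simp

theorem ptn_isZero_H1_regRep {k G : Type u} [CommRing k] [Group G] [Finite G] (U : Subgroup G) :
    Limits.IsZero (groupCohomology (res U.subtype (Rep.of (ptn_regRep k G))) 1) := by
  classical
  letI := Fintype.ofFinite G
  letI := Fintype.ofFinite U
  obtain ⟨π, hπ⟩ := ptn_traceOne_regRep (k := k) U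
  exact ptn_isZero_H1_of_traceOne hπ

theorem ptn_isZero_H2_regRep {k G : Type u} [CommRing k] [Group G] [Finite G] (U : Subgroup G) :
    Limits.IsZero (groupCohomology (res U.subtype (Rep.of (ptn_regRep k G))) 2) := by
  classical
  letI := Fintype.ofFinite G
  letI := Fintype.ofFinite U
  obtain ⟨π, hπ⟩ := ptn_traceOne_regRep (k := k) U
  exact ptn_isZero_H2_of_traceOne hπ

end regTrace

end Fermat.Agent.Lib.PT
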