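/-
S55 (Poitou–Tate), abstract Tate–Nakayama package, step N4: the SPLITTING MODULE
`C(u) = C × I_G` of a 2-cocycle `u`, with the twisted action
`τ (c, x) = (τ c + ∑ σ, x σ • u (τ, σ), τ x)` (`ptn_splitRepn`, `ptn_splitRep`), and the basis
`δ_σ - δ_1` of the augmentation ideal (`ptn_augBasis`).
-/
import Mathlib
import Fermat.Agent.Lib.PT.TNTrace

set_option autoImplicit false
set_option linter.unusedSectionVars false
set_option linter.style.haveILetI false

namespace Fermat.Agent.Lib.PT

open CategoryTheory groupCohomology Rep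

universe u

section split

variable {k G : Type u} [CommRing k] [Group G] [Fintype G] (C : Rep.{u} k G) (u : cocycles₂ C)

/-- `x ↦ ∑ σ, x σ • u (τ, σ)`. -/
def ptn_splitPhi (τ : G) : (G → k) →ₗ[k] C.V :=
  Fintype.linearCombination k (fun σ => (u (τ, σ) : C.V))

theorem ptn_splitPhi_single [DecidableEq G] (τ σ : G) (r : k) :
    ptn_splitPhi C u τ (Pi.single σ r) = r • (u (τ, σ) : C.V) := by
  simp [ptn_splitPhi]

theorem ptn_splitPhi_mul (τ' τ : G) (x : G → k) :
    ptn_splitPhi C u (τ' * τ) x + ptn_aug k G x • (u (τ', τ) : C.V) =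
      C.ρ τ' (ptn_splitPhi C u τ x) + ptn_splitPhi C u τ' (ptn_regRep k G τ x) := by
  classical
  have hu := (mem_cocycles₂_iff u).1 u.2
  have key : ptn_splitPhi C u (τ' * τ) + (ptn_aug k G).smulRight (u (τ', τ) : C.V) =
      (C.ρ τ').comp (ptn_splitPhi C u τ) + (ptn_splitPhi C u τ').comp (ptn_regRep k G τ) := by
    apply LinearMap.pi_ext
    intro σ r
    simp only [LinearMap.add_apply, LinearMap.smulRight_apply, LinearMap.comp_apply,
      ptn_splitPhi_single, ptn_regRep_single, map_smul]
    rw [ptn_aug_apply, Finset.sum_pi_single', if_pos (Finset.mem_univ _), ← smul_add, ← smul_add,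
      hu τ' τ σ]
  exact LinearMap.congr_fun key x

theorem ptn_splitPhi_mul_of_aug_eq_zero (τ' τ : G) (x : G → k) (hx : ptn_aug k G x = 0) :
    ptn_splitPhi C u (τ' * τ) x =
      C.ρ τ' (ptn_splitPhi C u τ x) + ptn_splitPhi C u τ' (ptn_regRep k G τ x) := by
  have h := ptn_splitPhi_mul C u τ' τ x
  rw [hx, zero_smul, add_zero] at h
  exact h

theorem ptn_splitPhi_one (x : G → k) :
    ptn_splitPhi C u 1 x = ptn_aug k G x • (u (1, 1) : C.V) := by
  rw [ptn_splitPhi, Fintype.linearCombination_apply, ptn_aug_apply, Finset.sum_smul]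
  refine Finset.sum_congr rfl fun σ _ => ?_
  rw [cocycles₂_map_one_fst u σ]

/-- The splitting module `C(u) = C × I_G` with the `u`-twisted action. -/
def ptn_splitRepn : Representation k G (C.V × LinearMap.ker (ptn_aug k G)) where
  toFun τ :=
    ((C.ρ τ).comp (LinearMap.fst k _ _) +
      ((ptn_splitPhi C u τ).comp (Submodule.subtype _)).comp (LinearMap.snd k _ _)).prod
      ((ptn_augRep k G τ).comp (LinearMap.snd k _ _))
  map_one' := by
    refine LinearMap.ext fun ⟨c, x⟩ => ?_
    simp only [LinearMap.prod_apply, Function.prod, LinearMap.add_apply, LinearMap.comp_apply,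
      LinearMap.fst_apply, LinearMap.snd_apply, Submodule.subtype_apply, map_one,
      Module.End.one_apply]
    apply Prod.ext
    · simp only [ptn_splitPhi_one]
      have hx : ptn_aug k G (x : G → k) = 0 := x.2
      rw [hx, zero_smul, add_zero]
    · rfl
  map_mul' τ' τ := by
    refine LinearMap.ext fun ⟨c, x⟩ => ?_
    simp only [LinearMap.prod_apply, Function.prod, LinearMap.add_apply, LinearMap.comp_apply,
      LinearMap.fst_apply, LinearMap.snd_apply, Submodule.subtype_apply, map_mul,
      Module.End.mul_apply]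
    apply Prod.ext
    · simp only [map_add]
      have h := ptn_splitPhi_mul C u τ' τ (x : G → k)
      have hx : ptn_aug k G (x : G → k) = 0 := x.2
      rw [hx, zero_smul, add_zero] at h
      rw [h]
      simp only [ptn_augRep_coe]
      abel
    · rfl

end split

section splitApi

variable {k G : Type u} [CommRing k] [Group G] [Fintype G] (C : Rep.{u} k G) (u : cocycles₂ C)

/-- The splitting module as an object of `Rep k G`. -/
noncomputable abbrev ptn_splitRep : Rep k G := Rep.of (ptn_splitRepn C u)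

theorem ptn_splitRepn_apply (τ : G) (c : C.V) (x : LinearMap.ker (ptn_aug k G)) :
    ptn_splitRepn C u τ (c, x) =
      (C.ρ τ c + ptn_splitPhi C u τ (x : G → k), ptn_augRep k G τ x) := rfl

theorem ptn_splitRepn_apply_fst (τ : G) (y : C.V × LinearMap.ker (ptn_aug k G)) :
    (ptn_splitRepn C u τ y).1 = C.ρ τ y.1 + ptn_splitPhi C u τ (y.2 : G → k) := rfl

theorem ptn_splitRepn_apply_snd (τ : G) (y : C.V × LinearMap.ker (ptn_aug k G)) :
    (ptn_splitRepn C u τ y).2 = ptn_augRep k G τ y.2 := rfl

open scoped Classical in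
/-- The basis element `δ_σ - δ_1` of the augmentation ideal. -/
noncomputable def ptn_augBasis (σ : G) : LinearMap.ker (ptn_aug k G) :=
  ⟨Pi.single σ 1 - Pi.single 1 1, by
    rw [LinearMap.mem_ker, map_sub, ptn_aug_apply, ptn_aug_apply, Finset.sum_pi_single',
      Finset.sum_pi_single']
    simp⟩

open scoped Classical in
theorem ptn_augBasis_coe (σ : G) :
    ((ptn_augBasis σ : LinearMap.ker (ptn_aug k G)) : G → k) = Pi.single σ 1 - Pi.single 1 1 := rfl

theorem ptn_augRep_augBasis (τ σ : G) :
    ptn_augRep k G τ (ptn_augBasis σ) = ptn_augBasis (τ * σ) - ptn_augBasis τ := by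
  classical
  apply Subtype.ext
  rw [ptn_augRep_coe, AddSubgroupClass.coe_sub, ptn_augBasis_coe, ptn_augBasis_coe,
    ptn_augBasis_coe, map_sub, ptn_regRep_single, ptn_regRep_single, mul_one]
  abel

theorem ptn_splitPhi_augBasis (τ σ : G) :
    ptn_splitPhi C u τ ((ptn_augBasis σ : LinearMap.ker (ptn_aug k G)) : G → k) =
      (u (τ, σ) : C.V) - u (τ, 1) := by
  classical
  rw [ptn_augBasis_coe, map_sub, ptn_splitPhi_single, ptn_splitPhi_single, one_smul, one_smul]

theorem ptn_augBasis_one : (ptn_augBasis 1 : LinearMap.ker (ptn_aug k G)) = 0 := by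
  apply Subtype.ext
  simp [ptn_augBasis]

/-- `∑ σ, x σ • (δ_σ - δ_1) = x` on the augmentation ideal. -/
theorem ptn_sum_smul_augBasis (x : LinearMap.ker (ptn_aug k G)) :
    ∑ σ : G, (x : G → k) σ • (ptn_augBasis σ : LinearMap.ker (ptn_aug k G)) = x := by
  classical
  apply Subtype.ext
  rw [AddSubmonoidClass.coe_finsetSum]
  funext g
  rw [Finset.sum_apply]
  simp only [SetLike.val_smul, ptn_augBasis_coe, Pi.smul_apply, Pi.sub_apply, smul_eq_mul,
    mul_sub, Finset.sum_sub_distrib, Pi.single_apply, mul_ite, mul_one, mul_zero]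
  rw [Finset.sum_ite_eq Finset.univ g]
  have hx : ∑ σ : G, (x : G → k) σ = 0 := by
    have := x.2
    rwa [LinearMap.mem_ker, ptn_aug_apply] at this
  by_cases hg : g = 1
  · subst hg
    simp [hx]
  · simp [hg]

end splitApi

end Fermat.Agent.Lib.PT
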