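/-
S55 (Poitou–Tate), abstract Tate–Nakayama package, step N5b (general coefficient ring):
the NAKAYAMA MAP `σ ↦ ∑ τ, (u (τ, σ) - u (τ, 1))` of a 2-cocycle `u`, computed as the norm of the
canonical lift `x_σ = (0, δ_σ - δ_1)` in the splitting module (`ptn_repNorm_splitX`), its
quasi-additivity (`ptn_nak_mul`), the norm of a general element of the splitting module
(`ptn_repNorm_split`), the group `Ĥ⁰(G, C)` (`ptn_repH0hat`) and the induced homomorphism
`ptn_nakHom : Abelianization G →* Multiplicative (Ĥ⁰(G, C))`.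
-/
import Mathlib
import Fermat.Agent.Lib.PT.TNRepHat
import Fermat.Agent.Lib.PT.TNSplit
set_option autoImplicit false
set_option linter.unusedSectionVars false
set_option linter.style.haveILetI false

namespace Fermat.Agent.Lib.PT

open CategoryTheory groupCohomology Rep Representation

universe u

section nak

variable {k G : Type u} [CommRing k] [Group G] [Fintype G] (C : Rep.{u} k G) (u : cocycles₂ C)

/-- The inclusion `C ⟶ C(u)`. -/
noncomputable def ptn_splitIncl : C ⟶ ptn_splitRep C u :=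
  Rep.ofHom (ρ := C.ρ) (σ := ptn_splitRepn C u)
    ⟨LinearMap.inl k C.V (LinearMap.ker (ptn_aug k G)), fun g => by
      refine LinearMap.ext fun c => ?_
      simp only [LinearMap.comp_apply, LinearMap.inl_apply, ptn_splitRepn_apply]
      apply Prod.ext
      · simp
      · simp⟩

/-- The projection `C(u) ⟶ I_G`. -/
noncomputable def ptn_splitProj : ptn_splitRep C u ⟶ Rep.of (ptn_augRep k G) :=
  Rep.ofHom (ρ := ptn_splitRepn C u) (σ := ptn_augRep k G)
    ⟨LinearMap.snd k C.V (LinearMap.ker (ptn_aug k G)), fun g => by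
      refine LinearMap.ext fun y => ?_
      rfl⟩

@[simp] theorem ptn_splitIncl_apply (c : C.V) : (ptn_splitIncl C u).hom c = (c, 0) := rfl

@[simp] theorem ptn_splitProj_apply (y : C.V × LinearMap.ker (ptn_aug k G)) :
    (ptn_splitProj C u).hom y = y.2 := rfl

/-- The Nakayama map `σ ↦ ∑ τ, (u (τ, σ) - u (τ, 1))`. -/
noncomputable def ptn_nak (σ : G) : C.V := ∑ τ : G, ((u (τ, σ) : C.V) - u (τ, 1))

/-- The canonical lift `x_σ = (0, δ_σ - δ_1)` of `σ - 1` to the splitting module. -/
noncomputable def ptn_splitX (σ : G) : C.V × LinearMap.ker (ptn_aug k G) := (0, ptn_augBasis σ)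

theorem ptn_splitRepn_splitX (τ σ : G) :
    ptn_splitRepn C u τ (ptn_splitX C σ) =
      ((u (τ, σ) : C.V) - u (τ, 1), 0) + ptn_splitX C (τ * σ) - ptn_splitX C τ := by
  rw [ptn_splitX, ptn_splitRepn_apply, map_zero, zero_add, ptn_splitPhi_augBasis,
    ptn_augRep_augBasis]
  apply Prod.ext <;> simp [ptn_splitX]

theorem ptn_repNorm_splitX (σ : G) :
    ptn_repNorm (ptn_splitRep C u) (ptn_splitX C σ) = (ptn_nak C u σ, 0) := by
  rw [ptn_repNorm_apply]
  change ∑ τ : G, ptn_splitRepn C u τ (ptn_splitX C σ) = _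
  simp_rw [ptn_splitRepn_splitX]
  rw [Finset.sum_sub_distrib, Finset.sum_add_distrib]
  have h1 : ∑ τ : G, ptn_splitX (k := k) C (τ * σ) = ∑ τ : G, ptn_splitX C τ :=
    Fintype.sum_equiv (Equiv.mulRight σ) _ _ fun τ => rfl
  rw [h1, add_sub_cancel_right]
  apply Prod.ext
  · rw [Prod.fst_sum]; rfl
  · rw [Prod.snd_sum]; simp

theorem ptn_repNorm_incl (c : C.V) :
    ptn_repNorm (ptn_splitRep C u) ((c, 0) : C.V × LinearMap.ker (ptn_aug k G)) =
      (ptn_repNorm C c, 0) :=
  (ptn_hom_repNorm (ptn_splitIncl C u) c).symm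

theorem ptn_nak_isInv (σ : G) : ptn_IsInv C (ptn_nak C u σ) := by
  intro g
  have h := ptn_isInv_repNorm (ptn_splitRep C u) (ptn_splitX C σ) g
  rw [ptn_repNorm_splitX] at h
  have h2 := congrArg Prod.fst h
  change (ptn_splitRepn C u g ((ptn_nak C u σ, 0) : C.V × LinearMap.ker (ptn_aug k G))).1 = _ at h2
  rw [ptn_splitRepn_apply_fst] at h2
  simpa using h2

/-- Quasi-additivity of the Nakayama map. -/
theorem ptn_nak_mul (σ σ' : G) :
    ptn_nak C u (σ * σ') =
      ptn_nak C u σ + ptn_nak C u σ' - ptn_repNorm C ((u (σ, σ') : C.V) - u (σ, 1)) := by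
  have h1 := ptn_repNorm_self_apply (ptn_splitRep C u) σ (ptn_splitX C σ')
  change ptn_repNorm (ptn_splitRep C u) (ptn_splitRepn C u σ (ptn_splitX C σ')) = _ at h1
  rw [ptn_splitRepn_splitX, map_sub, map_add, ptn_repNorm_splitX, ptn_repNorm_splitX,
    ptn_repNorm_splitX, ptn_repNorm_incl] at h1
  have h2 := congrArg Prod.fst h1
  simp only [Prod.fst_sub, Prod.fst_add] at h2
  rw [← h2]; abel

/-- `x ↦ ∑ σ, x σ • nak σ`. -/
noncomputable def ptn_nakLin : (G → k) →ₗ[k] C.V := Fintype.linearCombination k (ptn_nak C u)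

theorem ptn_repNorm_split (c : C.V) (x : LinearMap.ker (ptn_aug k G)) :
    ptn_repNorm (ptn_splitRep C u) ((c, x) : C.V × LinearMap.ker (ptn_aug k G)) =
      (ptn_repNorm C c + ptn_nakLin C u (x : G → k), 0) := by
  have h1 : ((c, x) : C.V × LinearMap.ker (ptn_aug k G)) =
      (c, 0) + ∑ σ : G, (x : G → k) σ • ptn_splitX C σ := by
    apply Prod.ext
    · rw [Prod.fst_add, Prod.fst_sum]
      simp [ptn_splitX]
    · rw [Prod.snd_add, Prod.snd_sum]
      simp only [ptn_splitX, Prod.smul_snd, zero_add]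
      exact (ptn_sum_smul_augBasis x).symm
  rw [h1, map_add, map_sum, ptn_repNorm_incl]
  have h2 : ∀ σ : G, ptn_repNorm (ptn_splitRep C u) ((x : G → k) σ • ptn_splitX C σ) =
      (x : G → k) σ • ((ptn_nak C u σ, 0) : C.V × LinearMap.ker (ptn_aug k G)) := by
    intro σ
    rw [map_smul, ptn_repNorm_splitX]
  rw [Finset.sum_congr rfl fun σ _ => h2 σ]
  apply Prod.ext
  · rw [Prod.fst_add, Prod.fst_sum]
    simp [ptn_nakLin, Fintype.linearCombination_apply]
  · rw [Prod.snd_add, Prod.snd_sum]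
    simp

theorem ptn_isInv_incl (c : C.V) (hc : ptn_IsInv C c) :
    ptn_IsInv (ptn_splitRep C u) ((c, 0) : C.V × LinearMap.ker (ptn_aug k G)) := by
  intro g
  change ptn_splitRepn C u g (c, 0) = (c, 0)
  rw [ptn_splitRepn_apply]
  apply Prod.ext
  · simp [hc g]
  · simp

end nak

section quotient

variable {k G : Type u} [CommRing k] [Group G] [Finite G] (A : Rep k G)

/-- The invariants as an additive subgroup. -/
noncomputable def ptn_invSub : AddSubgroup A.V := A.ρ.invariants.toAddSubgroup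

theorem ptn_mem_invSub_iff (a : A.V) : a ∈ ptn_invSub A ↔ ptn_IsInv A a := Iff.rfl

/-- The norms, as an additive subgroup of the invariants. -/
noncomputable def ptn_normSub : AddSubgroup (ptn_invSub A) :=
  AddSubgroup.comap (ptn_invSub A).subtype (ptn_repNorm A).toAddMonoidHom.range

theorem ptn_mem_normSub_iff (x : ptn_invSub A) :
    x ∈ ptn_normSub A ↔ ∃ b : A.V, ptn_repNorm A b = (x : A.V) := Iff.rfl

/-- `Ĥ⁰(G, A) = A^G / N_G A` as an additive group. -/
abbrev ptn_repH0hat : Type u := ptn_invSub A ⧸ ptn_normSub A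

end quotient

section nakHom

variable {k G : Type u} [CommRing k] [Group G] [Fintype G] (C : Rep.{u} k G) (u : cocycles₂ C)

theorem ptn_nak_one : ptn_nak C u 1 = 0 := by
  simp [ptn_nak]

/-- The Nakayama map as a monoid homomorphism `G →* Multiplicative (Ĥ⁰(G, C))`. -/
noncomputable def ptn_nakMonoidHom : G →* Multiplicative (ptn_repH0hat C) where
  toFun σ := Multiplicative.ofAdd
    (QuotientAddGroup.mk (⟨ptn_nak C u σ, ptn_nak_isInv C u σ⟩ : ptn_invSub C))
  map_one' := by
    have : (⟨ptn_nak C u 1, ptn_nak_isInv C u 1⟩ : ptn_invSub C) = 0 :=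
      Subtype.ext (ptn_nak_one C u)
    rw [this]; rfl
  map_mul' σ σ' := by
    rw [← ofAdd_add, ← QuotientAddGroup.mk_add]
    congr 1
    rw [QuotientAddGroup.eq]
    rw [ptn_mem_normSub_iff]
    refine ⟨(u (σ, σ') : C.V) - u (σ, 1), ?_⟩
    rw [AddSubgroup.coe_add, AddSubgroup.coe_neg]
    change _ = -(ptn_nak C u (σ * σ')) + (ptn_nak C u σ + ptn_nak C u σ')
    rw [ptn_nak_mul]
    abel

/-- The Nakayama map `G^ab → Ĥ⁰(G, C)`. -/
noncomputable def ptn_nakHom : Abelianization G →* Multiplicative (ptn_repH0hat C) :=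
  Abelianization.lift (ptn_nakMonoidHom C u)

theorem ptn_nakHom_of (σ : G) :
    ptn_nakHom C u (Abelianization.of σ) = Multiplicative.ofAdd
      (QuotientAddGroup.mk (⟨ptn_nak C u σ, ptn_nak_isInv C u σ⟩ : ptn_invSub C)) := by
  rw [ptn_nakHom, Abelianization.lift_apply_of]
  rfl

end nakHom

end Fermat.Agent.Lib.PT
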