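/-
S55 (Poitou–Tate), abstract Tate–Nakayama package, step N5a: cohomology of the splitting module.
For a subgroup `U` of the finite group `G`, a `G`-module `C` and a 2-cocycle `u`:
* `ptn_isZero_H2_splitRep`: if `H²(U, C)` is generated by the restriction of `u` then
  `H²(U, C(u)) = 0`;
* `ptn_isZero_H1_splitRep`: if `H¹(U, C) = 0` and the restriction of `u` has order (divisible by)
  `#U` then `H¹(U, C(u)) = 0`.
Both are proved on explicit cocycles (hypotheses in elementwise form).
-/
import Mathlib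
import Fermat.Agent.Lib.PT.TNSplit
set_option autoImplicit false
set_option linter.unusedSectionVars false
set_option linter.style.haveILetI false

namespace Fermat.Agent.Lib.PT

open CategoryTheory groupCohomology Rep

section homZero

theorem ptn_addHom_finite_eq_zero {U : Type*} [Group U] [Finite U] (e : U → ℤ)
    (he : ∀ s t : U, e (s * t) = e s + e t) (s : U) : e s = 0 := by
  have h1 : e 1 = 0 := by
    have := he 1 1
    rw [mul_one] at this
    omega
  have hpow : ∀ n : ℕ, e (s ^ n) = n * e s := by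
    intro n
    induction n with
    | zero => simp [h1]
    | succ n ih => rw [pow_succ, he, ih]; push_cast; ring
  have h2 := hpow (orderOf s)
  rw [pow_orderOf_eq_one, h1] at h2
  have h3 : (orderOf s : ℤ) ≠ 0 := by
    exact_mod_cast (orderOf_pos s).ne'
  rcases mul_eq_zero.1 h2.symm with h | h
  · exact absurd h h3
  · exact h

end homZero

section coh

variable {G : Type} [Group G] [Fintype G] (C : Rep ℤ G) (u : cocycles₂ C) (U : Subgroup G)

/-- `H²(U, C(u)) = 0` as soon as `H²(U, C)` is generated by the restriction of `u`. -/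
theorem ptn_isZero_H2_splitRep
    (hgen : ∀ f : cocycles₂ (res U.subtype C), ∃ (n : ℤ) (v : U → C.V), ∀ s t : U,
      f (s, t) = n • (u ((s : G), (t : G)) : C.V) + (C.ρ s (v t) - v (s * t) + v s)) :
    Limits.IsZero (groupCohomology (res U.subtype (ptn_splitRep C u)) 2) := by
  classical
  rw [ptn_isZero_H2_iff]
  intro f
  have hf := (mem_cocycles₂_iff f).1 f.2
  -- Step 1: the second component is a 2-cocycle of the regular representation
  have hf2 : (fun p : U × U => (((f p).2 : LinearMap.ker (ptn_aug ℤ G)) : G → ℤ)) ∈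
      cocycles₂ (res U.subtype (Rep.of (ptn_regRep ℤ G))) := by
    rw [mem_cocycles₂_iff]
    intro s t r
    have := congrArg (fun y : C.V × LinearMap.ker (ptn_aug ℤ G) => ((y.2 : G → ℤ))) (hf s t r)
    exact this
  obtain ⟨y, hy⟩ := (ptn_isZero_H2_iff _).1 (ptn_isZero_H2_regRep (k := ℤ) U) ⟨_, hf2⟩
  have hy' : ∀ s t : U, (((f (s, t)).2 : LinearMap.ker (ptn_aug ℤ G)) : G → ℤ) =
      ptn_regRep ℤ G (s : G) (y t) - y (s * t) + y s := fun s t => hy s t
  -- Step 3: `y` takes values in the augmentation ideal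
  have hye : ∀ s : U, ptn_aug ℤ G (y s) = 0 := by
    apply ptn_addHom_finite_eq_zero (fun s => ptn_aug ℤ G (y s))
    intro s t
    have h1 := congrArg (ptn_aug ℤ G) (hy' s t)
    have h2 : ptn_aug ℤ G (((f (s, t)).2 : LinearMap.ker (ptn_aug ℤ G)) : G → ℤ) = 0 :=
      (f (s, t)).2.2
    rw [h2, map_add, map_sub, ptn_aug_regRep] at h1
    linarith
  -- first components of the cocycle identity
  have hf1 : ∀ s t r : U, (f (s * t, r)).1 + (f (s, t)).1 =
      C.ρ (s : G) (f (t, r)).1 + ptn_splitPhi C u (s : G) (((f (t, r)).2 :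
        LinearMap.ker (ptn_aug ℤ G)) : G → ℤ) + (f (s, t * r)).1 := by
    intro s t r
    have := congrArg Prod.fst (hf s t r)
    exact this
  -- Step 4: the 2-cocycle `w` of `C`
  have hmul : ∀ (s t : U) (x : G → ℤ), ptn_aug ℤ G x = 0 →
      ptn_splitPhi C u ((s : G) * (t : G)) x =
        C.ρ (s : G) (ptn_splitPhi C u (t : G) x) +
          ptn_splitPhi C u (s : G) (ptn_regRep ℤ G (t : G) x) := by
    intro s t x hx
    exact ptn_splitPhi_mul_of_aug_eq_zero C u (s : G) (t : G) x hx
  have hw : (fun p : U × U => (f p).1 - ptn_splitPhi C u (p.1 : G) (y p.2)) ∈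
      cocycles₂ (res U.subtype C) := by
    rw [mem_cocycles₂_iff]
    intro s t r
    have h1 := hf1 s t r
    have h2 := hmul s t (y r) (hye r)
    simp only [Subgroup.coe_mul]
    rw [hy' t r, map_add, map_sub] at h1
    change (f (s * t, r)).1 - ptn_splitPhi C u ((s : G) * (t : G)) (y r) +
      ((f (s, t)).1 - ptn_splitPhi C u (s : G) (y t)) =
      C.ρ (s : G) ((f (t, r)).1 - ptn_splitPhi C u (t : G) (y r)) +
      ((f (s, t * r)).1 - ptn_splitPhi C u (s : G) (y (t * r)))
    rw [h2, map_sub]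
    linear_combination (norm := abel) h1
  obtain ⟨n, v, hnv⟩ := hgen ⟨_, hw⟩
  have hnv' : ∀ s t : U, (f (s, t)).1 - ptn_splitPhi C u (s : G) (y t) =
      n • (u ((s : G), (t : G)) : C.V) + (C.ρ s (v t) - v (s * t) + v s) := fun s t => hnv s t
  have hu1 : ∀ s : G, (u (s, 1) : C.V) = C.ρ s (u (1, 1)) := fun s => cocycles₂_map_one_snd u s
  let Y : U → C.V × LinearMap.ker (ptn_aug ℤ G) := fun s => (n • (u (1, 1) : C.V) + v s,
    (⟨y s, hye s⟩ : LinearMap.ker (ptn_aug ℤ G)) + n • ptn_augBasis (s : G))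
  have hY1 : ∀ s, (Y s).1 = n • (u (1, 1) : C.V) + v s := fun s => rfl
  have hY2 : ∀ s, (Y s).2 = (⟨y s, hye s⟩ : LinearMap.ker (ptn_aug ℤ G)) +
    n • ptn_augBasis (s : G) := fun s => rfl
  refine ⟨Y, fun s t => ?_⟩
  change f (s, t) = ptn_splitRepn C u (s : G) (Y t) - Y (s * t) + Y s
  apply Prod.ext
  · simp only [Prod.fst_add, Prod.fst_sub, ptn_splitRepn_apply_fst, hY1, hY2]
    have h3 : ptn_splitPhi C u (s : G) (((⟨y t, hye t⟩ : LinearMap.ker (ptn_aug ℤ G)) +
        n • ptn_augBasis (t : G) : LinearMap.ker (ptn_aug ℤ G)) : G → ℤ) =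
        ptn_splitPhi C u (s : G) (y t) + n • ((u ((s : G), (t : G)) : C.V) - u ((s : G), 1)) := by
      rw [Submodule.coe_add, map_add, Submodule.coe_smul, map_zsmul, ptn_splitPhi_augBasis]
    rw [h3, hu1 (s : G)]
    have h4 := hnv' s t
    rw [map_add, map_zsmul, smul_sub]
    linear_combination (norm := abel) h4
  · simp only [Prod.snd_add, Prod.snd_sub, ptn_splitRepn_apply_snd, hY2]
    apply Subtype.ext
    rw [map_add, map_zsmul, ptn_augRep_augBasis]
    simp only [Submodule.coe_add, Submodule.coe_sub, Submodule.coe_smul, ptn_augRep_coe,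
      Subgroup.coe_mul]
    rw [hy' s t, smul_sub]
    abel

open scoped Classical in
/-- The indicator function of a subgroup. -/
noncomputable def ptn_indicator : G → ℤ := fun g => if g ∈ U then 1 else 0

theorem ptn_aug_indicator : ptn_aug ℤ G (ptn_indicator U) = Nat.card U := by
  classical
  rw [ptn_aug_apply]
  simp only [ptn_indicator]
  rw [Finset.sum_ite, Finset.sum_const_zero, add_zero, Finset.sum_const, nsmul_eq_mul, mul_one,
    Nat.card_eq_fintype_card, Fintype.card_subtype]

theorem ptn_regRep_indicator (s : G) (hs : s ∈ U) :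
    ptn_regRep ℤ G s (ptn_indicator U) = ptn_indicator U := by
  classical
  funext g
  simp only [ptn_regRep_apply, ptn_indicator]
  have : s⁻¹ * g ∈ U ↔ g ∈ U := Subgroup.mul_mem_cancel_left U (U.inv_mem hs)
  simp only [this]

open scoped Classical in
theorem ptn_aug_single_one : ptn_aug ℤ G (Pi.single (1 : G) (1 : ℤ)) = 1 := by
  rw [ptn_aug_apply, Finset.sum_pi_single']
  simp

/-- `H¹(U, C(u)) = 0` when `H¹(U, C) = 0` and the restriction of `u` has order `#U`. -/
theorem ptn_isZero_H1_splitRep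
    (h1 : ∀ z : cocycles₁ (res U.subtype C), ∃ c : C.V, ∀ s : U, z s = C.ρ s c - c)
    (hord : ∀ (m : ℤ) (v : U → C.V), (∀ s t : U, m • (u ((s : G), (t : G)) : C.V) =
      C.ρ s (v t) - v (s * t) + v s) → (Nat.card U : ℤ) ∣ m) :
    Limits.IsZero (groupCohomology (res U.subtype (ptn_splitRep C u)) 1) := by
  classical
  rw [ptn_isZero_H1_iff]
  intro z
  have hz := (mem_cocycles₁_iff z).1 z.2
  have hz1 : ∀ s t : U, (z (s * t)).1 = C.ρ (s : G) (z t).1 +
      ptn_splitPhi C u (s : G) (((z t).2 : LinearMap.ker (ptn_aug ℤ G)) : G → ℤ) + (z s).1 := by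
    intro s t
    exact congrArg Prod.fst (hz s t)
  have hz2 : (fun s : U => (((z s).2 : LinearMap.ker (ptn_aug ℤ G)) : G → ℤ)) ∈
      cocycles₁ (res U.subtype (Rep.of (ptn_regRep ℤ G))) := by
    rw [mem_cocycles₁_iff]
    intro s t
    exact congrArg (fun y : C.V × LinearMap.ker (ptn_aug ℤ G) => ((y.2 : G → ℤ))) (hz s t)
  obtain ⟨b, hb⟩ := (ptn_isZero_H1_iff _).1 (ptn_isZero_H1_regRep (k := ℤ) U) ⟨_, hz2⟩
  have hb' : ∀ s : U, (((z s).2 : LinearMap.ker (ptn_aug ℤ G)) : G → ℤ) =
      ptn_regRep ℤ G (s : G) b - b := fun s => hb s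
  have hu1 : ∀ s : G, (u (s, 1) : C.V) = C.ρ s (u (1, 1)) := fun s => cocycles₂_map_one_snd u s
  have hmul : ∀ (s t : U) (x : G → ℤ), ptn_aug ℤ G x = 0 →
      ptn_splitPhi C u ((s : G) * (t : G)) x =
        C.ρ (s : G) (ptn_splitPhi C u (t : G) x) +
          ptn_splitPhi C u (s : G) (ptn_regRep ℤ G (t : G) x) := by
    intro s t x hx
    exact ptn_splitPhi_mul_of_aug_eq_zero C u (s : G) (t : G) x hx
  -- Step A: `#U ∣ ε(b)`
  have hdvd : (Nat.card U : ℤ) ∣ ptn_aug ℤ G b := by
    set m := ptn_aug ℤ G b with hm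
    set b' : G → ℤ := b - m • Pi.single 1 1 with hb'def
    have hb'e : ptn_aug ℤ G b' = 0 := by
      rw [hb'def, map_sub, map_zsmul, ptn_aug_single_one, ← hm]
      simp
    have hz2' : ∀ s : U, (((z s).2 : LinearMap.ker (ptn_aug ℤ G)) : G → ℤ) =
        ptn_regRep ℤ G (s : G) b' - b' +
          m • ((ptn_augBasis (s : G) : LinearMap.ker (ptn_aug ℤ G)) : G → ℤ) := by
      intro s
      rw [hb' s, hb'def, map_sub, map_zsmul, ptn_regRep_single, mul_one, ptn_augBasis_coe, smul_sub]
      abel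
    apply hord m (fun s => -((z s).1 - ptn_splitPhi C u (s : G) b') + m • (u (1, 1) : C.V))
    intro s t
    have h3 := hz1 s t
    rw [hz2' t, map_add, map_sub, map_zsmul, ptn_splitPhi_augBasis, hu1 (s : G)] at h3
    have h4 := hmul s t b' hb'e
    simp only [Subgroup.coe_mul, map_add, map_neg, map_sub, map_zsmul]
    rw [h4, h3, smul_sub]
    abel
  obtain ⟨m', hm'⟩ := hdvd
  -- Step B: the corrected `b`
  set bt : G → ℤ := b - m' • ptn_indicator U with hbt
  have hbte : ptn_aug ℤ G bt = 0 := by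
    rw [hbt, map_sub, map_zsmul, ptn_aug_indicator, hm']
    simp [mul_comm]
  have hbt' : ∀ s : U, (((z s).2 : LinearMap.ker (ptn_aug ℤ G)) : G → ℤ) =
      ptn_regRep ℤ G (s : G) bt - bt := by
    intro s
    rw [hb' s, hbt, map_sub, map_zsmul, ptn_regRep_indicator U s s.2]
    abel
  have hw : (fun s : U => (z s).1 - ptn_splitPhi C u (s : G) bt) ∈ cocycles₁ (res U.subtype C) := by
    rw [mem_cocycles₁_iff]
    intro s t
    have h3 := hz1 s t
    rw [hbt' t, map_sub] at h3
    have h4 := hmul s t bt hbte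
    change (z (s * t)).1 - ptn_splitPhi C u ((s : G) * (t : G)) bt =
      C.ρ (s : G) ((z t).1 - ptn_splitPhi C u (t : G) bt) + ((z s).1 - ptn_splitPhi C u (s : G) bt)
    rw [h4, h3]
    simp only [map_sub]
    abel
  obtain ⟨c, hc⟩ := h1 ⟨_, hw⟩
  have hc' : ∀ s : U, (z s).1 - ptn_splitPhi C u (s : G) bt = C.ρ s c - c := fun s => hc s
  refine ⟨(c, ⟨bt, hbte⟩), fun s => ?_⟩
  change z s = ptn_splitRepn C u (s : G) (c, ⟨bt, hbte⟩) - (c, ⟨bt, hbte⟩)
  apply Prod.ext
  · simp only [Prod.fst_sub, ptn_splitRepn_apply_fst]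
    have := hc' s
    linear_combination (norm := abel) this
  · simp only [Prod.snd_sub, ptn_splitRepn_apply_snd]
    apply Subtype.ext
    rw [Submodule.coe_sub, ptn_augRep_coe]
    exact hbt' s

end coh

end Fermat.Agent.Lib.PT
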