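/-
S55 (Poitou–Tate), abstract Tate–Nakayama package, step N5: the ABSTRACT RECIPROCITY LAW.
For a class module `c : ptc_ClassModuleOn 𝒰 C` of a finite group `G` (helper4's interface):
* the splitting module `ptn_splitOf c` has `H¹(U, ·) = H²(U, ·) = 0` for `U ∈ 𝒰`
  (`ptn_splitOf_isZero_H1/H2`), hence trivial `Ĥ⁰`, `Ĥ⁻¹` on every `P` all of whose subgroups lie
  in `𝒰` (`ptn_splitOf_hatTriv`, Nakayama's criterion);
* kernel and cokernel of the Nakayama map `ptn_nakHom : G^ab → C^G / N_G C` are killed by the index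
  of such a `P` (`ptn_nakHom_ker`, `ptn_nakHom_coker`);
* full class module: `ptn_nakHom_bijective` (Tate's theorem in degree `-2`);
* class module at `p`: `ptn_nakHom_ker_sylow`, `ptn_nakHom_coker_sylow` (bijective on `p`-parts).
-/
import Mathlib
import Fermat.Agent.Lib.PT.TNNak
import Fermat.Agent.Lib.PT.TNSplitCoh
import Fermat.Agent.Lib.PT.IfaceClassModule
set_option autoImplicit false
set_option linter.unusedSectionVars false
set_option linter.style.haveILetI false

namespace Fermat.Agent.Lib.PT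

open CategoryTheory groupCohomology Rep

section theta

variable {G : Type} [Group G] [Fintype G]

/-- `x ↦ ∑ σ, x σ • [σ]`, from functions on `G` to the abelianisation. -/
noncomputable def ptn_theta : (G → ℤ) →ₗ[ℤ] Additive (Abelianization G) :=
  Fintype.linearCombination ℤ (fun σ => Additive.ofMul (Abelianization.of σ))

open scoped Classical in
theorem ptn_theta_single (σ : G) (r : ℤ) :
    ptn_theta (Pi.single σ r) = r • Additive.ofMul (Abelianization.of σ) := by
  simp [ptn_theta]

theorem ptn_theta_regRep (g : G) (x : G → ℤ) :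
    ptn_theta (ptn_regRep ℤ G g x) =
      ptn_theta x + ptn_aug ℤ G x • Additive.ofMul (Abelianization.of g) := by
  classical
  have key : ptn_theta.comp (ptn_regRep ℤ G g) =
      ptn_theta + (ptn_aug ℤ G).smulRight (Additive.ofMul (Abelianization.of g)) := by
    apply LinearMap.pi_ext
    intro σ r
    simp only [LinearMap.comp_apply, LinearMap.add_apply, LinearMap.smulRight_apply,
      ptn_regRep_single, ptn_theta_single]
    rw [ptn_aug_apply, Finset.sum_pi_single', if_pos (Finset.mem_univ _), map_mul, ofMul_mul,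
      smul_add]
    abel
  exact LinearMap.congr_fun key x

theorem ptn_theta_augBasis (σ : G) :
    ptn_theta ((ptn_augBasis σ : LinearMap.ker (ptn_aug ℤ G)) : G → ℤ) =
      Additive.ofMul (Abelianization.of σ) := by
  classical
  rw [ptn_augBasis_coe, map_sub, ptn_theta_single, ptn_theta_single]
  simp

/-- `θ` kills `I_G · I_G`. -/
theorem ptn_theta_eq_zero_of_mem_repI (x : LinearMap.ker (ptn_aug ℤ G))
    (hx : x ∈ ptn_repI (Rep.of (ptn_augRep ℤ G))) : ptn_theta (x : G → ℤ) = 0 := by
  rw [ptn_repI_eq_closure] at hx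
  induction hx using AddSubgroup.closure_induction with
  | mem y hy =>
    obtain ⟨g, a, rfl⟩ := hy
    change ptn_theta ((ptn_augRep ℤ G g a - a : LinearMap.ker (ptn_aug ℤ G)) : G → ℤ) = 0
    rw [AddSubgroupClass.coe_sub, ptn_augRep_coe, map_sub, ptn_theta_regRep]
    have ha : ptn_aug ℤ G (a : G → ℤ) = 0 := a.2
    rw [ha]
    simp
  | zero => simp
  | add y z _ _ hy hz => rw [Submodule.coe_add, map_add, hy, hz, add_zero]
  | neg y _ hy => rw [Submodule.coe_neg, map_neg, hy, neg_zero]

end theta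

section main

variable {G : Type} [Group G] [Fintype G] (C : Rep.{0} ℤ G) (u : cocycles₂ C) (P : Subgroup G)

theorem ptn_nakHom_ker_aux (hPm1 : ptn_RepHm1hatTriv (res P.subtype (ptn_splitRep C u)))
    (x : Abelianization G) (hx : ptn_nakHom C u x = 1) : x ^ P.index = 1 := by
  obtain ⟨σ, rfl⟩ := QuotientGroup.mk_surjective x
  change ptn_nakHom C u (Abelianization.of σ) = 1 at hx
  rw [ptn_nakHom_of] at hx
  have h1 : (QuotientAddGroup.mk (⟨ptn_nak C u σ, ptn_nak_isInv C u σ⟩ : ptn_invSub C) :
      ptn_repH0hat C) = 0 := hx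
  rw [QuotientAddGroup.eq_zero_iff, ptn_mem_normSub_iff] at h1
  obtain ⟨c', hc'⟩ := h1
  -- the element of norm zero
  have h2 : ptn_repNorm (ptn_splitRep C u)
      (ptn_splitX C σ - ((c', 0) : C.V × LinearMap.ker (ptn_aug ℤ G))) = 0 := by
    rw [map_sub, ptn_repNorm_splitX, ptn_repNorm_incl, hc']
    simp
  have h3 := ptn_rep_index_smul_mem (ptn_splitRep C u) P hPm1 _ h2
  have h4 := ptn_hom_mem_repI (ptn_splitProj C u) _ h3
  have h5 := ptn_theta_eq_zero_of_mem_repI _ h4
  rw [map_nsmul, ptn_splitProj_apply] at h5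
  have h6 : ((ptn_splitX C σ - ((c', 0) : C.V × LinearMap.ker (ptn_aug ℤ G))).2) =
      ptn_augBasis σ := by
    simp [ptn_splitX]
  rw [h6, AddSubmonoidClass.coe_nsmul, map_nsmul, ptn_theta_augBasis] at h5
  have h7 : Additive.ofMul ((Abelianization.of σ) ^ P.index) = 0 := by
    rw [ofMul_pow]; exact h5
  exact h7

theorem ptn_nakHom_coker_aux (hP0 : ptn_RepH0hatTriv (res P.subtype (ptn_splitRep C u)))
    (y : ptn_repH0hat C) :
    ∃ x : Abelianization G, ptn_nakHom C u x = Multiplicative.ofAdd (P.index • y) := by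
  obtain ⟨⟨a, ha⟩, rfl⟩ := QuotientAddGroup.mk_surjective y
  have ha' : ptn_IsInv C a := ha
  obtain ⟨⟨c', x⟩, hb⟩ := ptn_rep_index_smul_eq_norm (ptn_splitRep C u) P hP0
    ((a, 0) : C.V × LinearMap.ker (ptn_aug ℤ G)) (ptn_isInv_incl C u a ha')
  rw [ptn_repNorm_split] at hb
  have hb1 : ptn_repNorm C c' + ptn_nakLin C u (x : G → ℤ) = P.index • a := by
    have := congrArg Prod.fst hb
    simpa using this
  -- the element of the abelianisation
  refine ⟨∏ σ : G, (Abelianization.of σ) ^ ((x : G → ℤ) σ), ?_⟩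
  rw [map_prod]
  simp_rw [map_zpow, ptn_nakHom_of]
  -- compute in the additive group
  have h1 : ∀ σ : G, (Multiplicative.ofAdd
      (QuotientAddGroup.mk (⟨ptn_nak C u σ, ptn_nak_isInv C u σ⟩ : ptn_invSub C) :
        ptn_repH0hat C)) ^ ((x : G → ℤ) σ) =
      Multiplicative.ofAdd (QuotientAddGroup.mk
        (((x : G → ℤ) σ) • (⟨ptn_nak C u σ, ptn_nak_isInv C u σ⟩ : ptn_invSub C))) := by
    intro σ
    rw [← ofAdd_zsmul, ← QuotientAddGroup.mk_zsmul]
  rw [Finset.prod_congr rfl fun σ _ => h1 σ, ← ofAdd_sum, ← QuotientAddGroup.mk_sum]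
  congr 1
  rw [← QuotientAddGroup.mk_nsmul, QuotientAddGroup.eq, ptn_mem_normSub_iff]
  refine ⟨c', ?_⟩
  rw [AddSubgroup.coe_add, AddSubgroup.coe_neg, AddSubgroup.coe_nsmul]
  change _ = -(↑(∑ σ : G, ((x : G → ℤ) σ) • (⟨ptn_nak C u σ, ptn_nak_isInv C u σ⟩ : ptn_invSub C)) : C.V) + P.index • a
  rw [AddSubmonoidClass.coe_finsetSum]
  have h2 : ptn_nakLin C u (x : G → ℤ) =
      ∑ σ : G, (((x : G → ℤ) σ • (⟨ptn_nak C u σ, ptn_nak_isInv C u σ⟩ : ptn_invSub C) :
        ptn_invSub C) : C.V) := by
    rw [ptn_nakLin, Fintype.linearCombination_apply]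
    refine Finset.sum_congr rfl fun σ _ => ?_
    rw [AddSubgroup.coe_zsmul]
    exact int_smul_eq_zsmul C.hV2 _ _
  rw [← h2, ← hb1]
  abel

end main

section general

universe u

theorem ptn_isZero_res_of_injective {k G H : Type u} [CommRing k] [Group G] [Group H]
    (A : Rep k G) (f : H →* G) (hf : Function.Injective f) (n : ℕ)
    (h : Limits.IsZero (groupCohomology (res f.range.subtype A) n)) :
    Limits.IsZero (groupCohomology (res f A) n) := by
  have e : groupCohomology (res f A) n ≅ groupCohomology (res f.range.subtype A) n :=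
    mapIso (A := res f.range.subtype A) (B := res f A) (MonoidHom.ofInjective hf)
      (LinearEquiv.refl k A.V) (fun g => rfl) n
  exact h.of_iso e

end general

section classModule

variable {G : Type} [Group G] [Fintype G] {C : Rep.{0} ℤ G} {𝒰 : Set (Subgroup G)}
  (c : ptc_ClassModuleOn 𝒰 C)

/-- The splitting module of a class module. -/
noncomputable abbrev ptn_splitOf : Rep ℤ G := ptn_splitRep C c.uCocycle

theorem ptn_splitOf_isZero_H1 {U : Subgroup G} (hU : U ∈ 𝒰) :
    Limits.IsZero (groupCohomology (res U.subtype (ptn_splitOf c)) 1) := by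
  apply ptn_isZero_H1_splitRep C c.uCocycle U
  · intro z
    obtain ⟨b, hb⟩ := c.h1 U hU z.2
    refine ⟨b, fun s => ?_⟩
    have := congr_fun hb s
    simpa [d₀₁] using this.symm
  · intro m v hv
    apply c.h2ord U hU m
    refine ⟨v, ?_⟩
    funext ⟨s, t⟩
    have := hv s t
    change m • (c.u ((s : G), (t : G)) : C.V) = _ at this
    simpa [d₁₂] using this.symm

theorem ptn_splitOf_isZero_H2 {U : Subgroup G} (hU : U ∈ 𝒰) :
    Limits.IsZero (groupCohomology (res U.subtype (ptn_splitOf c)) 2) := by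
  apply ptn_isZero_H2_splitRep C c.uCocycle U
  intro f
  obtain ⟨n, v, hv⟩ := c.h2gen U hU f f.2
  refine ⟨n, v, fun s t => ?_⟩
  have := congr_fun hv (s, t)
  have h2 : (f : U × U → C.V) (s, t) - n • (c.u ((s : G), (t : G)) : C.V) =
      C.ρ s (v t) - v (s * t) + v s := by
    simpa [d₁₂] using this.symm
  change (f : U × U → C.V) (s, t) = n • (c.u ((s : G), (t : G)) : C.V) + _
  rw [← h2]; abel

/-- If all subgroups of `P` belong to the family, the splitting module restricted to `P`
satisfies the hypotheses of Nakayama's criterion. -/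
theorem ptn_splitOf_H12Triv (P : Subgroup G) (hP : ∀ W : Subgroup G, W ≤ P → W ∈ 𝒰) :
    ptn_H12Triv (res P.subtype (ptn_splitOf c)) := by
  intro W
  have hW : (P.subtype.comp W.subtype).range ∈ 𝒰 := by
    apply hP
    rintro _ ⟨w, rfl⟩
    exact (w : P).2
  exact ⟨ptn_isZero_res_of_injective (ptn_splitOf c) (P.subtype.comp W.subtype)
      (P.subtype_injective.comp W.subtype_injective) 1 (ptn_splitOf_isZero_H1 c hW),
    ptn_isZero_res_of_injective (ptn_splitOf c) (P.subtype.comp W.subtype)
      (P.subtype_injective.comp W.subtype_injective) 2 (ptn_splitOf_isZero_H2 c hW)⟩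

/-- The splitting module of a class module has trivial `Ĥ⁰` and `Ĥ⁻¹` on every subgroup all of
whose subgroups belong to the family. -/
theorem ptn_splitOf_hatTriv (P : Subgroup G) (hP : ∀ W : Subgroup G, W ≤ P → W ∈ 𝒰) :
    ptn_RepH0hatTriv (res P.subtype (ptn_splitOf c)) ∧
      ptn_RepHm1hatTriv (res P.subtype (ptn_splitOf c)) :=
  ptn_repNakayama (res P.subtype (ptn_splitOf c)) (ptn_splitOf_H12Triv c P hP)

/-- The kernel of the Nakayama map is killed by the index of `P`. -/
theorem ptn_nakHom_ker (P : Subgroup G) (hP : ∀ W : Subgroup G, W ≤ P → W ∈ 𝒰)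
    (x : Abelianization G) (hx : ptn_nakHom C c.uCocycle x = 1) : x ^ P.index = 1 :=
  ptn_nakHom_ker_aux C c.uCocycle P (ptn_splitOf_hatTriv c P hP).2 x hx

/-- The cokernel of the Nakayama map is killed by the index of `P`. -/
theorem ptn_nakHom_coker (P : Subgroup G) (hP : ∀ W : Subgroup G, W ≤ P → W ∈ 𝒰)
    (y : ptn_repH0hat C) :
    ∃ x : Abelianization G, ptn_nakHom C c.uCocycle x = Multiplicative.ofAdd (P.index • y) :=
  ptn_nakHom_coker_aux C c.uCocycle P (ptn_splitOf_hatTriv c P hP).1 y

end classModule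

section reciprocity

variable {G : Type} [Group G] [Fintype G] {C : Rep.{0} ℤ G}

/-- **Abstract reciprocity law** (Tate's theorem in degree `-2`): for a class module `C` of the
finite group `G` the Nakayama map `G^ab → C^G / N_G C` is an isomorphism. -/
theorem ptn_nakHom_bijective (c : ptc_ClassModuleFull C) :
    Function.Bijective (ptn_nakHom C c.uCocycle) := by
  have hP : ∀ W : Subgroup G, W ≤ (⊤ : Subgroup G) → W ∈ (Set.univ : Set (Subgroup G)) :=
    fun _ _ => Set.mem_univ _
  constructor
  · rw [injective_iff_map_eq_one]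
    intro x hx
    have := ptn_nakHom_ker c ⊤ hP x hx
    simpa using this
  · intro y
    obtain ⟨x, hx⟩ := ptn_nakHom_coker c ⊤ hP (Multiplicative.toAdd y)
    refine ⟨x, ?_⟩
    rw [hx, Subgroup.index_top, one_smul]
    rfl

/-- `p`-part of the abstract reciprocity law: for a class module at `p`, kernel and cokernel of
the Nakayama map are killed by the index of a Sylow `p`-subgroup (which is prime to `p`). -/
theorem ptn_nakHom_ker_sylow (p : ℕ) [Fact p.Prime] (c : ptc_ClassModule p C) (P : Sylow p G)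
    (x : Abelianization G) (hx : ptn_nakHom C c.uCocycle x = 1) :
    x ^ (P : Subgroup G).index = 1 :=
  ptn_nakHom_ker c P (fun _ hW => P.isPGroup'.to_le hW) x hx

theorem ptn_nakHom_coker_sylow (p : ℕ) [Fact p.Prime] (c : ptc_ClassModule p C) (P : Sylow p G)
    (y : ptn_repH0hat C) :
    ∃ x : Abelianization G,
      ptn_nakHom C c.uCocycle x = Multiplicative.ofAdd ((P : Subgroup G).index • y) :=
  ptn_nakHom_coker c P (fun _ hW => P.isPGroup'.to_le hW) y

end reciprocity

end Fermat.Agent.Lib.PT
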