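/-
S55 (Poitou–Tate long haul), (G8) transport (TR1): for an open subgroup `U` of `G_ℚ` with fixed
field `F`,  `#(𝒞_S^U / p) = [J_F : Fˣ · U_{F,S} · J_F^p]`, through `ι_F : C_S(F) ≃ 𝒞_S^U`.
-/
import Fermat.Agent.Lib.PT.GModInvC
import Fermat.Agent.Lib.PT.ClsKummer

set_option autoImplicit false
set_option linter.unusedVariables false
set_option linter.unusedSectionVars false
set_option linter.style.haveILetI false

noncomputable section

namespace Fermat.Agent.Lib.PT

open IntermediateField

local notation "Qbar" => AlgebraicClosure ℚ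
local notation "GQ" => (AlgebraicClosure ℚ ≃ₐ[ℚ] AlgebraicClosure ℚ)

/-! ### Generalities on `p`-th powers -/

section Pow

/-- the index of the `p`-th powers of a quotient `G ⧸ N` is the index of `N · G^p` -/
theorem cfh_index_pow_quotient {G : Type*} [CommGroup G] (N : Subgroup G) (p : ℕ) :
    (powMonoidHom p : G ⧸ N →* G ⧸ N).range.index =
      (N ⊔ (powMonoidHom p : G →* G).range).index := by
  rw [← Subgroup.index_comap_of_surjective _ (QuotientGroup.mk'_surjective N)]
  congr 1
  ext x
  rw [Subgroup.mem_comap, Subgroup.mem_sup]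
  constructor
  · rintro ⟨c, hc⟩
    obtain ⟨y, rfl⟩ := QuotientGroup.mk_surjective c
    have h1 : (QuotientGroup.mk (y ^ p) : G ⧸ N) = QuotientGroup.mk x := hc
    have h2 : (y ^ p)⁻¹ * x ∈ N := QuotientGroup.eq.1 h1
    exact ⟨(y ^ p)⁻¹ * x, h2, y ^ p, ⟨y, rfl⟩, by rw [mul_comm, mul_inv_cancel_left]⟩
  · rintro ⟨n, hn, z, ⟨y, rfl⟩, rfl⟩
    refine ⟨QuotientGroup.mk y, ?_⟩
    show (QuotientGroup.mk y : G ⧸ N) ^ p = QuotientGroup.mk' N (n * y ^ p)
    have hn1 : (QuotientGroup.mk' N) n = 1 := (QuotientGroup.eq_one_iff n).2 hn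
    rw [map_mul, hn1, one_mul]
    rfl

/-- `p`-multiples in `Additive G` versus `p`-th powers in `G` -/
theorem cfh_index_nsmul_additive {G : Type*} [CommGroup G] (p : ℕ) :
    (nsmulAddMonoidHom (α := Additive G) p).range.index =
      (powMonoidHom p : G →* G).range.index := by
  rw [← Subgroup.index_toAddSubgroup]
  rfl

/-- transport of the index of the `p`-multiples along an additive equivalence -/
theorem cfh_index_nsmul_equiv {A B : Type*} [AddCommGroup A] [AddCommGroup B] (e : A ≃+ B)
    (p : ℕ) : (nsmulAddMonoidHom (α := B) p).range.index =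
      (nsmulAddMonoidHom (α := A) p).range.index := by
  rw [← AddSubgroup.index_map_equiv (nsmulAddMonoidHom (α := A) p).range e]
  congr 1
  ext b
  constructor
  · rintro ⟨d, rfl⟩
    refine ⟨p • e.symm d, ⟨e.symm d, rfl⟩, ?_⟩
    show e (p • e.symm d) = p • d
    rw [map_nsmul, AddEquiv.apply_symm_apply]
  · rintro ⟨a, ⟨a', rfl⟩, rfl⟩
    refine ⟨e a', ?_⟩
    show p • e a' = e (p • a')
    rw [map_nsmul]

/-- the same for a bijective additive homomorphism -/
theorem cfh_index_nsmul_of_bijective {A B : Type*} [AddCommGroup A] [AddCommGroup B] (f : A →+ B)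
    (hf : Function.Bijective f) (p : ℕ) : (nsmulAddMonoidHom (α := B) p).range.index =
      (nsmulAddMonoidHom (α := A) p).range.index :=
  cfh_index_nsmul_equiv (AddEquiv.ofBijective f hf) p

end Pow

/-! ### The transport -/

variable {S : Finset Nat.Primes}

section Transport

variable (hS : S.Nonempty) (F : IntermediateField ℚ Qbar) (hF : F.IsUnramifiedOutside S)
  {U : Subgroup GQ} (hfix : F.fixingSubgroup = U)

include hS hfix in
lemma cfh_iota_mem_invariants (c : ptj_CT F S) :
    ptj_CSof (ptj_iota S F (ptj_isUnrE_field F hF) c) ∈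
      (ptd_resRep (ptj_CSrep S) U).invariants := by
  rw [Representation.mem_invariants]
  intro u
  have hu : (u : GQ) ∈ F.fixingSubgroup := by rw [hfix]; exact u.2
  have h1 := (ptj_mem_range_iota_field_iff_invariant F hS hF _).1 ⟨c, rfl⟩ (u : GQ) hu
  show ptj_CSof ((u : GQ) • _) = _
  exact congrArg ptj_CSof h1

/-- `ι_F` as an additive map into the `U`-invariants of `𝒞_S`, `U = Fix F` -/
def cfh_iotaInv : Additive (ptj_CT F S) →+ (ptd_resRep (ptj_CSrep S) U).invariants :=
  AddMonoidHom.mk'
    (fun x => ⟨ptj_CSof (ptj_iota S F (ptj_isUnrE_field F hF) (Additive.toMul x)),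
      cfh_iota_mem_invariants hS F hF hfix (Additive.toMul x)⟩)
    (fun x y => by
      apply Subtype.ext
      show ptj_CSof (ptj_iota S F (ptj_isUnrE_field F hF) (Additive.toMul x * Additive.toMul y)) = _
      rw [map_mul]; rfl)

lemma cfh_iotaInv_coe (x : Additive (ptj_CT F S)) :
    ((cfh_iotaInv hS F hF hfix x : (ptd_resRep (ptj_CSrep S) U).invariants) : ptj_CS S) =
      ptj_CSof (ptj_iota S F (ptj_isUnrE_field F hF) (Additive.toMul x)) := rfl

theorem cfh_iotaInv_bijective : Function.Bijective (cfh_iotaInv hS F hF hfix) := by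
  constructor
  · intro x y hxy
    have h1 := congrArg (fun b : (ptd_resRep (ptj_CSrep S) U).invariants =>
      ptj_CSof.symm (b : ptj_CS S)) hxy
    have h2 : ptj_iota S F (ptj_isUnrE_field F hF) (Additive.toMul x) =
        ptj_iota S F (ptj_isUnrE_field F hF) (Additive.toMul y) := h1
    exact congrArg Additive.ofMul (ptj_iota_injective hS _ h2)
  · intro b
    have hb := (Representation.mem_invariants _ _).1 b.2
    have hinv : ∀ γ ∈ F.fixingSubgroup,
        γ • ptj_CSof.symm (b : ptj_CS S) = ptj_CSof.symm (b : ptj_CS S) := by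
      intro γ hγ
      rw [hfix] at hγ
      have := hb ⟨γ, hγ⟩
      exact congrArg ptj_CSof.symm this
    obtain ⟨c, hc⟩ := (ptj_mem_range_iota_field_iff_invariant F hS hF _).2 hinv
    refine ⟨Additive.ofMul c, Subtype.ext ?_⟩
    rw [cfh_iotaInv_coe, toMul_ofMul, hc]
    rfl

include hS hF hfix in
/-- **(TR1)**, field form: `#(𝒞_S^U / p) = [J_F : Fˣ · U_{F,S} · J_F^p]` for `U = Fix F`. -/
theorem cfh_index_pInv_field (p : ℕ) :
    (ptl_pInv (ptd_resRep (ptj_CSrep S) U) p).index =
      (ptj_princUT F S ⊔ (powMonoidHom p : ptj_J F →* ptj_J F).range).index := by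
  have h1 := cfh_index_nsmul_of_bijective (A := Additive (ptj_CT F S))
    (B := (ptd_resRep (ptj_CSrep S) U).invariants) (cfh_iotaInv hS F hF hfix)
    (cfh_iotaInv_bijective hS F hF hfix) p
  have h2 := cfh_index_nsmul_additive (G := ptj_CT F S) p
  have h3 := cfh_index_pow_quotient (ptj_princUT F S) p
  unfold ptl_pInv
  exact h1.trans (h2.trans h3)

end Transport

/-- **(TR1)**: `#(𝒞_S^U / p) = [J_F : Fˣ · U_{F,S} · J_F^p]`, `F` the fixed field of the open
subgroup `U`. -/
theorem cfh_index_pInv (hS : S.Nonempty) {U : Subgroup GQ} (hU : (pta_levelsS S).IsOpen U)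
    (p : ℕ) :
    (ptl_pInv (ptd_resRep (ptj_CSrep S) U) p).index =
      (ptj_princUT (IntermediateField.fixedField U) S ⊔
        (powMonoidHom p : ptj_J (IntermediateField.fixedField U) →*
          ptj_J (IntermediateField.fixedField U)).range).index :=
  cfh_index_pInv_field hS (IntermediateField.fixedField U)
    (ptj_fixedField_isUnramifiedOutside hU) (ptj_fixingSubgroup_fixedField hU) p

end Fermat.Agent.Lib.PT

end
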